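/-
S17 (Mordell–Weil for `JZero N`): the FORMAL ENDGAME of the Plücker-height track
(findings #2583 / #2745 / #2779).  Mathlib-only, spec-independent.

The geometry of the Plücker track produces a real function `Ψ` on representatives (effective
reduced divisors of degrees `d, 2d, 3d`; `Ψ D = h(W_{deg D + c₀}(D)) - r * H(D)`) with

* class invariance `(1a)`: `cls D = cls D' → |Ψ D - Ψ D'| ≤ C₁`;
* the seven-term cube identity for admissible triples (pairwise disjoint reduced `D₁, D₂, D₃`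
  of degree `d` and their partial sums): the output of `(V-alg)` + `(V-ht)` in the form of #2779;
* the moving lemma: every triple of classes has an admissible triple of representatives.

This file turns these into finite generation:

* `thirdDiff`, `CubeBound` : the (bounded) cube law for a function `ψ : G → ℝ`;
* `exists_classFunction` : class invariance gives a class function `ψ` with `|Ψ D - ψ (cls D)| ≤ C₁`;
* `cubeBound_of_representatives` : cube identity on representatives + moving lemma ⟹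
  `CubeBound ψ (7 * C₁ + C₂)`;
* `quasiParallelogram_of_cubeBound` : `h x = ψ x + ψ (-x)` satisfies the quasi-parallelogram law;
* `northcott_of_translates` : Northcott for a quasi-quadratic `h` from a lower bound by a
  Northcott function on finitely many translates (special classes by translation, #2741 (E2));
* `fg_of_cubeBound` : bounded cube law + Northcott for `ψ x + ψ (-x)` + finiteness of `G / 2G`
  ⟹ `AddGroup.FG G`  (via Mathlib's `AddCommGroup.fg_of_descent'`);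
* `fg_of_representatives` : the same directly from the data on representatives.

ONE-SIDED FORMS (findings #2843 (N1)): only the UPPER bound of the third difference is needed.

* `CubeUpper`, `symm_superParallelogram_of_cubeUpper` : one-sided cube law ⟹
  `2 (h x + h y) - C ≤ h (x + y) + h (x - y)` for `h x = ψ x + ψ (-x)`;
* `fg_of_superParallelogram` : one-sided descent (Northcott + super-parallelogram inequality +
  finiteness of `G / 2G` ⟹ `AddGroup.FG G`; no translation bound, no nonnegativity);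
* `fg_of_cubeUpper`, `cubeUpper_of_representatives`, `fg_of_representatives_upper`;
* `finite_of_small_representatives` : Northcott in representative form from a lower bound
  `NE E - c ≤ Ψ D` by a Northcott function on small representatives `E` of the class `-cls D`;
* `fg_of_plueckerData` : the whole endgame from (1a), the upper seven-term bound, the lower
  bound by small representatives, and weak Mordell–Weil at `2`.

ANY LEVEL `n ≥ 2` (captain rulings R7 / R13; convexity lemmas of helper2094): the weak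
Mordell–Weil input may be finiteness of `G / n • G` for any `n ≥ 2`.

* `superParallelogram_nsmul_add`, `fg_of_contraction_nsmul`, `fg_of_superParallelogram_nsmul`;
* `fg_of_cubeUpper_nsmul`, `fg_of_cubeBound_nsmul`;
* `fg_of_representatives_upper_nsmul`, `fg_of_representatives_nsmul`, `fg_of_plueckerData_nsmul`.
-/
import Mathlib

set_option autoImplicit false

namespace Fermat.Agent.S17.helper2795

section Cube

variable {G : Type*} [AddCommGroup G]

/-- The third difference of a real function on an additive commutative group (without the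
constant term `ψ 0`). -/
def thirdDiff (ψ : G → ℝ) (x y z : G) : ℝ :=
  ψ (x + y + z) - ψ (x + y) - ψ (x + z) - ψ (y + z) + ψ x + ψ y + ψ z

/-- The bounded cube law: all third differences of `ψ` are bounded by `C` in absolute value. -/
def CubeBound (ψ : G → ℝ) (C : ℝ) : Prop :=
  ∀ x y z : G, |thirdDiff ψ x y z| ≤ C

/-- The symmetrisation `x ↦ ψ x + ψ (-x)`. -/
def symm (ψ : G → ℝ) (x : G) : ℝ := ψ x + ψ (-x)

lemma symm_neg (ψ : G → ℝ) (x : G) : symm ψ (-x) = symm ψ x := by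
  unfold symm
  rw [neg_neg, add_comm]

/-- The quasi-parallelogram law for a function `h`, with defect bounded by `C`. -/
def QuasiParallelogram (h : G → ℝ) (C : ℝ) : Prop :=
  ∀ x y : G, |h (x + y) + h (x - y) - 2 * (h x + h y)| ≤ C

/-- **Cube law ⟹ quasi-parallelogram law** for the symmetrisation. Precisely,
`h x = ψ x + ψ (-x) - ψ 0` has parallelogram defect at most `2 * C`. -/
theorem quasiParallelogram_of_cubeBound {ψ : G → ℝ} {C : ℝ} (hψ : CubeBound ψ C) :
    QuasiParallelogram (fun x => symm ψ x - ψ 0) (2 * C) := by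
  intro x y
  have h1 := hψ x y (-y)
  have h2 := hψ (-x) (-y) y
  have e1 : x + y + -y = x := by abel
  have e2 : x + -y = x - y := by abel
  have e3 : y + -y = 0 := by abel
  have e4 : -x + -y + y = -x := by abel
  have e5 : -x + -y = -(x + y) := by abel
  have e6 : -x + y = -(x - y) := by abel
  have e7 : -y + y = 0 := by abel
  unfold thirdDiff at h1 h2
  rw [e1, e2, e3] at h1
  rw [e4, e5, e6, e7] at h2
  have key : symm ψ (x + y) - ψ 0 + (symm ψ (x - y) - ψ 0)
      - 2 * (symm ψ x - ψ 0 + (symm ψ y - ψ 0))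
      = -((ψ x - ψ (x + y) - ψ (x - y) - ψ 0 + ψ x + ψ y + ψ (-y))
        + (ψ (-x) - ψ (-(x + y)) - ψ (-(x - y)) - ψ 0 + ψ (-x) + ψ (-y) + ψ y)) := by
    unfold symm
    ring
  show |symm ψ (x + y) - ψ 0 + (symm ψ (x - y) - ψ 0)
      - 2 * (symm ψ x - ψ 0 + (symm ψ y - ψ 0))| ≤ 2 * C
  rw [key, abs_neg]
  calc |(ψ x - ψ (x + y) - ψ (x - y) - ψ 0 + ψ x + ψ y + ψ (-y))
        + (ψ (-x) - ψ (-(x + y)) - ψ (-(x - y)) - ψ 0 + ψ (-x) + ψ (-y) + ψ y)|
      ≤ |ψ x - ψ (x + y) - ψ (x - y) - ψ 0 + ψ x + ψ y + ψ (-y)|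
        + |ψ (-x) - ψ (-(x + y)) - ψ (-(x - y)) - ψ 0 + ψ (-x) + ψ (-y) + ψ y| := abs_add_le _ _
    _ ≤ C + C := add_le_add h1 h2
    _ = 2 * C := by ring

/-- A quasi-parallelogram law survives a shift by a constant (with a larger defect). -/
theorem QuasiParallelogram.add_const {h : G → ℝ} {C : ℝ} (hh : QuasiParallelogram h C) (k : ℝ) :
    QuasiParallelogram (fun x => h x + k) (C + 2 * |k|) := by
  intro x y
  have h1 := hh x y
  have key : h (x + y) + k + (h (x - y) + k) - 2 * (h x + k + (h y + k))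
      = (h (x + y) + h (x - y) - 2 * (h x + h y)) + (-2 * k) := by ring
  show |h (x + y) + k + (h (x - y) + k) - 2 * (h x + k + (h y + k))| ≤ C + 2 * |k|
  rw [key]
  calc |(h (x + y) + h (x - y) - 2 * (h x + h y)) + (-2 * k)|
      ≤ |h (x + y) + h (x - y) - 2 * (h x + h y)| + |-2 * k| := abs_add_le _ _
    _ ≤ C + 2 * |k| := by
        have : |-2 * k| = 2 * |k| := by rw [abs_mul]; norm_num
        rw [this]
        exact add_le_add h1 le_rfl

/-- A function with finite sublevel sets is bounded below. -/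
theorem exists_lower_bound_of_finite_sublevel {α : Type*} (s : α → ℝ)
    (hs : ∀ B : ℝ, {x : α | s x ≤ B}.Finite) : ∃ m : ℝ, ∀ x, m ≤ s x := by
  classical
  have hfin := hs 0
  by_cases hne : {x : α | s x ≤ 0}.Nonempty
  · obtain ⟨x₀, -, hx₀⟩ := Set.exists_min_image _ s hfin hne
    refine ⟨min 0 (s x₀), fun x => ?_⟩
    by_cases hx : s x ≤ 0
    · exact (min_le_right _ _).trans (hx₀ x hx)
    · exact (min_le_left _ _).trans (le_of_lt (not_le.mp hx))
  · refine ⟨0, fun x => ?_⟩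
    by_contra hx
    exact hne ⟨x, le_of_lt (not_le.mp hx)⟩

/-- **Finite generation from the cube law.** If `ψ : G → ℝ` has bounded third differences,
`x ↦ ψ x + ψ (-x)` has finite sublevel sets (Northcott) and `2 • G` has finite index
(weak Mordell–Weil), then `G` is finitely generated. -/
theorem fg_of_cubeBound {ψ : G → ℝ} {C : ℝ} (hψ : CubeBound ψ C)
    (hN : ∀ B : ℝ, {x : G | symm ψ x ≤ B}.Finite)
    (hweak : (nsmulAddMonoidHom (α := G) 2).range.FiniteIndex) : AddGroup.FG G := by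
  obtain ⟨m, hm⟩ := exists_lower_bound_of_finite_sublevel (symm ψ) hN
  -- the height
  set h : G → ℝ := fun x => symm ψ x - m with hdef
  have hnonneg : ∀ x, 0 ≤ h x := fun x => sub_nonneg.mpr (hm x)
  have hpar0 := quasiParallelogram_of_cubeBound hψ
  have hpar1 := hpar0.add_const (ψ 0 - m)
  have hpar : ∀ x y, |h (x + y) + h (x - y) - 2 * (h x + h y)| ≤ 2 * C + 2 * |ψ 0 - m| := by
    intro x y
    have := hpar1 x y
    have e : ∀ z, symm ψ z - ψ 0 + (ψ 0 - m) = h z := fun z => by rw [hdef]; ring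
    simp only [e] at this
    exact this
  have hNh : Northcott h := ⟨fun B => by
    refine (hN (B + m)).subset fun x hx => ?_
    have hx' : h x ≤ B := hx
    show symm ψ x ≤ B + m
    rw [hdef] at hx'
    linarith⟩
  exact AddCommGroup.fg_of_descent' hweak hnonneg hpar

end Cube

section Representatives

variable {G : Type*} {Dv : Type*}

/-- **Class invariance gives a class function.** If `Ψ` on representatives changes by at most
`C₁` inside a class, there is `ψ` on classes with `|Ψ D - ψ (cls D)| ≤ C₁` for all `D`. -/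
theorem exists_classFunction (cls : Dv → G) (Ψ : Dv → ℝ) {C₁ : ℝ}
    (hinv : ∀ D D' : Dv, cls D = cls D' → |Ψ D - Ψ D'| ≤ C₁) :
    ∃ ψ : G → ℝ, ∀ D : Dv, |Ψ D - ψ (cls D)| ≤ C₁ := by
  classical
  refine ⟨fun x => if hx : ∃ D, cls D = x then Ψ hx.choose else 0, fun D => ?_⟩
  have hx : ∃ D', cls D' = cls D := ⟨D, rfl⟩
  simp only [dif_pos hx]
  exact hinv D hx.choose hx.choose_spec.symm

variable [AddCommGroup G]

/-- **Cube law from representatives.** Assume `|Ψ D - ψ (cls D)| ≤ C₁` on representatives, and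
that every triple of classes `x, y, z` has representatives `D₁, D₂, D₃, D₁₂, D₁₃, D₂₃, D₁₂₃` of
`x, y, z, x + y, x + z, y + z, x + y + z` (an admissible triple and its partial sums) for which the
seven-term identity holds up to `C₂`. Then `ψ` satisfies the cube law with bound `7 * C₁ + C₂`. -/
theorem cubeBound_of_representatives (cls : Dv → G) (Ψ : Dv → ℝ) (ψ : G → ℝ) {C₁ C₂ : ℝ}
    (hcls : ∀ D : Dv, |Ψ D - ψ (cls D)| ≤ C₁)
    (hrep : ∀ x y z : G, ∃ D₁ D₂ D₃ D₁₂ D₁₃ D₂₃ D₁₂₃ : Dv,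
      cls D₁ = x ∧ cls D₂ = y ∧ cls D₃ = z ∧ cls D₁₂ = x + y ∧ cls D₁₃ = x + z ∧
      cls D₂₃ = y + z ∧ cls D₁₂₃ = x + y + z ∧
      |Ψ D₁₂₃ - Ψ D₁₂ - Ψ D₁₃ - Ψ D₂₃ + Ψ D₁ + Ψ D₂ + Ψ D₃| ≤ C₂) :
    CubeBound ψ (7 * C₁ + C₂) := by
  intro x y z
  obtain ⟨D₁, D₂, D₃, D₁₂, D₁₃, D₂₃, D₁₂₃, h1, h2, h3, h12, h13, h23, h123, hcube⟩ := hrep x y z
  have a1 := hcls D₁
  have a2 := hcls D₂
  have a3 := hcls D₃
  have a12 := hcls D₁₂
  have a13 := hcls D₁₃
  have a23 := hcls D₂₃
  have a123 := hcls D₁₂₃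
  rw [h1] at a1
  rw [h2] at a2
  rw [h3] at a3
  rw [h12] at a12
  rw [h13] at a13
  rw [h23] at a23
  rw [h123] at a123
  rw [abs_le] at a1 a2 a3 a12 a13 a23 a123 hcube
  unfold thirdDiff
  rw [abs_le]
  constructor <;> linarith [a1.1, a1.2, a2.1, a2.2, a3.1, a3.2, a12.1, a12.2, a13.1, a13.2,
    a23.1, a23.2, a123.1, a123.2, hcube.1, hcube.2]

/-- **Finite generation from Plücker data on representatives.** Class invariance, the cube
identity on admissible triples with the moving lemma, Northcott in representative form (for every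
`B` only finitely many classes `x` have representatives `D` of `x` and `D'` of `-x` with
`Ψ D + Ψ D' ≤ B`), surjectivity of `cls`, and weak Mordell–Weil at `2` give finite generation. -/
theorem fg_of_representatives (cls : Dv → G) (Ψ : Dv → ℝ) {C₁ C₂ : ℝ}
    (hinv : ∀ D D' : Dv, cls D = cls D' → |Ψ D - Ψ D'| ≤ C₁)
    (hrep : ∀ x y z : G, ∃ D₁ D₂ D₃ D₁₂ D₁₃ D₂₃ D₁₂₃ : Dv,
      cls D₁ = x ∧ cls D₂ = y ∧ cls D₃ = z ∧ cls D₁₂ = x + y ∧ cls D₁₃ = x + z ∧
      cls D₂₃ = y + z ∧ cls D₁₂₃ = x + y + z ∧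
      |Ψ D₁₂₃ - Ψ D₁₂ - Ψ D₁₃ - Ψ D₂₃ + Ψ D₁ + Ψ D₂ + Ψ D₃| ≤ C₂)
    (hN : ∀ B : ℝ, {x : G | ∃ D D' : Dv, cls D = x ∧ cls D' = -x ∧ Ψ D + Ψ D' ≤ B}.Finite)
    (hweak : (nsmulAddMonoidHom (α := G) 2).range.FiniteIndex) : AddGroup.FG G := by
  obtain ⟨ψ, hψ⟩ := exists_classFunction cls Ψ hinv
  have hcube := cubeBound_of_representatives cls Ψ ψ hψ hrep
  have hsurj : ∀ x : G, ∃ D : Dv, cls D = x := fun x => by
    obtain ⟨D₁, -, -, -, -, -, -, h1, -⟩ := hrep x 0 0
    exact ⟨D₁, h1⟩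
  refine fg_of_cubeBound hcube (fun B => ?_) hweak
  refine (hN (B + 2 * C₁)).subset fun x hx => ?_
  have hx' : symm ψ x ≤ B := hx
  obtain ⟨D, hD⟩ := hsurj x
  obtain ⟨D', hD'⟩ := hsurj (-x)
  refine ⟨D, D', hD, hD', ?_⟩
  have b1 := hψ D
  have b2 := hψ D'
  rw [hD] at b1
  rw [hD'] at b2
  rw [abs_le] at b1 b2
  unfold symm at hx'
  linarith [b1.1, b1.2, b2.1, b2.2]

end Representatives

section Northcott

variable {G : Type*} [AddCommGroup G]

/-- **Northcott by translation.** Let `h` satisfy the quasi-parallelogram law, let `T₀` be a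
finite set of translations and `N₁` a function with finite sublevel sets. If every `x` has a
translation `t ∈ T₀` with `N₁ (x + t) - c ≤ h (x + t)` and `-c ≤ h (x - t)` (both translates
"nonspecial"), then `h` has finite sublevel sets. -/
theorem northcott_of_translates {h : G → ℝ} {C : ℝ} (hpar : QuasiParallelogram h C)
    (T₀ : Finset G) (N₁ : G → ℝ) (hN₁ : ∀ B : ℝ, {x : G | N₁ x ≤ B}.Finite) (c : ℝ)
    (hgood : ∀ x : G, ∃ t ∈ T₀, N₁ (x + t) - c ≤ h (x + t) ∧ -c ≤ h (x - t)) (B : ℝ) :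
    {x : G | h x ≤ B}.Finite := by
  classical
  -- a bound for `h` on `T₀`
  obtain ⟨M, hM⟩ : ∃ M : ℝ, ∀ t ∈ T₀, h t ≤ M := by
    by_cases hT : T₀.Nonempty
    · exact ⟨T₀.sup' hT h, fun t ht => Finset.le_sup' h ht⟩
    · exact ⟨0, fun t ht => absurd ⟨t, ht⟩ hT⟩
  set B' : ℝ := 2 * B + 2 * M + C + 2 * c with hB'
  have hfin : (⋃ t ∈ T₀, (fun y : G => y - t) '' {y : G | N₁ y ≤ B'}).Finite :=
    Set.Finite.biUnion T₀.finite_toSet fun t _ => (hN₁ B').image _
  refine hfin.subset fun x hx => ?_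
  have hx' : h x ≤ B := hx
  obtain ⟨t, ht, h1, h2⟩ := hgood x
  have hp := hpar x t
  rw [abs_le] at hp
  have hMt := hM t ht
  refine Set.mem_iUnion₂.mpr ⟨t, ht, x + t, ?_, add_sub_cancel_right x t⟩
  show N₁ (x + t) ≤ B'
  rw [hB']
  linarith [hp.1, hp.2]

end Northcott

section OneSided

variable {G : Type*} [AddCommGroup G]

/-- The ONE-SIDED cube law: all third differences of `ψ` are bounded ABOVE by `C`. -/
def CubeUpper (ψ : G → ℝ) (C : ℝ) : Prop :=
  ∀ x y z : G, thirdDiff ψ x y z ≤ C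

lemma CubeBound.cubeUpper {ψ : G → ℝ} {C : ℝ} (hψ : CubeBound ψ C) : CubeUpper ψ C :=
  fun x y z => (le_abs_self _).trans (hψ x y z)

/-- **One-sided cube law ⟹ super-parallelogram law** for the symmetrisation:
`2 (h x + h y) - (2 ψ 0 + 2 C) ≤ h (x + y) + h (x - y)` for `h x = ψ x + ψ (-x)`. -/
theorem symm_superParallelogram_of_cubeUpper {ψ : G → ℝ} {C : ℝ} (hψ : CubeUpper ψ C)
    (x y : G) :
    2 * (symm ψ x + symm ψ y) - (2 * ψ 0 + 2 * C) ≤ symm ψ (x + y) + symm ψ (x - y) := by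
  have h1 := hψ x y (-y)
  have h2 := hψ (-x) (-y) y
  have e1 : x + y + -y = x := by abel
  have e2 : x + -y = x - y := by abel
  have e3 : y + -y = 0 := by abel
  have e4 : -x + -y + y = -x := by abel
  have e5 : -x + -y = -(x + y) := by abel
  have e6 : -x + y = -(x - y) := by abel
  have e7 : -y + y = 0 := by abel
  unfold thirdDiff at h1 h2
  rw [e1, e2, e3] at h1
  rw [e4, e5, e6, e7] at h2
  unfold symm
  linarith

/-- **One-sided descent.** If `h : G → ℝ` has finite sublevel sets (Northcott), satisfies the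
ONE-SIDED quasi-parallelogram inequality `2 (h x + h y) - C ≤ h (x + y) + h (x - y)` and `2 • G`
has finite index, then `G` is finitely generated. (No upper bound for `h (x + y) + h (x - y)`,
no translation bound and no nonnegativity are needed.) -/
theorem fg_of_superParallelogram {h : G → ℝ} {C : ℝ}
    (hpar : ∀ x y : G, 2 * (h x + h y) - C ≤ h (x + y) + h (x - y))
    (hN : ∀ B : ℝ, {x : G | h x ≤ B}.Finite)
    (hweak : (nsmulAddMonoidHom (α := G) 2).range.FiniteIndex) : AddGroup.FG G := by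
  classical
  obtain ⟨m, hm⟩ := exists_lower_bound_of_finite_sublevel h hN
  have hNc : Northcott h := ⟨hN⟩
  -- coset representatives of `G / 2G`
  set R : AddSubgroup G := (nsmulAddMonoidHom (α := G) 2).range with hR
  have hfinq : Finite (G ⧸ R) := AddSubgroup.finite_quotient_of_finiteIndex
  let qi : G ⧸ R → G := Function.surjInv QuotientAddGroup.mk_surjective
  let s : Set G := Set.range qi
  have hs : s.Finite := Set.finite_range qi
  -- a bound for `h` on the representatives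
  obtain ⟨M, hM⟩ : ∃ M : ℝ, ∀ g ∈ s, h g ≤ M := by
    by_cases hne : s.Nonempty
    · obtain ⟨g₀, -, hg₀⟩ := Set.exists_max_image s h hs hne
      exact ⟨h g₀, hg₀⟩
    · exact ⟨0, fun g hg => absurd ⟨g, hg⟩ hne⟩
  -- every element is a representative plus a double
  have hdec : ∀ x : G, ∃ g ∈ s, ∃ y : G, x = g + 2 • y := by
    intro x
    refine ⟨qi (QuotientAddGroup.mk x), ⟨_, rfl⟩, ?_⟩
    have h1 : (QuotientAddGroup.mk (qi (QuotientAddGroup.mk x)) : G ⧸ R) = QuotientAddGroup.mk x :=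
      Function.surjInv_eq QuotientAddGroup.mk_surjective _
    have h2 : x - qi (QuotientAddGroup.mk x) ∈ R := by
      have := QuotientAddGroup.eq_iff_sub_mem.mp h1.symm
      exact this
    obtain ⟨y, hy⟩ := h2
    refine ⟨y, ?_⟩
    have hy' : 2 • y = x - qi (QuotientAddGroup.mk x) := hy
    rw [hy']
    abel
  -- the contraction
  set c : ℝ := (M + C - 2 * m) / 2 with hc
  have hcontr : ∀ g ∈ s, ∀ y : G, h y ≤ h (g + 2 • y) / 2 + c := by
    intro g hg y
    have h1 := hpar (y + g) y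
    have e1 : y + g + y = g + 2 • y := by rw [two_nsmul]; abel
    have e2 : y + g - y = g := by abel
    rw [e1, e2] at h1
    have h2 := hM g hg
    have h3 := hm (y + g)
    rw [hc]
    linarith
  let S : Set G := s ∪ {x : G | h x ≤ 2 * c}
  suffices hU : AddSubgroup.closure S = ⊤ from
    AddGroup.fg_iff.mpr ⟨S, hU, hs.union (hN _)⟩
  by_contra H
  have H' : ((AddSubgroup.closure S : AddSubgroup G) : Set G)ᶜ.Nonempty := by
    rw [Set.nonempty_compl]
    intro hall
    exact H (SetLike.coe_injective (by rw [hall, AddSubgroup.coe_top]))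
  obtain ⟨x, hx₁, hx₂⟩ := Northcott.exists_min_image h _ H'
  obtain ⟨g, hg, y, rfl⟩ := hdec x
  by_cases hy : y ∈ AddSubgroup.closure S
  · exact hx₁ ((AddSubgroup.closure S).add_mem (AddSubgroup.subset_closure (Or.inl hg))
      ((AddSubgroup.closure S).nsmul_mem hy 2))
  · have h1 := hx₂ y hy
    have h2 := hcontr g hg y
    have h3 : h (g + 2 • y) ≤ 2 * c := by linarith
    exact hx₁ (AddSubgroup.subset_closure (Or.inr h3))

/-- **Finite generation from the ONE-SIDED cube law.** -/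
theorem fg_of_cubeUpper {ψ : G → ℝ} {C : ℝ} (hψ : CubeUpper ψ C)
    (hN : ∀ B : ℝ, {x : G | symm ψ x ≤ B}.Finite)
    (hweak : (nsmulAddMonoidHom (α := G) 2).range.FiniteIndex) : AddGroup.FG G :=
  fg_of_superParallelogram (h := symm ψ) (C := 2 * ψ 0 + 2 * C)
    (symm_superParallelogram_of_cubeUpper hψ) hN hweak

end OneSided

section RepresentativesOneSided

variable {G : Type*} {Dv : Type*} [AddCommGroup G]

/-- **One-sided cube law from representatives**: as `cubeBound_of_representatives`, but only the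
UPPER bound of the seven-term expression is assumed (this is what the ideal INCLUSION
`Alt₁₂₃ · Alt₁ · Alt₂ · Alt₃ ≤ Alt₁₂ · Alt₁₃ · Alt₂₃` gives). -/
theorem cubeUpper_of_representatives (cls : Dv → G) (Ψ : Dv → ℝ) (ψ : G → ℝ) {C₁ C₂ : ℝ}
    (hcls : ∀ D : Dv, |Ψ D - ψ (cls D)| ≤ C₁)
    (hrep : ∀ x y z : G, ∃ D₁ D₂ D₃ D₁₂ D₁₃ D₂₃ D₁₂₃ : Dv,
      cls D₁ = x ∧ cls D₂ = y ∧ cls D₃ = z ∧ cls D₁₂ = x + y ∧ cls D₁₃ = x + z ∧
      cls D₂₃ = y + z ∧ cls D₁₂₃ = x + y + z ∧
      Ψ D₁₂₃ - Ψ D₁₂ - Ψ D₁₃ - Ψ D₂₃ + Ψ D₁ + Ψ D₂ + Ψ D₃ ≤ C₂) :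
    CubeUpper ψ (7 * C₁ + C₂) := by
  intro x y z
  obtain ⟨D₁, D₂, D₃, D₁₂, D₁₃, D₂₃, D₁₂₃, h1, h2, h3, h12, h13, h23, h123, hcube⟩ := hrep x y z
  have a1 := hcls D₁
  have a2 := hcls D₂
  have a3 := hcls D₃
  have a12 := hcls D₁₂
  have a13 := hcls D₁₃
  have a23 := hcls D₂₃
  have a123 := hcls D₁₂₃
  rw [h1] at a1
  rw [h2] at a2
  rw [h3] at a3
  rw [h12] at a12
  rw [h13] at a13
  rw [h23] at a23
  rw [h123] at a123
  rw [abs_le] at a1 a2 a3 a12 a13 a23 a123
  unfold thirdDiff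
  linarith [a1.1, a1.2, a2.1, a2.2, a3.1, a3.2, a12.1, a12.2, a13.1, a13.2,
    a23.1, a23.2, a123.1, a123.2, hcube]

/-- **Northcott in representative form from small representatives of the opposite class.**
If every representative `D` has a "small" representative `E` of the class `-cls D` (in a second
type `Ev` with a function `NE` having finite sublevel sets) such that `NE E - c ≤ Ψ D`, then
`Ψ` is bounded below and for every `B` only finitely many classes `x` have representatives `D` of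
`x` and `D'` of `-x` with `Ψ D + Ψ D' ≤ B`. -/
theorem finite_of_small_representatives (cls : Dv → G) (Ψ : Dv → ℝ)
    {Ev : Type*} (clsE : Ev → G) (NE : Ev → ℝ) (hNE : ∀ B : ℝ, {E : Ev | NE E ≤ B}.Finite) (c : ℝ)
    (hlow : ∀ D : Dv, ∃ E : Ev, clsE E = -cls D ∧ NE E - c ≤ Ψ D) (B : ℝ) :
    {x : G | ∃ D D' : Dv, cls D = x ∧ cls D' = -x ∧ Ψ D + Ψ D' ≤ B}.Finite := by
  obtain ⟨m, hm⟩ := exists_lower_bound_of_finite_sublevel NE hNE
  have hfin : ((fun E : Ev => -clsE E) '' {E : Ev | NE E ≤ B - m + 2 * c}).Finite :=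
    (hNE _).image _
  refine hfin.subset ?_
  rintro x ⟨D, D', hD, hD', hB⟩
  obtain ⟨E, hE, hE'⟩ := hlow D
  obtain ⟨E', -, hE''⟩ := hlow D'
  refine ⟨E, ?_, ?_⟩
  · show NE E ≤ B - m + 2 * c
    have := hm E'
    linarith
  · show -clsE E = x
    rw [hE, neg_neg, hD]

/-- **Finite generation from Plücker data on representatives, one-sided form.** Class
invariance, the UPPER bound of the seven-term expression on admissible triples with the moving
lemma, Northcott in representative form and weak Mordell–Weil at `2` give finite generation. -/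
theorem fg_of_representatives_upper (cls : Dv → G) (Ψ : Dv → ℝ) {C₁ C₂ : ℝ}
    (hinv : ∀ D D' : Dv, cls D = cls D' → |Ψ D - Ψ D'| ≤ C₁)
    (hrep : ∀ x y z : G, ∃ D₁ D₂ D₃ D₁₂ D₁₃ D₂₃ D₁₂₃ : Dv,
      cls D₁ = x ∧ cls D₂ = y ∧ cls D₃ = z ∧ cls D₁₂ = x + y ∧ cls D₁₃ = x + z ∧
      cls D₂₃ = y + z ∧ cls D₁₂₃ = x + y + z ∧
      Ψ D₁₂₃ - Ψ D₁₂ - Ψ D₁₃ - Ψ D₂₃ + Ψ D₁ + Ψ D₂ + Ψ D₃ ≤ C₂)
    (hN : ∀ B : ℝ, {x : G | ∃ D D' : Dv, cls D = x ∧ cls D' = -x ∧ Ψ D + Ψ D' ≤ B}.Finite)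
    (hweak : (nsmulAddMonoidHom (α := G) 2).range.FiniteIndex) : AddGroup.FG G := by
  obtain ⟨ψ, hψ⟩ := exists_classFunction cls Ψ hinv
  have hcube := cubeUpper_of_representatives cls Ψ ψ hψ hrep
  have hsurj : ∀ x : G, ∃ D : Dv, cls D = x := fun x => by
    obtain ⟨D₁, -, -, -, -, -, -, h1, -⟩ := hrep x 0 0
    exact ⟨D₁, h1⟩
  refine fg_of_cubeUpper hcube (fun B => ?_) hweak
  refine (hN (B + 2 * C₁)).subset fun x hx => ?_
  have hx' : symm ψ x ≤ B := hx
  obtain ⟨D, hD⟩ := hsurj x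
  obtain ⟨D', hD'⟩ := hsurj (-x)
  refine ⟨D, D', hD, hD', ?_⟩
  have b1 := hψ D
  have b2 := hψ D'
  rw [hD] at b1
  rw [hD'] at b2
  rw [abs_le] at b1 b2
  unfold symm at hx'
  linarith [b1.1, b1.2, b2.1, b2.2]

/-- **The Plücker endgame in one statement** (one-sided cube inequality, Northcott through small
representatives of the opposite class): the four inputs are exactly (1a) class invariance `hinv`,
(G2)+(G3) the upper seven-term bound on admissible triples `hrep`, (G4) the lower bound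
`NE E - c ≤ Ψ D` by a Northcott function on small representatives `E` of `-cls D`, and (G5) weak
Mordell–Weil at `2`. -/
theorem fg_of_plueckerData (cls : Dv → G) (Ψ : Dv → ℝ) {C₁ C₂ : ℝ}
    (hinv : ∀ D D' : Dv, cls D = cls D' → |Ψ D - Ψ D'| ≤ C₁)
    (hrep : ∀ x y z : G, ∃ D₁ D₂ D₃ D₁₂ D₁₃ D₂₃ D₁₂₃ : Dv,
      cls D₁ = x ∧ cls D₂ = y ∧ cls D₃ = z ∧ cls D₁₂ = x + y ∧ cls D₁₃ = x + z ∧
      cls D₂₃ = y + z ∧ cls D₁₂₃ = x + y + z ∧
      Ψ D₁₂₃ - Ψ D₁₂ - Ψ D₁₃ - Ψ D₂₃ + Ψ D₁ + Ψ D₂ + Ψ D₃ ≤ C₂)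
    {Ev : Type*} (clsE : Ev → G) (NE : Ev → ℝ) (hNE : ∀ B : ℝ, {E : Ev | NE E ≤ B}.Finite) (c : ℝ)
    (hlow : ∀ D : Dv, ∃ E : Ev, clsE E = -cls D ∧ NE E - c ≤ Ψ D)
    (hweak : (nsmulAddMonoidHom (α := G) 2).range.FiniteIndex) : AddGroup.FG G :=
  fg_of_representatives_upper cls Ψ hinv hrep
    (finite_of_small_representatives cls Ψ clsE NE hNE c hlow) hweak

end RepresentativesOneSided

section GeneralLevel

variable {G : Type*} [AddCommGroup G]

/-- Convexity of `k ↦ h (k • y + g)` from the one-sided parallelogram inequality: the successive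
differences grow at least by `2 * h y - C` at each step (helper2094, findings #2843). -/
theorem superParallelogram_diff {h : G → ℝ} {C : ℝ}
    (hpar : ∀ x y : G, 2 * (h x + h y) - C ≤ h (x + y) + h (x - y)) (y g : G) (k : ℕ) :
    h (y + g) - h g + k * (2 * h y - C) ≤ h ((k + 1) • y + g) - h (k • y + g) := by
  induction k with
  | zero => simp
  | succ k ih =>
    have h1 := hpar ((k + 1) • y + g) y
    have e1 : (k + 1) • y + g + y = (k + 1 + 1) • y + g := by
      rw [add_nsmul y (k + 1) 1, one_nsmul]; abel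
    have e2 : (k + 1) • y + g - y = k • y + g := by
      rw [add_nsmul y k 1, one_nsmul]; abel
    rw [e1, e2] at h1
    push_cast
    linarith

/-- **Lower bound for `h (n • y + g)`** from the one-sided parallelogram inequality
(helper2094, findings #2843). -/
theorem superParallelogram_nsmul_add {h : G → ℝ} {C : ℝ}
    (hpar : ∀ x y : G, 2 * (h x + h y) - C ≤ h (x + y) + h (x - y)) (y g : G) (n : ℕ) :
    h g + n * (h (y + g) - h g) + (n * (n - 1) / 2 : ℝ) * (2 * h y - C) ≤ h (n • y + g) := by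
  induction n with
  | zero => simp
  | succ n ih =>
    have h1 := superParallelogram_diff hpar y g n
    push_cast
    have e : ((n : ℝ) + 1) * ((n : ℝ) + 1 - 1) / 2 = (n : ℝ) * ((n : ℝ) - 1) / 2 + n := by ring
    rw [e]
    nlinarith [ih, h1]

/-- **Abstract contraction descent.** If `n • G` has finite index, `h` has finite sublevel sets
and for every finite set `T` of translations there are `ρ < 1` and `c` with
`h y ≤ ρ * h (g + n • y) + c` for all `g ∈ T` and all `y`, then `G` is finitely generated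
(minimal counterexample: `x = g + n • y` with `g` in a finite set of coset representatives). -/
theorem fg_of_contraction_nsmul {h : G → ℝ} (n : ℕ)
    (hweak : (nsmulAddMonoidHom (α := G) n).range.FiniteIndex)
    (hN : ∀ B : ℝ, {x : G | h x ≤ B}.Finite)
    (hcontr : ∀ T : Set G, T.Finite → ∃ ρ c : ℝ, ρ < 1 ∧
      ∀ g ∈ T, ∀ y : G, h y ≤ ρ * h (g + n • y) + c) : AddGroup.FG G := by
  classical
  have hNc : Northcott h := ⟨hN⟩
  set R : AddSubgroup G := (nsmulAddMonoidHom (α := G) n).range with hR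
  have hfinq : Finite (G ⧸ R) := AddSubgroup.finite_quotient_of_finiteIndex
  let qi : G ⧸ R → G := Function.surjInv QuotientAddGroup.mk_surjective
  let s : Set G := Set.range qi
  have hs : s.Finite := Set.finite_range qi
  have hdec : ∀ x : G, ∃ g ∈ s, ∃ y : G, x = g + n • y := by
    intro x
    refine ⟨qi (QuotientAddGroup.mk x), ⟨_, rfl⟩, ?_⟩
    have h1 : (QuotientAddGroup.mk (qi (QuotientAddGroup.mk x)) : G ⧸ R) = QuotientAddGroup.mk x :=
      Function.surjInv_eq QuotientAddGroup.mk_surjective _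
    have h2 : x - qi (QuotientAddGroup.mk x) ∈ R := QuotientAddGroup.eq_iff_sub_mem.mp h1.symm
    obtain ⟨y, hy⟩ := h2
    refine ⟨y, ?_⟩
    have hy' : n • y = x - qi (QuotientAddGroup.mk x) := hy
    rw [hy']
    abel
  obtain ⟨ρ, c, hρ, hcontr'⟩ := hcontr s hs
  have hρ' : 0 < 1 - ρ := by linarith
  let S : Set G := s ∪ {x : G | h x ≤ c / (1 - ρ)}
  suffices hU : AddSubgroup.closure S = ⊤ from
    AddGroup.fg_iff.mpr ⟨S, hU, hs.union (hN _)⟩
  by_contra H
  have H' : ((AddSubgroup.closure S : AddSubgroup G) : Set G)ᶜ.Nonempty := by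
    rw [Set.nonempty_compl]
    intro hall
    exact H (SetLike.coe_injective (by rw [hall, AddSubgroup.coe_top]))
  obtain ⟨x, hx₁, hx₂⟩ := Northcott.exists_min_image h _ H'
  obtain ⟨g, hg, y, rfl⟩ := hdec x
  by_cases hy : y ∈ AddSubgroup.closure S
  · exact hx₁ ((AddSubgroup.closure S).add_mem (AddSubgroup.subset_closure (Or.inl hg))
      ((AddSubgroup.closure S).nsmul_mem hy n))
  · have h1 := hx₂ y hy
    have h2 := hcontr' g hg y
    have h3 : h (g + n • y) ≤ c / (1 - ρ) := by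
      rw [le_div_iff₀ hρ']
      nlinarith
    exact hx₁ (AddSubgroup.subset_closure (Or.inr h3))

/-- **One-sided descent at any level `n ≥ 2`.** If `h : G → ℝ` has finite sublevel sets,
satisfies `2 (h x + h y) - C ≤ h (x + y) + h (x - y)` and `n • G` has finite index for some
`n ≥ 2`, then `G` is finitely generated. -/
theorem fg_of_superParallelogram_nsmul {h : G → ℝ} {C : ℝ} (n : ℕ) (hn : 2 ≤ n)
    (hpar : ∀ x y : G, 2 * (h x + h y) - C ≤ h (x + y) + h (x - y))
    (hN : ∀ B : ℝ, {x : G | h x ≤ B}.Finite)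
    (hweak : (nsmulAddMonoidHom (α := G) n).range.FiniteIndex) : AddGroup.FG G := by
  classical
  obtain ⟨m, hm⟩ := exists_lower_bound_of_finite_sublevel h hN
  refine fg_of_contraction_nsmul n hweak hN fun T hT => ?_
  obtain ⟨M, hM⟩ : ∃ M : ℝ, ∀ g ∈ T, h g ≤ M := by
    obtain ⟨M, hM⟩ := (hT.image h).bddAbove
    exact ⟨M, fun g hg => hM ⟨g, hg, rfl⟩⟩
  have hn2 : (2 : ℝ) ≤ n := by exact_mod_cast hn
  have hq : (2 : ℝ) ≤ (n : ℝ) * ((n : ℝ) - 1) := by nlinarith
  have hqpos : (0 : ℝ) < (n : ℝ) * ((n : ℝ) - 1) := by linarith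
  refine ⟨1 / ((n : ℝ) * ((n : ℝ) - 1)),
    (((n : ℝ) - 1) * M - n * m + (n * (n - 1) / 2 : ℝ) * C) / ((n : ℝ) * ((n : ℝ) - 1)), ?_, ?_⟩
  · rw [div_lt_one hqpos]; linarith
  · intro g hg y
    have h1 := superParallelogram_nsmul_add hpar y g n
    have e1 : n • y + g = g + n • y := by abel
    rw [e1] at h1
    have h2 := hm (y + g)
    have h3 := hM g hg
    have hn1 : (0 : ℝ) ≤ (n : ℝ) - 1 := by linarith
    have key : (n : ℝ) * ((n : ℝ) - 1) * h y ≤
        h (g + n • y) + (((n : ℝ) - 1) * M - n * m + (n * (n - 1) / 2 : ℝ) * C) := by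
      have a1 : (n : ℝ) * m ≤ n * h (y + g) := by
        have : (0 : ℝ) ≤ n := by linarith
        exact mul_le_mul_of_nonneg_left h2 this
      have a2 : ((n : ℝ) - 1) * h g ≤ ((n : ℝ) - 1) * M := mul_le_mul_of_nonneg_left h3 hn1
      nlinarith [h1, a1, a2]
    rw [one_div, inv_mul_eq_div, ← add_div, le_div_iff₀ hqpos]
    linarith

/-- **Finite generation from the ONE-SIDED cube law, weak Mordell–Weil at any `n ≥ 2`.** -/
theorem fg_of_cubeUpper_nsmul {ψ : G → ℝ} {C : ℝ} (n : ℕ) (hn : 2 ≤ n) (hψ : CubeUpper ψ C)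
    (hN : ∀ B : ℝ, {x : G | symm ψ x ≤ B}.Finite)
    (hweak : (nsmulAddMonoidHom (α := G) n).range.FiniteIndex) : AddGroup.FG G :=
  fg_of_superParallelogram_nsmul (h := symm ψ) (C := 2 * ψ 0 + 2 * C) n hn
    (symm_superParallelogram_of_cubeUpper hψ) hN hweak

/-- **Finite generation from the (two-sided) cube law, weak Mordell–Weil at any `n ≥ 2`.** -/
theorem fg_of_cubeBound_nsmul {ψ : G → ℝ} {C : ℝ} (n : ℕ) (hn : 2 ≤ n) (hψ : CubeBound ψ C)
    (hN : ∀ B : ℝ, {x : G | symm ψ x ≤ B}.Finite)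
    (hweak : (nsmulAddMonoidHom (α := G) n).range.FiniteIndex) : AddGroup.FG G :=
  fg_of_cubeUpper_nsmul n hn hψ.cubeUpper hN hweak

end GeneralLevel

section RepresentativesGeneralLevel

variable {G : Type*} {Dv : Type*} [AddCommGroup G]

/-- `fg_of_representatives_upper` with weak Mordell–Weil at any level `n ≥ 2`. -/
theorem fg_of_representatives_upper_nsmul (n : ℕ) (hn : 2 ≤ n) (cls : Dv → G) (Ψ : Dv → ℝ)
    {C₁ C₂ : ℝ}
    (hinv : ∀ D D' : Dv, cls D = cls D' → |Ψ D - Ψ D'| ≤ C₁)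
    (hrep : ∀ x y z : G, ∃ D₁ D₂ D₃ D₁₂ D₁₃ D₂₃ D₁₂₃ : Dv,
      cls D₁ = x ∧ cls D₂ = y ∧ cls D₃ = z ∧ cls D₁₂ = x + y ∧ cls D₁₃ = x + z ∧
      cls D₂₃ = y + z ∧ cls D₁₂₃ = x + y + z ∧
      Ψ D₁₂₃ - Ψ D₁₂ - Ψ D₁₃ - Ψ D₂₃ + Ψ D₁ + Ψ D₂ + Ψ D₃ ≤ C₂)
    (hN : ∀ B : ℝ, {x : G | ∃ D D' : Dv, cls D = x ∧ cls D' = -x ∧ Ψ D + Ψ D' ≤ B}.Finite)
    (hweak : (nsmulAddMonoidHom (α := G) n).range.FiniteIndex) : AddGroup.FG G := by
  obtain ⟨ψ, hψ⟩ := exists_classFunction cls Ψ hinv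
  have hcube := cubeUpper_of_representatives cls Ψ ψ hψ hrep
  have hsurj : ∀ x : G, ∃ D : Dv, cls D = x := fun x => by
    obtain ⟨D₁, -, -, -, -, -, -, h1, -⟩ := hrep x 0 0
    exact ⟨D₁, h1⟩
  refine fg_of_cubeUpper_nsmul n hn hcube (fun B => ?_) hweak
  refine (hN (B + 2 * C₁)).subset fun x hx => ?_
  have hx' : symm ψ x ≤ B := hx
  obtain ⟨D, hD⟩ := hsurj x
  obtain ⟨D', hD'⟩ := hsurj (-x)
  refine ⟨D, D', hD, hD', ?_⟩
  have b1 := hψ D
  have b2 := hψ D'
  rw [hD] at b1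
  rw [hD'] at b2
  rw [abs_le] at b1 b2
  unfold symm at hx'
  linarith [b1.1, b1.2, b2.1, b2.2]

/-- `fg_of_representatives` (two-sided seven-term bound) with weak Mordell–Weil at any level
`n ≥ 2`. -/
theorem fg_of_representatives_nsmul (n : ℕ) (hn : 2 ≤ n) (cls : Dv → G) (Ψ : Dv → ℝ)
    {C₁ C₂ : ℝ}
    (hinv : ∀ D D' : Dv, cls D = cls D' → |Ψ D - Ψ D'| ≤ C₁)
    (hrep : ∀ x y z : G, ∃ D₁ D₂ D₃ D₁₂ D₁₃ D₂₃ D₁₂₃ : Dv,
      cls D₁ = x ∧ cls D₂ = y ∧ cls D₃ = z ∧ cls D₁₂ = x + y ∧ cls D₁₃ = x + z ∧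
      cls D₂₃ = y + z ∧ cls D₁₂₃ = x + y + z ∧
      |Ψ D₁₂₃ - Ψ D₁₂ - Ψ D₁₃ - Ψ D₂₃ + Ψ D₁ + Ψ D₂ + Ψ D₃| ≤ C₂)
    (hN : ∀ B : ℝ, {x : G | ∃ D D' : Dv, cls D = x ∧ cls D' = -x ∧ Ψ D + Ψ D' ≤ B}.Finite)
    (hweak : (nsmulAddMonoidHom (α := G) n).range.FiniteIndex) : AddGroup.FG G := by
  refine fg_of_representatives_upper_nsmul (C₂ := C₂) n hn cls Ψ hinv (fun x y z => ?_) hN hweak
  obtain ⟨D₁, D₂, D₃, D₁₂, D₁₃, D₂₃, D₁₂₃, h1, h2, h3, h12, h13, h23, h123, hcube⟩ := hrep x y z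
  exact ⟨D₁, D₂, D₃, D₁₂, D₁₃, D₂₃, D₁₂₃, h1, h2, h3, h12, h13, h23, h123,
    (le_abs_self _).trans hcube⟩

/-- **The Plücker endgame in one statement, weak Mordell–Weil at any level `n ≥ 2`**: (1a) class
invariance `hinv`, the upper seven-term bound on admissible triples `hrep`, the lower bound
`NE E - c ≤ Ψ D` by a Northcott function on small representatives `E` of `-cls D`, and
finiteness of `G / n • G`. -/
theorem fg_of_plueckerData_nsmul (n : ℕ) (hn : 2 ≤ n) (cls : Dv → G) (Ψ : Dv → ℝ) {C₁ C₂ : ℝ}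
    (hinv : ∀ D D' : Dv, cls D = cls D' → |Ψ D - Ψ D'| ≤ C₁)
    (hrep : ∀ x y z : G, ∃ D₁ D₂ D₃ D₁₂ D₁₃ D₂₃ D₁₂₃ : Dv,
      cls D₁ = x ∧ cls D₂ = y ∧ cls D₃ = z ∧ cls D₁₂ = x + y ∧ cls D₁₃ = x + z ∧
      cls D₂₃ = y + z ∧ cls D₁₂₃ = x + y + z ∧
      Ψ D₁₂₃ - Ψ D₁₂ - Ψ D₁₃ - Ψ D₂₃ + Ψ D₁ + Ψ D₂ + Ψ D₃ ≤ C₂)
    {Ev : Type*} (clsE : Ev → G) (NE : Ev → ℝ) (hNE : ∀ B : ℝ, {E : Ev | NE E ≤ B}.Finite) (c : ℝ)
    (hlow : ∀ D : Dv, ∃ E : Ev, clsE E = -cls D ∧ NE E - c ≤ Ψ D)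
    (hweak : (nsmulAddMonoidHom (α := G) n).range.FiniteIndex) : AddGroup.FG G :=
  fg_of_representatives_upper_nsmul n hn cls Ψ hinv hrep
    (finite_of_small_representatives cls Ψ clsE NE hNE c hlow) hweak

end RepresentativesGeneralLevel

end Fermat.Agent.S17.helper2795
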