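import Mathlib
import Fermat.Prelude.Def_ModularCurve_ArithmeticGalois
import Fermat.Agent.S27.helper6247_Spec
import Fermat.Agent.S17.helper2795_PlueckerEndgame

/-!
# S17, Pluecker track: the GEOMETRIC SPEC (architect helper3197)

Carriers, definitions and the exact leaf statements of the Pluecker-height proof of
Mordell--Weil for `Pic0` of a function field `F = ℚ̄ · F₀` with rational model `F₀ ⊆ ℚ((q))`
(for S17: `F₀ = modularFunctionFieldFull N`, `F = modularFunctionFieldBar N`, `Pic0 = JZero N`).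

Everything is stated for a GENERAL `F₀ : IntermediateField ℚ (LaurentSeries ℚ)` and a place `P0`
of `F` fixed by the arithmetic Galois action ("the point at infinity"; for S17 the cusp `∞`).

## Vocabulary

* `FB F₀`          the function field `laurentBaseChange ℚ̄ F₀`
* `ratEmb F₀`      the embedding `F₀ →+* FB F₀`
* `IsRat F₀ D`     the divisor `D` is fixed by every `arithmeticGalois F₀ σ`
* `ratRR F₀ D`     the `ℚ`-form `{x : F₀ | ratEmb x ∈ L(D)}` of the Riemann--Roch space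
* `Alev F₀ P0 m`   `= ratRR (m • pt P0)`   (`A_m`, functions with a pole of order `≤ m` at `P0` only)
* `Wlev F₀ P0 m D` `= ratRR (m • pt P0 - D)` as a subspace of `Alev m`  (`W_m(D)`)
* `Frame F₀ P0`    a `ℚ`-basis of every `Alev m`
* `plkHeight b W`  Pluecker (logarithmic) height of a subspace `W` w.r.t. a basis `b`
* `Phi fr m D`     `= plkHeight (fr.b m) (Wlev m D)`
* `htA fr k α`     height of the coordinate vector of `α : Alev k`
* `clsAt P0 D`     the class of `D - deg D • P0` in `Pic0`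
* `PsiAt fr c Hinf D` `= Phi fr (deg D + c) D - (c + 1 - g) * Hinf D`   (the representative height)

## Leaves (each a `Prop`; see the docstrings)

`RiemannSpec`, `RatDescSpec`, `LinDisjSpec`, `FrameIndepSpec`, `SiegelSpec`, `MulSpec`,
`HinfSpec`, `CubeSpec`, `MoveSpec`, and weak Mordell--Weil at `2`.

The assembly (file `helper3197_PlueckerAsm.lean`) proves
`AddGroup.FG (FixedPoints.addSubgroup Gal (Pic0 ℚ̄ (FB F₀)))` from these leaves through
`helper2795.fg_of_plueckerData`.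

## Standing hypotheses available to every leaf

`(x : FB F₀) (hx : Transcendental Qb x) [FiniteDimensional Qb⟮x⟯ (FB F₀)]` (so every landed
S24/S27 theorem applies: `HasPrincipalDivisors`, all places of degree one, `asm_Riemann`,
`asm_Ev`, `asm_GenericUnram`, ...) and `(hP0 : IsRatPlace F₀ P0)`.  Leaves are proved in
hypothesis-passing style (`theorem foo (h₁ : RatDescSpec F₀) ... : MulSpec F₀ P0`).
-/

set_option autoImplicit false

open ModularCurve AlgebraicCurve
open Fermat.Agent.S27.helper6247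

namespace Fermat.Agent.S17.helper3197

noncomputable section

/-- `ℚ̄`. -/
abbrev Qb : Type := AlgebraicClosure ℚ

/-- The absolute Galois group of `ℚ`. -/
abbrev GalQ : Type := Qb ≃ₐ[ℚ] Qb

section Setting

variable (F₀ : IntermediateField ℚ (LaurentSeries ℚ))

/-- The function field over `ℚ̄`. -/
abbrev FB : IntermediateField Qb (LaurentSeries Qb) := laurentBaseChange Qb F₀

/-- The embedding of the rational model `F₀` into `FB F₀` (coefficientwise `ℚ → ℚ̄`). -/
def ratEmb : F₀ →+* FB F₀ where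
  toFun x := ⟨coeffEmb Qb (x : LaurentSeries ℚ), coeffEmb_mem_laurentBaseChange Qb x.2⟩
  map_one' := Subtype.ext (by simp)
  map_mul' x y := Subtype.ext (by simp)
  map_zero' := Subtype.ext (by simp)
  map_add' x y := Subtype.ext (by simp)

@[simp]
theorem coe_ratEmb (x : F₀) : ((ratEmb F₀ x : FB F₀) : LaurentSeries Qb)
    = coeffEmb Qb (x : LaurentSeries ℚ) := rfl

/-- A divisor is *rational* if it is fixed by the arithmetic Galois action. -/
def IsRat (D : Divisor Qb (FB F₀)) : Prop :=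
  ∀ σ : GalQ, arithmeticGalois F₀ σ • D = D

/-- A place is *rational* if it is fixed by the arithmetic Galois action. -/
def IsRatPlace (P : Place Qb (FB F₀)) : Prop :=
  ∀ σ : GalQ, arithmeticGalois F₀ σ • P = P

/-- The `ℚ`-form of the Riemann--Roch space: rational functions lying in `L(D)`. -/
def ratRR (D : Divisor Qb (FB F₀)) : Submodule ℚ F₀ where
  carrier := {x | ratEmb F₀ x ∈ riemannRochSpace D}
  zero_mem' := by
    show ratEmb F₀ 0 ∈ riemannRochSpace D
    rw [map_zero]; exact zero_mem _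
  add_mem' := fun {a b} ha hb => by
    show ratEmb F₀ (a + b) ∈ riemannRochSpace D
    rw [map_add]; exact add_mem ha hb
  smul_mem' := fun c x hx => by
    show ratEmb F₀ (c • x) ∈ riemannRochSpace D
    have h1 : ratEmb F₀ (c • x) = (c : Qb) • ratEmb F₀ x := by
      rw [Rat.smul_def, map_mul, map_ratCast, Algebra.smul_def, map_ratCast]
    rw [h1]
    exact Submodule.smul_mem _ _ hx

theorem mem_ratRR {D : Divisor Qb (FB F₀)} {x : F₀} :
    x ∈ ratRR F₀ D ↔ ratEmb F₀ x ∈ riemannRochSpace D := Iff.rfl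

variable (P0 : Place Qb (FB F₀))

/-- `A_m`: rational functions with at most a pole of order `m` at `P0` and no other pole. -/
abbrev Alev (m : ℤ) : Submodule ℚ F₀ := ratRR F₀ (m • pt P0)

/-- `W_m(D)` as a subspace of `A_m`. -/
abbrev Wlev (m : ℤ) (D : Divisor Qb (FB F₀)) : Submodule ℚ ↥(Alev F₀ P0 m) :=
  (ratRR F₀ (m • pt P0 - D)).comap (Alev F₀ P0 m).subtype

/-- A frame: a `ℚ`-basis of every `A_m`. -/
structure Frame where
  /-- the dimension of `A_m` -/
  n : ℤ → ℕ
  /-- the basis of `A_m` -/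
  b : ∀ m : ℤ, Module.Basis (Fin (n m)) ℚ ↥(Alev F₀ P0 m)

end Setting

/-! ## Pluecker heights (Mathlib only) -/

section Plk

open Classical in
/-- The Pluecker (logarithmic) height of a subspace `W` of a `ℚ`-vector space with basis `b`:
the height of the vector of all `r × r` minors (`r = dim W`) of the coordinate matrix of a basis
of `W` (independent of the basis of `W`; junk `0` if `W` is not finite dimensional). -/
def plkHeight {ι V : Type*} [AddCommGroup V] [Module ℚ V] (b : Module.Basis ι ℚ V)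
    (W : Submodule ℚ V) : ℝ :=
  if h : Module.Finite ℚ W then
    haveI := h
    Height.logHeight (fun s : Fin (Module.finrank ℚ W) → ι =>
      Matrix.det (Matrix.of fun i j =>
        b.repr ((Module.finBasis ℚ W i : W) : V) (s j)))
  else 0

/-- **Leaf FRAME (Mathlib only).** Changing the basis of the ambient space changes the Pluecker
height of all subspaces by a bounded amount. -/
def FrameIndepSpec : Prop :=
  ∀ (n : ℕ) (V : Type) [AddCommGroup V] [Module ℚ V] (b b' : Module.Basis (Fin n) ℚ V),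
    ∃ C : ℝ, ∀ W : Submodule ℚ V, |plkHeight b W - plkHeight b' W| ≤ C

/-- **Leaf SIEGEL (Mathlib only).** Sharp Siegel lemma: a nonzero subspace `W` of dimension `r`
contains a nonzero vector `x` with `r * h(x) ≤ h_Pluecker(W) + C`, `C` depending only on the
dimension of the ambient space. -/
def SiegelSpec : Prop :=
  ∀ n : ℕ, ∃ C : ℝ, ∀ (V : Type) [AddCommGroup V] [Module ℚ V] (b : Module.Basis (Fin n) ℚ V)
    (W : Submodule ℚ V), W ≠ ⊥ →
    ∃ x ∈ W, x ≠ 0 ∧
      (Module.finrank ℚ W : ℝ) * Height.logHeight (fun i => b.repr x i) ≤ plkHeight b W + C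

end Plk

/-! ## Heights on the curve -/

section Heights

variable {F₀ : IntermediateField ℚ (LaurentSeries ℚ)} {P0 : Place Qb (FB F₀)}

/-- Height of (the coordinate vector of) an element of `A_k`. -/
def htA (fr : Frame F₀ P0) (k : ℤ) (α : ↥(Alev F₀ P0 k)) : ℝ :=
  Height.logHeight (fun i => (fr.b k).repr α i)

/-- `Φ_m(D)`: the Pluecker height of `W_m(D) ⊆ A_m`. -/
def Phi (fr : Frame F₀ P0) (m : ℤ) (D : Divisor Qb (FB F₀)) : ℝ :=
  plkHeight (fr.b m) (Wlev F₀ P0 m D)

variable (P0) in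
/-- The class of `D - deg D • P0` in `Pic0` (a genuine class as soon as `deg P0 = 1`). -/
def clsAt (D : Divisor Qb (FB F₀)) : Pic0 Qb (FB F₀) :=
  cls (D - Divisor.degree D • pt P0)

/-- The representative height `Ψ(D) = Φ_{deg D + c}(D) - (c + 1 - g) · Hinf(D)`. -/
def PsiAt (fr : Frame F₀ P0) (c : ℤ) (Hinf : Divisor Qb (FB F₀) → ℝ)
    (D : Divisor Qb (FB F₀)) : ℝ :=
  Phi fr (Divisor.degree D + c) D
    - ((c : ℝ) + 1 - (genusFF Qb (FB F₀) : ℝ)) * Hinf D

end Heights

/-! ## The leaves -/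

section Leaves

variable (F₀ : IntermediateField ℚ (LaurentSeries ℚ)) (P0 : Place Qb (FB F₀))

/-- **Leaf RIEMANN** (from the landed S27 Riemann theorem): finite dimensionality of `L(E)` and
`ℓ(E) = deg E + 1 - g` for `deg E ≥ c₁`. -/
def RiemannSpec : Prop :=
  (∀ E : Divisor Qb (FB F₀), Module.Finite Qb (riemannRochSpace E)) ∧
  ∃ c₁ : ℤ, ∀ E : Divisor Qb (FB F₀), c₁ ≤ Divisor.degree E →
    (Module.finrank Qb (riemannRochSpace E) : ℤ)
      = Divisor.degree E + 1 - (genusFF Qb (FB F₀) : ℤ)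

/-- **Leaf QDESC** (Galois descent): for a rational divisor `E`, `ratRR E` is a `ℚ`-form of
`L(E)`: finite dimensional, of the same dimension, and spanning `L(E)` over `ℚ̄`. -/
def RatDescSpec : Prop :=
  ∀ E : Divisor Qb (FB F₀), IsRat F₀ E →
    Module.Finite ℚ ↥(ratRR F₀ E) ∧
    Module.finrank ℚ ↥(ratRR F₀ E) = Module.finrank Qb ↥(riemannRochSpace E) ∧
    Submodule.span Qb (ratEmb F₀ '' (ratRR F₀ E : Set F₀)) = riemannRochSpace E

/-- **Leaf LINDISJ** (linear disjointness of `F₀` and `ℚ̄`): `ℚ`-linearly independent families of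
`F₀` stay `ℚ̄`-linearly independent in `FB F₀`. -/
def LinDisjSpec : Prop :=
  ∀ (n : ℕ) (x : Fin n → F₀), LinearIndependent ℚ x →
    LinearIndependent Qb (fun i => ratEmb F₀ (x i))

/-- `Z` is the zero divisor at level `k` of `α ≠ 0`: `Z = div α + k • P0`. -/
def IsZeroDiv (k : ℤ) (α : F₀) (Z : Divisor Qb (FB F₀)) : Prop :=
  ∀ v : Place Qb (FB F₀), Z v = v.ord (ratEmb F₀ α) + (k • pt P0) v

/-- **Leaf MUL** (`(1a)`, the multiplication law): for `0 ≠ α ∈ A_k` with zero divisor `Z`,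
multiplication by `α` maps `W_m(D)` onto `W_{m+k}(D + Z)`, and
`Φ_{m+k}(D + Z) = Φ_m(D) + dim W_m(D) · h(α) + O(1)`, uniformly in `D ≥ 0` and `α`
(Pluecker vector of `α W` = `Λ^r(mult_α)` applied to the Pluecker vector of `W`; upper bound
trivial, lower bound from the bihomogeneous Nullstellensatz because `Λ^r(mult_α)` is injective
for every `α ≠ 0` over `ℚ̄`). -/
def MulSpec : Prop :=
  ∀ (fr : Frame F₀ P0) (m k : ℤ), ∃ C : ℝ, ∀ (D Z : Divisor Qb (FB F₀)) (α : ↥(Alev F₀ P0 k)),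
    0 ≤ D → α ≠ 0 → IsZeroDiv F₀ P0 k (α : F₀) Z →
    |Phi fr (m + k) (D + Z) - Phi fr m D
        - (Module.finrank ℚ ↥(Wlev F₀ P0 m D) : ℝ) * htA fr k α| ≤ C

/-- **Leaf HINF** (the naive height of an effective rational divisor, `Hinf(D) = h(P_D)/n_t`,
`P_D = ∏_{P ≠ P0} (T - t(P))^{D(P)}` for a fixed nonconstant `t ∈ A_{n_t}`):
(a) additivity up to `O(1)` (Gelfond), (b) the norm dictionary `Hinf(Z(α)) = h(α) + O(1)`,
(c) Northcott. -/
def HinfSpec (Hinf : Divisor Qb (FB F₀) → ℝ) : Prop :=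
  (∀ d : ℤ, ∃ C : ℝ, ∀ D E : Divisor Qb (FB F₀), IsRat F₀ D → IsRat F₀ E → 0 ≤ D → 0 ≤ E →
    Divisor.degree D ≤ d → Divisor.degree E ≤ d → |Hinf (D + E) - Hinf D - Hinf E| ≤ C) ∧
  (∀ (fr : Frame F₀ P0) (k : ℤ), ∃ C : ℝ, ∀ (α : ↥(Alev F₀ P0 k)) (Z : Divisor Qb (FB F₀)),
    α ≠ 0 → IsZeroDiv F₀ P0 k (α : F₀) Z → |Hinf Z - htA fr k α| ≤ C) ∧
  (∀ (d : ℤ) (B : ℝ), {E : Divisor Qb (FB F₀) | IsRat F₀ E ∧ 0 ≤ E ∧ Divisor.degree E = d ∧
    Hinf E ≤ B}.Finite)

/-- An admissible triple: rational effective divisors of degree `d` whose sum is multiplicity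
free and does not meet `P0`. -/
structure IsAdmTriple (d : ℤ) (D₁ D₂ D₃ : Divisor Qb (FB F₀)) : Prop where
  rat₁ : IsRat F₀ D₁
  rat₂ : IsRat F₀ D₂
  rat₃ : IsRat F₀ D₃
  eff₁ : 0 ≤ D₁
  eff₂ : 0 ≤ D₂
  eff₃ : 0 ≤ D₃
  deg₁ : Divisor.degree D₁ = d
  deg₂ : Divisor.degree D₂ = d
  deg₃ : Divisor.degree D₃ = d
  off : (D₁ + D₂ + D₃) P0 = 0
  red : ∀ v : Place Qb (FB F₀), (D₁ + D₂ + D₃) v ≤ 1

/-- **Leaf CUBE** (the ONE-SIDED seven-term inequality for `G(D) = Φ_{deg D + c}(D)` on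
admissible triples; `(V-alg)` + chart boundedness + local-to-global; only the ideal inclusion
`Alt₁₂₃ · Alt₁ · Alt₂ · Alt₃ ≤ Alt₁₂ · Alt₁₃ · Alt₂₃` is needed): there are a period `n₀`
(`= n_t`) and a bound `c₁` such that for all `c ≥ c₁`, `d ≥ 0` divisible by `n₀` the alternating
sum is bounded above. -/
def CubeSpec : Prop :=
  ∃ n₀ : ℤ, 0 < n₀ ∧ ∃ c₁ : ℤ, ∀ (fr : Frame F₀ P0) (c d : ℤ), c₁ ≤ c → n₀ ∣ c → 0 ≤ d → n₀ ∣ d →
    ∃ C : ℝ, ∀ D₁ D₂ D₃ : Divisor Qb (FB F₀), IsAdmTriple F₀ P0 d D₁ D₂ D₃ →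
      Phi fr (3 * d + c) (D₁ + D₂ + D₃) - Phi fr (2 * d + c) (D₁ + D₂)
        - Phi fr (2 * d + c) (D₁ + D₃) - Phi fr (2 * d + c) (D₂ + D₃)
        + Phi fr (d + c) D₁ + Phi fr (d + c) D₂ + Phi fr (d + c) D₃ ≤ C

/-- **Leaf MOVE** (moving lemma): for `d ≥ d₁`, every Galois-fixed class has a rational,
effective, multiplicity-free representative of degree `d` avoiding `P0` and any given finite
set of places. -/
def MoveSpec : Prop :=
  ∃ d₁ : ℤ, ∀ d : ℤ, d₁ ≤ d → ∀ ξ : Pic0 Qb (FB F₀), (∀ σ : GalQ, σ • ξ = ξ) →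
    ∀ S : Finset (Place Qb (FB F₀)), ∃ D : Divisor Qb (FB F₀),
      IsRat F₀ D ∧ 0 ≤ D ∧ Divisor.degree D = d ∧ D P0 = 0 ∧ (∀ v, D v ≤ 1) ∧
      (∀ v ∈ S, D v = 0) ∧ clsAt P0 D = ξ

/-- **Leaf WMW** (weak Mordell--Weil at `2`). -/
def WeakMWSpec : Prop :=
  (nsmulAddMonoidHom
    (α := ↥(FixedPoints.addSubgroup GalQ (Pic0 Qb (FB F₀)))) 2).range.FiniteIndex

end Leaves

end

end Fermat.Agent.S17.helper3197
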