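import Mathlib
import Fermat.Prelude.Def_ModularCurve_ArithmeticGalois
import Fermat.Agent.S24.helper1370_PlaceBasics
import Fermat.Agent.S29.helper36_FunctionFieldL

/-!
# S17 (helper3753): the cusp `∞` is fixed by the arithmetic Galois action

`P0 := Fermat.Agent.S29.helper36.qPlaceL L N` is the `q`-adic place of
`laurentBaseChange L (modularFunctionFieldFull N)` (captain ruling R9: THE base place of S17).

* `order_coeffMap` : `coeffMap f` preserves the `q`-order for injective `f`;
* `qPlaceL_ord_smul` : `P0.ord (arithmeticGalois σ • f) = P0.ord f`;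
* `arithmeticGalois_smul_qPlaceL` : `arithmeticGalois σ • P0 = P0`;
* `arithmeticGalois_smul_jL` : `j` is fixed by the arithmetic Galois action;
* `arithmeticGalois_smul_coeffEmb` : so is every element with rational `q`-expansion.
-/

set_option autoImplicit false

namespace Fermat.Agent.S17.helper3753

open ModularCurve AlgebraicCurve HahnSeries
open Fermat.Agent.S29.helper36 (qPlaceL qPlaceL_ord jL)

/-- `coeffMap f` preserves the order of a Laurent series when `f` is injective. -/
theorem order_coeffMap {R S : Type*} [CommRing R] [CommRing S] (f : R →+* S)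
    (hf : Function.Injective f) (x : LaurentSeries R) : (coeffMap f x).order = x.order := by
  rcases eq_or_ne x 0 with rfl | hx
  · simp
  have hc : x.coeff x.order ≠ 0 := fun h => hx (HahnSeries.coeff_order_eq_zero.mp h)
  have hfc : f (x.coeff x.order) ≠ 0 := fun h => hc (hf (h.trans (map_zero f).symm))
  have hx' : coeffMap f x ≠ 0 := by
    apply HahnSeries.ne_zero_of_coeff_ne_zero (g := x.order)
    rw [coeffMap_coeff]
    exact hfc
  have hc' : (coeffMap f x).coeff (coeffMap f x).order ≠ 0 :=
    fun h => hx' (HahnSeries.coeff_order_eq_zero.mp h)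
  apply le_antisymm
  · apply HahnSeries.order_le_of_coeff_ne_zero
    rw [coeffMap_coeff]
    exact hfc
  · apply HahnSeries.order_le_of_coeff_ne_zero
    intro h
    apply hc'
    rw [coeffMap_coeff, h, map_zero]

variable (L : Type) [Field L] [Algebra ℚ L] (N : ℕ)

/-- The order at the cusp `∞` is invariant under the arithmetic Galois action on functions. -/
theorem qPlaceL_ord_smul (σ : L ≃ₐ[ℚ] L)
    (f : laurentBaseChange L (modularFunctionFieldFull N)) :
    (qPlaceL L N).ord (arithmeticGalois (modularFunctionFieldFull N) σ • f)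
      = (qPlaceL L N).ord f := by
  rcases eq_or_ne f 0 with rfl | hf
  · rw [smul_zero]
  have hf' : arithmeticGalois (modularFunctionFieldFull N) σ • f ≠ 0 := by
    rw [Ne, smul_eq_zero_iff_eq]
    exact hf
  rw [qPlaceL_ord L N hf', qPlaceL_ord L N hf, coe_arithmeticGalois_smul]
  exact order_coeffMap (σ : L →+* L) σ.injective _

/-- **The cusp `∞` is Galois-fixed**: `arithmeticGalois σ • qPlaceL = qPlaceL`. -/
theorem arithmeticGalois_smul_qPlaceL (σ : L ≃ₐ[ℚ] L) :
    arithmeticGalois (modularFunctionFieldFull N) σ • qPlaceL L N = qPlaceL L N := by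
  apply Fermat.Agent.S24.helper1370.ext_ord
  intro f
  have h1 := SemilinearAut.ord_smul (arithmeticGalois (modularFunctionFieldFull N) σ)
    (qPlaceL L N) ((arithmeticGalois (modularFunctionFieldFull N) σ)⁻¹ • f)
  rw [smul_inv_smul] at h1
  rw [h1, ← qPlaceL_ord_smul L N σ, smul_inv_smul]

/-- `j` is fixed by the arithmetic Galois action. -/
theorem arithmeticGalois_smul_jL (σ : L ≃ₐ[ℚ] L) :
    arithmeticGalois (modularFunctionFieldFull N) σ • jL L N = jL L N := by
  apply Subtype.ext
  rw [coe_arithmeticGalois_smul]
  exact coeffMap_jqModC (σ : L →+* L)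

/-- Elements with rational `q`-expansion are fixed by the arithmetic Galois action. -/
theorem arithmeticGalois_smul_of_coeffEmb (σ : L ≃ₐ[ℚ] L)
    (f : laurentBaseChange L (modularFunctionFieldFull N)) (x : LaurentSeries ℚ)
    (hx : (f : LaurentSeries L) = coeffEmb L x) :
    arithmeticGalois (modularFunctionFieldFull N) σ • f = f := by
  apply Subtype.ext
  rw [coe_arithmeticGalois_smul, hx]
  exact coeffMap_coeffEmb σ x

end Fermat.Agent.S17.helper3753
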