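import Fermat.Agent.S17.helper1298_Reduced
import Fermat.Agent.S17.helper3197_PlueckerSpec
import Fermat.Agent.S17.helper3753_QPlaceFixed

/-!
# S17 (helper3753): stable effective representatives of fixed classes  (STAB)

Consumer adapters on top of the landed reduced-divisor theory `helper1298_Reduced`
(`red`, `smul_red_eq_self`, ...) and of the fixed base place `helper36.qPlaceL`
(`helper3753_QPlaceFixed`), in the three shapes asked for in the S17 chat:

* `exists_stable_rep`      : one semilinear automorphism `s` with `s • P0 = P0`, `s • y = y`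
  (shape of helper5065 `hunr`, chat #129);
* `exists_stable_rep_of_le`: the same with prescribed degree `d ≥ g` (shape (STAB) of the moving
  lemma, helper1263 chat #41);
* `isRatPlace_qPlaceL`, `exists_isRat_rep`, `exists_isRat_rep_qPlaceL` : the Spec vocabulary of
  `helper3197_PlueckerSpec` (`IsRatPlace`, `IsRat`, `clsAt`).
-/

set_option autoImplicit false

namespace Fermat.Agent.S17.helper3753

open AlgebraicCurve IntermediateField ModularCurve
open Fermat.Agent.S27.helper6247 (pt cls)
open Fermat.Agent.S17.helper1298 (RedPkg red)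

noncomputable section

section Generic

variable {K : Type*} {F : Type*} [Field K] [Field F] [Algebra K F]

/-- **(STAB), one automorphism.**  If `s` fixes the base place `P0` and the class `y`, then `y`
has an `s`-stable effective representative `B` (the reduced divisor) of degree `≤ g` not
containing `P0`. -/
theorem exists_stable_rep (hp : RedPkg K F) (s : SemilinearAut K F) {P0 : Place K F}
    (hs : s • P0 = P0) {y : Pic0 K F} (hy : s • y = y) :
    ∃ B : Divisor K F, 0 ≤ B ∧ Divisor.degree B ≤ (genusFF K F : ℤ) ∧ B P0 = 0 ∧ s • B = B ∧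
      y = cls (B - Divisor.degree B • pt P0) :=
  ⟨red P0 y, Fermat.Agent.S17.helper1298.red_nonneg hp P0 y,
    Fermat.Agent.S17.helper1298.degree_red_le_genus hp P0 y,
    Fermat.Agent.S17.helper1298.red_apply_base hp P0 y,
    Fermat.Agent.S17.helper1298.smul_red_eq_self hp s hs hy,
    (Fermat.Agent.S17.helper1298.clsAt_red hp P0 y).symm⟩

/-- **(STAB), a family of automorphisms, prescribed degree.**  If every `s ∈ S` fixes `P0` and
`y`, then for every `d ≥ g` the class `y` has an effective representative `E` of degree exactly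
`d`, stable under every `s ∈ S`:  `E = red P0 y + (d - deg (red P0 y)) • P0`. -/
theorem exists_stable_rep_of_le (hp : RedPkg K F) (S : Set (SemilinearAut K F))
    {P0 : Place K F} (hs : ∀ s ∈ S, s • P0 = P0) {y : Pic0 K F} (hy : ∀ s ∈ S, s • y = y)
    {d : ℤ} (hd : (genusFF K F : ℤ) ≤ d) :
    ∃ E : Divisor K F, 0 ≤ E ∧ Divisor.degree E = d ∧ (∀ s ∈ S, s • E = E) ∧
      y = cls (E - Divisor.degree E • pt P0) := by
  have h0 := Fermat.Agent.S17.helper1298.red_nonneg hp P0 y
  have hg := Fermat.Agent.S17.helper1298.degree_red_le_genus hp P0 y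
  have hdegpt : Divisor.degree (pt P0 : Divisor K F) = 1 :=
    Fermat.Agent.S17.helper1298.degree_pt_eq hp.deg P0
  have hdegE : Divisor.degree (red P0 y + (d - Divisor.degree (red P0 y)) • pt P0) = d := by
    rw [map_add, map_zsmul, hdegpt, smul_eq_mul, mul_one]
    ring
  refine ⟨red P0 y + (d - Divisor.degree (red P0 y)) • pt P0, ?_, hdegE, ?_, ?_⟩
  · have h1 : (0 : Divisor K F) ≤ (d - Divisor.degree (red P0 y)) • pt P0 := by
      rw [Finsupp.le_def]
      intro v
      rw [Finsupp.smul_apply, smul_eq_mul]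
      have h2 : (0 : ℤ) ≤ pt P0 v := by
        classical
        unfold pt
        rw [Finsupp.single_apply]
        split_ifs <;> norm_num
      have h3 : (0 : ℤ) ≤ d - Divisor.degree (red P0 y) := by linarith
      simpa using mul_nonneg h3 h2
    simpa using add_le_add h0 h1
  · intro s hsS
    rw [smul_add, Fermat.Agent.S17.helper1298.smul_red_eq_self hp s (hs s hsS) (hy s hsS)]
    congr 1
    have h4 : s • ((d - Divisor.degree (red P0 y)) • pt P0)
        = (d - Divisor.degree (red P0 y)) • (s • pt P0) :=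
      map_zsmul (DistribSMul.toAddMonoidHom (Divisor K F) s) _ _
    rw [h4, Fermat.Agent.S17.helper1298.smul_pt, hs s hsS]
  · rw [hdegE]
    have h5 : red P0 y + (d - Divisor.degree (red P0 y)) • pt P0 - d • pt P0
        = red P0 y - Divisor.degree (red P0 y) • pt P0 := by
      rw [sub_smul]
      abel
    rw [h5]
    exact (Fermat.Agent.S17.helper1298.clsAt_red hp P0 y).symm

end Generic

/-! ## The Spec vocabulary (`helper3197_PlueckerSpec`) -/

section Spec

open Fermat.Agent.S17.helper3197 (Qb GalQ FB IsRat IsRatPlace)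

/-- The cusp `∞` of `X₀(N)` (`helper36.qPlaceL`) is a rational place in the sense of the Spec. -/
theorem isRatPlace_qPlaceL (N : ℕ) :
    IsRatPlace (modularFunctionFieldFull N) (Fermat.Agent.S29.helper36.qPlaceL Qb N) :=
  fun σ => arithmeticGalois_smul_qPlaceL Qb N σ

variable (F₀ : IntermediateField ℚ (LaurentSeries ℚ))

/-- **(STAB) in the Spec vocabulary.**  For a rational base place `P0` and `d ≥ g`, every
Galois-fixed class has a rational effective representative of degree `d`. -/
theorem exists_isRat_rep (x : FB F₀) (hx : Transcendental Qb x) [FiniteDimensional Qb⟮x⟯ (FB F₀)]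
    (P0 : Place Qb (FB F₀)) (hP0 : IsRatPlace F₀ P0) (ξ : Pic0 Qb (FB F₀))
    (hξ : ∀ σ : GalQ, σ • ξ = ξ) {d : ℤ} (hd : (genusFF Qb (FB F₀) : ℤ) ≤ d) :
    ∃ E : Divisor Qb (FB F₀), IsRat F₀ E ∧ 0 ≤ E ∧ Divisor.degree E = d ∧
      Fermat.Agent.S17.helper3197.clsAt P0 E = ξ := by
  have hp : RedPkg Qb (FB F₀) := Fermat.Agent.S17.helper1298.redPkg_of_finite x hx
  obtain ⟨E, h0, hdeg, hst, hcls⟩ := exists_stable_rep_of_le hp
    (Set.range fun σ : GalQ => arithmeticGalois F₀ σ) (P0 := P0) (y := ξ)
    (by rintro _ ⟨σ, rfl⟩; exact hP0 σ)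
    (by rintro _ ⟨σ, rfl⟩; exact hξ σ) hd
  exact ⟨E, fun σ => hst _ ⟨σ, rfl⟩, h0, hdeg, hcls.symm⟩

/-- The reduced divisor itself: rational, effective, of degree `≤ g`, not containing `P0`. -/
theorem exists_isRat_red (x : FB F₀) (hx : Transcendental Qb x) [FiniteDimensional Qb⟮x⟯ (FB F₀)]
    (P0 : Place Qb (FB F₀)) (hP0 : IsRatPlace F₀ P0) (ξ : Pic0 Qb (FB F₀))
    (hξ : ∀ σ : GalQ, σ • ξ = ξ) :
    ∃ B : Divisor Qb (FB F₀), IsRat F₀ B ∧ 0 ≤ B ∧
      Divisor.degree B ≤ (genusFF Qb (FB F₀) : ℤ) ∧ B P0 = 0 ∧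
      Fermat.Agent.S17.helper3197.clsAt P0 B = ξ := by
  have hp : RedPkg Qb (FB F₀) := Fermat.Agent.S17.helper1298.redPkg_of_finite x hx
  exact ⟨red P0 ξ,
    fun σ => Fermat.Agent.S17.helper1298.smul_red_eq_self hp _ (hP0 σ) (hξ σ),
    Fermat.Agent.S17.helper1298.red_nonneg hp P0 ξ,
    Fermat.Agent.S17.helper1298.degree_red_le_genus hp P0 ξ,
    Fermat.Agent.S17.helper1298.red_apply_base hp P0 ξ,
    Fermat.Agent.S17.helper1298.clsAt_red hp P0 ξ⟩

/-- **(STAB) for `JZero N`** with base place the cusp `∞ = helper36.qPlaceL`. -/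
theorem exists_isRat_rep_qPlaceL (N : ℕ) [NeZero N] (ξ : JZero N)
    (hξ : ∀ σ : GalQ, σ • ξ = ξ) {d : ℤ}
    (hd : (genusFF Qb (modularFunctionFieldBar N) : ℤ) ≤ d) :
    ∃ E : Divisor Qb (modularFunctionFieldBar N),
      IsRat (modularFunctionFieldFull N) E ∧ 0 ≤ E ∧ Divisor.degree E = d ∧
      Fermat.Agent.S17.helper3197.clsAt (Fermat.Agent.S29.helper36.qPlaceL Qb N) E = ξ :=
  haveI := Fermat.Agent.S29.helper36.finiteDimensional_jL Qb N
  exists_isRat_rep (modularFunctionFieldFull N) (Fermat.Agent.S29.helper36.jL Qb N)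
    (Fermat.Agent.S29.helper36.transcendental_jL Qb N) _ (isRatPlace_qPlaceL N) ξ hξ hd

end Spec

end

end Fermat.Agent.S17.helper3753
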