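/-
S17 (Mordell–Weil for `JZero N`): wiring of the weak Mordell–Weil half.

Content (all sorry-free, hypothesis-passing):
* `inertia_smul_eq_of_specializationExists` : the frozen shape of S37 (`SpecializationExists`)
  gives, for every class `y` whose `p`-th multiple is Galois-fixed, that inertia at `ℓ ∤ N * p`
  fixes `y` (the Chevalley–Weil step of weak Mordell–Weil).
* `finiteIndex_nsmul_fixedPoints` : abstract Kummer counting argument.
* `finiteIndex_nsmul_of_inputs` : weak Mordell–Weil for any Galois module `J` from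
  unramifiedness, divisibility, finite level, finiteness of `J[p]` and the finiteness of the
  maximal abelian exponent-`p` extension unramified outside a finite set (`ExpUnramifiedBound`).
* `fg_fixedPoints_of_descent` : the frozen S17 conclusion from weak Mordell–Weil and a height
  function, via Mathlib's descent theorem.
-/
import Mathlib
import Fermat.Prelude.Def_ModularCurve_ArithmeticGalois
import Fermat.Prelude.Def_HeckeGalois_EichlerShimura
import Fermat.Prelude.Def_ModularCurve_HeckeModule

set_option autoImplicit false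

namespace Fermat.Agent.S17.helper9541

open ModularCurve

/-- The absolute Galois group of `ℚ` in the Prelude's presentation. -/
abbrev Gal : Type := AlgebraicClosure ℚ ≃ₐ[ℚ] AlgebraicClosure ℚ

section Specialization

variable {J : Type*} [AddCommGroup J] [Module HeckeAlg J] [DistribMulAction Gal J]
  [SMulCommClass Gal HeckeAlg J]

set_option linter.unusedSectionVars false in
/-- **Chevalley–Weil step from the frozen S37 shape.** If `SpecializationExists N p J` holds
and `p • y` is fixed by the inertia group of `A` (`A` over `ℓ ∤ N * p`), then so is `y`. -/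
theorem inertia_smul_eq_of_specializationExists {N p : ℕ}
    (hspec : SpecializationExists (K := ℚ) (L := AlgebraicClosure ℚ) N p J)
    {ℓ : ℕ} (hℓ : ℓ.Prime) (hℓN : ¬ ℓ ∣ N * p)
    (A : ValuationSubring (AlgebraicClosure ℚ)) (hA : A.LiesOverPrime ℓ)
    {σ : Gal} (hσ : σ ∈ A.inertiaSubgroupIn ℚ)
    (y : J) (hy : σ • (p • y) = p • y) : σ • y = y := by
  obtain ⟨J', _, _, sp, F, hsp, -⟩ := hspec ℓ hℓ hℓN A hA
  have h1 : sp (σ • y - y) = 0 := by
    rw [map_sub, hsp.inertia_comm σ hσ y, sub_self]
  have h2 : p ^ 1 • (σ • y - y) = 0 := by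
    rw [pow_one, smul_sub, ← hy]
    have : p • σ • y = σ • p • y := (smul_comm σ p y).symm
    rw [this, sub_self]
  have h3 := hsp.injective_torsion (σ • y - y) ⟨1, h2⟩ h1
  exact sub_eq_zero.mp h3

end Specialization

section Abstract

variable {G : Type*} [Group G] {J : Type*} [AddCommGroup J] [DistribMulAction G J]

/-- **Abstract Kummer counting.** Let `G` act on `J`, let `H ≤ G` have finite index, assume
`J[p]` is finite and every `G`-fixed `x` is `p • y` with `y` fixed by `H`. Then `p • J^G` has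
finite index in `J^G`. -/
theorem finiteIndex_nsmul_fixedPoints (p : ℕ) (H : Subgroup G) [H.FiniteIndex]
    (htors : Finite {t : J // p • t = 0})
    (hdiv : ∀ x : J, (∀ σ : G, σ • x = x) → ∃ y : J, p • y = x ∧ ∀ σ ∈ H, σ • y = y) :
    (nsmulAddMonoidHom (α := ↥(FixedPoints.addSubgroup G J)) p).range.FiniteIndex := by
  classical
  -- the chosen division point
  have hx : ∀ x : ↥(FixedPoints.addSubgroup G J), ∀ σ : G, σ • (x : J) = x := fun x σ => x.2 σ
  choose y hy hyH using fun x : ↥(FixedPoints.addSubgroup G J) => hdiv x (hx x)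
  -- the cocycle values are `p`-torsion
  have htor : ∀ (x : ↥(FixedPoints.addSubgroup G J)) (σ : G), p • (σ • y x - y x) = 0 := by
    intro x σ
    rw [smul_sub, smul_comm p σ (y x), hy x, hx x σ, sub_self]
  -- the cocycle only depends on the coset
  have hcoset : ∀ (x : ↥(FixedPoints.addSubgroup G J)) (σ : G),
      σ • y x = (QuotientGroup.mk (s := H) σ).out • y x := by
    intro x σ
    have hmem : σ⁻¹ * (QuotientGroup.mk (s := H) σ).out ∈ H :=
      QuotientGroup.leftRel_apply.mp (Quotient.exact' (QuotientGroup.out_eq' _).symm)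
    have := hyH x _ hmem
    rw [mul_smul, inv_smul_eq_iff] at this
    exact this.symm
  have : Finite (G ⧸ H) := Subgroup.finite_quotient_of_finiteIndex
  let f : ↥(FixedPoints.addSubgroup G J) → (G ⧸ H → {t : J // p • t = 0}) :=
    fun x q => ⟨q.out • y x - y x, htor x q.out⟩
  -- equal invariants imply congruence modulo `p`
  have hf : ∀ x x' : ↥(FixedPoints.addSubgroup G J), f x = f x' →
      x - x' ∈ (nsmulAddMonoidHom (α := ↥(FixedPoints.addSubgroup G J)) p).range := by
    intro x x' hxx'
    have hfix : ∀ σ : G, σ • (y x - y x') = y x - y x' := by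
      intro σ
      have h1 := congrArg Subtype.val (congrFun hxx' (QuotientGroup.mk (s := H) σ))
      simp only [f] at h1
      rw [← hcoset x σ, ← hcoset x' σ] at h1
      rw [smul_sub]
      have : σ • y x - σ • y x' = (σ • y x - y x) - (σ • y x' - y x') + (y x - y x') := by abel
      rw [this, h1, sub_self, zero_add]
    refine ⟨⟨y x - y x', hfix⟩, ?_⟩
    apply Subtype.ext
    simp only [nsmulAddMonoidHom_apply, AddSubgroup.coe_nsmul, AddSubgroup.coe_sub]
    rw [smul_sub, hy x, hy x']
  -- conclude by injecting the quotient into a finite type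
  set R := (nsmulAddMonoidHom (α := ↥(FixedPoints.addSubgroup G J)) p).range with hR
  have hinj : Function.Injective
      (fun q : ↥(FixedPoints.addSubgroup G J) ⧸ R => f q.out) := by
    intro q q' hqq'
    have := hf _ _ hqq'
    rw [← QuotientAddGroup.out_eq' q, ← QuotientAddGroup.out_eq' q']
    exact (QuotientAddGroup.eq_iff_sub_mem.mpr this)
  have : Finite (↥(FixedPoints.addSubgroup G J) ⧸ R) := Finite.of_injective _ hinj
  exact AddSubgroup.finiteIndex_of_finite_quotient

end Abstract

section Inputs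

/-- Finiteness of the maximal abelian extension of exponent `p` unramified outside `M`, over
every number field `K ⊆ ℚ̄`, in the Prelude's vocabulary: there is a finite `L ⊇ K` such that
every subgroup `U` of the fixing group of `K` which is open, has abelian quotient of
exponent `p`, and contains the inertia groups at all primes not dividing `M`, contains the
fixing group of `L`. (Classical: Kummer theory, finiteness of the class group, unit theorem.) -/
def ExpUnramifiedBound (p M : ℕ) : Prop :=
  ∀ K : IntermediateField ℚ (AlgebraicClosure ℚ), FiniteDimensional ℚ K →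
    ∃ L : IntermediateField ℚ (AlgebraicClosure ℚ), FiniteDimensional ℚ L ∧
      ∀ U : Subgroup Gal,
        (∃ L' : IntermediateField ℚ (AlgebraicClosure ℚ),
          FiniteDimensional ℚ L' ∧ L'.fixingSubgroup ≤ U) →
        (∀ σ ∈ K.fixingSubgroup, ∀ τ ∈ K.fixingSubgroup, σ * τ * σ⁻¹ * τ⁻¹ ∈ U) →
        (∀ σ ∈ K.fixingSubgroup, σ ^ p ∈ U) →
        (∀ ℓ : ℕ, ℓ.Prime → ¬ ℓ ∣ M → ∀ A : ValuationSubring (AlgebraicClosure ℚ),
          A.LiesOverPrime ℓ → ∀ σ ∈ A.inertiaSubgroupIn ℚ, σ ∈ K.fixingSubgroup → σ ∈ U) →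
        L.fixingSubgroup ⊓ K.fixingSubgroup ≤ U

variable {J : Type*} [AddCommGroup J] [DistribMulAction Gal J]

/-- Every element of a Galois module with open stabilisers and finite `p`-torsion: the
`p`-torsion is fixed by the fixing group of one finite extension. -/
theorem exists_finite_fixing_torsion (p : ℕ)
    (hlevel : ∀ y : J, ∃ L : IntermediateField ℚ (AlgebraicClosure ℚ),
      FiniteDimensional ℚ L ∧ ∀ σ ∈ L.fixingSubgroup, σ • y = y)
    (htors : Finite {t : J // p • t = 0}) :
    ∃ K : IntermediateField ℚ (AlgebraicClosure ℚ), FiniteDimensional ℚ K ∧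
      ∀ σ ∈ K.fixingSubgroup, ∀ t : J, p • t = 0 → σ • t = t := by
  classical
  choose Lf hLf hLfix using hlevel
  have := htors
  have : ∀ t : {t : J // p • t = 0}, FiniteDimensional ℚ (Lf t.1) := fun t => hLf t.1
  refine ⟨⨆ t : {t : J // p • t = 0}, Lf t.1, ?_, ?_⟩
  · exact IntermediateField.finiteDimensional_iSup_of_finite
  · intro σ hσ t ht
    refine hLfix t σ ?_
    exact IntermediateField.fixingSubgroup_le (le_iSup (fun t : {t : J // p • t = 0} => Lf t.1)
      ⟨t, ht⟩) hσ

/-- **Weak Mordell–Weil from its inputs.** -/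
theorem finiteIndex_nsmul_of_inputs (p M : ℕ)
    (hunr : ∀ ℓ : ℕ, ℓ.Prime → ¬ ℓ ∣ M → ∀ A : ValuationSubring (AlgebraicClosure ℚ),
      A.LiesOverPrime ℓ → ∀ σ ∈ A.inertiaSubgroupIn ℚ, ∀ y : J,
        (∀ τ : Gal, τ • (p • y) = p • y) → σ • y = y)
    (hdiv : ∀ x : J, ∃ y : J, p • y = x)
    (hlevel : ∀ y : J, ∃ L : IntermediateField ℚ (AlgebraicClosure ℚ),
      FiniteDimensional ℚ L ∧ ∀ σ ∈ L.fixingSubgroup, σ • y = y)
    (htors : Finite {t : J // p • t = 0})
    (hkum : ExpUnramifiedBound p M) :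
    (nsmulAddMonoidHom (α := ↥(FixedPoints.addSubgroup Gal J)) p).range.FiniteIndex := by
  classical
  obtain ⟨K, hKfin, hKfix⟩ := exists_finite_fixing_torsion p hlevel htors
  obtain ⟨L, hLfin, hL⟩ := hkum K hKfin
  -- the subgroup `H = Gal(ℚ̄/LK)` has finite index
  have : FiniteDimensional ℚ (L ⊔ K : IntermediateField ℚ (AlgebraicClosure ℚ)) :=
    IntermediateField.finiteDimensional_sup L K
  have : Algebra.IsAlgebraic ℚ (AlgebraicClosure ℚ) := AlgebraicClosure.isAlgebraic ℚ
  have : IsAlgClosure ℚ (AlgebraicClosure ℚ) := ⟨inferInstance, inferInstance⟩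
  have : IsGalois ℚ (AlgebraicClosure ℚ) := inferInstance
  have hidx : (L ⊔ K : IntermediateField ℚ (AlgebraicClosure ℚ)).fixingSubgroup.index ≠ 0 := by
    rw [← IntermediateField.finrank_eq_fixingSubgroup_index]
    exact Module.finrank_pos.ne'
  have : (L ⊔ K : IntermediateField ℚ (AlgebraicClosure ℚ)).fixingSubgroup.FiniteIndex := ⟨hidx⟩
  refine finiteIndex_nsmul_fixedPoints p (L ⊔ K).fixingSubgroup htors ?_
  intro x hx
  obtain ⟨y, hy⟩ := hdiv x
  refine ⟨y, hy, ?_⟩
  -- the Kummer character of `y` on `Gal(ℚ̄/K)`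
  have htor : ∀ σ : Gal, p • (σ • y - y) = 0 := by
    intro σ
    rw [smul_sub, smul_comm p σ y, hy, hx σ, sub_self]
  have hadd : ∀ σ ∈ K.fixingSubgroup, ∀ τ : Gal,
      (σ * τ) • y - y = (σ • y - y) + (τ • y - y) := by
    intro σ hσ τ
    have h1 : σ • (τ • y - y) = τ • y - y := hKfix σ hσ _ (htor τ)
    rw [mul_smul]
    have : σ • τ • y - y = σ • (τ • y - y) + (σ • y - y) := by rw [smul_sub]; abel
    rw [this, h1]; abel
  -- the stabiliser of `y` inside `Gal(ℚ̄/K)`
  let U : Subgroup Gal :=
    { carrier := {σ | σ ∈ K.fixingSubgroup ∧ σ • y = y}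
      one_mem' := ⟨one_mem _, one_smul _ _⟩
      mul_mem' := by
        rintro σ τ ⟨hσ, hσy⟩ ⟨hτ, hτy⟩
        exact ⟨mul_mem hσ hτ, by rw [mul_smul, hτy, hσy]⟩
      inv_mem' := by
        rintro σ ⟨hσ, hσy⟩
        exact ⟨inv_mem hσ, by rw [inv_smul_eq_iff, hσy]⟩ }
  have hUmem : ∀ σ : Gal, σ ∈ U ↔ σ ∈ K.fixingSubgroup ∧ σ • y = y := fun σ => Iff.rfl
  -- values of the character on inverses and powers
  have hinv : ∀ σ ∈ K.fixingSubgroup, σ⁻¹ • y - y = -(σ • y - y) := by
    intro σ hσ
    have h := hadd σ hσ σ⁻¹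
    rw [mul_inv_cancel, one_smul, sub_self] at h
    exact (neg_eq_of_add_eq_zero_right h.symm).symm
  have hpow : ∀ σ ∈ K.fixingSubgroup, ∀ n : ℕ, (σ ^ n) • y - y = n • (σ • y - y) := by
    intro σ hσ n
    induction n with
    | zero => simp
    | succ n ih =>
      rw [pow_succ', hadd σ hσ, ih, succ_nsmul]; abel
  obtain ⟨Ly, hLyfin, hLy⟩ := hlevel y
  have hsub := hL U
    ⟨Ly ⊔ K, IntermediateField.finiteDimensional_sup Ly K, fun σ hσ =>
      ⟨IntermediateField.fixingSubgroup_le le_sup_right hσ,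
        hLy σ (IntermediateField.fixingSubgroup_le le_sup_left hσ)⟩⟩
    (by
      intro σ hσ τ hτ
      refine ⟨mul_mem (mul_mem (mul_mem hσ hτ) (inv_mem hσ)) (inv_mem hτ), ?_⟩
      have e1 := hadd (σ * τ * σ⁻¹) (mul_mem (mul_mem hσ hτ) (inv_mem hσ)) τ⁻¹
      have e2 := hadd (σ * τ) (mul_mem hσ hτ) σ⁻¹
      have e3 := hadd σ hσ τ
      rw [e2, e3, hinv σ hσ] at e1
      rw [hinv τ hτ] at e1
      have : (σ * τ * σ⁻¹ * τ⁻¹) • y - y = 0 := by rw [e1]; abel
      exact sub_eq_zero.mp this)
    (by
      intro σ hσ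
      refine ⟨pow_mem hσ p, ?_⟩
      have := hpow σ hσ p
      rw [htor σ] at this
      exact sub_eq_zero.mp this)
    (by
      intro ℓ hℓ hℓM A hA σ hσ hσK
      exact ⟨hσK, hunr ℓ hℓ hℓM A hA σ hσ y (fun τ => by rw [hy, hx τ])⟩)
  intro σ hσ
  have hσL : σ ∈ L.fixingSubgroup := IntermediateField.fixingSubgroup_le le_sup_left hσ
  have hσK : σ ∈ K.fixingSubgroup := IntermediateField.fixingSubgroup_le le_sup_right hσ
  exact ((hUmem σ).mp (hsub ⟨hσL, hσK⟩)).2

end Inputs

section JZeroInstance

/-- **Weak Mordell–Weil for `JZero N` from the frozen conclusion of S37** (for the prime `p`)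
and the four remaining inputs: `p`-divisibility of `JZero N`, open stabilisers, finiteness of
the `p`-torsion, and `ExpUnramifiedBound p (N * p)`. The hypotheses `hsc`, `hspec` are stated
exactly as in the frozen statement S37 (instance `heckeModuleBar N`). -/
theorem finiteIndex_nsmul_JZero_of_specializationExists (N p : ℕ) [NeZero N]
    (hsc : letI := ModularCurve.heckeModuleBar N;
      SMulCommClass Gal ModularCurve.HeckeAlg (ModularCurve.JZero N))
    (hspec : letI := ModularCurve.heckeModuleBar N;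
      ModularCurve.SpecializationExists (K := ℚ) (L := AlgebraicClosure ℚ) N p
        (ModularCurve.JZero N))
    (hdiv : ∀ x : JZero N, ∃ y : JZero N, p • y = x)
    (hlevel : ∀ y : JZero N, ∃ L : IntermediateField ℚ (AlgebraicClosure ℚ),
      FiniteDimensional ℚ L ∧ ∀ σ ∈ L.fixingSubgroup, σ • y = y)
    (htors : Finite {t : JZero N // p • t = 0})
    (hkum : ExpUnramifiedBound p (N * p)) :
    (nsmulAddMonoidHom (α := ↥(FixedPoints.addSubgroup Gal (JZero N))) p).range.FiniteIndex := by
  letI := ModularCurve.heckeModuleBar N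
  refine finiteIndex_nsmul_of_inputs p (N * p) ?_ hdiv hlevel htors hkum
  intro ℓ hℓ hℓN A hA σ hσ y hy
  exact inertia_smul_eq_of_specializationExists (N := N) (p := p) hspec hℓ hℓN A hA hσ y (hy σ)

end JZeroInstance

section Final

/-- **S17 from weak Mordell–Weil and a height.** The frozen conclusion of S17 follows from
finiteness of `J(ℚ)/pJ(ℚ)` and a Northcott height with the two descent inequalities
(Mathlib's `AddCommGroup.fg_of_descent`). -/
theorem fg_fixedPoints_of_descent (N : ℕ) [NeZero N] {p : ℕ}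
    {h : ↥(FixedPoints.addSubgroup Gal (JZero N)) → ℝ} {a b c₀ : ℝ}
    {c : ↥(FixedPoints.addSubgroup Gal (JZero N)) → ℝ} (ha : 0 ≤ a) (H₀ : a < b)
    (H₁ : (nsmulAddMonoidHom (α := ↥(FixedPoints.addSubgroup Gal (JZero N))) p).range.FiniteIndex)
    (H₂ : ∀ g x, h x ≤ a * h (g + x) + c g) (H₃ : ∀ x, b * h x - c₀ ≤ h (p • x))
    [Northcott h] :
    AddGroup.FG ↥(FixedPoints.addSubgroup (AlgebraicClosure ℚ ≃ₐ[ℚ] AlgebraicClosure ℚ)
      (JZero N)) :=
  AddCommGroup.fg_of_descent ha H₀ H₁ H₂ H₃

end Final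

end Fermat.Agent.S17.helper9541
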