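import Mathlib
import Fermat.Agent.S37.helper872_TorsAssembly
import Fermat.Agent.Lib.helper3858_ResidueQbar
import Fermat.Agent.S29.helper8527_FiniteLevel
import Fermat.Agent.S18.helper4226_KummerKF
import Fermat.Agent.S17.helper9541_WeakMW

/-!
# S17 (weak Mordell–Weil): unramifiedness of division points from the S18 Kummer field form

The weak Mordell–Weil wiring `helper9541.finiteIndex_nsmul_of_inputs` needs the input

> `hunr` : inertia at `ℓ ∤ N p` fixes every `y : J₀(N)` whose multiple `p • y` is Galois-fixed.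

This file proves it **directly from the S18 Kummer field form** `helper3054.Stmt_KF N ℓ`: no
specialisation map, no Hecke operators, nothing from the back end of S37.

Proof.  Let `σ` be in the inertia group of `A` (over `ℓ ∤ N m`), `y = [D]`, `σ (m y) = m y`.
Then `m (σ D - D) = div f`, and `f = c · a / b` with `a b : IntegralFn A N` (landed normal
form).  Choose `n ≥ 1` with `σ ^ n D = D` (open stabilisers of places).  The function
`∏_{i<n} σ^i (a / b)` has divisor `σ^n D - D = 0`, hence is a constant.  As `σ^i a`, `σ^i b` are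
again integral with the same reductions (inertia acts trivially on residues), `(ā / b̄)^n` is a
nonzero constant, hence so is `ā / b̄` (the residue field is algebraically closed).  This is the
local formula `helper872.LocFormula` on the subgroup `{σ D - D}`, and the landed
`helper872.isPrincipal_of_kf` (the Kummer form at `w = 1`) gives that `σ D - D` is principal.

Main results:
* `locFormula_inertia` : the local formula on `cobDiv N σ = {σ D - D}` for `σ` in inertia;
* `inertia_smul_eq_of_kf` : `σ • (m • y) = m • y → σ • y = y` (`ℓ ∤ N m`);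
* `inertia_torsion_of_kf` : inertia at `ℓ ∤ N m` fixes `J₀(N)[m]` (shape of S29 `Stmt_U`);
* `hunr_of_kf_of_dvd`, `finiteIndex_nsmul_JZero_of_kf_of_dvd` : the weak Mordell–Weil input and
  conclusion in the exact shapes of `helper9541`, for an arbitrary bad modulus `M` with `N ∣ M`,
  `p ∣ M` (`hunr_of_kf`, `finiteIndex_nsmul_JZero_of_kf` : the case `M = N * p`).
-/

set_option autoImplicit false
set_option synthInstance.maxHeartbeats 400000

noncomputable section

namespace Fermat.Agent.S17.helper5530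

open ModularCurve AlgebraicCurve HahnSeries
open Fermat.Agent.S18.helper3054

/-- The absolute Galois group of `ℚ`. -/
abbrev GalQ : Type := AlgebraicClosure ℚ ≃ₐ[ℚ] AlgebraicClosure ℚ

/-- `ℚ̄`. -/
abbrev Qb : Type := AlgebraicClosure ℚ

/-! ## Generic part: telescoping along a semilinear automorphism -/

section Telescoping

variable {K F : Type*} [Field K] [Field F] [Algebra K F]

/-- The order of a product over `Finset.range n` of nonzero functions. -/
theorem ord_prod_range (P : Place K F) (u : ℕ → F) (hu : ∀ i, u i ≠ 0) (n : ℕ) :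
    P.ord (∏ i ∈ Finset.range n, u i) = ∑ i ∈ Finset.range n, P.ord (u i) := by
  induction n with
  | zero => simp
  | succ n ih =>
    rw [Finset.prod_range_succ, Finset.sum_range_succ,
      P.ord_mul (Finset.prod_ne_zero_iff.mpr fun i _ => hu i) (hu n), ih]

/-- `ord_P (g • f) = ord_{g⁻¹ P} f`. -/
theorem ord_smul_eq (g : SemilinearAut K F) (P : Place K F) (f : F) :
    P.ord (g • f) = (g⁻¹ • P).ord f := by
  have h := SemilinearAut.ord_smul g (g⁻¹ • P) f
  rwa [smul_inv_smul] at h

theorem smul_ne_zero_of_ne_zero (g : SemilinearAut K F) {f : F} (hf : f ≠ 0) : g • f ≠ 0 := by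
  rw [SemilinearAut.smul_def]
  exact (map_ne_zero_iff _ (SemilinearAut.toRingAut g).injective).mpr hf

/-- Telescoping: `∑_{i<n} g^i (g D - D) = g^n D - D`. -/
theorem sum_pow_smul_sub (g : SemilinearAut K F) (D : Divisor K F) (n : ℕ) :
    ∑ i ∈ Finset.range n, g ^ i • (g • D - D) = g ^ n • D - D := by
  induction n with
  | zero => simp
  | succ n ih =>
    rw [Finset.sum_range_succ, ih, smul_sub, ← mul_smul, ← pow_succ]
    abel

/-- If `div u = g D - D` and `g ^ n D = D`, then `∏_{i<n} g^i u` has trivial divisor. -/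
theorem ord_prod_pow_smul_eq_zero (g : SemilinearAut K F) (D : Divisor K F) {u : F}
    (hu : u ≠ 0) (hE : ∀ P : Place K F, (g • D - D) P = P.ord u) {n : ℕ}
    (hn : g ^ n • D = D) (P : Place K F) :
    P.ord (∏ i ∈ Finset.range n, g ^ i • u) = 0 := by
  rw [ord_prod_range P _ (fun i => smul_ne_zero_of_ne_zero (g ^ i) hu) n]
  have h1 : ∀ i, P.ord (g ^ i • u) = (g ^ i • (g • D - D)) P := by
    intro i
    rw [ord_smul_eq, SemilinearAut.divisor_smul_apply, hE]
  simp only [h1]
  rw [← Finsupp.finsetSum_apply, sum_pow_smul_sub, hn, sub_self]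
  rfl

/-- In an extension of an algebraically closed field, an element a positive power of which is a
constant is a constant. -/
theorem exists_const_of_pow_eq {k E : Type*} [Field k] [IsAlgClosed k] [Field E] [Algebra k E]
    {r : E} {n : ℕ} (hn : 0 < n) {κ : k} (h : r ^ n = algebraMap k E κ) :
    ∃ ρ : k, r = algebraMap k E ρ := by
  have hint : IsIntegral k r :=
    ⟨Polynomial.X ^ n - Polynomial.C κ, Polynomial.monic_X_pow_sub_C κ hn.ne', by simp [h]⟩
  have hdeg := IsAlgClosed.degree_eq_one_of_irreducible k (minpoly.irreducible hint)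
  obtain ⟨ρ, hρ⟩ := minpoly.mem_range_of_degree_eq_one k r hdeg
  exact ⟨ρ, hρ.symm⟩

/-- Coefficients of a constant multiple of a Laurent series. -/
theorem coeff_algebraMap_mul {L : Type*} [Field L] (c : L) (x : LaurentSeries L) (i : ℤ) :
    (algebraMap L (LaurentSeries L) c * x).coeff i = c * x.coeff i := by
  rw [algebraMap_laurentSeries_eq_single, ← HahnSeries.C_apply, HahnSeries.C_mul_eq_smul,
    HahnSeries.coeff_smul, smul_eq_mul]

end Telescoping

/-! ## Orbits of divisors under one Galois element -/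

/-- Some positive power of `σ` fixes a given divisor of `ℚ̄(X₀(N))`. -/
theorem exists_pow_smul_divisor_eq (N : ℕ) [NeZero N] (σ : GalQ)
    (D : Divisor Qb (modularFunctionFieldBar N)) :
    ∃ n : ℕ, 0 < n ∧ (arithmeticGalois (modularFunctionFieldFull N) σ) ^ n • D = D := by
  classical
  obtain ⟨L, hL, hfix⟩ := Fermat.Agent.S29.helper8527.HasFiniteLevel.finset D.support
    (P := fun v τ => arithmeticGalois (modularFunctionFieldFull N) τ • v = v)
    (fun v _ => Fermat.Agent.S29.helper8527.hasFiniteLevel_place N v)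
  have := hL
  have : Algebra.IsAlgebraic ℚ (AlgebraicClosure ℚ) := AlgebraicClosure.isAlgebraic ℚ
  have : IsAlgClosure ℚ (AlgebraicClosure ℚ) := ⟨inferInstance, inferInstance⟩
  have : IsGalois ℚ (AlgebraicClosure ℚ) := inferInstance
  have hidx : L.fixingSubgroup.index ≠ 0 := by
    rw [← IntermediateField.finrank_eq_fixingSubgroup_index]
    exact Module.finrank_pos.ne'
  obtain ⟨n, hn, -, hmem⟩ := Subgroup.exists_pow_mem_of_index_ne_zero hidx σ
  refine ⟨n, hn, ?_⟩
  have hσn : ∀ v ∈ D.support,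
      arithmeticGalois (modularFunctionFieldFull N) (σ ^ n) • v = v := fun v hv =>
    hfix (σ ^ n) (fun y hy => (IntermediateField.mem_fixingSubgroup_iff L (σ ^ n)).mp hmem y hy)
      v hv
  rw [← map_pow, SemilinearAut.divisor_smul_def]
  conv_rhs => rw [← Finsupp.mapDomain_id (v := D)]
  exact Finsupp.mapDomain_congr fun v hv => hσn v hv

/-! ## The action of inertia on integral functions -/

section Inertia

variable {A : ValuationSubring (AlgebraicClosure ℚ)} {N : ℕ}

/-- The restriction of an inertia element to the valuation ring. -/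
def resA {τ : GalQ} (hτ : τ ∈ A.inertiaSubgroupIn ℚ) : A →+* A where
  toFun x := ⟨τ x, Fermat.Agent.Lib.helper3858.apply_mem_of_mem_inertiaSubgroupIn hτ x.2⟩
  map_one' := Subtype.ext (map_one τ)
  map_mul' _ _ := Subtype.ext (map_mul τ _ _)
  map_zero' := Subtype.ext (map_zero τ)
  map_add' _ _ := Subtype.ext (map_add τ _ _)

theorem subtype_comp_resA {τ : GalQ} (hτ : τ ∈ A.inertiaSubgroupIn ℚ) :
    A.subtype.comp (resA hτ) = (τ : Qb →+* Qb).comp A.subtype :=
  RingHom.ext fun _ => rfl

theorem residue_comp_resA {τ : GalQ} (hτ : τ ∈ A.inertiaSubgroupIn ℚ) :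
    (IsLocalRing.residue A).comp (resA hτ) = IsLocalRing.residue A :=
  RingHom.ext fun x =>
    Fermat.Agent.Lib.helper3858.residue_apply_of_mem_inertiaSubgroupIn hτ x.2 _

/-- An inertia element applied to an integral function. -/
def galFn {τ : GalQ} (hτ : τ ∈ A.inertiaSubgroupIn ℚ) (a : IntegralFn A N) : IntegralFn A N where
  y := coeffMap (resA hτ) a.y
  mem := by
    rw [coeffMap_coeffMap, subtype_comp_resA, ← coeffMap_coeffMap]
    exact coeffMap_mem_laurentBaseChange τ a.mem
  memk := by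
    rw [coeffMap_coeffMap, residue_comp_resA]
    exact a.memk
  ne := by
    rw [coeffMap_coeffMap, residue_comp_resA]
    exact a.ne

theorem gen_galFn {τ : GalQ} (hτ : τ ∈ A.inertiaSubgroupIn ℚ) (a : IntegralFn A N) :
    (galFn hτ a).gen = arithmeticGalois (modularFunctionFieldFull N) τ • a.gen := by
  apply Subtype.ext
  rw [coe_arithmeticGalois_smul]
  show coeffMap A.subtype (coeffMap (resA hτ) a.y) = _
  rw [coeffMap_coeffMap, subtype_comp_resA, ← coeffMap_coeffMap]
  rfl

theorem red_galFn {τ : GalQ} (hτ : τ ∈ A.inertiaSubgroupIn ℚ) (a : IntegralFn A N) :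
    (galFn hτ a).red = a.red := by
  apply Subtype.ext
  show coeffMap (IsLocalRing.residue A) (coeffMap (resA hτ) a.y) = _
  rw [coeffMap_coeffMap, residue_comp_resA]
  rfl

/-- The integral function `∏_{i<n} σ^i a`. -/
def prodFn {σ : GalQ} (hσ : σ ∈ A.inertiaSubgroupIn ℚ) (a : IntegralFn A N) :
    ℕ → IntegralFn A N
  | 0 => IntegralFn.one
  | n + 1 => (prodFn hσ a n).mul (galFn (pow_mem hσ n) a)

theorem gen_prodFn {σ : GalQ} (hσ : σ ∈ A.inertiaSubgroupIn ℚ) (a : IntegralFn A N) (n : ℕ) :
    (prodFn hσ a n).gen =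
      ∏ i ∈ Finset.range n, (arithmeticGalois (modularFunctionFieldFull N) σ) ^ i • a.gen := by
  induction n with
  | zero => simp [prodFn]
  | succ n ih =>
    rw [prodFn, IntegralFn.gen_mul, ih, gen_galFn, map_pow, Finset.prod_range_succ]

theorem red_prodFn {σ : GalQ} (hσ : σ ∈ A.inertiaSubgroupIn ℚ) (a : IntegralFn A N) (n : ℕ) :
    (prodFn hσ a n).red = a.red ^ n := by
  induction n with
  | zero => simp [prodFn]
  | succ n ih => rw [prodFn, IntegralFn.red_mul, ih, red_galFn, pow_succ]

/-- Two integral functions which differ by a constant factor have reductions which differ by a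
nonzero constant factor. -/
theorem red_eq_of_gen_eq {a b : IntegralFn A N} {c : AlgebraicClosure ℚ}
    (h : a.gen = algebraMap (AlgebraicClosure ℚ) (modularFunctionFieldBar N) c * b.gen) :
    ∃ κ : IsLocalRing.ResidueField A, κ ≠ 0 ∧
      a.red = algebraMap (IsLocalRing.ResidueField A)
        (modularFunctionFieldFullC (IsLocalRing.ResidueField A) N) κ * b.red := by
  -- coefficientwise form of the hypothesis
  have hcoeff : ∀ i : ℤ, ((a.y.coeff i : A) : AlgebraicClosure ℚ) =
      c * ((b.y.coeff i : A) : AlgebraicClosure ℚ) := by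
    intro i
    have h1 := congrArg (fun s : modularFunctionFieldBar N =>
      (s : LaurentSeries (AlgebraicClosure ℚ)).coeff i) h
    have h2 : ((algebraMap (AlgebraicClosure ℚ) (modularFunctionFieldBar N) c * b.gen :
        modularFunctionFieldBar N) : LaurentSeries (AlgebraicClosure ℚ)).coeff i =
        c * ((b.gen : LaurentSeries (AlgebraicClosure ℚ)).coeff i) := by
      rw [MulMemClass.coe_mul]
      exact coeff_algebraMap_mul c _ i
    exact h1.trans h2
  -- some coefficient of `b` is a unit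
  obtain ⟨i0, hi0⟩ : ∃ i, IsLocalRing.residue A (b.y.coeff i) ≠ 0 := by
    by_contra hcon
    have hcon : ∀ i, IsLocalRing.residue A (b.y.coeff i) = 0 := fun i =>
      by_contra fun hi => hcon ⟨i, hi⟩
    refine b.ne ?_
    ext i
    simp [hcon i]
  have hunit : IsUnit (b.y.coeff i0) := by
    by_contra hnu
    exact hi0 ((IsLocalRing.residue_eq_zero_iff _).mpr ((IsLocalRing.mem_maximalIdeal _).mpr hnu))
  obtain ⟨u, hu⟩ := hunit
  -- hence `c ∈ A`
  have hcA : ∃ cA : A, (cA : AlgebraicClosure ℚ) = c := by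
    refine ⟨a.y.coeff i0 * ((u⁻¹ : Aˣ) : A), ?_⟩
    have h2 := hcoeff i0
    rw [← hu] at h2
    have h3 : ((u : A) : AlgebraicClosure ℚ) * (((u⁻¹ : Aˣ) : A) : AlgebraicClosure ℚ) = 1 := by
      rw [← MulMemClass.coe_mul, Units.mul_inv]
      rfl
    rw [MulMemClass.coe_mul, h2, mul_assoc, h3, mul_one]
  obtain ⟨cA, rfl⟩ := hcA
  have hy : ∀ i : ℤ, a.y.coeff i = cA * b.y.coeff i := fun i =>
    Subtype.ext (by rw [hcoeff i]; rfl)
  have hred : a.red = algebraMap (IsLocalRing.ResidueField A)
        (modularFunctionFieldFullC (IsLocalRing.ResidueField A) N)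
        (IsLocalRing.residue A cA) * b.red := by
    apply Subtype.ext
    ext i
    have h2 : ((algebraMap (IsLocalRing.ResidueField A)
        (modularFunctionFieldFullC (IsLocalRing.ResidueField A) N)
        (IsLocalRing.residue A cA) * b.red :
        modularFunctionFieldFullC (IsLocalRing.ResidueField A) N) :
        LaurentSeries (IsLocalRing.ResidueField A)).coeff i =
        IsLocalRing.residue A cA * ((b.red : LaurentSeries (IsLocalRing.ResidueField A)).coeff i) := by
      rw [MulMemClass.coe_mul]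
      exact coeff_algebraMap_mul _ _ i
    rw [h2]
    simp only [IntegralFn.coe_red, coeffMap_coeff]
    rw [hy i, map_mul]
  refine ⟨IsLocalRing.residue A cA, ?_, hred⟩
  intro h0
  rw [h0, map_zero, zero_mul] at hred
  exact a.red_ne_zero hred

end Inertia

/-! ## The local formula on `{σ D - D}` -/

/-- The subgroup `{σ D - D}` of divisors of `ℚ̄(X₀(N))`. -/
def cobDiv (N : ℕ) (σ : GalQ) : AddSubgroup (Divisor Qb (modularFunctionFieldBar N)) :=
  AddMonoidHom.range
    (DistribSMul.toAddMonoidHom (Divisor Qb (modularFunctionFieldBar N))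
        (arithmeticGalois (modularFunctionFieldFull N) σ) -
      AddMonoidHom.id (Divisor Qb (modularFunctionFieldBar N)))

theorem smul_sub_mem_cobDiv (N : ℕ) (σ : GalQ) (D : Divisor Qb (modularFunctionFieldBar N)) :
    arithmeticGalois (modularFunctionFieldFull N) σ • D - D ∈ cobDiv N σ :=
  ⟨D, rfl⟩

theorem exists_of_mem_cobDiv {N : ℕ} {σ : GalQ} {E : Divisor Qb (modularFunctionFieldBar N)}
    (hE : E ∈ cobDiv N σ) :
    ∃ D : Divisor Qb (modularFunctionFieldBar N),
      arithmeticGalois (modularFunctionFieldFull N) σ • D - D = E := by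
  obtain ⟨D, hD⟩ := hE
  exact ⟨D, hD⟩

set_option maxHeartbeats 1600000 in
/-- **Local formula for inertia.** If `σ` lies in the inertia group of `A` and `a`, `b` are
integral functions at `A` with `div a - div b = σ D - D`, then `ā = κ · b̄` with a nonzero
constant `κ`. -/
theorem locFormula_inertia {N : ℕ} [NeZero N] {A : ValuationSubring (AlgebraicClosure ℚ)}
    {σ : GalQ} (hσ : σ ∈ A.inertiaSubgroupIn ℚ) :
    Fermat.Agent.S37.helper872.LocFormula A N (cobDiv N σ) := by
  intro a b E hE hord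
  obtain ⟨D, rfl⟩ := exists_of_mem_cobDiv hE
  obtain ⟨n, hn, hnD⟩ := exists_pow_smul_divisor_eq N σ D
  have hu : a.gen / b.gen ≠ 0 := div_ne_zero a.gen_ne_zero b.gen_ne_zero
  have hEu : ∀ P : Place Qb (modularFunctionFieldBar N),
      (arithmeticGalois (modularFunctionFieldFull N) σ • D - D) P = P.ord (a.gen / b.gen) := by
    intro P
    rw [hord P, div_eq_mul_inv, P.ord_mul a.gen_ne_zero (inv_ne_zero b.gen_ne_zero), P.ord_inv]
    ring
  have hzero := ord_prod_pow_smul_eq_zero _ D hu hEu hnD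
  have hprod0 : (∏ i ∈ Finset.range n,
      (arithmeticGalois (modularFunctionFieldFull N) σ) ^ i • (a.gen / b.gen)) ≠ 0 :=
    Finset.prod_ne_zero_iff.mpr fun i _ => smul_ne_zero_of_ne_zero _ hu
  have := Fermat.Agent.S18.helper4226.finiteDimensional_jBar_FN N
  obtain ⟨c1, hc1⟩ := Fermat.Agent.S18.helper7885.exists_const_of_forall_ord_eq_zero
    (K := Qb) (Fermat.Agent.S24.helper24.jBar N) hprod0 hzero
  have hgen : (prodFn hσ a n).gen =
      algebraMap (AlgebraicClosure ℚ) (modularFunctionFieldBar N) c1 * (prodFn hσ b n).gen := by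
    rw [gen_prodFn, gen_prodFn, ← hc1, ← Finset.prod_mul_distrib]
    refine Finset.prod_congr rfl fun i _ => ?_
    rw [← smul_mul', div_mul_cancel₀ _ b.gen_ne_zero]
  obtain ⟨κ, -, hred⟩ := red_eq_of_gen_eq hgen
  rw [red_prodFn, red_prodFn] at hred
  have := Fermat.Agent.Lib.helper3858.isAlgClosed_residueField A
  have hr : (a.red / b.red) ^ n = algebraMap (IsLocalRing.ResidueField A)
      (modularFunctionFieldFullC (IsLocalRing.ResidueField A) N) κ := by
    rw [div_pow, hred]
    exact mul_div_cancel_right₀ _ (pow_ne_zero n b.red_ne_zero)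
  obtain ⟨ρ, hρ⟩ := exists_const_of_pow_eq hn hr
  refine ⟨ρ, ?_, ?_⟩
  · rintro rfl
    rw [map_zero] at hρ
    exact div_ne_zero a.red_ne_zero b.red_ne_zero hρ
  · rw [← hρ, div_mul_cancel₀ _ b.red_ne_zero]

/-! ## Unramifiedness of division points -/

/-- **Inertia fixes division points (from the Kummer field form).** Let `ℓ ∤ N m`, `A` over
`ℓ`, `σ` in the inertia group of `A`. If `σ` fixes `m • y` then `σ` fixes `y`. -/
theorem inertia_smul_eq_of_kf {N : ℕ} [NeZero N] {ℓ : ℕ} (hℓ : ℓ.Prime) (hℓN : ¬ ℓ ∣ N)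
    (hKF : Stmt_KF N ℓ) (A : ValuationSubring (AlgebraicClosure ℚ)) (hA : A.LiesOverPrime ℓ)
    {σ : GalQ} (hσ : σ ∈ A.inertiaSubgroupIn ℚ) {m : ℕ} (hm : ¬ ℓ ∣ m)
    (y : JZero N) (hy : σ • (m • y) = m • y) : σ • y = y := by
  obtain ⟨D, rfl⟩ := Pic0.mk_surjective y
  have h1 : σ • Pic0.mk D - Pic0.mk D =
      Pic0.mk (SemilinearAut.degZeroSMulHom
        (arithmeticGalois (modularFunctionFieldFull N) σ) D - D) := by
    rw [galois_smul_pic0_def, SemilinearAut.pic0_smul_mk]
    rfl
  have h2 : m • Pic0.mk (SemilinearAut.degZeroSMulHom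
      (arithmeticGalois (modularFunctionFieldFull N) σ) D - D) = 0 := by
    have h4 : m • (σ • Pic0.mk D) = σ • (m • Pic0.mk D) :=
      (map_nsmul (DistribSMul.toAddMonoidHom (JZero N) σ) m (Pic0.mk D)).symm
    rw [← h1, nsmul_sub, h4, hy, sub_self]
  have h3 := Fermat.Agent.S37.helper872.pic0_eq_zero_of_kf hKF hA (cobDiv N σ)
    (Fermat.Agent.S37.helper872.normalForm_of_liesOverPrime hℓ hℓN hA) (locFormula_inertia hσ)
    (SemilinearAut.degZeroSMulHom (arithmeticGalois (modularFunctionFieldFull N) σ) D - D)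
    (smul_sub_mem_cobDiv N σ (D : Divisor Qb (modularFunctionFieldBar N))) hm h2
  rw [← h1] at h3
  exact sub_eq_zero.mp h3

/-- **Inertia acts trivially on the prime-to-`ℓ` torsion (from the Kummer field form).** This is
the shape of the S29 interface `Stmt_U`, for every modulus `m` prime to `ℓ`. -/
theorem inertia_torsion_of_kf {N : ℕ} [NeZero N] {ℓ : ℕ} (hℓ : ℓ.Prime) (hℓN : ¬ ℓ ∣ N)
    (hKF : Stmt_KF N ℓ) (A : ValuationSubring (AlgebraicClosure ℚ)) (hA : A.LiesOverPrime ℓ)
    {σ : GalQ} (hσ : σ ∈ A.inertiaSubgroupIn ℚ) {m : ℕ} (hm : ¬ ℓ ∣ m)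
    (x : JZero N) (hx : m • x = 0) : σ • x = x :=
  inertia_smul_eq_of_kf hℓ hℓN hKF A hA hσ hm x (by rw [hx]; exact smul_zero (A := JZero N) σ)

/-- The input `hunr` of `helper9541.finiteIndex_nsmul_of_inputs` for `J = JZero N` and an
arbitrary bad modulus `M` divisible by `N` and by `p`, from the Kummer field form at level `N`
at the primes not dividing `M`. -/
theorem hunr_of_kf_of_dvd (N p M : ℕ) [NeZero N] (hNM : N ∣ M) (hpM : p ∣ M)
    (hKF : ∀ ℓ : ℕ, ℓ.Prime → ¬ ℓ ∣ M → Stmt_KF N ℓ) :
    ∀ ℓ : ℕ, ℓ.Prime → ¬ ℓ ∣ M → ∀ A : ValuationSubring (AlgebraicClosure ℚ),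
      A.LiesOverPrime ℓ → ∀ σ ∈ A.inertiaSubgroupIn ℚ, ∀ y : JZero N,
        (∀ τ : GalQ, τ • (p • y) = p • y) → σ • y = y := by
  intro ℓ hℓ hℓM A hA σ hσ y hy
  exact inertia_smul_eq_of_kf hℓ (fun h => hℓM (h.trans hNM)) (hKF ℓ hℓ hℓM) A hA hσ
    (fun h => hℓM (h.trans hpM)) y (hy σ)

/-- The input `hunr` of `helper9541.finiteIndex_nsmul_of_inputs` for `J = JZero N`, `M = N * p`,
from the Kummer field form at level `N` at the primes not dividing `N p`. -/
theorem hunr_of_kf (N p : ℕ) [NeZero N]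
    (hKF : ∀ ℓ : ℕ, ℓ.Prime → ¬ ℓ ∣ N * p → Stmt_KF N ℓ) :
    ∀ ℓ : ℕ, ℓ.Prime → ¬ ℓ ∣ N * p → ∀ A : ValuationSubring (AlgebraicClosure ℚ),
      A.LiesOverPrime ℓ → ∀ σ ∈ A.inertiaSubgroupIn ℚ, ∀ y : JZero N,
        (∀ τ : GalQ, τ • (p • y) = p • y) → σ • y = y :=
  hunr_of_kf_of_dvd N p (N * p) (dvd_mul_right N p) (dvd_mul_left p N) hKF

/-- **Weak Mordell–Weil for `JZero N` from the Kummer field form**, with an arbitrary bad
modulus `M` divisible by `N` and `p`, and the remaining inputs of
`helper9541.finiteIndex_nsmul_of_inputs`: `p`-divisibility of `JZero N`, open stabilisers,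
finiteness of the `p`-torsion, and `ExpUnramifiedBound p M`. No hypothesis from S37. -/
theorem finiteIndex_nsmul_JZero_of_kf_of_dvd (N p M : ℕ) [NeZero N] (hNM : N ∣ M) (hpM : p ∣ M)
    (hKF : ∀ ℓ : ℕ, ℓ.Prime → ¬ ℓ ∣ M → Stmt_KF N ℓ)
    (hdiv : ∀ x : JZero N, ∃ y : JZero N, p • y = x)
    (hlevel : ∀ y : JZero N, ∃ L : IntermediateField ℚ (AlgebraicClosure ℚ),
      FiniteDimensional ℚ L ∧ ∀ σ ∈ L.fixingSubgroup, σ • y = y)
    (htors : Finite {t : JZero N // p • t = 0})
    (hkum : Fermat.Agent.S17.helper9541.ExpUnramifiedBound p M) :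
    (nsmulAddMonoidHom (α := ↥(FixedPoints.addSubgroup GalQ (JZero N))) p).range.FiniteIndex :=
  Fermat.Agent.S17.helper9541.finiteIndex_nsmul_of_inputs p M
    (hunr_of_kf_of_dvd N p M hNM hpM hKF) hdiv hlevel htors hkum

/-- **Weak Mordell–Weil for `JZero N` from the Kummer field form**, bad modulus `N * p`. -/
theorem finiteIndex_nsmul_JZero_of_kf (N p : ℕ) [NeZero N]
    (hKF : ∀ ℓ : ℕ, ℓ.Prime → ¬ ℓ ∣ N * p → Stmt_KF N ℓ)
    (hdiv : ∀ x : JZero N, ∃ y : JZero N, p • y = x)
    (hlevel : ∀ y : JZero N, ∃ L : IntermediateField ℚ (AlgebraicClosure ℚ),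
      FiniteDimensional ℚ L ∧ ∀ σ ∈ L.fixingSubgroup, σ • y = y)
    (htors : Finite {t : JZero N // p • t = 0})
    (hkum : Fermat.Agent.S17.helper9541.ExpUnramifiedBound p (N * p)) :
    (nsmulAddMonoidHom (α := ↥(FixedPoints.addSubgroup GalQ (JZero N))) p).range.FiniteIndex :=
  finiteIndex_nsmul_JZero_of_kf_of_dvd N p (N * p) (dvd_mul_right N p) (dvd_mul_left p N) hKF
    hdiv hlevel htors hkum

end Fermat.Agent.S17.helper5530
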