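import Fermat.Agent.S17.helper7293_OnePoint
import Fermat.Agent.Lib.helper1572_AbsHeightEval

/-!
# S17, track (B) (G2-ALT): the (BPF) lower bound in Pluecker coordinates (helper1572)

Polynomial half of the (BPF) instance of the one-point law, in the vocabulary of
`helper7293_OnePoint` (`cvec`, `mulμ`, `Vmat`, `Vtup`, `minorsTup`).  No curve.

For rational structure constants `μ` (product of two coordinate spaces) and `ν₁`, `ν₂` (products
with a fixed third space, used for the rank conditions), the locus of pairs of nonzero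
antisymmetric tuples `(x, y)` with `rank (rkMat ν₁ x) ≤ R₁` and `rank (rkMat ν₂ y) ≤ R₂` is a
biprojective variety over `ℚ`.  If the matrix `Vmat μ x y` of all products of canonical vectors
has a nonvanishing `(ρ + 1)`-minor at every point of this locus over an algebraically closed
`Ω` (algebraic over `ℚ`), then
`(ρ + 1) * (h x + h y) - C₀ ≤ h (minorsTup (ρ + 1) (Vtup μ x y))` on the locus
(`exists_bpf_const`): this is the `C₀`-hypothesis of `helper7293.opl`.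

The section `Dictionary` translates the rank conditions into coordinate-free statements about
spans of products in any commutative algebra with the given structure constants.
-/

set_option autoImplicit false

namespace Fermat.Agent.S17.helper1572

open MvPolynomial Module
open Fermat.Agent.Lib.helper927 (absLogHeight)
open Fermat.Agent.Lib.helper1102 (biWeight)
open Fermat.Agent.S17.helper7293 (pl cvec mulμ Vmat Vtup minorsTup)

section Defs

variable {R : Type*} [CommRing R]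

/-- Antisymmetric tuples indexed by all maps `Fin n → ι` (the hypothesis `hanti` of
`helper7293.exists_linearIndependent_cvec`; it holds for `pl Y` by `antiTup_pl`). -/
def AntiTup {ι : Type*} {n : ℕ} (x : (Fin n → ι) → R) : Prop :=
  ∀ (J : Fin n → ι) (σ : Equiv.Perm (Fin n)),
    x (J ∘ σ) = ((Equiv.Perm.sign σ : ℤ) : R) * x J

theorem antiTup_pl {ι : Type*} {n : ℕ} (Y : Fin n → ι → R) : AntiTup (pl Y) :=
  fun J σ => helper7293.pl_comp_perm Y J σ

/-- The rank-condition matrix: the column `(b, s)` is the coordinate vector of the product of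
the `b`-th basis vector of the auxiliary space with the canonical vector `cvec x s`, for
structure constants `ν`. -/
def rkMat {β ι γ : Type*} [Fintype ι] {r : ℕ} (ν : β → ι → γ → R)
    (x : (Fin (r + 1) → ι) → R) : Matrix γ (β × (Fin r → ι)) R :=
  fun u bs => ∑ i, ν bs.1 i u * x (Fin.snoc bs.2 i)

theorem rkMat_apply {β ι γ : Type*} [Fintype ι] {r : ℕ} (ν : β → ι → γ → R)
    (x : (Fin (r + 1) → ι) → R) (u : γ) (bs : β × (Fin r → ι)) :
    rkMat ν x u bs = ∑ i, ν bs.1 i u * cvec x bs.2 i := rfl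

theorem rkMat_eq_mulμ {β ι γ : Type*} [Fintype ι] [Fintype β] [DecidableEq β] {r : ℕ}
    (ν : β → ι → γ → R) (x : (Fin (r + 1) → ι) → R) (u : γ) (b : β) (s : Fin r → ι) :
    rkMat ν x u (b, s) = mulμ ν (Pi.single b 1) (cvec x s) u := by
  unfold mulμ
  rw [Finset.sum_eq_single b]
  · simp [rkMat_apply]
  · intro b' _ hb'
    simp [Pi.single_eq_of_ne hb']
  · intro h
    exact absurd (Finset.mem_univ b) h

end Defs

section LinearAlgebra

variable {F : Type*} [Field F]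

/-- The tuple of all `n`-minors of a matrix (given as a tuple) is nonzero iff the matrix has
rank at least `n`. -/
theorem minorsTup_ne_zero_iff_le_rank {α β : Type*} [Finite α] [Fintype β] (n : ℕ)
    (V : α × β → F) :
    minorsTup n V ≠ 0 ↔ n ≤ (Matrix.of fun a b => V (a, b)).rank := by
  constructor
  · intro h
    obtain ⟨TS, hTS⟩ := Function.ne_iff.mp h
    exact Lib.helper1572.le_rank_of_submatrix_det_ne_zero (Matrix.of fun a b => V (a, b))
      TS.1 TS.2 hTS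
  · intro h
    obtain ⟨s, c, hsc⟩ := Lib.helper1572.exists_submatrix_det_ne_zero_of_le_rank
      (Matrix.of fun a b => V (a, b)) h
    exact Function.ne_iff.mpr ⟨(s, c), hsc⟩

/-- `minorsTup n (Vtup μ x y) ≠ 0` iff the matrix `Vmat μ x y` of all products of canonical
vectors has rank at least `n`. -/
theorem minorsTup_Vtup_ne_zero_iff {ι₁ ι₂ ι₃ : Type*} [Fintype ι₁] [Fintype ι₂] [Finite ι₃]
    (μ : ι₁ → ι₂ → ι₃ → F) {r r' : ℕ} (n : ℕ) (x : (Fin (r + 1) → ι₁) → F)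
    (y : (Fin (r' + 1) → ι₂) → F) :
    minorsTup n (Vtup μ x y) ≠ 0 ↔ n ≤ (Vmat μ x y).rank :=
  minorsTup_ne_zero_iff_le_rank n (Vtup μ x y)

end LinearAlgebra

section BPF

variable {Ω : Type*} [Field Ω] [CharZero Ω]
variable {ι₁ ι₂ ι₃ : Type*} [Fintype ι₁] [Fintype ι₂]

/-- The polynomial matrix over `ℚ` whose value at `(x, y)` is `Vmat μ x y`. -/
noncomputable def vPoly (μ : ι₁ → ι₂ → ι₃ → ℚ) (r r' : ℕ) :
    Matrix ι₃ ((Fin r → ι₁) × (Fin r' → ι₂))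
      (MvPolynomial ((Fin (r + 1) → ι₁) ⊕ (Fin (r' + 1) → ι₂)) ℚ) :=
  fun t c => ∑ i, ∑ j, C (μ i j t) * X (Sum.inl (Fin.snoc (α := fun _ => ι₁) c.1 i)) *
    X (Sum.inr (Fin.snoc (α := fun _ => ι₂) c.2 j))

theorem vPoly_isWeightedHomogeneous (μ : ι₁ → ι₂ → ι₃ → ℚ) (r r' : ℕ) (t : ι₃)
    (c : (Fin r → ι₁) × (Fin r' → ι₂)) :
    (vPoly μ r r' t c).IsWeightedHomogeneous
      (biWeight (Fin (r + 1) → ι₁) (Fin (r' + 1) → ι₂)) (1, 1) :=
  IsWeightedHomogeneous.sum _ _ _ fun _ _ => IsWeightedHomogeneous.sum _ _ _ fun _ _ =>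
    Lib.helper1572.isWeightedHomogeneous_biWeight_C_mul_X_mul_X _ _ _

theorem map_aeval_vPoly (μ : ι₁ → ι₂ → ι₃ → ℚ) {r r' : ℕ} (x : (Fin (r + 1) → ι₁) → Ω)
    (y : (Fin (r' + 1) → ι₂) → Ω) :
    (vPoly μ r r').map (aeval (Sum.elim x y)) =
      Vmat (fun i j t => algebraMap ℚ Ω (μ i j t)) x y := by
  ext t c
  simp [vPoly, Vmat, mulμ, cvec]

/-- The polynomial matrix of the rank condition on the first tuple. -/
noncomputable def rkPolyL {β γ : Type*} (ν : β → ι₁ → γ → ℚ) (r : ℕ) (κ : Type*) :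
    Matrix γ (β × (Fin r → ι₁)) (MvPolynomial ((Fin (r + 1) → ι₁) ⊕ κ) ℚ) :=
  fun u bs => ∑ i, C (ν bs.1 i u) * X (Sum.inl (Fin.snoc (α := fun _ => ι₁) bs.2 i))

theorem rkPolyL_isWeightedHomogeneous {β γ : Type*} (ν : β → ι₁ → γ → ℚ) (r : ℕ) (κ : Type*)
    (u : γ) (bs : β × (Fin r → ι₁)) :
    (rkPolyL ν r κ u bs).IsWeightedHomogeneous (biWeight (Fin (r + 1) → ι₁) κ) (1, 0) :=
  IsWeightedHomogeneous.sum _ _ _ fun _ _ =>
    Lib.helper1572.isWeightedHomogeneous_biWeight_C_mul_X_inl _ _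

theorem map_aeval_rkPolyL {β γ : Type*} (ν : β → ι₁ → γ → ℚ) {r : ℕ} {κ : Type*}
    (x : (Fin (r + 1) → ι₁) → Ω) (y : κ → Ω) :
    (rkPolyL ν r κ).map (aeval (Sum.elim x y)) =
      rkMat (fun b i u => algebraMap ℚ Ω (ν b i u)) x := by
  ext u bs
  simp [rkPolyL, rkMat]

/-- The polynomial matrix of the rank condition on the second tuple. -/
noncomputable def rkPolyR {β γ : Type*} (ν : β → ι₂ → γ → ℚ) (r' : ℕ) (ι : Type*) :
    Matrix γ (β × (Fin r' → ι₂)) (MvPolynomial (ι ⊕ (Fin (r' + 1) → ι₂)) ℚ) :=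
  fun u bs => ∑ j, C (ν bs.1 j u) * X (Sum.inr (Fin.snoc (α := fun _ => ι₂) bs.2 j))

theorem rkPolyR_isWeightedHomogeneous {β γ : Type*} (ν : β → ι₂ → γ → ℚ) (r' : ℕ) (ι : Type*)
    (u : γ) (bs : β × (Fin r' → ι₂)) :
    (rkPolyR ν r' ι u bs).IsWeightedHomogeneous (biWeight ι (Fin (r' + 1) → ι₂)) (0, 1) :=
  IsWeightedHomogeneous.sum _ _ _ fun _ _ =>
    Lib.helper1572.isWeightedHomogeneous_biWeight_C_mul_X_inr _ _

theorem map_aeval_rkPolyR {β γ : Type*} (ν : β → ι₂ → γ → ℚ) {r' : ℕ} {ι : Type*}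
    (x : ι → Ω) (y : (Fin (r' + 1) → ι₂) → Ω) :
    (rkPolyR ν r' ι).map (aeval (Sum.elim x y)) =
      rkMat (fun b j u => algebraMap ℚ Ω (ν b j u)) y := by
  ext u bs
  simp [rkPolyR, rkMat]

/-- The antisymmetry linear forms in the first block of variables. -/
noncomputable def antiPolyL (ι κ : Type*) (n : ℕ) (Jσ : (Fin n → ι) × Equiv.Perm (Fin n)) :
    MvPolynomial ((Fin n → ι) ⊕ κ) ℚ :=
  X (Sum.inl (Jσ.1 ∘ Jσ.2)) + C (-((Equiv.Perm.sign Jσ.2 : ℤ) : ℚ)) * X (Sum.inl Jσ.1)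

theorem antiPolyL_isWeightedHomogeneous (ι κ : Type*) (n : ℕ)
    (Jσ : (Fin n → ι) × Equiv.Perm (Fin n)) :
    (antiPolyL ι κ n Jσ).IsWeightedHomogeneous (biWeight (Fin n → ι) κ) (1, 0) :=
  (isWeightedHomogeneous_X ℚ (biWeight (Fin n → ι) κ) (Sum.inl (Jσ.1 ∘ Jσ.2))).add
    (Lib.helper1572.isWeightedHomogeneous_biWeight_C_mul_X_inl _ _)

theorem aeval_antiPolyL_eq_zero_iff {ι κ : Type*} {n : ℕ} (x : (Fin n → ι) → Ω) (y : κ → Ω) :
    (∀ Jσ, aeval (Sum.elim x y) (antiPolyL ι κ n Jσ) = 0) ↔ AntiTup x := by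
  constructor
  · intro h J σ
    have h1 := h (J, σ)
    simp only [antiPolyL, map_add, map_mul, aeval_X, Sum.elim_inl, map_neg,
      map_intCast] at h1
    linear_combination h1
  · rintro h ⟨J, σ⟩
    simp only [antiPolyL, map_add, map_mul, aeval_X, Sum.elim_inl, map_neg,
      map_intCast]
    rw [h J σ]
    ring

/-- The antisymmetry linear forms in the second block of variables. -/
noncomputable def antiPolyR (ι κ : Type*) (n : ℕ) (Jσ : (Fin n → κ) × Equiv.Perm (Fin n)) :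
    MvPolynomial (ι ⊕ (Fin n → κ)) ℚ :=
  X (Sum.inr (Jσ.1 ∘ Jσ.2)) + C (-((Equiv.Perm.sign Jσ.2 : ℤ) : ℚ)) * X (Sum.inr Jσ.1)

theorem antiPolyR_isWeightedHomogeneous (ι κ : Type*) (n : ℕ)
    (Jσ : (Fin n → κ) × Equiv.Perm (Fin n)) :
    (antiPolyR ι κ n Jσ).IsWeightedHomogeneous (biWeight ι (Fin n → κ)) (0, 1) :=
  (isWeightedHomogeneous_X ℚ (biWeight ι (Fin n → κ)) (Sum.inr (Jσ.1 ∘ Jσ.2))).add
    (Lib.helper1572.isWeightedHomogeneous_biWeight_C_mul_X_inr _ _)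

theorem aeval_antiPolyR_eq_zero_iff {ι κ : Type*} {n : ℕ} (x : ι → Ω) (y : (Fin n → κ) → Ω) :
    (∀ Jσ, aeval (Sum.elim x y) (antiPolyR ι κ n Jσ) = 0) ↔ AntiTup y := by
  constructor
  · intro h J σ
    have h1 := h (J, σ)
    simp only [antiPolyR, map_add, map_mul, aeval_X, Sum.elim_inr, map_neg,
      map_intCast] at h1
    linear_combination h1
  · rintro h ⟨J, σ⟩
    simp only [antiPolyR, map_add, map_mul, aeval_X, Sum.elim_inr, map_neg,
      map_intCast]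
    rw [h J σ]
    ring

variable [Fintype ι₃] [Algebra.IsAlgebraic ℚ Ω] [IsAlgClosed Ω]

/-- **(BPF) in Pluecker coordinates, two-sided.** Rational structure constants `μ`, `ν₁`, `ν₂`;
`Ω` algebraically closed and algebraic over `ℚ`. If for all nonzero antisymmetric `x`, `y` over
`Ω` with `rank (rkMat ν₁ x) ≤ R₁` and `rank (rkMat ν₂ y) ≤ R₂` some `(ρ + 1)`-minor of
`Vmat μ x y` does not vanish, then on this locus
`|h (minorsTup (ρ + 1) (Vtup μ x y)) - (ρ + 1) * (h x + h y)| ≤ C`. -/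
theorem exists_abs_bpf_const {β₁ γ₁ β₂ γ₂ : Type*} [Fintype β₁] [Fintype γ₁] [Fintype β₂]
    [Fintype γ₂] (μ : ι₁ → ι₂ → ι₃ → ℚ) (ν₁ : β₁ → ι₁ → γ₁ → ℚ) (ν₂ : β₂ → ι₂ → γ₂ → ℚ)
    (r r' ρ R₁ R₂ : ℕ)
    (h0 : ∀ (x : (Fin (r + 1) → ι₁) → Ω) (y : (Fin (r' + 1) → ι₂) → Ω), x ≠ 0 → y ≠ 0 →
      AntiTup x → AntiTup y →
      (rkMat (fun b i u => algebraMap ℚ Ω (ν₁ b i u)) x).rank ≤ R₁ →
      (rkMat (fun b j u => algebraMap ℚ Ω (ν₂ b j u)) y).rank ≤ R₂ →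
      minorsTup (ρ + 1) (Vtup (fun i j t => algebraMap ℚ Ω (μ i j t)) x y) ≠ 0) :
    ∃ C : ℝ, ∀ (x : (Fin (r + 1) → ι₁) → Ω) (y : (Fin (r' + 1) → ι₂) → Ω), x ≠ 0 → y ≠ 0 →
      AntiTup x → AntiTup y →
      (rkMat (fun b i u => algebraMap ℚ Ω (ν₁ b i u)) x).rank ≤ R₁ →
      (rkMat (fun b j u => algebraMap ℚ Ω (ν₂ b j u)) y).rank ≤ R₂ →
      |absLogHeight (minorsTup (ρ + 1) (Vtup (fun i j t => algebraMap ℚ Ω (μ i j t)) x y)) -
        ((ρ : ℝ) + 1) * (absLogHeight x + absLogHeight y)| ≤ C := by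
  classical
  -- the closed conditions
  let g : (((Fin (r + 1) → ι₁) × Equiv.Perm (Fin (r + 1))) ⊕
        ((Fin (r' + 1) → ι₂) × Equiv.Perm (Fin (r' + 1)))) ⊕
      (((Fin (R₁ + 1) → γ₁) × (Fin (R₁ + 1) → β₁ × (Fin r → ι₁))) ⊕
        ((Fin (R₂ + 1) → γ₂) × (Fin (R₂ + 1) → β₂ × (Fin r' → ι₂)))) →
      MvPolynomial ((Fin (r + 1) → ι₁) ⊕ (Fin (r' + 1) → ι₂)) ℚ :=
    Sum.elim
      (Sum.elim (antiPolyL ι₁ (Fin (r' + 1) → ι₂) (r + 1))
        (antiPolyR (Fin (r + 1) → ι₁) ι₂ (r' + 1)))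
      (Sum.elim
        (fun sc => ((rkPolyL ν₁ r (Fin (r' + 1) → ι₂)).submatrix sc.1 sc.2).det)
        (fun sc => ((rkPolyR ν₂ r' (Fin (r + 1) → ι₁)).submatrix sc.1 sc.2).det))
  have hg : ∀ l, ∃ d, (g l).IsWeightedHomogeneous
      (biWeight (Fin (r + 1) → ι₁) (Fin (r' + 1) → ι₂)) d := by
    rintro ((Jσ | Jσ) | (sc | sc))
    · exact ⟨_, antiPolyL_isWeightedHomogeneous _ _ _ Jσ⟩
    · exact ⟨_, antiPolyR_isWeightedHomogeneous _ _ _ Jσ⟩
    · exact ⟨_, Lib.helper1572.isWeightedHomogeneous_det_submatrix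
        (rkPolyL_isWeightedHomogeneous ν₁ r _) sc.1 sc.2⟩
    · exact ⟨_, Lib.helper1572.isWeightedHomogeneous_det_submatrix
        (rkPolyR_isWeightedHomogeneous ν₂ r' _) sc.1 sc.2⟩
  have hiff : ∀ (x : (Fin (r + 1) → ι₁) → Ω) (y : (Fin (r' + 1) → ι₂) → Ω),
      (∀ l, aeval (Sum.elim x y) (g l) = 0) ↔
        (AntiTup x ∧ AntiTup y ∧
          (rkMat (fun b i u => algebraMap ℚ Ω (ν₁ b i u)) x).rank ≤ R₁ ∧
          (rkMat (fun b j u => algebraMap ℚ Ω (ν₂ b j u)) y).rank ≤ R₂) := by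
    intro x y
    rw [← aeval_antiPolyL_eq_zero_iff x y, ← aeval_antiPolyR_eq_zero_iff x y,
      Lib.helper1572.rank_le_iff_forall_submatrix_det_eq_zero,
      Lib.helper1572.rank_le_iff_forall_submatrix_det_eq_zero,
      ← map_aeval_rkPolyL ν₁ x y, ← map_aeval_rkPolyR ν₂ x y]
    constructor
    · intro h
      refine ⟨fun Jσ => h (Sum.inl (Sum.inl Jσ)), fun Jσ => h (Sum.inl (Sum.inr Jσ)),
        fun s c => ?_, fun s c => ?_⟩
      · rw [← Lib.helper1572.aeval_det_submatrix]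
        exact h (Sum.inr (Sum.inl (s, c)))
      · rw [← Lib.helper1572.aeval_det_submatrix]
        exact h (Sum.inr (Sum.inr (s, c)))
    · rintro ⟨h1, h2, h3, h4⟩ ((Jσ | Jσ) | (sc | sc))
      · exact h1 Jσ
      · exact h2 Jσ
      · show aeval (Sum.elim x y)
          ((rkPolyL ν₁ r (Fin (r' + 1) → ι₂)).submatrix sc.1 sc.2).det = 0
        rw [Lib.helper1572.aeval_det_submatrix]
        exact h3 sc.1 sc.2
      · show aeval (Sum.elim x y)
          ((rkPolyR ν₂ r' (Fin (r + 1) → ι₁)).submatrix sc.1 sc.2).det = 0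
        rw [Lib.helper1572.aeval_det_submatrix]
        exact h4 sc.1 sc.2
  obtain ⟨C, hC⟩ := Lib.helper1572.abs_absLogHeight_minors_sub_le_on (Ω := Ω) (K := ℚ)
    (N := vPoly μ r r') (vPoly_isWeightedHomogeneous μ r r') hg (ρ + 1)
    (fun x y hx hy hgxy => by
      obtain ⟨ha, hb, h1, h2⟩ := (hiff x y).mp hgxy
      rw [map_aeval_vPoly, ← minorsTup_Vtup_ne_zero_iff]
      exact h0 x y hx hy ha hb h1 h2)
  refine ⟨C, fun x y hx hy ha hb h1 h2 => ?_⟩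
  have h := hC x y hx hy ((hiff x y).mpr ⟨ha, hb, h1, h2⟩)
  rw [map_aeval_vPoly] at h
  have hmin : (fun sc : (Fin (ρ + 1) → ι₃) × (Fin (ρ + 1) → (Fin r → ι₁) × (Fin r' → ι₂)) =>
      ((Vmat (fun i j t => algebraMap ℚ Ω (μ i j t)) x y).submatrix sc.1 sc.2).det) =
      minorsTup (ρ + 1) (Vtup (fun i j t => algebraMap ℚ Ω (μ i j t)) x y) := rfl
  rw [hmin] at h
  push_cast at h
  have e : ((ρ : ℝ) + 1) * (absLogHeight x + absLogHeight y) =
      ((ρ : ℝ) + 1) * (1 * absLogHeight x + 1 * absLogHeight y) := by ring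
  rw [e]
  exact h

/-- **(BPF) in Pluecker coordinates: the `C₀`-hypothesis of `helper7293.opl`.** Same hypotheses
as `exists_abs_bpf_const`; conclusion
`(ρ + 1) * (h x + h y) - C₀ ≤ h (minorsTup (ρ + 1) (Vtup μ x y))` on the locus of nonzero
antisymmetric `x`, `y` satisfying the two rank conditions. -/
theorem exists_bpf_const {β₁ γ₁ β₂ γ₂ : Type*} [Fintype β₁] [Fintype γ₁] [Fintype β₂]
    [Fintype γ₂] (μ : ι₁ → ι₂ → ι₃ → ℚ) (ν₁ : β₁ → ι₁ → γ₁ → ℚ) (ν₂ : β₂ → ι₂ → γ₂ → ℚ)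
    (r r' ρ R₁ R₂ : ℕ)
    (h0 : ∀ (x : (Fin (r + 1) → ι₁) → Ω) (y : (Fin (r' + 1) → ι₂) → Ω), x ≠ 0 → y ≠ 0 →
      AntiTup x → AntiTup y →
      (rkMat (fun b i u => algebraMap ℚ Ω (ν₁ b i u)) x).rank ≤ R₁ →
      (rkMat (fun b j u => algebraMap ℚ Ω (ν₂ b j u)) y).rank ≤ R₂ →
      minorsTup (ρ + 1) (Vtup (fun i j t => algebraMap ℚ Ω (μ i j t)) x y) ≠ 0) :
    ∃ C₀ : ℝ, ∀ (x : (Fin (r + 1) → ι₁) → Ω) (y : (Fin (r' + 1) → ι₂) → Ω), x ≠ 0 → y ≠ 0 →
      AntiTup x → AntiTup y →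
      (rkMat (fun b i u => algebraMap ℚ Ω (ν₁ b i u)) x).rank ≤ R₁ →
      (rkMat (fun b j u => algebraMap ℚ Ω (ν₂ b j u)) y).rank ≤ R₂ →
      ((ρ : ℝ) + 1) * (absLogHeight x + absLogHeight y) - C₀ ≤
        absLogHeight (minorsTup (ρ + 1) (Vtup (fun i j t => algebraMap ℚ Ω (μ i j t)) x y)) := by
  obtain ⟨C, hC⟩ := exists_abs_bpf_const (Ω := Ω) μ ν₁ ν₂ r r' ρ R₁ R₂ h0
  refine ⟨C, fun x y hx hy ha hb h1 h2 => ?_⟩
  have h := (abs_le.mp (hC x y hx hy ha hb h1 h2)).1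
  linarith

/-- `exists_bpf_const` for structure constants given in `Ω` with rational values. -/
theorem exists_bpf_const_of_rational {β₁ γ₁ β₂ γ₂ : Type*} [Fintype β₁] [Fintype γ₁]
    [Fintype β₂] [Fintype γ₂] (μ : ι₁ → ι₂ → ι₃ → Ω) (ν₁ : β₁ → ι₁ → γ₁ → Ω)
    (ν₂ : β₂ → ι₂ → γ₂ → Ω) (hμ : ∀ i j t, μ i j t ∈ Set.range (algebraMap ℚ Ω))
    (hν₁ : ∀ b i u, ν₁ b i u ∈ Set.range (algebraMap ℚ Ω))
    (hν₂ : ∀ b j u, ν₂ b j u ∈ Set.range (algebraMap ℚ Ω)) (r r' ρ R₁ R₂ : ℕ)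
    (h0 : ∀ (x : (Fin (r + 1) → ι₁) → Ω) (y : (Fin (r' + 1) → ι₂) → Ω), x ≠ 0 → y ≠ 0 →
      AntiTup x → AntiTup y → (rkMat ν₁ x).rank ≤ R₁ → (rkMat ν₂ y).rank ≤ R₂ →
      minorsTup (ρ + 1) (Vtup μ x y) ≠ 0) :
    ∃ C₀ : ℝ, ∀ (x : (Fin (r + 1) → ι₁) → Ω) (y : (Fin (r' + 1) → ι₂) → Ω), x ≠ 0 → y ≠ 0 →
      AntiTup x → AntiTup y → (rkMat ν₁ x).rank ≤ R₁ → (rkMat ν₂ y).rank ≤ R₂ →
      ((ρ : ℝ) + 1) * (absLogHeight x + absLogHeight y) - C₀ ≤
        absLogHeight (minorsTup (ρ + 1) (Vtup μ x y)) := by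
  choose μQ hμQ using hμ
  choose ν₁Q hν₁Q using hν₁
  choose ν₂Q hν₂Q using hν₂
  obtain rfl : (fun i j t => algebraMap ℚ Ω (μQ i j t)) = μ :=
    funext fun i => funext fun j => funext fun t => hμQ i j t
  obtain rfl : (fun b i u => algebraMap ℚ Ω (ν₁Q b i u)) = ν₁ :=
    funext fun b => funext fun i => funext fun u => hν₁Q b i u
  obtain rfl : (fun b j u => algebraMap ℚ Ω (ν₂Q b j u)) = ν₂ :=
    funext fun b => funext fun j => funext fun u => hν₂Q b j u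
  exact exists_bpf_const μQ ν₁Q ν₂Q r r' ρ R₁ R₂ h0

/-- `exists_bpf_const` with the rational structure constants cast by `Rat.cast` (the shape of
`helper2273.mulμ`). -/
theorem exists_bpf_const_ratCast {β₁ γ₁ β₂ γ₂ : Type*} [Fintype β₁] [Fintype γ₁]
    [Fintype β₂] [Fintype γ₂] (μ : ι₁ → ι₂ → ι₃ → ℚ) (ν₁ : β₁ → ι₁ → γ₁ → ℚ)
    (ν₂ : β₂ → ι₂ → γ₂ → ℚ) (r r' ρ R₁ R₂ : ℕ)
    (h0 : ∀ (x : (Fin (r + 1) → ι₁) → Ω) (y : (Fin (r' + 1) → ι₂) → Ω), x ≠ 0 → y ≠ 0 →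
      AntiTup x → AntiTup y →
      (rkMat (fun b i u => ((ν₁ b i u : ℚ) : Ω)) x).rank ≤ R₁ →
      (rkMat (fun b j u => ((ν₂ b j u : ℚ) : Ω)) y).rank ≤ R₂ →
      minorsTup (ρ + 1) (Vtup (fun i j t => ((μ i j t : ℚ) : Ω)) x y) ≠ 0) :
    ∃ C₀ : ℝ, ∀ (x : (Fin (r + 1) → ι₁) → Ω) (y : (Fin (r' + 1) → ι₂) → Ω), x ≠ 0 → y ≠ 0 →
      AntiTup x → AntiTup y →
      (rkMat (fun b i u => ((ν₁ b i u : ℚ) : Ω)) x).rank ≤ R₁ →
      (rkMat (fun b j u => ((ν₂ b j u : ℚ) : Ω)) y).rank ≤ R₂ →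
      ((ρ : ℝ) + 1) * (absLogHeight x + absLogHeight y) - C₀ ≤
        absLogHeight (minorsTup (ρ + 1) (Vtup (fun i j t => ((μ i j t : ℚ) : Ω)) x y)) :=
  exists_bpf_const_of_rational _ _ _ (fun i j t => ⟨μ i j t, eq_ratCast _ _⟩)
    (fun b i u => ⟨ν₁ b i u, eq_ratCast _ _⟩) (fun b j u => ⟨ν₂ b j u, eq_ratCast _ _⟩)
    r r' ρ R₁ R₂ h0

end BPF

section Dictionary

variable {K : Type*} [Field K]

/-- **Rank = dimension of the span.** For a linearly independent family `e` and a matrix `M`,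
the rank of `M` is the dimension of the span of the vectors `∑ u, M u j • e u` whose coordinate
vectors are the columns of `M`. -/
theorem rank_eq_finrank_span_of_linearIndependent {V : Type*} [AddCommGroup V] [Module K V]
    {γ c : Type*} [Fintype γ] [Fintype c] (e : γ → V) (he : LinearIndependent K e)
    (M : Matrix γ c K) :
    M.rank = finrank K (Submodule.span K (Set.range fun j : c => ∑ u, M u j • e u)) := by
  classical
  have hinj : Function.Injective (Fintype.linearCombination K e) :=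
    he.fintypeLinearCombination_injective
  have h1 : (Set.range fun j : c => ∑ u, M u j • e u) =
      (Fintype.linearCombination K e) '' (Set.range M.col) := by
    rw [← Set.range_comp]
    congr 1
  rw [h1, ← Submodule.map_span, M.rank_eq_finrank_span_cols]
  exact LinearEquiv.finrank_eq (Submodule.equivMapOfInjective _ hinj _)

variable {A : Type*} [CommRing A] [Algebra K A]

/-- The vector with coordinates `mulμ μ a b` is the product of the vectors with coordinates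
`a`, `b`, when `μ` are the structure constants of the three families. -/
theorem sum_mulμ_smul {ι₁ ι₂ ι₃ : Type*} [Fintype ι₁] [Fintype ι₂] [Fintype ι₃]
    (e₁ : ι₁ → A) (e₂ : ι₂ → A) (e₃ : ι₃ → A) (μ : ι₁ → ι₂ → ι₃ → K)
    (hμ : ∀ i j, e₁ i * e₂ j = ∑ t, μ i j t • e₃ t) (a : ι₁ → K) (b : ι₂ → K) :
    ∑ t, mulμ μ a b t • e₃ t = (∑ i, a i • e₁ i) * (∑ j, b j • e₂ j) := by
  unfold mulμ
  rw [Finset.sum_mul_sum]
  simp only [Finset.sum_smul]
  rw [Finset.sum_comm]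
  refine Finset.sum_congr rfl fun i _ => ?_
  rw [Finset.sum_comm]
  refine Finset.sum_congr rfl fun j _ => ?_
  rw [smul_mul_smul_comm, hμ i j, Finset.smul_sum]
  refine Finset.sum_congr rfl fun t _ => ?_
  rw [smul_smul]
  congr 1
  ring

/-- `rank (Vmat μ x y)` is the dimension of the span of all products of the vectors with
coordinates `cvec x s`, `cvec y s'`. -/
theorem rank_Vmat_eq_finrank {ι₁ ι₂ ι₃ : Type*} [Fintype ι₁] [Fintype ι₂] [Fintype ι₃]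
    (e₁ : ι₁ → A) (e₂ : ι₂ → A) (e₃ : ι₃ → A) (he₃ : LinearIndependent K e₃)
    (μ : ι₁ → ι₂ → ι₃ → K) (hμ : ∀ i j, e₁ i * e₂ j = ∑ t, μ i j t • e₃ t) {r r' : ℕ}
    (x : (Fin (r + 1) → ι₁) → K) (y : (Fin (r' + 1) → ι₂) → K) :
    (Vmat μ x y).rank = finrank K (Submodule.span K
      (Set.range fun c : (Fin r → ι₁) × (Fin r' → ι₂) =>
        (∑ i, cvec x c.1 i • e₁ i) * (∑ j, cvec y c.2 j • e₂ j))) := by
  have hfun : (fun c : (Fin r → ι₁) × (Fin r' → ι₂) => ∑ t, Vmat μ x y t c • e₃ t) =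
      fun c => (∑ i, cvec x c.1 i • e₁ i) * (∑ j, cvec y c.2 j • e₂ j) :=
    funext fun c => sum_mulμ_smul e₁ e₂ e₃ μ hμ (cvec x c.1) (cvec y c.2)
  rw [rank_eq_finrank_span_of_linearIndependent e₃ he₃, hfun]

/-- `rank (rkMat ν x)` is the dimension of the span of all products `eE b * v`, `v` the vector
with coordinates `cvec x s`. -/
theorem rank_rkMat_eq_finrank {β ι γ : Type*} [Fintype β] [Fintype ι] [Fintype γ]
    (eE : β → A) (e₁ : ι → A) (e₄ : γ → A) (he₄ : LinearIndependent K e₄)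
    (ν : β → ι → γ → K) (hν : ∀ b i, eE b * e₁ i = ∑ u, ν b i u • e₄ u) {r : ℕ}
    (x : (Fin (r + 1) → ι) → K) :
    (rkMat ν x).rank = finrank K (Submodule.span K
      (Set.range fun bs : β × (Fin r → ι) => eE bs.1 * ∑ i, cvec x bs.2 i • e₁ i)) := by
  classical
  have hfun : (fun bs : β × (Fin r → ι) => ∑ u, rkMat ν x u bs • e₄ u) =
      fun bs => eE bs.1 * ∑ i, cvec x bs.2 i • e₁ i := by
    funext bs
    have h := sum_mulμ_smul eE e₁ e₄ ν hν (Pi.single bs.1 1) (cvec x bs.2)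
    rw [Finset.sum_eq_single bs.1 (fun b' _ hb' => by simp [Pi.single_eq_of_ne hb'])
      (fun h => absurd (Finset.mem_univ _) h)] at h
    rw [Pi.single_eq_same, one_smul] at h
    rw [← h]
    refine Finset.sum_congr rfl fun u _ => ?_
    rw [← rkMat_eq_mulμ ν x u bs.1 bs.2]
  rw [rank_eq_finrank_span_of_linearIndependent e₄ he₄, hfun]

end Dictionary

end Fermat.Agent.S17.helper1572
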