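/-
S17 (Mordell–Weil for `JZero N`), Plücker track, route G2-ALT (findings #2861):
the FORMAL half of the one-point law.  Mathlib-only, spec-independent.

`Pt` is the type of points (places), effective divisors are `Multiset Pt`, and
`Φ m G` is the (absolute logarithmic) Plücker height of `W_m(G) = L(m P₀ - G)`.

* `OnePointLaw Φ m₁ K C` : the one-point law (PhiQ) for all levels `k₁ + k₂ ≤ K`;
* `levelLaw` : `Φ (m + j) G - Φ m G = Λ j G ± C * card G`, `Λ j G = ∑_{P ∈ G} Φ j {P}`;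
* `lam_add` : `Λ (j + j') G = Λ j G + Λ j' G ± C * card G`;
* `sevenTerm_onePoint` : the seven-term expression at `(G, G', {P})` is bounded;
* `sevenTerm_bound` : the seven-term expression at ALL effective triples of bounded degree
  is bounded (this is `hrep` of the Plücker endgame, with `D_S = ∑_{i ∈ S} D_i` for
  arbitrary effective representatives: no moving lemma is needed).
-/
import Mathlib

set_option autoImplicit false

namespace Fermat.Agent.S17.helper2273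

open Multiset

variable {Pt : Type*}

/-- The one-point law (PhiQ) of findings #2861, for all pairs of levels with `k₁ + k₂ ≤ K`. -/
def OnePointLaw (Φ : ℕ → Multiset Pt → ℝ) (m₁ K : ℕ) (C : ℝ) : Prop :=
  ∀ (G G' : Multiset Pt) (P : Pt) (k₁ k₂ : ℕ),
    card G + 1 + m₁ ≤ k₁ → card G' + 1 + m₁ ≤ k₂ → k₁ + k₂ ≤ K →
    |Φ (k₁ + k₂) (P ::ₘ (G + G')) + Φ k₁ G + Φ k₂ G'
      - Φ (k₁ + k₂) (G + G') - Φ k₁ (P ::ₘ G) - Φ k₂ (P ::ₘ G')| ≤ C

/-- The additive "height at infinity at level `j`": `Λ j G = ∑_{P ∈ G} Φ j {P}`. -/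
def lam (Φ : ℕ → Multiset Pt → ℝ) (j : ℕ) (G : Multiset Pt) : ℝ :=
  (G.map fun P => Φ j {P}).sum

@[simp] lemma lam_zero (Φ : ℕ → Multiset Pt → ℝ) (j : ℕ) : lam Φ j 0 = 0 := by
  simp [lam]

@[simp] lemma lam_cons (Φ : ℕ → Multiset Pt → ℝ) (j : ℕ) (P : Pt) (G : Multiset Pt) :
    lam Φ j (P ::ₘ G) = Φ j {P} + lam Φ j G := by
  simp [lam]

lemma lam_add_divisor (Φ : ℕ → Multiset Pt → ℝ) (j : ℕ) (G G' : Multiset Pt) :
    lam Φ j (G + G') = lam Φ j G + lam Φ j G' := by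
  simp [lam]

lemma OnePointLaw.nonneg {Φ : ℕ → Multiset Pt → ℝ} {m₁ K : ℕ} {C : ℝ}
    (h : OnePointLaw Φ m₁ K C) (hK : 2 * (1 + m₁) ≤ K) [Nonempty Pt] : 0 ≤ C := by
  obtain ⟨P⟩ := ‹Nonempty Pt›
  have := h 0 0 P (1 + m₁) (1 + m₁) (by simp) (by simp) (by omega)
  exact le_trans (abs_nonneg _) this

/-- **Level law.** -/
theorem levelLaw {Φ : ℕ → Multiset Pt → ℝ} {m₁ K : ℕ} {C : ℝ}
    (h : OnePointLaw Φ m₁ K C) (h0 : ∀ m, Φ m 0 = 0)
    (G : Multiset Pt) (m j : ℕ) (hm : card G + m₁ ≤ m) (hj : 1 + m₁ ≤ j) (hK : m + j ≤ K) :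
    |Φ (m + j) G - Φ m G - lam Φ j G| ≤ C * card G := by
  induction G using Multiset.induction_on with
  | empty => simp [h0]
  | cons P G ih =>
    have hc : card (P ::ₘ G) = card G + 1 := card_cons P G
    have ih' := ih (by omega)
    have h1 := h G 0 P m j (by omega) (by simp; omega) hK
    simp only [add_zero, h0] at h1
    have h2 : (P ::ₘ (0 : Multiset Pt)) = {P} := rfl
    rw [h2] at h1
    rw [lam_cons, hc]
    push_cast
    rw [abs_le] at h1 ih' ⊢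
    constructor <;> nlinarith [h1.1, h1.2, ih'.1, ih'.2]

/-- **Quasi-additivity of `Λ` in the level.** -/
theorem lam_add {Φ : ℕ → Multiset Pt → ℝ} {m₁ K : ℕ} {C : ℝ}
    (h : OnePointLaw Φ m₁ K C) (h0 : ∀ m, Φ m 0 = 0)
    (G : Multiset Pt) (j j' : ℕ) (hj : 1 + m₁ ≤ j) (hj' : 1 + m₁ ≤ j') (hK : j + j' ≤ K) :
    |lam Φ (j + j') G - lam Φ j G - lam Φ j' G| ≤ C * card G := by
  induction G using Multiset.induction_on with
  | empty => simp
  | cons P G ih =>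
    have hc : card (P ::ₘ G) = card G + 1 := card_cons P G
    have h1 := h 0 0 P j j' (by simp; omega) (by simp; omega) hK
    simp only [add_zero, h0] at h1
    have h2 : (P ::ₘ (0 : Multiset Pt)) = {P} := rfl
    rw [h2] at h1
    rw [lam_cons, lam_cons, lam_cons, hc]
    push_cast
    rw [abs_le] at h1 ih ⊢
    constructor <;> nlinarith [h1.1, h1.2, ih.1, ih.2]


/-- `levelLaw` with a free name for the upper level. -/
theorem levelLaw' {Φ : ℕ → Multiset Pt → ℝ} {m₁ K : ℕ} {C : ℝ}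
    (h : OnePointLaw Φ m₁ K C) (h0 : ∀ m, Φ m 0 = 0)
    (G : Multiset Pt) (m j n : ℕ) (hn : n = m + j) (hm : card G + m₁ ≤ m) (hj : 1 + m₁ ≤ j)
    (hK : n ≤ K) :
    |Φ n G - Φ m G - lam Φ j G| ≤ C * card G := by
  subst hn
  exact levelLaw h h0 G m j hm hj hK

/-- `lam_add` with a free name for the sum of the levels. -/
theorem lam_add' {Φ : ℕ → Multiset Pt → ℝ} {m₁ K : ℕ} {C : ℝ}
    (h : OnePointLaw Φ m₁ K C) (h0 : ∀ m, Φ m 0 = 0)
    (G : Multiset Pt) (j j' n : ℕ) (hn : n = j + j') (hj : 1 + m₁ ≤ j) (hj' : 1 + m₁ ≤ j')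
    (hK : n ≤ K) :
    |lam Φ n G - lam Φ j G - lam Φ j' G| ≤ C * card G := by
  subst hn
  exact lam_add h h0 G j j' hj hj' hK

/-- The representative height at the normalised level: `Ψ₀ G = Φ (deg G + c₀) G`. -/
def psi0 (Φ : ℕ → Multiset Pt → ℝ) (c₀ : ℕ) (G : Multiset Pt) : ℝ := Φ (card G + c₀) G

/-- The seven-term (third difference) expression of a function on effective divisors. -/
def sevenTerm (ψ : Multiset Pt → ℝ) (x y z : Multiset Pt) : ℝ :=
  ψ (x + y + z) - ψ (x + y) - ψ (x + z) - ψ (y + z) + ψ x + ψ y + ψ z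

/-- **The seven-term expression at `(G, G', {P})` is bounded.** -/
theorem sevenTerm_onePoint {Φ : ℕ → Multiset Pt → ℝ} {m₁ K : ℕ} {C : ℝ}
    (h : OnePointLaw Φ m₁ K C) (h0 : ∀ m, Φ m 0 = 0) (c₀ : ℕ) (hc₀ : m₁ ≤ c₀) (E : ℕ)
    (hK : 2 * E + 2 * c₀ + 3 * (m₁ + 2) ≤ K)
    (G G' : Multiset Pt) (P : Pt) (hG : card G ≤ E) (hG' : card G' ≤ E) :
    |sevenTerm (psi0 Φ c₀) G G' {P}| ≤ C * (12 * E + 6) := by
  set v := m₁ + 1 with hv
  set T := P ::ₘ (G + G') with hT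
  have hcT : card T = card G + card G' + 1 := by simp [hT]
  have hcS : card (G + G') = card G + card G' := card_add G G'
  have hcPG : card (P ::ₘ G) = card G + 1 := card_cons P G
  have hcPH : card (P ::ₘ G') = card G' + 1 := card_cons P G'
  have hcP : card ({P} : Multiset Pt) = 1 := card_singleton P
  -- the one-point law at the levels `k₁ = deg G + c₀ + v + 1`, `k₂ = deg G' + c₀ + v + 1`
  have hq := h G G' P (card G + c₀ + v + 1) (card G' + c₀ + v + 1) (by omega) (by omega)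
    (by omega)
  -- the six level laws
  have l1 := levelLaw' h h0 T (card T + c₀) (c₀ + 2 * v + 1)
    (card G + c₀ + v + 1 + (card G' + c₀ + v + 1)) (by omega) (by omega) (by omega) (by omega)
  have l2 := levelLaw' h h0 G (card G + c₀) (v + 1) (card G + c₀ + v + 1) (by omega) (by omega)
    (by omega) (by omega)
  have l3 := levelLaw' h h0 G' (card G' + c₀) (v + 1) (card G' + c₀ + v + 1) (by omega)
    (by omega) (by omega) (by omega)
  have l4 := levelLaw' h h0 (G + G') (card (G + G') + c₀) (c₀ + 2 * v + 2)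
    (card G + c₀ + v + 1 + (card G' + c₀ + v + 1)) (by omega) (by omega) (by omega) (by omega)
  have l5 := levelLaw' h h0 (P ::ₘ G) (card (P ::ₘ G) + c₀) v (card G + c₀ + v + 1) (by omega)
    (by omega) (by omega) (by omega)
  have l6 := levelLaw' h h0 (P ::ₘ G') (card (P ::ₘ G') + c₀) v (card G' + c₀ + v + 1)
    (by omega) (by omega) (by omega) (by omega)
  -- quasi-additivity in the level
  have q1 := lam_add' h h0 G (c₀ + 2 * v + 1) (v + 1) (c₀ + 3 * v + 2) (by omega) (by omega)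
    (by omega) (by omega)
  have q2 := lam_add' h h0 G (c₀ + 2 * v + 2) v (c₀ + 3 * v + 2) (by omega) (by omega)
    (by omega) (by omega)
  have q3 := lam_add' h h0 G' (c₀ + 2 * v + 1) (v + 1) (c₀ + 3 * v + 2) (by omega) (by omega)
    (by omega) (by omega)
  have q4 := lam_add' h h0 G' (c₀ + 2 * v + 2) v (c₀ + 3 * v + 2) (by omega) (by omega)
    (by omega) (by omega)
  have q5 := lam_add' h h0 {P} (1 + c₀) v (1 + c₀ + v) (by omega) (by omega) (by omega)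
    (by omega)
  have q6 := lam_add' h h0 {P} (1 + c₀ + v) v (c₀ + 2 * v + 1) (by omega) (by omega) (by omega)
    (by omega)
  have hlamP : ∀ j, lam Φ j ({P} : Multiset Pt) = Φ j {P} := fun j => by simp [lam]
  -- expand `Λ` on the composite divisors
  have e1 : lam Φ (c₀ + 2 * v + 1) T
      = Φ (c₀ + 2 * v + 1) {P} + lam Φ (c₀ + 2 * v + 1) G + lam Φ (c₀ + 2 * v + 1) G' := by
    rw [hT, lam_cons, lam_add_divisor]; ring
  have e4 : lam Φ (c₀ + 2 * v + 2) (G + G')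
      = lam Φ (c₀ + 2 * v + 2) G + lam Φ (c₀ + 2 * v + 2) G' := lam_add_divisor _ _ _ _
  have e5 : lam Φ v (P ::ₘ G) = Φ v {P} + lam Φ v G := lam_cons _ _ _ _
  have e6 : lam Φ v (P ::ₘ G') = Φ v {P} + lam Φ v G' := lam_cons _ _ _ _
  rw [e1] at l1
  rw [e4] at l4
  rw [e5] at l5
  rw [e6] at l6
  simp only [hlamP] at q5 q6
  have hC : 0 ≤ C := le_trans (abs_nonneg _) hq
  -- the seven-term expression
  have hTeq : G + G' + {P} = T := by
    rw [hT, ← singleton_add, add_comm]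
  have hPGeq : G + {P} = P ::ₘ G := by rw [← singleton_add, add_comm]
  have hPHeq : G' + {P} = P ::ₘ G' := by rw [← singleton_add, add_comm]
  have hpsiP : psi0 Φ c₀ {P} = Φ (1 + c₀) {P} := by
    unfold psi0; rw [hcP]
  unfold sevenTerm
  rw [hTeq, hPGeq, hPHeq, hpsiP]
  unfold psi0
  have hE1 : (card G : ℝ) ≤ E := by exact_mod_cast hG
  have hE2 : (card G' : ℝ) ≤ E := by exact_mod_cast hG'
  have hn1 : (0 : ℝ) ≤ card G := by positivity
  have hn2 : (0 : ℝ) ≤ card G' := by positivity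
  have hcTr : (card T : ℝ) = card G + card G' + 1 := by exact_mod_cast hcT
  have hcSr : (card (G + G') : ℝ) = card G + card G' := by exact_mod_cast hcS
  have hcPGr : (card (P ::ₘ G) : ℝ) = card G + 1 := by exact_mod_cast hcPG
  have hcPHr : (card (P ::ₘ G') : ℝ) = card G' + 1 := by exact_mod_cast hcPH
  have hcPr : (card ({P} : Multiset Pt) : ℝ) = 1 := by exact_mod_cast hcP
  rw [hcTr] at l1
  rw [hcSr] at l4
  rw [hcPGr] at l5
  rw [hcPHr] at l6
  rw [hcPr] at q5 q6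
  rw [abs_le] at hq l1 l2 l3 l4 l5 l6 q1 q2 q3 q4 q5 q6 ⊢
  have b1 : C * card G ≤ C * E := mul_le_mul_of_nonneg_left hE1 hC
  have b2 : C * card G' ≤ C * E := mul_le_mul_of_nonneg_left hE2 hC
  constructor <;> linarith [hq.1, hq.2, l1.1, l1.2, l2.1, l2.2, l3.1, l3.2, l4.1, l4.2, l5.1,
    l5.2, l6.1, l6.2, q1.1, q1.2, q2.1, q2.2, q3.1, q3.2, q4.1, q4.2, q5.1, q5.2, q6.1, q6.2,
    b1, b2, mul_nonneg hC hn1, mul_nonneg hC hn2]


/-- The exact cocycle identity of the third difference in its last argument. -/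
lemma sevenTerm_cons (ψ : Multiset Pt → ℝ) (x y z : Multiset Pt) (P : Pt) :
    sevenTerm ψ x y (P ::ₘ z)
      = sevenTerm ψ x y z + sevenTerm ψ (x + z) y {P} - sevenTerm ψ z y {P} := by
  have e1 : x + y + (P ::ₘ z) = x + z + y + {P} := by
    rw [← singleton_add]; abel
  have e2 : x + (P ::ₘ z) = x + z + {P} := by
    rw [← singleton_add]; abel
  have e3 : y + (P ::ₘ z) = z + y + {P} := by
    rw [← singleton_add]; abel
  have e4 : (P ::ₘ z) = z + {P} := by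
    rw [← singleton_add]; abel
  have e5 : x + z + y = x + y + z := by abel
  have e6 : z + y = y + z := by abel
  unfold sevenTerm
  rw [e1, e2, e3, e5, e6]
  conv_lhs => rw [e4]
  ring

lemma sevenTerm_zero (ψ : Multiset Pt → ℝ) (x y : Multiset Pt) :
    sevenTerm ψ x y 0 = ψ 0 := by
  unfold sevenTerm
  simp only [add_zero]
  ring

/-- **Seven-term bound, inductive form**: if `deg x + deg z ≤ E` and `deg y ≤ E` then the
seven-term expression of `Ψ₀ G = Φ (deg G + c₀) G` at `(x, y, z)` is at most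
`2 * deg z * C * (12 * E + 6)` in absolute value. -/
theorem sevenTerm_bound_aux {Φ : ℕ → Multiset Pt → ℝ} {m₁ K : ℕ} {C : ℝ}
    (h : OnePointLaw Φ m₁ K C) (h0 : ∀ m, Φ m 0 = 0) (c₀ : ℕ) (hc₀ : m₁ ≤ c₀) (E : ℕ)
    (hK : 2 * E + 2 * c₀ + 3 * (m₁ + 2) ≤ K)
    (y : Multiset Pt) (hy : card y ≤ E) (z : Multiset Pt) :
    ∀ x : Multiset Pt, card x + card z ≤ E →
      |sevenTerm (psi0 Φ c₀) x y z| ≤ 2 * (card z : ℝ) * (C * (12 * E + 6)) := by
  induction z using Multiset.induction_on with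
  | empty =>
    intro x _
    rw [sevenTerm_zero]
    simp [psi0, h0]
  | cons P z ih =>
    intro x hx
    have hc : card (P ::ₘ z) = card z + 1 := card_cons P z
    have hxz : card (x + z) = card x + card z := card_add x z
    have i1 := ih x (by omega)
    have i2 := sevenTerm_onePoint h h0 c₀ hc₀ E hK (x + z) y P (by omega) hy
    have i3 := sevenTerm_onePoint h h0 c₀ hc₀ E hK z y P (by omega) hy
    rw [sevenTerm_cons, hc]
    push_cast
    rw [abs_le] at i1 i2 i3 ⊢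
    constructor <;> linarith [i1.1, i1.2, i2.1, i2.2, i3.1, i3.2]

/-- **Seven-term bound** (the `hrep`/`CubeBound` input of the Plücker endgame, two-sided, at
ALL effective triples of degree `≤ d`, no moving lemma): the one-point law up to level
`K ≥ 4 d + 2 c₀ + 3 (m₁ + 2)` bounds the third difference of `Ψ₀ G = Φ (deg G + c₀) G`. -/
theorem sevenTerm_bound {Φ : ℕ → Multiset Pt → ℝ} {m₁ K : ℕ} {C : ℝ} (hC : 0 ≤ C)
    (h : OnePointLaw Φ m₁ K C) (h0 : ∀ m, Φ m 0 = 0) (c₀ : ℕ) (hc₀ : m₁ ≤ c₀) (d : ℕ)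
    (hK : 4 * d + 2 * c₀ + 3 * (m₁ + 2) ≤ K)
    (D₁ D₂ D₃ : Multiset Pt) (h₁ : card D₁ ≤ d) (h₂ : card D₂ ≤ d) (h₃ : card D₃ ≤ d) :
    |sevenTerm (psi0 Φ c₀) D₁ D₂ D₃| ≤ 2 * (d : ℝ) * (C * (24 * d + 6)) := by
  have key := sevenTerm_bound_aux h h0 c₀ hc₀ (2 * d) (by omega) D₂ (by omega) D₃ D₁ (by omega)
  refine key.trans ?_
  have h3r : (card D₃ : ℝ) ≤ d := by exact_mod_cast h₃
  have hd : (0 : ℝ) ≤ d := by positivity
  have hB : 0 ≤ C * (24 * (d : ℝ) + 6) := mul_nonneg hC (by positivity)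
  have e : C * (12 * ((2 * d : ℕ) : ℝ) + 6) = C * (24 * (d : ℝ) + 6) := by
    push_cast; ring
  rw [e]
  have := mul_le_mul_of_nonneg_right h3r hB
  linarith

/-- Box form of the hypothesis: level-wise constants give a uniform constant on a box. -/
theorem OnePointLaw.of_levelwise {Φ : ℕ → Multiset Pt → ℝ} {m₁ : ℕ}
    (h : ∀ k₁ k₂ : ℕ, ∃ C : ℝ, ∀ (G G' : Multiset Pt) (P : Pt),
      card G + 1 + m₁ ≤ k₁ → card G' + 1 + m₁ ≤ k₂ →
      |Φ (k₁ + k₂) (P ::ₘ (G + G')) + Φ k₁ G + Φ k₂ G'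
        - Φ (k₁ + k₂) (G + G') - Φ k₁ (P ::ₘ G) - Φ k₂ (P ::ₘ G')| ≤ C) (K : ℕ) :
    ∃ C : ℝ, 0 ≤ C ∧ OnePointLaw Φ m₁ K C := by
  choose Cf hCf using h
  refine ⟨∑ k₁ ∈ Finset.range (K + 1), ∑ k₂ ∈ Finset.range (K + 1), |Cf k₁ k₂|,
    Finset.sum_nonneg fun _ _ => Finset.sum_nonneg fun _ _ => abs_nonneg _, ?_⟩
  intro G G' P k₁ k₂ h₁ h₂ hK
  refine (hCf k₁ k₂ G G' P h₁ h₂).trans ((le_abs_self _).trans ?_)
  have hk₁ : k₁ ∈ Finset.range (K + 1) := Finset.mem_range.mpr (by omega)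
  have hk₂ : k₂ ∈ Finset.range (K + 1) := Finset.mem_range.mpr (by omega)
  have s2 : |Cf k₁ k₂| ≤ ∑ k₂ ∈ Finset.range (K + 1), |Cf k₁ k₂| :=
    Finset.single_le_sum (f := fun k₂ => |Cf k₁ k₂|) (fun _ _ => abs_nonneg _) hk₂
  have s1 : (∑ k₂ ∈ Finset.range (K + 1), |Cf k₁ k₂|)
      ≤ ∑ k₁ ∈ Finset.range (K + 1), ∑ k₂ ∈ Finset.range (K + 1), |Cf k₁ k₂| :=
    Finset.single_le_sum (f := fun k₁ => ∑ k₂ ∈ Finset.range (K + 1), |Cf k₁ k₂|)
      (fun _ _ => Finset.sum_nonneg fun _ _ => abs_nonneg _) hk₁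
  exact s2.trans s1

/-- **Seven-term bound from the level-wise one-point law**: for every `c₀ ≥ m₁` and `d` there is
a constant bounding the third difference of `Ψ₀ G = Φ (deg G + c₀) G` on all triples of
effective divisors of degree `≤ d`. -/
theorem exists_sevenTerm_bound {Φ : ℕ → Multiset Pt → ℝ} {m₁ : ℕ}
    (h : ∀ k₁ k₂ : ℕ, ∃ C : ℝ, ∀ (G G' : Multiset Pt) (P : Pt),
      card G + 1 + m₁ ≤ k₁ → card G' + 1 + m₁ ≤ k₂ →
      |Φ (k₁ + k₂) (P ::ₘ (G + G')) + Φ k₁ G + Φ k₂ G'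
        - Φ (k₁ + k₂) (G + G') - Φ k₁ (P ::ₘ G) - Φ k₂ (P ::ₘ G')| ≤ C)
    (h0 : ∀ m, Φ m 0 = 0) (c₀ : ℕ) (hc₀ : m₁ ≤ c₀) (d : ℕ) :
    ∃ B : ℝ, ∀ D₁ D₂ D₃ : Multiset Pt, card D₁ ≤ d → card D₂ ≤ d → card D₃ ≤ d →
      |sevenTerm (psi0 Φ c₀) D₁ D₂ D₃| ≤ B := by
  obtain ⟨C, hC, hlaw⟩ := OnePointLaw.of_levelwise h (4 * d + 2 * c₀ + 3 * (m₁ + 2))
  exact ⟨2 * (d : ℝ) * (C * (24 * d + 6)), fun D₁ D₂ D₃ h₁ h₂ h₃ =>
    sevenTerm_bound hC hlaw h0 c₀ hc₀ d le_rfl D₁ D₂ D₃ h₁ h₂ h₃⟩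

end Fermat.Agent.S17.helper2273
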