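import Mathlib
import Fermat.Agent.S17.helper3197_PlueckerSpec
import Fermat.Agent.Lib.helper927_AbsHeight
import Fermat.Agent.S17.helper2273_OnePointFormal

/-!
# S17, track (B) of ruling R15 = G2-ALT: the SPEC of the one-point route to `CubeSpec`
(architect helper2273)

Leaf `L7 = CubeSpec F₀ P0` of `helper3197_PlueckerSpec` is proved from the ONE-POINT LAW
(findings #2861, chat #146) for the absolute Pluecker height of `L(m P0 - G)`, `G` ANY effective
divisor over `ℚ̄` (no rationality, no multiplicity-freeness, no moving lemma, no charts).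

## Vocabulary

* `plkAll Y`        all-maps Pluecker vector of a frame `Y : Fin r → Fin n → Ω` given by rows
* `subHeight W`     absolute Pluecker height of a subspace `W` of the coordinate space `Ω^n`
                    (`subHeight_eq`: computed from ANY frame of `W`)
* `mulμ μ x y`      multiplication of coordinate vectors by rational structure constants
* `prodSub μ U U'`  the span of all products of two coordinate subspaces
* `frameMap fr m`   coordinates `ℚ̄^(n m) → FB F₀` in the frame `ratEmb ∘ fr.b m` of `L(m P0)`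
* `coordSub fr m D` the coordinate subspace of `L(m P0 - D)`
* `PhiAbs fr m D`   `= subHeight (coordSub fr m D)`, defined for EVERY divisor `D`

## Leaves (each a `Prop`)

* `CoordOnePoint Ω μ ν ν' d d'` (leaf ABS, Mathlib + Lib only): the abstract one-point law for
  subspaces of coordinate spaces with rational structure constants; its only geometric
  hypothesis is "rank condition (RK) on both factors forces the rank of the product".
* `CurveOnePoint K F` (leaf CURVE): the generic curve side, `CoordOnePoint ⟹` one-point law for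
  coordinate subspaces of `L(X - G)` in arbitrary bases with rational structure constants.
* `OnePointSpec F₀ P0` (leaf INST): the one-point law for `PhiAbs` on the Spec carriers
  (`CurveOnePoint` at `e = ratEmb ∘ fr.b m`).
* `PhiAbsSpec F₀ P0` (leaf PHI-ABS): `Phi = PhiAbs` on rational effective divisors.

## Assembly (proved here)

`cubeSpec_of_onePoint : (∀ v, v.deg = 1) → PhiAbsSpec F₀ P0 → OnePointSpec F₀ P0 → CubeSpec F₀ P0`
through the formal induction `exists_sevenTerm_bound` of `helper2273_OnePointFormal`.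
-/

set_option autoImplicit false

open ModularCurve AlgebraicCurve
open Fermat.Agent.S27.helper6247
open Fermat.Agent.S17.helper3197
open Fermat.Agent.Lib.helper927 (absLogHeight absLogHeight_smul absLogHeight_zero)

namespace Fermat.Agent.S17.helper2273

noncomputable section

/-! ## Coordinate subspaces and their absolute Pluecker height (Mathlib + helper927) -/

section Plk

variable {R : Type*} [CommRing R]

/-- All-maps Pluecker vector of a frame given by its rows (the SIEGEL convention of the Spec's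
`plkHeight`: all index maps `s : Fin r → Fin n`, no sorting, no signs). -/
def plkAll {r n : ℕ} (Y : Fin r → Fin n → R) : (Fin r → Fin n) → R :=
  fun s => Matrix.det (Matrix.of fun i j => Y i (s j))

theorem plkAll_apply {r n : ℕ} (Y : Fin r → Fin n → R) (s : Fin r → Fin n) :
    plkAll Y s = Matrix.det (Matrix.of fun i j => Y i (s j)) := rfl

/-- Frame change inside the subspace multiplies the Pluecker vector by the determinant. -/
theorem plkAll_frame_change {r n : ℕ} (g : Matrix (Fin r) (Fin r) R) (Y Y' : Fin r → Fin n → R)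
    (h : ∀ i, Y' i = ∑ j, g i j • Y j) : plkAll Y' = g.det • plkAll Y := by
  funext s
  rw [Pi.smul_apply, smul_eq_mul, plkAll_apply, plkAll_apply, ← Matrix.det_mul]
  congr 1
  ext i j
  simp only [Matrix.of_apply, Matrix.mul_apply, h i, Finset.sum_apply, Pi.smul_apply,
    smul_eq_mul]

end Plk

section Coord

variable {Ω : Type*} [Field Ω] [CharZero Ω]

/-- The absolute Pluecker height of a subspace of a coordinate space. -/
def subHeight {n : ℕ} (W : Submodule Ω (Fin n → Ω)) : ℝ :=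
  absLogHeight (plkAll fun i => ((Module.finBasis Ω W i : W) : Fin n → Ω))

/-- Multiplication of coordinate vectors with rational structure constants `μ`:
`(x * y)_t = ∑ i j, μ i j t * x i * y j`. -/
def mulμ {n₁ n₂ n₃ : ℕ} (μ : Fin n₁ → Fin n₂ → Fin n₃ → ℚ) (x : Fin n₁ → Ω) (y : Fin n₂ → Ω) :
    Fin n₃ → Ω :=
  fun t => ∑ i, ∑ j, (μ i j t : Ω) * x i * y j

/-- The product of two coordinate subspaces: the span of all products. -/
def prodSub {n₁ n₂ n₃ : ℕ} (μ : Fin n₁ → Fin n₂ → Fin n₃ → ℚ) (U : Submodule Ω (Fin n₁ → Ω))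
    (U' : Submodule Ω (Fin n₂ → Ω)) : Submodule Ω (Fin n₃ → Ω) :=
  Submodule.span Ω (Set.image2 (mulμ μ) (U : Set (Fin n₁ → Ω)) (U' : Set (Fin n₂ → Ω)))

variable [Algebra.IsAlgebraic ℚ Ω]

/-- Two frames of the same subspace have Pluecker vectors of the same absolute height. -/
theorem absLogHeight_plkAll_eq_of_span_eq {r n : ℕ} (Y Y' : Fin r → Fin n → Ω)
    (hspan : Submodule.span Ω (Set.range Y') = Submodule.span Ω (Set.range Y)) :
    absLogHeight (plkAll Y') = absLogHeight (plkAll Y) := by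
  have hg : ∀ i, ∃ c : Fin r → Ω, ∑ j, c j • Y j = Y' i := fun i =>
    Submodule.mem_span_range_iff_exists_fun Ω |>.mp
      (hspan ▸ Submodule.subset_span (Set.mem_range_self i))
  have hg' : ∀ i, ∃ c : Fin r → Ω, ∑ j, c j • Y' j = Y i := fun i =>
    Submodule.mem_span_range_iff_exists_fun Ω |>.mp
      (hspan ▸ Submodule.subset_span (Set.mem_range_self i))
  choose g hg using hg
  choose g' hg' using hg'
  have e1 : plkAll Y' = (Matrix.of g).det • plkAll Y :=
    plkAll_frame_change (Matrix.of g) Y Y' fun i => (hg i).symm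
  have e2 : plkAll Y = (Matrix.of g').det • plkAll Y' :=
    plkAll_frame_change (Matrix.of g') Y' Y fun i => (hg' i).symm
  by_cases hd : (Matrix.of g).det = 0
  · have z1 : plkAll Y' = 0 := by rw [e1, hd, zero_smul]
    have z2 : plkAll Y = 0 := by rw [e2, z1, smul_zero]
    rw [z1, z2]
  · rw [e1]
    exact absLogHeight_smul _ hd

/-- **Bridge.** `subHeight W` is the absolute height of the all-maps Pluecker vector of ANY frame
of `W` (an independent family of rows spanning `W`). -/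
theorem subHeight_eq {r n : ℕ} (W : Submodule Ω (Fin n → Ω)) (Y : Fin r → Fin n → Ω)
    (hY : LinearIndependent Ω Y) (hspan : Submodule.span Ω (Set.range Y) = W) :
    subHeight W = absLogHeight (plkAll Y) := by
  subst hspan
  have hr : Module.finrank Ω (Submodule.span Ω (Set.range Y)) = r := by
    rw [finrank_span_eq_card hY, Fintype.card_fin]
  have key : ∀ (r' : ℕ) (hrr : r' = r) (Y' : Fin r' → Fin n → Ω),
      Submodule.span Ω (Set.range Y') = Submodule.span Ω (Set.range Y) →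
      absLogHeight (plkAll Y') = absLogHeight (plkAll Y) := by
    intro r' hrr Y' h
    subst hrr
    exact absLogHeight_plkAll_eq_of_span_eq Y Y' h
  refine key _ hr _ ?_
  have h1 : (fun i => ((Module.finBasis Ω (Submodule.span Ω (Set.range Y)) i :
      Submodule.span Ω (Set.range Y)) : Fin n → Ω))
      = (Submodule.span Ω (Set.range Y)).subtype
        ∘ (Module.finBasis Ω (Submodule.span Ω (Set.range Y))) := rfl
  rw [h1, Set.range_comp, Submodule.span_image, Module.Basis.span_eq, Submodule.map_subtype_top]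

end Coord

/-- **Leaf ABS (the abstract one-point law; Mathlib + Lib only, no curve).**

Data: three coordinate spaces `Ω^n₁, Ω^n₂, Ω^n₃` (levels `k₁, k₂, k₁ + k₂`) with rational
structure constants `μ` of the multiplication, and two auxiliary multiplications
`ν : Ω^n₄ × Ω^n₁ → Ω^n₅`, `ν' : Ω^n₆ × Ω^n₂ → Ω^n₇` (levels `j₁, j₁ + k₁`, `j₂, j₂ + k₂`) used only
to write the closed RANK CONDITION
`(RK)  dim (Ω^n₄ * U) ≤ n₅ - d`   resp.   `dim (Ω^n₆ * U') ≤ n₇ - d'`.

Hypothesis (geometry, = closedness lemma (CL) + PROD on the curve): for ALL subspaces `U, U'` of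
codimension `≤ d, d'` satisfying (RK), the product `U * U'` has codimension `≤ d + d'`.

Conclusion: there is a constant `C` such that for all `A, A'` of codimension exactly `d, d'`
satisfying (RK) whose product `A'' = A * A'` has codimension exactly `d + d'`, all hyperplanes
`B < A`, `B' < A'` and every hyperplane `B'' < A''` containing `B * A'` and `A * B'`:
`|h(B'') + h(A) + h(A') - h(A'') - h(B) - h(B')| ≤ C`, `h = subHeight`. -/
def CoordOnePoint (Ω : Type*) [Field Ω] [CharZero Ω] {n₁ n₂ n₃ n₄ n₅ n₆ n₇ : ℕ}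
    (μ : Fin n₁ → Fin n₂ → Fin n₃ → ℚ) (ν : Fin n₄ → Fin n₁ → Fin n₅ → ℚ)
    (ν' : Fin n₆ → Fin n₂ → Fin n₇ → ℚ) (d d' : ℕ) : Prop :=
  (∀ (U : Submodule Ω (Fin n₁ → Ω)) (U' : Submodule Ω (Fin n₂ → Ω)),
      n₁ ≤ Module.finrank Ω U + d → n₂ ≤ Module.finrank Ω U' + d' →
      Module.finrank Ω (prodSub ν ⊤ U) + d ≤ n₅ →
      Module.finrank Ω (prodSub ν' ⊤ U') + d' ≤ n₇ →
      n₃ ≤ Module.finrank Ω (prodSub μ U U') + d + d') →
  ∃ C : ℝ, ∀ (A B : Submodule Ω (Fin n₁ → Ω)) (A' B' : Submodule Ω (Fin n₂ → Ω))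
      (B'' : Submodule Ω (Fin n₃ → Ω)),
      Module.finrank Ω A + d = n₁ → Module.finrank Ω A' + d' = n₂ →
      Module.finrank Ω (prodSub ν ⊤ A) + d ≤ n₅ →
      Module.finrank Ω (prodSub ν' ⊤ A') + d' ≤ n₇ →
      Module.finrank Ω (prodSub μ A A') + d + d' = n₃ →
      B ≤ A → Module.finrank Ω B + 1 = Module.finrank Ω A →
      B' ≤ A' → Module.finrank Ω B' + 1 = Module.finrank Ω A' →
      B'' ≤ prodSub μ A A' → Module.finrank Ω B'' + 1 = Module.finrank Ω (prodSub μ A A') →
      prodSub μ B A' ≤ B'' → prodSub μ A B' ≤ B'' →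
      |subHeight B'' + subHeight A + subHeight A' - subHeight (prodSub μ A A')
          - subHeight B - subHeight B'| ≤ C

/-! ## The generic curve side (any `K`, `F`; vocabulary of `helper2853_Pencil`) -/

section Curve

variable {K F : Type*} [Field K] [Field F] [Algebra K F]

/-- The coordinate subspace of `W ≤ F` with respect to a family `e : Fin n → F`:
`{y | ∑ i, y i • e i ∈ W}`. -/
def coordOf {n : ℕ} (e : Fin n → F) (W : Submodule K F) : Submodule K (Fin n → K) :=
  W.comap (Fintype.linearCombination K e)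

theorem mem_coordOf {n : ℕ} (e : Fin n → F) (W : Submodule K F) (y : Fin n → K) :
    y ∈ coordOf e W ↔ ∑ i, y i • e i ∈ W := by
  simp [coordOf, Fintype.linearCombination_apply]

/-- `e` is a `K`-basis of the Riemann--Roch space `L(X)`. -/
def IsBasisOf {n : ℕ} (e : Fin n → F) (X : Divisor K F) : Prop :=
  LinearIndependent K e ∧ Submodule.span K (Set.range e) = riemannRochSpace X

variable (K F) in
/-- **Leaf CURVE (generic curve side of the one-point law; no Spec carriers).**
There is `m₁` such that for all divisors `X₁, X₂` (levels) and auxiliary `E₁, E₂` with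
`deg E_i ≥ deg X_i + m₁`, all bases `e₁ … e₇` of
`L(X₁), L(X₂), L(X₁ + X₂), L(E₁), L(E₁ + X₁), L(E₂), L(E₂ + X₂)` with RATIONAL structure constants
`μ` (`e₁ * e₂` in `e₃`), `ν` (`e₄ * e₁` in `e₅`), `ν'` (`e₆ * e₂` in `e₇`), and all `d, d'` with
`d + 1 + m₁ ≤ deg X₁`, `d' + 1 + m₁ ≤ deg X₂`: the abstract law `CoordOnePoint K μ ν ν' d d'`
implies the one-point law, uniformly in the effective divisors `G, G'` of degrees `d, d'` and the
place `P`, for the coordinate subspaces of `L(X₁ - G)`, `L(X₂ - G')`, `L(X₁ + X₂ - G - G')` and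
their hyperplanes at `P`. -/
def CurveOnePoint [CharZero K] : Prop :=
  ∃ m₁ : ℕ, ∀ (X₁ X₂ E₁ E₂ : Divisor K F),
    Divisor.degree X₁ + m₁ ≤ Divisor.degree E₁ → Divisor.degree X₂ + m₁ ≤ Divisor.degree E₂ →
    ∀ {n₁ n₂ n₃ n₄ n₅ n₆ n₇ : ℕ} (e₁ : Fin n₁ → F) (e₂ : Fin n₂ → F) (e₃ : Fin n₃ → F)
      (e₄ : Fin n₄ → F) (e₅ : Fin n₅ → F) (e₆ : Fin n₆ → F) (e₇ : Fin n₇ → F)
      (μ : Fin n₁ → Fin n₂ → Fin n₃ → ℚ) (ν : Fin n₄ → Fin n₁ → Fin n₅ → ℚ)
      (ν' : Fin n₆ → Fin n₂ → Fin n₇ → ℚ),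
      IsBasisOf e₁ X₁ → IsBasisOf e₂ X₂ → IsBasisOf e₃ (X₁ + X₂) → IsBasisOf e₄ E₁ →
      IsBasisOf e₅ (E₁ + X₁) → IsBasisOf e₆ E₂ → IsBasisOf e₇ (E₂ + X₂) →
      (∀ i j, e₁ i * e₂ j = ∑ t, (μ i j t : K) • e₃ t) →
      (∀ i j, e₄ i * e₁ j = ∑ t, (ν i j t : K) • e₅ t) →
      (∀ i j, e₆ i * e₂ j = ∑ t, (ν' i j t : K) • e₇ t) →
      ∀ d d' : ℕ, (d : ℤ) + 1 + m₁ ≤ Divisor.degree X₁ → (d' : ℤ) + 1 + m₁ ≤ Divisor.degree X₂ →
      CoordOnePoint K μ ν ν' d d' →
      ∃ C : ℝ, ∀ (G G' : Divisor K F) (P : Place K F), 0 ≤ G → 0 ≤ G' →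
        Divisor.degree G = d → Divisor.degree G' = d' →
        |subHeight (coordOf e₃ (riemannRochSpace (X₁ + X₂ - (G + G' + pt P))))
            + subHeight (coordOf e₁ (riemannRochSpace (X₁ - G)))
            + subHeight (coordOf e₂ (riemannRochSpace (X₂ - G')))
            - subHeight (coordOf e₃ (riemannRochSpace (X₁ + X₂ - (G + G'))))
            - subHeight (coordOf e₁ (riemannRochSpace (X₁ - (G + pt P))))
            - subHeight (coordOf e₂ (riemannRochSpace (X₂ - (G' + pt P))))| ≤ C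

end Curve

/-! ## The carriers of the Spec -/

section Carrier

variable {F₀ : IntermediateField ℚ (LaurentSeries ℚ)} {P0 : Place Qb (FB F₀)}

/-- Coordinates in the frame `ratEmb ∘ fr.b m` of `L(m P0)`: `y ↦ ∑ i, y i • ratEmb (fr.b m i)`. -/
def frameMap (fr : Frame F₀ P0) (m : ℤ) : (Fin (fr.n m) → Qb) →ₗ[Qb] ↥(FB F₀) :=
  Fintype.linearCombination Qb (fun i => ratEmb F₀ ((fr.b m i : ↥(Alev F₀ P0 m)) : F₀))

theorem frameMap_apply (fr : Frame F₀ P0) (m : ℤ) (y : Fin (fr.n m) → Qb) :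
    frameMap fr m y = ∑ i, y i • ratEmb F₀ ((fr.b m i : ↥(Alev F₀ P0 m)) : F₀) := by
  simp [frameMap, Fintype.linearCombination_apply]

/-- The coordinate subspace of `L(m P0 - D)` in the frame of level `m`. -/
def coordSub (fr : Frame F₀ P0) (m : ℤ) (D : Divisor Qb (FB F₀)) :
    Submodule Qb (Fin (fr.n m) → Qb) :=
  (riemannRochSpace (m • pt P0 - D)).comap (frameMap fr m)

theorem mem_coordSub (fr : Frame F₀ P0) (m : ℤ) (D : Divisor Qb (FB F₀))
    (y : Fin (fr.n m) → Qb) :
    y ∈ coordSub fr m D ↔ frameMap fr m y ∈ riemannRochSpace (m • pt P0 - D) := Iff.rfl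

theorem coordSub_eq_coordOf (fr : Frame F₀ P0) (m : ℤ) (D : Divisor Qb (FB F₀)) :
    coordSub fr m D
      = coordOf (fun i => ratEmb F₀ ((fr.b m i : ↥(Alev F₀ P0 m)) : F₀))
          (riemannRochSpace (m • pt P0 - D)) := rfl

/-- `Φ^abs_m(D)`: the absolute Pluecker height of `L(m P0 - D)` in the frame of level `m`,
for EVERY divisor `D` over `ℚ̄`. -/
def PhiAbs (fr : Frame F₀ P0) (m : ℤ) (D : Divisor Qb (FB F₀)) : ℝ :=
  subHeight (coordSub fr m D)

variable (F₀ P0)

/-- **Leaf PHI-ABS.** On rational effective divisors the Spec's `Phi` (Pluecker height of the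
`ℚ`-form `W_m(D) ⊆ A_m`) is the absolute Pluecker height of `L(m P0 - D)`
(from `RatDescSpec`, `LinDisjSpec`, `IsRatPlace F₀ P0` and `subHeight_eq`). -/
def PhiAbsSpec : Prop :=
  ∀ (fr : Frame F₀ P0) (m : ℤ) (D : Divisor Qb (FB F₀)), IsRat F₀ D → 0 ≤ D →
    Phi fr m D = PhiAbs fr m D

/-- **Leaf INST (the one-point law (PhiQ) on the Spec carriers).** There is `m₁` such that for
all levels `k₁, k₂` the following is bounded uniformly in the effective divisors `G, G'` over
`ℚ̄` with `deg G + 1 + m₁ ≤ k₁`, `deg G' + 1 + m₁ ≤ k₂` and in the place `P`: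
`Φ_{k₁+k₂}(G + G' + P) + Φ_{k₁}(G) + Φ_{k₂}(G') - Φ_{k₁+k₂}(G + G') - Φ_{k₁}(G + P) - Φ_{k₂}(G' + P)`,
`Φ = PhiAbs fr`. -/
def OnePointSpec : Prop :=
  ∃ m₁ : ℕ, ∀ (fr : Frame F₀ P0) (k₁ k₂ : ℕ), ∃ C : ℝ,
    ∀ (G G' : Divisor Qb (FB F₀)) (P : Place Qb (FB F₀)), 0 ≤ G → 0 ≤ G' →
      Divisor.degree G + 1 + m₁ ≤ k₁ → Divisor.degree G' + 1 + m₁ ≤ k₂ →
      |PhiAbs fr ((k₁ : ℤ) + k₂) (G + G' + pt P) + PhiAbs fr k₁ G + PhiAbs fr k₂ G'
          - PhiAbs fr ((k₁ : ℤ) + k₂) (G + G') - PhiAbs fr k₁ (G + pt P)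
          - PhiAbs fr k₂ (G' + pt P)| ≤ C

end Carrier

/-! ## Effective divisors as multisets of places -/

section DivOf

variable {K F : Type*} [Field K] [Field F] [Algebra K F]

/-- The effective divisor of a multiset of places. -/
def divOf (G : Multiset (Place K F)) : Divisor K F := (G.map pt).sum

@[simp] theorem divOf_zero : divOf (0 : Multiset (Place K F)) = 0 := by simp [divOf]

@[simp] theorem divOf_cons (P : Place K F) (G : Multiset (Place K F)) :
    divOf (P ::ₘ G) = pt P + divOf G := by simp [divOf]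

@[simp] theorem divOf_add (G G' : Multiset (Place K F)) :
    divOf (G + G') = divOf G + divOf G' := by simp [divOf]

theorem pt_nonneg (P : Place K F) : (0 : Divisor K F) ≤ pt P := by
  classical
  intro v
  rw [pt, Finsupp.zero_apply, Finsupp.single_apply]
  split_ifs <;> norm_num

theorem divOf_nonneg (G : Multiset (Place K F)) : (0 : Divisor K F) ≤ divOf G := by
  induction G using Multiset.induction_on with
  | empty => simp
  | cons P G ih => rw [divOf_cons]; exact add_nonneg (pt_nonneg P) ih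

theorem degree_pt (hdeg : ∀ v : Place K F, v.deg = 1) (P : Place K F) :
    Divisor.degree (pt P) = 1 := by
  rw [pt, Divisor.degree_single, hdeg P]; norm_num

theorem degree_divOf (hdeg : ∀ v : Place K F, v.deg = 1) (G : Multiset (Place K F)) :
    Divisor.degree (divOf G) = Multiset.card G := by
  induction G using Multiset.induction_on with
  | empty => simp
  | cons P G ih =>
    rw [divOf_cons, map_add, degree_pt hdeg, ih, Multiset.card_cons]
    push_cast; ring

theorem divOf_replicate (n : ℕ) (v : Place K F) :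
    divOf (Multiset.replicate n v) = Finsupp.single v (n : ℤ) := by
  induction n with
  | zero => simp
  | succ n ih =>
    rw [Multiset.replicate_succ, divOf_cons, ih, pt, ← Finsupp.single_add]
    congr 1
    push_cast; ring

/-- Every effective divisor is the divisor of a multiset of places. -/
theorem exists_divOf_eq {D : Divisor K F} (hD : 0 ≤ D) :
    ∃ G : Multiset (Place K F), divOf G = D := by
  classical
  refine ⟨∑ v ∈ D.support, Multiset.replicate (D v).toNat v, ?_⟩
  have hsum : ∀ s : Finset (Place K F),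
      divOf (∑ v ∈ s, Multiset.replicate (D v).toNat v) = ∑ v ∈ s, Finsupp.single v (D v) := by
    intro s
    induction s using Finset.induction_on with
    | empty => simp
    | insert a s ha ih =>
      rw [Finset.sum_insert ha, Finset.sum_insert ha, divOf_add, ih, divOf_replicate,
        Int.toNat_of_nonneg (hD a)]
  rw [hsum]
  exact Finsupp.sum_single D

end DivOf

/-! ## The assembly: one-point law ⟹ `CubeSpec` -/

section Assembly

variable {F₀ : IntermediateField ℚ (LaurentSeries ℚ)} {P0 : Place Qb (FB F₀)}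

theorem isRat_add {D E : Divisor Qb (FB F₀)} (hD : IsRat F₀ D) (hE : IsRat F₀ E) :
    IsRat F₀ (D + E) := fun σ => by rw [smul_add, hD σ, hE σ]

/-- **Track (B) assembly.** The one-point law for `PhiAbs` and the comparison `Phi = PhiAbs` on
rational effective divisors give `CubeSpec` (two-sided, with period `n₀ = 1`, at ALL rational
effective triples of degree `d`: admissibility is used only through rationality). -/
theorem cubeSpec_of_onePoint (hdeg : ∀ v : Place Qb (FB F₀), v.deg = 1)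
    (hΦ : PhiAbsSpec F₀ P0) (hOP : OnePointSpec F₀ P0) : CubeSpec F₀ P0 := by
  obtain ⟨m₁, hOP⟩ := hOP
  refine ⟨1, one_pos, (m₁ : ℤ), ?_⟩
  intro fr c d hc _ hd _
  obtain ⟨c₀, rfl⟩ := Int.eq_ofNat_of_zero_le (le_trans (Int.natCast_nonneg m₁) hc)
  obtain ⟨d', rfl⟩ := Int.eq_ofNat_of_zero_le hd
  have hc₀ : m₁ ≤ c₀ := by exact_mod_cast hc
  -- the normalised height on multisets of places
  set Φ' : ℕ → Multiset (Place Qb (FB F₀)) → ℝ :=
    fun m G => PhiAbs fr (m : ℤ) (divOf G) - PhiAbs fr (m : ℤ) 0 with hΦ'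
  have h0 : ∀ m, Φ' m 0 = 0 := fun m => by simp [hΦ']
  have hlaw : ∀ k₁ k₂ : ℕ, ∃ C : ℝ, ∀ (G G' : Multiset (Place Qb (FB F₀)))
      (P : Place Qb (FB F₀)), Multiset.card G + 1 + m₁ ≤ k₁ → Multiset.card G' + 1 + m₁ ≤ k₂ →
      |Φ' (k₁ + k₂) (P ::ₘ (G + G')) + Φ' k₁ G + Φ' k₂ G'
        - Φ' (k₁ + k₂) (G + G') - Φ' k₁ (P ::ₘ G) - Φ' k₂ (P ::ₘ G')| ≤ C := by
    intro k₁ k₂
    obtain ⟨C, hC⟩ := hOP fr k₁ k₂
    refine ⟨C, fun G G' P h₁ h₂ => ?_⟩
    have := hC (divOf G) (divOf G') P (divOf_nonneg G) (divOf_nonneg G')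
      (by rw [degree_divOf hdeg]; exact_mod_cast h₁) (by rw [degree_divOf hdeg]; exact_mod_cast h₂)
    have e1 : divOf (P ::ₘ (G + G')) = divOf G + divOf G' + pt P := by
      rw [divOf_cons, divOf_add, add_comm]
    have e2 : divOf (P ::ₘ G) = divOf G + pt P := by rw [divOf_cons, add_comm]
    have e3 : divOf (P ::ₘ G') = divOf G' + pt P := by rw [divOf_cons, add_comm]
    have e4 : ((k₁ + k₂ : ℕ) : ℤ) = (k₁ : ℤ) + k₂ := by push_cast; ring
    simp only [hΦ', e1, e2, e3, e4, divOf_add]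
    refine le_trans (le_of_eq ?_) this
    congr 1
    ring
  obtain ⟨B, hB⟩ := exists_sevenTerm_bound hlaw h0 c₀ hc₀ d'
  -- the constant coming from the normalisation
  refine ⟨B + (PhiAbs fr (3 * (d' : ℤ) + c₀) 0 - 3 * PhiAbs fr (2 * (d' : ℤ) + c₀) 0
    + 3 * PhiAbs fr ((d' : ℤ) + c₀) 0), ?_⟩
  intro D₁ D₂ D₃ hadm
  obtain ⟨M₁, hM₁⟩ := exists_divOf_eq hadm.eff₁
  obtain ⟨M₂, hM₂⟩ := exists_divOf_eq hadm.eff₂
  obtain ⟨M₃, hM₃⟩ := exists_divOf_eq hadm.eff₃
  have hcard : ∀ (M : Multiset (Place Qb (FB F₀))) (D : Divisor Qb (FB F₀)),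
      divOf M = D → Divisor.degree D = (d' : ℤ) → Multiset.card M = d' := by
    intro M D hM hdegD
    have := degree_divOf hdeg M
    rw [hM, hdegD] at this
    exact_mod_cast this.symm
  have c₁ := hcard M₁ D₁ hM₁ hadm.deg₁
  have c₂ := hcard M₂ D₂ hM₂ hadm.deg₂
  have c₃ := hcard M₃ D₃ hM₃ hadm.deg₃
  -- each of the seven terms
  have key : ∀ (M : Multiset (Place Qb (FB F₀))) (D : Divisor Qb (FB F₀)) (lev : ℤ),
      divOf M = D → lev = ((Multiset.card M + c₀ : ℕ) : ℤ) → IsRat F₀ D →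
      Phi fr lev D = psi0 Φ' c₀ M + PhiAbs fr lev 0 := by
    intro M D lev hM hlev hrat
    subst hM hlev
    rw [hΦ fr _ _ hrat (divOf_nonneg M)]
    simp [psi0, hΦ']
  have r₁₂ := isRat_add hadm.rat₁ hadm.rat₂
  have r₁₃ := isRat_add hadm.rat₁ hadm.rat₃
  have r₂₃ := isRat_add hadm.rat₂ hadm.rat₃
  have r₁₂₃ := isRat_add r₁₂ hadm.rat₃
  have k₁₂₃ := key (M₁ + M₂ + M₃) (D₁ + D₂ + D₃) (3 * (d' : ℤ) + c₀)
    (by rw [divOf_add, divOf_add, hM₁, hM₂, hM₃])
    (by rw [Multiset.card_add, Multiset.card_add, c₁, c₂, c₃]; push_cast; ring) r₁₂₃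
  have k₁₂ := key (M₁ + M₂) (D₁ + D₂) (2 * (d' : ℤ) + c₀) (by rw [divOf_add, hM₁, hM₂])
    (by rw [Multiset.card_add, c₁, c₂]; push_cast; ring) r₁₂
  have k₁₃ := key (M₁ + M₃) (D₁ + D₃) (2 * (d' : ℤ) + c₀) (by rw [divOf_add, hM₁, hM₃])
    (by rw [Multiset.card_add, c₁, c₃]; push_cast; ring) r₁₃
  have k₂₃ := key (M₂ + M₃) (D₂ + D₃) (2 * (d' : ℤ) + c₀) (by rw [divOf_add, hM₂, hM₃])
    (by rw [Multiset.card_add, c₂, c₃]; push_cast; ring) r₂₃
  have k₁ := key M₁ D₁ ((d' : ℤ) + c₀) hM₁ (by rw [c₁]; push_cast; ring) hadm.rat₁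
  have k₂ := key M₂ D₂ ((d' : ℤ) + c₀) hM₂ (by rw [c₂]; push_cast; ring) hadm.rat₂
  have k₃ := key M₃ D₃ ((d' : ℤ) + c₀) hM₃ (by rw [c₃]; push_cast; ring) hadm.rat₃
  have hb := le_trans (le_abs_self _) (hB M₁ M₂ M₃ c₁.le c₂.le c₃.le)
  unfold sevenTerm at hb
  rw [k₁₂₃, k₁₂, k₁₃, k₂₃, k₁, k₂, k₃]
  linarith

end Assembly

end

end Fermat.Agent.S17.helper2273
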