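import Mathlib
import Fermat.Agent.S17.helper1572_BPFPlk
import Fermat.Agent.S17.helper2273_OnePointSpec

/-!
# S17, track (B) = G2-ALT, leaf (B2b): the abstract (BPF) lower bound from (RKP)

`bpf_of_rkp`: for coordinate spaces with rational structure constants `μ, ν, ν'`, the rank
hypothesis (RKP) of `helper2273.CoordOnePoint` gives the lower bound (BPF)
`(ρ + 1) * (h (pl Y) + h (pl Y')) - C₀ ≤ h (minorsTup (ρ + 1) (Vtup μ (pl Y) (pl Y')))`
uniformly in all frames `Y, Y'` of subspaces satisfying the rank condition (RK); this is the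
`C₀`-hypothesis of `helper7293.opl`.  `minorsTup_ne_zero_of_rkp` is the nonvanishing side
condition, `bpf_and_ne_zero_of_rkp` both together.

Engine (polynomials, bidegrees, Nullstellensatz): `helper1572.exists_bpf_const_ratCast`
(leaf (B2a)).  Here: (RKP) ⟹ its hypothesis `h0`, and the real points.
* `bpfU x` = span of the canonical vectors of `x`; antisymmetric `x ≠ 0` ⟹ `r + 1 ≤ dim`;
* `rank (rkMat ν x) = dim (prodSub ν ⊤ (bpfU x))`, `rank (Vmat μ x y) = dim (prodSub μ ..)`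
  (column span = `prodSub` by bilinearity of `mulμ`);
* at `x = pl Y`: `bpfU (pl Y) ≤ span (range Y)` (Laplace expansion `cvec_pl`).
-/

set_option autoImplicit false
set_option linter.unusedSectionVars false

namespace Fermat.Agent.S17.helper1360

open Fermat.Agent.Lib.helper927 (absLogHeight)
open Fermat.Agent.S17.helper7293 (pl cvec Vtup minorsTup)
open Fermat.Agent.S17.helper2273 (prodSub)

noncomputable section

/-! ## `mulμ` is bilinear; spans of products -/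

section Bilin

variable {Ω : Type*} [Field Ω] [CharZero Ω] {n₁ n₂ n₃ : ℕ}

/-- `helper2273.mulμ` as a bilinear map. -/
def bpfBil (μ : Fin n₁ → Fin n₂ → Fin n₃ → ℚ) :
    (Fin n₁ → Ω) →ₗ[Ω] (Fin n₂ → Ω) →ₗ[Ω] (Fin n₃ → Ω) :=
  LinearMap.mk₂ Ω (helper2273.mulμ μ)
    (by
      intro x x' y
      funext t
      simp only [helper2273.mulμ, Pi.add_apply, mul_add, add_mul, Finset.sum_add_distrib])
    (by
      intro c x y
      funext t
      simp only [helper2273.mulμ, Pi.smul_apply, smul_eq_mul, Finset.mul_sum]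
      exact Finset.sum_congr rfl fun i _ => Finset.sum_congr rfl fun j _ => by ring)
    (by
      intro x y y'
      funext t
      simp only [helper2273.mulμ, Pi.add_apply, mul_add, Finset.sum_add_distrib])
    (by
      intro c x y
      funext t
      simp only [helper2273.mulμ, Pi.smul_apply, smul_eq_mul, Finset.mul_sum]
      exact Finset.sum_congr rfl fun i _ => Finset.sum_congr rfl fun j _ => by ring)

theorem bpfBil_apply (μ : Fin n₁ → Fin n₂ → Fin n₃ → ℚ) (x : Fin n₁ → Ω) (y : Fin n₂ → Ω) :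
    bpfBil μ x y = helper2273.mulμ μ x y := rfl

theorem prodSub_eq_map₂ (μ : Fin n₁ → Fin n₂ → Fin n₃ → ℚ) (U : Submodule Ω (Fin n₁ → Ω))
    (U' : Submodule Ω (Fin n₂ → Ω)) : prodSub μ U U' = Submodule.map₂ (bpfBil μ) U U' := by
  rw [Submodule.map₂_eq_span_image2]
  rfl

theorem prodSub_span_span (μ : Fin n₁ → Fin n₂ → Fin n₃ → ℚ) (S : Set (Fin n₁ → Ω))
    (S' : Set (Fin n₂ → Ω)) :
    prodSub μ (Submodule.span Ω S) (Submodule.span Ω S') =
      Submodule.span Ω (Set.image2 (helper2273.mulμ μ) S S') := by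
  rw [prodSub_eq_map₂, Submodule.map₂_span_span]
  rfl

theorem prodSub_mono (μ : Fin n₁ → Fin n₂ → Fin n₃ → ℚ) {U V : Submodule Ω (Fin n₁ → Ω)}
    {U' V' : Submodule Ω (Fin n₂ → Ω)} (h : U ≤ V) (h' : U' ≤ V') :
    prodSub μ U U' ≤ prodSub μ V V' :=
  Submodule.span_mono (Set.image2_subset h h')

theorem top_eq_span_single (n : ℕ) :
    (⊤ : Submodule Ω (Fin n → Ω)) =
      Submodule.span Ω (Set.range fun b : Fin n => (Pi.single b 1 : Fin n → Ω)) := by
  have h := (Pi.basisFun Ω (Fin n)).span_eq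
  rw [← h]
  congr 1
  ext v
  simp [Pi.basisFun_apply]

end Bilin

/-! ## The evaluated matrices and their ranks -/

section Ranks

variable {Ω : Type*} [Field Ω] [CharZero Ω] {n₁ n₂ n₃ n₄ n₅ : ℕ}

/-- The span of the canonical vectors of a Pluecker-type tuple. -/
def bpfU {r : ℕ} (x : (Fin (r + 1) → Fin n₁) → Ω) : Submodule Ω (Fin n₁ → Ω) :=
  Submodule.span Ω (Set.range (cvec x))

/-- The (RK) matrix: columns = products of the standard basis vectors of `Ω^n₄` with the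
canonical vectors of `x`. -/
def bpfRk (ν : Fin n₄ → Fin n₁ → Fin n₅ → ℚ) {r : ℕ} (x : (Fin (r + 1) → Fin n₁) → Ω) :
    Matrix (Fin n₅) (Fin n₄ × (Fin r → Fin n₁)) Ω :=
  fun u c => ∑ i, (ν c.1 i u : Ω) * x (Fin.snoc c.2 i)

theorem bpfRk_col (ν : Fin n₄ → Fin n₁ → Fin n₅ → ℚ) {r : ℕ} (x : (Fin (r + 1) → Fin n₁) → Ω)
    (c : Fin n₄ × (Fin r → Fin n₁)) :
    (bpfRk ν x).col c = helper2273.mulμ ν (Pi.single c.1 1) (cvec x c.2) := by
  funext u
  simp only [Matrix.col_apply, bpfRk, helper2273.mulμ, cvec]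
  rw [Finset.sum_eq_single c.1]
  · simp
  · intro b _ hb
    simp [Pi.single_eq_of_ne hb]
  · intro h
    exact absurd (Finset.mem_univ _) h

theorem rank_bpfRk (ν : Fin n₄ → Fin n₁ → Fin n₅ → ℚ) {r : ℕ} (x : (Fin (r + 1) → Fin n₁) → Ω) :
    (bpfRk ν x).rank = Module.finrank Ω (prodSub ν ⊤ (bpfU x)) := by
  have hset : Set.range (bpfRk ν x).col = Set.image2 (helper2273.mulμ ν)
      (Set.range fun b : Fin n₄ => (Pi.single b 1 : Fin n₄ → Ω)) (Set.range (cvec x)) := by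
    ext v
    simp only [Set.mem_range, Set.mem_image2, Prod.exists]
    constructor
    · rintro ⟨b, s, rfl⟩
      exact ⟨_, ⟨b, rfl⟩, _, ⟨s, rfl⟩, (bpfRk_col ν x (b, s)).symm⟩
    · rintro ⟨_, ⟨b, rfl⟩, _, ⟨s, rfl⟩, rfl⟩
      exact ⟨b, s, bpfRk_col ν x (b, s)⟩
  rw [Matrix.rank_eq_finrank_span_cols, bpfU, top_eq_span_single, prodSub_span_span, hset]

/-- The matrix of all products of canonical vectors of `x` and `y` (columns). -/
def bpfPr (μ : Fin n₁ → Fin n₂ → Fin n₃ → ℚ) {r r' : ℕ} (x : (Fin (r + 1) → Fin n₁) → Ω)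
    (y : (Fin (r' + 1) → Fin n₂) → Ω) :
    Matrix (Fin n₃) ((Fin r → Fin n₁) × (Fin r' → Fin n₂)) Ω :=
  fun t c => helper2273.mulμ μ (cvec x c.1) (cvec y c.2) t

theorem rank_bpfPr (μ : Fin n₁ → Fin n₂ → Fin n₃ → ℚ) {r r' : ℕ}
    (x : (Fin (r + 1) → Fin n₁) → Ω) (y : (Fin (r' + 1) → Fin n₂) → Ω) :
    (bpfPr μ x y).rank = Module.finrank Ω (prodSub μ (bpfU x) (bpfU y)) := by
  have hset : Set.range (bpfPr μ x y).col = Set.image2 (helper2273.mulμ μ)
      (Set.range (cvec x)) (Set.range (cvec y)) := by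
    ext v
    simp only [Set.mem_range, Set.mem_image2, Prod.exists]
    constructor
    · rintro ⟨s, s', rfl⟩
      exact ⟨_, ⟨s, rfl⟩, _, ⟨s', rfl⟩, rfl⟩
    · rintro ⟨_, ⟨s, rfl⟩, _, ⟨s', rfl⟩, rfl⟩
      exact ⟨s, s', rfl⟩
  rw [Matrix.rank_eq_finrank_span_cols, bpfU, bpfU, prodSub_span_span, hset]

/-- The canonical vectors of the Pluecker vector of a frame lie in the span of the frame. -/
theorem bpfU_pl_le {r : ℕ} (Y : Fin (r + 1) → Fin n₁ → Ω) :
    bpfU (pl Y) ≤ Submodule.span Ω (Set.range Y) := by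
  rw [bpfU, Submodule.span_le]
  rintro _ ⟨s, rfl⟩
  have h : cvec (pl Y) s = ∑ i, helper7293.ccoef Y s i • Y i := by
    funext t
    rw [helper7293.cvec_pl]
    simp
  rw [h]
  exact Submodule.sum_mem _ fun i _ =>
    Submodule.smul_mem _ _ (Submodule.subset_span (Set.mem_range_self i))

/-- A nonzero antisymmetric tuple has at least `r + 1` independent canonical vectors. -/
theorem le_finrank_bpfU {r : ℕ} (x : (Fin (r + 1) → Fin n₁) → Ω)
    (hanti : ∀ (J : Fin (r + 1) → Fin n₁) (σ : Equiv.Perm (Fin (r + 1))),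
      x (J ∘ σ) = ((Equiv.Perm.sign σ : ℤ) : Ω) * x J)
    (hx : x ≠ 0) : r + 1 ≤ Module.finrank Ω (bpfU x) := by
  obtain ⟨s, hs⟩ := helper7293.exists_linearIndependent_cvec x hanti hx
  have h1 : Module.finrank Ω (Submodule.span Ω (Set.range fun k => cvec x (s k))) = r + 1 := by
    rw [finrank_span_eq_card hs, Fintype.card_fin]
  rw [← h1]
  refine Submodule.finrank_mono (Submodule.span_mono ?_)
  rintro _ ⟨k, rfl⟩
  exact ⟨s k, rfl⟩

/-- The Pluecker vector of a linearly independent frame is nonzero. -/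
theorem pl_ne_zero_of_linearIndependent {r : ℕ} (Y : Fin r → Fin n₁ → Ω)
    (hY : LinearIndependent Ω Y) : pl Y ≠ 0 := by
  classical
  have hrank : (Matrix.of Y).rank = r := by
    have h := LinearIndependent.rank_matrix (M := Matrix.of Y) hY
    rw [h, Fintype.card_fin]
  obtain ⟨s, c, hsc⟩ := Fermat.Agent.Lib.helper1572.exists_submatrix_det_ne_zero_of_le_rank
    (Matrix.of Y) (ρ := r) hrank.ge
  have hinj : Function.Injective s := by
    intro a b hab
    by_contra hne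
    exact hsc (Matrix.det_zero_of_row_eq hne (by ext j; simp [Matrix.submatrix_apply, hab]))
  have hbij : Function.Bijective s := Finite.injective_iff_bijective.mp hinj
  intro h0
  apply hsc
  have e : (Matrix.of Y).submatrix s c =
      ((Matrix.of Y).submatrix id c).submatrix (Equiv.ofBijective s hbij) id := by
    ext a b
    simp
  rw [e, Matrix.det_permute]
  have : ((Matrix.of Y).submatrix id c).det = pl Y c := rfl
  rw [this, h0]
  simp

end Ranks

/-! ## The theorem -/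

/-- **Leaf (B2b) of track (B): the abstract (BPF) lower bound from (RKP).**

If every pair of subspaces `U, U'` of codimension `≤ d, d'` satisfying the rank condition (RK)
has a product of codimension `≤ d + d'` (hypothesis (RKP) of `helper2273.CoordOnePoint`,
verbatim), then the `(ρ + 1)`-minors of the matrix of products of canonical vectors of the
Pluecker vectors of any two frames `Y, Y'` whose spans satisfy (RK) have absolute height at least
`(ρ + 1) * (h (pl Y) + h (pl Y')) - C₀`, with `C₀` independent of the frames: the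
`C₀`-hypothesis of `helper7293.opl`. -/
theorem bpf_of_rkp {Ω : Type*} [Field Ω] [CharZero Ω] [IsAlgClosed Ω] [Algebra.IsAlgebraic ℚ Ω]
    {n₁ n₂ n₃ n₄ n₅ n₆ n₇ : ℕ}
    (μ : Fin n₁ → Fin n₂ → Fin n₃ → ℚ) (ν : Fin n₄ → Fin n₁ → Fin n₅ → ℚ)
    (ν' : Fin n₆ → Fin n₂ → Fin n₇ → ℚ) (d d' r r' ρ : ℕ)
    (hr : r + 1 + d = n₁) (hr' : r' + 1 + d' = n₂) (hρ : ρ + 1 + d + d' = n₃)
    (hRKP : ∀ (U : Submodule Ω (Fin n₁ → Ω)) (U' : Submodule Ω (Fin n₂ → Ω)),
      n₁ ≤ Module.finrank Ω U + d → n₂ ≤ Module.finrank Ω U' + d' →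
      Module.finrank Ω (prodSub ν ⊤ U) + d ≤ n₅ →
      Module.finrank Ω (prodSub ν' ⊤ U') + d' ≤ n₇ →
      n₃ ≤ Module.finrank Ω (prodSub μ U U') + d + d') :
    ∃ C₀ : ℝ, ∀ (Y : Fin (r + 1) → Fin n₁ → Ω) (Y' : Fin (r' + 1) → Fin n₂ → Ω),
      LinearIndependent Ω Y → LinearIndependent Ω Y' →
      Module.finrank Ω (prodSub ν ⊤ (Submodule.span Ω (Set.range Y))) + d ≤ n₅ →
      Module.finrank Ω (prodSub ν' ⊤ (Submodule.span Ω (Set.range Y'))) + d' ≤ n₇ →
      ((ρ : ℝ) + 1) * (absLogHeight (pl Y) + absLogHeight (pl Y')) - C₀ ≤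
        absLogHeight (minorsTup (ρ + 1)
          (Vtup (fun i j t => ((μ i j t : ℚ) : Ω)) (pl Y) (pl Y'))) := by
  classical
  by_cases hd : d ≤ n₅ ∧ d' ≤ n₇
  swap
  · refine ⟨0, fun Y Y' _ _ h1 h2 => ?_⟩
    exfalso
    apply hd
    constructor <;> omega
  obtain ⟨hd5, hd7⟩ := hd
  obtain ⟨C, hC⟩ := helper1572.exists_bpf_const_ratCast (Ω := Ω) μ ν ν' r r' ρ (n₅ - d) (n₇ - d')
    (by
      intro x y hx hy ax ay rx ry
      rw [helper1572.minorsTup_Vtup_ne_zero_iff]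
      change ρ + 1 ≤ (bpfPr μ x y).rank
      rw [rank_bpfPr]
      have h1 := le_finrank_bpfU x ax hx
      have h2 := le_finrank_bpfU y ay hy
      change (bpfRk ν x).rank ≤ _ at rx
      change (bpfRk ν' y).rank ≤ _ at ry
      rw [rank_bpfRk] at rx ry
      have h3 := hRKP (bpfU x) (bpfU y) (by omega) (by omega) (by omega) (by omega)
      omega)
  refine ⟨C, fun Y Y' hY hY' hrk hrk' => ?_⟩
  have hx := pl_ne_zero_of_linearIndependent Y hY
  have hy := pl_ne_zero_of_linearIndependent Y' hY'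
  refine hC (pl Y) (pl Y') hx hy (helper1572.antiTup_pl Y) (helper1572.antiTup_pl Y') ?_ ?_
  · change (bpfRk ν (pl Y)).rank ≤ _
    rw [rank_bpfRk]
    have h1 := Submodule.finrank_mono (prodSub_mono ν (le_refl ⊤) (bpfU_pl_le Y))
    omega
  · change (bpfRk ν' (pl Y')).rank ≤ _
    rw [rank_bpfRk]
    have h1 := Submodule.finrank_mono (prodSub_mono ν' (le_refl ⊤) (bpfU_pl_le Y'))
    omega

/-- **Nonvanishing at real points**: under (RKP), for frames `Y, Y'` whose spans satisfy (RK),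
some `(ρ + 1)`-minor of the matrix of products of canonical vectors does not vanish (the
nonvanishing side condition of `helper7293.opl` / `opl_subspace`). -/
theorem minorsTup_ne_zero_of_rkp {Ω : Type*} [Field Ω] [CharZero Ω]
    {n₁ n₂ n₃ n₄ n₅ n₆ n₇ : ℕ}
    (μ : Fin n₁ → Fin n₂ → Fin n₃ → ℚ) (ν : Fin n₄ → Fin n₁ → Fin n₅ → ℚ)
    (ν' : Fin n₆ → Fin n₂ → Fin n₇ → ℚ) (d d' r r' ρ : ℕ)
    (hr : r + 1 + d = n₁) (hr' : r' + 1 + d' = n₂) (hρ : ρ + 1 + d + d' = n₃)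
    (hRKP : ∀ (U : Submodule Ω (Fin n₁ → Ω)) (U' : Submodule Ω (Fin n₂ → Ω)),
      n₁ ≤ Module.finrank Ω U + d → n₂ ≤ Module.finrank Ω U' + d' →
      Module.finrank Ω (prodSub ν ⊤ U) + d ≤ n₅ →
      Module.finrank Ω (prodSub ν' ⊤ U') + d' ≤ n₇ →
      n₃ ≤ Module.finrank Ω (prodSub μ U U') + d + d')
    (Y : Fin (r + 1) → Fin n₁ → Ω) (Y' : Fin (r' + 1) → Fin n₂ → Ω)
    (hY : LinearIndependent Ω Y) (hY' : LinearIndependent Ω Y')
    (hrk : Module.finrank Ω (prodSub ν ⊤ (Submodule.span Ω (Set.range Y))) + d ≤ n₅)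
    (hrk' : Module.finrank Ω (prodSub ν' ⊤ (Submodule.span Ω (Set.range Y'))) + d' ≤ n₇) :
    minorsTup (ρ + 1) (Vtup (fun i j t => ((μ i j t : ℚ) : Ω)) (pl Y) (pl Y')) ≠ 0 := by
  classical
  have hx := pl_ne_zero_of_linearIndependent Y hY
  have hy := pl_ne_zero_of_linearIndependent Y' hY'
  have h1 := le_finrank_bpfU (pl Y) (fun J σ => helper7293.pl_comp_perm Y J σ) hx
  have h2 := le_finrank_bpfU (pl Y') (fun J σ => helper7293.pl_comp_perm Y' J σ) hy
  have h3 := Submodule.finrank_mono (prodSub_mono ν (le_refl ⊤) (bpfU_pl_le Y))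
  have h4 := Submodule.finrank_mono (prodSub_mono ν' (le_refl ⊤) (bpfU_pl_le Y'))
  have h5 := hRKP (bpfU (pl Y)) (bpfU (pl Y')) (by omega) (by omega) (by omega) (by omega)
  have h6 : ρ + 1 ≤ (bpfPr μ (pl Y) (pl Y')).rank := by
    rw [rank_bpfPr]
    omega
  exact (helper1572.minorsTup_Vtup_ne_zero_iff _ _ _ _).mpr h6

/-- (B2) in the shape consumed by `helper7293.opl_subspace`: nonvanishing and the (BPF) lower
bound together, uniformly in the frames. -/
theorem bpf_and_ne_zero_of_rkp {Ω : Type*} [Field Ω] [CharZero Ω] [IsAlgClosed Ω]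
    [Algebra.IsAlgebraic ℚ Ω] {n₁ n₂ n₃ n₄ n₅ n₆ n₇ : ℕ}
    (μ : Fin n₁ → Fin n₂ → Fin n₃ → ℚ) (ν : Fin n₄ → Fin n₁ → Fin n₅ → ℚ)
    (ν' : Fin n₆ → Fin n₂ → Fin n₇ → ℚ) (d d' r r' ρ : ℕ)
    (hr : r + 1 + d = n₁) (hr' : r' + 1 + d' = n₂) (hρ : ρ + 1 + d + d' = n₃)
    (hRKP : ∀ (U : Submodule Ω (Fin n₁ → Ω)) (U' : Submodule Ω (Fin n₂ → Ω)),
      n₁ ≤ Module.finrank Ω U + d → n₂ ≤ Module.finrank Ω U' + d' →
      Module.finrank Ω (prodSub ν ⊤ U) + d ≤ n₅ →
      Module.finrank Ω (prodSub ν' ⊤ U') + d' ≤ n₇ →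
      n₃ ≤ Module.finrank Ω (prodSub μ U U') + d + d') :
    ∃ C₀ : ℝ, ∀ (Y : Fin (r + 1) → Fin n₁ → Ω) (Y' : Fin (r' + 1) → Fin n₂ → Ω),
      LinearIndependent Ω Y → LinearIndependent Ω Y' →
      Module.finrank Ω (prodSub ν ⊤ (Submodule.span Ω (Set.range Y))) + d ≤ n₅ →
      Module.finrank Ω (prodSub ν' ⊤ (Submodule.span Ω (Set.range Y'))) + d' ≤ n₇ →
      minorsTup (ρ + 1) (Vtup (fun i j t => ((μ i j t : ℚ) : Ω)) (pl Y) (pl Y')) ≠ 0 ∧
      ((ρ : ℝ) + 1) * (absLogHeight (pl Y) + absLogHeight (pl Y')) - C₀ ≤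
        absLogHeight (minorsTup (ρ + 1)
          (Vtup (fun i j t => ((μ i j t : ℚ) : Ω)) (pl Y) (pl Y'))) := by
  obtain ⟨C₀, hC₀⟩ := bpf_of_rkp μ ν ν' d d' r r' ρ hr hr' hρ hRKP
  exact ⟨C₀, fun Y Y' hY hY' hrk hrk' =>
    ⟨minorsTup_ne_zero_of_rkp μ ν ν' d d' r r' ρ hr hr' hρ hRKP Y Y' hY hY' hrk hrk',
      hC₀ Y Y' hY hY' hrk hrk'⟩⟩

end

end Fermat.Agent.S17.helper1360
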