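import Mathlib

/-!
# Complementary minors and the Pluecker height of a subspace and of its annihilator

S17-PLK-DUAL (board 1648).  Mathlib only.

Notation: for `B : Matrix m n R` the vector of ALL maximal minors is
`minors B : (m → n) → R`, `minors B s = (B.submatrix id s).det` (non-injective `s` give `0`).

* `det_mul_det_compl` : for `A : Matrix m n R`, `B : Matrix k n R` with `A * Bᵀ = 0` and two
  splittings `σ τ : m ⊕ k ≃ n` of the columns, the complementary minors satisfy
  `det A_τl * det B_σr = sign (σ.trans τ.symm) * (det A_σl * det B_τr)`.  Any commutative ring,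
  no rank hypothesis.
* `exists_const_compl_minors` : over a field, `det B_σr = c * (sign * det A_σl)` with one `c ≠ 0`.
* `mulHeight_eq_of_forall_exists`, `mulHeight_eq_of_forall_exists_mul` : tuples that agree up to
  zero entries, repetitions, signs (and one nonzero scalar) have the same height.
* `mulHeight_minors_eq_of_orthogonal` (and `_of_exists`, `_fin`, `logHeight_` forms,
  `mulHeight_minors_eq_of_mulVec_eq_zero` = kernel form) : Pluecker duality for heights:
  `mulHeight (minors A) = mulHeight (minors B)` when `A * Bᵀ = 0`, `|m| + |k| = |n|` and both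
  have linearly independent rows.
* `mulHeight_minors_eq_mulHeight_orderEmbedding` : all-maps indexing versus increasing maps
  `Fin r ↪o n`; `mulHeight_orderEmbedding_minors_eq_of_orthogonal` : duality in that indexing.
* `mulHeight_minors_mul_left`, `mulHeight_minors_eq_of_span_le`, `mulHeight_minors_eq_of_span_eq` :
  the height of the maximal minors of a frame depends only on its span.
* `exists_minors_ne_zero_of_linearIndependent`, `linearIndependent_row_of_minors_ne_zero` :
  full row rank is the same as having a nonzero maximal minor.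
-/

namespace Fermat.Agent.S17.helper3088

open Matrix

section CommRing

variable {R : Type*} [CommRing R] {m k n : Type*} [Fintype m] [Fintype k] [Fintype n]
  [DecidableEq m] [DecidableEq k] [DecidableEq n]

/-- The rows of `A`, followed by the unit rows at the columns `σ (inr j)`. -/
def stackTop (A : Matrix m n R) (σ : m ⊕ k ≃ n) : Matrix (m ⊕ k) n R :=
  Matrix.of (Sum.elim (fun i => A i) (fun j => Pi.single (σ (Sum.inr j)) (1 : R)))

/-- The unit rows at the columns `τ (inl i)`, followed by the rows of `B`. -/
def stackBot (B : Matrix k n R) (τ : m ⊕ k ≃ n) : Matrix (m ⊕ k) n R :=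
  Matrix.of (Sum.elim (fun i => Pi.single (τ (Sum.inl i)) (1 : R)) (fun j => B j))

omit [Fintype m] [Fintype k] [Fintype n] [DecidableEq m] in
theorem stackTop_submatrix (A : Matrix m n R) (σ : m ⊕ k ≃ n) :
    (stackTop A σ).submatrix id σ =
      Matrix.fromBlocks (A.submatrix id (σ ∘ Sum.inl)) (A.submatrix id (σ ∘ Sum.inr)) 0 1 := by
  ext i j
  rcases i with i | i <;> rcases j with j | j <;>
    simp [stackTop, Matrix.one_apply, Pi.single_apply, eq_comm]

omit [Fintype m] [Fintype k] [Fintype n] [DecidableEq k] in
theorem stackBot_submatrix (B : Matrix k n R) (τ : m ⊕ k ≃ n) :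
    (stackBot B τ).submatrix id τ =
      Matrix.fromBlocks 1 0 (B.submatrix id (τ ∘ Sum.inl)) (B.submatrix id (τ ∘ Sum.inr)) := by
  ext i j
  rcases i with i | i <;> rcases j with j | j <;>
    simp [stackBot, Matrix.one_apply, Pi.single_apply, eq_comm]

omit [Fintype n] in
theorem det_stackTop_submatrix (A : Matrix m n R) (σ : m ⊕ k ≃ n) :
    ((stackTop A σ).submatrix id σ).det = (A.submatrix id (σ ∘ Sum.inl)).det := by
  rw [stackTop_submatrix, Matrix.det_fromBlocks_zero₂₁, Matrix.det_one, mul_one]

omit [Fintype n] in
theorem det_stackBot_submatrix (B : Matrix k n R) (τ : m ⊕ k ≃ n) :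
    ((stackBot B τ).submatrix id τ).det = (B.submatrix id (τ ∘ Sum.inr)).det := by
  rw [stackBot_submatrix, Matrix.det_fromBlocks_zero₁₂, Matrix.det_one, one_mul]

omit [Fintype m] [Fintype k] [DecidableEq m] [DecidableEq k] in
theorem stackTop_mul_stackBot_transpose (A : Matrix m n R) (B : Matrix k n R)
    (hAB : A * Bᵀ = 0) (σ τ : m ⊕ k ≃ n) :
    ∃ C : Matrix k m R, stackTop A σ * (stackBot B τ)ᵀ =
      Matrix.fromBlocks (A.submatrix id (τ ∘ Sum.inl)) 0 C (B.submatrix id (σ ∘ Sum.inr))ᵀ := by
  refine ⟨Matrix.of fun j i => (stackTop A σ * (stackBot B τ)ᵀ) (Sum.inr j) (Sum.inl i), ?_⟩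
  ext i j
  rcases i with i | i <;> rcases j with j | j
  · rw [Matrix.fromBlocks_apply₁₁]
    simp [stackTop, stackBot, Matrix.mul_apply, Pi.single_apply]
  · rw [Matrix.fromBlocks_apply₁₂]
    have := congrFun (congrFun hAB i) j
    simpa [stackTop, stackBot, Matrix.mul_apply] using this
  · rw [Matrix.fromBlocks_apply₂₁, Matrix.of_apply]
  · rw [Matrix.fromBlocks_apply₂₂]
    simp [stackTop, stackBot, Matrix.mul_apply, Pi.single_apply]

/-- **Complementary minors identity.**  If `A * Bᵀ = 0`, then for any two splittings `σ`, `τ` of
the columns into an `m`-part and a `k`-part,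
`det A_τl * det B_σr = sign (σ.trans τ.symm) * (det A_σl * det B_τr)`. -/
theorem det_mul_det_compl (A : Matrix m n R) (B : Matrix k n R) (hAB : A * Bᵀ = 0)
    (σ τ : m ⊕ k ≃ n) :
    (A.submatrix id (τ ∘ Sum.inl)).det * (B.submatrix id (σ ∘ Sum.inr)).det =
      (Equiv.Perm.sign (σ.trans τ.symm) : ℤˣ) *
        ((A.submatrix id (σ ∘ Sum.inl)).det * (B.submatrix id (τ ∘ Sum.inr)).det) := by
  obtain ⟨C, hC⟩ := stackTop_mul_stackBot_transpose A B hAB σ τ
  have h1 : ((stackTop A σ).submatrix id σ * ((stackBot B τ).submatrix id σ)ᵀ).det =
      (A.submatrix id (τ ∘ Sum.inl)).det * (B.submatrix id (σ ∘ Sum.inr)).det := by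
    rw [Matrix.transpose_submatrix, Matrix.submatrix_mul_equiv, hC]
    rw [Matrix.submatrix_id_id, Matrix.det_fromBlocks_zero₁₂, Matrix.det_transpose]
  have h2 : (stackBot B τ).submatrix id σ =
      ((stackBot B τ).submatrix id τ).submatrix id (σ.trans τ.symm) := by
    ext i j
    simp
  rw [← h1, Matrix.det_mul, Matrix.det_transpose, h2, Matrix.det_permute',
    det_stackTop_submatrix, det_stackBot_submatrix]
  ring

end CommRing

/-! ### Extending an injective map to a splitting -/

section Extend

variable {α β γ : Type*} [Fintype α] [Fintype β] [Fintype γ]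

/-- An injective map `s : α → γ` is the left half of a splitting `α ⊕ β ≃ γ` as soon as the
cardinalities match. -/
theorem exists_equiv_sum_comp_inl (s : α → γ) (hs : Function.Injective s)
    (hcard : Fintype.card α + Fintype.card β = Fintype.card γ) :
    ∃ σ : α ⊕ β ≃ γ, ⇑σ ∘ Sum.inl = s := by
  classical
  let e1 : α ≃ Set.range s := Equiv.ofInjective s hs
  have hc : Fintype.card β = Fintype.card ↥(Set.range s)ᶜ := by
    have h1 : Fintype.card ↥(Set.range s) = Fintype.card α := (Fintype.card_congr e1).symm
    have h2 := Fintype.card_compl_set (Set.range s)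
    omega
  let e2 : β ≃ ↥(Set.range s)ᶜ := Fintype.equivOfCardEq hc
  refine ⟨(Equiv.sumCongr e1 e2).trans (Equiv.Set.sumCompl (Set.range s)), ?_⟩
  funext a
  simp [e1]

/-- An injective map `t : β → γ` is the right half of a splitting `α ⊕ β ≃ γ` as soon as the
cardinalities match. -/
theorem exists_equiv_sum_comp_inr (t : β → γ) (ht : Function.Injective t)
    (hcard : Fintype.card α + Fintype.card β = Fintype.card γ) :
    ∃ σ : α ⊕ β ≃ γ, ⇑σ ∘ Sum.inr = t := by
  obtain ⟨σ, hσ⟩ := exists_equiv_sum_comp_inl (β := α) t ht (by omega)
  refine ⟨(Equiv.sumComm α β).trans σ, ?_⟩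
  funext b
  simpa using congrFun hσ b

end Extend

/-! ### The vector of maximal minors -/

section Minors

variable {R : Type*} [CommRing R] {m n : Type*} [Fintype m] [DecidableEq m]

/-- The vector of all maximal minors of a matrix `B : Matrix m n R`, indexed by ALL maps
`s : m → n` (non-injective maps give `0`, maps with the same image give the same minor up to
sign). -/
def minors (B : Matrix m n R) : (m → n) → R := fun s => (B.submatrix id s).det

theorem minors_apply (B : Matrix m n R) (s : m → n) : minors B s = (B.submatrix id s).det := rfl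

theorem minors_eq_zero_of_not_injective (B : Matrix m n R) (s : m → n)
    (hs : ¬ Function.Injective s) : minors B s = 0 := by
  obtain ⟨i, j, hij, hne⟩ : ∃ i j, s i = s j ∧ i ≠ j := by
    simpa [Function.Injective] using hs
  exact Matrix.det_zero_of_column_eq hne (fun l => by simp [hij])

theorem injective_of_minors_ne_zero (B : Matrix m n R) (s : m → n) (hs : minors B s ≠ 0) :
    Function.Injective s := by
  by_contra h
  exact hs (minors_eq_zero_of_not_injective B s h)

/-- Left multiplication by a square matrix multiplies all maximal minors by its determinant. -/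
theorem minors_mul (P : Matrix m m R) (B : Matrix m n R) :
    minors (P * B) = P.det • minors B := by
  funext s
  have : (P * B).submatrix id s = P * B.submatrix id s := by
    ext i j
    simp [Matrix.mul_apply]
  simp [minors, this, Matrix.det_mul]

end Minors

/-! ### Proportionality of complementary minors over a field -/

section Field

variable {K : Type*} [Field K] {m k n : Type*} [Fintype m] [Fintype k] [Fintype n]
  [DecidableEq m] [DecidableEq k] [DecidableEq n]

/-- Over a field, if `A * Bᵀ = 0` and both `A` and `B` have a nonzero complementary-type minor,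
then the complementary minors of `B` are proportional, up to the sign of the splitting, to the
minors of `A`. -/
theorem exists_const_compl_minors (A : Matrix m n K) (B : Matrix k n K) (hAB : A * Bᵀ = 0)
    (hA : ∃ σ : m ⊕ k ≃ n, (A.submatrix id (σ ∘ Sum.inl)).det ≠ 0)
    (hB : ∃ σ : m ⊕ k ≃ n, (B.submatrix id (σ ∘ Sum.inr)).det ≠ 0) :
    ∃ (c : K) (σ₀ : m ⊕ k ≃ n), c ≠ 0 ∧ ∀ σ : m ⊕ k ≃ n,
      (B.submatrix id (σ ∘ Sum.inr)).det =
        c * ((Equiv.Perm.sign (σ.trans σ₀.symm) : ℤˣ) * (A.submatrix id (σ ∘ Sum.inl)).det) := by
  obtain ⟨σA, hσA⟩ := hA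
  obtain ⟨σB, hσB⟩ := hB
  have hsign : ∀ π : Equiv.Perm (m ⊕ k), (((Equiv.Perm.sign π : ℤˣ) : ℤ) : K) ≠ 0 := by
    intro π
    rcases Int.units_eq_one_or (Equiv.Perm.sign π) with h | h <;> simp [h]
  have h0 := det_mul_det_compl A B hAB σA σB
  have hne : (A.submatrix id (σB ∘ Sum.inl)).det * (B.submatrix id (σA ∘ Sum.inr)).det ≠ 0 := by
    rw [h0]
    exact mul_ne_zero (hsign _) (mul_ne_zero hσA hσB)
  have hA' : (A.submatrix id (σB ∘ Sum.inl)).det ≠ 0 := left_ne_zero_of_mul hne
  refine ⟨(B.submatrix id (σB ∘ Sum.inr)).det / (A.submatrix id (σB ∘ Sum.inl)).det, σB,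
    div_ne_zero hσB hA', fun σ => ?_⟩
  have h1 := det_mul_det_compl A B hAB σ σB
  field_simp
  rw [mul_comm] at h1
  rw [h1]
  ring

end Field

/-! ### Heights -/

section Height

open Height

variable {K : Type*} [Field K] [AdmissibleAbsValues K] {ι κ : Type*} [Finite ι] [Finite κ]

/-- Two tuples whose entries agree up to zero entries, repetitions and signs have the same
multiplicative height. -/
theorem mulHeight_eq_of_forall_exists (x : ι → K) (y : κ → K)
    (h₁ : ∀ i, x i = 0 ∨ ∃ j, x i = y j ∨ x i = -y j)
    (h₂ : ∀ j, y j = 0 ∨ ∃ i, y j = x i ∨ y j = -x i) :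
    mulHeight x = mulHeight y := by
  by_cases hx : x = 0
  · have hy : y = 0 := by
      funext j
      rcases h₂ j with h | ⟨i, h | h⟩ <;> simp [h, hx]
    rw [hx, hy, mulHeight_zero, mulHeight_zero]
  have hy : y ≠ 0 := by
    rintro rfl
    apply hx
    funext i
    rcases h₁ i with h | ⟨j, h | h⟩ <;> simp [h]
  obtain ⟨i₀, -⟩ := Function.ne_iff.mp hx
  obtain ⟨j₀, -⟩ := Function.ne_iff.mp hy
  have : Nonempty ι := ⟨i₀⟩
  have : Nonempty κ := ⟨j₀⟩
  have H (v : AbsoluteValue K ℝ) : ⨆ i, v (x i) = ⨆ j, v (y j) := by
    refine le_antisymm (ciSup_le fun i => ?_) (ciSup_le fun j => ?_)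
    · rcases h₁ i with h | ⟨j, h | h⟩
      · rw [h, map_zero]
        exact Real.iSup_nonneg fun j => v.nonneg _
      · exact Finite.le_ciSup_of_le j (le_of_eq (by rw [h]))
      · exact Finite.le_ciSup_of_le j (le_of_eq (by rw [h, v.map_neg]))
    · rcases h₂ j with h | ⟨i, h | h⟩
      · rw [h, map_zero]
        exact Real.iSup_nonneg fun j => v.nonneg _
      · exact Finite.le_ciSup_of_le i (le_of_eq (by rw [h]))
      · exact Finite.le_ciSup_of_le i (le_of_eq (by rw [h, v.map_neg]))
  rw [mulHeight_eq hx, mulHeight_eq hy]
  congr <;> ext1 v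
  · exact H v
  · exact H v.val

/-- Two tuples whose entries agree up to zero entries, repetitions, signs and ONE nonzero scalar
have the same multiplicative height. -/
theorem mulHeight_eq_of_forall_exists_mul (x : ι → K) (y : κ → K) {c : K} (hc : c ≠ 0)
    (h₁ : ∀ i, x i = 0 ∨ ∃ j, x i = c * y j ∨ x i = -(c * y j))
    (h₂ : ∀ j, y j = 0 ∨ ∃ i, c * y j = x i ∨ c * y j = -x i) :
    mulHeight x = mulHeight y := by
  rw [← mulHeight_smul_eq_mulHeight y hc]
  refine mulHeight_eq_of_forall_exists x (c • y) ?_ ?_
  · intro i
    rcases h₁ i with h | ⟨j, h | h⟩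
    · exact Or.inl h
    · exact Or.inr ⟨j, Or.inl (by simpa using h)⟩
    · exact Or.inr ⟨j, Or.inr (by simpa using h)⟩
  · intro j
    rcases h₂ j with h | ⟨i, h | h⟩
    · exact Or.inl (by simp [h])
    · exact Or.inr ⟨i, Or.inl (by simpa using h)⟩
    · exact Or.inr ⟨i, Or.inr (by simpa using h)⟩

end Height

/-! ### Full row rank gives a nonzero maximal minor -/

section Rank

variable {K : Type*} [Field K] {m n : Type*} [Fintype m] [Fintype n] [DecidableEq m]

/-- A matrix with linearly independent rows has a nonzero maximal minor. -/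
theorem exists_minors_ne_zero_of_linearIndependent (A : Matrix m n K)
    (hA : LinearIndependent K A.row) : ∃ s, minors A s ≠ 0 := by
  classical
  have hrank : A.rank = Fintype.card m := hA.rank_matrix
  have hspan : Submodule.span K (Set.range A.col) = ⊤ := by
    apply Submodule.eq_top_of_finrank_eq
    rw [← Matrix.rank_eq_finrank_span_cols, hrank, Module.finrank_fintype_fun_eq_card]
  obtain ⟨κ, a, ha, hsp, hli⟩ := exists_linearIndependent' K A.col
  have : Finite κ := Finite.of_injective a ha
  have : Fintype κ := Fintype.ofFinite κ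
  let b : Module.Basis κ K (m → K) := Module.Basis.mk hli (by rw [hsp, hspan])
  have hcard : Fintype.card m = Fintype.card κ := by
    rw [← Module.finrank_eq_card_basis b, Module.finrank_fintype_fun_eq_card]
  let e : m ≃ κ := Fintype.equivOfCardEq hcard
  refine ⟨a ∘ e, ?_⟩
  have hli' : LinearIndependent K (A.submatrix id (a ∘ e)).col := by
    have h : (A.submatrix id (a ∘ e)).col = (A.col ∘ a) ∘ e := by
      funext j
      ext i
      rfl
    rw [h]
    exact hli.comp e e.injective
  have hunit := Matrix.linearIndependent_cols_iff_isUnit.mp hli'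
  exact ((Matrix.isUnit_iff_isUnit_det _).mp hunit).ne_zero

omit [Fintype n] in
/-- A matrix with a nonzero maximal minor has linearly independent rows. -/
theorem linearIndependent_row_of_minors_ne_zero (A : Matrix m n K) (s : m → n)
    (hs : minors A s ≠ 0) : LinearIndependent K A.row := by
  classical
  have hunit : IsUnit (A.submatrix id s) := (Matrix.isUnit_iff_isUnit_det _).mpr hs.isUnit
  have hli := Matrix.linearIndependent_rows_iff_isUnit.mpr hunit
  rw [Fintype.linearIndependent_iff] at hli ⊢
  intro g hg i
  apply hli g
  funext j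
  have := congrFun hg (s j)
  simpa [Matrix.row, Finset.sum_apply] using this

end Rank

/-! ### Pluecker duality for heights -/

section Duality

open Height

variable {K : Type*} [Field K] [AdmissibleAbsValues K] {m k n : Type*} [Fintype m] [Fintype k]
  [Fintype n] [DecidableEq m] [DecidableEq k] [DecidableEq n]

/-- **Pluecker duality for heights**, nonzero-minor form: if `A * Bᵀ = 0`, `A` is `m × n`, `B` is
`k × n` with `|m| + |k| = |n|`, and both have a nonzero maximal minor, then the vectors of
maximal minors of `A` and of `B` have the same multiplicative height. -/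
theorem mulHeight_minors_eq_of_orthogonal_of_exists
    (hn : Fintype.card m + Fintype.card k = Fintype.card n)
    (A : Matrix m n K) (B : Matrix k n K) (hAB : A * Bᵀ = 0)
    (hA : ∃ s, minors A s ≠ 0) (hB : ∃ t, minors B t ≠ 0) :
    mulHeight (minors A) = mulHeight (minors B) := by
  obtain ⟨s₀, hs₀⟩ := hA
  obtain ⟨t₀, ht₀⟩ := hB
  obtain ⟨σA, hσA⟩ :=
    exists_equiv_sum_comp_inl (β := k) s₀ (injective_of_minors_ne_zero A s₀ hs₀) hn
  obtain ⟨σB, hσB⟩ :=
    exists_equiv_sum_comp_inr (α := m) t₀ (injective_of_minors_ne_zero B t₀ ht₀) hn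
  obtain ⟨c, σ₀, hc, hcσ⟩ := exists_const_compl_minors A B hAB
    ⟨σA, by rw [hσA]; exact hs₀⟩ ⟨σB, by rw [hσB]; exact ht₀⟩
  symm
  refine mulHeight_eq_of_forall_exists_mul (minors B) (minors A) hc ?_ ?_
  · intro t
    by_cases ht : Function.Injective t
    · obtain ⟨σ, hσ⟩ := exists_equiv_sum_comp_inr (α := m) t ht hn
      right
      refine ⟨σ ∘ Sum.inl, ?_⟩
      have h := hcσ σ
      rw [hσ] at h
      rcases Int.units_eq_one_or (Equiv.Perm.sign (σ.trans σ₀.symm)) with h1 | h1
      · left
        rw [minors_apply, h, h1]
        simp [minors_apply]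
      · right
        rw [minors_apply, h, h1]
        simp [minors_apply]
    · exact Or.inl (minors_eq_zero_of_not_injective B t ht)
  · intro s
    by_cases hs : Function.Injective s
    · obtain ⟨σ, hσ⟩ := exists_equiv_sum_comp_inl (β := k) s hs hn
      right
      refine ⟨σ ∘ Sum.inr, ?_⟩
      have h := hcσ σ
      rw [hσ] at h
      rcases Int.units_eq_one_or (Equiv.Perm.sign (σ.trans σ₀.symm)) with h1 | h1
      · left
        rw [minors_apply B, h, h1]
        simp [minors_apply]
      · right
        rw [minors_apply B, h, h1]
        simp [minors_apply]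
    · exact Or.inl (minors_eq_zero_of_not_injective A s hs)

/-- **Pluecker duality for heights**: if `A * Bᵀ = 0`, `A` is `m × n`, `B` is `k × n` with
`|m| + |k| = |n|`, and both have linearly independent rows (so the row spaces are exact
annihilators of each other), then the vectors of maximal minors of `A` and of `B` have the same
multiplicative height. -/
theorem mulHeight_minors_eq_of_orthogonal
    (hn : Fintype.card m + Fintype.card k = Fintype.card n)
    (A : Matrix m n K) (B : Matrix k n K) (hAB : A * Bᵀ = 0)
    (hA : LinearIndependent K A.row) (hB : LinearIndependent K B.row) :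
    mulHeight (minors A) = mulHeight (minors B) :=
  mulHeight_minors_eq_of_orthogonal_of_exists hn A B hAB
    (exists_minors_ne_zero_of_linearIndependent A hA)
    (exists_minors_ne_zero_of_linearIndependent B hB)

/-- Kernel form of Pluecker duality: `b` a linearly independent family of `|n| - |m|` vectors in
the kernel of a matrix `A` of full row rank. -/
theorem mulHeight_minors_eq_of_mulVec_eq_zero
    (hn : Fintype.card m + Fintype.card k = Fintype.card n)
    (A : Matrix m n K) (b : k → n → K) (hAb : ∀ j, A *ᵥ b j = 0)
    (hA : LinearIndependent K A.row) (hb : LinearIndependent K b) :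
    mulHeight (minors A) = mulHeight (minors (Matrix.of b)) := by
  refine mulHeight_minors_eq_of_orthogonal hn A (Matrix.of b) ?_ hA hb
  ext i j
  have := congrFun (hAb j) i
  simpa [Matrix.mul_apply, Matrix.mulVec, dotProduct] using this

/-- Logarithmic form of `mulHeight_minors_eq_of_orthogonal`. -/
theorem logHeight_minors_eq_of_orthogonal
    (hn : Fintype.card m + Fintype.card k = Fintype.card n)
    (A : Matrix m n K) (B : Matrix k n K) (hAB : A * Bᵀ = 0)
    (hA : LinearIndependent K A.row) (hB : LinearIndependent K B.row) :
    logHeight (minors A) = logHeight (minors B) :=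
  congrArg Real.log (mulHeight_minors_eq_of_orthogonal hn A B hAB hA hB)

/-- `mulHeight_minors_eq_of_orthogonal` for `Fin`-indexed matrices, with the minors written out
(the convention of the sharp Siegel lemma). -/
theorem mulHeight_minors_eq_of_orthogonal_fin {d e n : ℕ} (hn : d + e = n)
    (A : Matrix (Fin d) (Fin n) K) (B : Matrix (Fin e) (Fin n) K) (hAB : A * Bᵀ = 0)
    (hA : LinearIndependent K A.row) (hB : LinearIndependent K B.row) :
    mulHeight (fun s : Fin d → Fin n => (A.submatrix id s).det) =
      mulHeight (fun t : Fin e → Fin n => (B.submatrix id t).det) :=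
  mulHeight_minors_eq_of_orthogonal (by simpa using hn) A B hAB hA hB

end Duality

/-! ### Index conventions: all maps versus increasing maps -/

section Increasing

open Height

variable {K : Type*} [Field K] [AdmissibleAbsValues K] {n : Type*} [Fintype n] [LinearOrder n]
  {r : ℕ}

omit [Fintype n] in
/-- An injective map `s : Fin r → n` is an increasing map composed with a permutation. -/
theorem exists_orderEmbedding_comp_perm (s : Fin r → n) (hs : Function.Injective s) :
    ∃ (o : Fin r ↪o n) (π : Equiv.Perm (Fin r)), ∀ i, o (π i) = s i := by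
  classical
  have hcard : (Finset.univ.image s).card = r := by
    rw [Finset.card_image_of_injective _ hs]
    simp
  let o : Fin r ↪o n := (Finset.univ.image s).orderEmbOfFin hcard
  have hrange : Set.range s = Set.range o := by
    rw [Finset.range_orderEmbOfFin]
    simp
  let es : Fin r ≃ Set.range s := Equiv.ofInjective s hs
  let eo : Fin r ≃ Set.range o := Equiv.ofInjective o o.injective
  refine ⟨o, es.trans ((Equiv.setCongr hrange).trans eo.symm), fun i => ?_⟩
  have := Equiv.apply_ofInjective_symm o.injective ((Equiv.setCongr hrange) (es i))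
  simpa [es, eo] using this

/-- The height of the vector of maximal minors does not depend on whether the minors are indexed
by all maps `Fin r → n` or by the increasing maps `Fin r ↪o n` only. -/
theorem mulHeight_minors_eq_mulHeight_orderEmbedding (B : Matrix (Fin r) n K) :
    mulHeight (minors B) = mulHeight (fun o : Fin r ↪o n => (B.submatrix id o).det) := by
  refine mulHeight_eq_of_forall_exists _ _ ?_ ?_
  · intro s
    by_cases hs : Function.Injective s
    · obtain ⟨o, π, h⟩ := exists_orderEmbedding_comp_perm s hs
      right
      refine ⟨o, ?_⟩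
      have h1 : B.submatrix id s = (B.submatrix id o).submatrix id π := by
        ext i j
        simp [h]
      have h2 : minors B s = (Equiv.Perm.sign π : ℤˣ) * (B.submatrix id o).det := by
        rw [minors_apply, h1, Matrix.det_permute']
      rcases Int.units_eq_one_or (Equiv.Perm.sign π) with h3 | h3
      · left
        rw [h2, h3]
        simp
      · right
        rw [h2, h3]
        simp
    · exact Or.inl (minors_eq_zero_of_not_injective B s hs)
  · intro o
    exact Or.inr ⟨o, Or.inl rfl⟩

end Increasing

section DualityIncreasing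

open Height

variable {K : Type*} [Field K] [AdmissibleAbsValues K] {n : Type*} [Fintype n] [LinearOrder n]
  {d e : ℕ}

/-- **Pluecker duality for heights**, increasing-maps indexing. -/
theorem mulHeight_orderEmbedding_minors_eq_of_orthogonal (hn : d + e = Fintype.card n)
    (A : Matrix (Fin d) n K) (B : Matrix (Fin e) n K) (hAB : A * Bᵀ = 0)
    (hA : LinearIndependent K A.row) (hB : LinearIndependent K B.row) :
    mulHeight (fun o : Fin d ↪o n => (A.submatrix id o).det) =
      mulHeight (fun o : Fin e ↪o n => (B.submatrix id o).det) := by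
  rw [← mulHeight_minors_eq_mulHeight_orderEmbedding, ← mulHeight_minors_eq_mulHeight_orderEmbedding]
  exact mulHeight_minors_eq_of_orthogonal (by simpa using hn) A B hAB hA hB

end DualityIncreasing

/-! ### Independence of the frame -/

section Frame

open Height

variable {K : Type*} [Field K] [AdmissibleAbsValues K] {m n : Type*} [Fintype m] [DecidableEq m]
  [Finite n]

/-- Left multiplication by an invertible square matrix does not change the height of the vector
of maximal minors. -/
theorem mulHeight_minors_mul_left (P : Matrix m m K) (hP : P.det ≠ 0) (B : Matrix m n K) :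
    mulHeight (minors (P * B)) = mulHeight (minors B) := by
  rw [minors_mul, mulHeight_smul_eq_mulHeight _ hP]

/-- The height of the vector of maximal minors of a frame depends only on the span of the frame:
if the rows of `B'` are linearly independent and lie in the span of the rows of `B` (same number
of rows), the two heights agree. -/
theorem mulHeight_minors_eq_of_span_le (B B' : Matrix m n K) (hB' : LinearIndependent K B'.row)
    (hspan : Submodule.span K (Set.range B'.row) ≤ Submodule.span K (Set.range B.row)) :
    mulHeight (minors B') = mulHeight (minors B) := by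
  have hex : ∀ i, ∃ c : m → K, ∑ j, c j • B.row j = B'.row i := fun i =>
    (Submodule.mem_span_range_iff_exists_fun K).mp (hspan (Submodule.subset_span ⟨i, rfl⟩))
  choose P hP using hex
  have hmul : B' = Matrix.of P * B := by
    ext i l
    have := congrFun (hP i) l
    simp only [Matrix.row, Finset.sum_apply, Pi.smul_apply, smul_eq_mul] at this
    simp [Matrix.mul_apply, this]
  have hdet : (Matrix.of P).det ≠ 0 := by
    intro h0
    obtain ⟨v, hv, hv0⟩ := Matrix.exists_vecMul_eq_zero_iff.mpr h0
    apply hv
    have hli := Fintype.linearIndependent_iff.mp hB' v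
    funext i
    refine hli ?_ i
    have h1 : v ᵥ* B' = 0 := by
      rw [hmul, ← Matrix.vecMul_vecMul, hv0, Matrix.zero_vecMul]
    funext l
    have := congrFun h1 l
    simpa [Matrix.vecMul, dotProduct, Matrix.row, Finset.sum_apply] using this
  rw [hmul, mulHeight_minors_mul_left _ hdet]

/-- Frame independence: two frames (linearly independent families with the same index type) of the
same subspace have the same Pluecker height. -/
theorem mulHeight_minors_eq_of_span_eq (b b' : m → n → K) (hb' : LinearIndependent K b')
    (hspan : Submodule.span K (Set.range b') = Submodule.span K (Set.range b)) :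
    mulHeight (minors (Matrix.of b')) = mulHeight (minors (Matrix.of b)) :=
  mulHeight_minors_eq_of_span_le (Matrix.of b) (Matrix.of b') hb' hspan.le

end Frame

end Fermat.Agent.S17.helper3088
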