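/-
S17, G2-ALT (one-point law on the Grassmannian side, findings #2861 / chat #146):
the ABSTRACT ONE-POINT LAW.  No curve: coordinate spaces with rational structure constants,
frames given by rows, all-maps Pluecker vectors, absolute logarithmic heights.
-/
import Mathlib
import Fermat.Agent.Lib.helper927_AbsHeight

set_option autoImplicit false

namespace Fermat.Agent.S17.helper7293

open Matrix Finset

section LinAlg

variable {R : Type*} [CommRing R]

/-- All-maps Pluecker vector of a frame given by its rows. -/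
def pl {ι : Type*} {n : ℕ} (Y : Fin n → ι → R) : (Fin n → ι) → R :=
  fun s => (Matrix.of fun i j => Y i (s j)).det

/-- Pluecker vector of the hyperplane spanned by all rows but the last. -/
def plB {ι : Type*} {n : ℕ} (Y : Fin (n + 1) → ι → R) : (Fin n → ι) → R :=
  pl (fun i => Y i.castSucc)

/-- Canonical vectors of a Pluecker vector: `cvec p s t = p (s, t)`. -/
def cvec {ι : Type*} {n : ℕ} (p : (Fin (n + 1) → ι) → R) (s : Fin n → ι) : ι → R :=
  fun t => p (Fin.snoc s t)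

/-- Coefficients of the canonical vector `cvec (pl Y) s` in the frame `Y` (cofactors). -/
def ccoef {ι : Type*} {n : ℕ} (Y : Fin (n + 1) → ι → R) (s : Fin n → ι) (i : Fin (n + 1)) : R :=
  (-1) ^ ((i : ℕ) + n) * (Matrix.of fun (a : Fin n) (b : Fin n) => Y (i.succAbove a) (s b)).det

/-- Laplace expansion: the canonical vectors lie in the row space, with cofactor coefficients. -/
theorem cvec_pl {ι : Type*} {n : ℕ} (Y : Fin (n + 1) → ι → R) (s : Fin n → ι) (t : ι) :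
    cvec (pl Y) s t = ∑ i, ccoef Y s i * Y i t := by
  unfold cvec pl ccoef
  rw [Matrix.det_succ_column _ (Fin.last n)]
  refine Finset.sum_congr rfl fun i _ => ?_
  have h1 : (Matrix.of fun i j => Y i (Fin.snoc (α := fun _ => ι) s t j)) i (Fin.last n) = Y i t := by
    simp
  have h2 : (Matrix.of fun i j => Y i (Fin.snoc (α := fun _ => ι) s t j)).submatrix i.succAbove
      (Fin.last n).succAbove = Matrix.of fun (a : Fin n) (b : Fin n) => Y (i.succAbove a) (s b) := by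
    ext a b
    simp [Fin.succAbove_last]
  rw [h1, h2]
  simp only [Fin.val_last]
  ring

/-- The coefficient of the last row in `cvec (pl Y) s` is the Pluecker coordinate of the
hyperplane. -/
theorem ccoef_last {ι : Type*} {n : ℕ} (Y : Fin (n + 1) → ι → R) (s : Fin n → ι) :
    ccoef Y s (Fin.last n) = plB Y s := by
  unfold ccoef plB pl
  have : ((-1 : R)) ^ (((Fin.last n : Fin (n + 1)) : ℕ) + n) = 1 := by
    rw [Fin.val_last, ← two_mul, pow_mul]
    simp
  rw [this, one_mul]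
  congr 1
  ext a b
  simp [Fin.succAbove_last]

/-- Cramer, coefficient form: for `v = ∑ a, c a • Y a`, `pl Y I * c i` is recovered from the
coordinates `v (I m)` by the adjugate. -/
theorem pl_mul_coef {ι : Type*} {n : ℕ} (Y : Fin n → ι → R) (c : Fin n → R) (I : Fin n → ι)
    (i : Fin n) :
    pl Y I * c i = ∑ m, (∑ a, c a * Y a (I m)) *
      (Matrix.of fun a b => Y a (I b)).adjugate m i := by
  set M : Matrix (Fin n) (Fin n) R := Matrix.of fun a b => Y a (I b) with hM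
  have key : ∑ m, (∑ a, c a * Y a (I m)) * M.adjugate m i =
      ∑ a, c a * (M * M.adjugate) a i := by
    simp only [Matrix.mul_apply, Finset.sum_mul, Finset.mul_sum]
    rw [Finset.sum_comm]
    refine Finset.sum_congr rfl fun a _ => Finset.sum_congr rfl fun m _ => ?_
    simp [hM]
    ring
  rw [key, Matrix.mul_adjugate]
  simp only [Matrix.smul_apply, Matrix.one_apply, smul_eq_mul, mul_ite, mul_one, mul_zero,
    Finset.sum_ite_eq', Finset.mem_univ, if_true]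
  unfold pl
  rw [← hM]
  ring

/-- Cramer, last coefficient: the coefficient of the last row of `v = ∑ a, c a • Y a`
times `pl Y I`, in terms of the hyperplane Pluecker coordinates. -/
theorem pl_mul_coef_last {ι : Type*} {n : ℕ} (Y : Fin (n + 1) → ι → R) (c : Fin (n + 1) → R)
    (I : Fin (n + 1) → ι) :
    pl Y I * c (Fin.last n) = ∑ m : Fin (n + 1), (∑ a, c a * Y a (I m)) *
      ((-1) ^ (n + (m : ℕ)) * plB Y (fun b => I (m.succAbove b))) := by
  rw [pl_mul_coef Y c I (Fin.last n)]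
  refine Finset.sum_congr rfl fun m _ => ?_
  congr 1
  rw [Matrix.adjugate_fin_succ_eq_det_submatrix]
  simp only [Fin.val_last]
  congr 1
  unfold plB pl
  congr 1
  ext a b
  simp [Fin.succAbove_last]

end LinAlg

section Mul

variable {R : Type*} [CommRing R] {ι₁ ι₂ ι₃ : Type*} [Fintype ι₁] [Fintype ι₂]

/-- Bilinear multiplication of coordinate vectors with structure constants `μ`. -/
def mulμ (μ : ι₁ → ι₂ → ι₃ → R) (x : ι₁ → R) (x' : ι₂ → R) : ι₃ → R :=
  fun t => ∑ i, ∑ j, μ i j t * x i * x' j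

theorem sum4_comm {α β γ δ M : Type*} [AddCommMonoid M] [Fintype α] [Fintype β] [Fintype γ]
    [Fintype δ] (F : α → β → γ → δ → M) :
    ∑ i, ∑ j, ∑ a, ∑ b, F i j a b = ∑ a, ∑ b, ∑ i, ∑ j, F i j a b :=
  calc ∑ i, ∑ j, ∑ a, ∑ b, F i j a b = ∑ i, ∑ a, ∑ j, ∑ b, F i j a b :=
        Finset.sum_congr rfl fun _ _ => Finset.sum_comm
    _ = ∑ a, ∑ i, ∑ j, ∑ b, F i j a b := Finset.sum_comm
    _ = ∑ a, ∑ i, ∑ b, ∑ j, F i j a b :=
        Finset.sum_congr rfl fun _ _ => Finset.sum_congr rfl fun _ _ => Finset.sum_comm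
    _ = ∑ a, ∑ b, ∑ i, ∑ j, F i j a b := Finset.sum_congr rfl fun _ _ => Finset.sum_comm

theorem sum3_comm {α β γ M : Type*} [AddCommMonoid M] [Fintype α] [Fintype β] [Fintype γ]
    (F : α → β → γ → M) :
    ∑ k, ∑ a, ∑ b, F k a b = ∑ a, ∑ b, ∑ k, F k a b :=
  calc ∑ k, ∑ a, ∑ b, F k a b = ∑ a, ∑ k, ∑ b, F k a b := Finset.sum_comm
    _ = ∑ a, ∑ b, ∑ k, F k a b := Finset.sum_congr rfl fun _ _ => Finset.sum_comm

theorem mulμ_sum_sum {n n' : ℕ} (μ : ι₁ → ι₂ → ι₃ → R) (c : Fin n → R) (Y : Fin n → ι₁ → R)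
    (c' : Fin n' → R) (Y' : Fin n' → ι₂ → R) (t : ι₃) :
    mulμ μ (fun i => ∑ a, c a * Y a i) (fun j => ∑ b, c' b * Y' b j) t =
      ∑ a, ∑ b, c a * c' b * mulμ μ (Y a) (Y' b) t := by
  unfold mulμ
  simp only [Finset.mul_sum, Finset.sum_mul]
  refine Eq.trans (sum4_comm (M := R) _) ?_
  refine Eq.trans Finset.sum_comm ?_
  refine Finset.sum_congr rfl fun a _ => ?_
  refine Finset.sum_congr rfl fun b _ => ?_
  refine Finset.sum_congr rfl fun i _ => ?_
  refine Finset.sum_congr rfl fun j _ => ?_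
  ring

variable {r r' ρ : ℕ}

/-- Coefficients of the product of two canonical vectors in the frame `Y''`. -/
def gam (Y : Fin (r + 1) → ι₁ → R) (Y' : Fin (r' + 1) → ι₂ → R)
    (Γ : Fin (r + 1) → Fin (r' + 1) → Fin (ρ + 1) → R) (s : Fin r → ι₁) (s' : Fin r' → ι₂)
    (k : Fin (ρ + 1)) : R :=
  ∑ a, ∑ b, ccoef Y s a * ccoef Y' s' b * Γ a b k

theorem mulμ_cvec (μ : ι₁ → ι₂ → ι₃ → R) (Y : Fin (r + 1) → ι₁ → R) (Y' : Fin (r' + 1) → ι₂ → R)
    (Y'' : Fin (ρ + 1) → ι₃ → R) (Γ : Fin (r + 1) → Fin (r' + 1) → Fin (ρ + 1) → R)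
    (hΓ : ∀ a b t, mulμ μ (Y a) (Y' b) t = ∑ k, Γ a b k * Y'' k t)
    (s : Fin r → ι₁) (s' : Fin r' → ι₂) (t : ι₃) :
    mulμ μ (cvec (pl Y) s) (cvec (pl Y') s') t = ∑ k, gam Y Y' Γ s s' k * Y'' k t := by
  have h1 : cvec (pl Y) s = fun i => ∑ a, ccoef Y s a * Y a i := funext fun i => cvec_pl Y s i
  have h2 : cvec (pl Y') s' = fun j => ∑ b, ccoef Y' s' b * Y' b j :=
    funext fun j => cvec_pl Y' s' j
  rw [h1, h2, mulμ_sum_sum]
  simp only [hΓ, gam, Finset.mul_sum, Finset.sum_mul]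
  refine Eq.trans ?_ (sum3_comm _).symm
  refine Finset.sum_congr rfl fun a _ => ?_
  refine Finset.sum_congr rfl fun b _ => ?_
  refine Finset.sum_congr rfl fun k _ => ?_
  ring

omit [Fintype ι₁] [Fintype ι₂] in
theorem gam_last (Y : Fin (r + 1) → ι₁ → R) (Y' : Fin (r' + 1) → ι₂ → R)
    (Γ : Fin (r + 1) → Fin (r' + 1) → Fin (ρ + 1) → R)
    (hΓ0 : ∀ a b, (a ≠ Fin.last r ∨ b ≠ Fin.last r') → Γ a b (Fin.last ρ) = 0)
    (s : Fin r → ι₁) (s' : Fin r' → ι₂) :
    gam Y Y' Γ s s' (Fin.last ρ) =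
      plB Y s * plB Y' s' * Γ (Fin.last r) (Fin.last r') (Fin.last ρ) := by
  unfold gam
  rw [Finset.sum_eq_single (Fin.last r)]
  · rw [Finset.sum_eq_single (Fin.last r')]
    · rw [ccoef_last, ccoef_last]
    · intro b _ hb
      rw [hΓ0 _ _ (Or.inr hb), mul_zero]
    · intro h; exact absurd (Finset.mem_univ _) h
  · intro a _ ha
    refine Finset.sum_eq_zero fun b _ => ?_
    rw [hΓ0 _ _ (Or.inl ha), mul_zero]
  · intro h; exact absurd (Finset.mem_univ _) h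

/-- **Easy identity** of the one-point law. -/
theorem easy_identity (μ : ι₁ → ι₂ → ι₃ → R) (Y : Fin (r + 1) → ι₁ → R)
    (Y' : Fin (r' + 1) → ι₂ → R) (Y'' : Fin (ρ + 1) → ι₃ → R)
    (Γ : Fin (r + 1) → Fin (r' + 1) → Fin (ρ + 1) → R)
    (hΓ : ∀ a b t, mulμ μ (Y a) (Y' b) t = ∑ k, Γ a b k * Y'' k t)
    (hΓ0 : ∀ a b, (a ≠ Fin.last r ∨ b ≠ Fin.last r') → Γ a b (Fin.last ρ) = 0)
    (s : Fin r → ι₁) (s' : Fin r' → ι₂) (I : Fin (ρ + 1) → ι₃) :
    pl Y'' I * (plB Y s * plB Y' s' * Γ (Fin.last r) (Fin.last r') (Fin.last ρ)) =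
      ∑ m : Fin (ρ + 1), mulμ μ (cvec (pl Y) s) (cvec (pl Y') s') (I m) *
        ((-1) ^ (ρ + (m : ℕ)) * plB Y'' (fun b => I (m.succAbove b))) := by
  rw [← gam_last Y Y' Γ hΓ0 s s', pl_mul_coef_last Y'' (gam Y Y' Γ s s') I]
  refine Finset.sum_congr rfl fun m _ => ?_
  rw [mulμ_cvec μ Y Y' Y'' Γ hΓ s s' (I m)]

/-- The matrix of all products of canonical vectors (rows: coordinates, columns: pairs). -/
def Vmat (μ : ι₁ → ι₂ → ι₃ → R) (p : (Fin (r + 1) → ι₁) → R) (p' : (Fin (r' + 1) → ι₂) → R) :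
    Matrix ι₃ ((Fin r → ι₁) × (Fin r' → ι₂)) R :=
  fun t c => mulμ μ (cvec p c.1) (cvec p' c.2) t

/-- **Hard identity** of the one-point law. -/
theorem hard_identity (μ : ι₁ → ι₂ → ι₃ → R) (Y : Fin (r + 1) → ι₁ → R)
    (Y' : Fin (r' + 1) → ι₂ → R) (Y'' : Fin (ρ + 1) → ι₃ → R)
    (Γ : Fin (r + 1) → Fin (r' + 1) → Fin (ρ + 1) → R)
    (hΓ : ∀ a b t, mulμ μ (Y a) (Y' b) t = ∑ k, Γ a b k * Y'' k t)
    (hΓ0 : ∀ a b, (a ≠ Fin.last r ∨ b ≠ Fin.last r') → Γ a b (Fin.last ρ) = 0)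
    (T : Fin (ρ + 1) → ι₃) (S : Fin (ρ + 1) → (Fin r → ι₁) × (Fin r' → ι₂))
    (u : Fin ρ → ι₃) :
    ∑ b, (plB Y (S b).1 * plB Y' (S b).2 * Γ (Fin.last r) (Fin.last r') (Fin.last ρ)) *
        Matrix.cramer ((Vmat μ (pl Y) (pl Y')).submatrix T S)
          (fun a => pl Y'' (Fin.snoc u (T a))) b =
      ((Vmat μ (pl Y) (pl Y')).submatrix T S).det * plB Y'' u := by
  classical
  set Yt : Matrix (Fin (ρ + 1)) (Fin (ρ + 1)) R := Matrix.of fun a k => Y'' k (T a) with hYt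
  set G : Matrix (Fin (ρ + 1)) (Fin (ρ + 1)) R :=
    Matrix.of fun k b => gam Y Y' Γ (S b).1 (S b).2 k with hG
  set c : Fin (ρ + 1) → R := ccoef Y'' u with hc
  have hN : (Vmat μ (pl Y) (pl Y')).submatrix T S = Yt * G := by
    ext a b
    simp only [Matrix.submatrix_apply, Vmat, Matrix.mul_apply, hYt, hG, Matrix.of_apply]
    rw [mulμ_cvec μ Y Y' Y'' Γ hΓ]
    refine Finset.sum_congr rfl fun k _ => ?_
    ring
  have hv : (fun a => pl Y'' (Fin.snoc u (T a))) = Yt *ᵥ c := by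
    funext a
    have := cvec_pl Y'' u (T a)
    unfold cvec at this
    rw [this]
    simp only [Matrix.mulVec, dotProduct, hYt, Matrix.of_apply, hc]
    refine Finset.sum_congr rfl fun k _ => ?_
    ring
  have key : G *ᵥ Matrix.cramer (Yt * G) (Yt *ᵥ c) = (Yt * G).det • c := by
    have h1 : Yt.adjugate *ᵥ (Yt *ᵥ c) = Yt.det • c := by
      rw [Matrix.mulVec_mulVec, Matrix.adjugate_mul, Matrix.smul_mulVec, Matrix.one_mulVec]
    rw [Matrix.cramer_eq_adjugate_mulVec, Matrix.adjugate_mul_distrib, ← Matrix.mulVec_mulVec,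
      h1, Matrix.mulVec_mulVec, Matrix.mul_adjugate, Matrix.smul_mulVec, Matrix.one_mulVec,
      Matrix.det_mul, smul_smul, mul_comm]
  have hlast := congrFun key (Fin.last ρ)
  rw [hN, hv]
  simp only [Matrix.mulVec, dotProduct, Pi.smul_apply, smul_eq_mul] at hlast
  rw [← ccoef_last Y'' u, ← hc, ← hlast]
  refine Finset.sum_congr rfl fun b _ => ?_
  rw [← gam_last Y Y' Γ hΓ0]
  simp only [hG, Matrix.of_apply]

end Mul

section HeightTools

open Fermat.Agent.Lib.helper927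

variable {Ω : Type*} [Field Ω] [CharZero Ω] [Algebra.IsAlgebraic ℚ Ω]

/-- Segre upper bound, without nonvanishing hypotheses. -/
theorem absLogHeight_fun_mul_le {ι ι' : Type*} [Finite ι] [Finite ι'] (x : ι → Ω) (y : ι' → Ω) :
    absLogHeight (fun a : ι × ι' => x a.1 * y a.2) ≤ absLogHeight x + absLogHeight y := by
  by_cases hx : x = 0
  · subst hx
    have h0 : (fun a : ι × ι' => (0 : ι → Ω) a.1 * y a.2) = 0 := by funext a; simp
    rw [h0, absLogHeight_zero, absLogHeight_zero, zero_add]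
    exact absLogHeight_nonneg y
  by_cases hy : y = 0
  · subst hy
    have h0 : (fun a : ι × ι' => x a.1 * (0 : ι' → Ω) a.2) = 0 := by funext a; simp
    rw [h0, absLogHeight_zero, absLogHeight_zero, add_zero]
    exact absLogHeight_nonneg x
  exact (absLogHeight_fun_mul_eq hx hy).le

/-- Summing over a fixed finite index costs a constant. -/
theorem exists_bound_sum (J M : Type*) [Fintype J] [Fintype M] :
    ∃ C : ℝ, ∀ z : J × M → Ω, absLogHeight (fun j => ∑ m, z (j, m)) ≤ C + absLogHeight z := by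
  classical
  let A : J × (J × M) → Ω := fun a => if a.1 = a.2.1 then 1 else 0
  refine ⟨Real.log (Nat.card (J × M)) + absLogHeight A, fun z => ?_⟩
  have h := absLogHeight_linearMap_apply_le A z
  have e : (fun j => ∑ i : J × M, A (j, i) * z i) = fun j => ∑ m, z (j, m) := by
    funext j
    rw [Fintype.sum_prod_type]
    simp only [A]
    rw [Finset.sum_eq_single j]
    · simp
    · intro b _ hb
      refine Finset.sum_eq_zero fun m _ => ?_
      rw [if_neg (Ne.symm hb), zero_mul]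
    · intro h; exact absurd (Finset.mem_univ _) h
  rw [e] at h
  exact h

/-- Height of a tuple of products of `n` entries of a tuple. -/
theorem absLogHeight_prod_le {ι J : Type*} [Finite ι] [Finite J] (x : ι → Ω) :
    ∀ (n : ℕ) (f : Fin n → J → ι),
      absLogHeight (fun j => ∏ a : Fin n, x (f a j)) ≤ n * absLogHeight x := by
  intro n
  induction n with
  | zero =>
    intro f
    have : (fun j : J => ∏ a : Fin 0, x (f a j)) = 1 := by funext j; simp
    rw [this, absLogHeight_one]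
    simp
  | succ n ih =>
    intro f
    have e : (fun j : J => ∏ a : Fin (n + 1), x (f a j)) =
        (x ∘ f 0) * (fun j => ∏ a : Fin n, x (f a.succ j)) := by
      funext j
      rw [Fin.prod_univ_succ]
      rfl
    rw [e]
    have h1 := absLogHeight_mul_le (x ∘ f 0) (fun j => ∏ a : Fin n, x (f a.succ j))
    have h2 := absLogHeight_comp_le (f 0) x
    have h3 := ih (fun a => f a.succ)
    push_cast
    linarith

/-- The tuple of all `n × n` minors (all-maps indexing of rows and columns) of a matrix given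
as a tuple. -/
def minorsTup {A : Type*} [CommRing A] {α β : Type*} (n : ℕ) (V : α × β → A) :
    (Fin n → α) × (Fin n → β) → A :=
  fun TS => (Matrix.of fun a b => V (TS.1 a, TS.2 b)).det

/-- Height of the tuple of all `n × n` minors of a matrix (given as a tuple). -/
theorem exists_bound_minors (α β : Type*) [Fintype α] [Fintype β] (n : ℕ) :
    ∃ C : ℝ, ∀ V : α × β → Ω,
      absLogHeight (minorsTup n V) ≤ C + n * absLogHeight V := by
  classical
  unfold minorsTup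
  obtain ⟨C, hC⟩ := exists_bound_sum (Ω := Ω) ((Fin n → α) × (Fin n → β)) (Equiv.Perm (Fin n))
  let sg : Equiv.Perm (Fin n) → Ω := fun σ => ((Equiv.Perm.sign σ : ℤ) : Ω)
  refine ⟨C + absLogHeight sg, fun V => ?_⟩
  let z : ((Fin n → α) × (Fin n → β)) × Equiv.Perm (Fin n) → Ω :=
    (sg ∘ Prod.snd) * (fun q => ∏ i : Fin n, V (q.1.1 (q.2 i), q.1.2 i))
  have e : (fun TS : (Fin n → α) × (Fin n → β) =>
      (Matrix.of fun a b => V (TS.1 a, TS.2 b)).det) = fun j => ∑ m, z (j, m) := by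
    funext TS
    rw [Matrix.det_apply]
    refine Finset.sum_congr rfl fun σ _ => ?_
    simp only [z, sg, Pi.mul_apply, Function.comp, Matrix.of_apply]
    rw [Units.smul_def, zsmul_eq_mul]
  rw [e]
  have h1 := hC z
  have h2 := absLogHeight_mul_le (sg ∘ Prod.snd)
    (fun q : ((Fin n → α) × (Fin n → β)) × Equiv.Perm (Fin n) =>
      ∏ i : Fin n, V (q.1.1 (q.2 i), q.1.2 i))
  have h3 := absLogHeight_comp_le
    (Prod.snd : ((Fin n → α) × (Fin n → β)) × Equiv.Perm (Fin n) → Equiv.Perm (Fin n)) sg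
  have h4 := absLogHeight_prod_le V n
    (fun (i : Fin n) (q : ((Fin n → α) × (Fin n → β)) × Equiv.Perm (Fin n)) =>
      (q.1.1 (q.2 i), q.1.2 i))
  linarith

end HeightTools

section OnePoint

open Fermat.Agent.Lib.helper927

variable {Ω : Type*} [Field Ω] [CharZero Ω] [Algebra.IsAlgebraic ℚ Ω]
variable {ι₁ ι₂ ι₃ : Type*} [Fintype ι₁] [Fintype ι₂] [Fintype ι₃]

/-- The tuple of all coordinates of all products of canonical vectors
(`Vmat` as a tuple indexed by `ι₃ × columns`). -/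
def Vtup (μ : ι₁ → ι₂ → ι₃ → Ω) {r r' : ℕ} (p : (Fin (r + 1) → ι₁) → Ω)
    (p' : (Fin (r' + 1) → ι₂) → Ω) : ι₃ × ((Fin r → ι₁) × (Fin r' → ι₂)) → Ω :=
  fun q => Vmat μ p p' q.1 q.2

omit [Fintype ι₃] [CharZero Ω] [Algebra.IsAlgebraic ℚ Ω] in
theorem Vtup_apply (μ : ι₁ → ι₂ → ι₃ → Ω) {r r' : ℕ} (p : (Fin (r + 1) → ι₁) → Ω)
    (p' : (Fin (r' + 1) → ι₂) → Ω) (t : ι₃) (c : (Fin r → ι₁) × (Fin r' → ι₂)) :
    Vtup μ p p' (t, c) = mulμ μ (cvec p c.1) (cvec p' c.2) t := rfl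

theorem exists_bound_Vtup (μ : ι₁ → ι₂ → ι₃ → Ω) (r r' : ℕ) :
    ∃ C : ℝ, ∀ (p : (Fin (r + 1) → ι₁) → Ω) (p' : (Fin (r' + 1) → ι₂) → Ω),
      absLogHeight (Vtup μ p p') ≤ C + absLogHeight p + absLogHeight p' := by
  classical
  obtain ⟨C, hC⟩ := exists_bound_sum (Ω := Ω) (ι₃ × ((Fin r → ι₁) × (Fin r' → ι₂))) (ι₁ × ι₂)
  let μt : ι₁ × ι₂ × ι₃ → Ω := fun a => μ a.1 a.2.1 a.2.2
  refine ⟨C + absLogHeight μt, fun p p' => ?_⟩
  let f0 : (ι₃ × ((Fin r → ι₁) × (Fin r' → ι₂))) × (ι₁ × ι₂) → ι₁ × ι₂ × ι₃ :=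
    fun q => (q.2.1, q.2.2, q.1.1)
  let f1 : (ι₃ × ((Fin r → ι₁) × (Fin r' → ι₂))) × (ι₁ × ι₂) → (Fin (r + 1) → ι₁) :=
    fun q => Fin.snoc q.1.2.1 q.2.1
  let f2 : (ι₃ × ((Fin r → ι₁) × (Fin r' → ι₂))) × (ι₁ × ι₂) → (Fin (r' + 1) → ι₂) :=
    fun q => Fin.snoc q.1.2.2 q.2.2
  let z : (ι₃ × ((Fin r → ι₁) × (Fin r' → ι₂))) × (ι₁ × ι₂) → Ω :=
    (μt ∘ f0) * (p ∘ f1) * (p' ∘ f2)
  have e : Vtup μ p p' = fun j => ∑ m, z (j, m) := by
    funext q
    obtain ⟨t, c⟩ := q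
    rw [Vtup_apply, Fintype.sum_prod_type]
    rfl
  rw [e]
  have h1 := hC z
  have h2 := absLogHeight_mul_le ((μt ∘ f0) * (p ∘ f1)) (p' ∘ f2)
  have h3 := absLogHeight_mul_le (μt ∘ f0) (p ∘ f1)
  have h4 := absLogHeight_comp_le f0 μt
  have h5 := absLogHeight_comp_le f1 p
  have h6 := absLogHeight_comp_le f2 p'
  linarith

/-- **One-point law, easy half** (abstract form, absolute heights). -/
theorem opl_easy (μ : ι₁ → ι₂ → ι₃ → Ω) (r r' ρ : ℕ) :
    ∃ C : ℝ, ∀ (Y : Fin (r + 1) → ι₁ → Ω) (Y' : Fin (r' + 1) → ι₂ → Ω)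
      (Y'' : Fin (ρ + 1) → ι₃ → Ω) (Γ : Fin (r + 1) → Fin (r' + 1) → Fin (ρ + 1) → Ω),
      (∀ a b t, mulμ μ (Y a) (Y' b) t = ∑ k, Γ a b k * Y'' k t) →
      (∀ a b, (a ≠ Fin.last r ∨ b ≠ Fin.last r') → Γ a b (Fin.last ρ) = 0) →
      Γ (Fin.last r) (Fin.last r') (Fin.last ρ) ≠ 0 →
      plB Y ≠ 0 → plB Y' ≠ 0 → pl Y'' ≠ 0 →
      absLogHeight (plB Y) + absLogHeight (plB Y') + absLogHeight (pl Y'') ≤
        absLogHeight (pl Y) + absLogHeight (pl Y') + absLogHeight (plB Y'') + C := by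
  classical
  obtain ⟨C1, hC1⟩ := exists_bound_Vtup μ r r'
  obtain ⟨C2, hC2⟩ := exists_bound_sum (Ω := Ω)
    (((Fin r → ι₁) × (Fin r' → ι₂)) × (Fin (ρ + 1) → ι₃)) (Fin (ρ + 1))
  let sg : Fin (ρ + 1) → Ω := fun m => (-1) ^ (ρ + (m : ℕ))
  refine ⟨C1 + C2 + absLogHeight sg, fun Y Y' Y'' Γ hΓ hΓ0 hlll hB hB' hA'' => ?_⟩
  set V := Vtup μ (pl Y) (pl Y') with hV
  let g1 : (((Fin r → ι₁) × (Fin r' → ι₂)) × (Fin (ρ + 1) → ι₃)) × Fin (ρ + 1) →
      ι₃ × ((Fin r → ι₁) × (Fin r' → ι₂)) := fun q => (q.1.2 q.2, q.1.1)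
  let g3 : (((Fin r → ι₁) × (Fin r' → ι₂)) × (Fin (ρ + 1) → ι₃)) × Fin (ρ + 1) →
      (Fin ρ → ι₃) := fun q b => q.1.2 (q.2.succAbove b)
  let z : (((Fin r → ι₁) × (Fin r' → ι₂)) × (Fin (ρ + 1) → ι₃)) × Fin (ρ + 1) → Ω :=
    (V ∘ g1) * (sg ∘ Prod.snd) * (plB Y'' ∘ g3)
  let x : (Fin r → ι₁) × (Fin r' → ι₂) → Ω := fun c => plB Y c.1 * plB Y' c.2
  have hx : x ≠ 0 := by
    obtain ⟨s, hs⟩ := Function.ne_iff.mp hB
    obtain ⟨s', hs'⟩ := Function.ne_iff.mp hB'
    exact Function.ne_iff.mpr ⟨(s, s'), mul_ne_zero hs hs'⟩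
  have e : (Γ (Fin.last r) (Fin.last r') (Fin.last ρ)) •
      (fun q : ((Fin r → ι₁) × (Fin r' → ι₂)) × (Fin (ρ + 1) → ι₃) => x q.1 * pl Y'' q.2) =
      fun j => ∑ m, z (j, m) := by
    funext q
    obtain ⟨⟨s, s'⟩, I⟩ := q
    have := easy_identity μ Y Y' Y'' Γ hΓ hΓ0 s s' I
    simp only [Pi.smul_apply, smul_eq_mul, x]
    rw [show Γ (Fin.last r) (Fin.last r') (Fin.last ρ) * (plB Y s * plB Y' s' * pl Y'' I) =
      pl Y'' I * (plB Y s * plB Y' s' * Γ (Fin.last r) (Fin.last r') (Fin.last ρ)) by ring, this]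
    refine Finset.sum_congr rfl fun m _ => ?_
    simp only [z, g1, g3, sg, Pi.mul_apply, Function.comp, hV, Vtup_apply]
    ring
  have hL : absLogHeight (fun j => ∑ m, z (j, m)) =
      absLogHeight (plB Y) + absLogHeight (plB Y') + absLogHeight (pl Y'') := by
    rw [← e, absLogHeight_smul _ hlll, absLogHeight_fun_mul_eq hx hA'']
    congr 1
    exact absLogHeight_fun_mul_eq hB hB'
  have h1 := hC2 z
  have h2 := absLogHeight_mul_le ((V ∘ g1) * (sg ∘ Prod.snd)) (plB Y'' ∘ g3)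
  have h3 := absLogHeight_mul_le (V ∘ g1) (sg ∘ Prod.snd)
  have h4 := absLogHeight_comp_le g1 V
  have h5 := absLogHeight_comp_le
    (Prod.snd : (((Fin r → ι₁) × (Fin r' → ι₂)) × (Fin (ρ + 1) → ι₃)) × Fin (ρ + 1) →
      Fin (ρ + 1)) sg
  have h6 := absLogHeight_comp_le g3 (plB Y'')
  have h7 := hC1 (pl Y) (pl Y')
  linarith

/-- **One-point law, hard half** (abstract form, absolute heights): the `(ρ+1)`-minors of the
matrix of products of canonical vectors, times the hyperplane Pluecker vector of `Y''`, are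
bounded by the other data. -/
theorem opl_hard (μ : ι₁ → ι₂ → ι₃ → Ω) (r r' ρ : ℕ) :
    ∃ C : ℝ, ∀ (Y : Fin (r + 1) → ι₁ → Ω) (Y' : Fin (r' + 1) → ι₂ → Ω)
      (Y'' : Fin (ρ + 1) → ι₃ → Ω) (Γ : Fin (r + 1) → Fin (r' + 1) → Fin (ρ + 1) → Ω),
      (∀ a b t, mulμ μ (Y a) (Y' b) t = ∑ k, Γ a b k * Y'' k t) →
      (∀ a b, (a ≠ Fin.last r ∨ b ≠ Fin.last r') → Γ a b (Fin.last ρ) = 0) →
      Γ (Fin.last r) (Fin.last r') (Fin.last ρ) ≠ 0 →
      plB Y'' ≠ 0 → minorsTup (ρ + 1) (Vtup μ (pl Y) (pl Y')) ≠ 0 →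
      absLogHeight (minorsTup (ρ + 1) (Vtup μ (pl Y) (pl Y'))) + absLogHeight (plB Y'') ≤
        ρ * (absLogHeight (pl Y) + absLogHeight (pl Y')) + absLogHeight (pl Y'') +
          absLogHeight (plB Y) + absLogHeight (plB Y') + C := by
  classical
  obtain ⟨C1, hC1⟩ := exists_bound_Vtup μ r r'
  obtain ⟨C2, hC2⟩ := exists_bound_minors (Ω := Ω) ι₃ ((Fin r → ι₁) × (Fin r' → ι₂)) ρ
  obtain ⟨C3, hC3⟩ := exists_bound_sum (Ω := Ω)
    (((Fin (ρ + 1) → ι₃) × (Fin (ρ + 1) → (Fin r → ι₁) × (Fin r' → ι₂))) × (Fin ρ → ι₃))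
    (Fin (ρ + 1) × Fin (ρ + 1))
  let sg : Fin (ρ + 1) × Fin (ρ + 1) → Ω := fun ab => (-1) ^ ((ab.1 : ℕ) + (ab.2 : ℕ))
  refine ⟨C3 + absLogHeight sg + C2 + ρ * C1, fun Y Y' Y'' Γ hΓ hΓ0 hlll hB'' hmin => ?_⟩
  set V := Vtup μ (pl Y) (pl Y') with hV
  set Mρ := minorsTup ρ V with hMρ
  let J := ((Fin (ρ + 1) → ι₃) × (Fin (ρ + 1) → (Fin r → ι₁) × (Fin r' → ι₂))) × (Fin ρ → ι₃)
  let k1 : J × (Fin (ρ + 1) × Fin (ρ + 1)) → (Fin r → ι₁) := fun q => (q.1.1.2 q.2.2).1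
  let k2 : J × (Fin (ρ + 1) × Fin (ρ + 1)) → (Fin r' → ι₂) := fun q => (q.1.1.2 q.2.2).2
  let k4 : J × (Fin (ρ + 1) × Fin (ρ + 1)) →
      (Fin ρ → ι₃) × (Fin ρ → (Fin r → ι₁) × (Fin r' → ι₂)) :=
    fun q => (fun a' => q.1.1.1 (q.2.1.succAbove a'), fun b' => q.1.1.2 (q.2.2.succAbove b'))
  let k5 : J × (Fin (ρ + 1) × Fin (ρ + 1)) → (Fin (ρ + 1) → ι₃) :=
    fun q => Fin.snoc q.1.2 (q.1.1.1 q.2.1)
  let z : J × (Fin (ρ + 1) × Fin (ρ + 1)) → Ω :=
    (plB Y ∘ k1) * (plB Y' ∘ k2) * (sg ∘ Prod.snd) * (Mρ ∘ k4) * (pl Y'' ∘ k5)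
  have e : (fun q : J => minorsTup (ρ + 1) V q.1 * plB Y'' q.2) =
      (Γ (Fin.last r) (Fin.last r') (Fin.last ρ)) • (fun j => ∑ m, z (j, m)) := by
    funext q
    obtain ⟨⟨T, S⟩, u⟩ := q
    have hid := hard_identity μ Y Y' Y'' Γ hΓ hΓ0 T S u
    have hN : (Vmat μ (pl Y) (pl Y')).submatrix T S = Matrix.of fun a b => V (T a, S b) := rfl
    simp only [Pi.smul_apply, smul_eq_mul, minorsTup]
    rw [← hN, ← hid, Finset.mul_sum, Fintype.sum_prod_type, Finset.sum_comm]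
    refine Finset.sum_congr rfl fun b _ => ?_
    rw [Matrix.cramer_eq_adjugate_mulVec, Matrix.mulVec, dotProduct, Finset.mul_sum]
    refine Finset.sum_congr rfl fun a _ => ?_
    rw [Matrix.adjugate_fin_succ_eq_det_submatrix]
    simp only [z, k1, k2, k4, k5, sg, Pi.mul_apply, Function.comp, hMρ, minorsTup]
    rw [hN]
    simp only [Matrix.submatrix, Matrix.of_apply]
    ring
  have hL : absLogHeight (fun q : J => minorsTup (ρ + 1) V q.1 * plB Y'' q.2) =
      absLogHeight (minorsTup (ρ + 1) V) + absLogHeight (plB Y'') :=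
    absLogHeight_fun_mul_eq hmin hB''
  rw [e, absLogHeight_smul _ hlll] at hL
  have h1 := hC3 z
  have h2 := absLogHeight_mul_le
    ((plB Y ∘ k1) * (plB Y' ∘ k2) * (sg ∘ Prod.snd) * (Mρ ∘ k4)) (pl Y'' ∘ k5)
  have h3 := absLogHeight_mul_le ((plB Y ∘ k1) * (plB Y' ∘ k2) * (sg ∘ Prod.snd)) (Mρ ∘ k4)
  have h4 := absLogHeight_mul_le ((plB Y ∘ k1) * (plB Y' ∘ k2)) (sg ∘ Prod.snd)
  have h5 := absLogHeight_mul_le (plB Y ∘ k1) (plB Y' ∘ k2)
  have h6 := absLogHeight_comp_le k1 (plB Y)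
  have h7 := absLogHeight_comp_le k2 (plB Y')
  have h8 := absLogHeight_comp_le
    (Prod.snd : J × (Fin (ρ + 1) × Fin (ρ + 1)) → Fin (ρ + 1) × Fin (ρ + 1)) sg
  have h9 := absLogHeight_comp_le k4 Mρ
  have h10 := absLogHeight_comp_le k5 (pl Y'')
  have h11 := hC2 V
  have h12 := hC1 (pl Y) (pl Y')
  have h13 : (ρ : ℝ) * absLogHeight V ≤
      ρ * (C1 + absLogHeight (pl Y) + absLogHeight (pl Y')) :=
    mul_le_mul_of_nonneg_left h12 (Nat.cast_nonneg ρ)
  rw [← hL]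
  linarith

/-- **One-point law, two-sided** (abstract form): with the lower bound (BPF) for the minors
as a hypothesis (constant `C₀`), the six heights satisfy the one-point law up to `C + C₀`. -/
theorem opl (μ : ι₁ → ι₂ → ι₃ → Ω) (r r' ρ : ℕ) :
    ∃ C : ℝ, ∀ (Y : Fin (r + 1) → ι₁ → Ω) (Y' : Fin (r' + 1) → ι₂ → Ω)
      (Y'' : Fin (ρ + 1) → ι₃ → Ω) (Γ : Fin (r + 1) → Fin (r' + 1) → Fin (ρ + 1) → Ω)
      (C₀ : ℝ),
      (∀ a b t, mulμ μ (Y a) (Y' b) t = ∑ k, Γ a b k * Y'' k t) →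
      (∀ a b, (a ≠ Fin.last r ∨ b ≠ Fin.last r') → Γ a b (Fin.last ρ) = 0) →
      Γ (Fin.last r) (Fin.last r') (Fin.last ρ) ≠ 0 →
      plB Y ≠ 0 → plB Y' ≠ 0 → pl Y'' ≠ 0 → plB Y'' ≠ 0 →
      minorsTup (ρ + 1) (Vtup μ (pl Y) (pl Y')) ≠ 0 →
      ((ρ : ℝ) + 1) * (absLogHeight (pl Y) + absLogHeight (pl Y')) - C₀ ≤
        absLogHeight (minorsTup (ρ + 1) (Vtup μ (pl Y) (pl Y'))) →
      |absLogHeight (plB Y'') + absLogHeight (pl Y) + absLogHeight (pl Y') -
        absLogHeight (pl Y'') - absLogHeight (plB Y) - absLogHeight (plB Y')| ≤ C + C₀ := by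
  obtain ⟨Ce, hCe⟩ := opl_easy μ r r' ρ
  obtain ⟨Ch, hCh⟩ := opl_hard μ r r' ρ
  refine ⟨2 * |Ce| + |Ch|, fun Y Y' Y'' Γ C₀ hΓ hΓ0 hlll hB hB' hA'' hB'' hmin hbpf => ?_⟩
  have h1 := hCe Y Y' Y'' Γ hΓ hΓ0 hlll hB hB' hA''
  have h2 := hCh Y Y' Y'' Γ hΓ hΓ0 hlll hB'' hmin
  have h3 := le_abs_self Ce
  have h4 := le_abs_self Ch
  have h5 := abs_nonneg Ce
  have h6 := abs_nonneg Ch
  have hr : ((ρ : ℝ) + 1) * (absLogHeight (pl Y) + absLogHeight (pl Y')) =
      ρ * (absLogHeight (pl Y) + absLogHeight (pl Y')) +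
        (absLogHeight (pl Y) + absLogHeight (pl Y')) := by ring
  rw [hr] at hbpf
  rw [abs_le]
  constructor <;> linarith

end OnePoint

section Antisymmetry

variable {K : Type*} [Field K] {ι : Type*}

/-- The all-maps Pluecker vector of a frame is antisymmetric. -/
theorem pl_comp_perm {R : Type*} [CommRing R] {n : ℕ} (Y : Fin n → ι → R) (J : Fin n → ι)
    (σ : Equiv.Perm (Fin n)) :
    pl Y (J ∘ σ) = ((Equiv.Perm.sign σ : ℤ) : R) * pl Y J := by
  unfold pl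
  have h := Matrix.det_permute' σ (Matrix.of fun i j => Y i (J j))
  have e : (Matrix.of fun i j => Y i ((J ∘ σ) j)) =
      (Matrix.of fun i j => Y i (J j)).submatrix id σ := by
    ext i j
    rfl
  rw [e, h]

/-- An antisymmetric tuple vanishes on non-injective index maps (characteristic `≠ 2`). -/
theorem eq_zero_of_antisymm_of_not_injective [CharZero K] {n : ℕ} (x : (Fin n → ι) → K)
    (hanti : ∀ (J : Fin n → ι) (σ : Equiv.Perm (Fin n)),
      x (J ∘ σ) = ((Equiv.Perm.sign σ : ℤ) : K) * x J)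
    (J : Fin n → ι) (hJ : ¬ Function.Injective J) : x J = 0 := by
  classical
  rw [Function.Injective] at hJ
  push Not at hJ
  obtain ⟨a, b, hab, hne⟩ := hJ
  have h := hanti J (Equiv.swap a b)
  have e : J ∘ (Equiv.swap a b) = J := by
    funext i
    simp only [Function.comp]
    by_cases h1 : i = a
    · subst h1; rw [Equiv.swap_apply_left]; exact hab.symm
    · by_cases h2 : i = b
      · subst h2; rw [Equiv.swap_apply_right]; exact hab
      · rw [Equiv.swap_apply_of_ne_of_ne h1 h2]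
  rw [e, Equiv.Perm.sign_swap hne] at h
  have h2 : (2 : K) * x J = 0 := by
    have : x J = -x J := by simpa using h
    linear_combination this
  rcases mul_eq_zero.mp h2 with h3 | h3
  · exact absurd h3 two_ne_zero
  · exact h3

/-- **Abstract half of the (BPF) hypothesis.** A nonzero antisymmetric tuple
`x : (Fin (r+1) → ι) → K` has `r + 1` linearly independent canonical vectors. -/
theorem exists_linearIndependent_cvec [CharZero K] {r : ℕ} (x : (Fin (r + 1) → ι) → K)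
    (hanti : ∀ (J : Fin (r + 1) → ι) (σ : Equiv.Perm (Fin (r + 1))),
      x (J ∘ σ) = ((Equiv.Perm.sign σ : ℤ) : K) * x J)
    (hx : x ≠ 0) :
    ∃ s : Fin (r + 1) → (Fin r → ι), LinearIndependent K (fun k => cvec x (s k)) := by
  classical
  obtain ⟨J, hJ⟩ := Function.ne_iff.mp hx
  have hJinj : Function.Injective J := by
    by_contra hni
    exact hJ (eq_zero_of_antisymm_of_not_injective x hanti J hni)
  refine ⟨fun k => J ∘ k.succAbove, ?_⟩
  -- the permutation `(k.succAbove, k)`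
  have hτ : ∀ k : Fin (r + 1), ∃ τ : Equiv.Perm (Fin (r + 1)),
      (Fin.snoc (J ∘ k.succAbove) (J k) : Fin (r + 1) → ι) = J ∘ τ := by
    intro k
    let f : Fin (r + 1) → Fin (r + 1) := Fin.snoc (α := fun _ => Fin (r + 1)) k.succAbove k
    have hf : Function.Injective f := by
      intro a b hab
      induction a using Fin.lastCases with
      | last =>
        induction b using Fin.lastCases with
        | last => rfl
        | cast b =>
          simp only [f, Fin.snoc_last, Fin.snoc_castSucc] at hab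
          exact absurd hab.symm (Fin.succAbove_ne k b)
      | cast a =>
        induction b using Fin.lastCases with
        | last =>
          simp only [f, Fin.snoc_last, Fin.snoc_castSucc] at hab
          exact absurd hab (Fin.succAbove_ne k a)
        | cast b =>
          simp only [f, Fin.snoc_castSucc] at hab
          rw [Fin.succAbove_right_injective hab]
    refine ⟨Equiv.ofBijective f (Finite.injective_iff_bijective.mp hf), ?_⟩
    funext i
    induction i using Fin.lastCases with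
    | last => simp [f]
    | cast i => simp [f]
  have hdiag : ∀ k k' : Fin (r + 1), k' ≠ k → cvec x (J ∘ k.succAbove) (J k') = 0 := by
    intro k k' hkk'
    unfold cvec
    apply eq_zero_of_antisymm_of_not_injective x hanti
    intro hinj
    obtain ⟨i, hi⟩ := Fin.exists_succAbove_eq hkk'
    have h1 : (Fin.snoc (J ∘ k.succAbove) (J k') : Fin (r + 1) → ι) i.castSucc =
        (Fin.snoc (J ∘ k.succAbove) (J k') : Fin (r + 1) → ι) (Fin.last r) := by
      rw [Fin.snoc_castSucc, Fin.snoc_last, Function.comp, hi]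
    exact absurd (hinj h1) (Fin.castSucc_lt_last i).ne
  have hdiag' : ∀ k : Fin (r + 1), cvec x (J ∘ k.succAbove) (J k) ≠ 0 := by
    intro k
    obtain ⟨τ, hτk⟩ := hτ k
    unfold cvec
    rw [hτk, hanti J τ]
    refine mul_ne_zero ?_ hJ
    rcases Int.units_eq_one_or (Equiv.Perm.sign τ) with h | h <;> simp [h]
  rw [Fintype.linearIndependent_iff]
  intro c hc k'
  have h := congrFun hc (J k')
  simp only [Finset.sum_apply, Pi.smul_apply, smul_eq_mul, Pi.zero_apply] at h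
  rw [Finset.sum_eq_single k'] at h
  · exact (mul_eq_zero.mp h).resolve_right (hdiag' k')
  · intro k _ hk
    rw [hdiag k k' (Ne.symm hk), mul_zero]
  · intro h'; exact absurd (Finset.mem_univ _) h'

end Antisymmetry

end Fermat.Agent.S17.helper7293
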