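/-
S17, G2-ALT (track (B)): the one-point law in SUBSPACE form.
`plkAbs W` = absolute Pluecker height of a subspace of a coordinate space; frame independence;
`opl_subspace` : the abstract one-point law for flags `B ≤ A`, `B' ≤ A'`, `B'' ≤ A''`.
-/
import Mathlib
import Fermat.Agent.S17.helper7293_OnePoint
import Fermat.Agent.S17.helper3088_PluckerDual

set_option autoImplicit false

namespace Fermat.Agent.S17.helper7293

open Matrix Finset Module
open Fermat.Agent.Lib.helper927

section FrameChange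

variable {R : Type*} [CommRing R] {ι : Type*}

/-- Change of frame: the Pluecker vector is multiplied by the determinant. -/
theorem pl_of_frame_eq {n : ℕ} (P : Matrix (Fin n) (Fin n) R) (Y Y' : Fin n → ι → R)
    (h : ∀ i t, Y' i t = ∑ k, P i k * Y k t) (s : Fin n → ι) :
    pl Y' s = P.det * pl Y s := by
  unfold pl
  rw [← Matrix.det_mul]
  congr 1
  ext i j
  simp only [Matrix.of_apply, Matrix.mul_apply, h]

end FrameChange

section Sub

variable {Ω : Type*} [Field Ω] [CharZero Ω] [Algebra.IsAlgebraic ℚ Ω]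
variable {ι : Type*}

omit [CharZero Ω] [Algebra.IsAlgebraic ℚ Ω] in
/-- A linearly independent frame has a nonzero Pluecker vector. -/
theorem pl_ne_zero [Fintype ι] {n : ℕ} (Y : Fin n → ι → Ω) (hY : LinearIndependent Ω Y) :
    pl Y ≠ 0 := by
  classical
  obtain ⟨s, hs⟩ := helper3088.exists_minors_ne_zero_of_linearIndependent (Matrix.of Y) hY
  exact Function.ne_iff.mpr ⟨s, hs⟩

/-- Two linearly independent frames of the same subspace have the same absolute Pluecker
height. -/
theorem absLogHeight_pl_eq_of_span_eq {n : ℕ} (Y Y' : Fin n → ι → Ω)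
    (hY' : LinearIndependent Ω Y')
    (hspan : Submodule.span Ω (Set.range Y') ≤ Submodule.span Ω (Set.range Y)) :
    absLogHeight (pl Y') = absLogHeight (pl Y) := by
  classical
  have hmem : ∀ i, ∃ c : Fin n → Ω, ∑ k, c k • Y k = Y' i := fun i =>
    (Submodule.mem_span_range_iff_exists_fun Ω).mp (hspan (Submodule.subset_span ⟨i, rfl⟩))
  choose P hP using hmem
  have hdet : (Matrix.of P).det ≠ 0 := by
    intro h0
    obtain ⟨v, hv, hvP⟩ := Matrix.exists_vecMul_eq_zero_iff.mpr h0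
    have hsum : ∑ i, v i • Y' i = 0 := by
      have : ∀ i, v i • Y' i = ∑ k, (v i * P i k) • Y k := by
        intro i
        rw [← hP i, Finset.smul_sum]
        simp only [smul_smul]
      simp only [this]
      rw [Finset.sum_comm]
      refine Finset.sum_eq_zero fun k _ => ?_
      rw [← Finset.sum_smul]
      have hk := congrFun hvP k
      simp only [Matrix.vecMul, dotProduct, Matrix.of_apply, Pi.zero_apply] at hk
      rw [hk, zero_smul]
    have := Fintype.linearIndependent_iff.mp hY' v hsum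
    exact hv (funext this)
  have e : pl Y' = (Matrix.of P).det • pl Y := by
    funext s
    rw [Pi.smul_apply, smul_eq_mul]
    apply pl_of_frame_eq
    intro i t
    rw [← hP i]
    simp [Finset.sum_apply]
  rw [e, absLogHeight_smul _ hdet]

variable [Fintype ι]

/-- The absolute Pluecker height of a subspace `W` of the coordinate space `ι → Ω`:
the absolute logarithmic height of the all-maps minors of a basis of `W`. -/
noncomputable def plkAbs (W : Submodule Ω (ι → Ω)) : ℝ :=
  absLogHeight (pl (fun i : Fin (finrank Ω W) => ((Module.finBasis Ω W i : W) : ι → Ω)))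

omit [CharZero Ω] [Algebra.IsAlgebraic ℚ Ω] in
/-- Every subspace of dimension `n` has a frame indexed by `Fin n`. -/
theorem exists_frame (W : Submodule Ω (ι → Ω)) {n : ℕ} (h : finrank Ω W = n) :
    ∃ y : Fin n → ι → Ω, LinearIndependent Ω y ∧ Submodule.span Ω (Set.range y) = W := by
  let b := Module.finBasisOfFinrankEq Ω W h
  refine ⟨fun i => ((b i : W) : ι → Ω), ?_, ?_⟩
  · exact b.linearIndependent.map' W.subtype (Submodule.ker_subtype W)
  · have : (Set.range fun i => ((b i : W) : ι → Ω)) = W.subtype '' Set.range b := by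
      rw [← Set.range_comp]
      rfl
    rw [this, Submodule.span_image, b.span_eq, Submodule.map_subtype_top]

omit [CharZero Ω] [Algebra.IsAlgebraic ℚ Ω] in
/-- A linearly independent family of `n` vectors in an `n`-dimensional subspace spans it. -/
theorem span_eq_of_mem_of_finrank {n : ℕ} (Z : Fin n → ι → Ω) (W : Submodule Ω (ι → Ω))
    (hZ : LinearIndependent Ω Z) (hZW : ∀ i, Z i ∈ W) (hW : finrank Ω W = n) :
    Submodule.span Ω (Set.range Z) = W := by
  apply Submodule.eq_of_le_of_finrank_eq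
  · rw [Submodule.span_le]; rintro _ ⟨i, rfl⟩; exact hZW i
  · rw [finrank_span_eq_card hZ, Fintype.card_fin, hW]

/-- **Frame independence**: the absolute height of the all-maps minors of ANY linearly
independent frame of `W` is `plkAbs W`. -/
theorem absLogHeight_pl_eq_plkAbs {n : ℕ} (Y : Fin n → ι → Ω) (hY : LinearIndependent Ω Y)
    (W : Submodule Ω (ι → Ω)) (hW : Submodule.span Ω (Set.range Y) = W) :
    absLogHeight (pl Y) = plkAbs W := by
  have hn : finrank Ω W = n := by
    rw [← hW, finrank_span_eq_card hY, Fintype.card_fin]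
  subst hn
  unfold plkAbs
  apply absLogHeight_pl_eq_of_span_eq _ _ hY
  rw [hW]
  have : (Set.range fun i : Fin (finrank Ω W) => ((Module.finBasis Ω W i : W) : ι → Ω)) =
      W.subtype '' Set.range (Module.finBasis Ω W) := by
    rw [← Set.range_comp]
    rfl
  rw [this, Submodule.span_image, (Module.finBasis Ω W).span_eq, Submodule.map_subtype_top]

end Sub

section OPLSub

variable {Ω : Type*} [Field Ω] [CharZero Ω] [Algebra.IsAlgebraic ℚ Ω]
variable {ι₁ ι₂ ι₃ : Type*} [Fintype ι₁] [Fintype ι₂] [Fintype ι₃]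

omit [CharZero Ω] [Algebra.IsAlgebraic ℚ Ω] [Fintype ι₃] in
theorem mulμ_mem_span {n n' : ℕ} (μ : ι₁ → ι₂ → ι₃ → Ω) (Y : Fin n → ι₁ → Ω)
    (Y' : Fin n' → ι₂ → Ω) (S : Submodule Ω (ι₃ → Ω))
    (h : ∀ i i', mulμ μ (Y i) (Y' i') ∈ S) {a : ι₁ → Ω} {a' : ι₂ → Ω}
    (ha : a ∈ Submodule.span Ω (Set.range Y)) (ha' : a' ∈ Submodule.span Ω (Set.range Y')) :
    mulμ μ a a' ∈ S := by
  obtain ⟨c, rfl⟩ := (Submodule.mem_span_range_iff_exists_fun Ω).mp ha
  obtain ⟨c', rfl⟩ := (Submodule.mem_span_range_iff_exists_fun Ω).mp ha'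
  have e : mulμ μ (∑ i, c i • Y i) (∑ i, c' i • Y' i) =
      ∑ i, ∑ i', (c i * c' i') • mulμ μ (Y i) (Y' i') := by
    funext t
    have h1 : (∑ i, c i • Y i) = fun j => ∑ a, c a * Y a j := by
      funext j; simp [Finset.sum_apply]
    have h2 : (∑ i, c' i • Y' i) = fun j => ∑ a, c' a * Y' a j := by
      funext j; simp [Finset.sum_apply]
    rw [h1, h2, mulμ_sum_sum]
    simp [Finset.sum_apply]
  rw [e]
  exact Submodule.sum_mem _ fun i _ => Submodule.sum_mem _ fun i' _ =>
    Submodule.smul_mem _ _ (h i i')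

/-- **One-point law, subspace form.** `B ≤ A`, `B' ≤ A'`, `B'' ≤ A''` hyperplanes in
subspaces of three coordinate spaces related by the bilinear multiplication `mulμ μ`, with
`A·A' ⊆ A''`, `B·A' ⊆ B''`, `A·B' ⊆ B''`, `A·A' ⊄ B''`.  If the (BPF) lower bound holds for
every pair of frames of `(A, A')` with constant `C₀` (and the corresponding minors do not all
vanish), then the six absolute Pluecker heights satisfy the one-point law up to `C + C₀`,
`C` depending only on `μ` and the dimensions. -/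
theorem opl_subspace (μ : ι₁ → ι₂ → ι₃ → Ω) (r r' ρ : ℕ) :
    ∃ C : ℝ, ∀ (A B : Submodule Ω (ι₁ → Ω)) (A' B' : Submodule Ω (ι₂ → Ω))
      (A'' B'' : Submodule Ω (ι₃ → Ω)) (C₀ : ℝ),
      B ≤ A → B' ≤ A' → B'' ≤ A'' →
      finrank Ω B = r → finrank Ω A = r + 1 → finrank Ω B' = r' → finrank Ω A' = r' + 1 →
      finrank Ω B'' = ρ → finrank Ω A'' = ρ + 1 →
      (∀ a ∈ A, ∀ a' ∈ A', mulμ μ a a' ∈ A'') →
      (∀ b ∈ B, ∀ a' ∈ A', mulμ μ b a' ∈ B'') →
      (∀ a ∈ A, ∀ b' ∈ B', mulμ μ a b' ∈ B'') →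
      (∃ a ∈ A, ∃ a' ∈ A', mulμ μ a a' ∉ B'') →
      (∀ (Y : Fin (r + 1) → ι₁ → Ω) (Y' : Fin (r' + 1) → ι₂ → Ω),
        LinearIndependent Ω Y → Submodule.span Ω (Set.range Y) = A →
        LinearIndependent Ω Y' → Submodule.span Ω (Set.range Y') = A' →
        minorsTup (ρ + 1) (Vtup μ (pl Y) (pl Y')) ≠ 0 ∧
        ((ρ : ℝ) + 1) * (absLogHeight (pl Y) + absLogHeight (pl Y')) - C₀ ≤
          absLogHeight (minorsTup (ρ + 1) (Vtup μ (pl Y) (pl Y')))) →
      |plkAbs B'' + plkAbs A + plkAbs A' - plkAbs A'' - plkAbs B - plkAbs B'| ≤ C + C₀ := by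
  classical
  obtain ⟨C, hC⟩ := opl μ r r' ρ
  refine ⟨C, fun A B A' B' A'' B'' C₀ hBA hBA' hBA'' hrB hrA hrB' hrA' hrB'' hrA'' hAA hBAm hABm
    hne hbpf => ?_⟩
  obtain ⟨a, ha, a', ha', haa'⟩ := hne
  have haB : a ∉ B := fun h => haa' (hBAm a h a' ha')
  have ha'B' : a' ∉ B' := fun h => haa' (hABm a ha a' h)
  -- frames
  obtain ⟨yB, hyB, hsB⟩ := exists_frame B hrB
  obtain ⟨yB', hyB', hsB'⟩ := exists_frame B' hrB'
  obtain ⟨yB'', hyB'', hsB''⟩ := exists_frame B'' hrB''
  set a'' := mulμ μ a a' with ha''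
  let Y : Fin (r + 1) → ι₁ → Ω := Fin.snoc (α := fun _ => ι₁ → Ω) yB a
  let Y' : Fin (r' + 1) → ι₂ → Ω := Fin.snoc (α := fun _ => ι₂ → Ω) yB' a'
  let Y'' : Fin (ρ + 1) → ι₃ → Ω := Fin.snoc (α := fun _ => ι₃ → Ω) yB'' a''
  have hY : LinearIndependent Ω Y := linearIndependent_finSnoc.mpr ⟨hyB, by rw [hsB]; exact haB⟩
  have hY' : LinearIndependent Ω Y' :=
    linearIndependent_finSnoc.mpr ⟨hyB', by rw [hsB']; exact ha'B'⟩
  have hY'' : LinearIndependent Ω Y'' :=
    linearIndependent_finSnoc.mpr ⟨hyB'', by rw [hsB'']; exact haa'⟩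
  have hYc : ∀ i : Fin r, Y i.castSucc = yB i := fun i => by simp [Y]
  have hYl : Y (Fin.last r) = a := by simp [Y]
  have hY'c : ∀ i : Fin r', Y' i.castSucc = yB' i := fun i => by simp [Y']
  have hY'l : Y' (Fin.last r') = a' := by simp [Y']
  have hY''c : ∀ i : Fin ρ, Y'' i.castSucc = yB'' i := fun i => by simp [Y'']
  have hY''l : Y'' (Fin.last ρ) = a'' := by simp [Y'']
  have hyBmem : ∀ i, yB i ∈ B := fun i => hsB ▸ Submodule.subset_span ⟨i, rfl⟩
  have hyB'mem : ∀ i, yB' i ∈ B' := fun i => hsB' ▸ Submodule.subset_span ⟨i, rfl⟩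
  have hyB''mem : ∀ i, yB'' i ∈ B'' := fun i => hsB'' ▸ Submodule.subset_span ⟨i, rfl⟩
  have hYmem : ∀ i, Y i ∈ A := by
    intro i
    induction i using Fin.lastCases with
    | last => rw [hYl]; exact ha
    | cast i => rw [hYc]; exact hBA (hyBmem i)
  have hY'mem : ∀ i, Y' i ∈ A' := by
    intro i
    induction i using Fin.lastCases with
    | last => rw [hY'l]; exact ha'
    | cast i => rw [hY'c]; exact hBA' (hyB'mem i)
  have hY''mem : ∀ i, Y'' i ∈ A'' := by
    intro i
    induction i using Fin.lastCases with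
    | last => rw [hY''l]; exact hAA a ha a' ha'
    | cast i => rw [hY''c]; exact hBA'' (hyB''mem i)
  have hsA : Submodule.span Ω (Set.range Y) = A := span_eq_of_mem_of_finrank Y A hY hYmem hrA
  have hsA' : Submodule.span Ω (Set.range Y') = A' := span_eq_of_mem_of_finrank Y' A' hY' hY'mem hrA'
  have hsA'' : Submodule.span Ω (Set.range Y'') = A'' := span_eq_of_mem_of_finrank Y'' A'' hY'' hY''mem hrA''
  -- the hyperplane Pluecker vectors
  have hplB : plB Y = pl yB := by
    unfold plB; congr 1; funext i; exact hYc i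
  have hplB' : plB Y' = pl yB' := by
    unfold plB; congr 1; funext i; exact hY'c i
  have hplB'' : plB Y'' = pl yB'' := by
    unfold plB; congr 1; funext i; exact hY''c i
  -- the coefficients Γ
  have hprodB : ∀ i i', (i ≠ Fin.last r ∨ i' ≠ Fin.last r') → mulμ μ (Y i) (Y' i') ∈ B'' := by
    intro i i' h
    rcases h with h | h
    · obtain ⟨j, rfl⟩ := Fin.exists_castSucc_eq.mpr h
      rw [hYc]
      exact hBAm _ (hyBmem j) _ (hY'mem i')
    · obtain ⟨j, rfl⟩ := Fin.exists_castSucc_eq.mpr h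
      rw [hY'c]
      exact hABm _ (hYmem i) _ (hyB'mem j)
  have hcoef : ∀ i i', (i ≠ Fin.last r ∨ i' ≠ Fin.last r') →
      ∃ c : Fin ρ → Ω, ∑ k, c k • yB'' k = mulμ μ (Y i) (Y' i') := fun i i' h =>
    (Submodule.mem_span_range_iff_exists_fun Ω).mp (hsB'' ▸ hprodB i i' h)
  let Γ : Fin (r + 1) → Fin (r' + 1) → Fin (ρ + 1) → Ω := fun i i' =>
    if h : i ≠ Fin.last r ∨ i' ≠ Fin.last r' then
      Fin.snoc (α := fun _ => Ω) (hcoef i i' h).choose 0
    else Pi.single (Fin.last ρ) 1
  have hΓ : ∀ i i' t, mulμ μ (Y i) (Y' i') t = ∑ k, Γ i i' k * Y'' k t := by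
    intro i i' t
    by_cases h : i ≠ Fin.last r ∨ i' ≠ Fin.last r'
    · simp only [Γ, dif_pos h]
      rw [Fin.sum_univ_castSucc]
      simp only [Fin.snoc_castSucc, Fin.snoc_last, zero_mul, add_zero, hY''c]
      have := congrFun (hcoef i i' h).choose_spec t
      rw [← this]
      simp [Finset.sum_apply]
    · simp only [Γ, dif_neg h]
      push Not at h
      rw [Finset.sum_eq_single (Fin.last ρ)]
      · rw [Pi.single_eq_same, one_mul, hY''l, h.1, h.2, hYl, hY'l]
      · intro k _ hk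
        rw [Pi.single_eq_of_ne hk, zero_mul]
      · intro h'; exact absurd (Finset.mem_univ _) h'
  have hΓ0 : ∀ i i', (i ≠ Fin.last r ∨ i' ≠ Fin.last r') → Γ i i' (Fin.last ρ) = 0 := by
    intro i i' h
    simp only [Γ, dif_pos h, Fin.snoc_last]
  have hΓl : Γ (Fin.last r) (Fin.last r') (Fin.last ρ) ≠ 0 := by
    have h : ¬ (Fin.last r ≠ Fin.last r ∨ Fin.last r' ≠ Fin.last r') := by simp
    simp only [Γ, dif_neg h, Pi.single_eq_same]
    exact one_ne_zero
  -- apply the frame form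
  obtain ⟨hmin, hb⟩ := hbpf Y Y' hY hsA hY' hsA'
  have key := hC Y Y' Y'' Γ C₀ hΓ hΓ0 hΓl
    (by rw [hplB]; exact pl_ne_zero yB hyB) (by rw [hplB']; exact pl_ne_zero yB' hyB')
    (pl_ne_zero Y'' hY'') (by rw [hplB'']; exact pl_ne_zero yB'' hyB'') hmin hb
  rw [hplB, hplB', hplB'', absLogHeight_pl_eq_plkAbs Y hY A hsA,
    absLogHeight_pl_eq_plkAbs Y' hY' A' hsA', absLogHeight_pl_eq_plkAbs Y'' hY'' A'' hsA'',
    absLogHeight_pl_eq_plkAbs yB hyB B hsB, absLogHeight_pl_eq_plkAbs yB' hyB' B' hsB',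
    absLogHeight_pl_eq_plkAbs yB'' hyB'' B'' hsB''] at key
  exact key

end OPLSub

end Fermat.Agent.S17.helper7293
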