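import Fermat.Agent.S17.helper2273_OnePointSpec
import Fermat.Agent.S17.helper7293_OnePointSub
import Fermat.Agent.S17.helper1360_BpfOfRkp

/-!
# S17, track (B) = G2-ALT, leaf ABS (wiring, helper2273): the abstract one-point law

`coordOnePoint : CoordOnePoint Ω μ ν ν' d d'` for every algebraically closed field `Ω` algebraic
over `ℚ`, from

* `helper7293.opl_subspace`  (B1: the one-point law in subspace form, with the (BPF) lower bound
  as a hypothesis), and
* `helper1360.bpf_of_rkp`    (B2: the (BPF) lower bound from the geometric hypothesis (RKP)).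
-/

set_option autoImplicit false

open Fermat.Agent.Lib.helper927 (absLogHeight)

namespace Fermat.Agent.S17.helper2273

/-- `subHeight` is `helper7293.plkAbs` at the index type `Fin n`. -/
theorem subHeight_eq_plkAbs {Ω : Type*} [Field Ω] [CharZero Ω] {n : ℕ}
    (W : Submodule Ω (Fin n → Ω)) : subHeight W = helper7293.plkAbs W := rfl

/-- **Leaf ABS.** The abstract one-point law in coordinate-subspace form. -/
theorem coordOnePoint (Ω : Type*) [Field Ω] [CharZero Ω] [IsAlgClosed Ω] [Algebra.IsAlgebraic ℚ Ω]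
    {n₁ n₂ n₃ n₄ n₅ n₆ n₇ : ℕ} (μ : Fin n₁ → Fin n₂ → Fin n₃ → ℚ)
    (ν : Fin n₄ → Fin n₁ → Fin n₅ → ℚ) (ν' : Fin n₆ → Fin n₂ → Fin n₇ → ℚ) (d d' : ℕ) :
    CoordOnePoint Ω μ ν ν' d d' := by
  classical
  intro hRKP
  by_cases hn : d + 1 ≤ n₁ ∧ d' + 1 ≤ n₂ ∧ d + d' + 1 ≤ n₃
  swap
  · refine ⟨0, fun A B A' B' B'' hA hA' _ _ hAA _ hB _ hB' _ hB'' _ _ => ?_⟩
    exfalso
    apply hn
    refine ⟨by omega, by omega, by omega⟩
  obtain ⟨h1, h2, h3⟩ := hn
  obtain ⟨r, hr⟩ : ∃ r, r + 1 + d = n₁ := ⟨n₁ - d - 1, by omega⟩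
  obtain ⟨r', hr'⟩ : ∃ r', r' + 1 + d' = n₂ := ⟨n₂ - d' - 1, by omega⟩
  obtain ⟨ρ, hρ⟩ : ∃ ρ, ρ + 1 + d + d' = n₃ := ⟨n₃ - d - d' - 1, by omega⟩
  obtain ⟨C₀, hC₀⟩ := helper1360.bpf_of_rkp (Ω := Ω) μ ν ν' d d' r r' ρ hr hr' hρ hRKP
  obtain ⟨C, hC⟩ := helper7293.opl_subspace (fun i j t => ((μ i j t : ℚ) : Ω)) r r' ρ
  refine ⟨C + C₀, fun A B A' B' B'' hA hA' hrk hrk' hAA hBA hB hBA' hB' hB''le hB'' hBAm hABm => ?_⟩
  have hne : ∃ a ∈ A, ∃ a' ∈ A',
      helper7293.mulμ (fun i j t => ((μ i j t : ℚ) : Ω)) a a' ∉ B'' := by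
    by_contra hcon
    push Not at hcon
    have hle : prodSub μ A A' ≤ B'' :=
      Submodule.span_le.mpr (by rintro _ ⟨a, ha, a', ha', rfl⟩; exact hcon a ha a' ha')
    have := Submodule.finrank_mono hle
    omega
  have key := hC A B A' B' (prodSub μ A A') B'' C₀ hBA hBA' hB''le (by omega) (by omega)
    (by omega) (by omega) (by omega) (by omega)
    (fun a ha a' ha' => Submodule.subset_span ⟨a, ha, a', ha', rfl⟩)
    (fun b hb a' ha' => hBAm (Submodule.subset_span ⟨b, hb, a', ha', rfl⟩))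
    (fun a ha b' hb' => hABm (Submodule.subset_span ⟨a, ha, b', hb', rfl⟩))
    hne
    (fun Y Y' hY hsY hY' hsY' => ⟨?_, ?_⟩)
  · exact key
  · -- the minors do not all vanish: the rank of the matrix of products is `ρ + 1`
    have hU : helper1360.bpfU (helper7293.pl Y) = A := by
      refine Submodule.eq_of_le_of_finrank_le (hsY ▸ helper1360.bpfU_pl_le Y) ?_
      have := helper1360.le_finrank_bpfU (helper7293.pl Y)
        (fun J σ => helper7293.pl_comp_perm Y J σ)
        (helper1360.pl_ne_zero_of_linearIndependent Y hY)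
      omega
    have hU' : helper1360.bpfU (helper7293.pl Y') = A' := by
      refine Submodule.eq_of_le_of_finrank_le (hsY' ▸ helper1360.bpfU_pl_le Y') ?_
      have := helper1360.le_finrank_bpfU (helper7293.pl Y')
        (fun J σ => helper7293.pl_comp_perm Y' J σ)
        (helper1360.pl_ne_zero_of_linearIndependent Y' hY')
      omega
    have hrank : ρ + 1 ≤ (helper1360.bpfPr μ (helper7293.pl Y) (helper7293.pl Y')).rank := by
      rw [helper1360.rank_bpfPr, hU, hU']
      omega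
    obtain ⟨s, c, hsc⟩ :=
      Fermat.Agent.Lib.helper1572.exists_submatrix_det_ne_zero_of_le_rank _ hrank
    intro h0
    exact hsc (congrFun h0 (s, c))
  · exact hC₀ Y Y' hY hY' (by rw [hsY]; exact hrk) (by rw [hsY']; exact hrk')

end Fermat.Agent.S17.helper2273
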