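import Fermat.Agent.S17.helper2853_Pencil

/-!
# S17-CL (helper2853): base divisor of a subspace of `L(X)` and the closedness lemma

Continuation of `helper2853_Pencil` (same hypothesis-passing style: Riemann's theorem as the
equality `ℓ(Y) = deg Y + 1 - g` for `deg Y ≥ c₀`).

* `IsPencil.le_of_mem`          : a base-point-free pencil of `L(D)` lying in `L(D')` forces
                                  `D ≤ D'`.
* `exists_base_divisor`         : a nonzero subspace `W ≤ L(X)` has a base divisor `B ≥ 0`:
                                  `W ≤ L(X - B)` and at every place some element of `W` has order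
                                  exactly `-(X - B) v`.
* `exists_base_pencil`          : moreover `W` contains a base-point-free pencil of `L(X - B)`.
* `IsPencil.mul_subspace_eq`    : if `W ≤ L(D)` contains a base-point-free pencil of `L(D)` then
                                  `L(E) * W = L(E + D)` in the Riemann range.
* `degree_nonneg_of_nonneg`     : effective divisors have nonnegative degree.
* `eq_rr_of_finrank_mul_le`     : **closedness lemma (CL)**: a subspace `W ≤ L(X)` of
                                  codimension `d` with `dim (L(E) * W) ≤ dim L(E + X) - d` is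
                                  `L(X - G)` for an effective `G` of degree `d`.
* `eq_rr_of_le_finrank_of_finrank_mul_le` : the same for codimension `≤ d`.
* `finrank_mul_rr_sub`          : the converse: `L(E) * L(X - G) = L(E + X - G)` has
                                  codimension `deg G` in `L(E + X)`.
* `finrank_rr_sub_add`          : conversely `L(X - G)` has codimension `deg G` in `L(X)`.
-/

set_option autoImplicit false

open AlgebraicCurve

namespace Fermat.Agent.S17.helper2853

noncomputable section

section BaseDiv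

variable {K : Type*} {F : Type*} [Field K] [Field F] [Algebra K F]

/-- A base-point-free pencil of `L(D)` that lies in `L(D')` forces `D ≤ D'`. -/
theorem IsPencil.le_of_mem {D D' : Divisor K F} {s t : F} (h : IsPencil D s t)
    (hs : s ∈ riemannRochSpace D') (ht : t ∈ riemannRochSpace D') : D ≤ D' := by
  intro v
  rcases h.bpf v with hv | hv
  · have := (mem_riemannRochSpace_iff.mp hs v).resolve_left h.left_ne
    omega
  · have := (mem_riemannRochSpace_iff.mp ht v).resolve_left h.right_ne
    omega

/-- Effective divisors have nonnegative degree. -/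
theorem degree_nonneg_of_nonneg {B : Divisor K F} (hB : 0 ≤ B) : 0 ≤ Divisor.degree B := by
  have h : Divisor.degree B = B.sum fun v n => n * (v.deg : ℤ) := by
    unfold Divisor.degree
    rw [Finsupp.liftAddHom_apply]
    rfl
  rw [h]
  refine Finsupp.sum_nonneg fun v _ => ?_
  have hv : (0 : ℤ) ≤ B v := hB v
  positivity

/-- **Base divisor** of a nonzero subspace `W ≤ L(X)`: the largest `B ≥ 0` with
`W ≤ L(X - B)`; at every place the bound `-(X - B) v` is attained by an element of `W`. -/
theorem exists_base_divisor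
    (hzp : ∀ f : F, f ≠ 0 → {v : Place K F | v.ord f ≠ 0}.Finite)
    {X : Divisor K F} {W : Submodule K F} (hW : W ≤ riemannRochSpace X) (hne : W ≠ ⊥) :
    ∃ B : Divisor K F, 0 ≤ B ∧ W ≤ riemannRochSpace (X - B) ∧
      ∀ v : Place K F, ∃ w ∈ W, w ≠ 0 ∧ v.ord w = -(X - B) v := by
  classical
  obtain ⟨w₀, hw₀, hw₀0⟩ := Submodule.exists_mem_ne_zero_of_ne_bot hne
  have hex : ∀ v : Place K F, ∃ n : ℕ, ∃ w ∈ W, w ≠ 0 ∧ v.ord w + X v = n := by
    intro v
    have h := (mem_riemannRochSpace_iff.mp (hW hw₀) v).resolve_left hw₀0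
    refine ⟨(v.ord w₀ + X v).toNat, w₀, hw₀, hw₀0, ?_⟩
    rw [Int.toNat_of_nonneg (by omega)]
  have hb_spec : ∀ v, ∃ w ∈ W, w ≠ 0 ∧ v.ord w + X v = (Nat.find (hex v) : ℤ) :=
    fun v => Nat.find_spec (hex v)
  have hb_min : ∀ v, ∀ w ∈ W, w ≠ 0 → (Nat.find (hex v) : ℤ) ≤ v.ord w + X v := by
    intro v w hw hw0
    have h := (mem_riemannRochSpace_iff.mp (hW hw) v).resolve_left hw0
    have hcast : ((v.ord w + X v).toNat : ℤ) = v.ord w + X v := Int.toNat_of_nonneg (by omega)
    have hmin := Nat.find_min' (hex v) (m := (v.ord w + X v).toNat) ⟨w, hw, hw0, hcast.symm⟩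
    omega
  have hfinT : ({v : Place K F | v.ord w₀ ≠ 0} ∪ (X.support : Set (Place K F))).Finite :=
    (hzp w₀ hw₀0).union X.support.finite_toSet
  have hb_supp : ∀ v, (Nat.find (hex v) : ℤ) ≠ 0 → v ∈ hfinT.toFinset := by
    intro v hv
    rw [Set.Finite.mem_toFinset]
    by_contra hcon
    rw [Set.mem_union, not_or] at hcon
    obtain ⟨h1, h2⟩ := hcon
    have h1' : v.ord w₀ = 0 := by
      by_contra h
      exact h1 h
    have h2' : X v = 0 := by
      by_contra h
      exact h2 (Finset.mem_coe.mpr (Finsupp.mem_support_iff.mpr h))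
    have := hb_min v w₀ hw₀ hw₀0
    apply hv
    omega
  let B : Divisor K F := Finsupp.onFinset hfinT.toFinset (fun v => (Nat.find (hex v) : ℤ)) hb_supp
  have hB : ∀ v, B v = (Nat.find (hex v) : ℤ) := fun v => Finsupp.onFinset_apply
  refine ⟨B, ?_, ?_, ?_⟩
  · intro v
    rw [Finsupp.coe_zero, Pi.zero_apply, hB]
    exact Int.natCast_nonneg _
  · intro w hw
    rw [mem_riemannRochSpace_iff]
    intro v
    by_cases hw0 : w = 0
    · exact Or.inl hw0
    · right
      have := hb_min v w hw hw0
      rw [Finsupp.sub_apply, hB]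
      omega
  · intro v
    obtain ⟨w, hw, hw0, h⟩ := hb_spec v
    refine ⟨w, hw, hw0, ?_⟩
    rw [Finsupp.sub_apply, hB]
    omega

/-- A nonzero subspace `W ≤ L(X)` contains a base-point-free pencil of `L(X - B)`, `B` its
base divisor. -/
theorem exists_base_pencil [Infinite K]
    (hzp : ∀ f : F, f ≠ 0 → {v : Place K F | v.ord f ≠ 0}.Finite)
    {X : Divisor K F} {W : Submodule K F} (hW : W ≤ riemannRochSpace X) (hne : W ≠ ⊥) :
    ∃ B : Divisor K F, 0 ≤ B ∧ W ≤ riemannRochSpace (X - B) ∧
      ∃ s ∈ W, ∃ t ∈ W, IsPencil (X - B) s t := by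
  classical
  obtain ⟨B, hB0, hWB, hwit⟩ := exists_base_divisor hzp hW hne
  refine ⟨B, hB0, hWB, ?_⟩
  obtain ⟨s, hs, hs0⟩ := Submodule.exists_mem_ne_zero_of_ne_bot hne
  have hZ : {v : Place K F | v.ord s ≠ -(X - B) v}.Finite := by
    refine ((hzp s hs0).union (X - B).support.finite_toSet).subset ?_
    intro v hv
    by_contra hcon
    rw [Set.mem_union, not_or] at hcon
    obtain ⟨h1, h2⟩ := hcon
    have h1' : v.ord s = 0 := by
      by_contra h
      exact h1 h
    have h2' : (X - B) v = 0 := by
      by_contra h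
      exact h2 (Finset.mem_coe.mpr (Finsupp.mem_support_iff.mpr h))
    apply hv
    rw [h1', h2', neg_zero]
  let p : Option hZ.toFinset → Submodule K W := fun o =>
    o.elim ⊥ fun v =>
      (riemannRochSpace (X - B - Finsupp.single (v : Place K F) 1)).comap W.subtype
  have hex : ∃ t : W, ∀ o, t ∉ p o := by
    by_contra hcon
    push Not at hcon
    have hcov : ⋃ o, (p o : Set W) = Set.univ := by
      rw [Set.eq_univ_iff_forall]
      intro t
      obtain ⟨o, ho⟩ := hcon t
      exact Set.mem_iUnion.mpr ⟨o, ho⟩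
    obtain ⟨o, ho⟩ := Subspace.exists_eq_top_of_iUnion_eq_univ hcov
    cases o with
    | none =>
      have h1 : (⟨s, hs⟩ : W) ∈ p none := by
        rw [ho]
        exact Submodule.mem_top
      have h2 : (⟨s, hs⟩ : W) = 0 := (Submodule.mem_bot K).mp h1
      exact hs0 (congrArg Subtype.val h2)
    | some v =>
      obtain ⟨w, hw, hw0, hord⟩ := hwit v
      have h1 : (⟨w, hw⟩ : W) ∈ p (some v) := by
        rw [ho]
        exact Submodule.mem_top
      have h2 : w ∈ riemannRochSpace (X - B - Finsupp.single (v : Place K F) 1) := h1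
      have h3 := (mem_riemannRochSpace_iff.mp h2 v).resolve_left hw0
      rw [Finsupp.sub_apply, Finsupp.single_eq_same] at h3
      omega
  obtain ⟨t, ht⟩ := hex
  have ht0 : (t : F) ≠ 0 := by
    intro h0
    apply ht none
    show t ∈ (⊥ : Submodule K W)
    rw [Submodule.mem_bot]
    exact Subtype.ext h0
  refine ⟨s, hs, t, t.2, hWB hs, hWB t.2, hs0, ht0, fun v => ?_⟩
  by_cases hv : v.ord s = -(X - B) v
  · exact Or.inl hv
  · right
    have hvZ : v ∈ hZ.toFinset := hZ.mem_toFinset.mpr hv
    have hnot : (t : F) ∉ riemannRochSpace (X - B - Finsupp.single v 1) :=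
      fun hmem => ht (some ⟨v, hvZ⟩) hmem
    exact (ord_eq_of_not_mem (hWB t.2) hnot).2

/-- If `W ≤ L(D)` contains a base-point-free pencil of `L(D)`, then `L(E) * W = L(E + D)` in
the Riemann range `deg (E - D) ≥ c₀`, `deg D ≥ 0`. -/
theorem IsPencil.mul_subspace_eq {D E : Divisor K F} {s t : F} (h : IsPencil D s t)
    {W : Submodule K F} (hWD : W ≤ riemannRochSpace D) (hs : s ∈ W) (ht : t ∈ W) {c₀ g : ℤ}
    (hfin : ∀ X : Divisor K F, Module.Finite K (riemannRochSpace X))
    (hR : ∀ X : Divisor K F, c₀ ≤ Divisor.degree X →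
      (Module.finrank K (riemannRochSpace X) : ℤ) = Divisor.degree X + 1 - g)
    (hD : 0 ≤ Divisor.degree D) (hE : c₀ ≤ Divisor.degree (E - D)) :
    riemannRochSpace E * W = riemannRochSpace (E + D) := by
  apply le_antisymm
  · rw [Submodule.mul_le]
    intro a ha b hb
    exact mul_mem_rr ha (hWD hb)
  · intro f hf
    obtain ⟨a, ha, b, hb, rfl⟩ := h.exists_eq_add hfin hR hD hE hf
    exact add_mem (Submodule.mul_mem_mul ha hs) (Submodule.mul_mem_mul hb ht)

/-- **Closedness lemma (CL), codimension `≤ d` form.**  Let `W ≤ L(X)` be a subspace of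
codimension at most `d`, with `deg X ≥ c₀ + d + 1` and `deg E ≥ deg X + c₀`.  If
`dim (L(E) * W) ≤ dim L(E + X) - d`, then `W = L(X - G)` for an effective divisor `G` of degree
`d` (in particular the codimension is exactly `d`). -/
theorem eq_rr_of_le_finrank_of_finrank_mul_le [Infinite K] {c₀ g : ℤ} (hc₀ : 0 ≤ c₀)
    (hfin : ∀ X : Divisor K F, Module.Finite K (riemannRochSpace X))
    (hR : ∀ X : Divisor K F, c₀ ≤ Divisor.degree X →
      (Module.finrank K (riemannRochSpace X) : ℤ) = Divisor.degree X + 1 - g)
    (hdeg : ∀ v : Place K F, v.deg = 1)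
    (hzp : ∀ f : F, f ≠ 0 → {v : Place K F | v.ord f ≠ 0}.Finite)
    (P₀ : Place K F) {X E : Divisor K F} {W : Submodule K F} {d : ℕ}
    (hW : W ≤ riemannRochSpace X)
    (hcodim : Module.finrank K (riemannRochSpace X) ≤ Module.finrank K W + d)
    (hX : c₀ + d + 1 ≤ Divisor.degree X) (hE : c₀ + Divisor.degree X ≤ Divisor.degree E)
    (hrk : Module.finrank K (riemannRochSpace E * W : Submodule K F) + d
      ≤ Module.finrank K (riemannRochSpace (E + X))) :
    ∃ G : Divisor K F, 0 ≤ G ∧ Divisor.degree G = d ∧ W = riemannRochSpace (X - G) := by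
  have hXr := hR X (by omega)
  -- `c₀ + 1 - g ≥ 0`
  have hdegP : ∀ n : ℤ, Divisor.degree (Finsupp.single P₀ n : Divisor K F) = n := by
    intro n
    rw [Divisor.degree_single, hdeg P₀]
    norm_num
  have hg := hR (Finsupp.single P₀ c₀) (by rw [hdegP])
  rw [hdegP] at hg
  have hWdim : Divisor.degree X + 1 - g - d ≤ (Module.finrank K W : ℤ) := by
    have : (Module.finrank K (riemannRochSpace X) : ℤ) ≤ ((Module.finrank K W + d : ℕ) : ℤ) := by
      exact_mod_cast hcodim
    push_cast at this
    omega
  have hne : W ≠ ⊥ := by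
    rintro rfl
    rw [finrank_bot] at hWdim
    push_cast at hWdim
    omega
  obtain ⟨B, hB0, hWB, s, hs, t, ht, hpen⟩ := exists_base_pencil hzp hW hne
  have hβ0 := degree_nonneg_of_nonneg hB0
  have hsub : Divisor.degree (X - B) = Divisor.degree X - Divisor.degree B := map_sub _ _ _
  have := hfin (X - B)
  have hle : Module.finrank K W ≤ Module.finrank K (riemannRochSpace (X - B)) :=
    Submodule.finrank_mono hWB
  -- `deg B ≤ d`
  have hβd : Divisor.degree B ≤ d := by
    by_cases hc : c₀ ≤ Divisor.degree (X - B)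
    · have h1 := hR (X - B) hc
      omega
    · exfalso
      have hmono : X - B ≤ X - B + Finsupp.single P₀ (c₀ - Divisor.degree (X - B)) := by
        rw [le_add_iff_nonneg_right]
        intro w
        rw [Finsupp.coe_zero, Pi.zero_apply]
        classical
        rw [Finsupp.single_apply]
        split_ifs <;> omega
      have := hfin (X - B + Finsupp.single P₀ (c₀ - Divisor.degree (X - B)))
      have hle2 := Submodule.finrank_mono (rr_mono hmono)
      have hdegY : Divisor.degree (X - B + Finsupp.single P₀ (c₀ - Divisor.degree (X - B)))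
          = c₀ := by
        rw [map_add, hdegP]
        ring
      have h1 := hR _ (le_of_eq hdegY.symm)
      rw [hdegY] at h1
      omega
  have hXB : c₀ ≤ Divisor.degree (X - B) := by omega
  have hmul := hpen.mul_subspace_eq hWB hs ht hfin hR (by omega)
    (show c₀ ≤ Divisor.degree (E - (X - B)) by rw [map_sub]; omega)
  have hEXB : Divisor.degree (E + (X - B)) = Divisor.degree E + Divisor.degree (X - B) :=
    map_add _ _ _
  have hEX : Divisor.degree (E + X) = Divisor.degree E + Divisor.degree X := map_add _ _ _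
  have h2 := hR (E + (X - B)) (by omega)
  have h3 := hR (E + X) (by omega)
  have h4 := hR (X - B) hXB
  rw [hmul] at hrk
  have hdβ : (d : ℤ) ≤ Divisor.degree B := by
    have : ((Module.finrank K (riemannRochSpace (E + (X - B))) + d : ℕ) : ℤ)
        ≤ (Module.finrank K (riemannRochSpace (E + X)) : ℤ) := by exact_mod_cast hrk
    push_cast at this
    omega
  refine ⟨B, hB0, by omega, ?_⟩
  refine Submodule.eq_of_le_of_finrank_eq hWB ?_
  have : (Module.finrank K W : ℤ) = (Module.finrank K (riemannRochSpace (X - B)) : ℤ) := by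
    omega
  exact_mod_cast this

/-- **Closedness lemma (CL).**  Let `W ≤ L(X)` be a subspace of codimension `d`, with
`deg X ≥ c₀ + d + 1` and `deg E ≥ deg X + c₀`.  If `dim (L(E) * W) ≤ dim L(E + X) - d`, then
`W = L(X - G)` for an effective divisor `G` of degree `d`. -/
theorem eq_rr_of_finrank_mul_le [Infinite K] {c₀ g : ℤ} (hc₀ : 0 ≤ c₀)
    (hfin : ∀ X : Divisor K F, Module.Finite K (riemannRochSpace X))
    (hR : ∀ X : Divisor K F, c₀ ≤ Divisor.degree X →
      (Module.finrank K (riemannRochSpace X) : ℤ) = Divisor.degree X + 1 - g)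
    (hdeg : ∀ v : Place K F, v.deg = 1)
    (hzp : ∀ f : F, f ≠ 0 → {v : Place K F | v.ord f ≠ 0}.Finite)
    (P₀ : Place K F) {X E : Divisor K F} {W : Submodule K F} {d : ℕ}
    (hW : W ≤ riemannRochSpace X)
    (hcodim : Module.finrank K W + d = Module.finrank K (riemannRochSpace X))
    (hX : c₀ + d + 1 ≤ Divisor.degree X) (hE : c₀ + Divisor.degree X ≤ Divisor.degree E)
    (hrk : Module.finrank K (riemannRochSpace E * W : Submodule K F) + d
      ≤ Module.finrank K (riemannRochSpace (E + X))) :
    ∃ G : Divisor K F, 0 ≤ G ∧ Divisor.degree G = d ∧ W = riemannRochSpace (X - G) :=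
  eq_rr_of_le_finrank_of_finrank_mul_le hc₀ hfin hR hdeg hzp P₀ hW (le_of_eq hcodim.symm) hX hE hrk

/-- The converse of (CL): for an effective `G` of degree `d` with `deg X ≥ c₀ + d + 1` and
`deg E ≥ deg X + c₀`, the subspace `W = L(X - G)` satisfies the rank condition, with equality:
`dim (L(E) * L(X - G)) + d = dim L(E + X)`, and `L(E) * L(X - G) = L(E + X - G)`. -/
theorem finrank_mul_rr_sub [Infinite K] {c₀ g : ℤ} (hc₀ : 0 ≤ c₀)
    (hfin : ∀ X : Divisor K F, Module.Finite K (riemannRochSpace X))
    (hR : ∀ X : Divisor K F, c₀ ≤ Divisor.degree X →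
      (Module.finrank K (riemannRochSpace X) : ℤ) = Divisor.degree X + 1 - g)
    (hdeg : ∀ v : Place K F, v.deg = 1)
    (hzp : ∀ f : F, f ≠ 0 → {v : Place K F | v.ord f ≠ 0}.Finite)
    {X E G : Divisor K F} (hX : c₀ + Divisor.degree G + 1 ≤ Divisor.degree X)
    (hE : c₀ + Divisor.degree X ≤ Divisor.degree E) (hG : 0 ≤ G) :
    riemannRochSpace E * riemannRochSpace (X - G) = riemannRochSpace (E + (X - G)) ∧
      (Module.finrank K (riemannRochSpace E * riemannRochSpace (X - G) : Submodule K F) : ℤ)
        + Divisor.degree G = Module.finrank K (riemannRochSpace (E + X)) := by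
  have hβ0 := degree_nonneg_of_nonneg hG
  have hsub : Divisor.degree (X - G) = Divisor.degree X - Divisor.degree G := map_sub _ _ _
  have hmul : riemannRochSpace E * riemannRochSpace (X - G)
      = riemannRochSpace (E + (X - G)) :=
    rr_mul_eq hfin hR hdeg hzp (by omega) (by omega) (by omega)
  refine ⟨hmul, ?_⟩
  rw [hmul]
  have hEXB : Divisor.degree (E + (X - G)) = Divisor.degree E + Divisor.degree (X - G) :=
    map_add _ _ _
  have hEX : Divisor.degree (E + X) = Divisor.degree E + Divisor.degree X := map_add _ _ _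
  have h2 := hR (E + (X - G)) (by omega)
  have h3 := hR (E + X) (by omega)
  omega

/-- Conversely, for an effective `G` with `deg (X - G) ≥ c₀`, the subspace `L(X - G)` of `L(X)`
has codimension `deg G`. -/
theorem finrank_rr_sub_add {c₀ g : ℤ}
    (hR : ∀ X : Divisor K F, c₀ ≤ Divisor.degree X →
      (Module.finrank K (riemannRochSpace X) : ℤ) = Divisor.degree X + 1 - g)
    {X G : Divisor K F} (hG : 0 ≤ G) (hXG : c₀ ≤ Divisor.degree (X - G)) :
    riemannRochSpace (X - G) ≤ riemannRochSpace X ∧
      (Module.finrank K (riemannRochSpace (X - G)) : ℤ) + Divisor.degree G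
        = Module.finrank K (riemannRochSpace X) := by
  have hβ0 := degree_nonneg_of_nonneg hG
  have hsub : Divisor.degree (X - G) = Divisor.degree X - Divisor.degree G := map_sub _ _ _
  refine ⟨rr_mono (sub_le_self X hG), ?_⟩
  have h1 := hR (X - G) hXG
  have h2 := hR X (by omega)
  omega

end BaseDiv

end

end Fermat.Agent.S17.helper2853
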