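import Fermat.Agent.S17.helper2853_Pencil
import Fermat.Agent.S17.helper2853_BaseDiv
import Fermat.Agent.S27.helper3372_Riemann
import Fermat.Agent.S27.helper4996_RiemannData
import Fermat.Agent.S27.helper1423_Tuples

/-!
# S17-PENCIL, instance (helper2853)

The base-point-free pencil trick of `helper2853_Pencil`, unconditionally for a function field
`F` finite over `K(x)`, `K` algebraically closed of characteristic zero, using only landed
bricks (Riemann's theorem of S27, the S24 place library).  Small import closure: it does not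
import the S27 assembly file.

* `stmt_Riemann`          : `helper6247.Stmt_Riemann` (same proof as the S27 assembly).
* `finite_rr`             : `L(X)` is finite dimensional.
* `finite_zeros_poles`    : a nonzero function has finitely many zeros and poles.
* `exists_riemann_bound`  : `∃ c₀ ≥ 0, ∀ X, deg X ≥ c₀ → ℓ(X) = deg X + 1 - g`.
* `exists_pencil_bound`   : `∃ c₀ ≥ 0` with Riemann's equality from `c₀` on, a base-point-free
                            pencil in every `L(D)` with `deg D > c₀`, and
                            `L(E) * L(D) ^ k = L(E + k • D)` for `deg D > c₀`,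
                            `deg E ≥ c₀ + deg D`.
* `exists_mul_bound`      : `∃ c₁ ≥ 0`, `L(D₁) * L(D₂) = L(D₁ + D₂)` for all `D₁, D₂` of degree
                            `≥ c₁` (symmetric range).
* `exists_mul_smul_bound` : `L(m • P₀) * L(n • P₀) = L((m + n) • P₀)` for `m, n ≥ c₁`.
* `exists_closedness_bound` : the closedness lemma (CL) of `helper2853_BaseDiv`.
* `exists_closedness_iff_bound` : (CL) for codimension `≤ d`, as an equivalence
                            "rank condition ↔ `W = L(X - G)`, `G ≥ 0` of degree `d`".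
-/

set_option autoImplicit false

open AlgebraicCurve IntermediateField

namespace Fermat.Agent.S17.helper2853

universe u v

/-- Riemann's theorem (`helper6247.Stmt_Riemann`), unconditionally. -/
theorem stmt_Riemann : Fermat.Agent.S27.helper6247.Stmt_Riemann.{u, v} := by
  apply Fermat.Agent.S27.helper3372.stmt_Riemann_of
  intro K F _ _ _ _ _ x hx _
  have hP : HasPrincipalDivisors K F := Fermat.Agent.S24.helper204.hasPrincipalDivisors x hx
  have hdeg : ∀ v : Place K F, v.deg = 1 :=
    fun v => Fermat.Agent.S24.helper204.place_deg_eq_one x hx v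
  have hres : ∀ v : Place K F, Function.Surjective (algebraMap K v.ResidueField) :=
    fun v => Fermat.Agent.S27.helper3372.residue_surjective_of_finite x v
  have hne : Nonempty (Place K F) := Fermat.Agent.S27.helper3372.nonempty_place_of_finite x hx
  exact Fermat.Agent.S27.helper4996.riemannData_of_finite x hx
    (fun D => Fermat.Agent.S27.helper3372.finite_riemannRochSpace hP hres hdeg hne D)

section Inst

variable {K : Type u} {F : Type v} [Field K] [Field F] [Algebra K F] [IsAlgClosed K] [CharZero K]

/-- `L(X)` is finite dimensional. -/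
theorem finite_rr (x : F) (hx : Transcendental K x) [FiniteDimensional K⟮x⟯ F]
    (X : Divisor K F) : Module.Finite K (riemannRochSpace X) :=
  (Fermat.Agent.S27.helper1423.riemannPkg_of stmt_Riemann K F x hx).finL X

/-- A nonzero function has finitely many zeros and poles. -/
theorem finite_zeros_poles (x : F) (hx : Transcendental K x) [FiniteDimensional K⟮x⟯ F]
    (f : F) (hf : f ≠ 0) : {v : Place K F | v.ord f ≠ 0}.Finite := by
  obtain ⟨D, hD, -⟩ :=
    (Fermat.Agent.S24.helper204.hasPrincipalDivisors x hx).exists_divisor f hf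
  refine D.support.finite_toSet.subset fun P hP => ?_
  rw [Finset.mem_coe, Finsupp.mem_support_iff, hD P]
  exact hP

/-- Riemann's theorem as an equality in large degree, with a nonnegative threshold. -/
theorem exists_riemann_bound (x : F) (hx : Transcendental K x) [FiniteDimensional K⟮x⟯ F] :
    ∃ c₀ : ℤ, 0 ≤ c₀ ∧ ∀ X : Divisor K F, c₀ ≤ Divisor.degree X →
      (Module.finrank K (riemannRochSpace X) : ℤ)
        = Divisor.degree X + 1 - (genusFF K F : ℤ) := by
  have hp := Fermat.Agent.S27.helper1423.riemannPkg_of stmt_Riemann K F x hx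
  obtain ⟨c, hc⟩ := hp.van
  refine ⟨max c 0, le_max_right _ _, fun X hX => ?_⟩
  have := hp.finH X
  have h0 := Fermat.Agent.S27.helper1423.isNonspecial_iff_finrank.mp
    (hc X ((le_max_left _ _).trans hX))
  have h1 := hp.rr X
  rw [h0] at h1
  simpa using h1

/-- **Base-point-free pencil trick, unconditional form.**  There is a threshold `c₀ ≥ 0` such
that Riemann's theorem is an equality from degree `c₀` on, every `L(D)` with `deg D > c₀`
contains a base-point-free pencil, and multiplication `L(E) ⊗ L(D)^{⊗ k} → L(E + k D)` is onto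
for `deg D > c₀`, `deg E ≥ c₀ + deg D`. -/
theorem exists_pencil_bound (x : F) (hx : Transcendental K x) [FiniteDimensional K⟮x⟯ F] :
    ∃ c₀ : ℤ, 0 ≤ c₀ ∧
      (∀ X : Divisor K F, c₀ ≤ Divisor.degree X →
        (Module.finrank K (riemannRochSpace X) : ℤ)
          = Divisor.degree X + 1 - (genusFF K F : ℤ)) ∧
      (∀ D : Divisor K F, c₀ + 1 ≤ Divisor.degree D → ∃ s t : F, IsPencil D s t) ∧
      (∀ D E : Divisor K F, c₀ + 1 ≤ Divisor.degree D →
        c₀ + Divisor.degree D ≤ Divisor.degree E →
        riemannRochSpace E * riemannRochSpace D = riemannRochSpace (E + D)) ∧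
      (∀ D E : Divisor K F, c₀ + 1 ≤ Divisor.degree D →
        c₀ + Divisor.degree D ≤ Divisor.degree E → ∀ k : ℕ,
        riemannRochSpace E * riemannRochSpace D ^ k = riemannRochSpace (E + k • D)) := by
  obtain ⟨c₀, hc0, hR⟩ := exists_riemann_bound (K := K) x hx
  have hfin := finite_rr (K := K) x hx
  have hdeg : ∀ v : Place K F, v.deg = 1 :=
    fun v => Fermat.Agent.S24.helper204.place_deg_eq_one x hx v
  have hzp := finite_zeros_poles (K := K) x hx
  have hinf : Infinite K := inferInstance
  refine ⟨c₀, hc0, hR, fun D hD => exists_isPencil hR hdeg hzp hD, fun D E hD hE => ?_,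
    fun D E hD hE k => ?_⟩
  · exact rr_mul_eq hfin hR hdeg hzp hD (by omega) hE
  · exact rr_mul_pow_eq hfin hR hdeg hzp hD (by omega) hE k

/-- **Symmetric product theorem, unconditional form.**  There is a threshold `c₁ ≥ 0` such that
`L(D₁) * L(D₂) = L(D₁ + D₂)` as soon as both degrees are at least `c₁` (no condition relating
the two degrees; e.g. `D₁ = D₂`). -/
theorem exists_mul_bound (x : F) (hx : Transcendental K x) [FiniteDimensional K⟮x⟯ F] :
    ∃ c₁ : ℤ, 0 ≤ c₁ ∧ ∀ D₁ D₂ : Divisor K F, c₁ ≤ Divisor.degree D₁ →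
      c₁ ≤ Divisor.degree D₂ →
      riemannRochSpace D₁ * riemannRochSpace D₂ = riemannRochSpace (D₁ + D₂) := by
  obtain ⟨c₀, hc0, hR⟩ := exists_riemann_bound (K := K) x hx
  have hfin := finite_rr (K := K) x hx
  have hdeg : ∀ v : Place K F, v.deg = 1 :=
    fun v => Fermat.Agent.S24.helper204.place_deg_eq_one x hx v
  have hzp := finite_zeros_poles (K := K) x hx
  have hinf : Infinite K := inferInstance
  obtain ⟨P₀⟩ : Nonempty (Place K F) :=
    Fermat.Agent.S27.helper3372.nonempty_place_of_finite x hx
  refine ⟨2 * c₀ + 2, by omega, fun D₁ D₂ h₁ h₂ => ?_⟩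
  exact rr_mul_eq_symm hc0 hfin hR hdeg hzp P₀ (by omega) h₂

/-- The graded pieces `A_m = L(m • P₀)` multiply onto each other: `A_m * A_n = A_{m+n}` for
`m, n ≥ c₁`. -/
theorem exists_mul_smul_bound (x : F) (hx : Transcendental K x) [FiniteDimensional K⟮x⟯ F]
    (P₀ : Place K F) :
    ∃ c₁ : ℤ, 0 ≤ c₁ ∧ ∀ m n : ℤ, c₁ ≤ m → c₁ ≤ n →
      riemannRochSpace (m • Fermat.Agent.S27.helper6247.pt P₀)
          * riemannRochSpace (n • Fermat.Agent.S27.helper6247.pt P₀)
        = riemannRochSpace ((m + n) • Fermat.Agent.S27.helper6247.pt P₀) := by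
  obtain ⟨c₁, hc1, h⟩ := exists_mul_bound (K := K) x hx
  have hdeg : ∀ m : ℤ, Divisor.degree (m • Fermat.Agent.S27.helper6247.pt P₀) = m := by
    intro m
    rw [map_zsmul, Fermat.Agent.S27.helper1423.degree_pt P₀
      (Fermat.Agent.S24.helper204.place_deg_eq_one x hx P₀)]
    simp
  refine ⟨c₁, hc1, fun m n hm hn => ?_⟩
  rw [add_smul]
  exact h _ _ (by rw [hdeg]; exact hm) (by rw [hdeg]; exact hn)

/-- **Closedness lemma (CL), unconditional form.**  There is a threshold `c₀ ≥ 0` such that
Riemann's theorem is an equality from degree `c₀` on and: every subspace `W ≤ L(X)` of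
codimension `d`, with `deg X ≥ c₀ + d + 1`, `deg E ≥ deg X + c₀` and
`dim (L(E) * W) ≤ dim L(E + X) - d`, is `L(X - G)` for an effective `G` of degree `d`. -/
theorem exists_closedness_bound (x : F) (hx : Transcendental K x) [FiniteDimensional K⟮x⟯ F] :
    ∃ c₀ : ℤ, 0 ≤ c₀ ∧
      (∀ X : Divisor K F, c₀ ≤ Divisor.degree X →
        (Module.finrank K (riemannRochSpace X) : ℤ)
          = Divisor.degree X + 1 - (genusFF K F : ℤ)) ∧
      ∀ (X E : Divisor K F) (W : Submodule K F) (d : ℕ), W ≤ riemannRochSpace X →
        Module.finrank K W + d = Module.finrank K (riemannRochSpace X) →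
        c₀ + d + 1 ≤ Divisor.degree X → c₀ + Divisor.degree X ≤ Divisor.degree E →
        Module.finrank K (riemannRochSpace E * W : Submodule K F) + d
          ≤ Module.finrank K (riemannRochSpace (E + X)) →
        ∃ G : Divisor K F, 0 ≤ G ∧ Divisor.degree G = d ∧ W = riemannRochSpace (X - G) := by
  obtain ⟨c₀, hc0, hR⟩ := exists_riemann_bound (K := K) x hx
  have hfin := finite_rr (K := K) x hx
  have hdeg : ∀ v : Place K F, v.deg = 1 :=
    fun v => Fermat.Agent.S24.helper204.place_deg_eq_one x hx v
  have hzp := finite_zeros_poles (K := K) x hx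
  have hinf : Infinite K := inferInstance
  obtain ⟨P₀⟩ : Nonempty (Place K F) :=
    Fermat.Agent.S27.helper3372.nonempty_place_of_finite x hx
  exact ⟨c₀, hc0, hR, fun X E W d hW hcodim hX hE hrk =>
    eq_rr_of_finrank_mul_le hc0 hfin hR hdeg hzp P₀ hW hcodim hX hE hrk⟩

/-- **Closedness lemma (CL), unconditional form, codimension `≤ d`**, together with its
converse: with the same threshold `c₀`, a subspace `W ≤ L(X)` with `dim L(X) ≤ dim W + d`
satisfies the rank condition `dim (L(E) * W) + d ≤ dim L(E + X)` if and only if `W = L(X - G)`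
for an effective `G` of degree `d` (`deg X ≥ c₀ + d + 1`, `deg E ≥ deg X + c₀`). -/
theorem exists_closedness_iff_bound (x : F) (hx : Transcendental K x)
    [FiniteDimensional K⟮x⟯ F] :
    ∃ c₀ : ℤ, 0 ≤ c₀ ∧
      (∀ X : Divisor K F, c₀ ≤ Divisor.degree X →
        (Module.finrank K (riemannRochSpace X) : ℤ)
          = Divisor.degree X + 1 - (genusFF K F : ℤ)) ∧
      ∀ (X E : Divisor K F) (W : Submodule K F) (d : ℕ), W ≤ riemannRochSpace X →
        Module.finrank K (riemannRochSpace X) ≤ Module.finrank K W + d →
        c₀ + d + 1 ≤ Divisor.degree X → c₀ + Divisor.degree X ≤ Divisor.degree E →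
        (Module.finrank K (riemannRochSpace E * W : Submodule K F) + d
            ≤ Module.finrank K (riemannRochSpace (E + X)) ↔
          ∃ G : Divisor K F, 0 ≤ G ∧ Divisor.degree G = d ∧ W = riemannRochSpace (X - G)) := by
  obtain ⟨c₀, hc0, hR⟩ := exists_riemann_bound (K := K) x hx
  have hfin := finite_rr (K := K) x hx
  have hdeg : ∀ v : Place K F, v.deg = 1 :=
    fun v => Fermat.Agent.S24.helper204.place_deg_eq_one x hx v
  have hzp := finite_zeros_poles (K := K) x hx
  have hinf : Infinite K := inferInstance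
  obtain ⟨P₀⟩ : Nonempty (Place K F) :=
    Fermat.Agent.S27.helper3372.nonempty_place_of_finite x hx
  refine ⟨c₀, hc0, hR, fun X E W d hW hcodim hX hE => ⟨fun hrk =>
    eq_rr_of_le_finrank_of_finrank_mul_le hc0 hfin hR hdeg hzp P₀ hW hcodim hX hE hrk, ?_⟩⟩
  rintro ⟨G, hG, hGd, rfl⟩
  have h := (finrank_mul_rr_sub hc0 hfin hR hdeg hzp (X := X) (E := E) (G := G)
    (by omega) hE hG).2
  rw [hGd] at h
  exact_mod_cast h.le

end Inst

end Fermat.Agent.S17.helper2853
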