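import Mathlib
import Fermat.Agent.S17.helper2273_OnePointSpec
import Fermat.Agent.S17.helper2853_PencilInst

set_option autoImplicit false

open AlgebraicCurve IntermediateField
open Fermat.Agent.S27.helper6247 (pt)
open Fermat.Agent.S17.helper2273
open Fermat.Agent.S17.helper2853

namespace Fermat.Agent.S17.helper2390

noncomputable section

section Dict

variable {K F : Type*} [Field K] [Field F] [Algebra K F]

/-- The range of the coordinate map of a family is its span. -/
theorem range_lc {n : ℕ} (e : Fin n → F) :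
    LinearMap.range (Fintype.linearCombination K e) = Submodule.span K (Set.range e) :=
  Fintype.range_linearCombination K e

theorem lc_injective {n : ℕ} {e : Fin n → F} (he : LinearIndependent K e) :
    Function.Injective (Fintype.linearCombination K e) :=
  linearIndependent_iff_injective_fintypeLinearCombination.mp he

/-- `coordOf e W` maps onto `W` when `W` lies in the span of `e`. -/
theorem map_coordOf {n : ℕ} (e : Fin n → F) {W : Submodule K F}
    (hW : W ≤ Submodule.span K (Set.range e)) :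
    (coordOf e W).map (Fintype.linearCombination K e) = W := by
  rw [coordOf, Submodule.map_comap_eq, range_lc]
  exact inf_eq_right.mpr hW

/-- `coordOf e` of the image of a coordinate subspace (independent `e`). -/
theorem coordOf_map {n : ℕ} {e : Fin n → F} (he : LinearIndependent K e)
    (U : Submodule K (Fin n → K)) :
    coordOf e (U.map (Fintype.linearCombination K e)) = U :=
  Submodule.comap_map_eq_of_injective (lc_injective he) U

theorem finrank_map_lc {n : ℕ} {e : Fin n → F} (he : LinearIndependent K e)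
    (U : Submodule K (Fin n → K)) :
    Module.finrank K (U.map (Fintype.linearCombination K e)) = Module.finrank K U :=
  (Submodule.equivMapOfInjective _ (lc_injective he) U).finrank_eq.symm

theorem finrank_coordOf {n : ℕ} {e : Fin n → F} (he : LinearIndependent K e)
    {W : Submodule K F} (hW : W ≤ Submodule.span K (Set.range e)) :
    Module.finrank K (coordOf e W) = Module.finrank K W := by
  rw [← finrank_map_lc he, map_coordOf e hW]

theorem coordOf_mono {n : ℕ} (e : Fin n → F) {W W' : Submodule K F} (h : W ≤ W') :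
    coordOf e W ≤ coordOf e W' :=
  Submodule.comap_mono h

theorem coordOf_span_eq_top {n : ℕ} (e : Fin n → F) :
    coordOf e (Submodule.span K (Set.range e)) = ⊤ := by
  rw [coordOf, ← range_lc]
  exact LinearMap.range_le_iff_comap.mp le_rfl

end Dict

section Mul

variable {K F : Type*} [Field K] [Field F] [Algebra K F]

/-- The coordinate map turns `mulμ μ` into the product of `F`. -/
theorem lc_mulμ {n₁ n₂ n₃ : ℕ} {e₁ : Fin n₁ → F} {e₂ : Fin n₂ → F} {e₃ : Fin n₃ → F}
    {μ : Fin n₁ → Fin n₂ → Fin n₃ → ℚ}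
    (hμ : ∀ i j, e₁ i * e₂ j = ∑ t, (μ i j t : K) • e₃ t) (x : Fin n₁ → K) (y : Fin n₂ → K) :
    Fintype.linearCombination K e₃ (mulμ μ x y)
      = Fintype.linearCombination K e₁ x * Fintype.linearCombination K e₂ y := by
  simp only [Fintype.linearCombination_apply, mulμ]
  calc ∑ t, (∑ i, ∑ j, (μ i j t : K) * x i * y j) • e₃ t
      = ∑ t, ∑ i, ∑ j, ((μ i j t : K) * x i * y j) • e₃ t := by
        refine Finset.sum_congr rfl fun t _ => ?_
        rw [Finset.sum_smul]
        refine Finset.sum_congr rfl fun i _ => ?_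
        rw [Finset.sum_smul]
    _ = ∑ i, ∑ j, ∑ t, ((μ i j t : K) * x i * y j) • e₃ t := by
        rw [Finset.sum_comm]
        exact Finset.sum_congr rfl fun i _ => Finset.sum_comm
    _ = (∑ i, x i • e₁ i) * ∑ j, y j • e₂ j := by
        rw [Finset.sum_mul_sum]
        refine Finset.sum_congr rfl fun i _ => Finset.sum_congr rfl fun j _ => ?_
        rw [smul_mul_smul_comm, hμ, Finset.smul_sum]
        refine Finset.sum_congr rfl fun t _ => ?_
        rw [smul_smul]
        congr 1
        ring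

/-- The coordinate map turns `prodSub μ` into the product of subspaces of `F`. -/
theorem map_prodSub {n₁ n₂ n₃ : ℕ} {e₁ : Fin n₁ → F} {e₂ : Fin n₂ → F} {e₃ : Fin n₃ → F}
    {μ : Fin n₁ → Fin n₂ → Fin n₃ → ℚ}
    (hμ : ∀ i j, e₁ i * e₂ j = ∑ t, (μ i j t : K) • e₃ t)
    (U : Submodule K (Fin n₁ → K)) (U' : Submodule K (Fin n₂ → K)) :
    (prodSub μ U U').map (Fintype.linearCombination K e₃)
      = U.map (Fintype.linearCombination K e₁) * U'.map (Fintype.linearCombination K e₂) := by
  rw [prodSub, Submodule.map_span, Set.image_image2, Submodule.mul_eq_span_mul_set]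
  congr 1
  simp only [lc_mulμ hμ]
  rw [Submodule.map_coe, Submodule.map_coe, ← Set.image2_mul, Set.image2_image_left,
    Set.image2_image_right]

/-- **Dictionary for products.** -/
theorem coordOf_mul {n₁ n₂ n₃ : ℕ} {e₁ : Fin n₁ → F} {e₂ : Fin n₂ → F} {e₃ : Fin n₃ → F}
    {μ : Fin n₁ → Fin n₂ → Fin n₃ → ℚ} (he₃ : LinearIndependent K e₃)
    (hμ : ∀ i j, e₁ i * e₂ j = ∑ t, (μ i j t : K) • e₃ t)
    {W W' : Submodule K F} (hW : W ≤ Submodule.span K (Set.range e₁))
    (hW' : W' ≤ Submodule.span K (Set.range e₂)) :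
    coordOf e₃ (W * W') = prodSub μ (coordOf e₁ W) (coordOf e₂ W') := by
  rw [← coordOf_map he₃ (prodSub μ (coordOf e₁ W) (coordOf e₂ W')), map_prodSub hμ,
    map_coordOf e₁ hW, map_coordOf e₂ hW']

theorem finrank_eq_of_isBasisOf {n : ℕ} {e : Fin n → F} {X : Divisor K F}
    (he : IsBasisOf e X) : Module.finrank K (riemannRochSpace X) = n := by
  rw [← he.2, finrank_span_eq_card he.1, Fintype.card_fin]

end Mul

section Main

variable {K F : Type*} [Field K] [Field F] [Algebra K F] [CharZero K]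

/-- **Leaf CURVE, hypothesis-passing form** (vocabulary of `helper2853_Pencil`): Riemann's
theorem as an equality from degree `c₀` on, finite-dimensional Riemann--Roch spaces, places of
degree one, finitely many zeros and poles. -/
theorem curveOnePoint_of {c₀ g : ℤ} (hc₀ : 0 ≤ c₀)
    (hfin : ∀ X : Divisor K F, Module.Finite K (riemannRochSpace X))
    (hR : ∀ X : Divisor K F, c₀ ≤ Divisor.degree X →
      (Module.finrank K (riemannRochSpace X) : ℤ) = Divisor.degree X + 1 - g)
    (hdeg : ∀ v : Place K F, v.deg = 1)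
    (hzp : ∀ f : F, f ≠ 0 → {v : Place K F | v.ord f ≠ 0}.Finite)
    (P₀ : Place K F) : CurveOnePoint K F := by
  have : Infinite K := inferInstance
  refine ⟨(2 * c₀ + 2).toNat, ?_⟩
  intro X₁ X₂ E₁ E₂ hE₁ hE₂ n₁ n₂ n₃ n₄ n₅ n₆ n₇ e₁ e₂ e₃ e₄ e₅ e₆ e₇ μ ν ν' he₁ he₂ he₃ he₄ he₅
    he₆ he₇ hμ hν hν' d d' hd hd' habs
  have hm : ((2 * c₀ + 2).toNat : ℤ) = 2 * c₀ + 2 := Int.toNat_of_nonneg (by omega)
  rw [hm] at hE₁ hE₂ hd hd'
  -- degrees
  have hdegpt : ∀ P : Place K F, Divisor.degree (pt P : Divisor K F) = 1 := fun P =>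
    Fermat.Agent.S27.helper1423.degree_pt P (hdeg P)
  have hd0 : (0 : ℤ) ≤ d := Int.natCast_nonneg d
  have hd'0 : (0 : ℤ) ≤ d' := Int.natCast_nonneg d'
  -- the dimensions `n_i`
  have hn₁ : (n₁ : ℤ) = Divisor.degree X₁ + 1 - g := by
    rw [← finrank_eq_of_isBasisOf he₁]; exact hR X₁ (by omega)
  have hn₂ : (n₂ : ℤ) = Divisor.degree X₂ + 1 - g := by
    rw [← finrank_eq_of_isBasisOf he₂]; exact hR X₂ (by omega)
  have hn₃ : (n₃ : ℤ) = Divisor.degree X₁ + Divisor.degree X₂ + 1 - g := by
    rw [← finrank_eq_of_isBasisOf he₃, hR (X₁ + X₂) (by rw [map_add]; omega), map_add]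
  have hn₅ : (n₅ : ℤ) = Divisor.degree E₁ + Divisor.degree X₁ + 1 - g := by
    rw [← finrank_eq_of_isBasisOf he₅, hR (E₁ + X₁) (by rw [map_add]; omega), map_add]
  have hn₇ : (n₇ : ℤ) = Divisor.degree E₂ + Divisor.degree X₂ + 1 - g := by
    rw [← finrank_eq_of_isBasisOf he₇, hR (E₂ + X₂) (by rw [map_add]; omega), map_add]
  -- images of `prodSub ν ⊤ U`
  have hmapν : ∀ U : Submodule K (Fin n₁ → K),
      (prodSub ν ⊤ U).map (Fintype.linearCombination K e₅)
        = riemannRochSpace E₁ * U.map (Fintype.linearCombination K e₁) := by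
    intro U
    rw [map_prodSub hν, Submodule.map_top, range_lc, he₄.2]
  have hmapν' : ∀ U : Submodule K (Fin n₂ → K),
      (prodSub ν' ⊤ U).map (Fintype.linearCombination K e₇)
        = riemannRochSpace E₂ * U.map (Fintype.linearCombination K e₂) := by
    intro U
    rw [map_prodSub hν', Submodule.map_top, range_lc, he₆.2]
  -- the geometric hypothesis (RKP) of `CoordOnePoint`
  have hRKP : ∀ (U : Submodule K (Fin n₁ → K)) (U' : Submodule K (Fin n₂ → K)),
      n₁ ≤ Module.finrank K U + d → n₂ ≤ Module.finrank K U' + d' →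
      Module.finrank K (prodSub ν ⊤ U) + d ≤ n₅ →
      Module.finrank K (prodSub ν' ⊤ U') + d' ≤ n₇ →
      n₃ ≤ Module.finrank K (prodSub μ U U') + d + d' := by
    intro U U' hU hU' hrk hrk'
    have hWle : U.map (Fintype.linearCombination K e₁) ≤ riemannRochSpace X₁ := by
      rw [← he₁.2, ← range_lc]; exact LinearMap.map_le_range
    have hW'le : U'.map (Fintype.linearCombination K e₂) ≤ riemannRochSpace X₂ := by
      rw [← he₂.2, ← range_lc]; exact LinearMap.map_le_range
    obtain ⟨G₀, hG₀, hG₀d, hWG⟩ := eq_rr_of_le_finrank_of_finrank_mul_le hc₀ hfin hR hdeg hzp P₀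
      (X := X₁) (E := E₁) (d := d) hWle
      (by rw [finrank_map_lc he₁.1, finrank_eq_of_isBasisOf he₁]; exact hU) (by omega) (by omega)
      (by rw [← hmapν, finrank_map_lc he₅.1, finrank_eq_of_isBasisOf he₅]; exact hrk)
    obtain ⟨G₀', hG₀', hG₀'d, hW'G⟩ := eq_rr_of_le_finrank_of_finrank_mul_le hc₀ hfin hR hdeg hzp
      P₀ (X := X₂) (E := E₂) (d := d') hW'le
      (by rw [finrank_map_lc he₂.1, finrank_eq_of_isBasisOf he₂]; exact hU') (by omega)
      (by omega)
      (by rw [← hmapν', finrank_map_lc he₇.1, finrank_eq_of_isBasisOf he₇]; exact hrk')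
    have hprod : U.map (Fintype.linearCombination K e₁) * U'.map (Fintype.linearCombination K e₂)
        = riemannRochSpace (X₁ - G₀ + (X₂ - G₀')) := by
      rw [hWG, hW'G]
      exact rr_mul_eq_symm hc₀ hfin hR hdeg hzp P₀ (by rw [map_sub]; omega)
        (by rw [map_sub]; omega)
    have hfr : Module.finrank K (prodSub μ U U')
        = Module.finrank K (riemannRochSpace (X₁ - G₀ + (X₂ - G₀'))) := by
      rw [← finrank_map_lc he₃.1, map_prodSub hμ, hprod]
    have h1 := hR (X₁ - G₀ + (X₂ - G₀')) (by simp only [map_add, map_sub]; omega)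
    simp only [map_add, map_sub] at h1
    rw [← hfr] at h1
    omega
  obtain ⟨C, hC⟩ := habs hRKP
  refine ⟨C, fun G G' P hG hG' hGd hG'd => ?_⟩
  have hPnn : (0 : Divisor K F) ≤ pt P := pt_nonneg P
  have hGP : (0 : Divisor K F) ≤ G + pt P := add_nonneg hG hPnn
  have hG'P : (0 : Divisor K F) ≤ G' + pt P := add_nonneg hG' hPnn
  have hsp₁ : ∀ D : Divisor K F, 0 ≤ D →
      riemannRochSpace (X₁ - D) ≤ Submodule.span K (Set.range e₁) := fun D hD => by
    rw [he₁.2]; exact rr_mono (sub_le_self X₁ hD)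
  have hsp₂ : ∀ D : Divisor K F, 0 ≤ D →
      riemannRochSpace (X₂ - D) ≤ Submodule.span K (Set.range e₂) := fun D hD => by
    rw [he₂.2]; exact rr_mono (sub_le_self X₂ hD)
  have hsp₃ : ∀ D : Divisor K F, 0 ≤ D →
      riemannRochSpace (X₁ + X₂ - D) ≤ Submodule.span K (Set.range e₃) := fun D hD => by
    rw [he₃.2]; exact rr_mono (sub_le_self (X₁ + X₂) hD)
  -- finranks of the real points
  have hfA : (Module.finrank K (coordOf e₁ (riemannRochSpace (X₁ - G))) : ℤ)
      = Divisor.degree X₁ - d + 1 - g := by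
    rw [finrank_coordOf he₁.1 (hsp₁ G hG), hR (X₁ - G) (by rw [map_sub]; omega), map_sub, hGd]
  have hfB : (Module.finrank K (coordOf e₁ (riemannRochSpace (X₁ - (G + pt P)))) : ℤ)
      = Divisor.degree X₁ - d - 1 + 1 - g := by
    rw [finrank_coordOf he₁.1 (hsp₁ _ hGP),
      hR (X₁ - (G + pt P)) (by rw [map_sub, map_add, hdegpt]; omega), map_sub, map_add, hGd,
      hdegpt]
    ring
  have hfA' : (Module.finrank K (coordOf e₂ (riemannRochSpace (X₂ - G'))) : ℤ)
      = Divisor.degree X₂ - d' + 1 - g := by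
    rw [finrank_coordOf he₂.1 (hsp₂ G' hG'), hR (X₂ - G') (by rw [map_sub]; omega), map_sub,
      hG'd]
  have hfB' : (Module.finrank K (coordOf e₂ (riemannRochSpace (X₂ - (G' + pt P)))) : ℤ)
      = Divisor.degree X₂ - d' - 1 + 1 - g := by
    rw [finrank_coordOf he₂.1 (hsp₂ _ hG'P),
      hR (X₂ - (G' + pt P)) (by rw [map_sub, map_add, hdegpt]; omega), map_sub, map_add, hG'd,
      hdegpt]
    ring
  have hGG' : (0 : Divisor K F) ≤ G + G' := add_nonneg hG hG'
  have hGG'P : (0 : Divisor K F) ≤ G + G' + pt P := add_nonneg hGG' hPnn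
  have hfA'' : (Module.finrank K (coordOf e₃ (riemannRochSpace (X₁ + X₂ - (G + G')))) : ℤ)
      = Divisor.degree X₁ + Divisor.degree X₂ - d - d' + 1 - g := by
    rw [finrank_coordOf he₃.1 (hsp₃ _ hGG'),
      hR (X₁ + X₂ - (G + G')) (by simp only [map_sub, map_add]; omega)]
    simp only [map_sub, map_add, hGd, hG'd]
    ring
  have hfB'' : (Module.finrank K (coordOf e₃ (riemannRochSpace (X₁ + X₂ - (G + G' + pt P)))) : ℤ)
      = Divisor.degree X₁ + Divisor.degree X₂ - d - d' - 1 + 1 - g := by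
    rw [finrank_coordOf he₃.1 (hsp₃ _ hGG'P),
      hR (X₁ + X₂ - (G + G' + pt P)) (by simp only [map_sub, map_add, hdegpt]; omega)]
    simp only [map_sub, map_add, hGd, hG'd, hdegpt]
    ring
  -- the product `A * A'`
  have hAA' : prodSub μ (coordOf e₁ (riemannRochSpace (X₁ - G)))
      (coordOf e₂ (riemannRochSpace (X₂ - G')))
      = coordOf e₃ (riemannRochSpace (X₁ + X₂ - (G + G'))) := by
    rw [← coordOf_mul he₃.1 hμ (hsp₁ G hG) (hsp₂ G' hG'),
      rr_mul_eq_symm hc₀ hfin hR hdeg hzp P₀ (D₁ := X₁ - G) (D₂ := X₂ - G')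
        (by rw [map_sub]; omega) (by rw [map_sub]; omega)]
    congr 2
    abel
  -- the rank conditions at the real points
  have hrkA : Module.finrank K (prodSub ν ⊤ (coordOf e₁ (riemannRochSpace (X₁ - G)))) + d
      ≤ n₅ := by
    have h := (finrank_mul_rr_sub hc₀ hfin hR hdeg hzp (X := X₁) (E := E₁) (G := G)
      (by omega) (by omega) hG).2
    rw [← finrank_map_lc he₅.1, hmapν, map_coordOf e₁ (hsp₁ G hG)]
    rw [hGd, finrank_eq_of_isBasisOf he₅] at h
    exact_mod_cast h.le
  have hrkA' : Module.finrank K (prodSub ν' ⊤ (coordOf e₂ (riemannRochSpace (X₂ - G')))) + d'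
      ≤ n₇ := by
    have h := (finrank_mul_rr_sub hc₀ hfin hR hdeg hzp (X := X₂) (E := E₂) (G := G')
      (by omega) (by omega) hG').2
    rw [← finrank_map_lc he₇.1, hmapν', map_coordOf e₂ (hsp₂ G' hG')]
    rw [hG'd, finrank_eq_of_isBasisOf he₇] at h
    exact_mod_cast h.le
  -- the two inclusions `B * A' ≤ B''`, `A * B' ≤ B''`
  have hBA' : prodSub μ (coordOf e₁ (riemannRochSpace (X₁ - (G + pt P))))
      (coordOf e₂ (riemannRochSpace (X₂ - G')))
      ≤ coordOf e₃ (riemannRochSpace (X₁ + X₂ - (G + G' + pt P))) := by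
    rw [← coordOf_mul he₃.1 hμ (hsp₁ _ hGP) (hsp₂ G' hG')]
    refine coordOf_mono e₃ ?_
    rw [Submodule.mul_le]
    intro a ha b hb
    have := mul_mem_rr ha hb
    have e : X₁ - (G + pt P) + (X₂ - G') = X₁ + X₂ - (G + G' + pt P) := by abel
    rwa [e] at this
  have hAB' : prodSub μ (coordOf e₁ (riemannRochSpace (X₁ - G)))
      (coordOf e₂ (riemannRochSpace (X₂ - (G' + pt P))))
      ≤ coordOf e₃ (riemannRochSpace (X₁ + X₂ - (G + G' + pt P))) := by
    rw [← coordOf_mul he₃.1 hμ (hsp₁ G hG) (hsp₂ _ hG'P)]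
    refine coordOf_mono e₃ ?_
    rw [Submodule.mul_le]
    intro a ha b hb
    have := mul_mem_rr ha hb
    have e : X₁ - G + (X₂ - (G' + pt P)) = X₁ + X₂ - (G + G' + pt P) := by abel
    rwa [e] at this
  have key := hC (coordOf e₁ (riemannRochSpace (X₁ - G)))
    (coordOf e₁ (riemannRochSpace (X₁ - (G + pt P))))
    (coordOf e₂ (riemannRochSpace (X₂ - G')))
    (coordOf e₂ (riemannRochSpace (X₂ - (G' + pt P))))
    (coordOf e₃ (riemannRochSpace (X₁ + X₂ - (G + G' + pt P))))
    (by omega) (by omega) hrkA hrkA' (by rw [hAA']; omega)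
    (coordOf_mono e₁ (rr_mono (sub_le_sub_left (le_add_of_nonneg_right hPnn) X₁))) (by omega)
    (coordOf_mono e₂ (rr_mono (sub_le_sub_left (le_add_of_nonneg_right hPnn) X₂))) (by omega)
    (by rw [hAA']
        exact coordOf_mono e₃ (rr_mono (sub_le_sub_left (le_add_of_nonneg_right hPnn) _)))
    (by rw [hAA']; omega) hBA' hAB'
  rw [hAA'] at key
  exact key

end Main

section Inst

universe u v

variable {K : Type u} {F : Type v} [Field K] [Field F] [Algebra K F] [IsAlgClosed K] [CharZero K]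

/-- **Leaf CURVE** for a function field `F` finite over `K(x)`, `K` algebraically closed of
characteristic zero. -/
theorem curveOnePoint (x : F) (hx : Transcendental K x) [FiniteDimensional K⟮x⟯ F] :
    CurveOnePoint K F := by
  obtain ⟨c₀, hc0, hR⟩ := exists_riemann_bound (K := K) x hx
  obtain ⟨P₀⟩ : Nonempty (Place K F) :=
    Fermat.Agent.S27.helper3372.nonempty_place_of_finite x hx
  exact curveOnePoint_of hc0 (finite_rr (K := K) x hx) hR
    (fun v => Fermat.Agent.S24.helper204.place_deg_eq_one x hx v)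
    (finite_zeros_poles (K := K) x hx) P₀

end Inst

end

end Fermat.Agent.S17.helper2390
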