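/-
S17 (Mordell–Weil for `JZero N`) — helper1935: SEMILINEAR GALOIS DESCENT and the `ℚ`-structure of
Galois-stable finite-dimensional subspaces of the modular function field (board row S17-QDESC).

Part (A), Mathlib only.  `K ⊆ L` a Galois extension (possibly infinite), `V` an `L`-vector space
with a semilinear action `ρ` of `Gal(L/K)` (`IsSemilinearAction ρ`) such that every vector has an
open stabiliser (it is fixed by the fixing subgroup of a finite subextension).  Then
* `span_fixed_eq_top`             : the fixed vectors span `V` over `L` (Speiser);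
* `linearIndependent_of_fixed`    : `K`-independent fixed vectors are `L`-independent;
* `exists_fixed_basis`            : a stable finite-dimensional subspace has an `L`-basis of
                                    fixed vectors;
* `fixed_mem_span_of_fixed_basis` : fixed vectors are `K`-combinations of a fixed basis;
* `exists_rational_basis`         : coordinate form: a subspace of `ι → L` stable under the
                                    coordinatewise action has a basis in `ι → K`, and its
                                    `K`-points are the `K`-span of that basis.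

Part (B), on the frozen carriers (`laurentBaseChange`, `coeffMap`, `coeffEmb`,
`arithmeticRingAut`), for any Galois `L/ℚ` and any `F₀`:
* `exists_finite_level`           : every element of `laurentBaseChange L F₀` has an open
                                    stabiliser;
* `fixed_iff_exists_coeffEmb`     : the Galois-fixed elements are exactly `coeffEmb '' F₀`
                                    (linear disjointness of `L` and `ℚ((q))`);
* `exists_rational_function_basis`: a Galois-stable finite-dimensional `L`-subspace `W` has an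
                                    `L`-basis of rational functions, which is a `ℚ`-basis of the
                                    rational functions lying in `W`;
* `ratForm`, `finrank_ratForm`    : the `ℚ`-form of `W` and `dim_ℚ = dim_L`;
* `exists_rational_function_basis_modular` : the instance for `modularFunctionFieldBar N`.
-/
import Mathlib
import Fermat.Prelude.Def_ModularCurve_ArithmeticGalois

set_option autoImplicit false

namespace Fermat.Agent.S17.helper1935

open scoped BigOperators

section Abstract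

variable {K L : Type*} [Field K] [Field L] [Algebra K L]
variable {V : Type*} [AddCommGroup V] [Module L V]

/-- A semilinear action of `Gal(L/K)` on the `L`-vector space `V` (unbundled). -/
structure IsSemilinearAction (ρ : (L ≃ₐ[K] L) → V → V) : Prop where
  one : ∀ v, ρ 1 v = v
  mul : ∀ σ τ v, ρ (σ * τ) v = ρ σ (ρ τ v)
  add : ∀ σ v w, ρ σ (v + w) = ρ σ v + ρ σ w
  smul : ∀ σ (a : L) v, ρ σ (a • v) = σ a • ρ σ v

namespace IsSemilinearAction

variable {ρ : (L ≃ₐ[K] L) → V → V}

theorem zero (hρ : IsSemilinearAction ρ) (σ : L ≃ₐ[K] L) : ρ σ 0 = 0 := by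
  have h := hρ.add σ 0 0
  rw [add_zero] at h
  have h2 : ρ σ 0 + 0 = ρ σ 0 + ρ σ 0 := by rw [add_zero]; exact h
  exact (add_left_cancel h2).symm

/-- `ρ σ` as an additive monoid homomorphism. -/
def toAddMonoidHom (hρ : IsSemilinearAction ρ) (σ : L ≃ₐ[K] L) : V →+ V where
  toFun := ρ σ
  map_zero' := hρ.zero σ
  map_add' := hρ.add σ

@[simp] theorem toAddMonoidHom_apply (hρ : IsSemilinearAction ρ) (σ : L ≃ₐ[K] L) (v : V) :
    hρ.toAddMonoidHom σ v = ρ σ v := rfl

theorem sum (hρ : IsSemilinearAction ρ) (σ : L ≃ₐ[K] L) {ι : Type*} (s : Finset ι)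
    (f : ι → V) : ρ σ (∑ i ∈ s, f i) = ∑ i ∈ s, ρ σ (f i) :=
  map_sum (hρ.toAddMonoidHom σ) f s

theorem neg (hρ : IsSemilinearAction ρ) (σ : L ≃ₐ[K] L) (v : V) : ρ σ (-v) = -ρ σ v :=
  map_neg (hρ.toAddMonoidHom σ) v

theorem sub (hρ : IsSemilinearAction ρ) (σ : L ≃ₐ[K] L) (v w : V) :
    ρ σ (v - w) = ρ σ v - ρ σ w :=
  map_sub (hρ.toAddMonoidHom σ) v w

end IsSemilinearAction

/-- Every `K`-embedding of an intermediate field into `L` extends to an automorphism
(`L/K` normal). -/
theorem exists_algEquiv_extending [Normal K L] (M : IntermediateField K L) (τ : M →ₐ[K] L) :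
    ∃ g : L ≃ₐ[K] L, ∀ x : M, g x = τ x := by
  refine ⟨AlgEquiv.ofBijective (τ.liftNormal L) (AlgHom.normal_bijective K L L _), fun x => ?_⟩
  have h := τ.liftNormal_commutes L x
  simpa using h

/-- **Speiser's lemma / Galois descent** for a possibly infinite Galois extension: if every
vector has an open stabiliser, the fixed vectors span. -/
theorem span_fixed_eq_top [IsGalois K L] {ρ : (L ≃ₐ[K] L) → V → V} (hρ : IsSemilinearAction ρ)
    (hopen : ∀ v : V, ∃ M : IntermediateField K L, FiniteDimensional K M ∧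
      ∀ σ ∈ M.fixingSubgroup, ρ σ v = v) :
    Submodule.span L {v : V | ∀ σ, ρ σ v = v} = ⊤ := by
  classical
  rw [eq_top_iff]
  rintro v -
  obtain ⟨M, hMfin, hMv⟩ := hopen v
  -- lifts of the embeddings of `M`
  choose lift hlift using exists_algEquiv_extending (K := K) (L := L) M
  -- the translate of `v` only depends on the restriction to `M`
  have hkey : ∀ (g : L ≃ₐ[K] L) (τ : M →ₐ[K] L), (∀ x : M, g x = τ x) →
      ρ g v = ρ (lift τ) v := by
    intro g τ hg
    have hmem : (lift τ)⁻¹ * g ∈ M.fixingSubgroup := by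
      rw [IntermediateField.mem_fixingSubgroup_iff]
      intro x hx
      have h1 : g x = lift τ x := by
        rw [hg ⟨x, hx⟩, hlift τ ⟨x, hx⟩]
      rw [AlgEquiv.mul_apply, h1]
      exact (lift τ).symm_apply_apply x
    have h2 := hMv _ hmem
    calc ρ g v = ρ (lift τ * ((lift τ)⁻¹ * g)) v := by rw [mul_inv_cancel_left]
      _ = ρ (lift τ) (ρ ((lift τ)⁻¹ * g) v) := hρ.mul _ _ _
      _ = ρ (lift τ) v := by rw [h2]
  -- the traces
  let t : M → V := fun a => ∑ τ : M →ₐ[K] L, (τ a) • ρ (lift τ) v
  have ht : ∀ (a : M) (σ : L ≃ₐ[K] L), ρ σ (t a) = t a := by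
    intro a σ
    show ρ σ (∑ τ : M →ₐ[K] L, (τ a) • ρ (lift τ) v) = ∑ τ : M →ₐ[K] L, (τ a) • ρ (lift τ) v
    rw [hρ.sum]
    -- reindex by `τ ↦ σ ∘ τ`
    let e : (M →ₐ[K] L) ≃ (M →ₐ[K] L) :=
      { toFun := fun τ => (σ : L →ₐ[K] L).comp τ
        invFun := fun τ => ((σ⁻¹ : L ≃ₐ[K] L) : L →ₐ[K] L).comp τ
        left_inv := fun τ => by
          ext x
          simp
        right_inv := fun τ => by
          ext x
          simp }
    refine Fintype.sum_equiv e _ _ (fun τ => ?_)
    rw [hρ.smul, ← hρ.mul]
    have h3 : ρ (σ * lift τ) v = ρ (lift (e τ)) v := by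
      refine hkey (σ * lift τ) (e τ) (fun x => ?_)
      show σ (lift τ x) = σ (τ x)
      rw [hlift τ x]
    rw [h3]
    rfl
  -- Dedekind independence: the vectors `(τ a)_τ` span `L^ι`
  have hspan : Submodule.span L (Set.range fun a : M => (fun τ : M →ₐ[K] L => τ a)) = ⊤ := by
    by_contra hne
    obtain ⟨f, hf0, hf⟩ := Submodule.exists_le_ker_of_lt_top _ (lt_top_iff_ne_top.mpr hne)
    have hzero : ∑ τ : M →ₐ[K] L, f (Pi.single τ 1) • (τ.toLinearMap : M →ₗ[K] L) = 0 := by
      ext a
      have ha : (fun τ : M →ₐ[K] L => τ a) ∈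
          Submodule.span L (Set.range fun a : M => (fun τ : M →ₐ[K] L => τ a)) :=
        Submodule.subset_span ⟨a, rfl⟩
      have h4 : f (fun τ : M →ₐ[K] L => τ a) = 0 := hf ha
      have h5 : (fun τ : M →ₐ[K] L => τ a) =
          ∑ τ : M →ₐ[K] L, (τ a) • (Pi.single τ (1 : L) : (M →ₐ[K] L) → L) := by
        ext τ'
        simp [Finset.sum_apply, Pi.single_apply]
      rw [h5, map_sum] at h4
      simp only [map_smul, smul_eq_mul] at h4
      simp only [LinearMap.coe_sum, Finset.sum_apply, LinearMap.smul_apply,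
        AlgHom.toLinearMap_apply, smul_eq_mul, LinearMap.zero_apply]
      rw [← h4]
      exact Finset.sum_congr rfl (fun τ _ => mul_comm _ _)
    have hli := linearIndependent_toLinearMap K M L
    have hall := Fintype.linearIndependent_iff.mp hli (fun τ => f (Pi.single τ 1)) hzero
    apply hf0
    apply LinearMap.ext
    intro x
    have hx : x = ∑ τ : M →ₐ[K] L, (x τ) • (Pi.single τ (1 : L) : (M →ₐ[K] L) → L) := by
      ext τ'
      simp [Finset.sum_apply, Pi.single_apply]
    rw [hx, map_sum]
    simp [hall]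
  -- write the indicator of the inclusion as a combination
  have hmem : (Pi.single (M.val : M →ₐ[K] L) (1 : L) : (M →ₐ[K] L) → L) ∈
      Submodule.span L (Set.range fun a : M => (fun τ : M →ₐ[K] L => τ a)) := by
    rw [hspan]; trivial
  obtain ⟨c, hc⟩ := (Finsupp.mem_span_range_iff_exists_finsupp).mp hmem
  -- `v` is the corresponding combination of traces
  have hv : v = ∑ a ∈ c.support, c a • t a := by
    have h6 : ∀ τ : M →ₐ[K] L, (∑ a ∈ c.support, c a * τ a) =
        (Pi.single (M.val : M →ₐ[K] L) (1 : L) : (M →ₐ[K] L) → L) τ := by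
      intro τ
      have := congrFun hc τ
      rw [← this, Finsupp.sum, Finset.sum_apply]
      rfl
    have h7 : ∑ a ∈ c.support, c a • t a =
        ∑ τ : M →ₐ[K] L, (∑ a ∈ c.support, c a * τ a) • ρ (lift τ) v := by
      show ∑ a ∈ c.support, c a • (∑ τ : M →ₐ[K] L, (τ a) • ρ (lift τ) v) = _
      simp_rw [Finset.smul_sum, smul_smul]
      rw [Finset.sum_comm]
      refine Finset.sum_congr rfl (fun τ _ => ?_)
      rw [Finset.sum_smul]
    rw [h7]
    simp_rw [h6]
    rw [Finset.sum_eq_single (M.val : M →ₐ[K] L)]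
    · rw [Pi.single_eq_same, one_smul]
      have h8 : ρ (1 : L ≃ₐ[K] L) v = ρ (lift M.val) v :=
        hkey 1 M.val (fun x => rfl)
      rw [← h8, hρ.one]
    · intro τ _ hτ
      rw [Pi.single_eq_of_ne hτ, zero_smul]
    · intro h
      exact absurd (Finset.mem_univ _) h
  rw [hv]
  refine Submodule.sum_mem _ (fun a _ => Submodule.smul_mem _ _ (Submodule.subset_span ?_))
  exact fun σ => ht a σ

/-- `K`-linearly independent fixed vectors are `L`-linearly independent (only the fact that the
fixed field of `Gal(L/K)` is `K` is used). -/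
theorem linearIndependent_of_fixed [IsGalois K L] [Module K V] [IsScalarTower K L V]
    {ρ : (L ≃ₐ[K] L) → V → V} (hρ : IsSemilinearAction ρ) {ι : Type*} (b : ι → V)
    (hfix : ∀ i σ, ρ σ (b i) = b i) (hb : LinearIndependent K b) : LinearIndependent L b := by
  classical
  rw [linearIndependent_iff']
  -- strong induction on the size of the support
  suffices H : ∀ (n : ℕ) (s : Finset ι), s.card = n → ∀ g : ι → L,
      ∑ i ∈ s, g i • b i = 0 → ∀ i ∈ s, g i = 0 from fun s g hg i hi => H s.card s rfl g hg i hi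
  intro n
  induction n using Nat.strong_induction_on with
  | _ n ih =>
    intro s hs g hg
    by_contra hcon
    push Not at hcon
    obtain ⟨i₀, hi₀, hgi₀⟩ := hcon
    -- normalise
    set g' : ι → L := fun i => (g i₀)⁻¹ * g i with hg'
    have hg'0 : ∑ i ∈ s, g' i • b i = 0 := by
      have : ∑ i ∈ s, g' i • b i = (g i₀)⁻¹ • ∑ i ∈ s, g i • b i := by
        rw [Finset.smul_sum]
        exact Finset.sum_congr rfl (fun i _ => by rw [hg', smul_smul])
      rw [this, hg, smul_zero]
    have hg'i₀ : g' i₀ = 1 := by rw [hg']; exact inv_mul_cancel₀ hgi₀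
    -- all normalised coefficients are fixed
    have hfixed : ∀ (σ : L ≃ₐ[K] L), ∀ i ∈ s, σ (g' i) = g' i := by
      intro σ
      have h1 : ∑ i ∈ s, (σ (g' i)) • b i = 0 := by
        have h := congrArg (ρ σ) hg'0
        rw [hρ.sum, hρ.zero] at h
        rw [← h]
        exact Finset.sum_congr rfl (fun i _ => by rw [hρ.smul, hfix])
      have h2 : ∑ i ∈ s.erase i₀, (σ (g' i) - g' i) • b i = 0 := by
        have h3 : ∑ i ∈ s, (σ (g' i) - g' i) • b i = 0 := by
          simp_rw [sub_smul]
          rw [Finset.sum_sub_distrib, h1, hg'0, sub_zero]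
        rw [← Finset.add_sum_erase s _ hi₀] at h3
        rw [hg'i₀, map_one, sub_self, zero_smul, zero_add] at h3
        exact h3
      have hcard : (s.erase i₀).card < n := by
        rw [Finset.card_erase_of_mem hi₀, hs]
        have : 0 < s.card := Finset.card_pos.mpr ⟨i₀, hi₀⟩
        omega
      have h4 := ih _ hcard (s.erase i₀) rfl (fun i => σ (g' i) - g' i) h2
      intro i hi
      by_cases hii : i = i₀
      · rw [hii, hg'i₀, map_one]
      · exact sub_eq_zero.mp (h4 i (Finset.mem_erase.mpr ⟨hii, hi⟩))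
    -- hence they lie in `K`
    have hK : ∀ i ∈ s, ∃ k : K, algebraMap K L k = g' i := by
      intro i hi
      exact (InfiniteGalois.mem_range_algebraMap_iff_fixed (k := K) (K := L) (g' i)).mpr
        (fun σ => hfixed σ i hi)
    choose! k hk using hK
    have hk0 : ∑ i ∈ s, k i • b i = 0 := by
      rw [← hg'0]
      refine Finset.sum_congr rfl (fun i hi => ?_)
      rw [← hk i hi, algebraMap_smul]
    have hkz := (linearIndependent_iff'.mp hb) s k hk0 i₀ hi₀
    have : g' i₀ = 0 := by rw [← hk i₀ hi₀, hkz, map_zero]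
    rw [hg'i₀] at this
    exact one_ne_zero this

/-- A stable finite-dimensional subspace has an `L`-basis of fixed vectors. -/
theorem exists_fixed_basis [IsGalois K L] {ρ : (L ≃ₐ[K] L) → V → V} (hρ : IsSemilinearAction ρ)
    (W : Submodule L V) [FiniteDimensional L W] (hW : ∀ σ, ∀ w ∈ W, ρ σ w ∈ W)
    (hopen : ∀ w ∈ W, ∃ M : IntermediateField K L, FiniteDimensional K M ∧
      ∀ σ ∈ M.fixingSubgroup, ρ σ w = w) :
    ∃ b : Fin (Module.finrank L W) → V, (∀ i, b i ∈ W) ∧ (∀ i σ, ρ σ (b i) = b i) ∧
      LinearIndependent L b ∧ Submodule.span L (Set.range b) = W := by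
  classical
  -- the restricted action
  let ρW : (L ≃ₐ[K] L) → W → W := fun σ w => ⟨ρ σ w, hW σ w w.2⟩
  have hρW : IsSemilinearAction ρW :=
    { one := fun w => Subtype.ext (hρ.one w)
      mul := fun σ τ w => Subtype.ext (hρ.mul σ τ w)
      add := fun σ v w => Subtype.ext (hρ.add σ v w)
      smul := fun σ a w => Subtype.ext (hρ.smul σ a w) }
  have hopenW : ∀ w : W, ∃ M : IntermediateField K L, FiniteDimensional K M ∧
      ∀ σ ∈ M.fixingSubgroup, ρW σ w = w := by
    intro w
    obtain ⟨M, hM, hMw⟩ := hopen w w.2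
    exact ⟨M, hM, fun σ hσ => Subtype.ext (hMw σ hσ)⟩
  have hspan := span_fixed_eq_top hρW hopenW
  obtain ⟨B, hBsub, hBspan, hBli⟩ := exists_linearIndependent L {w : W | ∀ σ, ρW σ w = w}
  rw [hspan] at hBspan
  -- `B` is a basis of `W`
  let bas : Module.Basis B L W := Module.Basis.mk hBli (by rw [Subtype.range_coe, hBspan])
  have hfin : Finite B := Module.Finite.finite_basis bas
  have : Fintype B := Fintype.ofFinite B
  have hcard : Fintype.card B = Module.finrank L W := (Module.finrank_eq_card_basis bas).symm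
  let e : Fin (Module.finrank L W) ≃ B := (Fintype.equivFinOfCardEq hcard).symm
  refine ⟨fun i => ((e i : B) : W), fun i => ((e i : B) : W).2, fun i σ => ?_, ?_, ?_⟩
  · have := hBsub (e i).2 σ
    exact congrArg Subtype.val this
  · have h1 : LinearIndependent L (fun i => ((e i : B) : W)) :=
      hBli.comp e e.injective
    exact h1.map' W.subtype (Submodule.ker_subtype W)
  · have h2 : Set.range (fun i => (((e i : B) : W) : V)) = W.subtype '' (B : Set W) := by
      ext x
      constructor
      · rintro ⟨i, rfl⟩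
        exact ⟨(e i : B), (e i).2, rfl⟩
      · rintro ⟨w, hw, rfl⟩
        exact ⟨e.symm ⟨w, hw⟩, by simp⟩
    rw [h2, Submodule.span_image, hBspan, Submodule.map_top, Submodule.range_subtype]

/-- In the situation of `exists_fixed_basis`, the fixed vectors of `W` are exactly the
`K`-combinations of a fixed basis. -/
theorem fixed_mem_span_of_fixed_basis [IsGalois K L] {ρ : (L ≃ₐ[K] L) → V → V}
    (hρ : IsSemilinearAction ρ) {n : ℕ} (b : Fin n → V) (hfix : ∀ i σ, ρ σ (b i) = b i)
    (hli : LinearIndependent L b) (w : V) (hw : w ∈ Submodule.span L (Set.range b))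
    (hwfix : ∀ σ, ρ σ w = w) :
    ∃ c : Fin n → K, w = ∑ i, algebraMap K L (c i) • b i := by
  classical
  obtain ⟨c, hc⟩ := (Submodule.mem_span_range_iff_exists_fun L).mp hw
  have hfixed : ∀ (σ : L ≃ₐ[K] L) (i : Fin n), σ (c i) = c i := by
    intro σ
    have h1 : ∑ i, (σ (c i)) • b i = w := by
      have h := congrArg (ρ σ) hc
      rw [hρ.sum, hwfix] at h
      rw [← h]
      exact Finset.sum_congr rfl (fun i _ => by rw [hρ.smul, hfix])
    have h2 : ∑ i, (σ (c i) - c i) • b i = 0 := by
      simp_rw [sub_smul]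
      rw [Finset.sum_sub_distrib, h1, hc, sub_self]
    intro i
    exact sub_eq_zero.mp (Fintype.linearIndependent_iff.mp hli _ h2 i)
  have hK : ∀ i, ∃ k : K, algebraMap K L k = c i := fun i =>
    (InfiniteGalois.mem_range_algebraMap_iff_fixed (k := K) (K := L) (c i)).mpr
      (fun σ => hfixed σ i)
  choose k hk using hK
  exact ⟨k, by rw [← hc]; exact Finset.sum_congr rfl (fun i _ => by rw [hk])⟩

end Abstract

/-! ### Coordinate form -/

section Coordinates

variable {K L : Type*} [Field K] [Field L] [Algebra K L] {ι : Type*}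

/-- The coordinatewise action of `Gal(L/K)` on `ι → L`. -/
def coordAction (σ : L ≃ₐ[K] L) (w : ι → L) : ι → L := fun i => σ (w i)

theorem coordAction_isSemilinearAction :
    IsSemilinearAction (coordAction : (L ≃ₐ[K] L) → (ι → L) → (ι → L)) where
  one := fun _ => rfl
  mul := fun _ _ _ => rfl
  add := fun σ v w => funext fun i => map_add σ (v i) (w i)
  smul := fun σ a v => funext fun i => map_mul σ a (v i)

theorem coordAction_open [Algebra.IsAlgebraic K L] [Finite ι] (w : ι → L) :
    ∃ M : IntermediateField K L, FiniteDimensional K M ∧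
      ∀ σ ∈ M.fixingSubgroup, coordAction σ w = w := by
  have : Finite (Set.range w) := Set.finite_range w
  refine ⟨IntermediateField.adjoin K (Set.range w),
    IntermediateField.finiteDimensional_adjoin (fun x _ => Algebra.IsIntegral.isIntegral x), ?_⟩
  intro σ hσ
  funext i
  exact (IntermediateField.mem_fixingSubgroup_iff _ _).mp hσ (w i)
    (IntermediateField.subset_adjoin K _ ⟨i, rfl⟩)

/-- **Galois descent for subspaces of `L^ι`.** A subspace `W ≤ ι → L` stable under the
coordinatewise Galois action has a basis with coordinates in `K`; its `K`-points are the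
`K`-span of that basis (so `dim_K W(K) = dim_L W`). -/
theorem exists_rational_basis [IsGalois K L] [Finite ι] (W : Submodule L (ι → L))
    (hW : ∀ σ : L ≃ₐ[K] L, ∀ w ∈ W, (fun i => σ (w i)) ∈ W) :
    ∃ b : Fin (Module.finrank L W) → (ι → K),
      LinearIndependent K b ∧
      LinearIndependent L (fun j => fun i => algebraMap K L (b j i)) ∧
      Submodule.span L (Set.range (fun j => fun i => algebraMap K L (b j i))) = W ∧
      ∀ u : ι → K, (fun i => algebraMap K L (u i)) ∈ W ↔ u ∈ Submodule.span K (Set.range b) := by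
  classical
  have hρ := coordAction_isSemilinearAction (K := K) (L := L) (ι := ι)
  obtain ⟨b', hb'W, hb'fix, hb'li, hb'span⟩ :=
    exists_fixed_basis hρ W hW (fun w _ => coordAction_open w)
  have hK : ∀ j i, ∃ k : K, algebraMap K L k = b' j i := fun j i =>
    (InfiniteGalois.mem_range_algebraMap_iff_fixed (k := K) (K := L) (b' j i)).mpr
      (fun σ => congrFun (hb'fix j σ) i)
  choose b hb using hK
  have hbb' : (fun j => fun i => algebraMap K L (b j i)) = b' := by
    funext j i
    exact hb j i
  have hinj : Function.Injective (algebraMap K L) := (algebraMap K L).injective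
  refine ⟨b, ?_, ?_, ?_, ?_⟩
  · rw [Fintype.linearIndependent_iff]
    intro g hg j
    have h1 : ∑ j, algebraMap K L (g j) • b' j = 0 := by
      funext i
      have h2 := congrFun hg i
      simp only [Finset.sum_apply, Pi.smul_apply, smul_eq_mul, Pi.zero_apply] at h2 ⊢
      have h3 := congrArg (algebraMap K L) h2
      rw [map_sum, map_zero] at h3
      rw [← h3]
      exact Finset.sum_congr rfl (fun j _ => by rw [map_mul, hb])
    have h4 := Fintype.linearIndependent_iff.mp hb'li _ h1 j
    exact hinj (by rw [h4, map_zero])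
  · rw [hbb']; exact hb'li
  · rw [hbb']; exact hb'span
  · intro u
    constructor
    · intro hu
      have hufix : ∀ σ : L ≃ₐ[K] L, coordAction σ (fun i => algebraMap K L (u i)) =
          fun i => algebraMap K L (u i) := fun σ => funext fun i => σ.commutes (u i)
      obtain ⟨c, hc⟩ := fixed_mem_span_of_fixed_basis hρ b' hb'fix hb'li _
        (by rw [hb'span]; exact hu) hufix
      rw [Submodule.mem_span_range_iff_exists_fun]
      refine ⟨c, ?_⟩
      funext i
      apply hinj
      have h5 := congrFun hc i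
      simp only [Finset.sum_apply, Pi.smul_apply, smul_eq_mul] at h5 ⊢
      rw [map_sum, h5]
      exact Finset.sum_congr rfl (fun j _ => by rw [map_mul, hb])
    · intro hu
      obtain ⟨c, hc⟩ := (Submodule.mem_span_range_iff_exists_fun K).mp hu
      have h6 : (fun i => algebraMap K L (u i)) = ∑ j, algebraMap K L (c j) • b' j := by
        funext i
        have h7 := congrFun hc i
        simp only [Finset.sum_apply, Pi.smul_apply, smul_eq_mul] at h7 ⊢
        rw [← h7, map_sum]
        exact Finset.sum_congr rfl (fun j _ => by rw [map_mul, hb])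
      rw [h6]
      exact Submodule.sum_mem _ (fun j _ => Submodule.smul_mem _ _ (hb'W j))

end Coordinates

/-! ### The modular function field: open stabilisers, fixed field, `ℚ`-structure -/

section Modular

open ModularCurve

variable {L : Type*} [Field L] [Algebra ℚ L]
variable (F₀ : IntermediateField ℚ (LaurentSeries ℚ))

/-- **Open stabilisers.** Every element of `laurentBaseChange L F₀` is fixed by the
coefficientwise action of the fixing subgroup of a finite subextension. -/
theorem exists_finite_level [Algebra.IsAlgebraic ℚ L] {x : LaurentSeries L}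
    (hx : x ∈ laurentBaseChange L F₀) :
    ∃ M : IntermediateField ℚ L, FiniteDimensional ℚ M ∧
      ∀ σ ∈ M.fixingSubgroup, coeffMap ((σ : L ≃ₐ[ℚ] L) : L →+* L) x = x := by
  rw [mem_laurentBaseChange_iff] at hx
  induction hx using Subfield.closure_induction with
  | mem y hy =>
      rcases hy with ⟨a, rfl⟩ | ⟨z, hz, rfl⟩
      · refine ⟨IntermediateField.adjoin ℚ {a},
          IntermediateField.adjoin.finiteDimensional (Algebra.IsIntegral.isIntegral a), ?_⟩
        intro σ hσ
        rw [coeffMap_algebraMap]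
        congr 1
        exact (IntermediateField.mem_fixingSubgroup_iff _ _).mp hσ a
          (IntermediateField.mem_adjoin_simple_self ℚ a)
      · exact ⟨⊥, inferInstance, fun σ _ => coeffMap_coeffEmb σ z⟩
  | one => exact ⟨⊥, inferInstance, fun σ _ => map_one _⟩
  | add x y _ _ hx hy =>
      obtain ⟨M₁, h₁, hM₁⟩ := hx
      obtain ⟨M₂, h₂, hM₂⟩ := hy
      refine ⟨M₁ ⊔ M₂, IntermediateField.finiteDimensional_sup M₁ M₂, fun σ hσ => ?_⟩
      rw [map_add, hM₁ σ (IntermediateField.fixingSubgroup_le le_sup_left hσ),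
        hM₂ σ (IntermediateField.fixingSubgroup_le le_sup_right hσ)]
  | neg x _ hx =>
      obtain ⟨M₁, h₁, hM₁⟩ := hx
      exact ⟨M₁, h₁, fun σ hσ => by rw [map_neg, hM₁ σ hσ]⟩
  | inv x _ hx =>
      obtain ⟨M₁, h₁, hM₁⟩ := hx
      exact ⟨M₁, h₁, fun σ hσ => by rw [map_inv₀, hM₁ σ hσ]⟩
  | mul x y _ _ hx hy =>
      obtain ⟨M₁, h₁, hM₁⟩ := hx
      obtain ⟨M₂, h₂, hM₂⟩ := hy
      refine ⟨M₁ ⊔ M₂, IntermediateField.finiteDimensional_sup M₁ M₂, fun σ hσ => ?_⟩
      rw [map_mul, hM₁ σ (IntermediateField.fixingSubgroup_le le_sup_left hσ),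
        hM₂ σ (IntermediateField.fixingSubgroup_le le_sup_right hσ)]

/-- Apply a `ℚ`-linear functional of `L` coefficientwise. -/
def coeffFun (φ : L →ₗ[ℚ] ℚ) : LaurentSeries L →+ LaurentSeries ℚ where
  toFun x := x.map φ
  map_zero' := by ext k; simp
  map_add' x y := by ext k; simp

theorem coeffFun_coeff (φ : L →ₗ[ℚ] ℚ) (x : LaurentSeries L) (k : ℤ) :
    (coeffFun φ x).coeff k = φ (x.coeff k) := rfl

/-- Coefficientwise functionals are linear over series with rational coefficients. -/
theorem coeffFun_coeffEmb_mul (φ : L →ₗ[ℚ] ℚ) (y : LaurentSeries ℚ) (z : LaurentSeries L) :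
    coeffFun φ (coeffEmb L y * z) = y * coeffFun φ z := by
  ext a
  rw [coeffFun_coeff]
  have hy : (coeffEmb L y).support ⊆ y.support := by
    intro k hk
    simp only [HahnSeries.mem_support, coeffEmb_coeff, ne_eq] at hk ⊢
    intro h
    exact hk (by rw [h, map_zero])
  have hz : (coeffFun φ z).support ⊆ z.support := by
    intro k hk
    simp only [HahnSeries.mem_support, ne_eq] at hk ⊢
    intro h
    exact hk (by rw [coeffFun_coeff, h, map_zero])
  rw [HahnSeries.coeff_mul_left' y.isPWO_support hy,
    HahnSeries.coeff_mul_right' z.isPWO_support hz, map_sum]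
  refine Finset.sum_congr rfl (fun ij _ => ?_)
  rw [coeffEmb_coeff, coeffFun_coeff, ← Algebra.smul_def, map_smul, smul_eq_mul]

/-- The `L`-span of the rational functions `coeffEmb '' F₀`. -/
def ratSpan : Submodule L (LaurentSeries L) :=
  Submodule.span L (⇑(coeffEmb L) '' (F₀ : Set (LaurentSeries ℚ)))

theorem coeffEmb_mem_ratSpan {f : LaurentSeries ℚ} (hf : f ∈ F₀) :
    coeffEmb L f ∈ ratSpan (L := L) F₀ :=
  Submodule.subset_span ⟨f, hf, rfl⟩

theorem one_mem_ratSpan : (1 : LaurentSeries L) ∈ ratSpan (L := L) F₀ := by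
  have h := coeffEmb_mem_ratSpan (L := L) F₀ (one_mem F₀)
  rwa [map_one] at h

omit [Algebra ℚ L] in
/-- The coefficientwise scalar multiplication is multiplication by the constant series. -/
theorem smul_eq_algebraMap_mul (a : L) (x : LaurentSeries L) :
    a • x = algebraMap L (LaurentSeries L) a * x := by
  rw [algebraMap_laurentSeries_eq_single]
  exact (HahnSeries.C_mul_eq_smul (r := a) (x := x)).symm

theorem algebraMap_mem_ratSpan (a : L) :
    algebraMap L (LaurentSeries L) a ∈ ratSpan (L := L) F₀ := by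
  have h := Submodule.smul_mem _ a (one_mem_ratSpan (L := L) F₀)
  rwa [smul_eq_algebraMap_mul, mul_one] at h

theorem mul_mem_ratSpan {p q : LaurentSeries L} (hp : p ∈ ratSpan (L := L) F₀)
    (hq : q ∈ ratSpan (L := L) F₀) : p * q ∈ ratSpan (L := L) F₀ := by
  -- first: multiplication by a generator
  have hgen : ∀ g ∈ F₀, ∀ p ∈ ratSpan (L := L) F₀, p * coeffEmb L g ∈ ratSpan (L := L) F₀ := by
    intro g hg p hp
    induction hp using Submodule.span_induction with
    | mem y hy =>
        obtain ⟨f, hf, rfl⟩ := hy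
        rw [← map_mul]
        exact coeffEmb_mem_ratSpan F₀ (mul_mem hf hg)
    | zero => rw [zero_mul]; exact zero_mem _
    | add x y _ _ hx hy => rw [add_mul]; exact add_mem hx hy
    | smul a x _ hx =>
        have : a • x * coeffEmb L g = a • (x * coeffEmb L g) := by
          rw [smul_eq_algebraMap_mul, smul_eq_algebraMap_mul, mul_assoc]
        rw [this]
        exact Submodule.smul_mem _ a hx
  induction hq using Submodule.span_induction with
  | mem y hy =>
      obtain ⟨g, hg, rfl⟩ := hy
      exact hgen g hg p hp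
  | zero => rw [mul_zero]; exact zero_mem _
  | add x y _ _ hx hy => rw [mul_add]; exact add_mem hx hy
  | smul a x _ hx =>
      have : p * a • x = a • (p * x) := by
        rw [smul_eq_algebraMap_mul, smul_eq_algebraMap_mul, mul_left_comm]
      rw [this]
      exact Submodule.smul_mem _ a hx

/-- Every element of the compositum is a quotient of two elements of the `L`-span of the
rational functions. -/
theorem exists_quotient_rep {x : LaurentSeries L} (hx : x ∈ laurentBaseChange L F₀) :
    ∃ p ∈ ratSpan (L := L) F₀, ∃ q ∈ ratSpan (L := L) F₀, q ≠ 0 ∧ x * q = p := by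
  rw [mem_laurentBaseChange_iff] at hx
  induction hx using Subfield.closure_induction with
  | mem y hy =>
      rcases hy with ⟨a, rfl⟩ | ⟨z, hz, rfl⟩
      · exact ⟨_, algebraMap_mem_ratSpan F₀ a, 1, one_mem_ratSpan F₀, one_ne_zero, mul_one _⟩
      · exact ⟨_, coeffEmb_mem_ratSpan F₀ hz, 1, one_mem_ratSpan F₀, one_ne_zero, mul_one _⟩
  | one => exact ⟨1, one_mem_ratSpan F₀, 1, one_mem_ratSpan F₀, one_ne_zero, mul_one _⟩
  | add x y _ _ hx hy =>
      obtain ⟨p, hp, q, hq, hq0, hxq⟩ := hx
      obtain ⟨p', hp', q', hq', hq'0, hyq⟩ := hy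
      refine ⟨p * q' + p' * q, add_mem (mul_mem_ratSpan F₀ hp hq') (mul_mem_ratSpan F₀ hp' hq),
        q * q', mul_mem_ratSpan F₀ hq hq', mul_ne_zero hq0 hq'0, ?_⟩
      rw [← hxq, ← hyq]; ring
  | neg x _ hx =>
      obtain ⟨p, hp, q, hq, hq0, hxq⟩ := hx
      exact ⟨-p, neg_mem hp, q, hq, hq0, by rw [← hxq]; ring⟩
  | inv x _ hx =>
      obtain ⟨p, hp, q, hq, hq0, hxq⟩ := hx
      by_cases hx0 : x = 0
      · exact ⟨0, zero_mem _, 1, one_mem_ratSpan F₀, one_ne_zero, by rw [hx0]; simp⟩
      · have hp0 : p ≠ 0 := by rw [← hxq]; exact mul_ne_zero hx0 hq0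
        exact ⟨q, hq, p, hp, hp0, by rw [← hxq]; field_simp⟩
  | mul x y _ _ hx hy =>
      obtain ⟨p, hp, q, hq, hq0, hxq⟩ := hx
      obtain ⟨p', hp', q', hq', hq'0, hyq⟩ := hy
      refine ⟨p * p', mul_mem_ratSpan F₀ hp hp', q * q', mul_mem_ratSpan F₀ hq hq',
        mul_ne_zero hq0 hq'0, ?_⟩
      rw [← hxq, ← hyq]; ring

/-- A coefficientwise functional maps the `L`-span of the rational functions into `F₀`. -/
theorem coeffFun_mem_of_mem_ratSpan {p : LaurentSeries L} (hp : p ∈ ratSpan (L := L) F₀) :
    ∀ φ : L →ₗ[ℚ] ℚ, coeffFun φ p ∈ F₀ := by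
  induction hp using Submodule.span_induction with
  | mem y hy =>
      obtain ⟨f, hf, rfl⟩ := hy
      intro φ
      have h1 : coeffFun φ (coeffEmb L f) = f * coeffFun φ 1 := by
        rw [← coeffFun_coeffEmb_mul, mul_one]
      have h2 : coeffFun φ (1 : LaurentSeries L) = algebraMap ℚ (LaurentSeries ℚ) (φ 1) := by
        rw [algebraMap_laurentSeries_eq_single]
        ext k
        rw [coeffFun_coeff, HahnSeries.coeff_one, HahnSeries.coeff_single]
        split_ifs with h
        · rfl
        · exact map_zero φ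
      rw [h1, h2]
      exact mul_mem hf (F₀.algebraMap_mem _)
  | zero => intro φ; rw [map_zero]; exact zero_mem F₀
  | add x y _ _ hx hy => intro φ; rw [map_add]; exact add_mem (hx φ) (hy φ)
  | smul a x _ hx =>
      intro φ
      have h3 : coeffFun φ (a • x) = coeffFun (φ.comp (LinearMap.mulLeft ℚ a)) x := by
        ext k
        rw [coeffFun_coeff, coeffFun_coeff, HahnSeries.coeff_smul]
        rfl
      rw [h3]
      exact hx _

/-- **Fixed field.** An element of `laurentBaseChange L F₀` is fixed by the coefficientwise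
Galois action iff it is (the image of) an element of `F₀`. -/
theorem fixed_iff_exists_coeffEmb [IsGalois ℚ L] {x : LaurentSeries L}
    (hx : x ∈ laurentBaseChange L F₀) :
    (∀ σ : L ≃ₐ[ℚ] L, coeffMap ((σ : L ≃ₐ[ℚ] L) : L →+* L) x = x) ↔
      ∃ x₀ ∈ F₀, coeffEmb L x₀ = x := by
  constructor
  · intro hfix
    -- the coefficients are rational
    have hrat : ∀ k : ℤ, ∃ r : ℚ, algebraMap ℚ L r = x.coeff k := by
      intro k
      refine (InfiniteGalois.mem_range_algebraMap_iff_fixed (k := ℚ) (K := L) (x.coeff k)).mpr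
        (fun σ => ?_)
      have h := congrArg (fun y : LaurentSeries L => y.coeff k) (hfix σ)
      simpa using h
    -- a retraction of `ℚ → L`
    obtain ⟨π, hπ⟩ := LinearMap.exists_leftInverse_of_injective (Algebra.linearMap ℚ L)
      (LinearMap.ker_eq_bot.mpr (algebraMap ℚ L).injective)
    have hπ' : ∀ r : ℚ, π (algebraMap ℚ L r) = r := fun r => by
      have := congrArg (fun f : ℚ →ₗ[ℚ] ℚ => f r) hπ
      simpa using this
    have hx₀ : coeffEmb L (coeffFun π x) = x := by
      ext k
      obtain ⟨r, hr⟩ := hrat k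
      rw [coeffEmb_coeff, coeffFun_coeff, ← hr, hπ']
    refine ⟨coeffFun π x, ?_, hx₀⟩
    -- membership in `F₀`
    obtain ⟨p, hp, q, hq, hq0, hxq⟩ := exists_quotient_rep F₀ hx
    obtain ⟨k, hk⟩ : ∃ k : ℤ, q.coeff k ≠ 0 := by
      by_contra hcon
      push Not at hcon
      exact hq0 (HahnSeries.ext (funext fun k => by simpa using hcon k))
    obtain ⟨φ, hφ⟩ : ∃ φ : L →ₗ[ℚ] ℚ, φ (q.coeff k) ≠ 0 := by
      by_contra hcon
      push Not at hcon
      exact hk ((Module.forall_dual_apply_eq_zero_iff ℚ (q.coeff k)).mp hcon)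
    have hQ : coeffFun φ q ≠ 0 := by
      intro h
      have := congrArg (fun y : LaurentSeries ℚ => y.coeff k) h
      simp only [coeffFun_coeff, HahnSeries.coeff_zero] at this
      exact hφ this
    have hmul : coeffFun π x * coeffFun φ q = coeffFun φ p := by
      rw [← coeffFun_coeffEmb_mul, hx₀, hxq]
    have hx₀eq : coeffFun π x = coeffFun φ p * (coeffFun φ q)⁻¹ := by
      rw [← hmul, mul_assoc, mul_inv_cancel₀ hQ, mul_one]
    rw [hx₀eq]
    exact mul_mem (coeffFun_mem_of_mem_ratSpan F₀ hp φ)
      (inv_mem (coeffFun_mem_of_mem_ratSpan F₀ hq φ))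
  · rintro ⟨x₀, -, rfl⟩ σ
    exact coeffMap_coeffEmb σ x₀

/-- The rational functions inside the compositum. -/
noncomputable def ratEmb (f : F₀) : laurentBaseChange L F₀ :=
  ⟨coeffEmb L (f : LaurentSeries ℚ), coeffEmb_mem_laurentBaseChange L f.2⟩

@[simp] theorem coe_ratEmb (f : F₀) :
    ((ratEmb (L := L) F₀ f : laurentBaseChange L F₀) : LaurentSeries L) = coeffEmb L f := rfl

theorem ratEmb_injective : Function.Injective (ratEmb (L := L) F₀) := by
  intro f g h
  have h1 : coeffEmb L (f : LaurentSeries ℚ) = coeffEmb L (g : LaurentSeries ℚ) :=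
    congrArg Subtype.val h
  apply Subtype.ext
  ext k
  have h2 := congrArg (fun y : LaurentSeries L => y.coeff k) h1
  simp only [coeffEmb_coeff] at h2
  exact (algebraMap ℚ L).injective h2

theorem ratEmb_add (f g : F₀) :
    ratEmb (L := L) F₀ (f + g) = ratEmb F₀ f + ratEmb F₀ g :=
  Subtype.ext (map_add (coeffEmb L) _ _)

theorem ratEmb_zero : ratEmb (L := L) F₀ 0 = 0 :=
  Subtype.ext (map_zero (coeffEmb L))

/-- `ratEmb` as an additive homomorphism. -/
noncomputable def ratEmbHom : F₀ →+ laurentBaseChange L F₀ where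
  toFun := ratEmb F₀
  map_zero' := ratEmb_zero F₀
  map_add' := ratEmb_add F₀

theorem ratEmb_smul (r : ℚ) (f : F₀) :
    ratEmb (L := L) F₀ (r • f) = algebraMap ℚ L r • ratEmb F₀ f := by
  let _ : Module ℚ (laurentBaseChange L F₀) := Module.compHom _ (algebraMap ℚ L)
  exact map_rat_smul (ratEmbHom (L := L) F₀) r f

theorem ratEmb_sum {ι : Type*} (s : Finset ι) (f : ι → F₀) :
    ratEmb (L := L) F₀ (∑ i ∈ s, f i) = ∑ i ∈ s, ratEmb F₀ (f i) := by
  classical
  induction s using Finset.induction_on with
  | empty => simp [ratEmb_zero]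
  | insert a s ha ih => rw [Finset.sum_insert ha, Finset.sum_insert ha, ratEmb_add, ih]

/-- The coefficientwise Galois action on the compositum is a semilinear action. -/
theorem arithmeticRingAut_isSemilinearAction :
    IsSemilinearAction (K := ℚ) (L := L) (V := laurentBaseChange L F₀)
      (fun σ x => arithmeticRingAut F₀ σ x) where
  one := fun x => by
    apply Subtype.ext
    ext k
    rfl
  mul := fun σ τ x => by
    apply Subtype.ext
    ext k
    rfl
  add := fun σ v w => map_add (arithmeticRingAut F₀ σ) v w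
  smul := fun σ a v => by
    rw [Algebra.smul_def, Algebra.smul_def, map_mul, arithmeticRingAut_algebraMap]

theorem arithmeticRingAut_ratEmb (σ : L ≃ₐ[ℚ] L) (f : F₀) :
    arithmeticRingAut F₀ σ (ratEmb (L := L) F₀ f) = ratEmb F₀ f :=
  Subtype.ext (coeffMap_coeffEmb σ _)

/-- Fixed elements of the compositum are rational functions. -/
theorem exists_ratEmb_of_fixed [IsGalois ℚ L] (x : laurentBaseChange L F₀)
    (hx : ∀ σ : L ≃ₐ[ℚ] L, arithmeticRingAut F₀ σ x = x) : ∃ f : F₀, ratEmb F₀ f = x := by
  obtain ⟨x₀, hx₀, hx₀x⟩ := (fixed_iff_exists_coeffEmb F₀ x.2).mp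
    (fun σ => congrArg Subtype.val (hx σ))
  exact ⟨⟨x₀, hx₀⟩, Subtype.ext hx₀x⟩

/-- **`ℚ`-structure of Galois-stable subspaces.** A finite-dimensional `L`-subspace `W` of
`laurentBaseChange L F₀` stable under the coefficientwise Galois action has an `L`-basis
consisting of rational functions (elements of `F₀`); the rational functions in `W` are exactly
the `ℚ`-span of that basis. -/
theorem exists_rational_function_basis [IsGalois ℚ L]
    (W : Submodule L (laurentBaseChange L F₀)) [FiniteDimensional L W]
    (hW : ∀ σ : L ≃ₐ[ℚ] L, ∀ w ∈ W, arithmeticRingAut F₀ σ w ∈ W) :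
    ∃ b : Fin (Module.finrank L W) → F₀,
      LinearIndependent ℚ b ∧
      (∀ i, ratEmb F₀ (b i) ∈ W) ∧
      LinearIndependent L (fun i => ratEmb (L := L) F₀ (b i)) ∧
      Submodule.span L (Set.range (fun i => ratEmb (L := L) F₀ (b i))) = W ∧
      (∀ w ∈ W, (∀ σ : L ≃ₐ[ℚ] L, arithmeticRingAut F₀ σ w = w) →
        ∃ c : Fin (Module.finrank L W) → ℚ,
          w = ∑ i, algebraMap ℚ L (c i) • ratEmb (L := L) F₀ (b i)) ∧
      (∀ f : F₀, ratEmb (L := L) F₀ f ∈ W ↔ f ∈ Submodule.span ℚ (Set.range b)) := by
  classical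
  have hρ := arithmeticRingAut_isSemilinearAction (L := L) F₀
  obtain ⟨b', hb'W, hb'fix, hb'li, hb'span⟩ := exists_fixed_basis hρ W hW
    (fun w _ => by
      obtain ⟨M, hM, hMw⟩ := exists_finite_level F₀ w.2
      exact ⟨M, hM, fun σ hσ => Subtype.ext (hMw σ hσ)⟩)
  have hex : ∀ i, ∃ f : F₀, ratEmb F₀ f = b' i := fun i =>
    exists_ratEmb_of_fixed F₀ (b' i) (fun σ => hb'fix i σ)
  choose b hb using hex
  have hbb' : (fun i => ratEmb (L := L) F₀ (b i)) = b' := funext hb
  have hfixspan : ∀ w ∈ W, (∀ σ : L ≃ₐ[ℚ] L, arithmeticRingAut F₀ σ w = w) →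
      ∃ c : Fin (Module.finrank L W) → ℚ,
        w = ∑ i, algebraMap ℚ L (c i) • ratEmb (L := L) F₀ (b i) := by
    intro w hw hwfix
    obtain ⟨c, hc⟩ := fixed_mem_span_of_fixed_basis hρ b' hb'fix hb'li w
      (by rw [hb'span]; exact hw) hwfix
    exact ⟨c, by rw [hc]; exact Finset.sum_congr rfl (fun i _ => by rw [hb])⟩
  have hsum : ∀ c : Fin (Module.finrank L W) → ℚ,
      ratEmb (L := L) F₀ (∑ i, c i • b i) = ∑ i, algebraMap ℚ L (c i) • b' i := by
    intro c
    rw [ratEmb_sum]
    exact Finset.sum_congr rfl (fun i _ => by rw [ratEmb_smul, hb])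
  refine ⟨b, ?_, fun i => by rw [hb]; exact hb'W i, by rw [hbb']; exact hb'li,
    by rw [hbb']; exact hb'span, hfixspan, ?_⟩
  · rw [Fintype.linearIndependent_iff]
    intro g hg i
    have h1 : ∑ i, algebraMap ℚ L (g i) • b' i = 0 := by
      rw [← hsum, hg, ratEmb_zero]
    have h2 := Fintype.linearIndependent_iff.mp hb'li _ h1 i
    exact (algebraMap ℚ L).injective (by rw [h2, map_zero])
  · intro f
    constructor
    · intro hf
      obtain ⟨c, hc⟩ := hfixspan _ hf (fun σ => arithmeticRingAut_ratEmb F₀ σ f)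
      rw [Submodule.mem_span_range_iff_exists_fun]
      refine ⟨c, ?_⟩
      apply ratEmb_injective (L := L) F₀
      rw [hsum, hc]
      exact Finset.sum_congr rfl (fun i _ => by rw [hb])
    · intro hf
      obtain ⟨c, hc⟩ := (Submodule.mem_span_range_iff_exists_fun ℚ).mp hf
      rw [← hc, hsum]
      exact Submodule.sum_mem _ (fun i _ => Submodule.smul_mem _ _ (hb'W i))

/-- The `ℚ`-form of a subspace `W` of the compositum: the rational functions lying in `W`. -/
noncomputable def ratForm (W : Submodule L (laurentBaseChange L F₀)) : Submodule ℚ F₀ where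
  carrier := {f | ratEmb F₀ f ∈ W}
  add_mem' := fun {f g} hf hg => by
    show ratEmb F₀ (f + g) ∈ W
    rw [ratEmb_add]
    exact add_mem hf hg
  zero_mem' := by
    show ratEmb F₀ 0 ∈ W
    rw [ratEmb_zero]
    exact zero_mem W
  smul_mem' := fun r f hf => by
    show ratEmb F₀ (r • f) ∈ W
    rw [ratEmb_smul]
    exact Submodule.smul_mem W _ hf

theorem mem_ratForm (W : Submodule L (laurentBaseChange L F₀)) (f : F₀) :
    f ∈ ratForm F₀ W ↔ ratEmb F₀ f ∈ W := Iff.rfl

/-- **Dimension of the `ℚ`-form.** For a Galois-stable finite-dimensional `W`, the `ℚ`-space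
of rational functions in `W` has the same dimension as `W`. -/
theorem finrank_ratForm [IsGalois ℚ L]
    (W : Submodule L (laurentBaseChange L F₀)) [FiniteDimensional L W]
    (hW : ∀ σ : L ≃ₐ[ℚ] L, ∀ w ∈ W, arithmeticRingAut F₀ σ w ∈ W) :
    Module.finrank ℚ (ratForm F₀ W) = Module.finrank L W := by
  obtain ⟨b, hbli, -, -, -, -, hb⟩ := exists_rational_function_basis F₀ W hW
  have h : ratForm F₀ W = Submodule.span ℚ (Set.range b) :=
    Submodule.ext fun f => hb f
  rw [h, finrank_span_eq_card hbli, Fintype.card_fin]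

/-- The instance used by S17: Galois-stable finite-dimensional subspaces of
`modularFunctionFieldBar N` (e.g. Riemann–Roch spaces of Galois-stable divisors) have a basis
of functions in `modularFunctionFieldFull N` (rational `q`-expansions). -/
theorem exists_rational_function_basis_modular (N : ℕ)
    (W : Submodule (AlgebraicClosure ℚ) (modularFunctionFieldBar N))
    [FiniteDimensional (AlgebraicClosure ℚ) W]
    (hW : ∀ σ : AlgebraicClosure ℚ ≃ₐ[ℚ] AlgebraicClosure ℚ, ∀ w ∈ W,
      arithmeticGalois (modularFunctionFieldFull N) σ • w ∈ W) :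
    ∃ b : Fin (Module.finrank (AlgebraicClosure ℚ) W) → modularFunctionFieldFull N,
      LinearIndependent ℚ b ∧
      (∀ i, ratEmb (modularFunctionFieldFull N) (b i) ∈ W) ∧
      LinearIndependent (AlgebraicClosure ℚ)
        (fun i => ratEmb (L := AlgebraicClosure ℚ) (modularFunctionFieldFull N) (b i)) ∧
      Submodule.span (AlgebraicClosure ℚ)
        (Set.range (fun i => ratEmb (L := AlgebraicClosure ℚ) (modularFunctionFieldFull N)
          (b i))) = W ∧
      (∀ f : modularFunctionFieldFull N,
        ratEmb (L := AlgebraicClosure ℚ) (modularFunctionFieldFull N) f ∈ W ↔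
          f ∈ Submodule.span ℚ (Set.range b)) := by
  have : Algebra.IsAlgebraic ℚ (AlgebraicClosure ℚ) := AlgebraicClosure.isAlgebraic ℚ
  have : IsAlgClosure ℚ (AlgebraicClosure ℚ) := ⟨inferInstance, inferInstance⟩
  have : IsGalois ℚ (AlgebraicClosure ℚ) := inferInstance
  obtain ⟨b, h1, h2, h3, h4, -, h6⟩ :=
    exists_rational_function_basis (L := AlgebraicClosure ℚ) (modularFunctionFieldFull N) W hW
  exact ⟨b, h1, h2, h3, h4, h6⟩

/-- **Descent in span form** (the hypothesis `hdesc` of the moving lemma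
`helper1275.exists_moving_tuple_rat`, for `Γ = Gal(L/ℚ)` and `ρ = arithmeticGalois F₀`): every
Galois-stable finite-dimensional subspace of the compositum is spanned by its Galois-fixed
elements. -/
theorem le_span_fixed [IsGalois ℚ L] :
    ∀ W : Submodule L (laurentBaseChange L F₀), Module.Finite L W →
      (∀ (g : L ≃ₐ[ℚ] L), ∀ f ∈ W, arithmeticGalois F₀ g • f ∈ W) →
      W ≤ Submodule.span L {f : laurentBaseChange L F₀ |
        f ∈ W ∧ ∀ g : L ≃ₐ[ℚ] L, arithmeticGalois F₀ g • f = f} := by
  intro W hfin hW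
  obtain ⟨b, -, hbW, -, hspan, -, -⟩ := exists_rational_function_basis F₀ W hW
  intro w hw
  rw [← hspan] at hw
  refine Submodule.span_mono ?_ hw
  rintro _ ⟨i, rfl⟩
  exact ⟨hbW i, fun g => arithmeticRingAut_ratEmb F₀ g (b i)⟩

/-- `le_span_fixed` for `modularFunctionFieldBar N` over `AlgebraicClosure ℚ`. -/
theorem le_span_fixed_modular (N : ℕ) :
    ∀ W : Submodule (AlgebraicClosure ℚ) (modularFunctionFieldBar N),
      Module.Finite (AlgebraicClosure ℚ) W →
      (∀ (g : AlgebraicClosure ℚ ≃ₐ[ℚ] AlgebraicClosure ℚ), ∀ f ∈ W,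
        arithmeticGalois (modularFunctionFieldFull N) g • f ∈ W) →
      W ≤ Submodule.span (AlgebraicClosure ℚ) {f : modularFunctionFieldBar N |
        f ∈ W ∧ ∀ g : AlgebraicClosure ℚ ≃ₐ[ℚ] AlgebraicClosure ℚ,
          arithmeticGalois (modularFunctionFieldFull N) g • f = f} := by
  have : Algebra.IsAlgebraic ℚ (AlgebraicClosure ℚ) := AlgebraicClosure.isAlgebraic ℚ
  have : IsAlgClosure ℚ (AlgebraicClosure ℚ) := ⟨inferInstance, inferInstance⟩
  have : IsGalois ℚ (AlgebraicClosure ℚ) := inferInstance
  exact le_span_fixed (L := AlgebraicClosure ℚ) (modularFunctionFieldFull N)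

/-- A Galois-fixed element of `modularFunctionFieldBar N` is a rational function. -/
theorem exists_ratEmb_of_fixed_modular (N : ℕ) (x : modularFunctionFieldBar N)
    (hx : ∀ g : AlgebraicClosure ℚ ≃ₐ[ℚ] AlgebraicClosure ℚ,
      arithmeticGalois (modularFunctionFieldFull N) g • x = x) :
    ∃ f : modularFunctionFieldFull N,
      ratEmb (L := AlgebraicClosure ℚ) (modularFunctionFieldFull N) f = x := by
  have : Algebra.IsAlgebraic ℚ (AlgebraicClosure ℚ) := AlgebraicClosure.isAlgebraic ℚ
  have : IsAlgClosure ℚ (AlgebraicClosure ℚ) := ⟨inferInstance, inferInstance⟩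
  have : IsGalois ℚ (AlgebraicClosure ℚ) := inferInstance
  exact exists_ratEmb_of_fixed (L := AlgebraicClosure ℚ) (modularFunctionFieldFull N) x hx

end Modular

end Fermat.Agent.S17.helper1935
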