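import Mathlib
import Fermat.Agent.S17.helper3197_PlueckerSpec
import Fermat.Agent.S17.helper1935_GaloisDescent

/-!
# S17, Pluecker track: the leaves (L2) `RatDescSpec` and (L2') `LinDisjSpec`  (helper1935)

Instances, in the exact shape of `helper3197_PlueckerSpec.lean`, of the Galois descent proved in
`helper1935_GaloisDescent.lean`:

* `linDisjSpec F₀ : LinDisjSpec F₀` (unconditional): `ℚ`-linearly independent families of `F₀`
  stay `ℚ̄`-linearly independent in `FB F₀`.
* `ratDescSpec F₀ hfin : RatDescSpec F₀`, where `hfin` is the finite dimensionality of all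
  Riemann--Roch spaces (the first half of `RiemannSpec F₀`): for a rational divisor `E`,
  `ratRR F₀ E` is a `ℚ`-form of `L(E)`.
* `ratDescSpec_of_riemannSpec`, and convenience lemmas for the consumers: rational divisors are
  closed under `0, +, -, n •`, `m • pt P0` is rational, Riemann--Roch spaces of rational divisors
  are Galois stable, `exists_ratRR_basis` (a `ℚ`-basis of `ratRR E` which is a `ℚ̄`-basis of
  `L(E)`), `nonempty_frame`, `finrank_Alev`, `finrank_Wlev`.
-/

set_option autoImplicit false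

open ModularCurve AlgebraicCurve
open Fermat.Agent.S27.helper6247

namespace Fermat.Agent.S17.helper1935

noncomputable section

open Fermat.Agent.S17.helper3197 (Qb GalQ FB IsRat IsRatPlace ratRR Alev Wlev Frame
  RatDescSpec LinDisjSpec RiemannSpec mem_ratRR)

/-- `ℚ̄ / ℚ` is Galois. -/
theorem isGalois_Qb : IsGalois ℚ Qb := by
  have : Algebra.IsAlgebraic ℚ (AlgebraicClosure ℚ) := AlgebraicClosure.isAlgebraic ℚ
  have : IsAlgClosure ℚ (AlgebraicClosure ℚ) := ⟨inferInstance, inferInstance⟩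
  exact (inferInstance : IsGalois ℚ (AlgebraicClosure ℚ))

section General

variable {K F : Type*} [Field K] [Field F] [Algebra K F]

/-- A semilinear automorphism maps `L(D)` into `L(g • D)`. -/
theorem smul_mem_riemannRochSpace (g : SemilinearAut K F) {D : Divisor K F} {f : F}
    (hf : f ∈ riemannRochSpace D) : g • f ∈ riemannRochSpace (g • D) := by
  rw [mem_riemannRochSpace_iff] at hf ⊢
  intro v
  rcases hf (g⁻¹ • v) with h | h
  · left
    rw [h]
    exact smul_zero g
  · right
    rw [SemilinearAut.divisor_smul_apply]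
    have h2 := SemilinearAut.ord_smul g (g⁻¹ • v) f
    rw [smul_inv_smul] at h2
    rw [h2]
    exact h

/-- `L(D)` is monotone in `D`. -/
theorem riemannRochSpace_mono_of_le {D D' : Divisor K F} (h : D ≤ D') :
    riemannRochSpace D ≤ riemannRochSpace D' := by
  intro f hf
  rw [mem_riemannRochSpace_iff] at hf ⊢
  intro v
  rcases hf v with h1 | h1
  · exact Or.inl h1
  · exact Or.inr ((neg_le_neg (Finsupp.le_def.mp h v)).trans h1)

end General

section Setting

variable (F₀ : IntermediateField ℚ (LaurentSeries ℚ))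

/-- The two `ratEmb`s (of the Spec and of `helper1935_GaloisDescent`) agree. -/
theorem spec_ratEmb_eq (f : F₀) :
    helper3197.ratEmb F₀ f = ratEmb (L := Qb) F₀ f := rfl

/-- The Riemann--Roch space of a rational divisor is stable under the arithmetic Galois action. -/
theorem riemannRochSpace_stable {E : Divisor Qb (FB F₀)} (hE : IsRat F₀ E) (σ : GalQ) :
    ∀ w ∈ riemannRochSpace E, arithmeticRingAut F₀ σ w ∈ riemannRochSpace E := by
  intro w hw
  have h := smul_mem_riemannRochSpace (arithmeticGalois F₀ σ) hw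
  rw [hE σ] at h
  exact h

/-- Same statement with the action written as `•`. -/
theorem smul_mem_riemannRochSpace_of_isRat {E : Divisor Qb (FB F₀)} (hE : IsRat F₀ E) (σ : GalQ)
    {w : FB F₀} (hw : w ∈ riemannRochSpace E) :
    arithmeticGalois F₀ σ • w ∈ riemannRochSpace E :=
  riemannRochSpace_stable F₀ hE σ w hw

/-- The `ℚ`-form `ratRR` of the Spec is the `ratForm` of `helper1935_GaloisDescent`. -/
theorem ratRR_eq_ratForm (E : Divisor Qb (FB F₀)) :
    ratRR F₀ E = ratForm (L := Qb) F₀ (riemannRochSpace E) :=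
  Submodule.ext fun _ => Iff.rfl

/-- `ratRR` is monotone. -/
theorem ratRR_mono {D D' : Divisor Qb (FB F₀)} (h : D ≤ D') : ratRR F₀ D ≤ ratRR F₀ D' :=
  fun _ hf => riemannRochSpace_mono_of_le h hf

/-- **(L2') Linear disjointness.** -/
theorem linDisjSpec : LinDisjSpec F₀ := by
  intro n x hx
  have := isGalois_Qb
  have hρ := arithmeticRingAut_isSemilinearAction (L := Qb) F₀
  have hinj : Function.Injective (helper3197.ratEmb F₀) := (helper3197.ratEmb F₀).injective
  have h1 : LinearIndependent ℚ (fun i => helper3197.ratEmb F₀ (x i)) :=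
    hx.map' (helper3197.ratEmb F₀).toRatAlgHom.toLinearMap (LinearMap.ker_eq_bot.mpr hinj)
  exact linearIndependent_of_fixed hρ (fun i => helper3197.ratEmb F₀ (x i))
    (fun i σ => arithmeticRingAut_ratEmb F₀ σ (x i)) h1

/-- A `ℚ`-basis of `ratRR E` which is a `ℚ̄`-basis of `L(E)`, for a rational divisor `E` with
finite-dimensional `L(E)`. -/
theorem exists_ratRR_basis {E : Divisor Qb (FB F₀)} (hE : IsRat F₀ E)
    [Module.Finite Qb (riemannRochSpace E)] :
    ∃ b : Fin (Module.finrank Qb (riemannRochSpace E)) → F₀,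
      LinearIndependent ℚ b ∧
      (∀ i, b i ∈ ratRR F₀ E) ∧
      Submodule.span ℚ (Set.range b) = ratRR F₀ E ∧
      LinearIndependent Qb (fun i => helper3197.ratEmb F₀ (b i)) ∧
      Submodule.span Qb (Set.range (fun i => helper3197.ratEmb F₀ (b i)))
        = riemannRochSpace E := by
  have := isGalois_Qb
  obtain ⟨b, hbli, hbW, hbliL, hspan, -, hb⟩ :=
    exists_rational_function_basis (L := Qb) F₀ (riemannRochSpace E)
      (fun σ => riemannRochSpace_stable F₀ hE σ)
  exact ⟨b, hbli, hbW, (Submodule.ext fun f => hb f).symm, hbliL, hspan⟩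

/-- **(L2) Galois descent for Riemann--Roch spaces**, from finite dimensionality of all `L(E)`. -/
theorem ratDescSpec
    (hfin : ∀ E : Divisor Qb (FB F₀), Module.Finite Qb (riemannRochSpace E)) :
    RatDescSpec F₀ := by
  intro E hE
  have := hfin E
  obtain ⟨b, hbli, hbW, hbspan, -, hspan⟩ := exists_ratRR_basis F₀ hE
  refine ⟨?_, ?_, ?_⟩
  · rw [← hbspan]
    exact Module.Finite.span_of_finite ℚ (Set.finite_range b)
  · rw [← hbspan, finrank_span_eq_card hbli, Fintype.card_fin]
  · apply le_antisymm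
    · rw [Submodule.span_le]
      rintro _ ⟨f, hf, rfl⟩
      exact hf
    · calc riemannRochSpace E
          = Submodule.span Qb (Set.range (fun i => helper3197.ratEmb F₀ (b i))) := hspan.symm
        _ ≤ Submodule.span Qb (helper3197.ratEmb F₀ '' (ratRR F₀ E : Set F₀)) := by
          apply Submodule.span_mono
          rintro _ ⟨i, rfl⟩
          exact ⟨b i, hbW i, rfl⟩

/-- (L2) from (L1). -/
theorem ratDescSpec_of_riemannSpec (h : RiemannSpec F₀) : RatDescSpec F₀ :=
  ratDescSpec F₀ h.1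

/-! ### Rational divisors -/

theorem isRat_zero : IsRat F₀ 0 := fun _ => smul_zero _

variable {F₀}

theorem isRat_add {D E : Divisor Qb (FB F₀)} (hD : IsRat F₀ D) (hE : IsRat F₀ E) :
    IsRat F₀ (D + E) := fun σ => by rw [smul_add, hD σ, hE σ]

theorem isRat_neg {D : Divisor Qb (FB F₀)} (hD : IsRat F₀ D) : IsRat F₀ (-D) :=
  fun σ => by rw [smul_neg, hD σ]

theorem isRat_sub {D E : Divisor Qb (FB F₀)} (hD : IsRat F₀ D) (hE : IsRat F₀ E) :
    IsRat F₀ (D - E) := fun σ => by rw [smul_sub, hD σ, hE σ]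

theorem isRat_zsmul {D : Divisor Qb (FB F₀)} (hD : IsRat F₀ D) (m : ℤ) :
    IsRat F₀ (m • D) := fun σ => by rw [smul_comm, hD σ]

theorem isRat_nsmul {D : Divisor Qb (FB F₀)} (hD : IsRat F₀ D) (m : ℕ) :
    IsRat F₀ (m • D) := fun σ => by rw [smul_comm, hD σ]

theorem isRat_pt {P : Place Qb (FB F₀)} (hP : IsRatPlace F₀ P) :
    IsRat F₀ (pt P) := fun σ => by
  show arithmeticGalois F₀ σ • Finsupp.single P (1 : ℤ) = Finsupp.single P 1
  rw [SemilinearAut.smul_single, hP σ]

theorem isRat_level {P : Place Qb (FB F₀)} (hP : IsRatPlace F₀ P) (m : ℤ) :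
    IsRat F₀ (m • pt P) := isRat_zsmul (isRat_pt hP) m

/-- The value of a rational divisor is constant on Galois orbits. -/
theorem isRat_apply_smul {D : Divisor Qb (FB F₀)} (hD : IsRat F₀ D) (σ : GalQ)
    (v : Place Qb (FB F₀)) : D (arithmeticGalois F₀ σ • v) = D v := by
  have h := SemilinearAut.divisor_smul_apply_smul (arithmeticGalois F₀ σ) D v
  rwa [hD σ] at h

/-! ### Frames and dimensions -/

variable {P0 : Place Qb (FB F₀)}

/-- Under (L2), every `A_m` has a finite `ℚ`-basis: frames exist. -/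
theorem nonempty_frame (h2 : RatDescSpec F₀) (hP0 : IsRatPlace F₀ P0) :
    Nonempty (Frame F₀ P0) := by
  have hfin : ∀ m : ℤ, Module.Finite ℚ ↥(Alev F₀ P0 m) := fun m => (h2 _ (isRat_level hP0 m)).1
  exact ⟨{ n := fun m => Module.finrank ℚ ↥(Alev F₀ P0 m)
           b := fun m => haveI := hfin m; Module.finBasis ℚ ↥(Alev F₀ P0 m) }⟩

/-- `dim_ℚ A_m = ℓ(m P0)`. -/
theorem finrank_Alev (h2 : RatDescSpec F₀) (hP0 : IsRatPlace F₀ P0) (m : ℤ) :
    Module.finrank ℚ ↥(Alev F₀ P0 m) = Module.finrank Qb ↥(riemannRochSpace (m • pt P0)) :=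
  (h2 _ (isRat_level hP0 m)).2.1

/-- The cardinality of a frame at level `m` is `ℓ(m P0)`. -/
theorem Frame.n_eq (fr : Frame F₀ P0) (h2 : RatDescSpec F₀) (hP0 : IsRatPlace F₀ P0) (m : ℤ) :
    fr.n m = Module.finrank Qb ↥(riemannRochSpace (m • pt P0)) := by
  rw [← finrank_Alev h2 hP0 m, Module.finrank_eq_card_basis (fr.b m), Fintype.card_fin]

/-- For an effective divisor `D`, `W_m(D)` is `ratRR (m P0 - D)` (which lies inside `A_m`). -/
theorem ratRR_le_Alev (m : ℤ) {D : Divisor Qb (FB F₀)} (hD : 0 ≤ D) :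
    ratRR F₀ (m • pt P0 - D) ≤ Alev F₀ P0 m :=
  ratRR_mono F₀ (sub_le_self _ hD)

/-- `W_m(D) ≃ ratRR (m P0 - D)` for effective `D`. -/
def wlevEquiv (m : ℤ) {D : Divisor Qb (FB F₀)} (hD : 0 ≤ D) :
    ↥(Wlev F₀ P0 m D) ≃ₗ[ℚ] ↥(ratRR F₀ (m • pt P0 - D)) where
  toFun w := ⟨((w : ↥(Alev F₀ P0 m)) : F₀), w.2⟩
  invFun f := ⟨⟨(f : F₀), ratRR_le_Alev m hD f.2⟩, f.2⟩
  left_inv _ := rfl
  right_inv _ := rfl
  map_add' _ _ := rfl
  map_smul' _ _ := rfl

@[simp] theorem coe_wlevEquiv (m : ℤ) {D : Divisor Qb (FB F₀)} (hD : 0 ≤ D)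
    (w : ↥(Wlev F₀ P0 m D)) :
    ((wlevEquiv m hD w : ↥(ratRR F₀ (m • pt P0 - D))) : F₀) = ((w : ↥(Alev F₀ P0 m)) : F₀) := rfl

/-- `dim_ℚ W_m(D) = ℓ(m P0 - D)` for a rational effective divisor `D`. -/
theorem finrank_Wlev (h2 : RatDescSpec F₀) (hP0 : IsRatPlace F₀ P0) (m : ℤ)
    {D : Divisor Qb (FB F₀)} (hDrat : IsRat F₀ D) (hD : 0 ≤ D) :
    Module.finrank ℚ ↥(Wlev F₀ P0 m D)
      = Module.finrank Qb ↥(riemannRochSpace (m • pt P0 - D)) := by
  rw [(wlevEquiv m hD).finrank_eq]
  exact (h2 _ (isRat_sub (isRat_level hP0 m) hDrat)).2.1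

/-- `W_m(D)` is finite dimensional under (L2) (no hypothesis on `D`: it is a subspace of `A_m`). -/
theorem finite_Wlev (h2 : RatDescSpec F₀) (hP0 : IsRatPlace F₀ P0) (m : ℤ)
    (D : Divisor Qb (FB F₀)) : Module.Finite ℚ ↥(Wlev F₀ P0 m D) := by
  have : Module.Finite ℚ ↥(Alev F₀ P0 m) := (h2 _ (isRat_level hP0 m)).1
  infer_instance

/-! ### Rational functions: orders, zero divisors, nonzero elements of `ratRR` -/

/-- A rational function is fixed by the arithmetic Galois action. -/
theorem smul_spec_ratEmb (σ : GalQ) (f : F₀) :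
    arithmeticGalois F₀ σ • helper3197.ratEmb F₀ f = helper3197.ratEmb F₀ f :=
  arithmeticRingAut_ratEmb F₀ σ f

/-- The order of a rational function is constant on Galois orbits of places. -/
theorem ord_smul_ratEmb (σ : GalQ) (v : Place Qb (FB F₀)) (f : F₀) :
    (arithmeticGalois F₀ σ • v).ord (helper3197.ratEmb F₀ f)
      = v.ord (helper3197.ratEmb F₀ f) := by
  have h := SemilinearAut.ord_smul (arithmeticGalois F₀ σ) v (helper3197.ratEmb F₀ f)
  rwa [smul_spec_ratEmb] at h

/-- The zero divisor (at any level `k`) of a rational function is a rational divisor. -/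
theorem isRat_of_isZeroDiv (hP0 : IsRatPlace F₀ P0) {k : ℤ} {α : F₀} {Z : Divisor Qb (FB F₀)}
    (hZ : helper3197.IsZeroDiv F₀ P0 k α Z) : IsRat F₀ Z := by
  intro σ
  refine Finsupp.ext fun w => ?_
  rw [SemilinearAut.divisor_smul_apply, hZ, hZ]
  congr 1
  · have h := ord_smul_ratEmb σ ((arithmeticGalois F₀ σ)⁻¹ • w) α
    rw [smul_inv_smul] at h
    exact h.symm
  · rw [← SemilinearAut.divisor_smul_apply, isRat_level hP0 k σ]

/-- Under (L2), a rational divisor `E` with `L(E) ≠ 0` has a nonzero rational function in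
`L(E)`. -/
theorem exists_ne_zero_mem_ratRR (h2 : RatDescSpec F₀) {E : Divisor Qb (FB F₀)}
    (hE : IsRat F₀ E) (hpos : 0 < Module.finrank Qb ↥(riemannRochSpace E)) :
    ∃ f ∈ ratRR F₀ E, f ≠ 0 := by
  obtain ⟨hfin, hrank, -⟩ := h2 E hE
  have hpos' : 0 < Module.finrank ℚ ↥(ratRR F₀ E) := by rw [hrank]; exact hpos
  obtain ⟨x, hx⟩ := Module.finrank_pos_iff_exists_ne_zero.mp hpos'
  exact ⟨(x : F₀), x.2, fun h => hx (Subtype.ext h)⟩

/-- Under (L2), if `ℓ(E) = 1` for a rational divisor `E`, any nonzero rational function in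
`L(E)` spans `ratRR E` over `ℚ` and `L(E)` over `ℚ̄`. -/
theorem span_singleton_of_finrank_eq_one (h2 : RatDescSpec F₀) {E : Divisor Qb (FB F₀)}
    (hE : IsRat F₀ E) (h1 : Module.finrank Qb ↥(riemannRochSpace E) = 1) {f : F₀}
    (hf : f ∈ ratRR F₀ E) (hf0 : f ≠ 0) :
    Submodule.span ℚ {f} = ratRR F₀ E ∧
      Submodule.span Qb {helper3197.ratEmb F₀ f} = riemannRochSpace E := by
  obtain ⟨hfin, hrank, -⟩ := h2 E hE
  have hfinL : Module.Finite Qb ↥(riemannRochSpace E) :=
    FiniteDimensional.of_finrank_pos (by rw [h1]; exact Nat.one_pos)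
  constructor
  · apply Submodule.eq_of_le_of_finrank_eq
    · rw [Submodule.span_singleton_le_iff_mem]
      exact hf
    · rw [finrank_span_singleton hf0, hrank, h1]
  · apply Submodule.eq_of_le_of_finrank_eq
    · rw [Submodule.span_singleton_le_iff_mem]
      exact hf
    · rw [finrank_span_singleton, h1]
      intro h
      exact hf0 ((helper3197.ratEmb F₀).injective (by rw [h, map_zero]))

end Setting

end

end Fermat.Agent.S17.helper1935
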