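/-
S17 (Mordell–Weil for `JZero N`), Pluecker track, leaf S17-CLASSINV (board 1753):
class invariance (1a) of the Pluecker height, abstract core.  Mathlib only.

Setting: `K` a field with admissible absolute values, finite index types `a b c` (bases of
`V₁ = A_n`, `V₂ = A_m`, `V₃ = A_{m+n}`), structure constants `μ : a → Matrix c b K` of a
multiplication `V₁ × V₂ → V₃` (`μ i` = matrix of multiplication by the `i`-th basis vector of
`V₁`), `mulMat μ α = ∑ i, α i • μ i`.  Frames `w : Fin r → b → K` of `r`-dimensional subspaces of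
`V₂`, Pluecker vector `plk w : (Fin r → b) → K`, `plk w s = det (w i (s j))` (ALL-MAPS indexing).

Main results (`L` algebraically closed over `K`, multiplication without zero divisors over `L`):
* `det_mul_eq_sum_maps`      : Cauchy–Binet in all-maps form (multilinearity of `det` only).
* `plk_mulVec`               : `plk (M · w) = kron M r (plk w)` (Kronecker power).
* `exists_mulHeight_eval_ge` : height lower bound for base-point-free homogeneous maps
                               (projective Nullstellensatz witnesses + Mathlib `mulHeight_eval_ge'`).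
* `exists_mulHeight_kron_le`, `exists_mulHeight_kron_ge`, `exists_mulHeight_kron_bounds`,
  `exists_logHeight_kron_bound` : `H(α^{⊗r} · y) ≍ H(α)^r H(y)`.
* `exists_logHeight_plk_mul_bound` : (CI1) `h(plk(α·w)) = r h(α) + h(plk w) + O(1)`.
* `exists_exchange_bound`    : (CI1'') if `α · W = β · W'` then
                               `r h(α) + h(plk w) = r h(β) + h(plk w') + O(1)`.
* `abs_sub_le_of_exchange`   : (CI2) the formal class-invariance step for
                               `Ψ = Φ - r * Hinf` from exchange + norm dictionary + additivity.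
-/
import Mathlib

set_option autoImplicit false
set_option linter.unusedSectionVars false

namespace Fermat.Agent.S17.helper3436

open Height Matrix

noncomputable section

section CB0

variable {R : Type*} [CommRing R] {n m : Type*} [Fintype n] [DecidableEq n] [Fintype m]

/-- Cauchy–Binet in "all maps" form: only multilinearity of the determinant. -/
theorem det_mul_eq_sum_maps (A : Matrix n m R) (B : Matrix m n R) :
    (A * B).det = ∑ s : n → m, (∏ i, A i (s i)) * (B.submatrix s id).det := by
  classical
  have h1 : (A * B) = Matrix.of fun i => ∑ x, A i x • B x := by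
    ext i j
    simp [Matrix.mul_apply, Finset.sum_apply]
  have h2 : (A * B).det = Matrix.detRowAlternating (fun i => ∑ x, A i x • B x) := by
    rw [h1]; rfl
  rw [h2]
  rw [AlternatingMap.coe_multilinearMap (Matrix.detRowAlternating (R := R) (n := n)) |>.symm]
  rw [MultilinearMap.map_sum]
  refine Finset.sum_congr rfl fun s _ => ?_
  rw [MultilinearMap.map_smul_univ]
  rfl

end CB0

section Homog

variable {σ R : Type*} [CommRing R] {n : Type*} [Fintype n] [DecidableEq n]

/-- A determinant whose `i`-th row consists of homogeneous polynomials of degree `d i` is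
homogeneous of degree `∑ i, d i`. -/
theorem det_isHomogeneous_of_rows (P : Matrix n n (MvPolynomial σ R)) (d : n → ℕ)
    (hP : ∀ i j, (P i j).IsHomogeneous (d i)) : P.det.IsHomogeneous (∑ i, d i) := by
  classical
  rw [Matrix.det_apply]
  refine MvPolynomial.IsHomogeneous.sum _ _ _ fun τ _ => ?_
  have hprod : (∏ i, P (τ i) i).IsHomogeneous (∑ i, d i) := by
    have h := MvPolynomial.IsHomogeneous.prod Finset.univ (fun i => P (τ i) i) (fun i => d (τ i))
      (fun i _ => hP (τ i) i)
    rwa [Equiv.sum_comp τ d] at h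
  rcases Int.units_eq_one_or (Equiv.Perm.sign τ) with h | h
  · rw [h, one_smul]; exact hprod
  · rw [h, Units.neg_smul, one_smul]; exact hprod.neg

theorem det_isHomogeneous (P : Matrix n n (MvPolynomial σ R))
    (hP : ∀ i j, (P i j).IsHomogeneous 1) : P.det.IsHomogeneous (Fintype.card n) := by
  have := det_isHomogeneous_of_rows P (fun _ => 1) hP
  simpa using this

theorem adjugate_isHomogeneous (P : Matrix n n (MvPolynomial σ R))
    (hP : ∀ i j, (P i j).IsHomogeneous 1) (i j : n) :
    (P.adjugate i j).IsHomogeneous (Fintype.card n - 1) := by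
  classical
  rw [Matrix.adjugate_apply]
  have h := det_isHomogeneous_of_rows (P.updateRow j (Pi.single i 1))
    (fun k => if k = j then 0 else 1) (fun k l => by
      by_cases hk : k = j
      · subst hk
        simp only [Matrix.updateRow_self, if_true]
        by_cases hl : l = i
        · subst hl; simpa using MvPolynomial.isHomogeneous_one σ R
        · rw [Pi.single_eq_of_ne hl]; exact MvPolynomial.isHomogeneous_zero σ R 0
      · simp only [Matrix.updateRow_ne hk, if_neg hk]
        exact hP k l)
  have hsum : ∑ k : n, (if k = j then 0 else 1) = Fintype.card n - 1 := by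
    rw [Finset.sum_ite, Finset.sum_const_zero, zero_add, Finset.sum_const, smul_eq_mul, mul_one,
      Finset.filter_ne' Finset.univ j, Finset.card_erase_of_mem (Finset.mem_univ j),
      Finset.card_univ]
  rwa [hsum] at h

end Homog

section Kron

variable {R : Type*} [CommRing R] {b c : Type*} [Fintype b] [Fintype c]

/-- Plücker vector of a frame, indexed by ALL maps `Fin r → b`. -/
def plk {r : ℕ} (w : Fin r → b → R) : (Fin r → b) → R :=
  fun s => Matrix.det (Matrix.of fun i j => w i (s j))

/-- Action of the `r`-th Kronecker power of a matrix on vectors indexed by all maps. -/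
def kron (M : Matrix c b R) (r : ℕ) (y : (Fin r → b) → R) : (Fin r → c) → R :=
  fun t => ∑ s : Fin r → b, (∏ j, M (t j) (s j)) * y s

theorem plk_mulVec [DecidableEq b] (M : Matrix c b R) {r : ℕ} (w : Fin r → b → R) :
    plk (fun i => M.mulVec (w i)) = kron M r (plk w) := by
  classical
  funext t
  unfold plk kron
  have h : (Matrix.of fun i j => (M.mulVec (w i)) (t j)) =
      ((Matrix.of fun (j : Fin r) (x : b) => M (t j) x) * (Matrix.of fun (x : b) (i : Fin r) => w i x))ᵀ := by
    ext i j
    simp [Matrix.mul_apply, Matrix.mulVec, dotProduct]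
  rw [h, Matrix.det_transpose, det_mul_eq_sum_maps]
  refine Finset.sum_congr rfl fun s _ => ?_
  congr 1
  rw [← Matrix.det_transpose]
  rfl

theorem kron_kron_of_mul_eq_smul_one [DecidableEq b] (N : Matrix b c R) (M : Matrix c b R) (d : R)
    (h : N * M = d • (1 : Matrix b b R)) (r : ℕ) (y : (Fin r → b) → R) :
    kron N r (kron M r y) = d ^ r • y := by
  classical
  funext u
  unfold kron
  simp only [Pi.smul_apply, smul_eq_mul]
  have key : ∀ s : Fin r → b, ∑ t : Fin r → c, (∏ j, N (u j) (t j)) * (∏ j, M (t j) (s j))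
      = if s = u then d ^ r else 0 := by
    intro s
    have : ∑ t : Fin r → c, (∏ j, N (u j) (t j)) * (∏ j, M (t j) (s j))
        = ∏ j, ∑ x : c, N (u j) x * M x (s j) := by
      rw [Finset.prod_univ_sum]
      simp only [Fintype.piFinset_univ]
      refine Finset.sum_congr rfl fun t _ => ?_
      rw [Finset.prod_mul_distrib]
    rw [this]
    have h2 : ∀ j, ∑ x : c, N (u j) x * M x (s j) = if u j = s j then d else 0 := by
      intro j
      have := congrFun (congrFun h (u j)) (s j)
      simp only [Matrix.mul_apply, Matrix.smul_apply, Matrix.one_apply, smul_eq_mul, mul_ite,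
        mul_one, mul_zero] at this
      exact this
    simp only [h2]
    by_cases hsu : s = u
    · subst hsu; simp
    · rw [if_neg hsu]
      obtain ⟨j, hj⟩ : ∃ j, s j ≠ u j := by
        by_contra hcon
        push Not at hcon
        exact hsu (funext hcon)
      exact Finset.prod_eq_zero (Finset.mem_univ j) (by rw [if_neg (Ne.symm hj)])
  calc ∑ t : Fin r → c, (∏ j, N (u j) (t j)) * ∑ s : Fin r → b, (∏ j, M (t j) (s j)) * y s
      = ∑ s : Fin r → b, (∑ t : Fin r → c, (∏ j, N (u j) (t j)) * (∏ j, M (t j) (s j))) * y s := by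
        simp only [Finset.mul_sum, Finset.sum_mul]
        rw [Finset.sum_comm]
        refine Finset.sum_congr rfl fun s _ => Finset.sum_congr rfl fun t _ => by ring
    _ = d ^ r * y u := by
        simp only [key, ite_mul, zero_mul, Finset.sum_ite_eq', Finset.mem_univ, if_true]

end Kron

section BPF

theorem homogeneousComponent_mul_of_isHomogeneous {σ R : Type*} [CommSemiring R]
    (Q p : MvPolynomial σ R) {M N : ℕ} (hp : p.IsHomogeneous N) :
    MvPolynomial.homogeneousComponent (M + N) (Q * p)
      = MvPolynomial.homogeneousComponent M Q * p := by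
  classical
  have hQ := MvPolynomial.sum_homogeneousComponent Q
  conv_lhs => rw [← hQ, Finset.sum_mul, map_sum]
  have h1 : ∀ i ∈ Finset.range (Q.totalDegree + 1),
      MvPolynomial.homogeneousComponent (M + N) (MvPolynomial.homogeneousComponent i Q * p)
        = if i = M then MvPolynomial.homogeneousComponent M Q * p else 0 := by
    intro i _
    have hmem : MvPolynomial.homogeneousComponent i Q * p ∈
        MvPolynomial.homogeneousSubmodule σ R (i + N) :=
      (MvPolynomial.homogeneousComponent_isHomogeneous i Q).mul hp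
    rw [MvPolynomial.homogeneousComponent_of_mem hmem]
    by_cases hi : i = M
    · subst hi; simp
    · rw [if_neg hi, if_neg]
      omega
  rw [Finset.sum_congr rfl h1, Finset.sum_ite_eq']
  split_ifs with hM
  · rfl
  · rw [MvPolynomial.homogeneousComponent_eq_zero, zero_mul]
    simp only [Finset.mem_range, not_lt] at hM
    omega

variable {K : Type*} [Field K] {ι ι' : Type*}

/-- Projective Nullstellensatz witnesses: homogeneous polynomials of degree `N` over `K` without
common nontrivial zero over an algebraically closed extension `L` admit homogeneous cofactors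
`q` of some degree `M` with `∑ j, q (k, j) * p j = X k ^ (M + N)`. -/
theorem exists_homogeneous_witness (L : Type*) [Field L] [Algebra K L] [IsAlgClosed L]
    [Finite ι] [Fintype ι'] {N : ℕ} (p : ι' → MvPolynomial ι K)
    (hp : ∀ j, (p j).IsHomogeneous N)
    (h0 : ∀ x : ι → L, (∀ j, MvPolynomial.aeval x (p j) = 0) → x = 0) :
    ∃ (M : ℕ) (q : ι × ι' → MvPolynomial ι K), (∀ a, (q a).IsHomogeneous M) ∧
      ∀ k, ∑ j, q (k, j) * p j = MvPolynomial.X k ^ (M + N) := by
  classical
  cases nonempty_fintype ι
  set I : Ideal (MvPolynomial ι K) := Ideal.span (Set.range p) with hI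
  have hX : ∀ k, (MvPolynomial.X k : MvPolynomial ι K) ∈ I.radical := by
    intro k
    rw [← MvPolynomial.vanishingIdeal_zeroLocus_eq_radical (K := L), MvPolynomial.mem_vanishingIdeal_iff]
    intro x hx
    have hx0 : x = 0 := h0 x fun j => hx (p j) (Ideal.subset_span ⟨j, rfl⟩)
    simp [hx0]
  choose n hn using fun k => Ideal.mem_radical_iff.mp (hX k)
  set M : ℕ := ∑ k, n k with hM
  have hXM : ∀ k, (MvPolynomial.X k : MvPolynomial ι K) ^ (M + N) ∈ I := by
    intro k
    have hle : n k ≤ M := Finset.single_le_sum (f := n) (fun _ _ => Nat.zero_le _) (Finset.mem_univ k)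
    have : (MvPolynomial.X k : MvPolynomial ι K) ^ (M + N)
        = MvPolynomial.X k ^ (M + N - n k) * MvPolynomial.X k ^ n k := by
      rw [← pow_add]; congr 1; omega
    rw [this]
    exact I.mul_mem_left _ (hn k)
  choose Q hQ using fun k => (Ideal.mem_span_range_iff_exists_fun).mp (hXM k)
  refine ⟨M, fun a => MvPolynomial.homogeneousComponent M (Q a.1 a.2),
    fun a => MvPolynomial.homogeneousComponent_isHomogeneous M _, fun k => ?_⟩
  have h1 : ∑ j, MvPolynomial.homogeneousComponent M (Q k j) * p j
      = MvPolynomial.homogeneousComponent (M + N) (∑ j, Q k j * p j) := by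
    rw [map_sum]
    exact Finset.sum_congr rfl fun j _ =>
      (homogeneousComponent_mul_of_isHomogeneous (Q k j) (p j) (hp j)).symm
  rw [h1, hQ k]
  have hmem : (MvPolynomial.X k : MvPolynomial ι K) ^ (M + N) ∈
      MvPolynomial.homogeneousSubmodule ι K (M + N) := MvPolynomial.isHomogeneous_X_pow k (M + N)
  rw [MvPolynomial.homogeneousComponent_of_mem hmem, if_pos rfl]

/-- Height lower bound for base-point-free homogeneous polynomial maps. -/
theorem exists_mulHeight_eval_ge [AdmissibleAbsValues K] (L : Type*) [Field L] [Algebra K L]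
    [IsAlgClosed L] [Finite ι] [Fintype ι'] {N : ℕ} (p : ι' → MvPolynomial ι K)
    (hp : ∀ j, (p j).IsHomogeneous N)
    (h0 : ∀ x : ι → L, (∀ j, MvPolynomial.aeval x (p j) = 0) → x = 0) :
    ∃ C > 0, ∀ x : ι → K, C * mulHeight x ^ N ≤ mulHeight (fun j => (p j).eval x) := by
  obtain ⟨M, q, hq, hqp⟩ := exists_homogeneous_witness L p hp h0
  obtain ⟨C, hC, h⟩ := mulHeight_eval_ge' (K := K) (N := N) hq
  refine ⟨C, hC, fun x => h p fun k => ?_⟩
  have := congrArg (MvPolynomial.eval x) (hqp k)
  simpa [map_sum] using this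

end BPF

section PolyMat

variable {K : Type*} [Field K] {a b c : Type*} [Fintype a] [Fintype b] [Fintype c]

/-- Matrix of "multiplication by `α`": `∑ i, α i • μ i` for structure constants `μ`. -/
def mulMat (μ : a → Matrix c b K) (α : a → K) : Matrix c b K := ∑ i, α i • μ i

theorem mulMat_apply (μ : a → Matrix c b K) (α : a → K) (y : c) (x : b) :
    mulMat μ α y x = ∑ i, α i * μ i y x := by
  simp [mulMat, Matrix.sum_apply]

/-- The generic multiplication matrix, with entries linear forms in the coordinates of `α`. -/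
def polyMat (μ : a → Matrix c b K) : Matrix c b (MvPolynomial a K) :=
  Matrix.of fun y x => ∑ i, MvPolynomial.C (μ i y x) * MvPolynomial.X i

theorem polyMat_isHomogeneous (μ : a → Matrix c b K) (y : c) (x : b) :
    (polyMat μ y x).IsHomogeneous 1 :=
  MvPolynomial.IsHomogeneous.sum _ _ _ fun _ _ => MvPolynomial.isHomogeneous_C_mul_X _ _

theorem eval_polyMat (μ : a → Matrix c b K) (α : a → K) (y : c) (x : b) :
    MvPolynomial.eval α (polyMat μ y x) = mulMat μ α y x := by
  simp [polyMat, mulMat_apply, mul_comm]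

theorem aeval_polyMat {L : Type*} [Field L] [Algebra K L] (μ : a → Matrix c b K) (ξ : a → L)
    (y : c) (x : b) :
    MvPolynomial.aeval ξ (polyMat μ y x) = (∑ i, ξ i • (μ i).map (algebraMap K L)) y x := by
  simp [polyMat, Matrix.sum_apply, mul_comm]

variable [DecidableEq b]

/-- Maximal minors of the generic multiplication matrix, indexed by all maps `b → c`. -/
def minorPoly (μ : a → Matrix c b K) (e : b → c) : MvPolynomial a K :=
  ((polyMat μ).submatrix e id).det

theorem minorPoly_isHomogeneous (μ : a → Matrix c b K) (e : b → c) :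
    (minorPoly μ e).IsHomogeneous (Fintype.card b) :=
  det_isHomogeneous _ fun i j => polyMat_isHomogeneous μ (e i) j

variable [DecidableEq c]

/-- A left inverse of the generic multiplication matrix up to the minor `minorPoly μ e`. -/
def leftInv (μ : a → Matrix c b K) (e : b → c) : Matrix b c (MvPolynomial a K) :=
  ((polyMat μ).submatrix e id).adjugate *
    Matrix.of fun x y => if e x = y then (1 : MvPolynomial a K) else 0

theorem leftInv_mul (μ : a → Matrix c b K) (e : b → c) :
    leftInv μ e * polyMat μ = minorPoly μ e • (1 : Matrix b b (MvPolynomial a K)) := by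
  unfold leftInv
  rw [Matrix.mul_assoc]
  have h : (Matrix.of fun x y => if e x = y then (1 : MvPolynomial a K) else 0) * polyMat μ
      = (polyMat μ).submatrix e id := by
    ext x z
    simp [Matrix.mul_apply]
  rw [h, Matrix.adjugate_mul]
  rfl

theorem leftInv_isHomogeneous (μ : a → Matrix c b K) (e : b → c) (x : b) (y : c) :
    (leftInv μ e x y).IsHomogeneous (Fintype.card b - 1) := by
  unfold leftInv
  rw [Matrix.mul_apply]
  refine MvPolynomial.IsHomogeneous.sum _ _ _ fun x' _ => ?_
  have h1 := adjugate_isHomogeneous ((polyMat μ).submatrix e id)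
    (fun i j => polyMat_isHomogeneous μ (e i) j) x x'
  have h2 : (if e x' = y then (1 : MvPolynomial a K) else 0).IsHomogeneous 0 := by
    split_ifs
    · exact MvPolynomial.isHomogeneous_one _ _
    · exact MvPolynomial.isHomogeneous_zero _ _ _
  simpa using h1.mul h2

/-- An injective matrix over a field has a nonzero maximal minor. -/
theorem exists_minor_ne_zero {F : Type*} [Field F] (M : Matrix c b F)
    (hM : ∀ w : b → F, M *ᵥ w = 0 → w = 0) : ∃ e : b → c, (M.submatrix e id).det ≠ 0 := by
  classical
  have hker : LinearMap.ker M.mulVecLin = ⊥ := by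
    rw [LinearMap.ker_eq_bot']
    intro w hw
    exact hM w (by simpa using hw)
  obtain ⟨g, hg⟩ := LinearMap.exists_leftInverse_of_injective M.mulVecLin hker
  have hNM : LinearMap.toMatrix' g * M = 1 := by
    have h1 : LinearMap.toMatrix' (g.comp M.mulVecLin) = 1 := by rw [hg]; simp
    rwa [LinearMap.toMatrix'_comp, ← Matrix.toLin'_apply', LinearMap.toMatrix'_toLin'] at h1
  by_contra hcon
  push Not at hcon
  have hdet := det_mul_eq_sum_maps (LinearMap.toMatrix' g) M
  rw [hNM, Matrix.det_one] at hdet
  simp [hcon] at hdet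

end PolyMat

section Main

variable {K : Type*} [Field K] [AdmissibleAbsValues K] {a b c : Type*} [Fintype a] [Fintype b]
  [Fintype c] [DecidableEq b] [DecidableEq c]

/-- **Upper bound.** The height of the `r`-th Kronecker power of the multiplication matrix
applied to `y` is at most `C * H(α)^r * H(y)`. -/
theorem exists_mulHeight_kron_le (μ : a → Matrix c b K) (r : ℕ) :
    ∃ C > 0, ∀ (α : a → K) (y : (Fin r → b) → K),
      mulHeight (kron (mulMat μ α) r y) ≤ C * mulHeight α ^ r * mulHeight y := by
  classical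
  set P : (Fin r → c) × (Fin r → b) → MvPolynomial a K :=
    fun p => ∏ j, polyMat μ (p.1 j) (p.2 j) with hPdef
  have hP : ∀ p, (P p).IsHomogeneous r := by
    intro p
    have h := MvPolynomial.IsHomogeneous.prod Finset.univ (fun j => polyMat μ (p.1 j) (p.2 j))
      (fun _ => 1) (fun j _ => polyMat_isHomogeneous μ (p.1 j) (p.2 j))
    simpa using h
  set c₁ : ℝ := (Nat.card (Fin r → b) : ℝ) ^ totalWeight K with hc₁
  set c₂ : ℝ := max (mulHeightBound P) 1 with hc₂
  have hc₂pos : 0 < c₂ := lt_of_lt_of_le one_pos (le_max_right _ _)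
  have hc₂one : 1 ≤ c₂ := le_max_right _ _
  refine ⟨max c₁ 1 * c₂, by positivity, fun α y => ?_⟩
  have hHα : 1 ≤ mulHeight α ^ r := one_le_pow₀ (one_le_mulHeight α)
  have hHy : 1 ≤ mulHeight y := one_le_mulHeight y
  rcases isEmpty_or_nonempty (Fin r → b) with hE | hN
  · have hz : kron (mulMat μ α) r y = 0 := by
      funext t
      simp [kron]
    rw [hz, mulHeight_zero]
    have h1 : (1 : ℝ) ≤ max c₁ 1 * c₂ := by
      calc (1 : ℝ) = 1 * 1 := by ring
        _ ≤ max c₁ 1 * c₂ := mul_le_mul (le_max_right _ _) hc₂one zero_le_one (by positivity)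
    calc (1 : ℝ) = 1 * 1 * 1 := by ring
      _ ≤ max c₁ 1 * c₂ * mulHeight α ^ r * mulHeight y := by
        apply mul_le_mul (mul_le_mul h1 hHα zero_le_one (by positivity)) hHy zero_le_one
        positivity
  · have hlin := mulHeight_linearMap_apply_le (fun p => MvPolynomial.eval α (P p)) y
    have hfun : (fun t : Fin r → c => ∑ s : Fin r → b, MvPolynomial.eval α (P (t, s)) * y s)
        = kron (mulMat μ α) r y := by
      funext t
      unfold kron
      refine Finset.sum_congr rfl fun s _ => ?_
      rw [hPdef]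
      simp only [map_prod, eval_polyMat]
    rw [hfun] at hlin
    have hA := mulHeight_eval_le hP α
    have hc₁nn : 0 ≤ c₁ := by positivity
    calc mulHeight (kron (mulMat μ α) r y)
        ≤ c₁ * mulHeight (fun p => MvPolynomial.eval α (P p)) * mulHeight y := hlin
      _ ≤ c₁ * (c₂ * mulHeight α ^ r) * mulHeight y := by
        apply mul_le_mul_of_nonneg_right _ (by positivity)
        exact mul_le_mul_of_nonneg_left hA hc₁nn
      _ ≤ max c₁ 1 * (c₂ * mulHeight α ^ r) * mulHeight y := by
        apply mul_le_mul_of_nonneg_right _ (by positivity)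
        exact mul_le_mul_of_nonneg_right (le_max_left _ _) (by positivity)
      _ = max c₁ 1 * c₂ * mulHeight α ^ r * mulHeight y := by ring

end Main

section MainLower

variable {K : Type*} [Field K] [AdmissibleAbsValues K] {a b c : Type*} [Fintype a] [Fintype b]
  [Fintype c] [DecidableEq b] [DecidableEq c]

/-- The maximal minors of the generic multiplication matrix have no common zero (over an
algebraically closed extension) except `0`, if the multiplication has no zero divisors. -/
theorem minorPoly_noCommonZero (L : Type*) [Field L] [Algebra K L] (μ : a → Matrix c b K)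
    (hμ : ∀ (ξ : a → L) (w : b → L),
      (∑ i, ξ i • (μ i).map (algebraMap K L)) *ᵥ w = 0 → ξ = 0 ∨ w = 0)
    (ξ : a → L) (h : ∀ e : b → c, MvPolynomial.aeval ξ (minorPoly μ e) = 0) : ξ = 0 := by
  classical
  by_contra hξ
  obtain ⟨e, he⟩ := exists_minor_ne_zero (∑ i, ξ i • (μ i).map (algebraMap K L))
    (fun w hw => (hμ ξ w hw).resolve_left hξ)
  apply he
  have h1 := h e
  unfold minorPoly at h1
  rw [AlgHom.map_det] at h1
  rw [← h1]
  congr 1
  ext x z
  simp only [Matrix.submatrix_apply, id_eq, AlgHom.mapMatrix_apply, Matrix.map_apply]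
  exact (aeval_polyMat μ ξ (e x) z).symm

/-- **Lower bound.** If the multiplication has no zero divisors over an algebraically closed
extension `L` of `K`, then the height of the `r`-th Kronecker power of the multiplication
matrix applied to `y` is at least `C * H(α)^r * H(y)`. -/
theorem exists_mulHeight_kron_ge (L : Type*) [Field L] [Algebra K L] [IsAlgClosed L]
    (μ : a → Matrix c b K)
    (hμ : ∀ (ξ : a → L) (w : b → L),
      (∑ i, ξ i • (μ i).map (algebraMap K L)) *ᵥ w = 0 → ξ = 0 ∨ w = 0) (r : ℕ) :
    ∃ C > 0, ∀ (α : a → K) (y : (Fin r → b) → K), α ≠ 0 → y ≠ 0 →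
      C * mulHeight α ^ r * mulHeight y ≤ mulHeight (kron (mulMat μ α) r y) := by
  classical
  obtain ⟨C', hC', hH2⟩ := exists_mulHeight_eval_ge L (minorPoly μ) (minorPoly_isHomogeneous μ)
    (minorPoly_noCommonZero L μ hμ)
  set n := Fintype.card b with hn
  set Bfam : ((b → c) × (Fin r → b)) × (Fin r → c) → MvPolynomial a K :=
    fun p => ∏ j, leftInv μ p.1.1 (p.1.2 j) (p.2 j) with hBdef
  have hB : ∀ p, (Bfam p).IsHomogeneous (r * (n - 1)) := by
    intro p
    have h := MvPolynomial.IsHomogeneous.prod Finset.univ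
      (fun j => leftInv μ p.1.1 (p.1.2 j) (p.2 j)) (fun _ => n - 1)
      (fun j _ => leftInv_isHomogeneous μ p.1.1 (p.1.2 j) (p.2 j))
    simpa using h
  set c₁ : ℝ := (Nat.card (Fin r → c) : ℝ) ^ totalWeight K with hc₁
  set c₂ : ℝ := max (mulHeightBound Bfam) 1 with hc₂
  have hc₂pos : 0 < c₂ := lt_of_lt_of_le one_pos (le_max_right _ _)
  refine ⟨C' ^ r / (max c₁ 1 * c₂), by positivity, fun α y hα hy => ?_⟩
  set φ := MvPolynomial.eval α with hφ
  set z := kron (mulMat μ α) r y with hz
  -- some minor does not vanish at `α`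
  have hne : ∃ e : b → c, φ (minorPoly μ e) ≠ 0 := by
    by_contra hcon
    push Not at hcon
    have h0 := minorPoly_noCommonZero L μ hμ (fun i => algebraMap K L (α i)) (fun e => by
      have h1 : MvPolynomial.aeval (fun i => algebraMap K L (α i)) (minorPoly μ e)
          = algebraMap K L (MvPolynomial.eval α (minorPoly μ e)) := by
        have := MvPolynomial.aeval_algebraMap_apply (B := L) α (minorPoly μ e)
        simpa [Function.comp_def] using this
      rw [h1, hcon e, map_zero])
    apply hα
    funext i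
    have := congrFun h0 i
    simpa using this
  obtain ⟨e₀, he₀⟩ := hne
  obtain ⟨u₀, hu₀⟩ : ∃ u, y u ≠ 0 := by
    by_contra hcon
    push Not at hcon
    exact hy (funext hcon)
  -- the key identity: left inverse applied to `z`
  have hmulMat : (polyMat μ).map φ = mulMat μ α := by
    ext y' x
    exact eval_polyMat μ α y' x
  have hleft : ∀ e : b → c, (leftInv μ e).map φ * mulMat μ α
      = φ (minorPoly μ e) • (1 : Matrix b b K) := by
    intro e
    have h := congrArg (fun M : Matrix b b (MvPolynomial a K) => M.map φ) (leftInv_mul μ e)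
    simp only [Matrix.map_mul, hmulMat] at h
    rw [h]
    ext x x'
    by_cases hxx : x = x'
    · subst hxx; simp
    · simp [hxx]
  have hkey : ∀ (e : b → c) (u : Fin r → b),
      ∑ t : Fin r → c, φ (Bfam ((e, u), t)) * z t = φ (minorPoly μ e) ^ r * y u := by
    intro e u
    have h := congrFun (kron_kron_of_mul_eq_smul_one ((leftInv μ e).map φ) (mulMat μ α)
      (φ (minorPoly μ e)) (hleft e) r y) u
    simp only [Pi.smul_apply, smul_eq_mul] at h
    rw [← h]
    unfold kron
    refine Finset.sum_congr rfl fun t _ => ?_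
    rw [hBdef]
    simp only [map_prod, Matrix.map_apply]
    rfl
  -- nonemptiness of the target index type
  have hNE : Nonempty (Fin r → c) := by
    by_contra hcon
    rw [not_nonempty_iff] at hcon
    have h := hkey e₀ u₀
    rw [Finset.univ_eq_empty, Finset.sum_empty] at h
    exact mul_ne_zero (pow_ne_zero r he₀) hu₀ h.symm
  -- the vector `w`
  set x : (b → c) → K := fun e => φ (minorPoly μ e) with hx
  have hxr : x ^ r ≠ 0 := by
    intro h
    have := congrFun h e₀
    simp only [Pi.pow_apply, Pi.zero_apply] at this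
    exact pow_ne_zero r he₀ this
  have hw_eq : mulHeight (fun p : (b → c) × (Fin r → b) => (x ^ r) p.1 * y p.2)
      = mulHeight x ^ r * mulHeight y := by
    rw [mulHeight_fun_mul_eq hxr hy, mulHeight_pow]
  have hlin := mulHeight_linearMap_apply_le (fun p => φ (Bfam p)) z
  have hfun : (fun q : (b → c) × (Fin r → b) => ∑ t : Fin r → c, φ (Bfam (q, t)) * z t)
      = fun p : (b → c) × (Fin r → b) => (x ^ r) p.1 * y p.2 := by
    funext q
    rw [hkey q.1 q.2]
    rfl
  rw [hfun, hw_eq] at hlin
  have hA : mulHeight (fun p => φ (Bfam p)) ≤ c₂ * mulHeight α ^ (r * (n - 1)) :=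
    mulHeight_eval_le hB α
  have hΔ : C' * mulHeight α ^ n ≤ mulHeight x := hH2 α
  -- numerics
  have hHα1 : 1 ≤ mulHeight α := one_le_mulHeight α
  have hHαpos : 0 < mulHeight α := mulHeight_pos α
  have hexp : r + r * (n - 1) = n * r := by
    rcases Nat.eq_zero_or_pos r with hr | hr
    · subst hr; simp
    · have hb : Nonempty b := ⟨u₀ ⟨0, hr⟩⟩
      have hn1 : 1 ≤ n := Fintype.card_pos
      have : n = (n - 1) + 1 := by omega
      conv_rhs => rw [this]
      ring
  have hc₁nn : 0 ≤ c₁ := by positivity
  have hzpos : 0 < mulHeight z := mulHeight_pos z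
  have hypos : 0 < mulHeight y := mulHeight_pos y
  have h1 : (C' * mulHeight α ^ n) ^ r * mulHeight y
      ≤ max c₁ 1 * c₂ * mulHeight α ^ (r * (n - 1)) * mulHeight z := by
    calc (C' * mulHeight α ^ n) ^ r * mulHeight y
        ≤ mulHeight x ^ r * mulHeight y := by
          apply mul_le_mul_of_nonneg_right _ hypos.le
          exact pow_le_pow_left₀ (by positivity) hΔ r
      _ ≤ c₁ * mulHeight (fun p => φ (Bfam p)) * mulHeight z := hlin
      _ ≤ c₁ * (c₂ * mulHeight α ^ (r * (n - 1))) * mulHeight z := by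
          apply mul_le_mul_of_nonneg_right _ hzpos.le
          exact mul_le_mul_of_nonneg_left hA hc₁nn
      _ ≤ max c₁ 1 * (c₂ * mulHeight α ^ (r * (n - 1))) * mulHeight z := by
          apply mul_le_mul_of_nonneg_right _ hzpos.le
          exact mul_le_mul_of_nonneg_right (le_max_left _ _) (by positivity)
      _ = max c₁ 1 * c₂ * mulHeight α ^ (r * (n - 1)) * mulHeight z := by ring
  have h2 : (C' * mulHeight α ^ n) ^ r * mulHeight y
      = C' ^ r * mulHeight α ^ r * mulHeight y * mulHeight α ^ (r * (n - 1)) := by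
    rw [mul_pow, ← pow_mul, ← hexp, pow_add]
    ring
  rw [h2] at h1
  have hpos : 0 < mulHeight α ^ (r * (n - 1)) := by positivity
  have h3 : C' ^ r * mulHeight α ^ r * mulHeight y ≤ max c₁ 1 * c₂ * mulHeight z := by
    have h4 : C' ^ r * mulHeight α ^ r * mulHeight y * mulHeight α ^ (r * (n - 1))
        ≤ max c₁ 1 * c₂ * mulHeight z * mulHeight α ^ (r * (n - 1)) := by
      calc C' ^ r * mulHeight α ^ r * mulHeight y * mulHeight α ^ (r * (n - 1))
          ≤ max c₁ 1 * c₂ * mulHeight α ^ (r * (n - 1)) * mulHeight z := h1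
        _ = max c₁ 1 * c₂ * mulHeight z * mulHeight α ^ (r * (n - 1)) := by ring
    exact le_of_mul_le_mul_right h4 hpos
  have hden : 0 < max c₁ 1 * c₂ := by positivity
  calc C' ^ r / (max c₁ 1 * c₂) * mulHeight α ^ r * mulHeight y
      = (C' ^ r * mulHeight α ^ r * mulHeight y) / (max c₁ 1 * c₂) := by ring
    _ ≤ (max c₁ 1 * c₂ * mulHeight z) / (max c₁ 1 * c₂) := by
        exact div_le_div_of_nonneg_right h3 hden.le
    _ = mulHeight z := by field_simp

end MainLower

section Frames

variable {K : Type*} [Field K] [AdmissibleAbsValues K] {a b c : Type*} [Fintype a] [Fintype b]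
  [Fintype c] [DecidableEq b] [DecidableEq c]

/-- Frame change: if `w' i = ∑ j, g i j • w j` then `plk w' = det g • plk w`. -/
theorem plk_frame_change {R : Type*} [CommRing R] {r : ℕ} (g : Matrix (Fin r) (Fin r) R)
    (w w' : Fin r → b → R) (h : ∀ i, w' i = ∑ j, g i j • w j) :
    plk w' = g.det • plk w := by
  funext s
  unfold plk
  have h1 : (Matrix.of fun i j => w' i (s j)) = g * Matrix.of fun i j => w i (s j) := by
    ext i j
    simp [h i, Matrix.mul_apply, Finset.sum_apply]
  rw [h1, Matrix.det_mul]
  rfl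

/-- **Two-sided bound, multiplicative form.** -/
theorem exists_mulHeight_kron_bounds (L : Type*) [Field L] [Algebra K L] [IsAlgClosed L]
    (μ : a → Matrix c b K)
    (hμ : ∀ (ξ : a → L) (w : b → L),
      (∑ i, ξ i • (μ i).map (algebraMap K L)) *ᵥ w = 0 → ξ = 0 ∨ w = 0) (r : ℕ) :
    ∃ C₁ > 0, ∃ C₂ > 0, ∀ (α : a → K) (y : (Fin r → b) → K), α ≠ 0 → y ≠ 0 →
      C₁ * mulHeight α ^ r * mulHeight y ≤ mulHeight (kron (mulMat μ α) r y) ∧
      mulHeight (kron (mulMat μ α) r y) ≤ C₂ * mulHeight α ^ r * mulHeight y := by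
  obtain ⟨C₁, hC₁, h₁⟩ := exists_mulHeight_kron_ge L μ hμ r
  obtain ⟨C₂, hC₂, h₂⟩ := exists_mulHeight_kron_le μ r
  exact ⟨C₁, hC₁, C₂, hC₂, fun α y hα hy => ⟨h₁ α y hα hy, h₂ α y⟩⟩

/-- **Two-sided bound, logarithmic form**: `h(α^{⊗ r} · y) = r h(α) + h(y) + O(1)`. -/
theorem exists_logHeight_kron_bound (L : Type*) [Field L] [Algebra K L] [IsAlgClosed L]
    (μ : a → Matrix c b K)
    (hμ : ∀ (ξ : a → L) (w : b → L),
      (∑ i, ξ i • (μ i).map (algebraMap K L)) *ᵥ w = 0 → ξ = 0 ∨ w = 0) (r : ℕ) :
    ∃ C : ℝ, ∀ (α : a → K) (y : (Fin r → b) → K), α ≠ 0 → y ≠ 0 →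
      |logHeight (kron (mulMat μ α) r y) - (r * logHeight α + logHeight y)| ≤ C := by
  obtain ⟨C₁, hC₁, C₂, hC₂, h⟩ := exists_mulHeight_kron_bounds L μ hμ r
  refine ⟨max (-Real.log C₁) (Real.log C₂), fun α y hα hy => ?_⟩
  obtain ⟨h₁, h₂⟩ := h α y hα hy
  have hα0 : 0 < mulHeight α := mulHeight_pos α
  have hy0 : 0 < mulHeight y := mulHeight_pos y
  have hz0 : 0 < mulHeight (kron (mulMat μ α) r y) := mulHeight_pos _
  simp only [logHeight_eq_log_mulHeight]
  have e₁ : Real.log (C₁ * mulHeight α ^ r * mulHeight y)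
      = Real.log C₁ + (r * Real.log (mulHeight α) + Real.log (mulHeight y)) := by
    rw [Real.log_mul (by positivity) hy0.ne', Real.log_mul hC₁.ne' (by positivity),
      Real.log_pow]
    ring
  have e₂ : Real.log (C₂ * mulHeight α ^ r * mulHeight y)
      = Real.log C₂ + (r * Real.log (mulHeight α) + Real.log (mulHeight y)) := by
    rw [Real.log_mul (by positivity) hy0.ne', Real.log_mul hC₂.ne' (by positivity),
      Real.log_pow]
    ring
  have l₁ := Real.log_le_log (by positivity) h₁
  have l₂ := Real.log_le_log hz0 h₂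
  rw [e₁] at l₁
  rw [e₂] at l₂
  rw [abs_le]
  constructor
  · have := le_max_left (-Real.log C₁) (Real.log C₂)
    linarith
  · have := le_max_right (-Real.log C₁) (Real.log C₂)
    linarith

/-- The Kronecker power of the multiplication matrix of `α ≠ 0` kills no nonzero vector. -/
theorem kron_mulMat_ne_zero (L : Type*) [Field L] [Algebra K L] [IsAlgClosed L]
    (μ : a → Matrix c b K)
    (hμ : ∀ (ξ : a → L) (w : b → L),
      (∑ i, ξ i • (μ i).map (algebraMap K L)) *ᵥ w = 0 → ξ = 0 ∨ w = 0) (r : ℕ)
    (α : a → K) (y : (Fin r → b) → K) (hα : α ≠ 0) (hy : y ≠ 0) :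
    kron (mulMat μ α) r y ≠ 0 := by
  classical
  intro hz
  set φ := MvPolynomial.eval α with hφ
  have hne : ∃ e : b → c, φ (minorPoly μ e) ≠ 0 := by
    by_contra hcon
    push Not at hcon
    have h0 := minorPoly_noCommonZero L μ hμ (fun i => algebraMap K L (α i)) (fun e => by
      have h1 : MvPolynomial.aeval (fun i => algebraMap K L (α i)) (minorPoly μ e)
          = algebraMap K L (MvPolynomial.eval α (minorPoly μ e)) := by
        have := MvPolynomial.aeval_algebraMap_apply (B := L) α (minorPoly μ e)
        simpa [Function.comp_def] using this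
      rw [h1, hcon e, map_zero])
    apply hα
    funext i
    have := congrFun h0 i
    simpa using this
  obtain ⟨e₀, he₀⟩ := hne
  obtain ⟨u₀, hu₀⟩ : ∃ u, y u ≠ 0 := by
    by_contra hcon
    push Not at hcon
    exact hy (funext hcon)
  have hmulMat : (polyMat μ).map φ = mulMat μ α := by
    ext y' x
    exact eval_polyMat μ α y' x
  have hleft : (leftInv μ e₀).map φ * mulMat μ α
      = φ (minorPoly μ e₀) • (1 : Matrix b b K) := by
    have h := congrArg (fun M : Matrix b b (MvPolynomial a K) => M.map φ) (leftInv_mul μ e₀)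
    simp only [Matrix.map_mul, hmulMat] at h
    rw [h]
    ext x x'
    by_cases hxx : x = x'
    · subst hxx; simp
    · simp [hxx]
  have h := congrFun (kron_kron_of_mul_eq_smul_one ((leftInv μ e₀).map φ) (mulMat μ α)
    (φ (minorPoly μ e₀)) hleft r y) u₀
  rw [hz] at h
  have h0 : kron ((leftInv μ e₀).map φ) r (0 : (Fin r → c) → K) u₀ = 0 := by
    simp [kron]
  rw [h0] at h
  simp only [Pi.smul_apply, smul_eq_mul] at h
  exact mul_ne_zero (pow_ne_zero r he₀) hu₀ h.symm

/-- **(CI1) Plücker height under multiplication, frame form.**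
`h(plk(α · w)) = r h(α) + h(plk w) + O(1)` uniformly in `α ≠ 0` and frames `w`. -/
theorem exists_logHeight_plk_mul_bound (L : Type*) [Field L] [Algebra K L] [IsAlgClosed L]
    (μ : a → Matrix c b K)
    (hμ : ∀ (ξ : a → L) (w : b → L),
      (∑ i, ξ i • (μ i).map (algebraMap K L)) *ᵥ w = 0 → ξ = 0 ∨ w = 0) (r : ℕ) :
    ∃ C : ℝ, ∀ (α : a → K) (w : Fin r → b → K), α ≠ 0 → plk w ≠ 0 →
      |logHeight (plk fun i => mulMat μ α *ᵥ w i) - (r * logHeight α + logHeight (plk w))| ≤ C := by
  obtain ⟨C, hC⟩ := exists_logHeight_kron_bound L μ hμ r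
  refine ⟨C, fun α w hα hw => ?_⟩
  rw [plk_mulVec]
  exact hC α (plk w) hα hw

end Frames

section Exchange

variable {K : Type*} [Field K] [AdmissibleAbsValues K] {a a' b b' c : Type*} [Fintype a]
  [Fintype a'] [Fintype b] [Fintype b'] [Fintype c] [DecidableEq b] [DecidableEq b']
  [DecidableEq c]

/-- **(CI1'') Exchange form of class invariance.** Two multiplications `V₁ × V₂ → V₃` and
`V₁' × V₂' → V₃` into the same space, without zero divisors. If `α · W = β · W'` (the frame
`α · w` is a combination of the frame `β · w'`), then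
`r h(α) + h(plk w) = r h(β) + h(plk w') + O(1)`, uniformly. -/
theorem exists_exchange_bound (L : Type*) [Field L] [Algebra K L] [IsAlgClosed L]
    (μ : a → Matrix c b K) (μ' : a' → Matrix c b' K)
    (hμ : ∀ (ξ : a → L) (w : b → L),
      (∑ i, ξ i • (μ i).map (algebraMap K L)) *ᵥ w = 0 → ξ = 0 ∨ w = 0)
    (hμ' : ∀ (ξ : a' → L) (w : b' → L),
      (∑ i, ξ i • (μ' i).map (algebraMap K L)) *ᵥ w = 0 → ξ = 0 ∨ w = 0) (r : ℕ) :
    ∃ C : ℝ, ∀ (α : a → K) (β : a' → K) (w : Fin r → b → K) (w' : Fin r → b' → K)
      (g : Matrix (Fin r) (Fin r) K), α ≠ 0 → β ≠ 0 → plk w ≠ 0 → plk w' ≠ 0 →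
      (∀ i, mulMat μ α *ᵥ w i = ∑ j, g i j • (mulMat μ' β *ᵥ w' j)) →
      |(r * logHeight α + logHeight (plk w)) - (r * logHeight β + logHeight (plk w'))| ≤ C := by
  obtain ⟨C, hC⟩ := exists_logHeight_plk_mul_bound L μ hμ r
  obtain ⟨C', hC'⟩ := exists_logHeight_plk_mul_bound L μ' hμ' r
  refine ⟨C + C', fun α β w w' g hα hβ hw hw' hg => ?_⟩
  have h1 := hC α w hα hw
  have h2 := hC' β w' hβ hw'
  have hfc := plk_frame_change g (fun j => mulMat μ' β *ᵥ w' j) (fun i => mulMat μ α *ᵥ w i) hg
  have hne : plk (fun i => mulMat μ α *ᵥ w i) ≠ 0 := by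
    rw [plk_mulVec]
    exact kron_mulMat_ne_zero L μ hμ r α (plk w) hα hw
  have hdet : g.det ≠ 0 := by
    intro h0
    rw [h0, zero_smul] at hfc
    exact hne hfc
  have heq : logHeight (plk fun i => mulMat μ α *ᵥ w i)
      = logHeight (plk fun j => mulMat μ' β *ᵥ w' j) := by
    rw [hfc]
    exact logHeight_smul_eq_logHeight _ hdet
  rw [heq] at h1
  rw [abs_le] at h1 h2 ⊢
  constructor <;> linarith [h1.1, h1.2, h2.1, h2.2]

end Exchange

section Formal

/-- **(CI2) Formal class invariance.** `Φ D`, `Φ D'` are the Pluecker heights of two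
representatives, `hα`, `hβ` the heights of the multipliers (`α · W(D) = β · W(D')`),
`HD`, `HD'`, `HZ` the naive heights of `D`, `D'` and of the common residual divisor `Z`
(`Z(α) = D' + Z`, `Z(β) = D + Z`).  From the exchange bound, the norm dictionary and additivity
of the naive height, `Ψ = Φ - r * Hinf` changes by a bounded amount. -/
theorem abs_sub_le_of_exchange {r Φ Φ' hα hβ HD HD' HZ Hα Hβ C₁ C₂ C₃ : ℝ} (hr : 0 ≤ r)
    (hex : |(r * hα + Φ) - (r * hβ + Φ')| ≤ C₁)
    (hnα : |hα - Hα| ≤ C₂) (hnβ : |hβ - Hβ| ≤ C₂)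
    (haα : |Hα - (HD' + HZ)| ≤ C₃) (haβ : |Hβ - (HD + HZ)| ≤ C₃) :
    |(Φ - r * HD) - (Φ' - r * HD')| ≤ C₁ + 2 * r * (C₂ + C₃) := by
  rw [abs_le] at hex hnα hnβ haα haβ ⊢
  have e1 : r * (hα - Hα) ≤ r * C₂ := mul_le_mul_of_nonneg_left hnα.2 hr
  have e2 : r * (-C₂) ≤ r * (hα - Hα) := mul_le_mul_of_nonneg_left hnα.1 hr
  have e3 : r * (hβ - Hβ) ≤ r * C₂ := mul_le_mul_of_nonneg_left hnβ.2 hr
  have e4 : r * (-C₂) ≤ r * (hβ - Hβ) := mul_le_mul_of_nonneg_left hnβ.1 hr
  have e5 : r * (Hα - (HD' + HZ)) ≤ r * C₃ := mul_le_mul_of_nonneg_left haα.2 hr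
  have e6 : r * (-C₃) ≤ r * (Hα - (HD' + HZ)) := mul_le_mul_of_nonneg_left haα.1 hr
  have e7 : r * (Hβ - (HD + HZ)) ≤ r * C₃ := mul_le_mul_of_nonneg_left haβ.2 hr
  have e8 : r * (-C₃) ≤ r * (Hβ - (HD + HZ)) := mul_le_mul_of_nonneg_left haβ.1 hr
  constructor <;> nlinarith [hex.1, hex.2]

end Formal

end

end Fermat.Agent.S17.helper3436
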