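import Fermat.Agent.S17.helper3197_PlueckerSpec
import Fermat.Agent.S17.helper3436_ClassInv

/-!
# S17, Pluecker track: Spec leaf L5 = `MulSpec` (helper3436)

`mulSpec : LinDisjSpec F₀ → MulSpec F₀ P0` -- the multiplication law
`Φ_{m+k}(D + Z) = Φ_m(D) + dim W_m(D) · h(α) + O(1)` of `helper3197_PlueckerSpec`.

Ingredients:
* `plkHeight_eq_of_basis`: `plkHeight b W` is the height of the all-maps Pluecker vector of the
  coordinates of ANY basis of `W` (frame change multiplies the Pluecker vector by a determinant);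
* `exists_plk_frame_of_map`: abstract transport of a frame along an injective linear map given by
  a matrix;
* `mulA`: the bilinear multiplication `A_k × A_m → A_{m+k}`, its structure constants `strConst`
  and the coordinate identity `repr_mulA`;
* `strConst_nondeg`: nondegeneracy of the multiplication over `ℚ̄` (linear disjointness and the
  absence of zero divisors in `FB F₀`);
* `map_mulA_Wlev`: multiplication by `α` maps `W_m(D)` onto `W_{m+k}(D + Z)`;
* the abstract core `exists_logHeight_plk_mul_bound` of `helper3436_ClassInv`.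
-/

set_option autoImplicit false
set_option linter.unusedSectionVars false

open ModularCurve AlgebraicCurve
open Fermat.Agent.S27.helper6247
open Fermat.Agent.S17.helper3197

namespace Fermat.Agent.S17.helper3436

noncomputable section

section PlkHeight

/-- A linearly independent frame has a nonzero all-maps Pluecker vector. -/
theorem plk_ne_zero_of_linearIndependent {F ι : Type*} [Field F] [Fintype ι] [DecidableEq ι]
    {r : ℕ} (w : Fin r → ι → F) (hw : LinearIndependent F w) : plk w ≠ 0 := by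
  classical
  have hinj : ∀ x : Fin r → F, (Matrix.of fun (j : ι) (i : Fin r) => w i j).mulVec x = 0 → x = 0 := by
    intro x hx
    have h1 : ∑ i, x i • w i = 0 := by
      funext j
      have := congrFun hx j
      simp only [Matrix.mulVec, dotProduct, Matrix.of_apply, Pi.zero_apply] at this
      simp only [Finset.sum_apply, Pi.smul_apply, smul_eq_mul, Pi.zero_apply]
      rw [← this]
      exact Finset.sum_congr rfl fun i _ => mul_comm _ _
    have h2 := Fintype.linearIndependent_iff.mp hw x h1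
    exact funext h2
  obtain ⟨e, he⟩ := exists_minor_ne_zero (Matrix.of fun (j : ι) (i : Fin r) => w i j) hinj
  intro h0
  apply he
  have := congrFun h0 e
  unfold plk at this
  rw [← Matrix.det_transpose]
  exact this

/-- **Pluecker height via any basis.** `plkHeight b W` is the logarithmic height of the all-maps
Pluecker vector of the coordinates of ANY basis of `W`. -/
theorem plkHeight_eq_of_basis {ι V : Type*} [Fintype ι] [DecidableEq ι] [AddCommGroup V]
    [Module ℚ V] (b : Module.Basis ι ℚ V) (W : Submodule ℚ V) [Module.Finite ℚ W] {r : ℕ}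
    (v : Module.Basis (Fin r) ℚ W) :
    plkHeight b W = Height.logHeight (plk (fun i x => b.repr ((v i : W) : V) x)) := by
  classical
  have hr : r = Module.finrank ℚ W := by
    rw [Module.finrank_eq_card_basis v]; simp
  subst hr
  have hfin : Module.Finite ℚ W := inferInstance
  unfold plkHeight
  rw [dif_pos hfin]
  set fb := Module.finBasis ℚ W with hfb
  have hfc := plk_frame_change (Matrix.of fun i j => fb.repr (v i) j)
    (fun j x => b.repr ((fb j : W) : V) x) (fun i x => b.repr ((v i : W) : V) x) (by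
      intro i
      funext x
      have h1 : (v i : W) = ∑ j, fb.repr (v i) j • fb j := (fb.sum_repr (v i)).symm
      have h2 : ((v i : W) : V) = ∑ j, fb.repr (v i) j • ((fb j : W) : V) := by
        have := congrArg (Subtype.val : W → V) h1
        rw [this, Submodule.coe_sum]
        rfl
      rw [h2]
      simp [map_sum, Finset.sum_apply])
  have hdet : (Matrix.of fun i j => fb.repr (v i) j).det ≠ 0 := by
    have h1 : (Matrix.of fun i j => fb.repr (v i) j) = Matrix.transpose (fb.toMatrix v) := by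
      ext i j; rfl
    rw [h1, Matrix.det_transpose]
    have h2 := Module.Basis.toMatrix_mul_toMatrix_flip fb v
    intro h0
    have h3 := congrArg Matrix.det h2
    rw [Matrix.det_mul, h0, zero_mul, Matrix.det_one] at h3
    exact zero_ne_one h3
  show Height.logHeight (plk (fun j x => b.repr ((fb j : W) : V) x)) = _
  rw [hfc]
  exact (Height.logHeight_smul_eq_logHeight _ hdet).symm

/-- **Abstract transport of Pluecker frames.** For an injective linear map `T : V → V'` whose
coordinates are given by a matrix `M`, the Pluecker heights of `W` and of its image `T W` are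
computed by ONE frame `w` of `W` and its image frame `M w`. -/
theorem exists_plk_frame_of_map {V V' : Type*} [AddCommGroup V] [Module ℚ V] [AddCommGroup V']
    [Module ℚ V'] {nb nc : ℕ} (b : Module.Basis (Fin nb) ℚ V) (b' : Module.Basis (Fin nc) ℚ V')
    (M : Matrix (Fin nc) (Fin nb) ℚ) (T : V →ₗ[ℚ] V') (hTinj : Function.Injective T)
    (hT : ∀ x, (fun c => b'.repr (T x) c) = M.mulVec (fun j => b.repr x j))
    (W : Submodule ℚ V) :
    ∃ w : Fin (Module.finrank ℚ W) → Fin nb → ℚ, plk w ≠ 0 ∧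
      plkHeight b W = Height.logHeight (plk w) ∧
      plkHeight b' (W.map T) = Height.logHeight (plk fun i => M.mulVec (w i)) ∧
      Module.finrank ℚ W ≤ nb := by
  classical
  have : Module.Finite ℚ V := Module.Finite.of_basis b
  have : Module.Finite ℚ V' := Module.Finite.of_basis b'
  set fbW := Module.finBasis ℚ W with hfbW
  set e : W ≃ₗ[ℚ] W.map T := Submodule.equivMapOfInjective T hTinj W with he
  set v' := fbW.map e with hv'
  refine ⟨fun i x => b.repr ((fbW i : W) : V) x, ?_, plkHeight_eq_of_basis b W fbW, ?_, ?_⟩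
  · apply plk_ne_zero_of_linearIndependent
    have h1 : LinearIndependent ℚ (fun i => ((fbW i : W) : V)) :=
      fbW.linearIndependent.map' (Submodule.subtype _) (Submodule.ker_subtype _)
    have h2 := h1.map' (b.equivFun : V →ₗ[ℚ] (Fin nb → ℚ)) (LinearEquiv.ker _)
    exact h2
  · have h1 := plkHeight_eq_of_basis b' (W.map T) v'
    have h2 : (fun (i : Fin (Module.finrank ℚ W)) x => b'.repr ((v' i : W.map T) : V') x)
        = fun i => M.mulVec (fun x => b.repr ((fbW i : W) : V) x) := by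
      funext i
      exact hT (fbW i : V)
    rw [← h2]; exact h1
  · have h1 : Module.finrank ℚ W ≤ Module.finrank ℚ V := Submodule.finrank_le _
    rw [Module.finrank_eq_card_basis b, Fintype.card_fin] at h1
    exact h1

end PlkHeight

section MulA

variable (F₀ : IntermediateField ℚ (LaurentSeries ℚ)) (P0 : Place Qb (FB F₀))

theorem ratEmb_injective : Function.Injective (ratEmb F₀) := (ratEmb F₀).injective

theorem ratEmb_smul (c : ℚ) (x : F₀) : ratEmb F₀ (c • x) = (c : Qb) • ratEmb F₀ x := by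
  rw [Rat.smul_def, map_mul, map_ratCast, Algebra.smul_def, map_ratCast]

theorem ratEmb_ne_zero {x : F₀} (hx : x ≠ 0) : ratEmb F₀ x ≠ 0 := by
  intro h
  exact hx (ratEmb_injective F₀ (by rw [h, map_zero]))

/-- Products: `L(D) · L(E) ⊆ L(D + E)` on the rational forms. -/
theorem mul_mem_ratRR {D E : Divisor Qb (FB F₀)} {x y : F₀} (hx : x ∈ ratRR F₀ D)
    (hy : y ∈ ratRR F₀ E) : x * y ∈ ratRR F₀ (D + E) := by
  rw [mem_ratRR, mem_riemannRochSpace_iff] at hx hy ⊢
  intro v
  rw [map_mul]
  rcases eq_or_ne (ratEmb F₀ x) 0 with h1 | h1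
  · left; rw [h1, zero_mul]
  rcases eq_or_ne (ratEmb F₀ y) 0 with h2 | h2
  · left; rw [h2, mul_zero]
  right
  rw [Place.ord_mul v h1 h2]
  have h3 := (hx v).resolve_left h1
  have h4 := (hy v).resolve_left h2
  have h5 : (D + E) v = D v + E v := Finsupp.add_apply _ _ _
  rw [h5]
  linarith

theorem mul_mem_Alev {k m : ℤ} {x y : F₀} (hx : x ∈ Alev F₀ P0 k) (hy : y ∈ Alev F₀ P0 m) :
    x * y ∈ Alev F₀ P0 (m + k) := by
  have h := mul_mem_ratRR F₀ hx hy
  have h1 : k • pt P0 + m • pt P0 = (m + k) • pt P0 := by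
    rw [add_smul, add_comm]
  rw [h1] at h
  exact h

/-- Multiplication `A_k × A_m → A_{m+k}` as a bilinear map. -/
def mulA (k m : ℤ) : ↥(Alev F₀ P0 k) →ₗ[ℚ] ↥(Alev F₀ P0 m) →ₗ[ℚ] ↥(Alev F₀ P0 (m + k)) :=
  LinearMap.mk₂ ℚ (fun α w => ⟨(α : F₀) * (w : F₀), mul_mem_Alev F₀ P0 α.2 w.2⟩)
    (fun a a' w => Subtype.ext (by simp [add_mul]))
    (fun c a w => Subtype.ext (by simp))
    (fun a w w' => Subtype.ext (by simp [mul_add]))
    (fun c a w => Subtype.ext (by simp))

theorem mulA_coe (k m : ℤ) (α : ↥(Alev F₀ P0 k)) (w : ↥(Alev F₀ P0 m)) :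
    ((mulA F₀ P0 k m α w : ↥(Alev F₀ P0 (m + k))) : F₀) = (α : F₀) * (w : F₀) := rfl

/-- The key divisor arithmetic: for `α ≠ 0` with zero divisor `Z` at level `k`,
`α f ∈ L((m+k) P0 - (D + Z)) ↔ f ∈ L(m P0 - D)`. -/
theorem mul_mem_ratRR_iff {k m : ℤ} {α : F₀} (hα : α ≠ 0) {D Z : Divisor Qb (FB F₀)}
    (hZ : IsZeroDiv F₀ P0 k α Z) (f : F₀) :
    α * f ∈ ratRR F₀ ((m + k) • pt P0 - (D + Z)) ↔ f ∈ ratRR F₀ (m • pt P0 - D) := by
  rw [mem_ratRR, mem_riemannRochSpace_iff, mem_ratRR, mem_riemannRochSpace_iff]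
  have hα' := ratEmb_ne_zero F₀ hα
  refine forall_congr' fun v => ?_
  rw [map_mul]
  rcases eq_or_ne (ratEmb F₀ f) 0 with h2 | h2
  · simp [h2]
  have h3 : ratEmb F₀ α * ratEmb F₀ f ≠ 0 := mul_ne_zero hα' h2
  rw [Place.ord_mul v hα' h2]
  have h5 : ((m + k) • pt P0 - (D + Z)) v = (m • pt P0 - D) v - v.ord (ratEmb F₀ α) := by
    have hz := hZ v
    simp only [Finsupp.sub_apply, Finsupp.add_apply, Finsupp.smul_apply, add_smul] at hz ⊢
    rw [hz]
    ring
  rw [h5]
  constructor
  · rintro (h | h)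
    · exact absurd h h3
    · right; linarith
  · rintro (h | h)
    · exact absurd h h2
    · right; linarith


/-- Structure constants of the multiplication `A_k × A_m → A_{m+k}` in a frame. -/
def strConst (fr : Frame F₀ P0) (k m : ℤ) (i : Fin (fr.n k)) :
    Matrix (Fin (fr.n (m + k))) (Fin (fr.n m)) ℚ :=
  fun c b => (fr.b (m + k)).repr (mulA F₀ P0 k m (fr.b k i) (fr.b m b)) c

/-- The coordinates of a product are the multiplication matrix applied to the coordinates. -/
theorem repr_mulA (fr : Frame F₀ P0) (k m : ℤ) (α : ↥(Alev F₀ P0 k)) (w : ↥(Alev F₀ P0 m)) :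
    (fun c => (fr.b (m + k)).repr (mulA F₀ P0 k m α w) c)
      = (mulMat (strConst F₀ P0 fr k m) (fun i => (fr.b k).repr α i)).mulVec
          (fun b => (fr.b m).repr w b) := by
  funext c
  have hα : α = ∑ i, (fr.b k).repr α i • fr.b k i := ((fr.b k).sum_repr α).symm
  have hw : w = ∑ b, (fr.b m).repr w b • fr.b m b := ((fr.b m).sum_repr w).symm
  have h1 : mulA F₀ P0 k m α w = ∑ i, ∑ b, ((fr.b k).repr α i * (fr.b m).repr w b) •
      mulA F₀ P0 k m (fr.b k i) (fr.b m b) := by
    conv_lhs => rw [hα, hw]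
    rw [LinearMap.map_sum₂]
    refine Finset.sum_congr rfl fun i _ => ?_
    rw [LinearMap.map_smul₂, map_sum, Finset.smul_sum]
    refine Finset.sum_congr rfl fun b _ => ?_
    rw [map_smul, smul_smul]
  rw [h1]
  simp only [map_sum, map_smul, Finsupp.coe_finsetSum, Finsupp.coe_smul, Finset.sum_apply,
    Pi.smul_apply, smul_eq_mul, Matrix.mulVec, dotProduct, mulMat_apply, strConst,
    Finset.sum_mul]
  rw [Finset.sum_comm]
  refine Finset.sum_congr rfl fun b _ => Finset.sum_congr rfl fun i _ => ?_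
  ring


/-- **Nondegeneracy of the multiplication over `ℚ̄`** (from linear disjointness and the absence of
zero divisors in `FB F₀`). -/
theorem strConst_nondeg (hL : LinDisjSpec F₀) (fr : Frame F₀ P0) (k m : ℤ)
    (ξ : Fin (fr.n k) → Qb) (w : Fin (fr.n m) → Qb)
    (h : (∑ i, ξ i • (strConst F₀ P0 fr k m i).map (algebraMap ℚ Qb)).mulVec w = 0) :
    ξ = 0 ∨ w = 0 := by
  classical
  set X : FB F₀ := ∑ i, ξ i • ratEmb F₀ ((fr.b k i : ↥(Alev F₀ P0 k)) : F₀) with hX
  set Y : FB F₀ := ∑ b, w b • ratEmb F₀ ((fr.b m b : ↥(Alev F₀ P0 m)) : F₀) with hY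
  have hprod : ∀ i b, ratEmb F₀ ((fr.b k i : ↥(Alev F₀ P0 k)) : F₀)
      * ratEmb F₀ ((fr.b m b : ↥(Alev F₀ P0 m)) : F₀)
      = ∑ c, (algebraMap ℚ Qb (strConst F₀ P0 fr k m i c b))
          • ratEmb F₀ ((fr.b (m + k) c : ↥(Alev F₀ P0 (m + k))) : F₀) := by
    intro i b
    rw [← map_mul, ← mulA_coe]
    have h1 : mulA F₀ P0 k m (fr.b k i) (fr.b m b)
        = ∑ c, strConst F₀ P0 fr k m i c b • fr.b (m + k) c :=
      ((fr.b (m + k)).sum_repr _).symm
    conv_lhs => rw [h1]
    rw [Submodule.coe_sum, map_sum]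
    refine Finset.sum_congr rfl fun c _ => ?_
    rw [Submodule.coe_smul, ratEmb_smul, eq_ratCast]
  have hc : ∀ c, ∑ i, ∑ b, ξ i * w b * algebraMap ℚ Qb (strConst F₀ P0 fr k m i c b) = 0 := by
    intro c
    have h1 := congrFun h c
    simp only [Matrix.mulVec, dotProduct, Matrix.sum_apply, Matrix.smul_apply, Matrix.map_apply,
      smul_eq_mul, Finset.sum_mul, Pi.zero_apply] at h1
    rw [Finset.sum_comm] at h1
    rw [← h1]
    refine Finset.sum_congr rfl fun i _ => Finset.sum_congr rfl fun b _ => ?_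
    ring
  have hXY : X * Y = 0 := by
    rw [hX, hY, Finset.sum_mul_sum]
    have h1 : ∀ i b, (ξ i • ratEmb F₀ ((fr.b k i : ↥(Alev F₀ P0 k)) : F₀))
        * (w b • ratEmb F₀ ((fr.b m b : ↥(Alev F₀ P0 m)) : F₀))
        = ∑ c, (ξ i * w b * algebraMap ℚ Qb (strConst F₀ P0 fr k m i c b))
          • ratEmb F₀ ((fr.b (m + k) c : ↥(Alev F₀ P0 (m + k))) : F₀) := by
      intro i b
      rw [smul_mul_smul_comm, hprod, Finset.smul_sum]
      refine Finset.sum_congr rfl fun c _ => ?_
      rw [smul_smul]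
    simp only [h1]
    have h2 : ∀ i, ∑ b, ∑ c, (ξ i * w b * algebraMap ℚ Qb (strConst F₀ P0 fr k m i c b))
          • ratEmb F₀ ((fr.b (m + k) c : ↥(Alev F₀ P0 (m + k))) : F₀)
        = ∑ c, ∑ b, (ξ i * w b * algebraMap ℚ Qb (strConst F₀ P0 fr k m i c b))
          • ratEmb F₀ ((fr.b (m + k) c : ↥(Alev F₀ P0 (m + k))) : F₀) :=
      fun i => Finset.sum_comm
    simp only [h2]
    rw [Finset.sum_comm]
    refine Finset.sum_eq_zero fun c _ => ?_
    simp only [← Finset.sum_smul]
    rw [hc c, zero_smul]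
  rcases mul_eq_zero.mp hXY with h0 | h0
  · left
    have hli : LinearIndependent ℚ (fun i => ((fr.b k i : ↥(Alev F₀ P0 k)) : F₀)) :=
      (fr.b k).linearIndependent.map' (Submodule.subtype _) (Submodule.ker_subtype _)
    have h1 := hL _ _ hli
    exact funext (Fintype.linearIndependent_iff.mp h1 ξ h0)
  · right
    have hli : LinearIndependent ℚ (fun i => ((fr.b m i : ↥(Alev F₀ P0 m)) : F₀)) :=
      (fr.b m).linearIndependent.map' (Submodule.subtype _) (Submodule.ker_subtype _)
    have h1 := hL _ _ hli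
    exact funext (Fintype.linearIndependent_iff.mp h1 w h0)

end MulA

/-- Multiplication by `α ≠ 0` maps `W_m(D)` ONTO `W_{m+k}(D + Z)`. -/
theorem map_mulA_Wlev (F₀ : IntermediateField ℚ (LaurentSeries ℚ)) (P0 : Place Qb (FB F₀))
    (m k : ℤ) {D Z : Divisor Qb (FB F₀)} {α : ↥(Alev F₀ P0 k)} (hD : 0 ≤ D) (hα : α ≠ 0)
    (hZ : IsZeroDiv F₀ P0 k (α : F₀) Z) :
    (Wlev F₀ P0 m D).map (mulA F₀ P0 k m α) = Wlev F₀ P0 (m + k) (D + Z) := by
  have hα0 : (α : F₀) ≠ 0 := fun h => hα (Subtype.ext h)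
  apply le_antisymm
  · rintro y ⟨x, hx, rfl⟩
    show ((mulA F₀ P0 k m α x : ↥(Alev F₀ P0 (m + k))) : F₀)
      ∈ ratRR F₀ ((m + k) • pt P0 - (D + Z))
    rw [mulA_coe]
    exact (mul_mem_ratRR_iff F₀ P0 hα0 hZ _).mpr hx
  · intro y hy
    have hgmem : (y : F₀) ∈ ratRR F₀ ((m + k) • pt P0 - (D + Z)) := hy
    have hαf : (α : F₀) * ((α : F₀)⁻¹ * (y : F₀)) = (y : F₀) := by
      rw [← mul_assoc, mul_inv_cancel₀ hα0, one_mul]
    have hfW : (α : F₀)⁻¹ * (y : F₀) ∈ ratRR F₀ (m • pt P0 - D) :=
      (mul_mem_ratRR_iff F₀ P0 hα0 hZ _).mp (by rw [hαf]; exact hgmem)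
    have hfA : (α : F₀)⁻¹ * (y : F₀) ∈ Alev F₀ P0 m := by
      have hfW' := hfW
      rw [mem_ratRR, mem_riemannRochSpace_iff] at hfW' ⊢
      intro v
      rcases hfW' v with h | h
      · left; exact h
      · right
        have h1 : (m • pt P0 - D) v = (m • pt P0) v - D v := Finsupp.sub_apply _ _ _
        have h2 : 0 ≤ D v := hD v
        rw [h1] at h; linarith
    refine ⟨⟨_, hfA⟩, hfW, ?_⟩
    apply Subtype.ext
    exact hαf

/-- **Leaf MUL (L5)**: the multiplication law for the Pluecker heights `Φ`, from linear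
disjointness. -/
theorem mulSpec (F₀ : IntermediateField ℚ (LaurentSeries ℚ)) (P0 : Place Qb (FB F₀))
    (hL : LinDisjSpec F₀) : MulSpec F₀ P0 := by
  classical
  intro fr m k
  have hμ := strConst_nondeg F₀ P0 hL fr k m
  choose Cf hCf using fun r : ℕ =>
    exists_logHeight_plk_mul_bound Qb (strConst F₀ P0 fr k m) hμ r
  refine ⟨∑ r ∈ Finset.range (fr.n m + 1), |Cf r|, ?_⟩
  intro D Z α hD hα hZ
  have hα0 : (α : F₀) ≠ 0 := fun h => hα (Subtype.ext h)
  have hTinj : Function.Injective (mulA F₀ P0 k m α) := by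
    rw [injective_iff_map_eq_zero]
    intro x hx
    have h1 : ((mulA F₀ P0 k m α x : ↥(Alev F₀ P0 (m + k))) : F₀) = 0 := by
      rw [hx]; rfl
    rw [mulA_coe] at h1
    exact Subtype.ext ((mul_eq_zero.mp h1).resolve_left hα0)
  set αv : Fin (fr.n k) → ℚ := fun i => (fr.b k).repr α i with hαv
  obtain ⟨w, hw0, h1, h2, hrle⟩ := exists_plk_frame_of_map (fr.b m) (fr.b (m + k))
    (mulMat (strConst F₀ P0 fr k m) αv) (mulA F₀ P0 k m α) hTinj
    (fun x => repr_mulA F₀ P0 fr k m α x) (Wlev F₀ P0 m D)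
  rw [map_mulA_Wlev F₀ P0 m k hD hα hZ] at h2
  have hαv0 : αv ≠ 0 := by
    intro h
    apply hα
    apply (fr.b k).repr.injective
    ext i
    have := congrFun h i
    simpa [hαv] using this
  have hb := hCf _ αv w hαv0 hw0
  have hC : Cf (Module.finrank ℚ ↥(Wlev F₀ P0 m D))
      ≤ ∑ r ∈ Finset.range (fr.n m + 1), |Cf r| :=
    (le_abs_self _).trans (Finset.single_le_sum (f := fun r => |Cf r|)
      (fun _ _ => abs_nonneg _) (Finset.mem_range.mpr (Nat.lt_succ_of_le hrle)))
  have key : ∀ (A B r h C₀ C : ℝ), |A - (r * h + B)| ≤ C₀ → C₀ ≤ C → |A - B - r * h| ≤ C := by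
    intro A B r h C₀ C h1 h2
    rw [show A - B - r * h = A - (r * h + B) by ring]
    exact h1.trans h2
  have h1' : Phi fr m D = Height.logHeight (plk w) := h1
  have h2' : Phi fr (m + k) (D + Z) = Height.logHeight
      (plk fun i => (mulMat (strConst F₀ P0 fr k m) αv).mulVec (w i)) := h2
  have hht : htA fr k α = Height.logHeight αv := rfl
  rw [h1', h2', hht]
  exact key _ _ _ _ _ _ hb hC

end

end Fermat.Agent.S17.helper3436
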