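import Fermat.Agent.S17.helper2273_OnePointSpec
import Fermat.Agent.S17.helper3436_MulSpec
import Fermat.Agent.S17.helper1935_RatDesc

/-!
# S17, track (B) of the cube law: the leaf PHI-ABS (helper3436)

`phiAbsSpec : IsRatPlace F₀ P0 → RatDescSpec F₀ → LinDisjSpec F₀ → helper2273.PhiAbsSpec F₀ P0`:
on rational effective divisors the Spec's `Phi` (Pluecker height of the `ℚ`-form `W_m(D) ⊆ A_m`)
is the absolute Pluecker height `PhiAbs` of `L(m P0 - D)` in the frame of level `m`.

Abstract core `plkHeight_eq_subHeight`: if a subspace `U` of `Ω^n` is spanned by the coordinate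
vectors of a `ℚ`-subspace `W`, then `plkHeight b W = subHeight U`.
-/

set_option autoImplicit false
set_option linter.unusedSectionVars false

open ModularCurve AlgebraicCurve
open Fermat.Agent.S27.helper6247
open Fermat.Agent.S17.helper3197
open Fermat.Agent.S17.helper2273
open Fermat.Agent.Lib.helper927 (absLogHeight absLogHeight_ringHom)

namespace Fermat.Agent.S17.helper3436

noncomputable section

/-- **Abstract PHI-ABS.** If `U ⊆ Ω^n` is the `Ω`-span of the coordinate vectors (in the basis
`b`) of the elements of a `ℚ`-subspace `W`, then the Pluecker height of `W` is the absolute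
Pluecker height of `U`. -/
theorem plkHeight_eq_subHeight {Ω : Type*} [Field Ω] [CharZero Ω] [Algebra.IsAlgebraic ℚ Ω]
    {V : Type*} [AddCommGroup V] [Module ℚ V] {n : ℕ} (b : Module.Basis (Fin n) ℚ V)
    (W : Submodule ℚ V) (U : Submodule Ω (Fin n → Ω))
    (hU : U = Submodule.span Ω
      ((fun x : V => fun s => algebraMap ℚ Ω (b.repr x s)) '' (W : Set V))) :
    plkHeight b W = subHeight U := by
  classical
  have : Module.Finite ℚ V := Module.Finite.of_basis b
  set v := Module.finBasis ℚ W with hv
  set w : Fin (Module.finrank ℚ W) → Fin n → ℚ := fun i s => b.repr ((v i : W) : V) s with hw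
  set Y : Fin (Module.finrank ℚ W) → Fin n → Ω := fun i s => algebraMap ℚ Ω (w i s) with hYdef
  have hwli : LinearIndependent ℚ w := by
    have h1 : LinearIndependent ℚ (fun i => ((v i : W) : V)) :=
      v.linearIndependent.map' (Submodule.subtype _) (Submodule.ker_subtype _)
    have h2 := h1.map' (b.equivFun : V →ₗ[ℚ] (Fin n → ℚ)) (LinearEquiv.ker _)
    exact h2
  have hplk : plk w ≠ 0 := plk_ne_zero_of_linearIndependent w hwli
  have hY : LinearIndependent Ω Y := by
    obtain ⟨s, hs⟩ : ∃ s, plk w s ≠ 0 := by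
      by_contra h
      apply hplk
      funext s
      by_contra hs
      exact h ⟨s, hs⟩
    rw [Fintype.linearIndependent_iff]
    intro c hc
    have hM : (Matrix.of fun i j => Y i (s j)).det ≠ 0 := by
      have h1 : (Matrix.of fun i j => Y i (s j))
          = (algebraMap ℚ Ω).mapMatrix (Matrix.of fun i j => w i (s j)) := by
        ext i j; rfl
      rw [h1, ← RingHom.map_det]
      exact (map_ne_zero _).mpr hs
    have hvm : Matrix.vecMul c (Matrix.of fun i j => Y i (s j)) = 0 := by
      funext j
      have h2 := congrFun hc (s j)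
      simp only [Finset.sum_apply, Pi.smul_apply, smul_eq_mul, Pi.zero_apply] at h2
      simp only [Matrix.vecMul, dotProduct, Matrix.of_apply, Pi.zero_apply]
      exact h2
    have h3 := Matrix.eq_zero_of_vecMul_eq_zero hM hvm
    exact fun i => congrFun h3 i
  have hspan : Submodule.span Ω (Set.range Y) = U := by
    rw [hU]
    apply le_antisymm
    · rw [Submodule.span_le]
      rintro _ ⟨i, rfl⟩
      exact Submodule.subset_span ⟨((v i : W) : V), (v i).2, rfl⟩
    · rw [Submodule.span_le]
      rintro _ ⟨x, hx, rfl⟩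
      have h1 : (⟨x, hx⟩ : W) = ∑ i, v.repr ⟨x, hx⟩ i • v i := (v.sum_repr _).symm
      have h2 : x = ∑ i, v.repr ⟨x, hx⟩ i • ((v i : W) : V) := by
        have h := congrArg (Subtype.val : W → V) h1
        rw [Submodule.coe_sum] at h
        exact h
      have h3 : (fun s => algebraMap ℚ Ω (b.repr x s))
          = ∑ i, (algebraMap ℚ Ω (v.repr ⟨x, hx⟩ i)) • Y i := by
        funext s
        conv_lhs => rw [h2]
        simp only [map_sum, map_smul, Finsupp.coe_finsetSum, Finsupp.coe_smul, Finset.sum_apply,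
          Pi.smul_apply, smul_eq_mul, map_mul, hYdef, hw]
      show (fun s => algebraMap ℚ Ω (b.repr x s)) ∈ Submodule.span Ω (Set.range Y)
      rw [h3]
      exact Submodule.sum_mem _ fun i _ =>
        Submodule.smul_mem _ _ (Submodule.subset_span ⟨i, rfl⟩)
  rw [subHeight_eq U Y hY hspan, plkHeight_eq_of_basis b W v]
  have h4 : plkAll Y = fun s => algebraMap ℚ Ω (plk w s) := by
    funext s
    show Matrix.det (Matrix.of fun i j => Y i (s j))
      = algebraMap ℚ Ω (Matrix.det (Matrix.of fun i j => w i (s j)))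
    rw [RingHom.map_det]
    rfl
  rw [h4, absLogHeight_ringHom (algebraMap ℚ Ω) (plk w), Module.finrank_self, Nat.cast_one,
    div_one]

/-- **Leaf PHI-ABS** of track (B) (`helper2273_OnePointSpec`). -/
theorem phiAbsSpec (F₀ : IntermediateField ℚ (LaurentSeries ℚ)) (P0 : Place Qb (FB F₀))
    (hP0 : IsRatPlace F₀ P0) (hQ : RatDescSpec F₀) (hL : LinDisjSpec F₀) :
    PhiAbsSpec F₀ P0 := by
  intro fr m D hD hD0
  have hQb : Algebra.IsAlgebraic ℚ Qb := AlgebraicClosure.isAlgebraic ℚ
  have hframe : ∀ x : ↥(Alev F₀ P0 m),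
      frameMap fr m (fun s => algebraMap ℚ Qb ((fr.b m).repr x s)) = ratEmb F₀ (x : F₀) := by
    intro x
    rw [frameMap_apply]
    have h1 : x = ∑ s, (fr.b m).repr x s • fr.b m s := ((fr.b m).sum_repr x).symm
    have h2 : (x : F₀) = ∑ s, (fr.b m).repr x s • ((fr.b m s : ↥(Alev F₀ P0 m)) : F₀) := by
      have h := congrArg (Subtype.val : ↥(Alev F₀ P0 m) → F₀) h1
      rw [Submodule.coe_sum] at h
      exact h
    conv_rhs => rw [h2]
    rw [map_sum]
    refine Finset.sum_congr rfl fun s _ => ?_
    rw [ratEmb_smul, eq_ratCast]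
  have hinj : Function.Injective (frameMap fr m) := by
    have hli : LinearIndependent ℚ (fun i => ((fr.b m i : ↥(Alev F₀ P0 m)) : F₀)) :=
      (fr.b m).linearIndependent.map' (Submodule.subtype _) (Submodule.ker_subtype _)
    exact linearIndependent_iff_injective_fintypeLinearCombination.mp (hL _ _ hli)
  have hE : IsRat F₀ (m • pt P0 - D) :=
    Fermat.Agent.S17.helper1935.isRat_sub (Fermat.Agent.S17.helper1935.isRat_level hP0 m) hD
  have hspanE := (hQ _ hE).2.2
  show plkHeight (fr.b m) (Wlev F₀ P0 m D) = subHeight (coordSub fr m D)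
  apply plkHeight_eq_subHeight
  apply le_antisymm
  · intro y hy
    have hy' : frameMap fr m y ∈ riemannRochSpace (m • pt P0 - D) := hy
    rw [← hspanE] at hy'
    have himg : (ratEmb F₀ '' (ratRR F₀ (m • pt P0 - D) : Set F₀))
        = frameMap fr m '' ((fun x : ↥(Alev F₀ P0 m) => fun s =>
            algebraMap ℚ Qb ((fr.b m).repr x s)) '' (Wlev F₀ P0 m D : Set ↥(Alev F₀ P0 m))) := by
      ext z
      constructor
      · rintro ⟨u, hu, rfl⟩
        have huA : u ∈ Alev F₀ P0 m := Fermat.Agent.S17.helper1935.ratRR_le_Alev m hD0 hu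
        exact ⟨_, ⟨⟨u, huA⟩, hu, rfl⟩, hframe ⟨u, huA⟩⟩
      · rintro ⟨_, ⟨x, hx, rfl⟩, rfl⟩
        exact ⟨(x : F₀), hx, (hframe x).symm⟩
    rw [himg, ← Submodule.map_span] at hy'
    obtain ⟨z, hz, hzy⟩ := hy'
    rw [← hinj hzy]
    exact hz
  · rw [Submodule.span_le]
    rintro _ ⟨x, hx, rfl⟩
    show frameMap fr m _ ∈ riemannRochSpace (m • pt P0 - D)
    rw [hframe]
    exact hx

end

end Fermat.Agent.S17.helper3436
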