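import Fermat.Agent.S17.helper2273_OnePointInst
import Fermat.Agent.S17.helper2273_CoordOnePoint
import Fermat.Agent.S17.helper2390_CurveOnePoint
import Fermat.Agent.S17.helper3436_PhiAbs

/-!
# S17, leaf L7 = `CubeSpec`, track (B) = G2-ALT (one-point law): the final theorem

`cubeSpec : CubeSpec F₀ P0` in the shape of the captain's ruling R15, from

* `cubeSpec_of_onePoint`            (helper2273: formal induction, one-point law ⟹ cube law),
* `helper3436.phiAbsSpec`           (PHI-ABS: `Phi = PhiAbs` on rational effective divisors),
* `onePointSpec`                    (helper2273: the Spec instance of the one-point law),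
* `helper2390.curveOnePoint`        (the generic curve side: closedness (CL) + PROD + Riemann),
* `coordOnePoint`                   (the abstract one-point law = `helper7293.opl_subspace`
                                     + `helper1360.bpf_of_rkp` + `helper1572.exists_bpf_const`).
-/

set_option autoImplicit false

open ModularCurve AlgebraicCurve
open Fermat.Agent.S17.helper3197

namespace Fermat.Agent.S17.helper2273

/-- **Leaf L7 (`CubeSpec`), track (B).** The (two-sided) seven-term law for
`G(D) = Φ_{deg D + c}(D)`, with period `n₀ = 1`, on all rational effective triples of degree `d`.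
`hR : RiemannSpec F₀` is not needed (Riemann's theorem enters through `x`, `hx`). -/
theorem cubeSpec (F₀ : IntermediateField ℚ (LaurentSeries ℚ)) (P0 : Place Qb (FB F₀))
    (x : FB F₀) (hx : Transcendental Qb x)
    [FiniteDimensional (IntermediateField.adjoin Qb {x}) (FB F₀)]
    (hP0 : IsRatPlace F₀ P0) (hR : RiemannSpec F₀) (hQ : RatDescSpec F₀) (hL : LinDisjSpec F₀) :
    CubeSpec F₀ P0 := by
  have _ := hR
  have : Algebra.IsAlgebraic ℚ Qb := AlgebraicClosure.isAlgebraic ℚ
  exact cubeSpec_of_onePoint (fun v => Fermat.Agent.S24.helper204.place_deg_eq_one x hx v)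
    (Fermat.Agent.S17.helper3436.phiAbsSpec F₀ P0 hP0 hQ hL)
    (onePointSpec F₀ P0 x hx hP0 hQ hL (Fermat.Agent.S17.helper2390.curveOnePoint x hx)
      (fun μ ν ν' d d' => coordOnePoint Qb μ ν ν' d d'))

end Fermat.Agent.S17.helper2273
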