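import Fermat.Agent.S27.helper6247_Spec
import Fermat.Agent.S27.helper1423_Tuples
import Fermat.Agent.S27.helper4586_Ev
import Fermat.Agent.S27.helper4996_Riemann
import Fermat.Agent.S24.helper1370_PlaceBasics
import Fermat.Agent.S24.helper483_PlacesFF

/-!
# S17-RED: reduced divisors with a base place (helper1298)

`K` a field, `F` a function field of one variable over `K` (Prelude vocabulary
`Place`, `Divisor`, `Pic0`, `riemannRochSpace`; S27 Spec vocabulary `cls`, `pt`, `ev`).

For a base place `P₀` an effective divisor `A` is *reduced* (`IsReduced P₀ A`) if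
`L(A - P₀) = 0`.  Main results (package `RedPkg K F` = principal divisors have degree `0`,
all places have degree one, Riemann's inequality, regular functions have values):

* `existsUnique_isReduced` : every class `y : Pic0 K F` is `clsAt P₀ A = [A - deg A • P₀]` for
  exactly one reduced `A`; `red P₀ y` is that divisor;
* `degree_red_le_genus`    : `deg (red P₀ y) ≤ genusFF K F`;
* `degree_red_le`          : `red P₀ y` has the least degree among the effective `B` with
  `clsAt P₀ B = y`, and is the only one of that degree;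
* `eq_sum_cls_red`         : `y = ∑ R ∈ supp, (red P₀ y) R • [R - P₀]`;
* `red_smul`               : `red (s • P₀) (s • y) = s • red P₀ y` for `s : SemilinearAut K F`;
* `ev_smul`                : `ev (s • R) (s • f) = baseAut s (ev R f)`;
* `finite_setOf_vals_subset` : for `t` transcendental and `S ⊆ K` finite there are only
  finitely many classes `y` all of whose reduced points `R` have `ev R t ∈ S`.

`redPkg_of_finite` supplies the package for `K` algebraically closed of characteristic zero
and `F` finite over `K⟮x⟯`, from the landed S24 / S27 libraries.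
-/

set_option autoImplicit false

open AlgebraicCurve IntermediateField

namespace Fermat.Agent.S17.helper1298

open Fermat.Agent.S27.helper6247

noncomputable section

/-! ## Principal divisors as divisors -/

section DivOf

variable {K : Type*} {F : Type*} [Field K] [Field F] [Algebra K F]

open Classical in
/-- The divisor of a nonzero function (junk value `0` at `f = 0`). -/
def divOf [HasPrincipalDivisors K F] (f : F) : Divisor K F :=
  if hf : f ≠ 0 then (HasPrincipalDivisors.exists_divisor (K := K) f hf).choose else 0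

theorem divOf_apply [HasPrincipalDivisors K F] {f : F} (hf : f ≠ 0) (v : Place K F) :
    (divOf f : Divisor K F) v = v.ord f := by
  unfold divOf
  rw [dif_pos hf]
  exact (HasPrincipalDivisors.exists_divisor (K := K) f hf).choose_spec.1 v

theorem degree_divOf [HasPrincipalDivisors K F] (f : F) :
    Divisor.degree (divOf f : Divisor K F) = 0 := by
  unfold divOf
  split_ifs with hf
  · exact (HasPrincipalDivisors.exists_divisor (K := K) f hf).choose_spec.2
  · exact map_zero _

theorem divOf_mem_principal [HasPrincipalDivisors K F] {f : F} (hf : f ≠ 0) :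
    (divOf f : Divisor K F) ∈ Divisor.principal (K := K) (F := F) :=
  ⟨f, hf, fun v => divOf_apply hf v⟩

/-- The degree of an effective divisor is nonnegative. -/
theorem degree_nonneg {A : Divisor K F} (hA : 0 ≤ A) : 0 ≤ Divisor.degree A := by
  classical
  have h : Divisor.degree A = ∑ v ∈ A.support, A v * (v.deg : ℤ) := by
    conv_lhs => rw [← Finsupp.sum_single A]
    rw [Finsupp.sum, map_sum]
    exact Finset.sum_congr rfl fun v _ => Divisor.degree_single v (A v)
  rw [h]
  exact Finset.sum_nonneg fun v _ => mul_nonneg (hA v) (Int.natCast_nonneg _)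

/-- Membership in `L(D)` for a nonzero function. -/
theorem mem_rr_iff {D : Divisor K F} {f : F} (hf : f ≠ 0) :
    f ∈ riemannRochSpace D ↔ ∀ v : Place K F, -D v ≤ v.ord f := by
  rw [mem_riemannRochSpace_iff]
  exact forall_congr' fun v => or_iff_right hf

/-- `L(D) = 0` if `deg D < 0`. -/
theorem rr_eq_bot_of_degree_neg [HasPrincipalDivisors K F] {D : Divisor K F}
    (hD : Divisor.degree D < 0) : riemannRochSpace D = ⊥ := by
  rw [eq_bot_iff]
  intro f hf
  rw [Submodule.mem_bot]
  by_contra hf0
  have h1 : (0 : Divisor K F) ≤ D + divOf f := by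
    intro v
    have := (mem_rr_iff hf0).mp hf v
    rw [Finsupp.add_apply, divOf_apply hf0]
    simp only [Finsupp.coe_zero, Pi.zero_apply]
    omega
  have h2 := degree_nonneg h1
  rw [map_add, degree_divOf, add_zero] at h2
  omega

/-- Multiplication by `f₀` identifies `L(D + div f₀)` with `L(D)`. -/
theorem mul_mem_rr_iff [HasPrincipalDivisors K F] {D : Divisor K F} {f₀ : F} (hf₀ : f₀ ≠ 0)
    (h : F) : h ∈ riemannRochSpace (D + divOf f₀) ↔ h * f₀ ∈ riemannRochSpace D := by
  rcases eq_or_ne h 0 with rfl | hh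
  · simp
  rw [mem_rr_iff hh, mem_rr_iff (mul_ne_zero hh hf₀)]
  refine forall_congr' fun v => ?_
  rw [Finsupp.add_apply, divOf_apply hf₀, v.ord_mul hh hf₀]
  constructor <;> intro h1 <;> omega

/-- Constants lie in `L(A)` for effective `A`. -/
theorem algebraMap_mem_rr {A : Divisor K F} (hA : 0 ≤ A) (c : K) :
    algebraMap K F c ∈ riemannRochSpace A := by
  rw [mem_riemannRochSpace_iff]
  intro v
  right
  rw [Fermat.Agent.S24.helper1370.ord_algebraMap]
  have := hA v
  simp only [Finsupp.coe_zero, Pi.zero_apply] at this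
  omega

end DivOf

/-! ## The package of hypotheses -/

/-- What the theory of reduced divisors needs from the function field `F / K`:
principal divisors have degree zero, all places have degree one, Riemann's inequality
`ℓ(D) ≥ deg D + 1 - g`, and every function regular at a place has a value there. -/
structure RedPkg (K : Type*) (F : Type*) [Field K] [Field F] [Algebra K F] : Prop where
  pd : HasPrincipalDivisors K F
  deg : ∀ v : Place K F, v.deg = 1
  riemann : ∀ D : Divisor K F,
    Divisor.degree D + 1 - (genusFF K F : ℤ) ≤ (Module.finrank K (riemannRochSpace D) : ℤ)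
  val : ∀ P : Place K F, Fermat.Agent.S27.helper4586.HasValues P

/-- The package in the Spec setting: `K` algebraically closed of characteristic zero and `F`
finite over `K⟮x⟯`, `x` transcendental. -/
theorem redPkg_of_finite {K : Type*} {F : Type*} [Field K] [Field F] [Algebra K F]
    [IsAlgClosed K] [CharZero K] (x : F) (hx : Transcendental K x) [FiniteDimensional K⟮x⟯ F] :
    RedPkg K F := by
  obtain ⟨-, hrr, -⟩ := Fermat.Agent.S27.helper4996.stmt_Riemann K F x hx
  refine ⟨Fermat.Agent.S24.helper204.hasPrincipalDivisors x hx,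
    fun v => Fermat.Agent.S24.helper204.place_deg_eq_one x hx v, fun D => ?_,
    fun P => Fermat.Agent.S27.helper4586.hasValues_of_finite x P⟩
  have h := hrr D
  have h0 : (0 : ℤ) ≤ (Module.finrank K (H1 D) : ℤ) := Int.natCast_nonneg _
  omega

/-! ## Reduced divisors -/

section Reduced

variable {K : Type*} {F : Type*} [Field K] [Field F] [Algebra K F]

/-- `A` is reduced with respect to the base place `P₀`: effective and `L(A - P₀) = 0`. -/
def IsReduced (P₀ : Place K F) (A : Divisor K F) : Prop :=
  0 ≤ A ∧ riemannRochSpace (A - pt P₀) = ⊥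

/-- The class `[A - deg A • P₀]` in `Pic0`. -/
def clsAt (P₀ : Place K F) (A : Divisor K F) : Pic0 K F :=
  cls (A - Divisor.degree A • pt P₀)

theorem degree_pt_eq (hdeg : ∀ v : Place K F, v.deg = 1) (P : Place K F) :
    Divisor.degree (pt P : Divisor K F) = 1 :=
  Fermat.Agent.S27.helper1423.degree_pt P (hdeg P)

theorem degree_sub_degree_smul_pt (hdeg : ∀ v : Place K F, v.deg = 1) (P₀ : Place K F)
    (A : Divisor K F) : Divisor.degree (A - Divisor.degree A • pt P₀) = 0 := by
  rw [map_sub, map_zsmul, degree_pt_eq hdeg, smul_eq_mul, mul_one, sub_self]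

theorem cls_of_degree {D : Divisor K F} (h : Divisor.degree D = 0) :
    cls D = Pic0.mk ⟨D, h⟩ := by
  unfold cls
  rw [dif_pos (show D ∈ Divisor.degZero (K := K) (F := F) from h)]

theorem cls_eq_cls_iff {D D' : Divisor K F} (h : Divisor.degree D = 0)
    (h' : Divisor.degree D' = 0) :
    cls D = cls D' ↔ D - D' ∈ Divisor.principal (K := K) (F := F) := by
  rw [cls_of_degree h, cls_of_degree h']
  unfold Pic0.mk
  rw [QuotientAddGroup.eq_iff_sub_mem, AddSubgroup.mem_addSubgroupOf]
  rfl

theorem cls_zero' : cls (0 : Divisor K F) = 0 := by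
  rw [cls_of_degree (map_zero _)]
  rfl

theorem cls_add' {D D' : Divisor K F} (h : Divisor.degree D = 0)
    (h' : Divisor.degree D' = 0) : cls (D + D') = cls D + cls D' := by
  rw [cls_of_degree h, cls_of_degree h', cls_of_degree (by rw [map_add, h, h', add_zero])]
  rfl

theorem cls_neg' {D : Divisor K F} (h : Divisor.degree D = 0) : cls (-D) = -cls D := by
  rw [cls_of_degree h, cls_of_degree (by rw [map_neg, h, neg_zero])]
  rfl

theorem cls_sum' {ι : Type*} (s : Finset ι) (D : ι → Divisor K F)
    (h : ∀ i ∈ s, Divisor.degree (D i) = 0) : cls (∑ i ∈ s, D i) = ∑ i ∈ s, cls (D i) := by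
  classical
  induction s using Finset.induction_on with
  | empty => simp [cls_zero']
  | insert a s ha ih =>
    have h1 : ∀ i ∈ s, Divisor.degree (D i) = 0 := fun i hi => h i (Finset.mem_insert_of_mem hi)
    have h2 : Divisor.degree (∑ i ∈ s, D i) = 0 := by
      rw [map_sum]
      exact Finset.sum_eq_zero h1
    rw [Finset.sum_insert ha, Finset.sum_insert ha,
      cls_add' (h a (Finset.mem_insert_self a s)) h2, ih h1]

theorem cls_zsmul' {D : Divisor K F} (h : Divisor.degree D = 0) (n : ℤ) :
    cls (n • D) = n • cls D := by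
  have key : ∀ m : ℕ, cls (m • D) = m • cls D := by
    intro m
    induction m with
    | zero => simp [cls_zero']
    | succ m ih =>
      rw [succ_nsmul, succ_nsmul, cls_add' (by rw [map_nsmul, h, smul_zero]) h, ih]
  obtain ⟨m, rfl | rfl⟩ := n.eq_nat_or_neg
  · rw [natCast_zsmul, natCast_zsmul, key]
  · rw [neg_smul, neg_smul, natCast_zsmul, natCast_zsmul,
      cls_neg' (by rw [map_nsmul, h, smul_zero]), key]

theorem clsAt_eq_iff (hdeg : ∀ v : Place K F, v.deg = 1) (P₀ : Place K F)
    (A B : Divisor K F) :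
    clsAt P₀ A = clsAt P₀ B ↔
      A - B - (Divisor.degree A - Divisor.degree B) • pt P₀
        ∈ Divisor.principal (K := K) (F := F) := by
  unfold clsAt
  rw [cls_eq_cls_iff (degree_sub_degree_smul_pt hdeg P₀ A) (degree_sub_degree_smul_pt hdeg P₀ B)]
  have : A - Divisor.degree A • pt P₀ - (B - Divisor.degree B • pt P₀)
      = A - B - (Divisor.degree A - Divisor.degree B) • pt P₀ := by
    rw [sub_smul]; abel
  rw [this]

/-- A reduced divisor does not contain the base place. -/
theorem IsReduced.apply_base {P₀ : Place K F} {A : Divisor K F} (hA : IsReduced P₀ A) :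
    A P₀ = 0 := by
  by_contra h
  have h0 : 0 ≤ A P₀ := hA.1 P₀
  have h1 : (1 : F) ∈ riemannRochSpace (A - pt P₀) := by
    rw [mem_rr_iff one_ne_zero]
    intro v
    rw [Place.ord_one, Finsupp.sub_apply]
    by_cases hv : v = P₀
    · subst hv
      rw [Fermat.Agent.S27.helper1423.pt_apply_self]
      omega
    · rw [Fermat.Agent.S27.helper1423.pt_apply_of_ne hv]
      have := hA.1 v
      simp only [Finsupp.coe_zero, Pi.zero_apply] at this
      omega
  rw [hA.2, Submodule.mem_bot] at h1
  exact one_ne_zero h1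

/-- For a reduced divisor `A`, `L(A)` consists of constants. -/
theorem IsReduced.rr_const {P₀ : Place K F} (hval : Fermat.Agent.S27.helper4586.HasValues P₀)
    {A : Divisor K F} (hA : IsReduced P₀ A) {h : F} (hh : h ∈ riemannRochSpace A) :
    ∃ c : K, h = algebraMap K F c := by
  have hA0 := hA.apply_base
  have hord : 0 ≤ P₀.ord h := by
    rcases eq_or_ne h 0 with rfl | hh0
    · simp
    · have := (mem_rr_iff hh0).mp hh P₀
      omega
  refine ⟨ev P₀ h, ?_⟩
  rcases Fermat.Agent.S27.helper4586.eq_or_ord_sub_ev_pos hval hord with h1 | h1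
  · exact h1
  · have h2 : h - algebraMap K F (ev P₀ h) ∈ riemannRochSpace A :=
      Submodule.sub_mem _ hh (algebraMap_mem_rr hA.1 _)
    have h3 : h - algebraMap K F (ev P₀ h) ∈ riemannRochSpace (A - pt P₀) := by
      rw [mem_riemannRochSpace_iff] at h2 ⊢
      intro v
      rcases h2 v with h4 | h4
      · exact Or.inl h4
      · right
        rw [Finsupp.sub_apply]
        by_cases hv : v = P₀
        · subst hv
          rw [Fermat.Agent.S27.helper1423.pt_apply_self]
          omega
        · rw [Fermat.Agent.S27.helper1423.pt_apply_of_ne hv]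
          omega
    rw [hA.2, Submodule.mem_bot] at h3
    exact sub_eq_zero.mp h3

/-- **Uniqueness** of the reduced divisor in a class. -/
theorem IsReduced.eq_of_clsAt_eq (hdeg : ∀ v : Place K F, v.deg = 1) {P₀ : Place K F}
    (hval : Fermat.Agent.S27.helper4586.HasValues P₀) {A B : Divisor K F}
    (hA : IsReduced P₀ A) (hB : IsReduced P₀ B) (h : clsAt P₀ A = clsAt P₀ B) : A = B := by
  -- symmetric reduction to `deg A ≤ deg B`
  wlog hle : Divisor.degree A ≤ Divisor.degree B generalizing A B
  · exact (this hB hA h.symm (le_of_not_ge hle)).symm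
  rw [clsAt_eq_iff hdeg] at h
  obtain ⟨f, hf, hfv⟩ := h
  -- `A v - B v - (deg A - deg B) [v = P₀] = ord_v f`
  have hfv' : ∀ v : Place K F, v.ord f
      = A v - B v - (Divisor.degree A - Divisor.degree B) * (pt P₀ : Divisor K F) v := by
    intro v
    rw [← hfv v]
    simp [Finsupp.sub_apply, Finsupp.smul_apply]
  have hA0 := hA.apply_base
  have hB0 := hB.apply_base
  have hdegeq : Divisor.degree A = Divisor.degree B := by
    by_contra hne
    have hlt : Divisor.degree A < Divisor.degree B := lt_of_le_of_ne hle hne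
    -- then `f ∈ L(B - P₀)`
    have hmem : f ∈ riemannRochSpace (B - pt P₀) := by
      rw [mem_rr_iff hf]
      intro v
      rw [hfv' v, Finsupp.sub_apply]
      by_cases hv : v = P₀
      · subst hv
        rw [Fermat.Agent.S27.helper1423.pt_apply_self]
        omega
      · rw [Fermat.Agent.S27.helper1423.pt_apply_of_ne hv]
        have := hA.1 v
        simp only [Finsupp.coe_zero, Pi.zero_apply] at this
        omega
    rw [hB.2, Submodule.mem_bot] at hmem
    exact hf hmem
  -- now `f ∈ L(B)`, hence constant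
  have hmem : f ∈ riemannRochSpace B := by
    rw [mem_rr_iff hf]
    intro v
    rw [hfv' v, hdegeq]
    have := hA.1 v
    simp only [Finsupp.coe_zero, Pi.zero_apply] at this
    omega
  obtain ⟨c, rfl⟩ := hB.rr_const hval hmem
  ext v
  have h1 := hfv' v
  rw [Fermat.Agent.S24.helper1370.ord_algebraMap, hdegeq] at h1
  omega

/-- A reduced divisor has the least degree among the effective divisors of its class. -/
theorem IsReduced.degree_le (hdeg : ∀ v : Place K F, v.deg = 1) {P₀ : Place K F}
    {A B : Divisor K F} (hA : IsReduced P₀ A) (hB : 0 ≤ B) (h : clsAt P₀ A = clsAt P₀ B) :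
    Divisor.degree A ≤ Divisor.degree B := by
  by_contra hlt
  push Not at hlt
  rw [clsAt_eq_iff hdeg] at h
  obtain ⟨f, hf, hfv⟩ := h
  have hfv' : ∀ v : Place K F, v.ord f
      = A v - B v - (Divisor.degree A - Divisor.degree B) * (pt P₀ : Divisor K F) v := by
    intro v
    rw [← hfv v]
    simp [Finsupp.sub_apply, Finsupp.smul_apply]
  have hmem : f⁻¹ ∈ riemannRochSpace (A - pt P₀) := by
    rw [mem_rr_iff (inv_ne_zero hf)]
    intro v
    rw [Place.ord_inv, hfv' v, Finsupp.sub_apply]
    have hBv := hB v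
    simp only [Finsupp.coe_zero, Pi.zero_apply] at hBv
    by_cases hv : v = P₀
    · subst hv
      rw [Fermat.Agent.S27.helper1423.pt_apply_self]
      omega
    · rw [Fermat.Agent.S27.helper1423.pt_apply_of_ne hv]
      omega
  rw [hA.2, Submodule.mem_bot] at hmem
  exact inv_ne_zero hf hmem

/-- The reduced divisor is the only effective divisor of least degree in its class. -/
theorem IsReduced.eq_of_degree_le (hdeg : ∀ v : Place K F, v.deg = 1) {P₀ : Place K F}
    (hval : Fermat.Agent.S27.helper4586.HasValues P₀) {A B : Divisor K F}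
    (hA : IsReduced P₀ A) (hB : 0 ≤ B) (h : clsAt P₀ A = clsAt P₀ B)
    (hle : Divisor.degree B ≤ Divisor.degree A) : B = A := by
  have hdegeq : Divisor.degree A = Divisor.degree B :=
    le_antisymm (hA.degree_le hdeg hB h) hle
  rw [clsAt_eq_iff hdeg] at h
  obtain ⟨f, hf, hfv⟩ := h
  have hfv' : ∀ v : Place K F, v.ord f = A v - B v := by
    intro v
    rw [← hfv v, hdegeq]
    simp [Finsupp.sub_apply]
  have hmem : f⁻¹ ∈ riemannRochSpace A := by
    rw [mem_rr_iff (inv_ne_zero hf)]
    intro v
    rw [Place.ord_inv, hfv' v]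
    have hBv := hB v
    simp only [Finsupp.coe_zero, Pi.zero_apply] at hBv
    omega
  obtain ⟨c, hc⟩ := hA.rr_const hval hmem
  ext v
  have h1 := hfv' v
  have h2 : v.ord f⁻¹ = 0 := by rw [hc, Fermat.Agent.S24.helper1370.ord_algebraMap]
  rw [Place.ord_inv] at h2
  omega

/-- **The construction of the reduced divisor.**  If `deg D₀ = 0`, `f₀ ≠ 0` lies in
`L(D₀ + e • P₀)` and `L(D₀ + m • P₀) = 0` for all `m < e`, then `D₀ + e • P₀ + div f₀` is reduced,
of degree `e` and of class `[D₀]`. -/
theorem isReduced_of_min [HasPrincipalDivisors K F] (hdeg : ∀ v : Place K F, v.deg = 1)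
    (P₀ : Place K F) {D₀ : Divisor K F} (hD₀ : Divisor.degree D₀ = 0) {e : ℕ} {f₀ : F}
    (hf₀ : f₀ ≠ 0) (hf₀mem : f₀ ∈ riemannRochSpace (D₀ + (e : ℤ) • pt P₀))
    (hemin : ∀ m : ℕ, m < e → riemannRochSpace (D₀ + (m : ℤ) • pt P₀) = ⊥) :
    IsReduced P₀ (D₀ + (e : ℤ) • pt P₀ + divOf f₀) ∧
      clsAt P₀ (D₀ + (e : ℤ) • pt P₀ + divOf f₀) = cls D₀ ∧
      Divisor.degree (D₀ + (e : ℤ) • pt P₀ + divOf f₀) = e := by
  have hdegn : ∀ n : ℕ, Divisor.degree (D₀ + (n : ℤ) • pt P₀) = n := by
    intro n
    rw [map_add, map_zsmul, degree_pt_eq hdeg, hD₀, smul_eq_mul, mul_one, zero_add]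
  have hA0 : (0 : Divisor K F) ≤ D₀ + (e : ℤ) • pt P₀ + divOf f₀ := by
    intro v
    have := (mem_rr_iff hf₀).mp hf₀mem v
    rw [Finsupp.add_apply, divOf_apply hf₀]
    simp only [Finsupp.coe_zero, Pi.zero_apply]
    omega
  have hdegA : Divisor.degree (D₀ + (e : ℤ) • pt P₀ + divOf f₀) = e := by
    rw [map_add, degree_divOf, add_zero, hdegn]
  refine ⟨⟨hA0, ?_⟩, ?_, hdegA⟩
  · rw [eq_bot_iff]
    intro h hh
    rw [Submodule.mem_bot]
    have hrw : D₀ + (e : ℤ) • pt P₀ + divOf f₀ - pt P₀
        = (D₀ + (e : ℤ) • pt P₀ - pt P₀) + divOf f₀ := by abel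
    rw [hrw, mul_mem_rr_iff hf₀] at hh
    have hbot : riemannRochSpace (D₀ + (e : ℤ) • pt P₀ - pt P₀) = ⊥ := by
      rcases Nat.eq_zero_or_pos e with h0 | hpos
      · apply rr_eq_bot_of_degree_neg
        rw [map_sub, hdegn, degree_pt_eq hdeg, h0]
        norm_num
      · have h1 := hemin (e - 1) (by omega)
        have h2 : D₀ + (e : ℤ) • pt P₀ - pt P₀ = D₀ + ((e - 1 : ℕ) : ℤ) • pt P₀ := by
          have h3 : (e : ℤ) = ((e - 1 : ℕ) : ℤ) + 1 := by omega
          rw [h3, add_smul, one_smul]
          abel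
        rw [h2]
        exact h1
    rw [hbot, Submodule.mem_bot] at hh
    exact (mul_eq_zero.mp hh).resolve_right hf₀
  · unfold clsAt
    rw [hdegA, cls_eq_cls_iff (by rw [map_sub, hdegA, map_zsmul, degree_pt_eq hdeg]; simp) hD₀]
    have hrw : D₀ + (e : ℤ) • pt P₀ + divOf f₀ - (e : ℤ) • pt P₀ - D₀ = divOf f₀ := by abel
    rw [hrw]
    exact divOf_mem_principal hf₀

/-- **Existence** of a reduced divisor in every class, of degree at most the genus. -/
theorem exists_isReduced (hp : RedPkg K F) (P₀ : Place K F) (y : Pic0 K F) :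
    ∃ A : Divisor K F, IsReduced P₀ A ∧ clsAt P₀ A = y ∧
      Divisor.degree A ≤ (genusFF K F : ℤ) := by
  classical
  have := hp.pd
  obtain ⟨⟨D₀, hD₀⟩, rfl⟩ := Pic0.mk_surjective y
  have hD₀' : Divisor.degree D₀ = 0 := hD₀
  have hdegn : ∀ n : ℕ, Divisor.degree (D₀ + (n : ℤ) • pt P₀) = n := by
    intro n
    rw [map_add, map_zsmul, degree_pt_eq hp.deg, hD₀', smul_eq_mul, mul_one, zero_add]
  have hg : riemannRochSpace (D₀ + ((genusFF K F : ℕ) : ℤ) • pt P₀) ≠ ⊥ := by
    intro hbot
    have h := hp.riemann (D₀ + ((genusFF K F : ℕ) : ℤ) • pt P₀)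
    rw [hbot, finrank_bot, hdegn] at h
    simp at h
  have hex : ∃ n : ℕ, riemannRochSpace (D₀ + (n : ℤ) • pt P₀) ≠ ⊥ := ⟨genusFF K F, hg⟩
  have he : riemannRochSpace (D₀ + ((Nat.find hex : ℕ) : ℤ) • pt P₀) ≠ ⊥ := Nat.find_spec hex
  have hemin : ∀ m : ℕ, m < Nat.find hex → riemannRochSpace (D₀ + (m : ℤ) • pt P₀) = ⊥ :=
    fun m hm => not_not.mp (Nat.find_min hex hm)
  have heg : Nat.find hex ≤ genusFF K F := Nat.find_min' hex hg
  generalize Nat.find hex = e at he hemin heg
  obtain ⟨f₀, hf₀mem, hf₀⟩ := Submodule.exists_mem_ne_zero_of_ne_bot he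
  obtain ⟨h1, h2, h3⟩ := isReduced_of_min hp.deg P₀ hD₀' hf₀ hf₀mem hemin
  refine ⟨D₀ + (e : ℤ) • pt P₀ + divOf f₀, h1, ?_, ?_⟩
  · rw [h2, cls_of_degree hD₀']
  · rw [h3]
    exact_mod_cast heg

open Classical in
/-- **The reduced divisor** of a class with respect to the base place `P₀`
(junk value `0` if there is none; under `RedPkg K F` there always is exactly one). -/
def red (P₀ : Place K F) (y : Pic0 K F) : Divisor K F :=
  if h : ∃ A : Divisor K F, IsReduced P₀ A ∧ clsAt P₀ A = y then h.choose else 0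

theorem red_spec (hp : RedPkg K F) (P₀ : Place K F) (y : Pic0 K F) :
    IsReduced P₀ (red P₀ y) ∧ clsAt P₀ (red P₀ y) = y := by
  have h : ∃ A : Divisor K F, IsReduced P₀ A ∧ clsAt P₀ A = y := by
    obtain ⟨A, h1, h2, -⟩ := exists_isReduced hp P₀ y
    exact ⟨A, h1, h2⟩
  unfold red
  rw [dif_pos h]
  exact h.choose_spec

theorem isReduced_red (hp : RedPkg K F) (P₀ : Place K F) (y : Pic0 K F) :
    IsReduced P₀ (red P₀ y) := (red_spec hp P₀ y).1

theorem clsAt_red (hp : RedPkg K F) (P₀ : Place K F) (y : Pic0 K F) :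
    clsAt P₀ (red P₀ y) = y := (red_spec hp P₀ y).2

/-- Uniqueness: a reduced divisor of class `y` is `red P₀ y`. -/
theorem eq_red (hp : RedPkg K F) {P₀ : Place K F} {y : Pic0 K F} {A : Divisor K F}
    (hA : IsReduced P₀ A) (h : clsAt P₀ A = y) : A = red P₀ y :=
  hA.eq_of_clsAt_eq hp.deg (hp.val P₀) (isReduced_red hp P₀ y) (h.trans (clsAt_red hp P₀ y).symm)

/-- **(R1)** every class contains exactly one reduced divisor. -/
theorem existsUnique_isReduced (hp : RedPkg K F) (P₀ : Place K F) (y : Pic0 K F) :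
    ∃! A : Divisor K F, IsReduced P₀ A ∧ clsAt P₀ A = y :=
  ⟨red P₀ y, red_spec hp P₀ y, fun _ hA => eq_red hp hA.1 hA.2⟩

theorem red_clsAt (hp : RedPkg K F) {P₀ : Place K F} {A : Divisor K F} (hA : IsReduced P₀ A) :
    red P₀ (clsAt P₀ A) = A := (eq_red hp hA rfl).symm

theorem red_nonneg (hp : RedPkg K F) (P₀ : Place K F) (y : Pic0 K F) : 0 ≤ red P₀ y :=
  (isReduced_red hp P₀ y).1

/-- **The reduced divisor by minimal pole order.**  If `deg D₀ = 0`, `f₀ ≠ 0` lies in
`L(D₀ + e • P₀)` and `L(D₀ + m • P₀) = 0` for `m < e`, then the reduced divisor of `[D₀]` is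
`D₀ + e • P₀ + div f₀`; in particular its degree is `e`. -/
theorem red_eq_of_min [HasPrincipalDivisors K F] (hp : RedPkg K F) (P₀ : Place K F)
    {D₀ : Divisor K F} (hD₀ : Divisor.degree D₀ = 0) {e : ℕ} {f₀ : F}
    (hf₀ : f₀ ≠ 0) (hf₀mem : f₀ ∈ riemannRochSpace (D₀ + (e : ℤ) • pt P₀))
    (hemin : ∀ m : ℕ, m < e → riemannRochSpace (D₀ + (m : ℤ) • pt P₀) = ⊥) :
    red P₀ (cls D₀) = D₀ + (e : ℤ) • pt P₀ + divOf f₀ := by
  obtain ⟨h1, h2, -⟩ := isReduced_of_min hp.deg P₀ hD₀ hf₀ hf₀mem hemin
  exact (eq_red hp h1 h2).symm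

/-- The degree of the reduced divisor of `[D₀]` is the least `e` with `L(D₀ + e • P₀) ≠ 0`. -/
theorem degree_red_eq_of_min (hp : RedPkg K F) (P₀ : Place K F)
    {D₀ : Divisor K F} (hD₀ : Divisor.degree D₀ = 0) {e : ℕ}
    (he : riemannRochSpace (D₀ + (e : ℤ) • pt P₀) ≠ ⊥)
    (hemin : ∀ m : ℕ, m < e → riemannRochSpace (D₀ + (m : ℤ) • pt P₀) = ⊥) :
    Divisor.degree (red P₀ (cls D₀)) = e := by
  have := hp.pd
  obtain ⟨f₀, hf₀mem, hf₀⟩ := Submodule.exists_mem_ne_zero_of_ne_bot he
  rw [red_eq_of_min hp P₀ hD₀ hf₀ hf₀mem hemin]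
  exact (isReduced_of_min hp.deg P₀ hD₀ hf₀ hf₀mem hemin).2.2

/-- `L(D₀ + m • P₀) ≠ 0` exactly from the degree of the reduced divisor of `[D₀]` on. -/
theorem rr_ne_bot_iff_degree_red_le (hp : RedPkg K F) (P₀ : Place K F)
    {D₀ : Divisor K F} (hD₀ : Divisor.degree D₀ = 0) (m : ℕ) :
    riemannRochSpace (D₀ + (m : ℤ) • pt P₀) ≠ ⊥ ↔ Divisor.degree (red P₀ (cls D₀)) ≤ m := by
  classical
  have hmono : ∀ a b : ℕ, a ≤ b → riemannRochSpace (D₀ + (a : ℤ) • pt P₀) ≠ ⊥ →
      riemannRochSpace (D₀ + (b : ℤ) • pt P₀) ≠ ⊥ := by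
    intro a b hab ha hb
    apply ha
    rw [eq_bot_iff, ← hb]
    apply Fermat.Agent.S27.helper1423.riemannRochSpace_mono
    intro v
    rw [Finsupp.add_apply, Finsupp.add_apply, Finsupp.smul_apply, Finsupp.smul_apply]
    have h1 : (0 : ℤ) ≤ (pt P₀ : Divisor K F) v := Fermat.Agent.S27.helper1423.pt_nonneg P₀ v
    have h2 : (a : ℤ) ≤ b := by exact_mod_cast hab
    have h3 := mul_le_mul_of_nonneg_right h2 h1
    simp only [smul_eq_mul]
    omega
  constructor
  · intro hm
    have hex : ∃ n : ℕ, riemannRochSpace (D₀ + (n : ℤ) • pt P₀) ≠ ⊥ := ⟨m, hm⟩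
    have h1 := degree_red_eq_of_min hp P₀ hD₀ (Nat.find_spec hex)
      (fun k hk => not_not.mp (Nat.find_min hex hk))
    rw [h1]
    exact_mod_cast Nat.find_min' hex hm
  · intro hm
    have hnn := degree_nonneg (red_nonneg hp P₀ (cls D₀))
    obtain ⟨e, he⟩ := Int.eq_ofNat_of_zero_le hnn
    by_contra hbot
    -- the least `e'` with `L ≠ 0` is `deg red = e ≤ m`
    have hg : ∃ n : ℕ, riemannRochSpace (D₀ + (n : ℤ) • pt P₀) ≠ ⊥ := by
      refine ⟨genusFF K F, fun hb => ?_⟩
      have h := hp.riemann (D₀ + ((genusFF K F : ℕ) : ℤ) • pt P₀)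
      rw [hb, finrank_bot, map_add, map_zsmul, degree_pt_eq hp.deg, hD₀] at h
      simp at h
    have h1 := degree_red_eq_of_min hp P₀ hD₀ (Nat.find_spec hg)
      (fun k hk => not_not.mp (Nat.find_min hg hk))
    have h2 : Nat.find hg ≤ m := by
      have : ((Nat.find hg : ℕ) : ℤ) ≤ m := by rw [← h1]; exact hm
      exact_mod_cast this
    exact hmono _ _ h2 (Nat.find_spec hg) hbot

theorem red_apply_base (hp : RedPkg K F) (P₀ : Place K F) (y : Pic0 K F) :
    red P₀ y P₀ = 0 := (isReduced_red hp P₀ y).apply_base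

theorem red_injective (hp : RedPkg K F) (P₀ : Place K F) :
    Function.Injective (red (K := K) (F := F) P₀) := fun y y' h => by
  rw [← clsAt_red hp P₀ y, ← clsAt_red hp P₀ y', h]

/-- **(R2)** the reduced divisor has degree at most the genus. -/
theorem degree_red_le_genus (hp : RedPkg K F) (P₀ : Place K F) (y : Pic0 K F) :
    Divisor.degree (red P₀ y) ≤ (genusFF K F : ℤ) := by
  obtain ⟨A, h1, h2, h3⟩ := exists_isReduced hp P₀ y
  rw [← eq_red hp h1 h2]
  exact h3

/-- **(R2)** minimality of the degree of the reduced divisor. -/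
theorem degree_red_le (hp : RedPkg K F) {P₀ : Place K F} {y : Pic0 K F} {B : Divisor K F}
    (hB : 0 ≤ B) (h : clsAt P₀ B = y) : Divisor.degree (red P₀ y) ≤ Divisor.degree B :=
  (isReduced_red hp P₀ y).degree_le hp.deg hB ((clsAt_red hp P₀ y).trans h.symm)

/-- **(R2)** an effective divisor of the class of least degree is the reduced divisor. -/
theorem eq_red_of_degree_le (hp : RedPkg K F) {P₀ : Place K F} {y : Pic0 K F}
    {B : Divisor K F} (hB : 0 ≤ B) (h : clsAt P₀ B = y)
    (hle : Divisor.degree B ≤ Divisor.degree (red P₀ y)) : B = red P₀ y :=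
  (isReduced_red hp P₀ y).eq_of_degree_le hp.deg (hp.val P₀) hB
    ((clsAt_red hp P₀ y).trans h.symm) hle

theorem isReduced_zero (hp : RedPkg K F) (P₀ : Place K F) : IsReduced P₀ (0 : Divisor K F) := by
  have := hp.pd
  refine ⟨le_refl _, rr_eq_bot_of_degree_neg ?_⟩
  rw [zero_sub, map_neg, degree_pt_eq hp.deg]
  norm_num

theorem clsAt_zero (P₀ : Place K F) : clsAt P₀ (0 : Divisor K F) = 0 := by
  unfold clsAt
  rw [map_zero, zero_smul, sub_zero, cls_zero']

theorem red_zero (hp : RedPkg K F) (P₀ : Place K F) : red P₀ (0 : Pic0 K F) = 0 :=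
  (eq_red hp (isReduced_zero hp P₀) (clsAt_zero P₀)).symm

theorem red_eq_zero_iff (hp : RedPkg K F) (P₀ : Place K F) (y : Pic0 K F) :
    red P₀ y = 0 ↔ y = 0 := by
  constructor
  · intro h
    rw [← clsAt_red hp P₀ y, h, clsAt_zero]
  · rintro rfl
    exact red_zero hp P₀

end Reduced

/-! ## Decomposition into points -/

section Points

variable {K : Type*} {F : Type*} [Field K] [Field F] [Algebra K F]

theorem eq_sum_smul_pt (A : Divisor K F) : A = ∑ R ∈ A.support, A R • pt R := by
  conv_lhs => rw [← Finsupp.sum_single A]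
  rw [Finsupp.sum]
  refine Finset.sum_congr rfl fun R _ => ?_
  unfold pt
  rw [Finsupp.smul_single, smul_eq_mul, mul_one]

theorem degree_eq_sum (hdeg : ∀ v : Place K F, v.deg = 1) (A : Divisor K F) :
    Divisor.degree A = ∑ R ∈ A.support, A R := by
  conv_lhs => rw [eq_sum_smul_pt A]
  rw [map_sum]
  refine Finset.sum_congr rfl fun R _ => ?_
  rw [map_zsmul, degree_pt_eq hdeg, smul_eq_mul, mul_one]

/-- `[A - deg A • P₀] = ∑ A(R) • [R - P₀]`. -/
theorem clsAt_eq_sum (hdeg : ∀ v : Place K F, v.deg = 1) (P₀ : Place K F) (A : Divisor K F) :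
    clsAt P₀ A = ∑ R ∈ A.support, A R • cls (pt R - pt P₀) := by
  have h0 : ∀ R : Place K F, Divisor.degree (pt R - pt P₀ : Divisor K F) = 0 := fun R => by
    rw [map_sub, degree_pt_eq hdeg, degree_pt_eq hdeg, sub_self]
  have h1 : A - Divisor.degree A • pt P₀ = ∑ R ∈ A.support, A R • (pt R - pt P₀) := by
    have e1 : ∑ R ∈ A.support, A R • (pt R - pt P₀)
        = ∑ R ∈ A.support, A R • pt R - (∑ R ∈ A.support, A R) • pt P₀ := by
      rw [Finset.sum_smul, ← Finset.sum_sub_distrib]
      exact Finset.sum_congr rfl fun R _ => smul_sub _ _ _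
    rw [e1, ← eq_sum_smul_pt A, ← degree_eq_sum hdeg A]
  unfold clsAt
  rw [h1, cls_sum' _ _ (fun R _ => by rw [map_zsmul, h0, smul_zero])]
  exact Finset.sum_congr rfl fun R _ => cls_zsmul' (h0 R) _

/-- **(R3)** every class is the sum of the classes `[R - P₀]` over the points of its reduced
divisor. -/
theorem eq_sum_cls_red (hp : RedPkg K F) (P₀ : Place K F) (y : Pic0 K F) :
    y = ∑ R ∈ (red P₀ y).support, red P₀ y R • cls (pt R - pt P₀) := by
  conv_lhs => rw [← clsAt_red hp P₀ y]
  exact clsAt_eq_sum hp.deg P₀ _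

theorem apply_le_degree (hdeg : ∀ v : Place K F, v.deg = 1) {A : Divisor K F} (hA : 0 ≤ A)
    (v : Place K F) : A v ≤ Divisor.degree A := by
  classical
  rw [degree_eq_sum hdeg A]
  by_cases hv : v ∈ A.support
  · exact Finset.single_le_sum (f := fun R => A R) (fun R _ => hA R) hv
  · rw [Finsupp.notMem_support_iff.mp hv]
    exact Finset.sum_nonneg fun R _ => hA R

theorem eq_zero_of_degree_eq_zero (hdeg : ∀ v : Place K F, v.deg = 1) {A : Divisor K F}
    (hA : 0 ≤ A) (h : Divisor.degree A = 0) : A = 0 := by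
  ext v
  have h1 := apply_le_degree hdeg hA v
  have h2 := hA v
  simp only [Finsupp.coe_zero, Pi.zero_apply] at h2 ⊢
  omega

/-- An effective divisor of degree `n` is a sum of `n` points. -/
theorem exists_sumDiv_eq (hdeg : ∀ v : Place K F, v.deg = 1) :
    ∀ (n : ℕ) (A : Divisor K F), 0 ≤ A → Divisor.degree A = n →
      ∃ P : Fin n → Place K F, sumDiv P = A := by
  intro n
  induction n with
  | zero =>
    intro A hA hn
    refine ⟨Fin.elim0, ?_⟩
    rw [Fermat.Agent.S27.helper1423.sumDiv_empty]
    exact (eq_zero_of_degree_eq_zero hdeg hA (by exact_mod_cast hn)).symm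
  | succ n ih =>
    intro A hA hn
    have hne : A ≠ 0 := by
      rintro rfl
      rw [map_zero] at hn
      push_cast at hn
      omega
    obtain ⟨v, hv⟩ : ∃ v, A v ≠ 0 := by
      by_contra hcon
      push Not at hcon
      exact hne (Finsupp.ext hcon)
    have hv0 : 0 ≤ A v := hA v
    have hA' : (0 : Divisor K F) ≤ A - pt v := by
      intro w
      rw [Finsupp.sub_apply]
      simp only [Finsupp.coe_zero, Pi.zero_apply]
      by_cases hw : w = v
      · subst hw
        rw [Fermat.Agent.S27.helper1423.pt_apply_self]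
        omega
      · rw [Fermat.Agent.S27.helper1423.pt_apply_of_ne hw]
        have := hA w
        simp only [Finsupp.coe_zero, Pi.zero_apply] at this
        omega
    have hdeg' : Divisor.degree (A - pt v) = n := by
      rw [map_sub, degree_pt_eq hdeg, hn]
      push_cast
      ring
    obtain ⟨P, hP⟩ := ih (A - pt v) hA' hdeg'
    refine ⟨Fin.cons v P, ?_⟩
    rw [Fermat.Agent.S27.helper1423.sumDiv_cons, hP]
    abel

theorem clsAt_sumDiv (hdeg : ∀ v : Place K F, v.deg = 1) (P₀ : Place K F) {n : ℕ}
    (P : Fin n → Place K F) : clsAt P₀ (sumDiv P) = ∑ i, cls (pt (P i) - pt P₀) := by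
  have h0 : ∀ R : Place K F, Divisor.degree (pt R - pt P₀ : Divisor K F) = 0 := fun R => by
    rw [map_sub, degree_pt_eq hdeg, degree_pt_eq hdeg, sub_self]
  have hd : Divisor.degree (sumDiv P : Divisor K F) = n := by
    unfold sumDiv
    rw [map_sum]
    simp [degree_pt_eq hdeg]
  have h1 : sumDiv P - Divisor.degree (sumDiv P : Divisor K F) • pt P₀
      = ∑ i, (pt (P i) - pt P₀) := by
    rw [hd, Finset.sum_sub_distrib]
    unfold sumDiv
    simp
  unfold clsAt
  rw [h1, cls_sum' _ _ (fun i _ => h0 (P i))]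

/-- **(R3), tuple form.** Every class is `∑ i, [P i - P₀]` for a tuple of at most `g` places
different from `P₀`, namely the points of the reduced divisor. -/
theorem exists_points (hp : RedPkg K F) (P₀ : Place K F) (y : Pic0 K F) :
    ∃ (e : ℕ) (P : Fin e → Place K F), e ≤ genusFF K F ∧ sumDiv P = red P₀ y ∧
      (∀ i, P i ≠ P₀) ∧ y = ∑ i, cls (pt (P i) - pt P₀) := by
  classical
  have hnn := red_nonneg hp P₀ y
  have hd0 : 0 ≤ Divisor.degree (red P₀ y) := degree_nonneg hnn
  obtain ⟨e, he⟩ := Int.eq_ofNat_of_zero_le hd0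
  obtain ⟨P, hP⟩ := exists_sumDiv_eq hp.deg e (red P₀ y) hnn he
  refine ⟨e, P, ?_, hP, ?_, ?_⟩
  · have := degree_red_le_genus hp P₀ y
    rw [he] at this
    exact_mod_cast this
  · intro i hi
    have h1 : (sumDiv P : Divisor K F) P₀ = 0 := by rw [hP]; exact red_apply_base hp P₀ y
    have h2 : (pt (P i) : Divisor K F) P₀ ≤ (sumDiv P : Divisor K F) P₀ := by
      unfold sumDiv
      rw [Finset.sum_apply']
      exact Finset.single_le_sum (f := fun j => (pt (P j) : Divisor K F) P₀)
        (fun j _ => Fermat.Agent.S27.helper1423.pt_nonneg (P j) P₀) (Finset.mem_univ i)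
    rw [hi, Fermat.Agent.S27.helper1423.pt_apply_self, h1] at h2
    omega
  · conv_lhs => rw [← clsAt_red hp P₀ y, ← hP]
    exact clsAt_sumDiv hp.deg P₀ P

end Points

/-! ## Equivariance under semilinear automorphisms -/

section Equivariance

variable {K : Type*} {F : Type*} [Field K] [Field F] [Algebra K F]

open SemilinearAut

theorem smul_pt (s : SemilinearAut K F) (P : Place K F) : s • (pt P : Divisor K F) = pt (s • P) :=
  SemilinearAut.smul_single s P 1

theorem smul_eq_zero_iff' (s : SemilinearAut K F) (f : F) : s • f = 0 ↔ f = 0 := by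
  rw [SemilinearAut.smul_def]
  exact map_eq_zero_iff _ (toRingAut s).injective

/-- `s` maps `L(D)` onto `L(s • D)`. -/
theorem smul_mem_rr_smul_iff (s : SemilinearAut K F) (D : Divisor K F) (f : F) :
    s • f ∈ riemannRochSpace (s • D) ↔ f ∈ riemannRochSpace D := by
  rw [mem_riemannRochSpace_iff, mem_riemannRochSpace_iff]
  constructor
  · intro h v
    have h1 := h (s • v)
    rwa [smul_eq_zero_iff', divisor_smul_apply_smul, ord_smul] at h1
  · intro h w
    have h1 := h (s⁻¹ • w)
    rw [← smul_eq_zero_iff' s f, ← divisor_smul_apply_smul s D (s⁻¹ • w),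
      ← ord_smul s (s⁻¹ • w) f, smul_inv_smul] at h1
    exact h1

theorem rr_smul_eq_bot_iff (s : SemilinearAut K F) (D : Divisor K F) :
    riemannRochSpace (s • D) = ⊥ ↔ riemannRochSpace D = ⊥ := by
  constructor
  · intro h
    rw [eq_bot_iff]
    intro f hf
    have h1 := (smul_mem_rr_smul_iff s D f).mpr hf
    rw [h, Submodule.mem_bot, smul_eq_zero_iff'] at h1
    exact (Submodule.mem_bot K).mpr h1
  · intro h
    rw [eq_bot_iff]
    intro f hf
    have h1 : s • (s⁻¹ • f) ∈ riemannRochSpace (s • D) := by rwa [smul_inv_smul]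
    rw [smul_mem_rr_smul_iff, h, Submodule.mem_bot, smul_eq_zero_iff'] at h1
    exact (Submodule.mem_bot K).mpr h1

theorem smul_nonneg_divisor (s : SemilinearAut K F) {A : Divisor K F} (hA : 0 ≤ A) :
    0 ≤ s • A := by
  intro w
  rw [divisor_smul_apply]
  exact hA _

/-- Reducedness is transported by semilinear automorphisms. -/
theorem IsReduced.smul (s : SemilinearAut K F) {P₀ : Place K F} {A : Divisor K F}
    (hA : IsReduced P₀ A) : IsReduced (s • P₀) (s • A) := by
  refine ⟨smul_nonneg_divisor s hA.1, ?_⟩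
  rw [← smul_pt, ← smul_sub, rr_smul_eq_bot_iff]
  exact hA.2

theorem cls_smul (s : SemilinearAut K F) (D : Divisor K F) : cls (s • D) = s • cls D := by
  by_cases h : Divisor.degree D = 0
  · rw [cls_of_degree h, cls_of_degree (by rw [degree_smul, h]), pic0_smul_mk]
    rfl
  · have h' : ¬ Divisor.degree (s • D) = 0 := by rwa [degree_smul]
    unfold cls
    rw [dif_neg (show ¬ D ∈ Divisor.degZero (K := K) (F := F) from h),
      dif_neg (show ¬ s • D ∈ Divisor.degZero (K := K) (F := F) from h')]
    exact (smul_zero (A := Pic0 K F) s).symm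

theorem clsAt_smul (s : SemilinearAut K F) (P₀ : Place K F) (A : Divisor K F) :
    clsAt (s • P₀) (s • A) = s • clsAt P₀ A := by
  unfold clsAt
  rw [← cls_smul, smul_sub, degree_smul, ← smul_pt]
  congr 2
  exact (map_zsmul (DistribSMul.toAddMonoidHom (Divisor K F) s) _ _).symm

/-- **(R4)** the reduced divisor is equivariant. -/
theorem red_smul (hp : RedPkg K F) (s : SemilinearAut K F) (P₀ : Place K F) (y : Pic0 K F) :
    red (s • P₀) (s • y) = s • red P₀ y := by
  symm
  apply eq_red hp ((isReduced_red hp P₀ y).smul s)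
  rw [clsAt_smul, clsAt_red hp]

/-- **(R4)** if `s` fixes the base place, `red P₀ (s • y) = s • red P₀ y`. -/
theorem red_smul_of_fixed (hp : RedPkg K F) (s : SemilinearAut K F) {P₀ : Place K F}
    (hs : s • P₀ = P₀) (y : Pic0 K F) : red P₀ (s • y) = s • red P₀ y := by
  have h := red_smul hp s P₀ y
  rwa [hs] at h

/-- **(R4)** the reduced divisor of a fixed class is stable. -/
theorem smul_red_eq_self (hp : RedPkg K F) (s : SemilinearAut K F) {P₀ : Place K F}
    (hs : s • P₀ = P₀) {y : Pic0 K F} (hy : s • y = y) : s • red P₀ y = red P₀ y := by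
  rw [← red_smul_of_fixed hp s hs, hy]

/-- A stable divisor has stable support. -/
theorem smul_mem_support_iff (s : SemilinearAut K F) (A : Divisor K F) (R : Place K F) :
    s • R ∈ (s • A).support ↔ R ∈ A.support := by
  rw [Finsupp.mem_support_iff, Finsupp.mem_support_iff, divisor_smul_apply_smul]

/-! ### Values -/

open Fermat.Agent.S27.helper4586 in
theorem isVal_smul (s : SemilinearAut K F) {R : Place K F} {f : F} {c : K} (h : IsVal R f c) :
    IsVal (s • R) (s • f) (baseAut s c) := by
  rw [isVal_iff] at h ⊢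
  rcases h with h | h
  · left
    rw [h, SemilinearAut.smul_algebraMap]
  · right
    rw [← SemilinearAut.smul_algebraMap, ← smul_sub, ord_smul]
    exact h

open Fermat.Agent.S27.helper4586 in
/-- **(R5)** values are equivariant: `(s f)(s R) = s (f(R))`. -/
theorem ev_smul (s : SemilinearAut K F) (R : Place K F) (f : F) :
    ev (s • R) (s • f) = baseAut s (ev R f) := by
  by_cases h : ∃ c : K, IsVal R f c
  · obtain ⟨c, hc⟩ := h
    rw [hc.ev_eq, (isVal_smul s hc).ev_eq]
  · have h' : ¬ ∃ c : K, IsVal (s • R) (s • f) c := by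
      rintro ⟨c, hc⟩
      apply h
      have h1 := isVal_smul s⁻¹ hc
      rw [inv_smul_smul, inv_smul_smul] at h1
      exact ⟨_, h1⟩
    rw [ev_eq_zero_of_not_exists h, ev_eq_zero_of_not_exists h', map_zero]

theorem ev_smul_of_fixed (s : SemilinearAut K F) (R : Place K F) {t : F} (ht : s • t = t) :
    ev (s • R) t = baseAut s (ev R t) := by
  conv_lhs => rw [← ht]
  exact ev_smul s R t

/-- The multiset of the values of `t` at the points of `A`, with multiplicities. -/
def vals (t : F) (A : Divisor K F) : Multiset K :=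
  ∑ R ∈ A.support, (A R).toNat • ({ev R t} : Multiset K)

theorem mem_vals_iff {t : F} {A : Divisor K F} (hA : 0 ≤ A) {c : K} :
    c ∈ vals t A ↔ ∃ R ∈ A.support, ev R t = c := by
  classical
  unfold vals
  rw [Multiset.mem_sum]
  constructor
  · rintro ⟨R, hR, hc⟩
    have h1 := Multiset.mem_of_mem_nsmul hc
    exact ⟨R, hR, (Multiset.mem_singleton.mp h1).symm⟩
  · rintro ⟨R, hR, rfl⟩
    refine ⟨R, hR, ?_⟩
    have h0 : A R ≠ 0 := Finsupp.mem_support_iff.mp hR
    have h1 : 0 ≤ A R := hA R
    have h2 : (A R).toNat ≠ 0 := by omega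
    rw [Multiset.mem_nsmul_of_ne_zero h2]
    exact Multiset.mem_singleton_self _

theorem card_vals (hdeg : ∀ v : Place K F, v.deg = 1) (t : F) {A : Divisor K F} (hA : 0 ≤ A) :
    ((vals t A).card : ℤ) = Divisor.degree A := by
  unfold vals
  rw [Multiset.card_sum, degree_eq_sum hdeg A]
  push_cast
  refine Finset.sum_congr rfl fun R _ => ?_
  rw [Multiset.card_nsmul, Multiset.card_singleton, mul_one]
  exact Int.toNat_of_nonneg (hA R)

/-- **(R5)** for a function `t` fixed by `s`, the values at `s • A` are the `s`-images of the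
values at `A`. -/
theorem vals_smul (s : SemilinearAut K F) {t : F} (ht : s • t = t) (A : Divisor K F) :
    vals t (s • A) = (vals t A).map (baseAut s) := by
  classical
  unfold vals
  have hsupp : (s • A).support = A.support.image (s • ·) := by
    ext w
    rw [Finset.mem_image]
    constructor
    · intro hw
      refine ⟨s⁻¹ • w, ?_, smul_inv_smul s w⟩
      rwa [← smul_mem_support_iff s, smul_inv_smul]
    · rintro ⟨R, hR, rfl⟩
      exact (smul_mem_support_iff s A R).mpr hR
  rw [hsupp, Finset.sum_image (fun a _ b _ h => MulAction.injective s h),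
    ← Multiset.coe_mapAddMonoidHom, map_sum]
  refine Finset.sum_congr rfl fun R _ => ?_
  rw [divisor_smul_apply_smul, ev_smul_of_fixed s R ht, map_nsmul,
    Multiset.coe_mapAddMonoidHom, Multiset.map_singleton]

/-- The monic polynomial whose roots are the values of `t` at the points of `A`. -/
def normPoly (t : F) (A : Divisor K F) : Polynomial K :=
  ((vals t A).map fun c => Polynomial.X - Polynomial.C c).prod

theorem normPoly_monic (t : F) (A : Divisor K F) : (normPoly t A).Monic :=
  Polynomial.monic_multiset_prod_of_monic _ _ fun c _ => Polynomial.monic_X_sub_C c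

theorem natDegree_normPoly (t : F) (A : Divisor K F) :
    (normPoly t A).natDegree = (vals t A).card :=
  Polynomial.natDegree_multiset_prod_X_sub_C_eq_card _

theorem roots_normPoly (t : F) (A : Divisor K F) : (normPoly t A).roots = vals t A :=
  Polynomial.roots_multiset_prod_X_sub_C _

/-- **(R5)** the norm polynomial of `s • A` is the `s`-conjugate of that of `A`. -/
theorem normPoly_smul (s : SemilinearAut K F) {t : F} (ht : s • t = t) (A : Divisor K F) :
    normPoly t (s • A) = (normPoly t A).map ((baseAut s : K ≃+* K) : K →+* K) := by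
  unfold normPoly
  rw [vals_smul s ht, Polynomial.map_multiset_prod, Multiset.map_map, Multiset.map_map]
  congr 1
  refine Multiset.map_congr rfl fun c _ => ?_
  simp

/-- **(R5)** the norm polynomial of the reduced divisor of a fixed class has coefficients fixed
by `s`. -/
theorem normPoly_red_map (hp : RedPkg K F) (s : SemilinearAut K F) {P₀ : Place K F}
    (hs : s • P₀ = P₀) {t : F} (ht : s • t = t) {y : Pic0 K F} (hy : s • y = y) :
    (normPoly t (red P₀ y)).map ((baseAut s : K ≃+* K) : K →+* K) = normPoly t (red P₀ y) := by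
  rw [← normPoly_smul s ht, smul_red_eq_self hp s hs hy]

theorem natDegree_normPoly_red_le (hp : RedPkg K F) (P₀ : Place K F) (t : F) (y : Pic0 K F) :
    (normPoly t (red P₀ y)).natDegree ≤ genusFF K F := by
  have h1 := card_vals hp.deg t (red_nonneg hp P₀ y)
  have h2 := degree_red_le_genus hp P₀ y
  rw [natDegree_normPoly]
  omega

/-- **(R5)** the values of a fixed function on the reduced divisor of a fixed class are permuted
by `baseAut s`. -/
theorem vals_red_map (hp : RedPkg K F) (s : SemilinearAut K F) {P₀ : Place K F}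
    (hs : s • P₀ = P₀) {t : F} (ht : s • t = t) {y : Pic0 K F} (hy : s • y = y) :
    (vals t (red P₀ y)).map (baseAut s) = vals t (red P₀ y) := by
  rw [← vals_smul s ht, smul_red_eq_self hp s hs hy]

end Equivariance

/-! ## Finiteness -/

section Finiteness

variable {K : Type*} {F : Type*} [Field K] [Field F] [Algebra K F]

/-- **(R6)** only finitely many classes have their reduced divisor supported in a given finite
set of places. -/
theorem finite_setOf_support_subset (hp : RedPkg K F) (P₀ : Place K F) (T : Set (Place K F))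
    (hT : T.Finite) :
    {y : Pic0 K F | ((red P₀ y).support : Set (Place K F)) ⊆ T}.Finite := by
  classical
  have := hT.to_subtype
  have hfin : (Set.pi Set.univ fun _ : T => Set.Icc (0 : ℤ) (genusFF K F)).Finite :=
    Set.Finite.pi fun _ => Set.finite_Icc _ _
  refine Set.Finite.of_injOn (f := fun (y : Pic0 K F) (v : T) => red P₀ y (v : Place K F))
    ?_ ?_ hfin
  · intro y _ v _
    exact ⟨red_nonneg hp P₀ y v,
      (apply_le_degree hp.deg (red_nonneg hp P₀ y) v).trans (degree_red_le_genus hp P₀ y)⟩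
  · intro y hy y' hy' h
    apply red_injective hp P₀
    ext v
    by_cases hv : v ∈ T
    · exact congrFun h ⟨v, hv⟩
    · have h1 : v ∉ (red P₀ y).support := fun hmem => hv (hy hmem)
      have h2 : v ∉ (red P₀ y').support := fun hmem => hv (hy' hmem)
      rw [Finsupp.notMem_support_iff.mp h1, Finsupp.notMem_support_iff.mp h2]

/-- **(R6)** if every fibre of `R ↦ ev R t` is finite, only finitely many classes have all
values of `t` on their reduced divisor in a given finite set. -/
theorem finite_setOf_forall_ev_mem (hp : RedPkg K F) (P₀ : Place K F) (t : F)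
    (hfin : ∀ c : K, {R : Place K F | ev R t = c}.Finite) (S : Set K) (hS : S.Finite) :
    {y : Pic0 K F | ∀ R ∈ (red P₀ y).support, ev R t ∈ S}.Finite := by
  refine (finite_setOf_support_subset hp P₀ (⋃ c ∈ S, {R : Place K F | ev R t = c})
    (hS.biUnion fun c _ => hfin c)).subset ?_
  intro y hy R hR
  exact Set.mem_biUnion (hy R hR) (show ev R t = ev R t from rfl)

/-- **(R6)** the same in terms of the multiset of values. -/
theorem finite_setOf_vals_subset (hp : RedPkg K F) (P₀ : Place K F) (t : F)
    (hfin : ∀ c : K, {R : Place K F | ev R t = c}.Finite) (S : Set K) (hS : S.Finite) :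
    {y : Pic0 K F | ∀ c ∈ vals t (red P₀ y), c ∈ S}.Finite := by
  refine (finite_setOf_forall_ev_mem hp P₀ t hfin S hS).subset ?_
  intro y hy R hR
  exact hy _ ((mem_vals_iff (red_nonneg hp P₀ y)).mpr ⟨R, hR, rfl⟩)

/-- In the Spec setting the fibres of `R ↦ ev R t` are finite for transcendental `t`. -/
theorem finite_setOf_ev_eq [IsAlgClosed K] [CharZero K] (x : F)
    [FiniteDimensional K⟮x⟯ F] {t : F} (ht : Transcendental K t) (c : K) :
    {R : Place K F | ev R t = c}.Finite := by
  have hfd : FiniteDimensional K⟮t⟯ F :=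
    Fermat.Agent.S24.helper204.finiteDimensional_adjoin_of_transcendental (x := x) ht
  obtain ⟨s1, hs1, -⟩ := Fermat.Agent.S24.helper483.exists_finset_zeros t ht c
  obtain ⟨s2, hs2, -⟩ := Fermat.Agent.S24.helper483.exists_finset_poles t ht
  classical
  refine ((s1 ∪ s2 : Finset (Place K F)).finite_toSet).subset ?_
  intro R hR
  change ev R t = c at hR
  rw [Finset.mem_coe, Finset.mem_union, hs1, hs2]
  by_cases hneg : R.ord t < 0
  · exact Or.inr hneg
  · left
    have hval := Fermat.Agent.S27.helper4586.hasValues_of_finite x R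
    rcases Fermat.Agent.S27.helper4586.eq_or_ord_sub_ev_pos hval (not_lt.mp hneg) with h | h
    · exact absurd (h ▸ isAlgebraic_algebraMap _) ht
    · rwa [hR] at h

end Finiteness

/-! ## The naive height attached to a coordinate function -/

section Height

variable {K : Type*} {F : Type*} [Field K] [Field F] [Algebra K F]

/-- `vals` as a sum over any finite set containing the support. -/
theorem vals_eq_sum_of_subset (t : F) (A : Divisor K F) (S : Finset (Place K F))
    (hS : A.support ⊆ S) :
    vals t A = ∑ R ∈ S, (A R).toNat • ({ev R t} : Multiset K) := by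
  unfold vals
  refine Finset.sum_subset hS fun R _ hR => ?_
  rw [Finsupp.notMem_support_iff.mp hR, Int.toNat_zero, zero_smul]

theorem vals_zero (t : F) : vals t (0 : Divisor K F) = 0 := by
  unfold vals
  simp

theorem vals_add (t : F) {A B : Divisor K F} (hA : 0 ≤ A) (hB : 0 ≤ B) :
    vals t (A + B) = vals t A + vals t B := by
  classical
  rw [vals_eq_sum_of_subset t (A + B) (A.support ∪ B.support ∪ (A + B).support)
      Finset.subset_union_right,
    vals_eq_sum_of_subset t A (A.support ∪ B.support ∪ (A + B).support)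
      (Finset.subset_union_left.trans Finset.subset_union_left),
    vals_eq_sum_of_subset t B (A.support ∪ B.support ∪ (A + B).support)
      (Finset.subset_union_right.trans Finset.subset_union_left),
    ← Finset.sum_add_distrib]
  refine Finset.sum_congr rfl fun R _ => ?_
  rw [Finsupp.add_apply, Int.toNat_add (hA R) (hB R), add_smul]

theorem vals_pt (t : F) (R : Place K F) : vals t (pt R : Divisor K F) = {ev R t} := by
  classical
  have hsupp : (pt R : Divisor K F).support = {R} := by
    unfold pt
    exact Finsupp.support_single R one_ne_zero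
  unfold vals
  rw [hsupp, Finset.sum_singleton, Fermat.Agent.S27.helper1423.pt_apply_self]
  simp

theorem vals_sumDiv (t : F) {n : ℕ} (P : Fin n → Place K F) :
    vals t (sumDiv P : Divisor K F) = Finset.univ.val.map fun i => ev (P i) t := by
  induction n with
  | zero =>
    rw [Fermat.Agent.S27.helper1423.sumDiv_empty, vals_zero]
    rfl
  | succ n ih =>
    have hP : P = Fin.cons (P 0) (fun i => P i.succ) := (Fin.cons_self_tail P).symm
    have hnn : (0 : Divisor K F) ≤ sumDiv fun i : Fin n => P i.succ := by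
      unfold sumDiv
      exact Finset.sum_nonneg fun i _ => Fermat.Agent.S27.helper1423.pt_nonneg _
    conv_lhs => rw [hP]
    rw [Fermat.Agent.S27.helper1423.sumDiv_cons,
      vals_add t hnn (Fermat.Agent.S27.helper1423.pt_nonneg _), vals_pt, ih, Fin.univ_succ,
      Finset.cons_val, Multiset.map_cons, Finset.map_val, Multiset.map_map, add_comm,
      Multiset.singleton_add]
    rfl

/-- The naive height of a class relative to a coordinate function `t` and a height function
`ht` on the base field: the sum of `ht (t(R))` over the points `R` of the reduced divisor. -/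
def hRed (ht : K → ℝ) (t : F) (P₀ : Place K F) (y : Pic0 K F) : ℝ :=
  ((vals t (red P₀ y)).map ht).sum

theorem hRed_nonneg {ht : K → ℝ} (hnn : ∀ c, 0 ≤ ht c) (t : F) (P₀ : Place K F)
    (y : Pic0 K F) : 0 ≤ hRed ht t P₀ y := by
  unfold hRed
  refine Multiset.sum_nonneg fun x hx => ?_
  obtain ⟨c, -, rfl⟩ := Multiset.mem_map.mp hx
  exact hnn c

theorem hRed_zero (hp : RedPkg K F) (ht : K → ℝ) (t : F) (P₀ : Place K F) :
    hRed ht t P₀ (0 : Pic0 K F) = 0 := by
  unfold hRed
  rw [red_zero hp, vals_zero]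
  simp

theorem le_hRed {ht : K → ℝ} (hnn : ∀ c, 0 ≤ ht c) {t : F} {P₀ : Place K F} {y : Pic0 K F}
    {c : K} (hc : c ∈ vals t (red P₀ y)) : ht c ≤ hRed ht t P₀ y := by
  unfold hRed
  refine Multiset.single_le_sum (fun x hx => ?_) _ (Multiset.mem_map_of_mem ht hc)
  obtain ⟨c', -, rfl⟩ := Multiset.mem_map.mp hx
  exact hnn c'

/-- **(R3) with heights.** The points of the reduced divisor: at most `g` places `P i ≠ P₀`
with `y = ∑ [P i - P₀]` and `hRed y = ∑ ht (t(P i))`. -/
theorem exists_points_hRed (hp : RedPkg K F) (ht : K → ℝ) (t : F) (P₀ : Place K F)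
    (y : Pic0 K F) :
    ∃ (e : ℕ) (P : Fin e → Place K F), e ≤ genusFF K F ∧ sumDiv P = red P₀ y ∧
      (∀ i, P i ≠ P₀) ∧ y = ∑ i, cls (pt (P i) - pt P₀) ∧
      hRed ht t P₀ y = ∑ i, ht (ev (P i) t) := by
  obtain ⟨e, P, h1, h2, h3, h4⟩ := exists_points hp P₀ y
  refine ⟨e, P, h1, h2, h3, h4, ?_⟩
  unfold hRed
  rw [← h2, vals_sumDiv, Multiset.map_map]
  rfl

/-- **Northcott for `hRed`, abstract form.** If `ht ≥ 0` has the Northcott property on a set
`V ⊆ K` and the fibres of `R ↦ ev R t` are finite, then only finitely many classes have all their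
reduced values in `V` and `hRed ≤ B`. -/
theorem finite_setOf_hRed_le (hp : RedPkg K F) (P₀ : Place K F) (t : F)
    (hfin : ∀ c : K, {R : Place K F | ev R t = c}.Finite) {ht : K → ℝ} (hnn : ∀ c, 0 ≤ ht c)
    (V : Set K) (hV : ∀ B : ℝ, {c : K | c ∈ V ∧ ht c ≤ B}.Finite) (B : ℝ) :
    {y : Pic0 K F | (∀ c ∈ vals t (red P₀ y), c ∈ V) ∧ hRed ht t P₀ y ≤ B}.Finite := by
  refine (finite_setOf_vals_subset hp P₀ t hfin _ (hV B)).subset ?_
  rintro y ⟨hy1, hy2⟩ c hc
  exact ⟨hy1 c hc, (le_hRed hnn hc).trans hy2⟩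

end Height

end

end Fermat.Agent.S17.helper1298
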