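import Mathlib
import Fermat.Prelude.Def_ModularCurve_ArithmeticGalois
import Fermat.Prelude.Def_AlgebraicCurve_Repartitions

/-!
# S17-QDESC: rational structures by coefficient functionals

Descent without Speiser and without stabiliser conditions.  If a family of linear
functionals `c i : V →ₗ[K] K` is equivariant for an action on `V` and on `K`, and it
separates the points of a finite-dimensional stable subspace `W`, then `W` has a basis
of fixed vectors: pick `finrank K W` of the functionals forming a coordinate system on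
`W`; the vectors of the dual basis are fixed, since their images lie in `W` and have
the same coordinates.

Instance: `V = laurentBaseChange L F₀` with the coefficientwise Galois action
(`arithmeticRingAut`), the functionals being the Laurent coefficients.
-/

set_option autoImplicit false

namespace Fermat.Agent.S17.helper909

open Module

section Abstract

variable {K V ι G : Type*} [Field K] [AddCommGroup V] [Module K V]

/-- Among a family of functionals separating the points of a finite-dimensional subspace
`W` one can choose `finrank K W` of them which still separate the points of `W`. -/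
theorem exists_fin_separating (c : ι → V →ₗ[K] K) (W : Submodule K V)
    [FiniteDimensional K W] (hsep : ∀ w ∈ W, (∀ i, c i w = 0) → w = 0) :
    ∃ i : Fin (finrank K W) → ι, ∀ w ∈ W, (∀ k, c (i k) w = 0) → w = 0 := by
  classical
  set φ : ι → Module.Dual K W := fun i => (c i).comp W.subtype with hφ
  have hco : (Submodule.span K (Set.range φ)).dualCoannihilator = ⊥ := by
    rw [eq_bot_iff]
    intro w hw
    rw [Submodule.mem_dualCoannihilator] at hw
    have h0 : (w : V) = 0 :=
      hsep w w.2 (fun i => hw (φ i) (Submodule.subset_span ⟨i, rfl⟩))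
    exact (Submodule.mem_bot K).mpr (Subtype.ext h0)
  have hspan : Submodule.span K (Set.range φ) = ⊤ := by
    apply Submodule.eq_top_of_finrank_eq
    have h := Subspace.finrank_add_finrank_dualCoannihilator_eq
      (Submodule.span K (Set.range φ))
    rw [hco, finrank_bot, add_zero] at h
    rw [h, Subspace.dual_finrank_eq]
  obtain ⟨κ, a, -, ha2, ha3⟩ := exists_linearIndependent' K φ
  have hsp : ⊤ ≤ Submodule.span K (Set.range (φ ∘ a)) := by rw [ha2, hspan]
  let B : Basis κ K (Module.Dual K W) := Basis.mk ha3 hsp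
  have : Finite κ := Module.Finite.finite_basis B
  let _ : Fintype κ := Fintype.ofFinite κ
  have hcard : Fintype.card κ = finrank K W := by
    rw [← Subspace.dual_finrank_eq, finrank_eq_card_basis B]
  let e : κ ≃ Fin (finrank K W) := Fintype.equivFinOfCardEq hcard
  refine ⟨fun k => a (e.symm k), fun w hw hk => hsep w hw fun i => ?_⟩
  have hall : ∀ ψ ∈ Submodule.span K (Set.range (φ ∘ a)), ψ ⟨w, hw⟩ = 0 := by
    intro ψ hψ
    induction hψ using Submodule.span_induction with
    | mem x hx =>
      obtain ⟨j, rfl⟩ := hx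
      have h1 := hk (e j)
      simp only [Equiv.symm_apply_apply] at h1
      exact h1
    | zero => rfl
    | add x y _ _ hx hy => rw [LinearMap.add_apply, hx, hy, add_zero]
    | smul r x _ hx => rw [LinearMap.smul_apply, hx, smul_zero]
  exact hall (φ i) (hsp Submodule.mem_top)

/-- **Descent by equivariant functionals.** `rV s` are arbitrary self-maps of `V`,
`rK s` arbitrary self-maps of `K` fixing `0` and `1`; the functionals `c i` are
equivariant and separate the points of the finite-dimensional stable subspace `W`.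
Then `W` has a basis of fixed vectors. -/
theorem exists_fixed_basis (rK : G → K → K) (hrK0 : ∀ s, rK s 0 = 0)
    (hrK1 : ∀ s, rK s 1 = 1) (rV : G → V → V) (c : ι → V →ₗ[K] K)
    (hc : ∀ s i v, c i (rV s v) = rK s (c i v))
    (W : Submodule K V) [FiniteDimensional K W]
    (hW : ∀ s, ∀ w ∈ W, rV s w ∈ W)
    (hsep : ∀ w ∈ W, (∀ i, c i w = 0) → w = 0) :
    ∃ b : Fin (finrank K W) → V, LinearIndependent K b ∧
      Submodule.span K (Set.range b) = W ∧ ∀ s k, rV s (b k) = b k := by
  classical
  obtain ⟨i, hi⟩ := exists_fin_separating c W hsep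
  let Φ : W →ₗ[K] (Fin (finrank K W) → K) :=
    LinearMap.pi fun k => (c (i k)).comp W.subtype
  have hΦ : Function.Injective Φ := by
    rw [injective_iff_map_eq_zero]
    intro w hw
    have h0 : (w : V) = 0 := hi w w.2 fun k => congrFun hw k
    exact Subtype.ext h0
  let e : W ≃ₗ[K] (Fin (finrank K W) → K) :=
    LinearEquiv.ofInjectiveOfFinrankEq Φ hΦ (by simp)
  let B : Basis (Fin (finrank K W)) K W := Basis.ofEquivFun e
  have hcoord : ∀ j k, c (i j) (B k : V) = if j = k then 1 else 0 := by
    intro j k
    have h1 : e (B k) = Pi.single k 1 := by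
      show e (Basis.ofEquivFun e k) = _
      rw [Basis.coe_ofEquivFun]
      exact e.apply_symm_apply _
    have h2 : e (B k) j = c (i j) (B k : V) := rfl
    rw [← h2, h1, Pi.single_apply]
  refine ⟨fun k => (B k : V), ?_, ?_, ?_⟩
  · exact B.linearIndependent.map' W.subtype (Submodule.ker_subtype W)
  · have hr : Set.range (fun k => (B k : V)) = W.subtype '' Set.range B := by
      rw [← Set.range_comp]
      rfl
    rw [hr, Submodule.span_image, B.span_eq, Submodule.map_top, Submodule.range_subtype]
  · intro s k
    have h1 : rV s (B k : V) ∈ W := hW s _ (B k).2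
    have h2 : (⟨rV s (B k : V), h1⟩ : W) = B k := by
      apply hΦ
      funext j
      show c (i j) (rV s (B k : V)) = c (i j) (B k : V)
      rw [hc, hcoord j k]
      split_ifs
      · exact hrK1 s
      · exact hrK0 s
    exact congrArg Subtype.val h2

/-- **Completion to a fixed basis.** In the situation of `exists_fixed_basis`, every
linearly independent family `u` of vectors of `W` can be completed to a basis of `W` by
fixed vectors. -/
theorem exists_fixed_completion (rK : G → K → K) (hrK0 : ∀ s, rK s 0 = 0)
    (hrK1 : ∀ s, rK s 1 = 1) (rV : G → V → V) (c : ι → V →ₗ[K] K)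
    (hc : ∀ s i v, c i (rV s v) = rK s (c i v))
    (W : Submodule K V) [FiniteDimensional K W]
    (hW : ∀ s, ∀ w ∈ W, rV s w ∈ W)
    (hsep : ∀ w ∈ W, (∀ i, c i w = 0) → w = 0)
    {r : ℕ} (u : Fin r → V) (hu : LinearIndependent K u) (huW : ∀ i, u i ∈ W) :
    ∃ (m : ℕ) (b' : Fin m → V), r + m = finrank K W ∧
      LinearIndependent K (Sum.elim u b') ∧
      Submodule.span K (Set.range (Sum.elim u b')) = W ∧ ∀ s k, rV s (b' k) = b' k := by
  classical
  set U : Submodule K V := Submodule.span K (Set.range u) with hU
  have hUW : U ≤ W := Submodule.span_le.mpr (by rintro _ ⟨i, rfl⟩; exact huW i)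
  have hUfd : FiniteDimensional K U := Submodule.finiteDimensional_of_le hUW
  have hUsep : ∀ w ∈ U, (∀ i, c i w = 0) → w = 0 := fun w hw => hsep w (hUW hw)
  obtain ⟨i, hi⟩ := exists_fin_separating c U hUsep
  let W' : Submodule K V := W ⊓ ⨅ j, LinearMap.ker (c (i j))
  have hW'W : W' ≤ W := inf_le_left
  have hmemW' : ∀ w, w ∈ W' ↔ w ∈ W ∧ ∀ j, c (i j) w = 0 := by
    intro w
    simp only [W', Submodule.mem_inf, Submodule.mem_iInf, LinearMap.mem_ker]
  have hW'fd : FiniteDimensional K W' := Submodule.finiteDimensional_of_le hW'W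
  have hW'st : ∀ s, ∀ w ∈ W', rV s w ∈ W' := by
    intro s w hw
    rw [hmemW'] at hw ⊢
    exact ⟨hW s w hw.1, fun j => by rw [hc, hw.2 j, hrK0]⟩
  obtain ⟨b', hb', hspan', hfix'⟩ := exists_fixed_basis rK hrK0 hrK1 rV c hc W' hW'st
    (fun w hw => hsep w (hW'W hw))
  have hdisj : Disjoint U W' := by
    rw [Submodule.disjoint_def]
    intro x hxU hxW'
    exact hi x hxU ((hmemW' x).mp hxW').2
  have hsup : U ⊔ W' = W := by
    apply le_antisymm (sup_le hUW hW'W)
    intro w hw
    let Φ : U →ₗ[K] (Fin (finrank K U) → K) :=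
      LinearMap.pi fun k => (c (i k)).comp U.subtype
    have hΦ : Function.Injective Φ := by
      rw [injective_iff_map_eq_zero]
      intro x hx
      exact Subtype.ext (hi x x.2 fun k => congrFun hx k)
    let e : U ≃ₗ[K] (Fin (finrank K U) → K) :=
      LinearEquiv.ofInjectiveOfFinrankEq Φ hΦ (by simp)
    let v : U := e.symm (fun j => c (i j) w)
    have hv : ∀ j, c (i j) (v : V) = c (i j) w := by
      intro j
      have h1 : e v = fun j => c (i j) w := e.apply_symm_apply _
      exact congrFun h1 j
    have hwv : w - (v : V) ∈ W' := by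
      rw [hmemW']
      exact ⟨W.sub_mem hw (hUW v.2), fun j => by rw [map_sub, hv j, sub_self]⟩
    have h2 : w = (v : V) + (w - v) := by abel
    rw [h2]
    exact Submodule.add_mem_sup v.2 hwv
  have hli : LinearIndependent K (Sum.elim u b') :=
    LinearIndependent.sum_type hu hb' (by rw [hspan']; exact hdisj)
  have hspan : Submodule.span K (Set.range (Sum.elim u b')) = W := by
    rw [Set.Sum.elim_range, Submodule.span_union, hspan', hsup]
  refine ⟨finrank K W', b', ?_, hli, hspan, hfix'⟩
  have h1 := finrank_span_eq_card hli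
  rw [hspan] at h1
  simpa using h1.symm

/-- `Fin`-indexed form of `exists_fixed_completion`: a linearly independent family `u`
of fixed vectors of `W` is the initial segment of a basis of `W` consisting of fixed
vectors. -/
theorem exists_fixed_basis_extending (rK : G → K → K) (hrK0 : ∀ s, rK s 0 = 0)
    (hrK1 : ∀ s, rK s 1 = 1) (rV : G → V → V) (c : ι → V →ₗ[K] K)
    (hc : ∀ s i v, c i (rV s v) = rK s (c i v))
    (W : Submodule K V) [FiniteDimensional K W]
    (hW : ∀ s, ∀ w ∈ W, rV s w ∈ W)
    (hsep : ∀ w ∈ W, (∀ i, c i w = 0) → w = 0)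
    {r : ℕ} (u : Fin r → V) (hu : LinearIndependent K u) (huW : ∀ i, u i ∈ W)
    (hufix : ∀ s i, rV s (u i) = u i) :
    ∃ (m : ℕ) (b : Fin (r + m) → V), r + m = finrank K W ∧ LinearIndependent K b ∧
      Submodule.span K (Set.range b) = W ∧ (∀ s k, rV s (b k) = b k) ∧
      ∀ i : Fin r, b (Fin.castAdd m i) = u i := by
  obtain ⟨m, b', hm, hli, hspan, hfix⟩ :=
    exists_fixed_completion rK hrK0 hrK1 rV c hc W hW hsep u hu huW
  have happ : Fin.append u b' = Sum.elim u b' ∘ (finSumFinEquiv (m := r) (n := m)).symm := by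
    funext k
    refine Fin.addCases (fun i => ?_) (fun j => ?_) k
    · simp
    · simp
  refine ⟨m, Fin.append u b', hm, ?_, ?_, ?_, fun i => Fin.append_left u b' i⟩
  · rw [happ]
    exact (linearIndependent_equiv _).mpr hli
  · rw [happ, EquivLike.range_comp]
    exact hspan
  · intro s k
    refine Fin.addCases (fun i => ?_) (fun j => ?_) k
    · rw [Fin.append_left]
      exact hufix s i
    · rw [Fin.append_right]
      exact hfix s j

/-- Coordinates of a fixed vector with respect to a linearly independent family of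
fixed vectors are fixed scalars (semilinear additive action). -/
theorem coord_fixed_of_fixed {n : Type*} [Fintype n] (rK : G → K → K) (rV : G → V → V)
    (hadd : ∀ s (f : n → V), rV s (∑ k, f k) = ∑ k, rV s (f k))
    (hsemi : ∀ s (a : K) (v : V), rV s (a • v) = rK s a • rV s v)
    (b : n → V) (hb : LinearIndependent K b) (hfix : ∀ s k, rV s (b k) = b k)
    (a : n → K) (s : G) (hw : rV s (∑ k, a k • b k) = ∑ k, a k • b k) (k : n) :
    rK s (a k) = a k := by
  have h1 : rV s (∑ k, a k • b k) = ∑ k, rK s (a k) • b k := by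
    rw [hadd]
    exact Finset.sum_congr rfl fun k _ => by rw [hsemi, hfix]
  have h2 : ∑ k, (rK s (a k) - a k) • b k = 0 := by
    simp only [sub_smul, Finset.sum_sub_distrib]
    rw [← h1, hw, sub_self]
  exact sub_eq_zero.mp (Fintype.linearIndependent_iff.mp hb _ h2 k)

/-- If the `K`-linearly independent vectors `b i` are the combinations of a family `e`
with coefficients `φ (A i j)` coming from a subfield, then the rows of `A` are linearly
independent over the subfield. -/
theorem linearIndependent_rows_of_sum_smul {k m n : Type*} [Field k] [Fintype m]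
    [Fintype n] (φ : k →+* K) (e : n → V) (b : m → V) (hb : LinearIndependent K b)
    (A : m → n → k) (hA : ∀ i, b i = ∑ j, φ (A i j) • e j) : LinearIndependent k A := by
  classical
  rw [Fintype.linearIndependent_iff]
  intro r hr i
  have h1 : ∑ i, φ (r i) • b i = 0 := by
    have h2 : ∀ j, ∑ i, φ (r i) * φ (A i j) = 0 := by
      intro j
      have h3 := congrFun hr j
      simp only [Finset.sum_apply, Pi.smul_apply, smul_eq_mul, Pi.zero_apply] at h3
      rw [← map_zero φ, ← h3, map_sum]
      exact Finset.sum_congr rfl fun i _ => (map_mul _ _ _).symm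
    calc ∑ i, φ (r i) • b i
        = ∑ i, ∑ j, (φ (r i) * φ (A i j)) • e j := by
          refine Finset.sum_congr rfl fun i _ => ?_
          rw [hA i, Finset.smul_sum]
          exact Finset.sum_congr rfl fun j _ => by rw [smul_smul]
      _ = ∑ j, (∑ i, φ (r i) * φ (A i j)) • e j := by
          rw [Finset.sum_comm]
          exact Finset.sum_congr rfl fun j _ => by rw [Finset.sum_smul]
      _ = 0 := by
          refine Finset.sum_eq_zero fun j _ => ?_
          rw [h2 j, zero_smul]
  have h4 := Fintype.linearIndependent_iff.mp hb _ h1 i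
  exact φ.injective (h4.trans (map_zero _).symm)

end Abstract

section Laurent

open ModularCurve AlgebraicCurve

variable {L : Type*} [Field L] [Algebra ℚ L]
variable (F₀ : IntermediateField ℚ (LaurentSeries ℚ))

/-- The `n`-th Laurent coefficient as an `L`-linear functional on
`laurentBaseChange L F₀`. -/
noncomputable def coeffFunctional (n : ℤ) : laurentBaseChange L F₀ →ₗ[L] L where
  toFun x := (x : LaurentSeries L).coeff n
  map_add' _ _ := rfl
  map_smul' a x := by
    show ((a • x : laurentBaseChange L F₀) : LaurentSeries L).coeff n = a • _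
    rw [Algebra.smul_def]
    show (algebraMap L (LaurentSeries L) a * (x : LaurentSeries L)).coeff n = _
    rw [algebraMap_laurentSeries_eq_single, HahnSeries.coeff_single_zero_mul]
    rfl

@[simp]
theorem coeffFunctional_apply (n : ℤ) (x : laurentBaseChange L F₀) :
    coeffFunctional F₀ n x = (x : LaurentSeries L).coeff n := rfl

theorem coeffFunctional_arithmeticRingAut (σ : L ≃ₐ[ℚ] L) (n : ℤ)
    (x : laurentBaseChange L F₀) :
    coeffFunctional F₀ n (arithmeticRingAut F₀ σ x) = σ (coeffFunctional F₀ n x) := rfl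

theorem eq_zero_of_coeffFunctional_eq_zero (x : laurentBaseChange L F₀)
    (h : ∀ n, coeffFunctional F₀ n x = 0) : x = 0 :=
  Subtype.ext (HahnSeries.ext (funext h))

theorem arithmeticRingAut_smul (σ : L ≃ₐ[ℚ] L) (a : L) (x : laurentBaseChange L F₀) :
    arithmeticRingAut F₀ σ (a • x) = σ a • arithmeticRingAut F₀ σ x := by
  rw [Algebra.smul_def, map_mul, arithmeticRingAut_algebraMap, ← Algebra.smul_def]

/-- **Q-structure of stable subspaces.** A finite-dimensional `L`-subspace of
`laurentBaseChange L F₀` which is stable under the coefficientwise Galois action has an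
`L`-basis of fixed vectors. No hypothesis on `L` or on `F₀`. -/
theorem exists_fixed_basis_laurentBaseChange
    (W : Submodule L (laurentBaseChange L F₀)) [FiniteDimensional L W]
    (hW : ∀ σ : L ≃ₐ[ℚ] L, ∀ w ∈ W, arithmeticRingAut F₀ σ w ∈ W) :
    ∃ b : Fin (finrank L W) → laurentBaseChange L F₀, LinearIndependent L b ∧
      Submodule.span L (Set.range b) = W ∧
      ∀ (σ : L ≃ₐ[ℚ] L) k, arithmeticRingAut F₀ σ (b k) = b k :=
  exists_fixed_basis (G := L ≃ₐ[ℚ] L) (fun σ a => σ a) (fun σ => map_zero σ)
    (fun σ => map_one σ) (fun σ x => arithmeticRingAut F₀ σ x) (coeffFunctional F₀)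
    (fun σ n x => coeffFunctional_arithmeticRingAut F₀ σ n x) W hW
    (fun w _ h => eq_zero_of_coeffFunctional_eq_zero F₀ w h)

set_option synthInstance.maxHeartbeats 200000 in
/-- Coordinates of a fixed vector in a linearly independent family of fixed vectors
are fixed scalars. -/
theorem coord_fixed_laurentBaseChange {n : Type*} [Fintype n]
    (b : n → laurentBaseChange L F₀) (hb : LinearIndependent L b)
    (hfix : ∀ (σ : L ≃ₐ[ℚ] L) k, arithmeticRingAut F₀ σ (b k) = b k) (a : n → L)
    (σ : L ≃ₐ[ℚ] L)
    (hw : arithmeticRingAut F₀ σ (∑ k, a k • b k) = ∑ k, a k • b k) (k : n) :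
    σ (a k) = a k :=
  coord_fixed_of_fixed (K := L) (V := laurentBaseChange L F₀) (G := L ≃ₐ[ℚ] L)
    (fun σ a => σ a) (fun σ x => arithmeticRingAut F₀ σ x)
    (fun σ f => map_sum (arithmeticRingAut F₀ σ) f _)
    (fun σ a v => arithmeticRingAut_smul F₀ σ a v) b hb hfix a σ hw k

/-- Image of a Riemann–Roch space under a semilinear automorphism. -/
theorem smul_mem_riemannRochSpace {K F : Type*} [Field K] [Field F] [Algebra K F]
    (g : SemilinearAut K F) {D : Divisor K F} {f : F} (hf : f ∈ riemannRochSpace D) :
    g • f ∈ riemannRochSpace (g • D) := by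
  rw [mem_riemannRochSpace_iff] at hf ⊢
  intro v
  rcases hf (g⁻¹ • v) with h | h
  · left
    rw [h, smul_zero]
  · right
    rw [SemilinearAut.divisor_smul_apply]
    have h1 := SemilinearAut.ord_smul g (g⁻¹ • v) f
    rw [smul_inv_smul] at h1
    rw [h1]
    exact h

/-- Riemann–Roch spaces of Galois-stable divisors are stable under the coefficientwise
Galois action. -/
theorem arithmeticRingAut_mem_riemannRochSpace
    (D : Divisor L (laurentBaseChange L F₀))
    (hD : ∀ σ : L ≃ₐ[ℚ] L, arithmeticGalois F₀ σ • D = D) (σ : L ≃ₐ[ℚ] L)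
    (w : laurentBaseChange L F₀) (hw : w ∈ riemannRochSpace D) :
    arithmeticRingAut F₀ σ w ∈ riemannRochSpace D := by
  have h1 := smul_mem_riemannRochSpace (arithmeticGalois F₀ σ) hw
  rwa [hD σ] at h1

/-- **Q-structure of Riemann–Roch spaces.** If the divisor `D` of
`laurentBaseChange L F₀` is Galois-stable, then `L(D)` has an `L`-basis of Galois-fixed
functions. -/
theorem exists_fixed_basis_riemannRochSpace
    (D : Divisor L (laurentBaseChange L F₀)) [FiniteDimensional L (riemannRochSpace D)]
    (hD : ∀ σ : L ≃ₐ[ℚ] L, arithmeticGalois F₀ σ • D = D) :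
    ∃ b : Fin (finrank L (riemannRochSpace D)) → laurentBaseChange L F₀,
      LinearIndependent L b ∧ Submodule.span L (Set.range b) = riemannRochSpace D ∧
      ∀ (σ : L ≃ₐ[ℚ] L) k, arithmeticGalois F₀ σ • b k = b k :=
  exists_fixed_basis_laurentBaseChange F₀ (riemannRochSpace D)
    (arithmeticRingAut_mem_riemannRochSpace F₀ D hD)

/-- A linearly independent family of fixed vectors of a stable finite-dimensional
subspace `W` is the initial segment of a basis of `W` consisting of fixed vectors. -/
theorem exists_fixed_basis_extending_laurentBaseChange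
    (W : Submodule L (laurentBaseChange L F₀)) [FiniteDimensional L W]
    (hW : ∀ σ : L ≃ₐ[ℚ] L, ∀ w ∈ W, arithmeticRingAut F₀ σ w ∈ W)
    {r : ℕ} (u : Fin r → laurentBaseChange L F₀) (hu : LinearIndependent L u)
    (huW : ∀ i, u i ∈ W)
    (hufix : ∀ (σ : L ≃ₐ[ℚ] L) i, arithmeticRingAut F₀ σ (u i) = u i) :
    ∃ (m : ℕ) (b : Fin (r + m) → laurentBaseChange L F₀), r + m = finrank L W ∧
      LinearIndependent L b ∧ Submodule.span L (Set.range b) = W ∧
      (∀ (σ : L ≃ₐ[ℚ] L) k, arithmeticRingAut F₀ σ (b k) = b k) ∧
      ∀ i : Fin r, b (Fin.castAdd m i) = u i :=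
  exists_fixed_basis_extending (G := L ≃ₐ[ℚ] L) (fun σ a => σ a) (fun σ => map_zero σ)
    (fun σ => map_one σ) (fun σ x => arithmeticRingAut F₀ σ x) (coeffFunctional F₀)
    (fun σ n x => coeffFunctional_arithmeticRingAut F₀ σ n x) W hW
    (fun w _ h => eq_zero_of_coeffFunctional_eq_zero F₀ w h) u hu huW hufix

/-- A stable finite-dimensional subspace containing `1` has a basis of fixed vectors
whose first vector is `1`. -/
theorem exists_fixed_basis_one_laurentBaseChange
    (W : Submodule L (laurentBaseChange L F₀)) [FiniteDimensional L W]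
    (hW : ∀ σ : L ≃ₐ[ℚ] L, ∀ w ∈ W, arithmeticRingAut F₀ σ w ∈ W)
    (h1 : (1 : laurentBaseChange L F₀) ∈ W) :
    ∃ (m : ℕ) (b : Fin (m + 1) → laurentBaseChange L F₀), m + 1 = finrank L W ∧
      LinearIndependent L b ∧ Submodule.span L (Set.range b) = W ∧
      (∀ (σ : L ≃ₐ[ℚ] L) k, arithmeticRingAut F₀ σ (b k) = b k) ∧ b 0 = 1 := by
  obtain ⟨m, b, hm, hli, hspan, hfix, hb⟩ :=
    exists_fixed_basis_extending_laurentBaseChange F₀ W hW
      (fun _ : Fin 1 => (1 : laurentBaseChange L F₀))
      (linearIndependent_unique_iff.mpr one_ne_zero)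
      (fun _ => h1) (fun σ _ => map_one _)
  refine ⟨m, b ∘ finCongr (Nat.add_comm m 1), by omega, ?_, ?_, fun σ k => hfix σ _, ?_⟩
  · exact hli.comp _ (finCongr (Nat.add_comm m 1)).injective
  · rw [EquivLike.range_comp]
    exact hspan
  · exact hb 0

/-- Galois-stable divisor `D`: a linearly independent family of fixed functions of
`L(D)` is the initial segment of a basis of `L(D)` consisting of fixed functions. -/
theorem exists_fixed_basis_extending_riemannRochSpace
    (D : Divisor L (laurentBaseChange L F₀)) [FiniteDimensional L (riemannRochSpace D)]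
    (hD : ∀ σ : L ≃ₐ[ℚ] L, arithmeticGalois F₀ σ • D = D)
    {r : ℕ} (u : Fin r → laurentBaseChange L F₀) (hu : LinearIndependent L u)
    (huD : ∀ i, u i ∈ riemannRochSpace D)
    (hufix : ∀ (σ : L ≃ₐ[ℚ] L) i, arithmeticGalois F₀ σ • u i = u i) :
    ∃ (m : ℕ) (b : Fin (r + m) → laurentBaseChange L F₀),
      r + m = finrank L (riemannRochSpace D) ∧ LinearIndependent L b ∧
      Submodule.span L (Set.range b) = riemannRochSpace D ∧
      (∀ (σ : L ≃ₐ[ℚ] L) k, arithmeticGalois F₀ σ • b k = b k) ∧
      ∀ i : Fin r, b (Fin.castAdd m i) = u i :=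
  exists_fixed_basis_extending_laurentBaseChange F₀ (riemannRochSpace D)
    (arithmeticRingAut_mem_riemannRochSpace F₀ D hD) u hu huD hufix

/-- Galois-stable divisor `D` with `1 ∈ L(D)`: a basis of `L(D)` consisting of fixed
functions whose first vector is `1`. -/
theorem exists_fixed_basis_one_riemannRochSpace
    (D : Divisor L (laurentBaseChange L F₀)) [FiniteDimensional L (riemannRochSpace D)]
    (hD : ∀ σ : L ≃ₐ[ℚ] L, arithmeticGalois F₀ σ • D = D)
    (h1 : (1 : laurentBaseChange L F₀) ∈ riemannRochSpace D) :
    ∃ (m : ℕ) (b : Fin (m + 1) → laurentBaseChange L F₀),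
      m + 1 = finrank L (riemannRochSpace D) ∧ LinearIndependent L b ∧
      Submodule.span L (Set.range b) = riemannRochSpace D ∧
      (∀ (σ : L ≃ₐ[ℚ] L) k, arithmeticGalois F₀ σ • b k = b k) ∧ b 0 = 1 :=
  exists_fixed_basis_one_laurentBaseChange F₀ (riemannRochSpace D)
    (arithmeticRingAut_mem_riemannRochSpace F₀ D hD) h1

section Rational

variable [IsGalois ℚ L]

theorem mem_range_algebraMap_of_fixed (a : L) (ha : ∀ σ : L ≃ₐ[ℚ] L, σ a = a) :
    a ∈ Set.range (algebraMap ℚ L) :=
  (InfiniteGalois.mem_range_algebraMap_iff_fixed a).mpr ha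

/-- Every Laurent coefficient of a Galois-fixed element is rational. -/
theorem coeff_mem_range_of_fixed (x : laurentBaseChange L F₀)
    (hx : ∀ σ : L ≃ₐ[ℚ] L, arithmeticRingAut F₀ σ x = x) (n : ℤ) :
    (x : LaurentSeries L).coeff n ∈ Set.range (algebraMap ℚ L) :=
  mem_range_algebraMap_of_fixed _ fun σ =>
    congrArg (fun y : laurentBaseChange L F₀ => (y : LaurentSeries L).coeff n) (hx σ)

/-- A Galois-fixed element is the coefficient extension of a rational Laurent series. -/
theorem exists_coeffEmb_eq_of_fixed (x : laurentBaseChange L F₀)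
    (hx : ∀ σ : L ≃ₐ[ℚ] L, arithmeticRingAut F₀ σ x = x) :
    ∃ x₀ : LaurentSeries ℚ, coeffEmb L x₀ = (x : LaurentSeries L) := by
  choose q hq using coeff_mem_range_of_fixed F₀ x hx
  have hsupp : Function.support q ⊆ (x : LaurentSeries L).support := by
    intro n hn
    rw [HahnSeries.mem_support, ← hq n]
    exact fun h => hn ((algebraMap ℚ L).injective (h.trans (map_zero _).symm))
  refine ⟨⟨q, (x : LaurentSeries L).isPWO_support.mono hsupp⟩, ?_⟩
  ext n
  rw [coeffEmb_coeff]
  exact hq n

set_option synthInstance.maxHeartbeats 200000 in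
/-- Coordinates of a Galois-fixed vector in a linearly independent family of fixed
vectors are rational. -/
theorem exists_rat_coord {n : Type*} [Fintype n]
    (e : n → laurentBaseChange L F₀) (he : LinearIndependent L e)
    (hefix : ∀ (σ : L ≃ₐ[ℚ] L) j, arithmeticRingAut F₀ σ (e j) = e j)
    (w : laurentBaseChange L F₀) (hw : w ∈ Submodule.span L (Set.range e))
    (hwfix : ∀ σ : L ≃ₐ[ℚ] L, arithmeticRingAut F₀ σ w = w) :
    ∃ q : n → ℚ, w = ∑ j, algebraMap ℚ L (q j) • e j := by
  obtain ⟨a, rfl⟩ := (Submodule.mem_span_range_iff_exists_fun L).mp hw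
  have h : ∀ j, a j ∈ Set.range (algebraMap ℚ L) := fun j =>
    mem_range_algebraMap_of_fixed (a j) fun σ =>
      coord_fixed_laurentBaseChange F₀ e he hefix a σ (hwfix σ) j
  choose q hq using h
  exact ⟨q, Finset.sum_congr rfl fun j _ => by rw [hq]⟩

set_option synthInstance.maxHeartbeats 200000 in
/-- **Rational Pluecker matrix.** Let `e` be a linearly independent family of fixed
vectors and `W` a Galois-stable subspace of its span.  Then `W` is the `L`-span of the
rows of a rational matrix of full row rank `finrank L W` (coordinates w.r.t. `e`). -/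
theorem exists_rat_matrix {n : Type*} [Fintype n]
    (e : n → laurentBaseChange L F₀) (he : LinearIndependent L e)
    (hefix : ∀ (σ : L ≃ₐ[ℚ] L) j, arithmeticRingAut F₀ σ (e j) = e j)
    (W : Submodule L (laurentBaseChange L F₀))
    (hWe : W ≤ Submodule.span L (Set.range e))
    (hW : ∀ σ : L ≃ₐ[ℚ] L, ∀ w ∈ W, arithmeticRingAut F₀ σ w ∈ W) :
    ∃ A : Fin (finrank L W) → n → ℚ, LinearIndependent ℚ A ∧
      W = Submodule.span L
        (Set.range fun k : Fin (finrank L W) => ∑ j, algebraMap ℚ L (A k j) • e j) := by
  classical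
  have hfd : FiniteDimensional L (Submodule.span L (Set.range e)) :=
    FiniteDimensional.span_of_finite L (Set.finite_range e)
  have hfdW : FiniteDimensional L W := Submodule.finiteDimensional_of_le hWe
  obtain ⟨b, hb, hspan, hfix⟩ := exists_fixed_basis_laurentBaseChange F₀ W hW
  have hbW : ∀ k, b k ∈ W := fun k => hspan ▸ Submodule.subset_span ⟨k, rfl⟩
  choose A hA using fun k =>
    exists_rat_coord F₀ e he hefix (b k) (hWe (hbW k)) (fun σ => hfix σ k)
  refine ⟨A, ?_, ?_⟩
  · exact linearIndependent_rows_of_sum_smul (K := L) (V := laurentBaseChange L F₀)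
      (algebraMap ℚ L) e b hb A hA
  · exact hspan.symm.trans
      (congrArg (fun f => Submodule.span L (Set.range f)) (funext hA))

end Rational

end Laurent

end Fermat.Agent.S17.helper909
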