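import Fermat.Agent.S17.helper1263_Moving
import Fermat.Agent.S17.helper3197_PlueckerSpec
import Fermat.Agent.S17.helper909_CoeffDescent
import Fermat.Agent.S17.helper1298_Reduced
import Fermat.Agent.S27.helper4996_Riemann
import Fermat.Agent.S27.helper3093_GoodCoord
import Fermat.Agent.S27.helper6634_EvUnram
import Fermat.Agent.S24.helper204_Places

/-!
# S17-G3: the moving lemma for the generic S27 binders (helper1263, board row 1693)

`K` algebraically closed of characteristic zero, `x : F` transcendental, `F` finite over `K⟮x⟯`.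
The function-field hypotheses of `helper1263_Moving` are discharged from the landed S24/S27
results:

* `finiteRamification_of_finite` : `FiniteRamification K F`
  (S27 `helper6634.ramified_finite_self`);
* `exists_bpf_degree`            : a degree `d₀ > 0` from which on every `L(E)` is finite
  dimensional and base point free (S27 Riemann, `helper3093.exists_strict_of_riemann`);
* `moving_of_finite`, `moving_fin_of_finite`, `moving_triple_of_finite` : the moving lemma, with
  only the two semilinear inputs `Descent ρ` and `StableRep ρ` left as hypotheses.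
-/

set_option autoImplicit false

open AlgebraicCurve IntermediateField

namespace Fermat.Agent.S17.helper1263

universe u v

section Generic

variable {K : Type u} {F : Type v} [Field K] [Field F] [Algebra K F] [IsAlgClosed K] [CharZero K]

/-- Finite ramification for function fields of one variable over an algebraically closed field
of characteristic zero. -/
theorem finiteRamification_of_finite (x : F) [FiniteDimensional K⟮x⟯ F] :
    FiniteRamification K F := by
  rintro φ ⟨P, hP⟩
  have hφ : Transcendental K φ :=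
    Fermat.Agent.S24.helper1370.transcendental_of_ord_ne_zero P hP
  have : FiniteDimensional K⟮φ⟯ F :=
    Fermat.Agent.S24.helper204.finiteDimensional_adjoin_of_transcendental (x := x) hφ
  exact Fermat.Agent.S27.helper6634.ramified_finite_self φ hφ

/-- A positive degree from which on all Riemann–Roch spaces are finite dimensional and base
point free. -/
theorem exists_bpf_degree (x : F) (hx : Transcendental K x) [FiniteDimensional K⟮x⟯ F] :
    ∃ d₀ : ℕ, 0 < d₀ ∧ (∀ E : Divisor K F, Module.Finite K (riemannRochSpace E)) ∧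
      ∀ (E : Divisor K F) (Q : Place K F), (d₀ : ℤ) ≤ Divisor.degree E →
        ∃ f ∈ riemannRochSpace E, f ∉ riemannRochSpace (E - Finsupp.single Q 1) := by
  obtain ⟨c₀, hc₀⟩ := Fermat.Agent.S27.helper3093.exists_strict_of_riemann
    Fermat.Agent.S27.helper4996.stmt_Riemann x hx
  obtain ⟨hfin, -, -⟩ := Fermat.Agent.S27.helper4996.stmt_Riemann K F x hx
  refine ⟨c₀.toNat + 1, Nat.succ_pos _, fun E => (hfin E).2, fun E Q hE => hc₀ E Q ?_⟩
  have h1 := Int.self_le_toNat c₀
  push_cast at hE
  omega

variable {Γ : Type*} [Group Γ] (ρ : Γ →* SemilinearAut K F)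

/-- **Moving lemma (S17-G3), generic S27 binders, divisor form.**  There is a degree `d₀ > 0`
such that every `ρ`-stable divisor `A` of degree zero has, for every `d ≥ d₀` and every finite set
`T` of places, a moved representative `D`: reduced, effective, of degree `d`, `ρ`-stable,
disjoint from `P0` and from `T`, with `D - d • P0 - A` principal. -/
theorem moving_of_finite (x : F) (hx : Transcendental K x) [FiniteDimensional K⟮x⟯ F]
    (hdesc : Descent ρ) (P0 : Place K F) (hP0 : ∀ γ : Γ, ρ γ • P0 = P0) :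
    ∃ d₀ : ℕ, 0 < d₀ ∧ ∀ d : ℕ, d₀ ≤ d → ∀ A : Divisor K F, Divisor.degree A = 0 →
      (∀ γ : Γ, ρ γ • A = A) → ∀ T : Finset (Place K F), ∃ D : Divisor K F,
        IsMoved ρ P0 d T A D := by
  have : HasPrincipalDivisors K F := Fermat.Agent.S24.helper204.hasPrincipalDivisors x hx
  obtain ⟨d₀, hd₀, hfin, hbpf⟩ := exists_bpf_degree (K := K) x hx
  refine ⟨d₀, hd₀, fun d hd A hA0 hA T => ?_⟩
  exact moving ρ hdesc (finiteRamification_of_finite x) P0 hP0
    (Fermat.Agent.S24.helper204.place_deg_eq_one x hx P0) d (lt_of_lt_of_le hd₀ hd)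
    (fun E _ => hfin E)
    (fun E Q hE => hbpf E Q (le_trans (by exact_mod_cast hd) hE)) A hA0 hA T

/-- **Moving lemma (S17-G3), generic S27 binders, `Pic0` form for `n` classes.** -/
theorem moving_fin_of_finite (x : F) (hx : Transcendental K x) [FiniteDimensional K⟮x⟯ F]
    (hdesc : Descent ρ) (hrep : StableRep ρ) (P0 : Place K F) (hP0 : ∀ γ : Γ, ρ γ • P0 = P0) :
    ∃ d₀ : ℕ, 0 < d₀ ∧ ∀ d : ℕ, d₀ ≤ d → ∀ (n : ℕ) (ξ : Fin n → Pic0 K F),
      (∀ i, ∀ γ : Γ, ρ γ • ξ i = ξ i) → ∀ T : Finset (Place K F),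
      ∃ D : Fin n → Divisor K F,
        (∀ i, (∀ P : Place K F, D i P = 0 ∨ D i P = 1) ∧ D i P0 = 0 ∧ (∀ P ∈ T, D i P = 0) ∧
          (∀ γ : Γ, ρ γ • D i = D i) ∧ Divisor.degree (D i) = d ∧
          ∃ hD : D i - Finsupp.single P0 (d : ℤ) ∈ Divisor.degZero (K := K) (F := F),
            Pic0.mk ⟨D i - Finsupp.single P0 (d : ℤ), hD⟩ = ξ i) ∧
        ∀ i j, i ≠ j → ∀ P : Place K F, D i P = 0 ∨ D j P = 0 := by
  have : HasPrincipalDivisors K F := Fermat.Agent.S24.helper204.hasPrincipalDivisors x hx
  obtain ⟨d₀, hd₀, hfin, hbpf⟩ := exists_bpf_degree (K := K) x hx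
  refine ⟨d₀, hd₀, fun d hd n ξ hξ T => ?_⟩
  obtain ⟨D, hD, hdisj⟩ := moving_pic0 ρ hdesc (finiteRamification_of_finite x) hrep P0 hP0
    (Fermat.Agent.S24.helper204.place_deg_eq_one x hx P0) d (lt_of_lt_of_le hd₀ hd)
    (fun E _ => hfin E)
    (fun E Q hE => hbpf E Q (le_trans (by exact_mod_cast hd) hE)) Finset.univ ξ
    (fun i _ => hξ i) T
  exact ⟨D, fun i => hD i (Finset.mem_univ i),
    fun i j hij => hdisj i (Finset.mem_univ i) j (Finset.mem_univ j) hij⟩

omit [IsAlgClosed K] [CharZero K] in
/-- **Stable representatives from reduced divisors** (helper1298's RED): if the base place `P0`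
is `ρ`-fixed, every `ρ`-fixed class is the class of the `ρ`-stable divisor
`red P0 ξ - deg (red P0 ξ) • P0`. -/
theorem stableRep_of_redPkg (hp : Fermat.Agent.S17.helper1298.RedPkg K F) (P0 : Place K F)
    (hP0 : ∀ γ : Γ, ρ γ • P0 = P0) : StableRep ρ := by
  intro ξ hξ
  have hdeg0 : Divisor.degree (Fermat.Agent.S17.helper1298.red P0 ξ
      - Divisor.degree (Fermat.Agent.S17.helper1298.red P0 ξ)
        • Fermat.Agent.S27.helper6247.pt P0) = 0 :=
    Fermat.Agent.S17.helper1298.degree_sub_degree_smul_pt hp.deg P0 _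
  refine ⟨_, hdeg0, ?_, fun γ => ?_⟩
  · rw [← Fermat.Agent.S17.helper1298.cls_of_degree hdeg0]
    exact Fermat.Agent.S17.helper1298.clsAt_red hp P0 ξ
  · rw [smul_sub, Fermat.Agent.S17.helper1298.smul_red_eq_self hp (ρ γ) (hP0 γ) (hξ γ)]
    congr 1
    have h1 : ρ γ • (Divisor.degree (Fermat.Agent.S17.helper1298.red P0 ξ)
          • (Fermat.Agent.S27.helper6247.pt P0 : Divisor K F))
        = Divisor.degree (Fermat.Agent.S17.helper1298.red P0 ξ)
          • (ρ γ • (Fermat.Agent.S27.helper6247.pt P0 : Divisor K F)) :=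
      map_zsmul (DistribSMul.toAddMonoidHom (Divisor K F) (ρ γ)) _ _
    rw [h1, Fermat.Agent.S17.helper1298.smul_pt, hP0 γ]

end Generic

/-! ## The arithmetic Galois action on `laurentBaseChange ℚ̄ F₀`: the Spec leaf `MoveSpec` -/

section Arithmetic

open ModularCurve Fermat.Agent.S17.helper3197

variable (F₀ : IntermediateField ℚ (LaurentSeries ℚ))

/-- **Descent for the arithmetic Galois action** (from helper909's fixed bases): every finite
dimensional Galois-stable subspace of `laurentBaseChange ℚ̄ F₀` is spanned by its Galois-fixed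
vectors. -/
theorem descent_arithmeticGalois : Descent (arithmeticGalois (L := Qb) F₀) := by
  intro V hV hstab
  have : FiniteDimensional Qb V := hV
  obtain ⟨b, -, hspan, hfix⟩ :=
    Fermat.Agent.S17.helper909.exists_fixed_basis_laurentBaseChange F₀ V
      (fun σ w hw => hstab σ w hw)
  have hbV : ∀ k, b k ∈ V := fun k => by
    rw [← hspan]
    exact Submodule.subset_span ⟨k, rfl⟩
  intro f hf
  have hf' : f ∈ Submodule.span Qb (Set.range b) := by
    rw [hspan]
    exact hf
  refine Submodule.span_mono ?_ hf'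
  rintro _ ⟨k, rfl⟩
  exact ⟨hbV k, fun σ => hfix σ k⟩

/-- **S17-G3 = the Spec leaf `MoveSpec`, unconditionally** under the standing hypotheses of
helper3197's Pluecker Spec: for `d ≥ d₁`, every Galois-fixed class has a rational, effective,
multiplicity-free representative of degree `d` avoiding `P0` and any given finite set. -/
theorem moveSpec (P0 : Place Qb (FB F₀)) (x : FB F₀) (hx : Transcendental Qb x)
    [FiniteDimensional Qb⟮x⟯ (FB F₀)] (hP0 : IsRatPlace F₀ P0) : MoveSpec F₀ P0 := by
  have hpd : HasPrincipalDivisors Qb (FB F₀) :=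
    Fermat.Agent.S24.helper204.hasPrincipalDivisors x hx
  have hp : Fermat.Agent.S17.helper1298.RedPkg Qb (FB F₀) :=
    Fermat.Agent.S17.helper1298.redPkg_of_finite x hx
  have hdeg1 : P0.deg = 1 := Fermat.Agent.S24.helper204.place_deg_eq_one x hx P0
  have hrep : StableRep (arithmeticGalois (L := Qb) F₀) :=
    stableRep_of_redPkg (arithmeticGalois (L := Qb) F₀) hp P0 hP0
  obtain ⟨d₀, hd₀, hmove⟩ := moving_of_finite (arithmeticGalois (L := Qb) F₀) x hx
    (descent_arithmeticGalois F₀) P0 hP0
  refine ⟨(d₀ : ℤ), fun d hd ξ hξ S => ?_⟩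
  obtain ⟨n, rfl⟩ := Int.eq_ofNat_of_zero_le (le_trans (Int.natCast_nonneg d₀) hd)
  have hn : d₀ ≤ n := by exact_mod_cast hd
  obtain ⟨A, hA0, hAξ, hAstab⟩ := hrep ξ (fun σ => hξ σ)
  obtain ⟨D, hD⟩ := hmove n hn A hA0 hAstab S
  obtain ⟨hD0, hDcls⟩ := hD.pic0_eq (arithmeticGalois (L := Qb) F₀) hdeg1 hA0
  obtain ⟨hred, hbase, hS, hstab, hdegD, -⟩ := hD
  refine ⟨D, hstab, ?_, hdegD, hbase, fun v => ?_, hS, ?_⟩
  · intro v
    rcases hred v with h | h <;> simp [h]
  · rcases hred v with h | h <;> omega
  · have hpt : Divisor.degree D • Fermat.Agent.S27.helper6247.pt P0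
        = Finsupp.single P0 (n : ℤ) := by
      rw [hdegD, Fermat.Agent.S27.helper6247.pt, Finsupp.smul_single, smul_eq_mul, mul_one]
    unfold clsAt Fermat.Agent.S27.helper6247.cls
    rw [hpt, dif_pos hD0]
    exact hDcls.trans hAξ

end Arithmetic

end Fermat.Agent.S17.helper1263
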