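/-
S17, Pluecker Spec leaf (L4): `SiegelSpec` of `helper3197_PlueckerSpec`, from the landed sharp
Siegel lemma `Fermat.Agent.Lib.helper2177.sharp_siegel_log`.
-/
import Fermat.Agent.S17.helper3197_PlueckerSpec
import Fermat.Agent.Lib.helper2177_SiegelPigeonhole

set_option autoImplicit false

namespace Fermat.Agent.S17.helper2177

open Fermat.Agent.S17.helper3197 Fermat.Agent.Lib.helper2177

/-- The Pluecker height of the Spec, computed with the coordinate frame of `Module.finBasis`. -/
theorem plkHeight_eq_finBasis {n : ℕ} {V : Type} [AddCommGroup V] [Module ℚ V]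
    (b : Module.Basis (Fin n) ℚ V) (W : Submodule ℚ V) [hfin : Module.Finite ℚ W] :
    plkHeight b W = Height.logHeight (fun s : Fin (Module.finrank ℚ W) → Fin n =>
      (Matrix.of fun i j => b.equivFun ((Module.finBasis ℚ W i : W) : V) (s j)).det) := by
  unfold plkHeight
  rw [dif_pos hfin]
  rfl

/-- **Leaf (L4) of the Pluecker Spec**: the sharp Siegel lemma in `plkHeight` form, with the
explicit constant `C = n * log n`. -/
theorem siegelSpec : SiegelSpec := by
  intro n
  refine ⟨(n : ℝ) * Real.log n, ?_⟩
  intro V _ _ b W hW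
  have hVfin : Module.Finite ℚ V := Module.Finite.of_basis b
  have hWfin : Module.Finite ℚ W := inferInstance
  set r := Module.finrank ℚ W with hr
  have hrpos : 0 < r := by
    rw [hr]
    have : Nontrivial W := Submodule.nontrivial_iff_ne_bot.mpr hW
    exact Module.finrank_pos
  have hrn : r ≤ n := by
    have h := Submodule.finrank_le W
    rwa [Module.finrank_eq_card_basis b, Fintype.card_fin] at h
  set w : Fin r → Fin n → ℚ := fun i => b.equivFun ((Module.finBasis ℚ W i : W) : V) with hw
  have hwli : LinearIndependent ℚ w := by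
    have h1 : LinearIndependent ℚ (fun i => ((Module.finBasis ℚ W i : W) : V)) :=
      (Module.finBasis ℚ W).linearIndependent.map' W.subtype W.ker_subtype
    exact h1.map' b.equivFun.toLinearMap b.equivFun.ker
  obtain ⟨x', hx'0, hx'W, hx'⟩ := sharp_siegel_log n r hrpos w hwli
  refine ⟨b.equivFun.symm x', ?_, ?_, ?_⟩
  · have hspan : Submodule.span ℚ (Set.range w) ≤ Submodule.map b.equivFun.toLinearMap W := by
      rw [Submodule.span_le]
      rintro _ ⟨i, rfl⟩
      exact ⟨_, (Module.finBasis ℚ W i).2, rfl⟩
    obtain ⟨y, hy, hyx⟩ := hspan hx'W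
    have hxy : b.equivFun.symm x' = y := by
      rw [← hyx]
      exact b.equivFun.symm_apply_apply y
    rw [hxy]
    exact hy
  · intro h
    apply hx'0
    have h2 := congrArg b.equivFun h
    rw [LinearEquiv.apply_symm_apply, map_zero] at h2
    exact h2
  · have hrepr : (fun i => b.repr (b.equivFun.symm x') i) = x' := by
      funext i
      exact congrFun (b.equivFun.apply_symm_apply x') i
    rw [hrepr, plkHeight_eq_finBasis b W]
    have hlog : (r : ℝ) * Real.log r ≤ n * Real.log n := by
      have h1 : (r : ℝ) ≤ n := by exact_mod_cast hrn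
      have h2 : (1 : ℝ) ≤ r := by exact_mod_cast hrpos
      exact mul_le_mul h1 (Real.log_le_log (by linarith) h1) (Real.log_nonneg h2) (by linarith)
    linarith

end Fermat.Agent.S17.helper2177
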