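import Fermat.Agent.S17.helper3197_PlueckerSpec
import Fermat.Agent.S27.helper4996_Riemann

/-!
# S17, leaf (L1) of `helper3197_PlueckerSpec`: `RiemannSpec`

`RiemannSpec F₀` (finite dimensionality of `L(E)` and `ℓ(E) = deg E + 1 - g` for `deg E ≥ c₁`)
for every rational model `F₀` whose base change `FB F₀` is a function field in one variable
over `ℚ̄` (standing hypotheses of the Spec), from the landed S27 Riemann theorem
`Fermat.Agent.S27.helper4996.stmt_Riemann`.

* `finrank_H1_eq_zero_of_isNonspecial` : `H¹(D) = 0` for nonspecial `D` (any `K`, `F`);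
* `riemannSpec_of_stmt_Riemann` : hypothesis-passing form;
* `riemannSpec` : the unconditional leaf;
* `finrank_riemannRochSpace_eq`, `finite_riemannRochSpace` : the two halves in consumer form
  for a general function field (any algebraically closed `K` of characteristic zero).
-/

set_option autoImplicit false

open ModularCurve AlgebraicCurve IntermediateField
open Fermat.Agent.S27.helper6247

namespace Fermat.Agent.S17.helper2530

open Fermat.Agent.S17.helper3197

section General

variable {K F : Type*} [Field K] [Field F] [Algebra K F]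

/-- `H¹(D) = 0` for a nonspecial divisor. -/
theorem finrank_H1_eq_zero_of_isNonspecial {D : Divisor K F} (h : IsNonspecial D) :
    Module.finrank K (H1 D) = 0 := by
  have hs : Subsingleton (H1 D) := Submodule.Quotient.subsingleton_iff.mpr h
  exact Module.finrank_zero_of_subsingleton

end General

/-- Riemann's theorem in consumer form, for every function field in one variable over an
algebraically closed field of characteristic zero: there is a threshold `c₁` with
`ℓ(E) = deg E + 1 - g` for `deg E ≥ c₁`. -/
theorem exists_finrank_riemannRochSpace_eq.{u, v} (hR : Stmt_Riemann.{u, v})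
    (K : Type u) (F : Type v) [Field K] [Field F] [Algebra K F] [IsAlgClosed K] [CharZero K]
    (x : F) (hx : Transcendental K x) [FiniteDimensional K⟮x⟯ F] :
    (∀ E : Divisor K F, Module.Finite K (riemannRochSpace E)) ∧
    ∃ c₁ : ℤ, ∀ E : Divisor K F, c₁ ≤ Divisor.degree E →
      (Module.finrank K (riemannRochSpace E) : ℤ)
        = Divisor.degree E + 1 - (genusFF K F : ℤ) := by
  obtain ⟨hfin, hRR, c, hc⟩ := hR K F x hx
  refine ⟨fun E => (hfin E).2, c, fun E hE => ?_⟩
  have h0 : Module.finrank K (H1 E) = 0 := finrank_H1_eq_zero_of_isNonspecial (hc E hE)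
  have h1 := hRR E
  rw [h0] at h1
  simpa using h1

/-- **Leaf (L1), hypothesis-passing form.** -/
theorem riemannSpec_of_stmt_Riemann (hR : Stmt_Riemann.{0, 0})
    (F₀ : IntermediateField ℚ (LaurentSeries ℚ)) (x : FB F₀) (hx : Transcendental Qb x)
    [FiniteDimensional Qb⟮x⟯ (FB F₀)] : RiemannSpec F₀ :=
  exists_finrank_riemannRochSpace_eq hR Qb (FB F₀) x hx

/-- **Leaf (L1) of the Pluecker Spec, unconditional** (under the standing hypotheses). -/
theorem riemannSpec (F₀ : IntermediateField ℚ (LaurentSeries ℚ)) (x : FB F₀)
    (hx : Transcendental Qb x) [FiniteDimensional Qb⟮x⟯ (FB F₀)] : RiemannSpec F₀ :=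
  riemannSpec_of_stmt_Riemann Fermat.Agent.S27.helper4996.stmt_Riemann F₀ x hx

end Fermat.Agent.S17.helper2530
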