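import Mathlib
import Fermat.Agent.S17.helper1298_Reduced
import Fermat.Agent.Lib.helper1102_HeightBPF
import Fermat.Agent.Lib.helper1256_AbsHeight

/-!
# S17: finiteness of effective divisors with prescribed values, Northcott through a norm polynomial

Generic function-field bricks (Prelude vocabulary `Place`, `Divisor`; S27 Spec vocabulary `ev`)
for the Northcott clause (c) of the leaf `HinfSpec` of the Pluecker Spec:

* `finite_setOf_effective_support_subset` : finitely many effective divisors of degree `d`
  supported in a finite set of places;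
* `finite_setOf_effective_ev_mem` : finitely many effective divisors of degree `d` all of whose
  points other than `P0` take a value of `t` in a finite set `S`;
* `finite_setOf_hinf_le` : **abstract Northcott for `Hinf`**: if `E ↦ Q E` attaches to the
  divisors of a class `𝒮` a monic rational polynomial of degree `≤ deg E`, vanishing at the
  `t`-values of the points of `E` off `P0`, whose coefficient height is at most `n * Hinf E`,
  then `{E ∈ 𝒮 | 0 ≤ E, deg E = d, Hinf E ≤ B}` is finite.
-/

set_option autoImplicit false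

open AlgebraicCurve
open Fermat.Agent.S27.helper6247

namespace Fermat.Agent.S17.helper1256

variable {K : Type*} {F : Type*} [Field K] [Field F] [Algebra K F]

/-- A multiplicity of an effective divisor is at most its degree (all places of degree one). -/
theorem apply_le_degree (hdeg : ∀ v : Place K F, v.deg = 1) {A : Divisor K F} (hA : 0 ≤ A)
    (v : Place K F) : A v ≤ Divisor.degree A := by
  classical
  rw [Fermat.Agent.S17.helper1298.degree_eq_sum hdeg A]
  by_cases hv : v ∈ A.support
  · exact Finset.single_le_sum (fun R _ => hA R) hv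
  · rw [Finsupp.notMem_support_iff.mp hv]
    exact Finset.sum_nonneg fun R _ => hA R

/-- Finitely many effective divisors of degree `d` are supported in a given finite set. -/
theorem finite_setOf_effective_support_subset (hdeg : ∀ v : Place K F, v.deg = 1)
    (T : Set (Place K F)) (hT : T.Finite) (d : ℤ) :
    {A : Divisor K F | 0 ≤ A ∧ Divisor.degree A = d ∧
      (A.support : Set (Place K F)) ⊆ T}.Finite := by
  classical
  have := hT.to_subtype
  have hfin : (Set.pi Set.univ fun _ : T => Set.Icc (0 : ℤ) d).Finite :=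
    Set.Finite.pi fun _ => Set.finite_Icc _ _
  refine Set.Finite.of_injOn (f := fun (A : Divisor K F) (v : T) => A (v : Place K F))
    ?_ ?_ hfin
  · rintro A ⟨hA, hd, -⟩ v -
    exact ⟨hA v, hd ▸ apply_le_degree hdeg hA v⟩
  · rintro A ⟨-, -, hsupp⟩ B ⟨-, -, hsupp'⟩ hAB
    ext v
    by_cases hv : v ∈ T
    · exact congrFun hAB ⟨v, hv⟩
    · have h1 : A v = 0 := by
        by_contra h
        exact hv (hsupp (Finset.mem_coe.mpr (Finsupp.mem_support_iff.mpr h)))
      have h2 : B v = 0 := by
        by_contra h
        exact hv (hsupp' (Finset.mem_coe.mpr (Finsupp.mem_support_iff.mpr h)))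
      rw [h1, h2]

/-- Finitely many effective divisors of degree `d` have all their points other than `P0` over
a finite set `S` of values of a function `t` with finite fibres. -/
theorem finite_setOf_effective_ev_mem (hdeg : ∀ v : Place K F, v.deg = 1) (t : F)
    (hfin : ∀ c : K, {R : Place K F | ev R t = c}.Finite) (P0 : Place K F) (S : Set K)
    (hS : S.Finite) (d : ℤ) :
    {A : Divisor K F | 0 ≤ A ∧ Divisor.degree A = d ∧
      ∀ R ∈ A.support, R ≠ P0 → ev R t ∈ S}.Finite := by
  refine (finite_setOf_effective_support_subset hdeg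
    (insert P0 (⋃ c ∈ S, {R : Place K F | ev R t = c}))
    ((hS.biUnion fun c _ => hfin c).insert P0) d).subset ?_
  rintro A ⟨hA, hd, h⟩
  refine ⟨hA, hd, fun R hR => ?_⟩
  by_cases hR0 : R = P0
  · exact Set.mem_insert_iff.mpr (Or.inl hR0)
  · exact Set.mem_insert_of_mem _
      (Set.mem_biUnion (h R (Finset.mem_coe.mp hR) hR0) (show ev R t = ev R t from rfl))

/-- **Abstract Northcott for the naive height of divisors.**  Let `Q E` be a monic rational
polynomial of degree `≤ deg E` vanishing at the values `ev R t` of the points `R ≠ P0` of `E`,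
with coefficient height `≤ n * Hinf E` (`n > 0`), for all effective `E ∈ 𝒮` of degree `d`.  Then
only finitely many effective `E ∈ 𝒮` of degree `d` have `Hinf E ≤ B`. -/
theorem finite_setOf_hinf_le [CharZero K] (hdeg : ∀ v : Place K F, v.deg = 1) (t : F)
    (hfin : ∀ c : K, {R : Place K F | ev R t = c}.Finite) (P0 : Place K F)
    (𝒮 : Set (Divisor K F)) (Hinf : Divisor K F → ℝ) (Q : Divisor K F → Polynomial ℚ)
    (n : ℝ) (hn : 0 < n) (d : ℤ)
    (hQ : ∀ E ∈ 𝒮, 0 ≤ E → Divisor.degree E = d →
      (Q E).Monic ∧ ((Q E).natDegree : ℤ) ≤ d ∧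
        Fermat.Agent.Lib.helper1102.polyLogHeight (Q E) ≤ n * Hinf E ∧
        ∀ R ∈ E.support, R ≠ P0 → Polynomial.aeval (ev R t) (Q E) = 0)
    (B : ℝ) :
    {E : Divisor K F | E ∈ 𝒮 ∧ 0 ≤ E ∧ Divisor.degree E = d ∧ Hinf E ≤ B}.Finite := by
  have hP := Fermat.Agent.Lib.helper1256.finite_setOf_monic_logHeight_coeff_le ℚ d.toNat (n * B)
  have hS : (⋃ P ∈ {P : Polynomial ℚ | P.Monic ∧ P.natDegree ≤ d.toNat ∧
      Height.logHeight (fun j : Fin (d.toNat + 1) => P.coeff j) ≤ n * B},
      P.rootSet K).Finite :=
    hP.biUnion fun P _ => P.rootSet_finite K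
  refine (finite_setOf_effective_ev_mem hdeg t hfin P0 _ hS d).subset ?_
  rintro E ⟨hE, hE0, hEd, hEB⟩
  obtain ⟨hmonic, hdegQ, hht, hroot⟩ := hQ E hE hE0 hEd
  refine ⟨hE0, hEd, fun R hR hR0 => ?_⟩
  have hnat : (Q E).natDegree ≤ d.toNat := by omega
  refine Set.mem_biUnion (x := Q E) ⟨hmonic, hnat, ?_⟩ ?_
  · have h1 := Fermat.Agent.Lib.helper1102.logHeight_coeffVec_eq_polyLogHeight hnat
    have h2 : Height.logHeight (fun j : Fin (d.toNat + 1) => (Q E).coeff j) =
        Fermat.Agent.Lib.helper1102.polyLogHeight (Q E) := h1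
    rw [h2]
    exact hht.trans (mul_le_mul_of_nonneg_left hEB hn.le)
  · exact (Polynomial.mem_rootSet_of_ne hmonic.ne_zero).mpr (hroot R hR hR0)

end Fermat.Agent.S17.helper1256
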