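import Fermat.Agent.S17.helper2801_HinfDefs
import Fermat.Agent.S17.helper1256_FinDiv

/-!
# S17, leaf L6 (`HinfSpec`), clause (c): Northcott for `HinfOf` (helper1256)

On the carriers of `helper3197_PlueckerSpec` with the definitions of `helper2801_HinfDefs`:
only finitely many rational effective divisors of degree `d` have `HinfOf P0 τ n E ≤ B`
(`hinf_northcott`).  Inputs: the abstract Northcott lemma `finite_setOf_hinf_le`
(`helper1256_FinDiv`), Northcott for monic rational polynomials (`Lib/helper1256_AbsHeight`),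
finiteness of the fibres of `τ` (`helper1298.finite_setOf_ev_eq`).
-/

set_option autoImplicit false

open ModularCurve AlgebraicCurve Polynomial IntermediateField
open Fermat.Agent.S27.helper6247
open Fermat.Agent.S17.helper3197
open Fermat.Agent.S17.helper2801

namespace Fermat.Agent.S17.helper1256

section NormPolyGeneric

variable {K : Type*} {F : Type*} [Field K] [Field F] [Algebra K F]

/-- The degree of the norm polynomial of an effective divisor is its degree. -/
theorem natDegree_normPoly_eq (hdeg : ∀ v : Place K F, v.deg = 1) (t : F) {D : Divisor K F}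
    (hD : 0 ≤ D) :
    ((Fermat.Agent.S17.helper1643.normPoly t D).natDegree : ℤ) = Divisor.degree D := by
  classical
  rw [Fermat.Agent.S17.helper1643.normPoly_eq_prod t D D.support subset_rfl,
    natDegree_prod_of_monic _ _ fun P _ => (monic_X_sub_C _).pow _,
    Fermat.Agent.S17.helper1298.degree_eq_sum hdeg D]
  push_cast
  refine Finset.sum_congr rfl fun P _ => ?_
  rw [(monic_X_sub_C (ev P t)).natDegree_pow, natDegree_X_sub_C, mul_one]
  exact Int.toNat_of_nonneg (hD P)

/-- The norm polynomial vanishes at the value of `t` at every point of the divisor. -/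
theorem eval_normPoly_eq_zero (t : F) {D : Divisor K F} {R : Place K F} (hR : 0 < D R) :
    (Fermat.Agent.S17.helper1643.normPoly t D).eval (ev R t) = 0 := by
  classical
  have hmem : R ∈ D.support := Finsupp.mem_support_iff.mpr hR.ne'
  rw [Fermat.Agent.S17.helper1643.normPoly_eq_prod t D D.support subset_rfl, eval_prod]
  refine Finset.prod_eq_zero hmem ?_
  rw [eval_pow, eval_sub, eval_X, eval_C, sub_self]
  exact zero_pow (by omega)

end NormPolyGeneric

section Leaf

variable {F₀ : IntermediateField ℚ (LaurentSeries ℚ)}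

/-- The degree of `P_E` is at most the degree of the effective divisor `E`. -/
theorem natDegree_PD_le (hdeg : ∀ v : Place Qb (FB F₀), v.deg = 1) (P0 : Place Qb (FB F₀))
    (τ : FB F₀) {E : Divisor Qb (FB F₀)} (hE : 0 ≤ E) :
    ((PD P0 τ E).natDegree : ℤ) ≤ Divisor.degree E := by
  classical
  unfold PD
  rw [natDegree_normPoly_eq hdeg τ (erase_nonneg hE),
    Fermat.Agent.S17.helper1298.degree_eq_sum hdeg, Fermat.Agent.S17.helper1298.degree_eq_sum hdeg,
    Finsupp.support_erase]
  calc ∑ R ∈ E.support.erase P0, (Finsupp.erase P0 E) R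
      = ∑ R ∈ E.support.erase P0, E R :=
        Finset.sum_congr rfl fun R hR => by
          rw [Finsupp.erase_ne (Finset.ne_of_mem_erase hR)]
    _ ≤ ∑ R ∈ E.support, E R :=
        Finset.sum_le_sum_of_subset_of_nonneg (Finset.erase_subset _ _) fun R _ _ => hE R

/-- `P_E` vanishes at the `τ`-value of every point `R ≠ P0` of the effective divisor `E`. -/
theorem eval_PD_eq_zero (P0 : Place Qb (FB F₀)) (τ : FB F₀) {E : Divisor Qb (FB F₀)}
    (hE : 0 ≤ E) {R : Place Qb (FB F₀)} (hR : R ∈ E.support) (hR0 : R ≠ P0) :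
    (PD P0 τ E).eval (ev R τ) = 0 := by
  classical
  unfold PD
  refine eval_normPoly_eq_zero τ ?_
  rw [Finsupp.erase_ne hR0]
  exact lt_of_le_of_ne (hE R) (Ne.symm (Finsupp.mem_support_iff.mp hR))

/-- **Leaf L6, clause (c): Northcott for `HinfOf`.**  Only finitely many rational effective
divisors of degree `d` have `HinfOf P0 τ n E ≤ B`. -/
theorem hinf_northcott (x : FB F₀) [FiniteDimensional Qb⟮x⟯ (FB F₀)]
    (P0 : Place Qb (FB F₀)) (τ : FB F₀) (hτ : Transcendental Qb τ) (n : ℕ) (hn : 0 < n)
    (hrat : ∀ E : Divisor Qb (FB F₀), IsRat F₀ E →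
      ∃ Q : ℚ[X], Q.map (algebraMap ℚ Qb) = PD P0 τ E)
    (hdeg : ∀ v : Place Qb (FB F₀), v.deg = 1) (d : ℤ) (B : ℝ) :
    {E : Divisor Qb (FB F₀) | IsRat F₀ E ∧ 0 ≤ E ∧ Divisor.degree E = d ∧
      HinfOf P0 τ n E ≤ B}.Finite := by
  have hn' : (0 : ℝ) < (n : ℝ) := by exact_mod_cast hn
  refine finite_setOf_hinf_le hdeg τ
    (fun c => Fermat.Agent.S17.helper1298.finite_setOf_ev_eq x hτ c) P0
    {E | IsRat F₀ E} (HinfOf P0 τ n) (ratPD P0 τ) (n : ℝ) hn' d ?_ B
  intro E hE hE0 hEd
  have hmap := map_ratPD (hrat E hE)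
  have hinj : Function.Injective (algebraMap ℚ Qb) := (algebraMap ℚ Qb).injective
  refine ⟨?_, ?_, ?_, ?_⟩
  · exact monic_of_injective hinj (hmap ▸ PD_monic P0 τ E)
  · rw [← natDegree_map_eq_of_injective hinj (ratPD P0 τ E), hmap, ← hEd]
    exact natDegree_PD_le hdeg P0 τ hE0
  · unfold HinfOf
    rw [mul_div_cancel₀ _ hn'.ne']
  · intro R hR hR0
    rw [← eval_map_algebraMap, hmap]
    exact eval_PD_eq_zero P0 τ hE0 hR hR0

end Leaf

end Fermat.Agent.S17.helper1256
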