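import Mathlib

/-!
# S17-AFF (backup, far end): `K`-points of a Dedekind `K`-algebra (helper1643)

Mathlib-only.  `B` is a Dedekind domain and a `K`-algebra, `χ : B →ₐ[K] K` are `K`-points
(with nonzero kernel, i.e. `B` is not a field).  For a multiset `s` of `K`-points put
`I_s = ∏_{χ ∈ s} ker χ`.  Then

* `B ⧸ I_s` is a finite-dimensional `K`-space of dimension `card s`;
* multiplication by `t : B` on `B ⧸ I_s` has characteristic polynomial `∏_{χ ∈ s} (X - χ t)`.

These are the two facts behind "`A ⧸ I_D` has dimension `deg D`" and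
"`P_D = charpoly of t on A ⧸ I_D = ∏ (X - t(P))^{D(P)}`" for the affine coordinate ring of a
curve minus a point.
-/

set_option autoImplicit false

open Polynomial

namespace Fermat.Agent.S17.helper1643

/-! ### Two general facts about characteristic polynomials -/

section Charpoly

variable {K V V' : Type*} [Field K] [AddCommGroup V] [Module K V] [FiniteDimensional K V]
  [AddCommGroup V'] [Module K V'] [FiniteDimensional K V']

/-- Rectangular commutation of characteristic polynomials, for linear maps. -/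
theorem charpoly_comp_comm' (f : V →ₗ[K] V') (g : V' →ₗ[K] V) :
    X ^ Module.finrank K V' * (g ∘ₗ f).charpoly
      = X ^ Module.finrank K V * (f ∘ₗ g).charpoly := by
  classical
  let b := Module.finBasis K V
  let b' := Module.finBasis K V'
  have h := Matrix.charpoly_mul_comm' (LinearMap.toMatrix b' b g) (LinearMap.toMatrix b b' f)
  rw [← LinearMap.toMatrix_comp, ← LinearMap.toMatrix_comp, LinearMap.charpoly_toMatrix,
    LinearMap.charpoly_toMatrix] at h
  simpa using h

/-- Undo a scalar shift. -/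
theorem charpoly_eq_of_sub_smul {f : Module.End K V} {g : Module.End K V'} (c : K)
    (h : (f - c • (1 : Module.End K V)).charpoly
      = X * (g - c • (1 : Module.End K V')).charpoly) :
    f.charpoly = (X - C c) * g.charpoly := by
  rw [LinearMap.charpoly_sub_smul, LinearMap.charpoly_sub_smul] at h
  have h2 := congrArg (fun p : K[X] => p.comp (X - C c)) h
  simp only [mul_comp, comp_assoc, X_comp, add_comp, C_comp, sub_add_cancel, comp_X] at h2
  exact h2

end Charpoly

/-! ### Dedekind `K`-algebras and their `K`-points -/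

section Dedekind

variable {K B : Type*} [Field K] [CommRing B] [Algebra K B]

/-- The kernel of a `K`-point is a maximal ideal. -/
theorem ker_isMaximal (χ : B →ₐ[K] K) : (RingHom.ker χ).IsMaximal :=
  RingHom.ker_isMaximal_of_surjective χ fun c => ⟨algebraMap K B c, by simp⟩

theorem sub_algebraMap_mem_ker (χ : B →ₐ[K] K) (b : B) :
    b - algebraMap K B (χ b) ∈ RingHom.ker χ := by
  simp [RingHom.mem_ker]

/-- Multiplication by `t` on `B ⧸ I` as a `K`-linear endomorphism. -/
noncomputable def mulQ (I : Ideal B) (t : B) : Module.End K (B ⧸ I) :=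
  LinearMap.mulLeft K (Ideal.Quotient.mk I t)

@[simp]
theorem mulQ_mk (I : Ideal B) (t b : B) :
    mulQ (K := K) I t (Ideal.Quotient.mk I b) = Ideal.Quotient.mk I (t * b) := by
  simp [mulQ]

/-- `charpoly` of multiplication by `t` only depends on the ideal. -/
theorem charpoly_mulQ_congr {I J : Ideal B} (e : I = J) (t : B)
    [Module.Finite K (B ⧸ I)] [Module.Finite K (B ⧸ J)] :
    (mulQ (K := K) I t).charpoly = (mulQ (K := K) J t).charpoly := by
  subst e
  rfl

theorem finrank_quotient_congr {I J : Ideal B} (e : I = J) :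
    Module.finrank K (B ⧸ I) = Module.finrank K (B ⧸ J) := by
  subst e
  rfl

/-- The factor map `B ⧸ m * I → B ⧸ I` as a `K`-linear map. -/
noncomputable def factorL (m I : Ideal B) : (B ⧸ (m * I)) →ₗ[K] (B ⧸ I) :=
  (Ideal.Quotient.factorₐ K (Ideal.mul_le_right : m * I ≤ I)).toLinearMap

@[simp]
theorem factorL_mk (m I : Ideal B) (b : B) :
    factorL (K := K) m I (Ideal.Quotient.mk (m * I) b) = Ideal.Quotient.mk I b := rfl

theorem factorL_surjective (m I : Ideal B) : Function.Surjective (factorL (K := K) m I) := by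
  intro y
  obtain ⟨b, rfl⟩ := Ideal.Quotient.mk_surjective y
  exact ⟨Ideal.Quotient.mk _ b, factorL_mk m I b⟩

variable [IsDedekindDomain B]

/-- In a Dedekind domain there is no ideal strictly between `m * I` and `I`. -/
theorem span_sup_mul_eq {I m : Ideal B} (hI : I ≠ ⊥) (hm : m.IsMaximal) (hm0 : m ≠ ⊥) {a : B}
    (ha : a ∈ I) (ha' : a ∉ m * I) : Ideal.span {a} ⊔ m * I = I := by
  have hle : Ideal.span {a} ⊔ m * I ≤ I :=
    sup_le ((Ideal.span_singleton_le_iff_mem I).mpr ha) Ideal.mul_le_right
  obtain ⟨J', hJ'⟩ := Ideal.dvd_iff_le.mpr hle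
  have h2 : I * J' ∣ I * m := by
    rw [← hJ', mul_comm I m]
    exact Ideal.dvd_iff_le.mpr le_sup_right
  have h3 : J' ∣ m := (mul_dvd_mul_iff_left hI).mp h2
  have hirr : Irreducible m := (Ideal.prime_of_isPrime hm0 hm.isPrime).irreducible
  rcases hirr.dvd_iff.mp h3 with hu | hassoc
  · rw [hJ', Ideal.isUnit_iff.mp hu, Ideal.mul_top]
  · exfalso
    have hJm : J' = m := (associated_iff_eq.mp hassoc).symm
    apply ha'
    rw [mul_comm, ← hJm, ← hJ']
    exact Ideal.mem_sup_left (Ideal.mem_span_singleton_self a)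

theorem exists_mem_not_mem_mul {I m : Ideal B} (hI : I ≠ ⊥) (hm : m.IsMaximal) :
    ∃ a ∈ I, a ∉ m * I := by
  have hlt : m * I < I := by
    refine lt_of_le_of_ne Ideal.mul_le_right fun h => ?_
    have h1 : m * I = 1 * I := by rw [h, one_mul]
    have h2 := mul_right_cancel₀ hI h1
    exact hm.ne_top (by rw [h2, Ideal.one_eq_top])
  exact SetLike.exists_of_lt hlt

/-- **One step, dimension**: multiplying an ideal by the kernel of a `K`-point raises the
colength by one. -/
theorem finrank_quotient_ker_mul (I : Ideal B) (hI : I ≠ ⊥) (χ : B →ₐ[K] K)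
    (hχ : RingHom.ker χ ≠ ⊥) [Module.Finite K (B ⧸ I)] :
    Module.Finite K (B ⧸ (RingHom.ker χ * I)) ∧
      Module.finrank K (B ⧸ (RingHom.ker χ * I)) = Module.finrank K (B ⧸ I) + 1 := by
  have hmax : (RingHom.ker χ).IsMaximal := ker_isMaximal χ
  obtain ⟨a, haI, ha⟩ := exists_mem_not_mem_mul hI hmax
  have hsup := span_sup_mul_eq hI hmax hχ haI ha
  have hsurj := factorL_surjective (K := K) (RingHom.ker χ) I
  have hker : LinearMap.ker (factorL (K := K) (RingHom.ker χ) I)
      = K ∙ (Ideal.Quotient.mk (RingHom.ker χ * I) a) := by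
    apply le_antisymm
    · intro x hx
      obtain ⟨b, rfl⟩ := Ideal.Quotient.mk_surjective x
      rw [LinearMap.mem_ker, factorL_mk, Ideal.Quotient.eq_zero_iff_mem, ← hsup] at hx
      obtain ⟨y, hy, z, hz, rfl⟩ := Submodule.mem_sup.mp hx
      obtain ⟨d, rfl⟩ := Ideal.mem_span_singleton'.mp hy
      rw [Submodule.mem_span_singleton]
      refine ⟨χ d, ?_⟩
      rw [Algebra.smul_def, IsScalarTower.algebraMap_apply K B (B ⧸ RingHom.ker χ * I),
        Ideal.Quotient.algebraMap_eq, ← map_mul, Ideal.Quotient.eq]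
      have h1 : (algebraMap K B (χ d) - d) * a ∈ RingHom.ker χ * I :=
        Ideal.mul_mem_mul (by simp [RingHom.mem_ker]) haI
      have h2 : algebraMap K B (χ d) * a - (d * a + z)
          = (algebraMap K B (χ d) - d) * a - z := by ring
      rw [h2]
      exact sub_mem h1 hz
    · rw [Submodule.span_singleton_le_iff_mem, LinearMap.mem_ker, factorL_mk,
        Ideal.Quotient.eq_zero_iff_mem]
      exact haI
  have hfinker : Module.Finite K (LinearMap.ker (factorL (K := K) (RingHom.ker χ) I)) := by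
    rw [hker]
    infer_instance
  have hfinquot : Module.Finite K
      ((B ⧸ (RingHom.ker χ * I)) ⧸ LinearMap.ker (factorL (K := K) (RingHom.ker χ) I)) :=
    Module.Finite.equiv ((factorL (K := K) (RingHom.ker χ) I).quotKerEquivOfSurjective hsurj).symm
  have hfin : Module.Finite K (B ⧸ (RingHom.ker χ * I)) :=
    Module.Finite.of_submodule_quotient (LinearMap.ker (factorL (K := K) (RingHom.ker χ) I))
  refine ⟨hfin, ?_⟩
  have h1 := LinearMap.finrank_range_add_finrank_ker (factorL (K := K) (RingHom.ker χ) I)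
  rw [LinearMap.range_eq_top.mpr hsurj, finrank_top, hker, finrank_span_singleton] at h1
  · exact h1.symm
  · rw [Ne, Ideal.Quotient.eq_zero_iff_mem]
    exact ha

/-- **One step, characteristic polynomial**: multiplying an ideal by the kernel of a `K`-point
`χ` multiplies the characteristic polynomial of multiplication by `t` by `X - χ t`. -/
theorem charpoly_mulQ_ker_mul (I : Ideal B) (hI : I ≠ ⊥) (χ : B →ₐ[K] K)
    (hχ : RingHom.ker χ ≠ ⊥) [Module.Finite K (B ⧸ I)] (t : B) :
    haveI := (finrank_quotient_ker_mul I hI χ hχ).1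
    (mulQ (K := K) (RingHom.ker χ * I) t).charpoly
      = (X - C (χ t)) * (mulQ (K := K) I t).charpoly := by
  obtain ⟨hfin, hrank⟩ := finrank_quotient_ker_mul I hI χ hχ
  -- the map `b ↦ (t - χ t) * b` from `B ⧸ I` to `B ⧸ m * I`
  let S₀ : B →ₗ[B] (B ⧸ (RingHom.ker χ * I)) :=
    (Submodule.mkQ (RingHom.ker χ * I)) ∘ₗ
      LinearMap.mulLeft B (t - algebraMap K B (χ t))
  have hS₀ : I ≤ LinearMap.ker S₀ := by
    intro b hb
    rw [LinearMap.mem_ker]
    show Ideal.Quotient.mk (RingHom.ker χ * I) ((t - algebraMap K B (χ t)) * b) = 0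
    rw [Ideal.Quotient.eq_zero_iff_mem]
    exact Ideal.mul_mem_mul (sub_algebraMap_mem_ker χ t) hb
  let S : (B ⧸ I) →ₗ[K] (B ⧸ (RingHom.ker χ * I)) := (Submodule.liftQ I S₀ hS₀).restrictScalars K
  have hS : ∀ b : B, S (Ideal.Quotient.mk I b)
      = Ideal.Quotient.mk (RingHom.ker χ * I) ((t - algebraMap K B (χ t)) * b) := fun b => rfl
  have hsm : ∀ (J : Ideal B) (c : K) (b : B),
      c • Ideal.Quotient.mk J b = Ideal.Quotient.mk J (algebraMap K B c * b) := by
    intro J c b
    rw [Algebra.smul_def, IsScalarTower.algebraMap_apply K B (B ⧸ J),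
      Ideal.Quotient.algebraMap_eq, ← map_mul]
  have hSπ : S ∘ₗ factorL (K := K) (RingHom.ker χ) I
      = mulQ (K := K) (RingHom.ker χ * I) t - χ t • (1 : Module.End K _) := by
    refine LinearMap.ext fun x => ?_
    obtain ⟨b, rfl⟩ := Ideal.Quotient.mk_surjective x
    rw [LinearMap.comp_apply, factorL_mk, hS, LinearMap.sub_apply, mulQ_mk, LinearMap.smul_apply,
      Module.End.one_apply, hsm, ← map_sub, sub_mul]
  have hπS : factorL (K := K) (RingHom.ker χ) I ∘ₗ S
      = mulQ (K := K) I t - χ t • (1 : Module.End K _) := by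
    refine LinearMap.ext fun x => ?_
    obtain ⟨b, rfl⟩ := Ideal.Quotient.mk_surjective x
    rw [LinearMap.comp_apply, hS, factorL_mk, LinearMap.sub_apply, mulQ_mk, LinearMap.smul_apply,
      Module.End.one_apply, hsm, ← map_sub, sub_mul]
  have key := charpoly_comp_comm' (factorL (K := K) (RingHom.ker χ) I) S
  rw [hSπ, hπS, hrank, pow_succ, mul_assoc] at key
  exact charpoly_eq_of_sub_smul (χ t) (mul_left_cancel₀ (pow_ne_zero _ X_ne_zero) key)

/-- The statement "`B ⧸ J` has dimension `n` and multiplication by `t` has characteristic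
polynomial `p t`", as a predicate on the ideal `J`. -/
def GoodQuot (J : Ideal B) (n : ℕ) (p : B → K[X]) : Prop :=
  ∃ _ : Module.Finite K (B ⧸ J), Module.finrank K (B ⧸ J) = n ∧
    ∀ t : B, (mulQ (K := K) J t).charpoly = p t

omit [IsDedekindDomain B] in
theorem goodQuot_top : GoodQuot (K := K) (⊤ : Ideal B) 0 fun _ => 1 := by
  have hsub : Subsingleton (B ⧸ (⊤ : Ideal B)) := Ideal.Quotient.subsingleton_iff.mpr rfl
  have hfin : Module.Finite K (B ⧸ (⊤ : Ideal B)) := Module.Finite.of_finite
  have h0 : Module.finrank K (B ⧸ (⊤ : Ideal B)) = 0 := Module.finrank_zero_of_subsingleton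
  refine ⟨hfin, h0, fun t => ?_⟩
  apply Polynomial.eq_one_of_monic_natDegree_zero (LinearMap.charpoly_monic _)
  rw [LinearMap.charpoly_natDegree, h0]

theorem GoodQuot.ker_mul {J : Ideal B} {n : ℕ} {p : B → K[X]} (h : GoodQuot J n p)
    (hJ : J ≠ ⊥) (χ : B →ₐ[K] K) (hχ : RingHom.ker χ ≠ ⊥) :
    GoodQuot (RingHom.ker χ * J) (n + 1) fun t => (X - C (χ t)) * p t := by
  obtain ⟨hfin, hn, hp⟩ := h
  obtain ⟨hfin', hn'⟩ := finrank_quotient_ker_mul J hJ χ hχ
  refine ⟨hfin', by rw [hn', hn], fun t => ?_⟩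
  show _ = (X - C (χ t)) * p t
  rw [← hp t]
  exact charpoly_mulQ_ker_mul J hJ χ hχ t

/-- The ideal of a multiset of `K`-points. -/
noncomputable def pointsIdeal (s : Multiset (B →ₐ[K] K)) : Ideal B :=
  (s.map fun χ => RingHom.ker χ).prod

omit [IsDedekindDomain B] in
@[simp]
theorem pointsIdeal_zero : pointsIdeal (0 : Multiset (B →ₐ[K] K)) = ⊤ := by
  simp [pointsIdeal]

omit [IsDedekindDomain B] in
@[simp]
theorem pointsIdeal_cons (χ : B →ₐ[K] K) (s : Multiset (B →ₐ[K] K)) :
    pointsIdeal (χ ::ₘ s) = RingHom.ker χ * pointsIdeal s := by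
  simp [pointsIdeal]

omit [IsDedekindDomain B] in
theorem pointsIdeal_add (s s' : Multiset (B →ₐ[K] K)) :
    pointsIdeal (s + s') = pointsIdeal s * pointsIdeal s' := by
  simp [pointsIdeal]

theorem pointsIdeal_ne_bot (s : Multiset (B →ₐ[K] K)) (hs : ∀ χ ∈ s, RingHom.ker χ ≠ ⊥) :
    pointsIdeal s ≠ ⊥ := by
  induction s using Multiset.induction_on with
  | empty => simp
  | cons χ s ih =>
    rw [pointsIdeal_cons]
    exact mul_ne_zero (hs χ (Multiset.mem_cons_self χ s))
      (ih fun χ' hχ' => hs χ' (Multiset.mem_cons_of_mem hχ'))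

/-- **Colength and characteristic polynomial** for the ideal of a multiset of `K`-points. -/
theorem goodQuot_pointsIdeal (s : Multiset (B →ₐ[K] K)) (hs : ∀ χ ∈ s, RingHom.ker χ ≠ ⊥) :
    GoodQuot (pointsIdeal s) (Multiset.card s) fun t => (s.map fun χ => X - C (χ t)).prod := by
  induction s using Multiset.induction_on with
  | empty => simpa using goodQuot_top (K := K) (B := B)
  | cons χ s ih =>
    have hs' : ∀ χ' ∈ s, RingHom.ker χ' ≠ ⊥ := fun χ' hχ' => hs χ' (Multiset.mem_cons_of_mem hχ')
    have h := (ih hs').ker_mul (pointsIdeal_ne_bot s hs') χ (hs χ (Multiset.mem_cons_self χ s))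
    simpa using h

theorem finite_quotient_pointsIdeal (s : Multiset (B →ₐ[K] K))
    (hs : ∀ χ ∈ s, RingHom.ker χ ≠ ⊥) : Module.Finite K (B ⧸ pointsIdeal s) :=
  (goodQuot_pointsIdeal s hs).1

theorem finrank_quotient_pointsIdeal (s : Multiset (B →ₐ[K] K))
    (hs : ∀ χ ∈ s, RingHom.ker χ ≠ ⊥) :
    Module.finrank K (B ⧸ pointsIdeal s) = Multiset.card s :=
  (goodQuot_pointsIdeal s hs).2.1

theorem charpoly_mulQ_pointsIdeal (s : Multiset (B →ₐ[K] K))
    (hs : ∀ χ ∈ s, RingHom.ker χ ≠ ⊥) (t : B) :
    haveI := finite_quotient_pointsIdeal s hs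
    (mulQ (K := K) (pointsIdeal s) t).charpoly = (s.map fun χ => X - C (χ t)).prod :=
  (goodQuot_pointsIdeal s hs).2.2 t

end Dedekind

/-! ### Effective divisors on a Dedekind `K`-algebra all of whose points are `K`-rational -/

section Divisors

open IsDedekindDomain

theorem prod_map_toMultiset {α M : Type*} [CommMonoid M] (E : α →₀ ℕ) (g : α → M) :
    ((Finsupp.toMultiset E).map g).prod = E.prod fun a n => g a ^ n := by
  rw [Finsupp.toMultiset_map, Finsupp.prod_toMultiset,
    Finsupp.prod_mapDomain_index (fun _ => pow_zero _) (fun _ _ _ => pow_add _ _ _)]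

variable {K B : Type*} [Field K] [CommRing B] [IsDedekindDomain B] [Algebra K B]

/-- The ideal `∏ m ^ E m` of an effective divisor on `Spec B`. -/
noncomputable def divIdeal (E : HeightOneSpectrum B →₀ ℕ) : Ideal B :=
  E.prod fun m n => m.asIdeal ^ n

omit [IsDedekindDomain B] in
@[simp]
theorem divIdeal_zero : divIdeal (0 : HeightOneSpectrum B →₀ ℕ) = ⊤ := by
  simp [divIdeal]

omit [IsDedekindDomain B] in
theorem divIdeal_add (E E' : HeightOneSpectrum B →₀ ℕ) :
    divIdeal (E + E') = divIdeal E * divIdeal E' :=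
  Finsupp.prod_add_index' (fun _ => pow_zero _) (fun _ _ _ => pow_add _ _ _)

omit [IsDedekindDomain B] in
@[simp]
theorem divIdeal_single (m : HeightOneSpectrum B) (n : ℕ) :
    divIdeal (Finsupp.single m n) = m.asIdeal ^ n := by
  simp [divIdeal]

theorem divIdeal_ne_bot (E : HeightOneSpectrum B →₀ ℕ) : divIdeal E ≠ ⊥ := by
  rw [divIdeal, Finsupp.prod, ← Ideal.zero_eq_bot, Finset.prod_ne_zero_iff]
  exact fun m _ => pow_ne_zero _ m.ne_bot

/-- Membership in `divIdeal E` is a valuation condition at every maximal ideal. -/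
theorem mem_divIdeal_iff (E : HeightOneSpectrum B →₀ ℕ) (b : B) :
    b ∈ divIdeal E ↔ ∀ m : HeightOneSpectrum B, m.intValuation b ≤ WithZero.exp (-(E m : ℤ)) := by
  have hprod : divIdeal E = E.support.inf fun m => m.asIdeal ^ E m := by
    rw [IsDedekindDomain.inf_pow_eq_prod_of_prime E.support (fun m => m.asIdeal) (fun m => E m)
      (fun m _ => m.prime) (fun m _ m' _ hne h => hne (HeightOneSpectrum.ext h))]
    rfl
  rw [hprod, Submodule.mem_finsetInf]
  constructor
  · intro h m
    by_cases hm : m ∈ E.support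
    · exact (m.intValuation_le_pow_iff_mem b (E m)).mpr (h m hm)
    · rw [Finsupp.notMem_support_iff.mp hm]
      simpa using m.intValuation_le_one b
  · intro h m _
    exact (m.intValuation_le_pow_iff_mem b (E m)).mp (h m)

/-- A principal ideal is the ideal of its divisor of zeros. -/
theorem span_singleton_eq_divIdeal {ψ : B} (hψ : ψ ≠ 0) (E : HeightOneSpectrum B →₀ ℕ)
    (hE : ∀ m : HeightOneSpectrum B, m.intValuation ψ = WithZero.exp (-(E m : ℤ))) :
    Ideal.span {ψ} = divIdeal E := by
  apply le_antisymm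
  · rw [Ideal.span_singleton_le_iff_mem, mem_divIdeal_iff]
    exact fun m => (hE m).le
  · intro b hb
    rw [mem_divIdeal_iff] at hb
    rw [Ideal.mem_span_singleton]
    have hψ' : algebraMap B (FractionRing B) ψ ≠ 0 :=
      (map_ne_zero_iff _ (IsFractionRing.injective B (FractionRing B))).mpr hψ
    obtain ⟨c, hc⟩ := HeightOneSpectrum.mem_integers_of_valuation_le_one (FractionRing B)
      (algebraMap B (FractionRing B) b / algebraMap B (FractionRing B) ψ) (fun m => by
        rw [map_div₀, HeightOneSpectrum.valuation_of_algebraMap,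
          HeightOneSpectrum.valuation_of_algebraMap, hE m]
        exact (div_le_one₀ WithZero.exp_pos).mpr (hb m))
    refine ⟨c, ?_⟩
    apply IsFractionRing.injective B (FractionRing B)
    rw [map_mul, hc, mul_div_cancel₀ _ hψ']

/-! #### Points -/

variable (pt : HeightOneSpectrum B → (B →ₐ[K] K))

/-- The multiset of `K`-points of an effective divisor. -/
noncomputable def divPoints (E : HeightOneSpectrum B →₀ ℕ) : Multiset (B →ₐ[K] K) :=
  (Finsupp.toMultiset E).map pt

omit [IsDedekindDomain B] in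
theorem card_divPoints (E : HeightOneSpectrum B →₀ ℕ) :
    Multiset.card (divPoints pt E) = E.sum fun _ n => n := by
  simp [divPoints, Function.id_def]

variable {pt} (hpt : ∀ m : HeightOneSpectrum B, RingHom.ker (pt m) = m.asIdeal)
include hpt

omit [IsDedekindDomain B] in
theorem pointsIdeal_divPoints (E : HeightOneSpectrum B →₀ ℕ) :
    pointsIdeal (divPoints pt E) = divIdeal E := by
  rw [pointsIdeal, divPoints, Multiset.map_map, prod_map_toMultiset, divIdeal]
  exact Finsupp.prod_congr fun m _ => by rw [Function.comp_apply, hpt m]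

omit [IsDedekindDomain B] in
theorem ker_ne_bot_of_mem_divPoints (E : HeightOneSpectrum B →₀ ℕ) :
    ∀ χ ∈ divPoints pt E, RingHom.ker χ ≠ ⊥ := by
  intro χ hχ
  obtain ⟨m, -, rfl⟩ := Multiset.mem_map.mp hχ
  rw [hpt m]
  exact m.ne_bot

/-- `B ⧸ divIdeal E` has dimension `deg E` and multiplication by `t` on it has characteristic
polynomial `∏ (X - t(m)) ^ E m`. -/
theorem goodQuot_divIdeal (E : HeightOneSpectrum B →₀ ℕ) :
    GoodQuot (divIdeal E) (E.sum fun _ n => n)
      fun t => E.prod fun m n => (X - C (pt m t)) ^ n := by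
  have h := goodQuot_pointsIdeal (divPoints pt E) (ker_ne_bot_of_mem_divPoints hpt E)
  rw [pointsIdeal_divPoints hpt, card_divPoints] at h
  have hp : (fun t : B => ((divPoints pt E).map fun χ => X - C (χ t)).prod)
      = fun t => E.prod fun m n => (X - C (pt m t)) ^ n := by
    funext t
    rw [divPoints, Multiset.map_map, prod_map_toMultiset]
    rfl
  rwa [hp] at h

theorem finite_quotient_divIdeal (E : HeightOneSpectrum B →₀ ℕ) :
    Module.Finite K (B ⧸ divIdeal E) :=
  (goodQuot_divIdeal hpt E).1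

theorem finrank_quotient_divIdeal (E : HeightOneSpectrum B →₀ ℕ) :
    Module.finrank K (B ⧸ divIdeal E) = E.sum fun _ n => n :=
  (goodQuot_divIdeal hpt E).2.1

theorem charpoly_mulQ_divIdeal (E : HeightOneSpectrum B →₀ ℕ) (t : B) :
    haveI := finite_quotient_divIdeal hpt E
    (mulQ (K := K) (divIdeal E) t).charpoly = E.prod fun m n => (X - C (pt m t)) ^ n :=
  (goodQuot_divIdeal hpt E).2.2 t

end Divisors

end Fermat.Agent.S17.helper1643
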