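import Fermat.Agent.S27.helper751_OnePoint
import Fermat.Agent.S27.helper4586_Ev
import Fermat.Agent.S17.helper1643_DedekindPoints

/-!
# S17-AFF (backup, far end): ideals of effective divisors on a Dedekind model (helper1643)

Setting: `F/K` a function field in the Prelude vocabulary (`Place`, `Divisor`, `ord`,
`riemannRochSpace`), `B` a Dedekind domain with fraction field `F` (a `K`-algebra), and
`pl : HeightOneSpectrum B → Place K F` compatible with valuations (`ValCompat`).  This covers
the affine coordinate ring at a base place (`helper751.OnePoint B Pinf pl`) and every chart ring.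

* `pointOf`     : the `K`-point `B →ₐ[K] K` of a maximal ideal (S27 `ev`), `ker_pointOf`;
* `idealOf D`   : the ideal `∏ m ^ D(pl m)` of an effective divisor, `mem_idealOf_iff`
                  (`b ∈ I_D ↔ b = 0 ∨ ∀ m, D (pl m) ≤ ord_{pl m} b`), `idealOf_add`,
                  `span_singleton_eq_idealOf`;
* `finrank_quotient_idealOf`, `charpoly_mulQ_idealOf` : `dim_K B ⧸ I_D = deg D` and
  `charpoly (t on B ⧸ I_D) = ∏ (X - t(P)) ^ D(P)`.
-/

set_option autoImplicit false

open IsDedekindDomain AlgebraicCurve WithZero Polynomial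

namespace Fermat.Agent.S17.helper1643

open Fermat.Agent.S27

noncomputable section

variable {K F : Type*} [Field K] [Field F] [Algebra K F]
variable {B : Type*} [CommRing B] [IsDedekindDomain B] [Algebra B F] [IsFractionRing B F]

/-- The maximal ideals of `B` are places of `F/K`, compatibly with valuations. -/
def ValCompat (pl : HeightOneSpectrum B → Place K F) : Prop :=
  ∀ (m : HeightOneSpectrum B) (f : F), (pl m).adicValuation f = m.valuation F f

theorem _root_.Fermat.Agent.S27.helper751.OnePoint.valCompat {Pinf : Place K F}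
    {pl : HeightOneSpectrum B → Place K F} (h : helper751.OnePoint B Pinf pl) : ValCompat pl :=
  h.val

variable {pl : HeightOneSpectrum B → Place K F}

namespace ValCompat

variable (h : ValCompat pl)
include h

theorem injective : Function.Injective pl := by
  intro m m' hmm
  apply HeightOneSpectrum.eq_of_valuation_isEquiv_valuation (K := F)
  have : m.valuation F = m'.valuation F := by
    ext f
    rw [← h m f, ← h m' f, hmm]
  rw [this]

theorem ord_nonneg (m : HeightOneSpectrum B) (b : B) : 0 ≤ (pl m).ord (algebraMap B F b) :=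
  (helper4586.adicValuation_le_one_iff (pl m) _).mp (by rw [h m]; exact m.valuation_le_one b)

theorem intValuation_eq (m : HeightOneSpectrum B) {b : B} (hb : b ≠ 0) :
    m.intValuation b = exp (-((pl m).ord (algebraMap B F b))) := by
  have hb' : algebraMap B F b ≠ 0 :=
    (map_ne_zero_iff _ (IsFractionRing.injective B F)).mpr hb
  rw [← (pl m).adicValuation_eq_exp_neg_ord hb', h m, HeightOneSpectrum.valuation_of_algebraMap]

/-- `B` is the ring of functions regular at all places coming from `B`. -/
theorem mem_range_iff (f : F) :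
    f ∈ (algebraMap B F).range ↔ ∀ m : HeightOneSpectrum B, 0 ≤ (pl m).ord f := by
  constructor
  · rintro ⟨b, rfl⟩ m
    exact h.ord_nonneg m b
  · intro hf
    exact HeightOneSpectrum.mem_integers_of_valuation_le_one F f fun m => by
      rw [← h m]
      exact (helper4586.adicValuation_le_one_iff (pl m) f).mpr (hf m)

end ValCompat

/-! ### `K`-points -/

section Points

variable [Algebra K B] [IsScalarTower K B F]

/-- The `K`-point of `B` at a maximal ideal whose place has residue field `K`. -/
def pointOf (h : ValCompat pl) (m : HeightOneSpectrum B) (hv : helper4586.HasValues (pl m)) :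
    B →ₐ[K] K where
  toFun b := helper6247.ev (pl m) (algebraMap B F b)
  map_one' := by rw [map_one]; exact helper4586.ev_one (pl m)
  map_mul' a b := by
    rw [map_mul]
    exact helper4586.ev_mul hv (h.ord_nonneg m a) (h.ord_nonneg m b)
  map_zero' := by rw [map_zero]; exact helper4586.ev_zero (pl m)
  map_add' a b := by
    rw [map_add]
    exact helper4586.ev_add hv (h.ord_nonneg m a) (h.ord_nonneg m b)
  commutes' c := by
    show helper6247.ev (pl m) (algebraMap B F (algebraMap K B c)) = c
    rw [← IsScalarTower.algebraMap_apply]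
    exact helper4586.ev_algebraMap (pl m) c

@[simp]
theorem pointOf_apply (h : ValCompat pl) (m : HeightOneSpectrum B)
    (hv : helper4586.HasValues (pl m)) (b : B) :
    pointOf h m hv b = helper6247.ev (pl m) (algebraMap B F b) := rfl

theorem ker_pointOf (h : ValCompat pl) (m : HeightOneSpectrum B)
    (hv : helper4586.HasValues (pl m)) : RingHom.ker (pointOf h m hv) = m.asIdeal := by
  ext b
  rw [RingHom.mem_ker, pointOf_apply, helper4586.ev_eq_zero_iff hv (h.ord_nonneg m b),
    ← helper4586.adicValuation_lt_one_iff, h m, HeightOneSpectrum.valuation_lt_one_iff_mem]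

end Points

/-! ### The ideal of an effective divisor -/

section Ideals

/-- The multiplicities of a divisor at the maximal ideals of `B` (negative parts cut off). -/
def natRes (h : ValCompat pl) (D : Divisor K F) : HeightOneSpectrum B →₀ ℕ :=
  (Finsupp.comapDomain pl D h.injective.injOn).mapRange Int.toNat Int.toNat_zero

@[simp]
theorem natRes_apply (h : ValCompat pl) (D : Divisor K F) (m : HeightOneSpectrum B) :
    natRes h D m = (D (pl m)).toNat := rfl

theorem natRes_add (h : ValCompat pl) {D E : Divisor K F} (hD : 0 ≤ D) (hE : 0 ≤ E) :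
    natRes h (D + E) = natRes h D + natRes h E := by
  ext m
  have h1 : 0 ≤ D (pl m) := hD (pl m)
  have h2 : 0 ≤ E (pl m) := hE (pl m)
  simp only [natRes_apply, Finsupp.add_apply]
  omega

/-- The ideal `∏ m ^ D(pl m)` of `B` attached to an (effective) divisor. -/
def idealOf (h : ValCompat pl) (D : Divisor K F) : Ideal B :=
  divIdeal (natRes h D)

theorem idealOf_add (h : ValCompat pl) {D E : Divisor K F} (hD : 0 ≤ D) (hE : 0 ≤ E) :
    idealOf h (D + E) = idealOf h D * idealOf h E := by
  rw [idealOf, natRes_add h hD hE, divIdeal_add]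
  rfl

theorem idealOf_ne_bot (h : ValCompat pl) (D : Divisor K F) : idealOf h D ≠ ⊥ :=
  divIdeal_ne_bot _

/-- Membership in `idealOf D`: vanishing to order `D` at the places of `B`. -/
theorem mem_idealOf_iff (h : ValCompat pl) (D : Divisor K F) (b : B) :
    b ∈ idealOf h D ↔
      b = 0 ∨ ∀ m : HeightOneSpectrum B, D (pl m) ≤ (pl m).ord (algebraMap B F b) := by
  rw [idealOf, mem_divIdeal_iff]
  rcases eq_or_ne b 0 with rfl | hb
  · simp
  · rw [or_iff_right hb]
    refine forall_congr' fun m => ?_
    have h0 := h.ord_nonneg m b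
    rw [h.intValuation_eq m hb, exp_le_exp, natRes_apply]
    omega

/-- The ideal of the divisor of zeros of `ψ` is principal, generated by `ψ`. -/
theorem span_singleton_eq_idealOf (h : ValCompat pl) {ψ : B} (hψ : ψ ≠ 0) (D : Divisor K F)
    (hD : ∀ m : HeightOneSpectrum B, D (pl m) = (pl m).ord (algebraMap B F ψ)) :
    Ideal.span {ψ} = idealOf h D := by
  refine span_singleton_eq_divIdeal hψ _ fun m => ?_
  have h0 := h.ord_nonneg m ψ
  rw [h.intValuation_eq m hψ, natRes_apply, hD m, Int.toNat_of_nonneg h0]

end Ideals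

/-! ### Colength and characteristic polynomial -/

section Quotient

variable [Algebra K B] [IsScalarTower K B F]

/-- `B ⧸ I_D` is finite-dimensional. -/
theorem finite_quotient_idealOf (h : ValCompat pl) (hv : ∀ m, helper4586.HasValues (pl m))
    (D : Divisor K F) : Module.Finite K (B ⧸ idealOf h D) :=
  finite_quotient_divIdeal (pt := fun m => pointOf h m (hv m))
    (fun m => ker_pointOf h m (hv m)) _

/-- `dim_K B ⧸ I_D = ∑ D(pl m)`. -/
theorem finrank_quotient_idealOf (h : ValCompat pl) (hv : ∀ m, helper4586.HasValues (pl m))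
    (D : Divisor K F) :
    Module.finrank K (B ⧸ idealOf h D) = (natRes h D).sum fun _ n => n :=
  finrank_quotient_divIdeal (pt := fun m => pointOf h m (hv m))
    (fun m => ker_pointOf h m (hv m)) _

/-- The characteristic polynomial of multiplication by `t` on `B ⧸ I_D` is
`∏ (X - t(P)) ^ D(P)`. -/
theorem charpoly_mulQ_idealOf (h : ValCompat pl) (hv : ∀ m, helper4586.HasValues (pl m))
    (D : Divisor K F) (t : B) :
    haveI := finite_quotient_idealOf h hv D
    (mulQ (K := K) (idealOf h D) t).charpoly
      = (natRes h D).prod fun m n => (X - C (helper6247.ev (pl m) (algebraMap B F t))) ^ n :=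
  charpoly_mulQ_divIdeal (pt := fun m => pointOf h m (hv m))
    (fun m => ker_pointOf h m (hv m)) _ t

/-- Every `K`-point of `B` (with nonzero kernel) is the point of a maximal ideal. -/
theorem exists_pointOf_eq (h : ValCompat pl) (hv : ∀ m, helper4586.HasValues (pl m))
    (χ : B →ₐ[K] K) (hχ : RingHom.ker χ ≠ ⊥) :
    ∃ m : HeightOneSpectrum B, pointOf h m (hv m) = χ := by
  have hmax := ker_isMaximal χ
  refine ⟨⟨RingHom.ker χ, hmax.isPrime, hχ⟩, ?_⟩
  refine AlgHom.ext fun b => ?_
  set m : HeightOneSpectrum B := ⟨RingHom.ker χ, hmax.isPrime, hχ⟩ with hm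
  have h1 : b - algebraMap K B (pointOf h m (hv m) b) ∈ RingHom.ker χ := by
    have h2 := sub_algebraMap_mem_ker (pointOf h m (hv m)) b
    rwa [ker_pointOf h m (hv m)] at h2
  rw [RingHom.mem_ker, map_sub, AlgHom.commutes, sub_eq_zero] at h1
  exact h1.symm

/-- The point determines the maximal ideal. -/
theorem pointOf_injective (h : ValCompat pl) (hv : ∀ m, helper4586.HasValues (pl m))
    {m m' : HeightOneSpectrum B} (hmm : pointOf h m (hv m) = pointOf h m' (hv m')) : m = m' := by
  apply HeightOneSpectrum.ext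
  rw [← ker_pointOf h m (hv m), ← ker_pointOf h m' (hv m'), hmm]

end Quotient

/-! ### The norm polynomial of a divisor -/

section NormPoly

/-- `P_D(X) = ∏_P (X - t(P)) ^ D(P)` (negative multiplicities ignored). -/
def normPoly (t : F) (D : Divisor K F) : K[X] :=
  D.prod fun P n => (X - C (helper6247.ev P t)) ^ n.toNat

theorem normPoly_eq_prod (t : F) (D : Divisor K F) (s : Finset (Place K F))
    (hs : D.support ⊆ s) :
    normPoly t D = ∏ P ∈ s, (X - C (helper6247.ev P t)) ^ (D P).toNat :=
  Finsupp.prod_of_support_subset D hs _ fun _ _ => by simp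

theorem normPoly_add (t : F) {D E : Divisor K F} (hD : 0 ≤ D) (hE : 0 ≤ E) :
    normPoly t (D + E) = normPoly t D * normPoly t E := by
  classical
  rw [normPoly_eq_prod t (D + E) (D.support ∪ E.support) Finsupp.support_add,
    normPoly_eq_prod t D (D.support ∪ E.support) Finset.subset_union_left,
    normPoly_eq_prod t E (D.support ∪ E.support) Finset.subset_union_right,
    ← Finset.prod_mul_distrib]
  refine Finset.prod_congr rfl fun P _ => ?_
  have h1 : 0 ≤ D P := hD P
  have h2 : 0 ≤ E P := hE P
  rw [← pow_add, Finsupp.add_apply, Int.toNat_add h1 h2]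

theorem normPoly_monic (t : F) (D : Divisor K F) : (normPoly t D).Monic :=
  monic_prod_of_monic _ _ fun _ _ => (monic_X_sub_C _).pow _

theorem normPoly_zero (t : F) : normPoly t (0 : Divisor K F) = 1 := by
  simp [normPoly]

theorem normPoly_single (t : F) (P : Place K F) (n : ℤ) :
    normPoly t (Finsupp.single P n) = (X - C (helper6247.ev P t)) ^ n.toNat := by
  simp [normPoly]

end NormPoly

/-! ### The one-point case: degree, Riemann–Roch spaces, surjectivity -/

section OnePoint

variable {Pinf : Place K F} (h : helper751.OnePoint B Pinf pl)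
include h

/-- A divisor supported off `Pinf` is the push-forward of its restriction to `B`. -/
theorem eq_mapDomain_res {D : Divisor K F} (hinf : D Pinf = 0) :
    D = Finsupp.mapDomain pl (h.res D) := by
  ext P
  by_cases hP : P = Pinf
  · subst hP
    rw [hinf, Finsupp.mapDomain_of_notMem_range]
    rintro ⟨m, hm⟩
    exact h.ne_inf m hm
  · obtain ⟨m, rfl⟩ := h.surj P hP
    rw [Finsupp.mapDomain_apply h.pl_injective, helper751.OnePoint.res_apply]

/-- `deg D = ∑ D(pl m)` for an effective divisor off `Pinf` (all places of degree one). -/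
theorem degree_eq_sum_natRes (hdeg : ∀ P : Place K F, P.deg = 1) {D : Divisor K F}
    (hD : 0 ≤ D) (hinf : D Pinf = 0) :
    Divisor.degree D = (((natRes h.valCompat D).sum fun _ n => n : ℕ) : ℤ) := by
  have h1 : Divisor.degree D = (h.res D).sum fun _ n => n := by
    conv_lhs => rw [eq_mapDomain_res h hinf, Finsupp.mapDomain, map_finsuppSum]
    refine Finsupp.sum_congr fun m _ => ?_
    rw [Divisor.degree_single, hdeg (pl m), Nat.cast_one, mul_one]
  have hsub : (natRes h.valCompat D).support ⊆ (h.res D).support := by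
    intro m hm
    rw [Finsupp.mem_support_iff] at hm ⊢
    intro h0
    apply hm
    rw [natRes_apply, ← helper751.OnePoint.res_apply h D m, h0]
    rfl
  rw [h1, Finsupp.sum_of_support_subset _ hsub _ (fun _ _ => rfl), Finsupp.sum, Nat.cast_sum]
  refine Finset.sum_congr rfl fun m _ => ?_
  have h2 : 0 ≤ D (pl m) := hD (pl m)
  rw [natRes_apply, Int.toNat_of_nonneg h2, helper751.OnePoint.res_apply]

/-- **Colength = degree**: `dim_K B ⧸ I_D = deg D` for an effective divisor off `Pinf`. -/
theorem finrank_quotient_idealOf_eq_degree [Algebra K B] [IsScalarTower K B F] (hv : ∀ m, helper4586.HasValues (pl m))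
    (hdeg : ∀ P : Place K F, P.deg = 1) {D : Divisor K F} (hD : 0 ≤ D) (hinf : D Pinf = 0) :
    (Module.finrank K (B ⧸ idealOf h.valCompat D) : ℤ) = Divisor.degree D := by
  rw [degree_eq_sum_natRes h hdeg hD hinf, finrank_quotient_idealOf h.valCompat hv D]

/-- **`P_D` is a characteristic polynomial**: multiplication by `t` on `B ⧸ I_D` has
characteristic polynomial `∏_P (X - t(P)) ^ D(P)`. -/
theorem charpoly_mulQ_idealOf_eq_normPoly [Algebra K B] [IsScalarTower K B F] (hv : ∀ m, helper4586.HasValues (pl m))
    {D : Divisor K F} (hinf : D Pinf = 0) (t : B) :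
    haveI := finite_quotient_idealOf h.valCompat hv D
    (mulQ (K := K) (idealOf h.valCompat D) t).charpoly = normPoly (algebraMap B F t) D := by
  rw [charpoly_mulQ_idealOf h.valCompat hv D t, normPoly]
  conv_rhs => rw [eq_mapDomain_res h hinf]
  rw [Finsupp.prod_mapDomain_index_inj h.pl_injective, natRes,
    Finsupp.prod_mapRange_index (fun _ => pow_zero _)]
  rfl

/-- **Norm dictionary, geometric half**: for `ψ ≠ 0` in `B` with divisor of zeros `Z` (off
`Pinf`), multiplication by `t` on `B ⧸ (ψ)` has characteristic polynomial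
`P_Z = ∏_P (X - t(P)) ^ Z(P)`. -/
theorem charpoly_mulQ_span_singleton [Algebra K B] [IsScalarTower K B F]
    (hv : ∀ m, helper4586.HasValues (pl m)) {ψ : B} (hψ : ψ ≠ 0) {Z : Divisor K F}
    (hinf : Z Pinf = 0)
    (hZ : ∀ m : HeightOneSpectrum B, Z (pl m) = (pl m).ord (algebraMap B F ψ)) (t : B)
    [Module.Finite K (B ⧸ Ideal.span ({ψ} : Set B))] :
    (mulQ (K := K) (Ideal.span ({ψ} : Set B)) t).charpoly = normPoly (algebraMap B F t) Z := by
  have e := span_singleton_eq_idealOf h.valCompat hψ Z hZ
  have hfin := finite_quotient_idealOf h.valCompat hv Z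
  rw [charpoly_mulQ_congr e t]
  exact charpoly_mulQ_idealOf_eq_normPoly h hv hinf t

/-- `B ⧸ (ψ)` is finite-dimensional of dimension the number of zeros of `ψ` off `Pinf`. -/
theorem finite_quotient_span_singleton [Algebra K B] [IsScalarTower K B F]
    (hv : ∀ m, helper4586.HasValues (pl m)) {ψ : B} (hψ : ψ ≠ 0) {Z : Divisor K F}
    (hZ : ∀ m : HeightOneSpectrum B, Z (pl m) = (pl m).ord (algebraMap B F ψ)) :
    Module.Finite K (B ⧸ Ideal.span ({ψ} : Set B)) := by
  rw [span_singleton_eq_idealOf h.valCompat hψ Z hZ]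
  exact finite_quotient_idealOf h.valCompat hv Z

theorem finrank_quotient_span_singleton [Algebra K B] [IsScalarTower K B F]
    (hv : ∀ m, helper4586.HasValues (pl m)) (hdeg : ∀ P : Place K F, P.deg = 1) {ψ : B}
    (hψ : ψ ≠ 0) {Z : Divisor K F} (hZ0 : 0 ≤ Z) (hinf : Z Pinf = 0)
    (hZ : ∀ m : HeightOneSpectrum B, Z (pl m) = (pl m).ord (algebraMap B F ψ)) :
    (Module.finrank K (B ⧸ Ideal.span ({ψ} : Set B)) : ℤ) = Divisor.degree Z := by
  rw [finrank_quotient_congr (span_singleton_eq_idealOf h.valCompat hψ Z hZ)]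
  exact finrank_quotient_idealOf_eq_degree h hv hdeg hZ0 hinf

/-- **Riemann–Roch spaces**: `L(n • Pinf - D)` is the part of `I_D` of pole order `≤ n`. -/
theorem mem_riemannRochSpace_iff_idealOf {D : Divisor K F} (hD : 0 ≤ D) (hinf : D Pinf = 0)
    (n : ℤ) (f : F) :
    f ∈ riemannRochSpace (n • Finsupp.single Pinf (1 : ℤ) - D) ↔
      ∃ b ∈ idealOf h.valCompat D, algebraMap B F b = f ∧ (f = 0 ∨ -n ≤ Pinf.ord f) := by
  have hval : ∀ m : HeightOneSpectrum B,
      (n • Finsupp.single Pinf (1 : ℤ) - D) (pl m) = -D (pl m) := by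
    intro m
    rw [Finsupp.sub_apply, Finsupp.smul_apply, Finsupp.single_eq_of_ne (h.ne_inf m)]
    simp
  have hvalinf : (n • Finsupp.single Pinf (1 : ℤ) - D) Pinf = n := by
    rw [Finsupp.sub_apply, Finsupp.smul_apply, Finsupp.single_eq_same, hinf]
    simp
  rw [mem_riemannRochSpace_iff]
  constructor
  · intro hf
    have hreg : ∀ m : HeightOneSpectrum B, 0 ≤ (pl m).ord f := by
      intro m
      rcases hf (pl m) with rfl | h1
      · simp
      · rw [hval, neg_neg] at h1
        exact le_trans (hD (pl m)) h1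
    obtain ⟨b, rfl⟩ := (h.valCompat.mem_range_iff f).mpr hreg
    refine ⟨b, ?_, rfl, ?_⟩
    · rw [mem_idealOf_iff]
      by_cases hb : b = 0
      · exact Or.inl hb
      · refine Or.inr fun m => ?_
        rcases hf (pl m) with h0 | h1
        · exact absurd ((map_eq_zero_iff _ (IsFractionRing.injective B F)).mp h0) hb
        · rwa [hval, neg_neg] at h1
    · have := hf Pinf
      rwa [hvalinf] at this
  · rintro ⟨b, hb, rfl, hb'⟩ v
    by_cases hv : v = Pinf
    · subst hv
      rwa [hvalinf]
    · obtain ⟨m, rfl⟩ := h.surj v hv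
      rw [hval, neg_neg]
      rcases (mem_idealOf_iff h.valCompat D b).mp hb with rfl | h1
      · left; simp
      · exact Or.inr (h1 m)

/-- Elements of `B` in `L(n • Pinf - D)`. -/
theorem algebraMap_mem_riemannRochSpace_iff {D : Divisor K F} (hD : 0 ≤ D) (hinf : D Pinf = 0)
    (n : ℤ) (b : B) :
    algebraMap B F b ∈ riemannRochSpace (n • Finsupp.single Pinf (1 : ℤ) - D) ↔
      b ∈ idealOf h.valCompat D ∧ (b = 0 ∨ -n ≤ Pinf.ord (algebraMap B F b)) := by
  have hinj := IsFractionRing.injective B F
  rw [mem_riemannRochSpace_iff_idealOf h hD hinf, map_eq_zero_iff _ hinj]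
  constructor
  · rintro ⟨b', hb', hbb, hn⟩
    rw [hinj hbb] at hb'
    exact ⟨hb', hn⟩
  · rintro ⟨hb, hn⟩
    exact ⟨b, hb, rfl, hn⟩

/-- Elements of `B` in `L(n • Pinf)`: pole order at most `n`. -/
theorem algebraMap_mem_riemannRochSpace_iff' (n : ℤ) (b : B) :
    algebraMap B F b ∈ riemannRochSpace (n • Finsupp.single Pinf (1 : ℤ)) ↔
      (b = 0 ∨ -n ≤ Pinf.ord (algebraMap B F b)) := by
  have h0 := algebraMap_mem_riemannRochSpace_iff h (D := 0) le_rfl rfl n b
  rw [sub_zero] at h0
  rw [h0, and_iff_right_iff_imp]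
  intro _
  rw [mem_idealOf_iff]
  by_cases hb : b = 0
  · exact Or.inl hb
  · exact Or.inr fun m => by simpa using h.valCompat.ord_nonneg m b

/-- Every element of `L(n • Pinf - D)` (`D` effective off `Pinf`) lies in `B`. -/
theorem riemannRochSpace_le_range {D : Divisor K F} (hD : 0 ≤ D) (hinf : D Pinf = 0) (n : ℤ)
    {f : F} (hf : f ∈ riemannRochSpace (n • Finsupp.single Pinf (1 : ℤ) - D)) :
    ∃ b : B, algebraMap B F b = f := by
  obtain ⟨b, -, hb, -⟩ := (mem_riemannRochSpace_iff_idealOf h hD hinf n f).mp hf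
  exact ⟨b, hb⟩

variable [Algebra K B] [IsScalarTower K B F]

/-- **Surjectivity of `L(n • Pinf) → B ⧸ I_D`** from the dimension count
`l(n • Pinf) = l(n • Pinf - D) + deg D` (Riemann's theorem for `n` large). -/
theorem exists_sub_mem_idealOf (hv : ∀ m, helper4586.HasValues (pl m))
    (hdeg : ∀ P : Place K F, P.deg = 1) {D : Divisor K F} (hD : 0 ≤ D) (hinf : D Pinf = 0)
    (n : ℤ) (hfin : Module.Finite K ↥(riemannRochSpace (n • Finsupp.single Pinf (1 : ℤ))))
    (hdim : (Module.finrank K ↥(riemannRochSpace (n • Finsupp.single Pinf (1 : ℤ))) : ℤ)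
      = Module.finrank K ↥(riemannRochSpace (n • Finsupp.single Pinf (1 : ℤ) - D))
        + Divisor.degree D)
    (b : B) :
    ∃ a : B, algebraMap B F a ∈ riemannRochSpace (n • Finsupp.single Pinf (1 : ℤ)) ∧
      b - a ∈ idealOf h.valCompat D := by
  classical
  let ι : B →ₗ[K] F := (IsScalarTower.toAlgHom K B F).toLinearMap
  have hinj : Function.Injective ι := IsFractionRing.injective B F
  have hLr : riemannRochSpace (n • Finsupp.single Pinf (1 : ℤ)) ≤ LinearMap.range ι := by
    intro f hf
    have hf' : f ∈ riemannRochSpace (n • Finsupp.single Pinf (1 : ℤ) - (0 : Divisor K F)) := by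
      rwa [sub_zero]
    obtain ⟨x, hx⟩ := riemannRochSpace_le_range h le_rfl rfl n hf'
    exact ⟨x, hx⟩
  have hL'r : riemannRochSpace (n • Finsupp.single Pinf (1 : ℤ) - D) ≤ LinearMap.range ι := by
    intro f hf
    obtain ⟨x, hx⟩ := riemannRochSpace_le_range h hD hinf n hf
    exact ⟨x, hx⟩
  -- the two spaces inside `B`
  let A : Submodule K B := (riemannRochSpace (n • Finsupp.single Pinf (1 : ℤ))).comap ι
  let A' : Submodule K B := (riemannRochSpace (n • Finsupp.single Pinf (1 : ℤ) - D)).comap ι
  have memA : ∀ x : B, x ∈ A ↔ (x = 0 ∨ -n ≤ Pinf.ord (algebraMap B F x)) :=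
    fun x => algebraMap_mem_riemannRochSpace_iff' h n x
  have memA' : ∀ x : B, x ∈ A' ↔
      x ∈ idealOf h.valCompat D ∧ (x = 0 ∨ -n ≤ Pinf.ord (algebraMap B F x)) :=
    fun x => algebraMap_mem_riemannRochSpace_iff h hD hinf n x
  have eA : A ≃ₗ[K] ↥(riemannRochSpace (n • Finsupp.single Pinf (1 : ℤ))) :=
    (Submodule.equivMapOfInjective ι hinj A).trans
      (LinearEquiv.ofEq _ _ (Submodule.map_comap_eq_of_le hLr))
  have eA' : A' ≃ₗ[K] ↥(riemannRochSpace (n • Finsupp.single Pinf (1 : ℤ) - D)) :=
    (Submodule.equivMapOfInjective ι hinj A').trans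
      (LinearEquiv.ofEq _ _ (Submodule.map_comap_eq_of_le hL'r))
  have hfinA : Module.Finite K A := Module.Finite.equiv eA.symm
  have hA'A : A' ≤ A := fun x hx => (memA x).mpr ((memA' x).mp hx).2
  -- the map to the quotient
  have hfinQ := finite_quotient_idealOf h.valCompat hv D
  let φ : A →ₗ[K] (B ⧸ idealOf h.valCompat D) :=
    (Ideal.Quotient.mkₐ K (idealOf h.valCompat D)).toLinearMap ∘ₗ A.subtype
  have hφ : ∀ x : A, φ x = Ideal.Quotient.mk (idealOf h.valCompat D) (x : B) := fun _ => rfl
  have hker : LinearMap.ker φ = A'.comap A.subtype := by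
    ext x
    rw [LinearMap.mem_ker, hφ, Ideal.Quotient.eq_zero_iff_mem, Submodule.mem_comap,
      Submodule.subtype_apply, memA']
    exact ⟨fun h1 => ⟨h1, (memA x).mp x.2⟩, fun h1 => h1.1⟩
  have hrank := LinearMap.finrank_range_add_finrank_ker φ
  rw [hker, (Submodule.comapSubtypeEquivOfLe hA'A).finrank_eq, eA'.finrank_eq, eA.finrank_eq]
    at hrank
  have hq := finrank_quotient_idealOf_eq_degree h hv hdeg hD hinf
  have htop : LinearMap.range φ = ⊤ := by
    apply Submodule.eq_top_of_finrank_eq
    have h4 : (Module.finrank K (LinearMap.range φ) : ℤ)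
        = Module.finrank K (B ⧸ idealOf h.valCompat D) := by
      rw [hq]
      have h3 : (Module.finrank K (LinearMap.range φ) : ℤ)
          + Module.finrank K ↥(riemannRochSpace (n • Finsupp.single Pinf (1 : ℤ) - D))
          = Module.finrank K ↥(riemannRochSpace (n • Finsupp.single Pinf (1 : ℤ))) := by
        exact_mod_cast hrank
      linarith
    exact_mod_cast h4
  obtain ⟨a, ha⟩ : Ideal.Quotient.mk (idealOf h.valCompat D) b ∈ LinearMap.range φ := by
    rw [htop]; trivial
  refine ⟨(a : B), a.2, ?_⟩
  rw [hφ] at ha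
  exact Ideal.Quotient.eq.mp ha.symm

end OnePoint

end

end Fermat.Agent.S17.helper1643
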