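import Fermat.Agent.S17.helper3723_AffRing
import Fermat.Agent.S17.helper1643_AffIdeal

/-!
# S17-AFF: ideals of effective divisors in the affine ring at a base place (helper1643)

Instance of `helper1643_AffIdeal` on `helper3723.affRing P0` in the S27 setting
(`K` algebraically closed of characteristic zero, `F` finite over `K(x)`), with every
hypothesis discharged.

* `affIdeal P0 D` : the ideal `{a | a = 0 ∨ ∀ P ≠ P0, D P ≤ ord_P a}` of `affRing P0`;
* `affIdeal_add`, `span_singleton_eq_affIdeal`;
* `finrank_quotient_affIdeal` : `dim_K affRing P0 ⧸ I_D = deg D`;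
* `charpoly_mulQ_affIdeal` : `charpoly (t on affRing P0 ⧸ I_D) = normPoly t D = ∏ (X - t(P))^D(P)`;
* `charpoly_mulQ_span_singleton_aff` : the same for `affRing P0 ⧸ (ψ)` and the zeros of `ψ`;
* `exists_sub_mem_affIdeal` : `L(n • P0) → affRing P0 ⧸ I_D` is onto for `n - deg D` large.
-/

set_option autoImplicit false
set_option linter.style.haveILetI false

open AlgebraicCurve IsDedekindDomain IntermediateField Polynomial

namespace Fermat.Agent.S17.helper1643

open Fermat.Agent.S27 Fermat.Agent.S17.helper3723

noncomputable section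

universe u v

section Defs

variable {K : Type u} {F : Type v} [Field K] [Field F] [Algebra K F]

/-- The ultrametric inequality for `ord` (no hypothesis on `K`). -/
theorem min_ord_le_ord_add' (v : Place K F) {f g : F} (hf : f ≠ 0) (hg : g ≠ 0)
    (hfg : f + g ≠ 0) : min (v.ord f) (v.ord g) ≤ v.ord (f + g) := by
  have h := Valuation.map_add v.adicValuation f g
  rw [v.adicValuation_eq_exp_neg_ord hf, v.adicValuation_eq_exp_neg_ord hg,
    v.adicValuation_eq_exp_neg_ord hfg] at h
  rcases le_max_iff.mp h with h1 | h1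
  · rw [WithZero.exp_le_exp] at h1
    exact (min_le_left _ _).trans (by omega)
  · rw [WithZero.exp_le_exp] at h1
    exact (min_le_right _ _).trans (by omega)

/-- The ideal of functions in the affine ring vanishing to order `D` away from `P0`. -/
def affIdeal (P0 : Place K F) (D : Divisor K F) : Ideal (affRing P0) where
  carrier := {a | (a : F) = 0 ∨ ∀ P : Place K F, P ≠ P0 → D P ≤ P.ord (a : F)}
  zero_mem' := Or.inl rfl
  add_mem' := by
    intro a b ha hb
    by_cases h0 : ((a + b : affRing P0) : F) = 0
    · exact Or.inl h0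
    by_cases ha0 : (a : F) = 0
    · have hab : ((a + b : affRing P0) : F) = (b : F) := by
        rw [Subalgebra.coe_add, ha0, zero_add]
      rcases hb with hb | hb
      · exact absurd (hab.trans hb) h0
      · exact Or.inr fun P hP => by rw [hab]; exact hb P hP
    by_cases hb0 : (b : F) = 0
    · have hab : ((a + b : affRing P0) : F) = (a : F) := by
        rw [Subalgebra.coe_add, hb0, add_zero]
      rcases ha with ha | ha
      · exact absurd ha ha0
      · exact Or.inr fun P hP => by rw [hab]; exact ha P hP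
    rcases ha with ha | ha
    · exact absurd ha ha0
    rcases hb with hb | hb
    · exact absurd hb hb0
    refine Or.inr fun P hP => ?_
    rw [Subalgebra.coe_add] at h0 ⊢
    exact le_trans (le_min (ha P hP) (hb P hP)) (min_ord_le_ord_add' P ha0 hb0 h0)
  smul_mem' := by
    intro c a ha
    by_cases h0 : ((c • a : affRing P0) : F) = 0
    · exact Or.inl h0
    have hca : ((c • a : affRing P0) : F) = (c : F) * (a : F) := rfl
    rw [hca] at h0
    have hc0 : (c : F) ≠ 0 := left_ne_zero_of_mul h0
    have ha0 : (a : F) ≠ 0 := right_ne_zero_of_mul h0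
    rcases ha with ha | ha
    · exact absurd ha ha0
    refine Or.inr fun P hP => ?_
    rw [hca, P.ord_mul hc0 ha0]
    have hc : 0 ≤ P.ord (c : F) := (mem_affRing_iff_ord.mp c.2) P hP
    have := ha P hP
    omega

theorem mem_affIdeal_iff {P0 : Place K F} {D : Divisor K F} {a : affRing P0} :
    a ∈ affIdeal P0 D ↔ (a : F) = 0 ∨ ∀ P : Place K F, P ≠ P0 → D P ≤ P.ord (a : F) :=
  Iff.rfl

/-- Evaluation at a place `P ≠ P0` as a `K`-point of the affine ring. -/
def affPoint {P0 P : Place K F} (hP : P ≠ P0) (hv : helper4586.HasValues P) :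
    affRing P0 →ₐ[K] K :=
  (helper4586.evHom hv).comp
    { toRingHom := toValRing hP
      commutes' := fun _ => rfl }

@[simp]
theorem affPoint_apply {P0 P : Place K F} (hP : P ≠ P0) (hv : helper4586.HasValues P)
    (a : affRing P0) : affPoint hP hv a = helper6247.ev P (a : F) := rfl

theorem degree_nonneg_of_nonneg {D : Divisor K F} (hD : 0 ≤ D) : 0 ≤ Divisor.degree D := by
  have h : Divisor.degree D = D.sum fun v n => n * (v.deg : ℤ) := by
    simp [Divisor.degree, Finsupp.liftAddHom_apply]
  rw [h]
  exact Finsupp.sum_nonneg fun v _ => mul_nonneg (hD v) (Int.natCast_nonneg _)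

end Defs

section Main

variable {K : Type u} {F : Type v} [Field K] [Field F] [Algebra K F] [IsAlgClosed K] [CharZero K]
variable (x : F) (hx : Transcendental K x) [FiniteDimensional K⟮x⟯ F] (P0 : Place K F)

/-- The one-point dictionary for the affine ring, with its instances supplied. -/
theorem affOnePoint :
    letI := isDedekindDomain_affRing x hx P0
    letI := isFractionRing_affRing x hx P0
    helper751.OnePoint (affRing P0) P0
      (fun w => Place.ofHeightOneSpectrum (K := K) (F := F) w) :=
  letI := isDedekindDomain_affRing x hx P0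
  letI := isFractionRing_affRing x hx P0
  onePoint_affRing P0 (exists_pole x hx P0)

/-- `affIdeal` is the ideal `idealOf` of the abstract dictionary. -/
theorem affIdeal_eq_idealOf (D : Divisor K F) :
    letI := isDedekindDomain_affRing x hx P0
    letI := isFractionRing_affRing x hx P0
    affIdeal P0 D = idealOf (affOnePoint x hx P0).valCompat D := by
  letI := isDedekindDomain_affRing x hx P0
  letI := isFractionRing_affRing x hx P0
  have h := affOnePoint x hx P0
  ext a
  rw [mem_affIdeal_iff, mem_idealOf_iff]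
  have ha0 : (a : F) = 0 ↔ a = 0 := by
    constructor
    · intro h0
      exact Subtype.ext h0
    · rintro rfl
      rfl
  rw [ha0]
  refine or_congr Iff.rfl ⟨fun hall m => hall _ (h.ne_inf m), fun hall P hP => ?_⟩
  obtain ⟨m, rfl⟩ := h.surj P hP
  exact hall m

include hx in
/-- `I_{D+E} = I_D * I_E` for effective divisors. -/
theorem affIdeal_add {D E : Divisor K F} (hD : 0 ≤ D) (hE : 0 ≤ E) :
    affIdeal P0 (D + E) = affIdeal P0 D * affIdeal P0 E := by
  letI := isDedekindDomain_affRing x hx P0
  letI := isFractionRing_affRing x hx P0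
  rw [affIdeal_eq_idealOf x hx P0, affIdeal_eq_idealOf x hx P0, affIdeal_eq_idealOf x hx P0]
  exact idealOf_add _ hD hE

include hx in
/-- The ideal of the zeros (off `P0`) of `ψ` is `(ψ)`. -/
theorem span_singleton_eq_affIdeal {ψ : affRing P0} (hψ : ψ ≠ 0) (Z : Divisor K F)
    (hZ : ∀ P : Place K F, P ≠ P0 → Z P = P.ord (ψ : F)) :
    Ideal.span ({ψ} : Set (affRing P0)) = affIdeal P0 Z := by
  letI := isDedekindDomain_affRing x hx P0
  letI := isFractionRing_affRing x hx P0
  have h := affOnePoint x hx P0
  rw [affIdeal_eq_idealOf x hx P0]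
  exact span_singleton_eq_idealOf h.valCompat hψ Z fun m => hZ _ (h.ne_inf m)

include hx in
/-- `affRing P0 ⧸ I_D` is finite-dimensional. -/
theorem finite_quotient_affIdeal (D : Divisor K F) :
    Module.Finite K (affRing P0 ⧸ affIdeal P0 D) := by
  letI := isDedekindDomain_affRing x hx P0
  letI := isFractionRing_affRing x hx P0
  rw [affIdeal_eq_idealOf x hx P0]
  exact finite_quotient_idealOf _ (fun m => helper4586.hasValues_of_finite x _) D

include hx in
/-- **Colength = degree** in the affine ring. -/
theorem finrank_quotient_affIdeal {D : Divisor K F} (hD : 0 ≤ D) (hinf : D P0 = 0) :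
    (Module.finrank K (affRing P0 ⧸ affIdeal P0 D) : ℤ) = Divisor.degree D := by
  letI := isDedekindDomain_affRing x hx P0
  letI := isFractionRing_affRing x hx P0
  rw [finrank_quotient_congr (affIdeal_eq_idealOf x hx P0 D)]
  exact finrank_quotient_idealOf_eq_degree (affOnePoint x hx P0)
    (fun m => helper4586.hasValues_of_finite x _)
    (fun P => Fermat.Agent.S24.helper204.place_deg_eq_one x hx P) hD hinf

include hx in
/-- **(PD)** Multiplication by `t` on `affRing P0 ⧸ I_D` has characteristic polynomial
`normPoly t D = ∏_P (X - t(P)) ^ D(P)`. -/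
theorem charpoly_mulQ_affIdeal {D : Divisor K F} (hinf : D P0 = 0) (t : affRing P0) :
    haveI := finite_quotient_affIdeal x hx P0 D
    (mulQ (K := K) (affIdeal P0 D) t).charpoly = normPoly (t : F) D := by
  letI := isDedekindDomain_affRing x hx P0
  letI := isFractionRing_affRing x hx P0
  have hf1 := finite_quotient_affIdeal x hx P0 D
  have hf2 := finite_quotient_idealOf (affOnePoint x hx P0).valCompat
    (fun m => helper4586.hasValues_of_finite x _) D
  rw [charpoly_mulQ_congr (affIdeal_eq_idealOf x hx P0 D) t]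
  exact charpoly_mulQ_idealOf_eq_normPoly (affOnePoint x hx P0)
    (fun m => helper4586.hasValues_of_finite x _) hinf t

include hx in
/-- `affRing P0 ⧸ (ψ)` is finite-dimensional for `ψ ≠ 0`. -/
theorem finite_quotient_span_singleton_aff {ψ : affRing P0} (hψ : ψ ≠ 0) :
    Module.Finite K (affRing P0 ⧸ Ideal.span ({ψ} : Set (affRing P0))) := by
  obtain ⟨Z, hZ, -⟩ := (Fermat.Agent.S24.helper204.hasPrincipalDivisors x hx).exists_divisor
    (ψ : F) (fun h0 => hψ (Subtype.ext h0))
  let Z' : Divisor K F := Z - Finsupp.single P0 (Z P0)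
  have hZ' : ∀ P : Place K F, P ≠ P0 → Z' P = P.ord (ψ : F) := by
    intro P hP
    simp only [Z', Finsupp.sub_apply, Finsupp.single_eq_of_ne hP, sub_zero, hZ P]
  rw [span_singleton_eq_affIdeal x hx P0 hψ Z' hZ']
  exact finite_quotient_affIdeal x hx P0 Z'

include hx in
/-- **Norm dictionary, geometric half, in the affine ring**: for `ψ ≠ 0` and `Z` its divisor of
zeros off `P0`, multiplication by `t` on `affRing P0 ⧸ (ψ)` has characteristic polynomial
`normPoly t Z`. -/
theorem charpoly_mulQ_span_singleton_aff {ψ : affRing P0} (hψ : ψ ≠ 0) {Z : Divisor K F}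
    (hinf : Z P0 = 0) (hZ : ∀ P : Place K F, P ≠ P0 → Z P = P.ord (ψ : F)) (t : affRing P0) :
    haveI := finite_quotient_span_singleton_aff x hx P0 hψ
    (mulQ (K := K) (Ideal.span ({ψ} : Set (affRing P0))) t).charpoly = normPoly (t : F) Z := by
  have hf1 := finite_quotient_span_singleton_aff x hx P0 hψ
  have hf2 := finite_quotient_affIdeal x hx P0 Z
  rw [charpoly_mulQ_congr (span_singleton_eq_affIdeal x hx P0 hψ Z hZ) t]
  exact charpoly_mulQ_affIdeal x hx P0 hinf t

include hx in
/-- `L(n • P0 - D)` is the part of `I_D` of pole order at most `n`. -/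
theorem mem_riemannRochSpace_iff_affIdeal {D : Divisor K F} (hD : 0 ≤ D) (hinf : D P0 = 0)
    (n : ℤ) (f : F) :
    f ∈ riemannRochSpace (n • Finsupp.single P0 (1 : ℤ) - D) ↔
      ∃ a ∈ affIdeal P0 D, (a : F) = f ∧ (f = 0 ∨ -n ≤ P0.ord f) := by
  letI := isDedekindDomain_affRing x hx P0
  letI := isFractionRing_affRing x hx P0
  rw [affIdeal_eq_idealOf x hx P0]
  exact mem_riemannRochSpace_iff_idealOf (affOnePoint x hx P0) hD hinf n f

include hx in
/-- **Surjectivity of `L(n • P0) → affRing P0 ⧸ I_D`** for `n - deg D` beyond the Riemann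
constant (any effective `D` off `P0`, multiplicities allowed). -/
theorem exists_sub_mem_affIdeal :
    ∃ c : ℤ, ∀ D : Divisor K F, 0 ≤ D → D P0 = 0 → ∀ n : ℤ, c ≤ n - Divisor.degree D →
      ∀ a : affRing P0, ∃ b : affRing P0,
        (b : F) ∈ riemannRochSpace (n • Finsupp.single P0 (1 : ℤ)) ∧ a - b ∈ affIdeal P0 D := by
  letI := isDedekindDomain_affRing x hx P0
  letI := isFractionRing_affRing x hx P0
  obtain ⟨hfin, hrr, c, hc⟩ := riemann K F x hx
  have hdeg : ∀ P : Place K F, P.deg = 1 :=
    fun P => Fermat.Agent.S24.helper204.place_deg_eq_one x hx P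
  have hl : ∀ E : Divisor K F, c ≤ Divisor.degree E →
      (Module.finrank K (riemannRochSpace E) : ℤ) = Divisor.degree E + 1 - genusFF K F := by
    intro E hE
    have hsub : Subsingleton (H1 E) := Submodule.Quotient.subsingleton_iff.mpr (hc E hE)
    have h0 : Module.finrank K (H1 E) = 0 := Module.finrank_zero_of_subsingleton
    have h := hrr E
    rw [h0] at h
    simpa using h
  refine ⟨c, fun D hD hinf n hn a => ?_⟩
  have hdegn : Divisor.degree (n • Finsupp.single P0 (1 : ℤ) : Divisor K F) = n := by
    rw [map_zsmul, Divisor.degree_single, hdeg P0]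
    simp
  have hD0 := degree_nonneg_of_nonneg hD
  have h1 := hl (n • Finsupp.single P0 (1 : ℤ)) (by rw [hdegn]; omega)
  have h2 := hl (n • Finsupp.single P0 (1 : ℤ) - D) (by rw [map_sub, hdegn]; exact hn)
  rw [hdegn] at h1
  rw [map_sub, hdegn] at h2
  obtain ⟨b, hb, hab⟩ := exists_sub_mem_idealOf (affOnePoint x hx P0)
    (fun m => helper4586.hasValues_of_finite x _) hdeg hD hinf n
    (hfin _).2 (by rw [h1, h2]; ring) a
  refine ⟨b, hb, ?_⟩
  rw [affIdeal_eq_idealOf x hx P0]
  exact hab

/-! ### Points -/

omit [IsAlgClosed K] [CharZero K] in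
/-- The kernel of evaluation at `P` is the ideal of `P`. -/
theorem ker_affPoint {P : Place K F} (hP : P ≠ P0) (hv : helper4586.HasValues P) :
    RingHom.ker (affPoint hP hv) = ptIdeal hP := by
  ext a
  have h0 : 0 ≤ P.ord (a : F) := (mem_affRing_iff_ord.mp a.2) P hP
  rw [RingHom.mem_ker, affPoint_apply, helper4586.ev_eq_zero_iff hv h0, mem_ptIdeal]

omit [IsAlgClosed K] [CharZero K] in
theorem affIdeal_zero : affIdeal P0 (0 : Divisor K F) = ⊤ := by
  rw [eq_top_iff]
  intro a _
  exact Or.inr fun P hP => (mem_affRing_iff_ord.mp a.2) P hP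

omit [IsAlgClosed K] [CharZero K] in
/-- The ideal of a point divisor. -/
theorem affIdeal_single {P : Place K F} (hP : P ≠ P0) :
    affIdeal P0 (Finsupp.single P (1 : ℤ)) = ptIdeal hP := by
  ext a
  rw [mem_affIdeal_iff, mem_ptIdeal]
  refine or_congr Iff.rfl ⟨fun h => ?_, fun h Q hQ => ?_⟩
  · have := h P hP
    rw [Finsupp.single_eq_same] at this
    omega
  · by_cases hQP : Q = P
    · subst hQP
      rw [Finsupp.single_eq_same]
      omega
    · rw [Finsupp.single_eq_of_ne hQP]
      exact (mem_affRing_iff_ord.mp a.2) Q hQ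

include hx in
/-- Every `K`-point of the affine ring is evaluation at a unique place `≠ P0` (AF6). -/
theorem exists_affPoint_eq (χ : affRing P0 →ₐ[K] K) :
    ∃ (P : Place K F) (hP : P ≠ P0), affPoint hP (helper4586.hasValues_of_finite x P) = χ := by
  letI := isDedekindDomain_affRing x hx P0
  letI := isFractionRing_affRing x hx P0
  have h := affOnePoint x hx P0
  have hχ : RingHom.ker χ ≠ ⊥ := by
    intro hbot
    obtain ⟨t, ht, htr⟩ := exists_coord x hx P0
    have h1 := sub_algebraMap_mem_ker χ (⟨t, ht⟩ : affRing P0)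
    rw [hbot, Ideal.mem_bot, sub_eq_zero] at h1
    have h2 : t = algebraMap K F (χ ⟨t, ht⟩) := congrArg Subtype.val h1
    exact htr (h2 ▸ isAlgebraic_algebraMap _)
  obtain ⟨m, hm⟩ := exists_pointOf_eq h.valCompat
    (fun m => helper4586.hasValues_of_finite x _) χ hχ
  refine ⟨_, h.ne_inf m, ?_⟩
  rw [← hm]
  rfl

include hx in
/-- The product of the ideals of a family of points is the ideal of their sum. -/
theorem prod_ker_affPoint {ι : Type*} (s : Finset ι) (P : ι → Place K F)
    (hP : ∀ i, P i ≠ P0) :
    ∏ i ∈ s, RingHom.ker (affPoint (hP i) (helper4586.hasValues_of_finite x (P i)))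
      = affIdeal P0 (∑ i ∈ s, Finsupp.single (P i) (1 : ℤ)) := by
  classical
  induction s using Finset.induction_on with
  | empty => rw [Finset.prod_empty, Finset.sum_empty, affIdeal_zero, Ideal.one_eq_top]
  | insert i s hi ih =>
    rw [Finset.prod_insert hi, Finset.sum_insert hi, ih,
      affIdeal_add x hx P0 (Finsupp.single_nonneg.mpr zero_le_one)
        (Finset.sum_nonneg fun j _ => Finsupp.single_nonneg.mpr zero_le_one),
      ker_affPoint, affIdeal_single]

include hx in
/-- **(B-SPAN) for the affine ring**: for `m - n` beyond the Riemann constant, `L(m • P0)` maps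
onto `affRing P0 ⧸ ∏ i, ker (χ i)` for EVERY `n`-tuple of `K`-points (repetitions allowed). -/
theorem exists_sub_mem_prod_ker :
    ∃ c : ℤ, ∀ (n : ℕ) (χ : Fin n → (affRing P0 →ₐ[K] K)) (m : ℤ), c ≤ m - n →
      ∀ a : affRing P0, ∃ b : affRing P0,
        (b : F) ∈ riemannRochSpace (m • Finsupp.single P0 (1 : ℤ)) ∧
          a - b ∈ ∏ i, RingHom.ker (χ i) := by
  obtain ⟨c, hc⟩ := exists_sub_mem_affIdeal x hx P0
  refine ⟨c, fun n χ m hm a => ?_⟩
  choose P hP hPχ using fun i => exists_affPoint_eq x hx P0 (χ i)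
  have hD : (0 : Divisor K F) ≤ ∑ i, Finsupp.single (P i) (1 : ℤ) :=
    Finset.sum_nonneg fun j _ => Finsupp.single_nonneg.mpr zero_le_one
  have hinf : (∑ i, Finsupp.single (P i) (1 : ℤ) : Divisor K F) P0 = 0 := by
    rw [Finsupp.finsetSum_apply]
    exact Finset.sum_eq_zero fun i _ => Finsupp.single_eq_of_ne (hP i).symm
  have hdeg : Divisor.degree (∑ i, Finsupp.single (P i) (1 : ℤ) : Divisor K F) = n := by
    rw [map_sum]
    simp [Divisor.degree_single, Fermat.Agent.S24.helper204.place_deg_eq_one x hx]
  obtain ⟨b, hb, hab⟩ := hc _ hD hinf m (by rw [hdeg]; exact hm) a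
  refine ⟨b, hb, ?_⟩
  have hprod := prod_ker_affPoint x hx P0 Finset.univ P hP
  simp only [hPχ] at hprod
  rw [hprod]
  exact hab

end Main

end

end Fermat.Agent.S17.helper1643
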