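import Mathlib

/-!
# Norm dictionary (algebra half), Pluecker track of S17

`F` a field, `S` a domain that is finite free over `F[X]` (via `t := algebraMap F[X] S X`).
For `ψ ≠ 0` in `S`, the characteristic polynomial of multiplication by `t` on the
finite-dimensional `F`-space `S ⧸ (ψ)` is the monic normalisation of `Algebra.norm F[X] ψ`.
-/

set_option linter.style.haveILetI false

namespace Fermat.Agent.S17.helper2681

open Polynomial

section PiCharpoly

universe u v

/-- Characteristic polynomial of a componentwise endomorphism of a finite product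
(`Fin n`-indexed). -/
theorem charpoly_pi_fin (R : Type u) [CommRing R] :
    ∀ (n : ℕ) (M : Fin n → Type v) [∀ i, AddCommGroup (M i)] [∀ i, Module R (M i)]
      [∀ i, Module.Free R (M i)] [∀ i, Module.Finite R (M i)]
      (f : ∀ i, M i →ₗ[R] M i),
      (LinearMap.pi fun i => f i ∘ₗ LinearMap.proj i : (∀ i, M i) →ₗ[R] (∀ i, M i)).charpoly =
        ∏ i, (f i).charpoly := by
  intro n
  nontriviality R
  induction n with
  | zero =>
    intro M _ _ _ _ f
    simp only [Finset.univ_eq_empty, Finset.prod_empty]
    have h1 := LinearMap.charpoly_monic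
      (LinearMap.pi fun i => f i ∘ₗ LinearMap.proj i : (∀ i, M i) →ₗ[R] (∀ i, M i))
    have h2 := LinearMap.charpoly_natDegree
      (LinearMap.pi fun i => f i ∘ₗ LinearMap.proj i : (∀ i, M i) →ₗ[R] (∀ i, M i))
    have h3 : Module.finrank R (∀ i : Fin 0, M i) = 0 := Module.finrank_zero_of_subsingleton
    rw [h3] at h2
    exact h1.natDegree_eq_zero.mp h2
  | succ n ih =>
    intro M _ _ _ _ f
    let e := Fin.consLinearEquiv R M
    have key : e.conj ((f 0).prodMap
        (LinearMap.pi fun i : Fin n => f i.succ ∘ₗ LinearMap.proj i)) =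
        (LinearMap.pi fun i => f i ∘ₗ LinearMap.proj i : (∀ i, M i) →ₗ[R] (∀ i, M i)) := by
      apply LinearMap.ext
      intro x
      funext i
      refine Fin.cases ?_ (fun j => ?_) i
      · simp [e, LinearEquiv.conj_apply, Fin.consLinearEquiv]
      · simp [e, LinearEquiv.conj_apply, Fin.consLinearEquiv, Fin.tail_def]
    rw [← key, LinearEquiv.charpoly_conj, LinearMap.charpoly_prodMap, ih, Fin.prod_univ_succ]

end PiCharpoly

section MulX

variable (F : Type*) [Field F]

/-- Multiplication by `X` as an `F`-linear endomorphism of an `F[X]`-module. -/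
noncomputable def mulX (M : Type*) [AddCommGroup M] [Module F[X] M] [Module F M]
    [IsScalarTower F F[X] M] : M →ₗ[F] M :=
  (LinearMap.lsmul F[X] M X).restrictScalars F

@[simp]
theorem mulX_apply (M : Type*) [AddCommGroup M] [Module F[X] M] [Module F M]
    [IsScalarTower F F[X] M] (x : M) : mulX F M x = (X : F[X]) • x := rfl

/-- An `F[X]`-linear equivalence intertwines the two multiplications by `X`. -/
theorem conj_mulX {M M' : Type*} [AddCommGroup M] [Module F[X] M] [Module F M]
    [IsScalarTower F F[X] M] [AddCommGroup M'] [Module F[X] M'] [Module F M']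
    [IsScalarTower F F[X] M'] (e : M ≃ₗ[F[X]] M') :
    (e.restrictScalars F).conj (mulX F M) = mulX F M' := by
  apply LinearMap.ext
  intro y
  simp [LinearEquiv.conj_apply]

/-- Multiplication by `X` on a product is componentwise. -/
theorem mulX_pi {ι : Type*} (M : ι → Type*) [∀ i, AddCommGroup (M i)] [∀ i, Module F[X] (M i)]
    [∀ i, Module F (M i)] [∀ i, IsScalarTower F F[X] (M i)] :
    mulX F (∀ i, M i) = LinearMap.pi fun i => mulX F (M i) ∘ₗ LinearMap.proj i := by
  apply LinearMap.ext
  intro y
  funext i
  simp

/-- Multiplication by `X` on a quotient ring of an `F[X]`-algebra is multiplication by the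
class of `t = algebraMap F[X] S X`. -/
theorem mulX_quotient {S : Type*} [CommRing S] [Algebra F[X] S] [Algebra F S]
    [IsScalarTower F F[X] S] (I : Ideal S) :
    mulX F (S ⧸ I) = LinearMap.mulLeft F (Ideal.Quotient.mk I (algebraMap F[X] S X)) := by
  apply LinearMap.ext
  intro x
  obtain ⟨y, rfl⟩ := Ideal.Quotient.mk_surjective x
  rw [mulX_apply, LinearMap.mulLeft_apply, ← map_mul, ← Algebra.smul_def]
  rfl

/-- The characteristic polynomial of multiplication by `X` on `F[X] ⧸ (a)`, `a ≠ 0`, is the
monic normalisation of `a`. -/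
theorem charpoly_mulX_quotient_span {a : F[X]} (ha : a ≠ 0)
    [Module.Finite F (F[X] ⧸ Ideal.span ({a} : Set F[X]))] :
    (mulX F (F[X] ⧸ Ideal.span ({a} : Set F[X]))).charpoly = a * C a.leadingCoeff⁻¹ := by
  classical
  let pb : PowerBasis F (F[X] ⧸ Ideal.span ({a} : Set F[X])) := AdjoinRoot.powerBasis ha
  have h1 := charpoly_leftMulMatrix pb
  rw [Algebra.leftMulMatrix_apply, LinearMap.charpoly_toMatrix] at h1
  have h2 : minpoly F pb.gen = a * C a.leadingCoeff⁻¹ := AdjoinRoot.minpoly_root ha
  have h3 : Algebra.lmul F (F[X] ⧸ Ideal.span ({a} : Set F[X])) pb.gen =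
      mulX F (F[X] ⧸ Ideal.span ({a} : Set F[X])) := by
    apply LinearMap.ext
    intro x
    obtain ⟨y, rfl⟩ := Ideal.Quotient.mk_surjective x
    rfl
  rw [← h3, h1, h2]

end MulX

section Main

open Ideal Module

variable {F S ι : Type*} [Field F] [CommRing S] [IsDomain S] [Algebra F[X] S] [Algebra F S]
  [IsScalarTower F F[X] S] [Finite ι]

/-- `S ⧸ (ψ)` is finite-dimensional over `F` for `ψ ≠ 0`, when `S` is finite free over `F[X]`. -/
theorem finite_quotient_span_singleton (b : Basis ι F[X] S) {ψ : S} (hψ : ψ ≠ 0) :
    Module.Finite F (S ⧸ Ideal.span ({ψ} : Set S)) := by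
  have hI := span_singleton_eq_bot.not.2 hψ
  exact Module.Finite.equiv
    ((Ideal.quotientEquivPiSpan (span {ψ}) b hI).restrictScalars F).symm

/-- **Norm dictionary, algebra half.** The characteristic polynomial of multiplication by
`t = algebraMap F[X] S X` on the `F`-space `S ⧸ (ψ)` is the monic normalisation of the norm
`Algebra.norm F[X] ψ`. -/
theorem charpoly_mulLeft_quotient_span_singleton (b : Basis ι F[X] S) {ψ : S} (hψ : ψ ≠ 0)
    [Module.Finite F (S ⧸ Ideal.span ({ψ} : Set S))] :
    (LinearMap.mulLeft F (Ideal.Quotient.mk (Ideal.span ({ψ} : Set S))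
      (algebraMap F[X] S X))).charpoly =
      Algebra.norm F[X] ψ * C (Algebra.norm F[X] ψ).leadingCoeff⁻¹ := by
  classical
  have := Fintype.ofFinite ι
  let b' : Basis (Fin (Fintype.card ι)) F[X] S := b.reindex (Fintype.equivFin ι)
  have hI := span_singleton_eq_bot.not.2 hψ
  let e := Ideal.quotientEquivPiSpan (span {ψ}) b' hI
  have h1 : (mulX F (S ⧸ span ({ψ} : Set S))).charpoly =
      (mulX F (∀ i, F[X] ⧸ span ({smithCoeffs b' _ hI i} : Set F[X]))).charpoly := by
    rw [← conj_mulX F e, LinearEquiv.charpoly_conj]
  rw [← mulX_quotient, h1, mulX_pi, charpoly_pi_fin]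
  have h2 : ∀ i, (mulX F (F[X] ⧸ span ({smithCoeffs b' _ hI i} : Set F[X]))).charpoly =
      smithCoeffs b' _ hI i * C (smithCoeffs b' _ hI i).leadingCoeff⁻¹ := fun i =>
    charpoly_mulX_quotient_span F (smithCoeffs_ne_zero b' _ hI i)
  simp_rw [h2]
  have hN : Algebra.norm F[X] ψ ≠ 0 := by
    rw [Ne, Algebra.norm_eq_zero_iff_of_basis b]
    exact hψ
  apply Polynomial.eq_of_monic_of_associated
  · exact Polynomial.monic_prod_of_monic _ _ fun i _ =>
      monic_mul_leadingCoeff_inv (smithCoeffs_ne_zero b' _ hI i)
  · exact monic_mul_leadingCoeff_inv hN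
  · rw [Finset.prod_mul_distrib]
    have hu1 : IsUnit (∏ i, C (smithCoeffs b' (span ({ψ} : Set S)) hI i).leadingCoeff⁻¹) := by
      rw [← map_prod]
      refine Polynomial.isUnit_C.mpr (IsUnit.mk0 _ ?_)
      refine Finset.prod_ne_zero_iff.mpr fun i _ => inv_ne_zero ?_
      exact leadingCoeff_ne_zero.mpr (smithCoeffs_ne_zero b' _ hI i)
    have hu2 : IsUnit (C (Algebra.norm F[X] ψ).leadingCoeff⁻¹) :=
      Polynomial.isUnit_C.mpr (IsUnit.mk0 _ (inv_ne_zero (leadingCoeff_ne_zero.mpr hN)))
    exact ((associated_mul_unit_left _ _ hu1).trans (associated_norm_prod_smith b' hψ).symm).trans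
      (associated_mul_unit_right _ _ hu2)

end Main

section Family

open Ideal Module

variable {K L S σ ι : Type*} [Field K] [Field L] [Algebra K L] [CommRing S] [IsDomain S]
  [Algebra L[X] S] [Algebra L S] [IsScalarTower L L[X] S] [Fintype ι] [DecidableEq ι] [Fintype σ]

/-- The norm form of a finite family of `ι × ι` matrices over `K[X]`:
`x ↦ det (∑ s, x s • M s)`. -/
noncomputable def normForm {K : Type*} [Field K] (M : σ → Matrix ι ι K[X]) (x : σ → K) : K[X] :=
  Matrix.det (∑ s, C (x s) • M s)

omit [IsDomain S] in
/-- The norm of a linear combination is the norm form of the multiplication matrices. -/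
theorem norm_sum_smul (b : Basis ι L[X] S) (e : σ → S) (y : σ → L) :
    Algebra.norm L[X] (∑ s, y s • e s) =
      normForm (fun s => Algebra.leftMulMatrix b (e s)) y := by
  rw [Algebra.norm_eq_matrix_det b, map_sum, normForm]
  congr 1
  refine Finset.sum_congr rfl fun s _ => ?_
  rw [← algebraMap_smul L[X] (y s) (e s), map_smul]
  rfl

/-- Base change of the norm form. -/
theorem map_normForm (M : σ → Matrix ι ι K[X]) (x : σ → K) :
    (normForm M x).map (algebraMap K L) =
      normForm (fun s => (M s).map (Polynomial.mapRingHom (algebraMap K L)))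
        (fun s => algebraMap K L (x s)) := by
  rw [normForm, normForm, ← Polynomial.coe_mapRingHom, RingHom.map_det, RingHom.mapMatrix_apply]
  congr 1
  ext i j
  simp [Matrix.sum_apply, Polynomial.map_sum]

omit [IsDomain S] in
/-- The norm form of a rational structure computes the norm after base change. -/
theorem map_normForm_eq_norm (b : Basis ι L[X] S) (e : σ → S) (M : σ → Matrix ι ι K[X])
    (hM : ∀ s, Algebra.leftMulMatrix b (e s) =
      (M s).map (Polynomial.mapRingHom (algebraMap K L))) (x : σ → K) :
    (normForm M x).map (algebraMap K L) =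
      Algebra.norm L[X] (∑ s, algebraMap K L (x s) • e s) := by
  rw [map_normForm, norm_sum_smul b]
  congr 1
  funext s
  exact (hM s).symm

/-- No common zero: the norm form (over the big field) vanishes only at `0`. -/
theorem eq_zero_of_normForm_eq_zero (b : Basis ι L[X] S) (e : σ → S)
    (he : LinearIndependent L e) (M : σ → Matrix ι ι K[X])
    (hM : ∀ s, Algebra.leftMulMatrix b (e s) =
      (M s).map (Polynomial.mapRingHom (algebraMap K L))) (y : σ → L)
    (hy : normForm (fun s => (M s).map (Polynomial.mapRingHom (algebraMap K L))) y = 0) :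
    y = 0 := by
  have h1 : Algebra.norm L[X] (∑ s, y s • e s) = 0 := by
    rw [norm_sum_smul b, ← hy]
    congr 1
    funext s
    exact hM s
  rw [Algebra.norm_eq_zero_iff_of_basis b] at h1
  funext s
  exact Fintype.linearIndependent_iff.mp he y h1 s

omit [IsDomain S] [Algebra L[X] S] [IsScalarTower L L[X] S] [Fintype ι] [DecidableEq ι] in
theorem sum_smul_ne_zero (e : σ → S) (he : LinearIndependent L e) {x : σ → K} (hx : x ≠ 0) :
    ∑ s, algebraMap K L (x s) • e s ≠ 0 := by
  intro h
  apply hx
  funext s
  have := Fintype.linearIndependent_iff.mp he (fun s => algebraMap K L (x s)) h s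
  simpa using this

theorem normForm_ne_zero (b : Basis ι L[X] S) (e : σ → S)
    (he : LinearIndependent L e) (M : σ → Matrix ι ι K[X])
    (hM : ∀ s, Algebra.leftMulMatrix b (e s) =
      (M s).map (Polynomial.mapRingHom (algebraMap K L))) {x : σ → K} (hx : x ≠ 0) :
    normForm M x ≠ 0 := by
  intro h
  have h1 := map_normForm_eq_norm b e M hM x
  rw [h, Polynomial.map_zero] at h1
  exact sum_smul_ne_zero e he hx ((Algebra.norm_eq_zero_iff_of_basis b).mp h1.symm)

/-- **Norm dictionary, algebra half, rational form.** For `x ≠ 0` the norm form `normForm M x`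
(a polynomial over the small field `K`) is, after base change to `L`, a nonzero constant times
the characteristic polynomial of multiplication by `t` on `S ⧸ (∑ s, x s • e s)`. -/
theorem map_normForm_eq_C_mul_charpoly (b : Basis ι L[X] S) (e : σ → S)
    (he : LinearIndependent L e) (M : σ → Matrix ι ι K[X])
    (hM : ∀ s, Algebra.leftMulMatrix b (e s) =
      (M s).map (Polynomial.mapRingHom (algebraMap K L))) {x : σ → K} (hx : x ≠ 0)
    [Module.Finite L (S ⧸ Ideal.span ({∑ s, algebraMap K L (x s) • e s} : Set S))] :
    (normForm M x).map (algebraMap K L) =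
      C (algebraMap K L (normForm M x).leadingCoeff) *
        (LinearMap.mulLeft L (Ideal.Quotient.mk
          (Ideal.span ({∑ s, algebraMap K L (x s) • e s} : Set S))
          (algebraMap L[X] S X))).charpoly := by
  have hψ := sum_smul_ne_zero e he hx
  have h0 := normForm_ne_zero b e he M hM hx
  rw [charpoly_mulLeft_quotient_span_singleton b hψ, ← map_normForm_eq_norm b e M hM x,
    Polynomial.leadingCoeff_map, mul_comm, mul_assoc, ← C_mul, inv_mul_cancel₀, C_1, mul_one]
  exact (map_ne_zero (algebraMap K L)).mpr (leadingCoeff_ne_zero.mpr h0)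

end Family

section InstanceFree

open Ideal Module

variable {L S ι : Type*} [Field L] [CommRing S] [Algebra L S] [Fintype ι]

/-- The `L[X]`-algebra structure on `S` given by `X ↦ t` (for use with `letI`). -/
@[reducible] noncomputable def tAlgebra (t : S) : Algebra L[X] S := (aeval t).toRingHom.toAlgebra

theorem tAlgebra_isScalarTower (t : S) :
    letI := tAlgebra (L := L) t
    IsScalarTower L L[X] S := by
  letI := tAlgebra (L := L) t
  refine IsScalarTower.of_algebraMap_eq fun c => ?_
  change algebraMap L S c = aeval t (C c)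
  rw [aeval_C]

theorem tAlgebra_algebraMap (t : S) (c : L[X]) :
    letI := tAlgebra (L := L) t
    algebraMap L[X] S c = aeval t c := rfl

theorem tAlgebra_smul (t : S) (c : L[X]) (a : S) :
    letI := tAlgebra (L := L) t
    c • a = aeval t c * a := rfl

theorem linearCombination_bijective (t : S) (ω : ι → S)
    (hω : Function.Bijective (fun c : ι → L[X] => ∑ i, aeval t (c i) * ω i)) :
    letI := tAlgebra (L := L) t
    Function.Bijective (Fintype.linearCombination L[X] ω) := by
  letI := tAlgebra (L := L) t
  have : ⇑(Fintype.linearCombination L[X] ω) =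
      (fun c : ι → L[X] => ∑ i, aeval t (c i) * ω i) := by
    funext c
    rw [Fintype.linearCombination_apply]
    rfl
  rw [this]
  exact hω

/-- The `L[X]`-basis of `S` given by a family `ω` such that `c ↦ ∑ i, c_i(t) * ω i` is
bijective. -/
noncomputable def tBasis (t : S) (ω : ι → S)
    (hω : Function.Bijective (fun c : ι → L[X] => ∑ i, aeval t (c i) * ω i)) :
    letI := tAlgebra (L := L) t
    Basis ι L[X] S :=
  letI := tAlgebra (L := L) t
  Basis.ofEquivFun (LinearEquiv.ofBijective (Fintype.linearCombination L[X] ω)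
    (linearCombination_bijective t ω hω)).symm

theorem tBasis_repr_sum (t : S) (ω : ι → S)
    (hω : Function.Bijective (fun c : ι → L[X] => ∑ i, aeval t (c i) * ω i))
    (c : ι → L[X]) (i : ι) :
    letI := tAlgebra (L := L) t
    (tBasis t ω hω).repr (∑ i, aeval t (c i) * ω i) i = c i := by
  letI := tAlgebra (L := L) t
  rw [tBasis, Basis.ofEquivFun_repr_apply]
  have : (∑ i, aeval t (c i) * ω i) =
      (LinearEquiv.ofBijective (Fintype.linearCombination L[X] ω)
        (linearCombination_bijective t ω hω)) c := by
    rw [LinearEquiv.ofBijective_apply, Fintype.linearCombination_apply]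
    rfl
  rw [this, LinearEquiv.symm_apply_apply]

theorem tBasis_apply [DecidableEq ι] (t : S) (ω : ι → S)
    (hω : Function.Bijective (fun c : ι → L[X] => ∑ i, aeval t (c i) * ω i)) (i : ι) :
    letI := tAlgebra (L := L) t
    tBasis t ω hω i = ω i := by
  letI := tAlgebra (L := L) t
  rw [tBasis, Basis.coe_ofEquivFun, LinearEquiv.symm_symm]
  change (LinearEquiv.ofBijective (Fintype.linearCombination L[X] ω)
        (linearCombination_bijective t ω hω)) (Pi.single i 1) = ω i
  rw [LinearEquiv.ofBijective_apply,
    Fintype.linearCombination_apply, Finset.sum_eq_single i]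
  · simp
  · intro j _ hj
    simp [hj]
  · intro h
    exact absurd (Finset.mem_univ i) h

theorem leftMulMatrix_tBasis [DecidableEq ι] (t : S) (ω : ι → S)
    (hω : Function.Bijective (fun c : ι → L[X] => ∑ i, aeval t (c i) * ω i))
    (a : S) (m : Matrix ι ι L[X]) (hm : ∀ j, a * ω j = ∑ i, aeval t (m i j) * ω i) :
    letI := tAlgebra (L := L) t
    Algebra.leftMulMatrix (tBasis t ω hω) a = m := by
  letI := tAlgebra (L := L) t
  refine Matrix.ext fun i j => ?_
  rw [Algebra.leftMulMatrix_eq_repr_mul, tBasis_apply, hm j]
  exact tBasis_repr_sum t ω hω (fun i => m i j) i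

end InstanceFree

section InstanceFreeMain

open Ideal Module

variable {K L S σ ι : Type*} [Field K] [Field L] [Algebra K L] [CommRing S] [IsDomain S]
  [Algebra L S] [Fintype ι] [DecidableEq ι] [Fintype σ]

omit [DecidableEq ι] in
/-- Instance-free form of `finite_quotient_span_singleton`. -/
theorem finite_quotient_of_bijective (t : S) (ω : ι → S)
    (hω : Function.Bijective (fun c : ι → L[X] => ∑ i, aeval t (c i) * ω i))
    {ψ : S} (hψ : ψ ≠ 0) : Module.Finite L (S ⧸ Ideal.span ({ψ} : Set S)) := by
  letI := tAlgebra (L := L) t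
  haveI := tAlgebra_isScalarTower (L := L) t
  exact finite_quotient_span_singleton (tBasis t ω hω) hψ

/-- **Norm dictionary, algebra half, instance-free form.** `S` a domain over a field `L`,
`t : S`, `ω` a family such that `c ↦ ∑ i, c_i(t) * ω i` is a bijection `(ι → L[X]) → S`
(`S` is free over `L[t]` with basis `ω`), `m` the matrix of multiplication by `ψ ≠ 0` in
this basis. Then the characteristic polynomial of multiplication by `t` on `S ⧸ (ψ)` is the
monic normalisation of `det m`. -/
theorem charpoly_mulLeft_of_bijective (t : S) (ω : ι → S)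
    (hω : Function.Bijective (fun c : ι → L[X] => ∑ i, aeval t (c i) * ω i))
    {ψ : S} (hψ : ψ ≠ 0) (m : Matrix ι ι L[X])
    (hm : ∀ j, ψ * ω j = ∑ i, aeval t (m i j) * ω i)
    [Module.Finite L (S ⧸ Ideal.span ({ψ} : Set S))] :
    (LinearMap.mulLeft L (Ideal.Quotient.mk (Ideal.span ({ψ} : Set S)) t)).charpoly =
      m.det * C m.det.leadingCoeff⁻¹ := by
  letI := tAlgebra (L := L) t
  haveI := tAlgebra_isScalarTower (L := L) t
  have h := charpoly_mulLeft_quotient_span_singleton (tBasis t ω hω) hψ
  rw [Algebra.norm_eq_matrix_det (tBasis t ω hω), leftMulMatrix_tBasis t ω hω ψ m hm] at h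
  have ht : algebraMap L[X] S X = t := by
    change aeval t X = t
    simp
  rw [ht] at h
  exact h

/-- Instance-free form of `eq_zero_of_normForm_eq_zero` (no common zero of the norm form). -/
theorem eq_zero_of_normForm_eq_zero_of_bijective (t : S) (ω : ι → S)
    (hω : Function.Bijective (fun c : ι → L[X] => ∑ i, aeval t (c i) * ω i))
    (e : σ → S) (he : LinearIndependent L e) (M : σ → Matrix ι ι K[X])
    (hM : ∀ s j, e s * ω j = ∑ i, aeval t ((M s i j).map (algebraMap K L)) * ω i)
    (y : σ → L)
    (hy : normForm (fun s => (M s).map (Polynomial.mapRingHom (algebraMap K L))) y = 0) :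
    y = 0 := by
  letI := tAlgebra (L := L) t
  haveI := tAlgebra_isScalarTower (L := L) t
  exact eq_zero_of_normForm_eq_zero (tBasis t ω hω) e he M
    (fun s => leftMulMatrix_tBasis t ω hω (e s) _ (fun j => hM s j)) y hy

/-- Instance-free form of `normForm_ne_zero`. -/
theorem normForm_ne_zero_of_bijective (t : S) (ω : ι → S)
    (hω : Function.Bijective (fun c : ι → L[X] => ∑ i, aeval t (c i) * ω i))
    (e : σ → S) (he : LinearIndependent L e) (M : σ → Matrix ι ι K[X])
    (hM : ∀ s j, e s * ω j = ∑ i, aeval t ((M s i j).map (algebraMap K L)) * ω i)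
    {x : σ → K} (hx : x ≠ 0) : normForm M x ≠ 0 := by
  letI := tAlgebra (L := L) t
  haveI := tAlgebra_isScalarTower (L := L) t
  exact normForm_ne_zero (tBasis t ω hω) e he M
    (fun s => leftMulMatrix_tBasis t ω hω (e s) _ (fun j => hM s j)) hx

/-- **Norm dictionary, algebra half, rational instance-free form.** With `K ⊆ L`, `e` an
`L`-linearly independent family in `S` whose multiplication matrices in the `L[t]`-basis `ω`
have entries in `K[X]` (the matrices `M s`), and `x : σ → K` nonzero: the norm form
`normForm M x ∈ K[X]` is, over `L`, a nonzero constant times the characteristic polynomial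
of multiplication by `t` on `S ⧸ (∑ s, x s • e s)`. -/
theorem map_normForm_eq_C_mul_charpoly_of_bijective (t : S) (ω : ι → S)
    (hω : Function.Bijective (fun c : ι → L[X] => ∑ i, aeval t (c i) * ω i))
    (e : σ → S) (he : LinearIndependent L e) (M : σ → Matrix ι ι K[X])
    (hM : ∀ s j, e s * ω j = ∑ i, aeval t ((M s i j).map (algebraMap K L)) * ω i)
    {x : σ → K} (hx : x ≠ 0)
    [Module.Finite L (S ⧸ Ideal.span ({∑ s, algebraMap K L (x s) • e s} : Set S))] :
    (normForm M x).map (algebraMap K L) =
      C (algebraMap K L (normForm M x).leadingCoeff) *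
        (LinearMap.mulLeft L (Ideal.Quotient.mk
          (Ideal.span ({∑ s, algebraMap K L (x s) • e s} : Set S)) t)).charpoly := by
  letI := tAlgebra (L := L) t
  haveI := tAlgebra_isScalarTower (L := L) t
  have h := map_normForm_eq_C_mul_charpoly (tBasis t ω hω) e he M
    (fun s => leftMulMatrix_tBasis t ω hω (e s) _ (fun j => hM s j)) hx
  have ht : algebraMap L[X] S X = t := by
    change aeval t X = t
    simp
  rw [ht] at h
  exact h

end InstanceFreeMain

section Descent

variable {G K L S σ ι : Type*} [Group G] [Field K] [Field L] [Algebra K L] [CommRing S]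
  [Algebra L S] [MulSemiringAction G L] [MulSemiringAction G S] [Fintype ι]

/-- A semilinear ring action commutes with `aeval t` for a fixed `t`, up to the action on
the coefficients. -/
theorem smul_aeval_of_fixed
    (hsemi : ∀ (g : G) (c : L), g • algebraMap L S c = algebraMap L S (g • c))
    (t : S) (ht : ∀ g : G, g • t = t) (g : G) (p : L[X]) :
    g • aeval t p = aeval t (p.map (MulSemiringAction.toRingHom G L g)) := by
  have h : (MulSemiringAction.toRingHom G S g).comp (aeval t).toRingHom =
      (aeval t).toRingHom.comp (Polynomial.mapRingHom (MulSemiringAction.toRingHom G L g)) := by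
    apply Polynomial.ringHom_ext
    · intro c
      simp [hsemi]
    · simp [ht]
  exact congrArg (fun f : L[X] →+* S => f p) h

/-- **Descent of coordinates.** If a group `G` acts semilinearly on `(L, S)` with fixed
field `K`, and `t`, the `ω i` and `a` are fixed, then the (unique) coordinates of `a` in
the `L[t]`-independent family `ω` have coefficients in `K`. -/
theorem exists_rational_coords
    (hsemi : ∀ (g : G) (c : L), g • algebraMap L S c = algebraMap L S (g • c))
    (hfix : ∀ c : L, (∀ g : G, g • c = c) → c ∈ Set.range (algebraMap K L))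
    (t : S) (ht : ∀ g : G, g • t = t) (ω : ι → S) (hωfix : ∀ (g : G) i, g • ω i = ω i)
    (hω : Function.Injective (fun c : ι → L[X] => ∑ i, aeval t (c i) * ω i))
    (a : S) (ha : ∀ g : G, g • a = a) (m : ι → L[X]) (hm : a = ∑ i, aeval t (m i) * ω i) :
    ∃ m' : ι → K[X], ∀ i, m i = (m' i).map (algebraMap K L) := by
  have key : ∀ (g : G) i, (m i).map (MulSemiringAction.toRingHom G L g) = m i := by
    intro g
    have h1 : a = ∑ i, aeval t ((m i).map (MulSemiringAction.toRingHom G L g)) * ω i := by
      have h2 : g • a = g • ∑ i, aeval t (m i) * ω i := congrArg (g • ·) hm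
      rw [ha g, Finset.smul_sum] at h2
      rw [h2]
      refine Finset.sum_congr rfl fun i _ => ?_
      rw [smul_mul', hωfix g i, smul_aeval_of_fixed hsemi t ht g (m i)]
    have h3 := hω (a₁ := fun i => (m i).map (MulSemiringAction.toRingHom G L g)) (a₂ := m)
      (by simpa using h1.symm.trans hm)
    exact fun i => congrFun h3 i
  have hlift : ∀ i, m i ∈ Polynomial.lifts (algebraMap K L) := by
    intro i
    rw [Polynomial.lifts_iff_coeff_lifts]
    intro n
    apply hfix
    intro g
    have := congrArg (fun p : L[X] => p.coeff n) (key g i)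
    simpa using this
  choose m' hm' using fun i => (Polynomial.mem_lifts _).mp (hlift i)
  exact ⟨m', fun i => (hm' i).symm⟩

/-- **Descent of the structure constants.** If `G` acts semilinearly on `(L, S)` with fixed
field `K`, `S` is free over `L[t]` with basis `ω`, and `t`, `ω i`, `e s` are all fixed by `G`,
then the multiplication matrices of the `e s` in the basis `ω` are defined over `K[X]`. -/
theorem exists_rational_structure
    (hsemi : ∀ (g : G) (c : L), g • algebraMap L S c = algebraMap L S (g • c))
    (hfix : ∀ c : L, (∀ g : G, g • c = c) → c ∈ Set.range (algebraMap K L))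
    (t : S) (ht : ∀ g : G, g • t = t) (ω : ι → S) (hωfix : ∀ (g : G) i, g • ω i = ω i)
    (hω : Function.Bijective (fun c : ι → L[X] => ∑ i, aeval t (c i) * ω i))
    (e : σ → S) (he : ∀ (g : G) s, g • e s = e s) :
    ∃ M : σ → Matrix ι ι K[X],
      ∀ s j, e s * ω j = ∑ i, aeval t ((M s i j).map (algebraMap K L)) * ω i := by
  have h1 : ∀ s j, ∃ m' : ι → K[X],
      e s * ω j = ∑ i, aeval t ((m' i).map (algebraMap K L)) * ω i := by
    intro s j
    obtain ⟨m, hm⟩ := hω.2 (e s * ω j)
    obtain ⟨m', hm'⟩ := exists_rational_coords hsemi hfix t ht ω hωfix hω.1 (e s * ω j)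
      (fun g => by rw [smul_mul', he g s, hωfix g j]) m hm.symm
    refine ⟨m', ?_⟩
    rw [← hm]
    exact Finset.sum_congr rfl fun i _ => by rw [hm' i]
  choose M hM using h1
  exact ⟨fun s => Matrix.of fun i j => M s j i, fun s j => hM s j⟩

end Descent

end Fermat.Agent.S17.helper2681
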