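import Mathlib
import Fermat.Agent.Lib.helper1102_HeightBPF

/-!
# S17, Pluecker track: the height half of the norm dictionary (ND-ht)

Let `M : σ → Matrix ι ι K[X]` be a finite family of square matrices with polynomial entries
(consumer: the matrices of multiplication by the members `e s` of a `K`-basis of a
Riemann-Roch space on a `K[t]`-basis of the affine coordinate ring) and let

  `normForm M x = det (∑ s, C (x s) • M s) : K[X]`   (consumer: `N_{A/K[t]} (∑ s, x s • e s)`).

If the norm form has no nontrivial zero over an algebraically closed extension `L` of `K`, then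
the height of the coefficient vector of `normForm M x` is `H(x) ^ card ι` up to two positive
constants:

* `mulHeight_normForm_bounds` : coefficient vectors `Fin (D + 1) → K`, any `D` bounding the degree;
* `polyMulHeight_normForm_bounds`, `abs_polyLogHeight_normForm_sub_le` : intrinsic forms.

Design: no generic matrix.  Row-multilinear expansion of the determinant gives explicit
polynomials `normCoeffPoly M k = ∑ τ : ι → σ, (∏ i, X (τ i)) * C (coeff k of the mixed det)`,
visibly homogeneous of degree `card ι`, whose values are the coefficients of the norm form over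
every `K`-algebra.  Then Mathlib's `Height.mulHeight_eval_le'` and the base-point-free lower
bound `helper1102.mulHeight_eval_ge_of_noCommonZero`.
-/

set_option autoImplicit false

namespace Fermat.Agent.S17.helper5450

open Fermat.Agent.Lib.helper1102

section RowExpansion

variable {S : Type*} [CommRing S] {σ ι : Type*} [Fintype σ] [Fintype ι] [DecidableEq ι]

/-- The mixed matrix of a family `A` along `τ`: its `i`-th row is the `i`-th row of `A (τ i)`. -/
def mixedMatrix (A : σ → Matrix ι ι S) (τ : ι → σ) : Matrix ι ι S :=
  Matrix.of fun i j => A (τ i) i j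

omit [CommRing S] [Fintype σ] [Fintype ι] [DecidableEq ι] in
@[simp]
theorem mixedMatrix_apply (A : σ → Matrix ι ι S) (τ : ι → σ) (i j : ι) :
    mixedMatrix A τ i j = A (τ i) i j := rfl

/-- Row-multilinear expansion of the determinant of a linear combination of matrices. -/
theorem det_sum_smul_eq_sum_mixed (c : σ → S) (A : σ → Matrix ι ι S) :
    (∑ s, c s • A s).det = ∑ τ : ι → σ, (∏ i, c (τ i)) * (mixedMatrix A τ).det := by
  classical
  have h1 : (∑ s, c s • A s).det = (Matrix.detRowAlternating : (ι → S) [⋀^ι]→ₗ[S] S)
      (fun i => ∑ s, c s • A s i) := by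
    change Matrix.det _ = Matrix.det _
    congr 1
    ext i j
    simp [Matrix.sum_apply]
  rw [h1]
  have h2 := (Matrix.detRowAlternating : (ι → S) [⋀^ι]→ₗ[S] S).toMultilinearMap.map_sum
    (fun (i : ι) (s : σ) => c s • A s i)
  simp only [AlternatingMap.coe_multilinearMap] at h2
  rw [h2]
  refine Finset.sum_congr rfl fun τ _ => ?_
  have h3 := (Matrix.detRowAlternating : (ι → S) [⋀^ι]→ₗ[S] S).toMultilinearMap.map_smul_univ
    (fun i => c (τ i)) (fun i => A (τ i) i)
  simp only [AlternatingMap.coe_multilinearMap] at h3
  rw [h3, smul_eq_mul]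
  rfl

end RowExpansion

section NormForm

open Polynomial

variable {K : Type*} [Field K] {σ ι : Type*} [Fintype σ] [Fintype ι] [DecidableEq ι]

/-- The norm form of a family of polynomial matrices: `x ↦ det (∑ s, C (x s) • M s)`. -/
noncomputable def normForm {R : Type*} [CommRing R] (M : σ → Matrix ι ι R[X]) (x : σ → R) : R[X] :=
  (∑ s, Polynomial.C (x s) • M s).det

/-- The explicit polynomial in the variables `x` computing the `k`-th coefficient of the
norm form. -/
noncomputable def normCoeffPoly (M : σ → Matrix ι ι K[X]) (k : ℕ) : MvPolynomial σ K :=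
  ∑ τ : ι → σ, (∏ i, MvPolynomial.X (τ i)) * MvPolynomial.C ((mixedMatrix M τ).det.coeff k)

/-- A uniform bound for the degree of the norm form, valid over every extension. -/
noncomputable def normDegBound (M : σ → Matrix ι ι K[X]) : ℕ :=
  Finset.univ.sup fun τ : ι → σ => (mixedMatrix M τ).det.natDegree

theorem normCoeffPoly_isHomogeneous (M : σ → Matrix ι ι K[X]) (k : ℕ) :
    (normCoeffPoly M k).IsHomogeneous (Fintype.card ι) := by
  refine MvPolynomial.IsHomogeneous.sum _ _ _ fun τ _ => ?_
  have h1 : (∏ i, (MvPolynomial.X (τ i) : MvPolynomial σ K)).IsHomogeneous (Fintype.card ι) := by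
    have := MvPolynomial.IsHomogeneous.prod (Finset.univ : Finset ι)
      (fun i => (MvPolynomial.X (τ i) : MvPolynomial σ K)) (fun _ => 1)
      (fun i _ => MvPolynomial.isHomogeneous_X K (τ i))
    simpa using this
  simpa using h1.mul (MvPolynomial.isHomogeneous_C σ ((mixedMatrix M τ).det.coeff k))

theorem normCoeffPoly_eq_zero_of_lt (M : σ → Matrix ι ι K[X]) {k : ℕ} (hk : normDegBound M < k) :
    normCoeffPoly M k = 0 := by
  unfold normCoeffPoly
  refine Finset.sum_eq_zero fun τ _ => ?_
  have h : (mixedMatrix M τ).det.natDegree < k :=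
    lt_of_le_of_lt (Finset.le_sup (f := fun τ : ι → σ => (mixedMatrix M τ).det.natDegree)
      (Finset.mem_univ τ)) hk
  rw [Polynomial.coeff_eq_zero_of_natDegree_lt h]
  simp

/-- The coefficients of the norm form over any `K`-algebra `L` are the values of the
polynomials `normCoeffPoly M k`. -/
theorem coeff_normForm_map {L : Type*} [CommRing L] [Algebra K L] (M : σ → Matrix ι ι K[X])
    (y : σ → L) (k : ℕ) :
    (normForm (fun s => (M s).map (Polynomial.mapRingHom (algebraMap K L))) y).coeff k =
      MvPolynomial.aeval y (normCoeffPoly M k) := by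
  classical
  unfold normForm normCoeffPoly
  rw [det_sum_smul_eq_sum_mixed, Polynomial.finsetSum_coeff, map_sum]
  refine Finset.sum_congr rfl fun τ _ => ?_
  have h1 : mixedMatrix (fun s => (M s).map (Polynomial.mapRingHom (algebraMap K L))) τ =
      (Polynomial.mapRingHom (algebraMap K L)).mapMatrix (mixedMatrix M τ) := by
    ext i j
    simp
  rw [h1, ← RingHom.map_det, ← map_prod, Polynomial.coeff_C_mul]
  simp [Polynomial.coeff_map]

theorem coeff_normForm (M : σ → Matrix ι ι K[X]) (x : σ → K) (k : ℕ) :
    (normForm M x).coeff k = MvPolynomial.eval x (normCoeffPoly M k) := by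
  classical
  unfold normForm normCoeffPoly
  rw [det_sum_smul_eq_sum_mixed, Polynomial.finsetSum_coeff, map_sum]
  refine Finset.sum_congr rfl fun τ _ => ?_
  rw [← map_prod, Polynomial.coeff_C_mul]
  simp

theorem natDegree_normForm_le (M : σ → Matrix ι ι K[X]) (x : σ → K) :
    (normForm M x).natDegree ≤ normDegBound M := by
  rw [Polynomial.natDegree_le_iff_coeff_eq_zero]
  intro k hk
  rw [coeff_normForm, normCoeffPoly_eq_zero_of_lt M hk, map_zero]

theorem natDegree_normForm_map_le {L : Type*} [CommRing L] [Algebra K L]
    (M : σ → Matrix ι ι K[X]) (y : σ → L) :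
    (normForm (fun s => (M s).map (Polynomial.mapRingHom (algebraMap K L))) y).natDegree ≤
      normDegBound M := by
  rw [Polynomial.natDegree_le_iff_coeff_eq_zero]
  intro k hk
  rw [coeff_normForm_map, normCoeffPoly_eq_zero_of_lt M hk, map_zero]

/-- Glue for the consumer: the norm of a `K`-linear combination of elements of a finite free
`K[X]`-algebra is the norm form of the matrices of multiplication. -/
theorem norm_sum_smul_eq_normForm {A : Type*} [CommRing A] [Algebra K[X] A]
    (b : Module.Basis ι K[X] A) (e : σ → A) (x : σ → K) :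
    Algebra.norm K[X] (∑ s, Polynomial.C (x s) • e s) =
      normForm (fun s => Algebra.leftMulMatrix b (e s)) x := by
  rw [Algebra.norm_eq_matrix_det b]
  unfold normForm
  simp [map_sum]

end NormForm

section Height

open Polynomial Height

variable {K : Type*} [Field K] [Height.AdmissibleAbsValues K]
  (L : Type*) [Field L] [IsAlgClosed L] [Algebra K L]
  {σ ι : Type*} [Fintype σ] [Fintype ι] [DecidableEq ι]

omit [Height.AdmissibleAbsValues K] in
/-- The coefficient vector of the norm form is the value of the explicit homogeneous family. -/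
theorem coeffVec_normForm (M : σ → Matrix ι ι K[X]) (x : σ → K) (D : ℕ) :
    coeffVec D (normForm M x) =
      fun k : Fin (D + 1) => MvPolynomial.eval x (normCoeffPoly M (k : ℕ)) := by
  funext k
  rw [coeffVec_apply, coeff_normForm]

/-- **(ND-ht), intrinsic multiplicative form.**  If the norm form `det (∑ s, C (y s) • M s)` has
no nontrivial zero over an algebraically closed extension `L` of `K`, then the height of the
coefficient vector of `normForm M x` is `H(x) ^ card ι` up to two positive constants. -/
theorem polyMulHeight_normForm_bounds (M : σ → Matrix ι ι K[X])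
    (h0 : ∀ y : σ → L,
      (∑ s, Polynomial.C (y s) • (M s).map (Polynomial.mapRingHom (algebraMap K L))).det = 0 →
        y = 0) :
    ∃ C₁ > 0, ∃ C₂ > 0, ∀ x : σ → K,
      C₁ * mulHeight x ^ Fintype.card ι ≤ polyMulHeight (normForm M x) ∧
        polyMulHeight (normForm M x) ≤ C₂ * mulHeight x ^ Fintype.card ι := by
  classical
  set D := normDegBound M with hD
  have hp : ∀ k : Fin (D + 1), (normCoeffPoly M (k : ℕ)).IsHomogeneous (Fintype.card ι) :=
    fun k => normCoeffPoly_isHomogeneous M k
  have hzero : ∀ y : σ → L,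
      (∀ k : Fin (D + 1), MvPolynomial.aeval y (normCoeffPoly M (k : ℕ)) = 0) → y = 0 := by
    intro y hy
    apply h0 y
    change normForm (fun s => (M s).map (Polynomial.mapRingHom (algebraMap K L))) y = 0
    ext k
    rw [coeff_normForm_map, Polynomial.coeff_zero]
    by_cases hk : k < D + 1
    · exact hy ⟨k, hk⟩
    · rw [normCoeffPoly_eq_zero_of_lt M (by omega), map_zero]
  obtain ⟨C₁, hC₁, h₁⟩ := mulHeight_eval_ge_of_noCommonZero L hp hzero
  obtain ⟨C₂, hC₂, h₂⟩ := Height.mulHeight_eval_le' hp
  refine ⟨C₁, hC₁, C₂, hC₂, fun x => ?_⟩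
  have e : polyMulHeight (normForm M x) =
      mulHeight (fun k : Fin (D + 1) => MvPolynomial.eval x (normCoeffPoly M (k : ℕ))) := by
    rw [← mulHeight_coeffVec_eq_polyMulHeight (natDegree_normForm_le M x), coeffVec_normForm]
  rw [e]
  exact ⟨h₁ x, h₂ x⟩

/-- **(ND-ht), coefficient-vector form.**  Same statement for the coefficient vectors
`Fin (D + 1) → K`, for every `D` bounding the degree of `normForm M x` (`D` may depend on `x`:
padding with zeros does not change the height). -/
theorem mulHeight_normForm_bounds (M : σ → Matrix ι ι K[X])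
    (h0 : ∀ y : σ → L,
      (∑ s, Polynomial.C (y s) • (M s).map (Polynomial.mapRingHom (algebraMap K L))).det = 0 →
        y = 0) :
    ∃ C₁ > 0, ∃ C₂ > 0, ∀ x : σ → K, ∀ D : ℕ, (normForm M x).natDegree ≤ D →
      C₁ * mulHeight x ^ Fintype.card ι ≤
          mulHeight (fun k : Fin (D + 1) => (normForm M x).coeff k) ∧
        mulHeight (fun k : Fin (D + 1) => (normForm M x).coeff k) ≤
          C₂ * mulHeight x ^ Fintype.card ι := by
  obtain ⟨C₁, hC₁, C₂, hC₂, h⟩ := polyMulHeight_normForm_bounds L M h0
  refine ⟨C₁, hC₁, C₂, hC₂, fun x D hD => ?_⟩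
  have e : mulHeight (fun k : Fin (D + 1) => (normForm M x).coeff k) =
      polyMulHeight (normForm M x) := mulHeight_coeffVec_eq_polyMulHeight hD
  rw [e]
  exact h x

/-- **(ND-ht), logarithmic form**: `h(N(x)) = card ι * h(x) + O(1)`. -/
theorem abs_polyLogHeight_normForm_sub_le (M : σ → Matrix ι ι K[X])
    (h0 : ∀ y : σ → L,
      (∑ s, Polynomial.C (y s) • (M s).map (Polynomial.mapRingHom (algebraMap K L))).det = 0 →
        y = 0) :
    ∃ C : ℝ, ∀ x : σ → K,
      |polyLogHeight (normForm M x) - Fintype.card ι * logHeight x| ≤ C := by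
  obtain ⟨C₁, hC₁, C₂, hC₂, h⟩ := polyMulHeight_normForm_bounds L M h0
  refine ⟨max (Real.log C₂) (-Real.log C₁), fun x => ?_⟩
  obtain ⟨hl, hu⟩ := h x
  have hx : 0 < mulHeight x := mulHeight_pos x
  have hpos : 0 < polyMulHeight (normForm M x) := polyMulHeight_pos _
  have e1 : Real.log (C₁ * mulHeight x ^ Fintype.card ι) =
      Real.log C₁ + Fintype.card ι * logHeight x := by
    rw [Real.log_mul hC₁.ne' (pow_pos hx _).ne', Real.log_pow, logHeight]
  have e2 : Real.log (C₂ * mulHeight x ^ Fintype.card ι) =
      Real.log C₂ + Fintype.card ι * logHeight x := by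
    rw [Real.log_mul hC₂.ne' (pow_pos hx _).ne', Real.log_pow, logHeight]
  have l1 := Real.log_le_log (mul_pos hC₁ (pow_pos hx _)) hl
  have l2 := Real.log_le_log hpos hu
  rw [e1] at l1
  rw [e2] at l2
  rw [polyLogHeight_eq_log, abs_le]
  constructor
  · have := le_max_right (Real.log C₂) (-Real.log C₁)
    linarith
  · have := le_max_left (Real.log C₂) (-Real.log C₁)
    linarith

/-- Logarithmic coefficient-vector form. -/
theorem abs_logHeight_normForm_sub_le (M : σ → Matrix ι ι K[X])
    (h0 : ∀ y : σ → L,
      (∑ s, Polynomial.C (y s) • (M s).map (Polynomial.mapRingHom (algebraMap K L))).det = 0 →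
        y = 0) :
    ∃ C : ℝ, ∀ x : σ → K, ∀ D : ℕ, (normForm M x).natDegree ≤ D →
      |logHeight (fun k : Fin (D + 1) => (normForm M x).coeff k) -
        Fintype.card ι * logHeight x| ≤ C := by
  obtain ⟨C, h⟩ := abs_polyLogHeight_normForm_sub_le L M h0
  refine ⟨C, fun x D hD => ?_⟩
  have e : logHeight (fun k : Fin (D + 1) => (normForm M x).coeff k) =
      polyLogHeight (normForm M x) := logHeight_coeffVec_eq_polyLogHeight hD
  rw [e]
  exact h x

/-- If two polynomials over `K` are proportional over an extension field `L`, they are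
proportional over `K`. -/
theorem exists_eq_C_mul_of_map_eq_C_mul {K L : Type*} [Field K] [Field L] [Algebra K L]
    {P Q : K[X]} {a : L} (ha : a ≠ 0)
    (h : P.map (algebraMap K L) = Polynomial.C a * Q.map (algebraMap K L)) :
    ∃ c : K, c ≠ 0 ∧ P = Polynomial.C c * Q := by
  have hinj : Function.Injective (algebraMap K L) := (algebraMap K L).injective
  by_cases hQ : Q = 0
  · refine ⟨1, one_ne_zero, ?_⟩
    subst hQ
    have hP : P.map (algebraMap K L) = 0 := by simpa using h
    have : P = 0 := (Polynomial.map_eq_zero_iff hinj).mp hP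
    simp [this]
  · have hlc : Q.leadingCoeff ≠ 0 := Polynomial.leadingCoeff_ne_zero.mpr hQ
    have h1 := congrArg (fun R : L[X] => R.coeff Q.natDegree) h
    simp only [Polynomial.coeff_map, Polynomial.coeff_C_mul, Polynomial.coeff_natDegree] at h1
    have ha' : a = algebraMap K L (P.coeff Q.natDegree / Q.leadingCoeff) := by
      rw [map_div₀, h1, mul_div_assoc, div_self ((_root_.map_ne_zero _).mpr hlc), mul_one]
    set c : K := P.coeff Q.natDegree / Q.leadingCoeff with hc
    have hc0 : c ≠ 0 := by
      intro h0
      rw [h0, map_zero] at ha'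
      exact ha ha'
    refine ⟨c, hc0, ?_⟩
    apply Polynomial.map_injective _ hinj
    rw [h, ha', Polynomial.map_mul, Polynomial.map_C]

/-- **(ND-ht), consumer form.**  Every polynomial `Q` over `K` which is proportional, over `L`, to
the norm form at `x` has the height of the norm form: `h(Q) = card ι * h(x) + O(1)`.
(Consumer: `Q` = the rational model of the characteristic polynomial `P_Z` of `t` on `A ⧸ (ψ_x)`,
which is the monic normalisation of the norm.) -/
theorem abs_polyLogHeight_sub_le_of_map_eq_C_mul (M : σ → Matrix ι ι K[X])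
    (h0 : ∀ y : σ → L,
      (∑ s, Polynomial.C (y s) • (M s).map (Polynomial.mapRingHom (algebraMap K L))).det = 0 →
        y = 0) :
    ∃ C : ℝ, ∀ (x : σ → K) (Q : K[X]) (a : L), a ≠ 0 →
      (normForm M x).map (algebraMap K L) = Polynomial.C a * Q.map (algebraMap K L) →
      |polyLogHeight Q - Fintype.card ι * logHeight x| ≤ C := by
  obtain ⟨C, h⟩ := abs_polyLogHeight_normForm_sub_le L M h0
  refine ⟨C, fun x Q a ha hQ => ?_⟩
  obtain ⟨c, hc, e⟩ := exists_eq_C_mul_of_map_eq_C_mul ha hQ
  have e2 : polyLogHeight Q = polyLogHeight (normForm M x) := by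
    rw [e, polyLogHeight_C_mul hc]
  rw [e2]
  exact h x

end Height

end Fermat.Agent.S17.helper5450
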