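import Mathlib
import Fermat.Agent.S17.helper2681_NormDict
import Fermat.Agent.S17.helper5450_NormHeight
import Fermat.Agent.Lib.helper3588_AbsHeight

/-!
# Norm dictionary over `ℚ` without rational structure constants (number-field trick)

`L` an algebraically closed field of characteristic zero, algebraic over `ℚ` (e.g. `ℚ̄`),
`S` a domain over `L`, free over `L[t]` with a finite basis `ω`, `e` an `L`-linearly independent
finite family in `S`.  For `x : σ → ℚ` nonzero, `ψ = ∑ s, x s • e s`, and `Q ∈ ℚ[X]` a
`ℚ`-form of the characteristic polynomial of multiplication by `t` on `S ⧸ (ψ)`: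
`h(Q) = card ι * h(x) + O(1)`.

No rational structure is assumed on `ω` or on the multiplication table: the structure constants
lie in a number field `K₁ ⊆ L`, the norm dictionary is applied over `K₁`, and the extension
formula for heights brings the statement back to `ℚ`.
-/

set_option linter.style.haveILetI false

namespace Fermat.Agent.S17.helper2681

open Polynomial Fermat.Agent.Lib.helper1102

section NumberFieldTrick

variable {L S σ ι : Type*} [Field L] [CharZero L] [Algebra.IsAlgebraic ℚ L]
  [CommRing S] [Algebra L S] [Fintype ι] [Fintype σ]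

/-- A finite family of polynomial matrices over `L` (algebraic over `ℚ`) is defined over a
number field inside `L`. -/
theorem exists_numberField_matrices (Mbar : σ → Matrix ι ι L[X]) :
    ∃ (K₁ : IntermediateField ℚ L) (_ : FiniteDimensional ℚ K₁) (M' : σ → Matrix ι ι K₁[X]),
      ∀ s i j, (M' s i j).map (algebraMap K₁ L) = Mbar s i j := by
  classical
  let T : Finset L := Finset.univ.biUnion fun s : σ =>
    Finset.univ.biUnion fun i : ι => Finset.univ.biUnion fun j : ι => (Mbar s i j).coeffs
  let K₁ : IntermediateField ℚ L := IntermediateField.adjoin ℚ (T : Set L)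
  have hfin : FiniteDimensional ℚ K₁ :=
    IntermediateField.finiteDimensional_adjoin fun x _ =>
      (Algebra.IsAlgebraic.isAlgebraic (R := ℚ) x).isIntegral
  have hlift : ∀ s i j, Mbar s i j ∈ Polynomial.lifts (algebraMap K₁ L) := by
    intro s i j
    rw [Polynomial.lifts_iff_coeff_lifts]
    intro n
    by_cases h0 : (Mbar s i j).coeff n = 0
    · exact ⟨0, by rw [map_zero, h0]⟩
    · have hmem : (Mbar s i j).coeff n ∈ (T : Set L) := by
        simp only [T, Finset.coe_biUnion, Finset.coe_univ, Set.mem_univ, Set.iUnion_true,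
          Set.mem_iUnion, Finset.mem_coe]
        exact ⟨s, i, j, Polynomial.coeff_mem_coeffs h0⟩
      exact ⟨⟨_, IntermediateField.subset_adjoin ℚ _ hmem⟩, rfl⟩
  choose M' hM' using fun s i j => (Polynomial.mem_lifts _).mp (hlift s i j)
  exact ⟨K₁, hfin, fun s => Matrix.of fun i j => M' s i j, fun s i j => hM' s i j⟩

end NumberFieldTrick

section Main

variable {L S σ ι : Type*} [Field L] [CharZero L] [IsAlgClosed L] [Algebra.IsAlgebraic ℚ L]
  [CommRing S] [IsDomain S] [Algebra L S] [Fintype ι] [DecidableEq ι] [Fintype σ]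

/-- Height of a polynomial after extension of the number field. -/
theorem polyLogHeight_map_algebraMap {K K' : Type*} [Field K] [NumberField K] [Field K']
    [NumberField K'] [Algebra K K'] (Q : K[X]) :
    polyLogHeight (Q.map (algebraMap K K')) = Module.finrank K K' * polyLogHeight Q := by
  unfold polyLogHeight
  rw [Polynomial.natDegree_map, ← Fermat.Agent.Lib.helper3588.logHeight_algebraMap]
  congr 1
  funext i
  simp [coeffVec_apply]

omit [CharZero L] [IsAlgClosed L] [Algebra.IsAlgebraic ℚ L] in
/-- Generalisation of `map_normForm_eq_C_mul_charpoly_of_bijective` over the element `ψ`. -/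
theorem map_normForm_eq_C_mul_charpoly_of_eq {K : Type*} [Field K] [Algebra K L]
    (t : S) (ω : ι → S)
    (hω : Function.Bijective (fun c : ι → L[X] => ∑ i, aeval t (c i) * ω i))
    (e : σ → S) (he : LinearIndependent L e) (M : σ → Matrix ι ι K[X])
    (hM : ∀ s j, e s * ω j = ∑ i, aeval t ((M s i j).map (algebraMap K L)) * ω i)
    {x : σ → K} (hx : x ≠ 0) (ψ : S) (hψ : ψ = ∑ s, algebraMap K L (x s) • e s)
    [Module.Finite L (S ⧸ Ideal.span ({ψ} : Set S))] :
    (normForm M x).map (algebraMap K L) =
      C (algebraMap K L (normForm M x).leadingCoeff) *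
        (LinearMap.mulLeft L (Ideal.Quotient.mk (Ideal.span ({ψ} : Set S)) t)).charpoly := by
  subst hψ
  exact map_normForm_eq_C_mul_charpoly_of_bijective t ω hω e he M hM hx

/-- **Norm dictionary over `ℚ`, number-field form.** See the module docstring. -/
theorem abs_polyLogHeight_sub_le_of_charpoly (t : S) (ω : ι → S)
    (hω : Function.Bijective (fun c : ι → L[X] => ∑ i, aeval t (c i) * ω i))
    (e : σ → S) (he : LinearIndependent L e) :
    ∃ C : ℝ, ∀ (x : σ → ℚ) (ψ : S) (Q : ℚ[X]), x ≠ 0 →
      ψ = ∑ s, algebraMap ℚ L (x s) • e s →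
      ∀ [Module.Finite L (S ⧸ Ideal.span ({ψ} : Set S))],
      Q.map (algebraMap ℚ L) =
        (LinearMap.mulLeft L (Ideal.Quotient.mk (Ideal.span ({ψ} : Set S)) t)).charpoly →
      |polyLogHeight Q - Fintype.card ι * Height.logHeight x| ≤ C := by
  classical
  have h1 : ∀ s j, ∃ m : ι → L[X], e s * ω j = ∑ i, aeval t (m i) * ω i := fun s j => by
    obtain ⟨m, hm⟩ := hω.2 (e s * ω j)
    exact ⟨m, hm.symm⟩
  choose m hm using h1
  obtain ⟨K₁, hfin, M', hM'⟩ :=
    exists_numberField_matrices (fun s => Matrix.of fun i j => m s j i)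
  haveI : NumberField K₁ := { to_charZero := inferInstance, to_finiteDimensional := hfin }
  have hM : ∀ s j, e s * ω j = ∑ i, aeval t ((M' s i j).map (algebraMap K₁ L)) * ω i := by
    intro s j
    rw [hm s j]
    refine Finset.sum_congr rfl fun i _ => ?_
    rw [hM' s i j]
    rfl
  have h0 : ∀ y : σ → L,
      (∑ s, C (y s) • (M' s).map (Polynomial.mapRingHom (algebraMap K₁ L))).det = 0 → y = 0 :=
    fun y hy => eq_zero_of_normForm_eq_zero_of_bijective t ω hω e he M' hM y hy
  obtain ⟨C₁, hC₁⟩ :=
    Fermat.Agent.S17.helper5450.abs_polyLogHeight_sub_le_of_map_eq_C_mul L M' h0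
  refine ⟨C₁, ?_⟩
  intro x ψ Q hx hψ _ hQ
  -- the point and the polynomial over `K₁`
  set x' : σ → K₁ := fun s => algebraMap ℚ K₁ (x s) with hx'def
  have hx' : x' ≠ 0 := by
    intro h
    apply hx
    funext s
    have := congrFun h s
    simpa [hx'def] using this
  have hψ' : ψ = ∑ s, algebraMap K₁ L (x' s) • e s := by
    rw [hψ]
    refine Finset.sum_congr rfl fun s _ => ?_
    rw [hx'def, ← IsScalarTower.algebraMap_apply ℚ K₁ L]
  have hN := map_normForm_eq_C_mul_charpoly_of_eq t ω hω e he M' hM hx' ψ hψ'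
  have hne : normForm M' x' ≠ 0 := normForm_ne_zero_of_bijective t ω hω e he M' hM hx'
  have hQ' : (Q.map (algebraMap ℚ K₁)).map (algebraMap K₁ L) =
      (LinearMap.mulLeft L (Ideal.Quotient.mk (Ideal.span ({ψ} : Set S)) t)).charpoly := by
    rw [Polynomial.map_map, ← IsScalarTower.algebraMap_eq ℚ K₁ L, hQ]
  rw [← hQ'] at hN
  have hb := hC₁ x' (Q.map (algebraMap ℚ K₁)) _
    ((map_ne_zero (algebraMap K₁ L)).mpr (leadingCoeff_ne_zero.mpr hne)) hN
  rw [polyLogHeight_map_algebraMap, Fermat.Agent.Lib.helper3588.logHeight_algebraMap] at hb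
  -- divide by the degree
  have hd : (1 : ℝ) ≤ Module.finrank ℚ K₁ := by
    exact_mod_cast Module.finrank_pos (R := ℚ) (M := K₁)
  have hfac : (Module.finrank ℚ K₁ : ℝ) * polyLogHeight Q -
      Fintype.card ι * ((Module.finrank ℚ K₁ : ℝ) * Height.logHeight x) =
      (Module.finrank ℚ K₁ : ℝ) * (polyLogHeight Q - Fintype.card ι * Height.logHeight x) := by
    ring
  rw [hfac, abs_mul, abs_of_nonneg (by linarith : (0 : ℝ) ≤ Module.finrank ℚ K₁)] at hb
  calc |polyLogHeight Q - Fintype.card ι * Height.logHeight x|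
      ≤ (Module.finrank ℚ K₁ : ℝ) * |polyLogHeight Q - Fintype.card ι * Height.logHeight x| :=
        le_mul_of_one_le_left (abs_nonneg _) hd
    _ ≤ C₁ := hb

end Main

end Fermat.Agent.S17.helper2681
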