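import Mathlib
import Fermat.Agent.S24.helper204_Places
import Fermat.Agent.S27.helper751_OnePoint
import Fermat.Agent.S27.helper6247_Spec
import Fermat.Agent.S27.helper3372_Riemann
import Fermat.Agent.S27.helper4996_RiemannData
import Fermat.Agent.S27.helper4345_WeierstrassBasis

/-!
# S17-AFF: the affine coordinate ring of a function field at a base place (helper3723)

Setting of the S27 Spec: `K` algebraically closed of characteristic zero, `F` a field over `K`,
finite over `K(x)` for a transcendental `x`; `P0` any place of `F/K`.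

* `affRing P0 : Subalgebra K F`: the functions regular at every place `P ≠ P0`.
* `riemann`: the S27 Riemann theorem (`helper6247.Stmt_Riemann`), unconditionally (same proof
  as the S27 assembly, restated here to keep the import closure small).
* `exists_coord`: there is a non-constant `t ∈ affRing P0`.
* `mem_integralClosure_adjoin_iff`: for such `t`, `affRing P0` is the integral closure of `K[t]` in `F`.
* `isDedekindDomain_affRing`, `isFractionRing_affRing`.
* `onePoint_affRing`: the maximal ideals of `affRing P0` are exactly the places `≠ P0`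
  (instance of the S27 abstract one-point dictionary `helper751.OnePoint`).
-/

set_option autoImplicit false
set_option linter.style.haveILetI false
set_option linter.unusedSectionVars false

open AlgebraicCurve IsDedekindDomain IntermediateField WithZero

namespace Fermat.Agent.S17.helper3723

noncomputable section

universe u v

/-! ## The Riemann theorem of S27, unconditionally -/

/-- The Riemann data, unconditionally (helper4996's lower bound + helper3372's finiteness). -/
theorem riemannData : Fermat.Agent.S27.helper3372.Stmt_RiemannData.{u, v} := by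
  intro K F _ _ _ _ _ x hx _
  have hP : HasPrincipalDivisors K F := Fermat.Agent.S24.helper204.hasPrincipalDivisors x hx
  have hdeg : ∀ v : Place K F, v.deg = 1 :=
    fun v => Fermat.Agent.S24.helper204.place_deg_eq_one x hx v
  have hres : ∀ v : Place K F, Function.Surjective (algebraMap K v.ResidueField) :=
    fun v => Fermat.Agent.S27.helper3372.residue_surjective_of_finite x v
  have hne : Nonempty (Place K F) := Fermat.Agent.S27.helper3372.nonempty_place_of_finite x hx
  exact Fermat.Agent.S27.helper4996.riemannData_of_finite x hx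
    (fun D => Fermat.Agent.S27.helper3372.finite_riemannRochSpace hP hres hdeg hne D)

/-- `Stmt_Riemann` of the S27 Spec, unconditionally. -/
theorem riemann : Fermat.Agent.S27.helper6247.Stmt_Riemann.{u, v} :=
  Fermat.Agent.S27.helper3372.stmt_Riemann_of riemannData

/-! ## The affine ring -/

section Defs

variable {K : Type u} {F : Type v} [Field K] [Field F] [Algebra K F]

/-- The ring of functions regular away from `P0`. -/
def affRing (P0 : Place K F) : Subalgebra K F where
  carrier := {f | ∀ P : Place K F, P ≠ P0 → f ∈ P.toValuationSubring}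
  mul_mem' := fun ha hb P hP => mul_mem (ha P hP) (hb P hP)
  add_mem' := fun ha hb P hP => add_mem (ha P hP) (hb P hP)
  algebraMap_mem' := fun a P _ => P.algebraMap_mem' a

theorem mem_affRing {P0 : Place K F} {f : F} :
    f ∈ affRing P0 ↔ ∀ P : Place K F, P ≠ P0 → f ∈ P.toValuationSubring := Iff.rfl

theorem mem_affRing_iff_ord {P0 : Place K F} {f : F} :
    f ∈ affRing P0 ↔ ∀ P : Place K F, P ≠ P0 → 0 ≤ P.ord f := by
  simp only [mem_affRing, Fermat.Agent.S24.helper204.ord_nonneg_iff]

end Defs


/-! ## A coordinate: a non-constant element of the affine ring -/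

section Coord

variable {K : Type u} {F : Type v} [Field K] [Field F] [Algebra K F] [IsAlgClosed K] [CharZero K]

open scoped IntermediateField.algebraAdjoinAdjoin

/-- A transcendental element of the affine ring has a pole at `P0`. -/
theorem ord_lt_zero_of_mem_affRing {P0 : Place K F} {t : F} (ht : t ∈ affRing P0)
    (htr : Transcendental K t) [FiniteDimensional K⟮t⟯ F] : P0.ord t < 0 := by
  obtain ⟨s, hs, hsum⟩ := Fermat.Agent.S24.helper204.exists_finset_poles t htr
  have hpos : 0 < Module.finrank K⟮t⟯ F := Module.finrank_pos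
  have hne : s.Nonempty := by
    rw [Finset.nonempty_iff_ne_empty]
    rintro rfl
    rw [Finset.sum_empty] at hsum
    omega
  obtain ⟨v, hv⟩ := hne
  have hv' : v.ord t < 0 := (hs v).mp hv
  by_cases hvP : v = P0
  · rwa [hvP] at hv'
  · have := (Fermat.Agent.S24.helper204.ord_nonneg_iff v).mpr (ht v hvP)
    omega

/-- The pole order at `P0` of a transcendental element of the affine ring is `[F : K(t)]`. -/
theorem neg_ord_eq_finrank {P0 : Place K F} {t : F} (ht : t ∈ affRing P0)
    (htr : Transcendental K t) [FiniteDimensional K⟮t⟯ F] :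
    -P0.ord t = Module.finrank K⟮t⟯ F := by
  obtain ⟨s, hs, hsum⟩ := Fermat.Agent.S24.helper204.exists_finset_poles t htr
  have hs' : s = {P0} := by
    ext v
    rw [Finset.mem_singleton, hs v]
    constructor
    · intro hv
      by_contra hvP
      have := (Fermat.Agent.S24.helper204.ord_nonneg_iff v).mpr (ht v hvP)
      omega
    · rintro rfl
      exact ord_lt_zero_of_mem_affRing ht htr
  rw [hs', Finset.sum_singleton] at hsum
  exact hsum

/-- For a transcendental `t ∈ affRing P0`, the affine ring is the integral closure of `K[t]`. -/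
theorem mem_integralClosure_adjoin_iff {P0 : Place K F} {t : F} (ht : t ∈ affRing P0)
    (htr : Transcendental K t) [FiniteDimensional K⟮t⟯ F] (f : F) :
    f ∈ integralClosure (Algebra.adjoin K {t}) F ↔ f ∈ affRing P0 := by
  constructor
  · intro hf P hP
    exact Fermat.Agent.S24.helper204.integralClosure_le_of_mem P (ht P hP) ⟨f, hf⟩
  · intro hf
    have hpole : P0.ord t < 0 := ord_lt_zero_of_mem_affRing ht htr
    have key : ∀ w : HeightOneSpectrum (integralClosure (Algebra.adjoin K {t}) F),
        w.valuation F f ≤ 1 := by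
      intro w
      have hne : Place.ofHeightOneSpectrum (K := K) (F := F) w ≠ P0 := by
        intro h
        have ht1 : w.valuation F t ≤ 1 := by
          have htB : t ∈ integralClosure (Algebra.adjoin K {t}) F :=
            (integralClosure (Algebra.adjoin K {t}) F).algebraMap_mem
              (⟨t, Algebra.self_mem_adjoin_singleton K t⟩ : Algebra.adjoin K {t})
          exact w.valuation_le_one (⟨t, htB⟩ : integralClosure (Algebra.adjoin K {t}) F)
        have ht2 : t ∈ (Place.ofHeightOneSpectrum (K := K) (F := F) w).toValuationSubring := by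
          rw [Place.ofHeightOneSpectrum_toValuationSubring, Valuation.mem_valuationSubring_iff]
          exact ht1
        rw [h] at ht2
        have := (Fermat.Agent.S24.helper204.ord_nonneg_iff P0).mpr ht2
        omega
      have hmem := hf _ hne
      rwa [Place.ofHeightOneSpectrum_toValuationSubring, Valuation.mem_valuationSubring_iff]
        at hmem
    obtain ⟨b, hb⟩ := HeightOneSpectrum.mem_integers_of_valuation_le_one F f key
    rw [← hb]
    exact b.2

/-- `K[t] ≤ affRing P0`. -/
theorem adjoin_le_affRing {P0 : Place K F} {t : F} (ht : t ∈ affRing P0) :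
    Algebra.adjoin K {t} ≤ affRing P0 :=
  Algebra.adjoin_le (Set.singleton_subset_iff.mpr ht)

/-- The `K[t]`-algebra structure of the affine ring (`t ∈ affRing P0`); a `def`, to be used with
`letI`. -/
@[reducible] def algebraAdjoin {P0 : Place K F} {t : F} (ht : t ∈ affRing P0) :
    Algebra (Algebra.adjoin K {t}) (affRing P0) :=
  (Subalgebra.inclusion (adjoin_le_affRing ht)).toRingHom.toAlgebra

theorem isScalarTower_adjoin {P0 : Place K F} {t : F} (ht : t ∈ affRing P0) :
    letI := algebraAdjoin ht
    IsScalarTower (Algebra.adjoin K {t}) (affRing P0) F := by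
  letI := algebraAdjoin ht
  exact IsScalarTower.of_algebraMap_eq fun a => rfl

theorem isIntegralClosure_affRing {P0 : Place K F} {t : F} (ht : t ∈ affRing P0)
    (htr : Transcendental K t) [FiniteDimensional K⟮t⟯ F] :
    letI := algebraAdjoin ht
    IsIntegralClosure (affRing P0) (Algebra.adjoin K {t}) F := by
  letI := algebraAdjoin ht
  refine ⟨Subtype.val_injective, fun {f} => ?_⟩
  rw [← mem_integralClosure_iff, mem_integralClosure_adjoin_iff ht htr]
  constructor
  · intro hf
    exact ⟨⟨f, hf⟩, rfl⟩
  · rintro ⟨y, rfl⟩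
    exact y.2

/-- The affine ring is a Dedekind domain (coordinate form). -/
theorem isDedekindDomain_affRing_of_coord {P0 : Place K F} {t : F} (ht : t ∈ affRing P0)
    (htr : Transcendental K t) [FiniteDimensional K⟮t⟯ F] : IsDedekindDomain (affRing P0) := by
  letI := algebraAdjoin ht
  haveI := isScalarTower_adjoin ht
  haveI := isIntegralClosure_affRing ht htr
  exact IsIntegralClosure.isDedekindDomain (Algebra.adjoin K {t}) K⟮t⟯ F (affRing P0)

/-- The affine ring has fraction field `F` (coordinate form). -/
theorem isFractionRing_affRing_of_coord {P0 : Place K F} {t : F} (ht : t ∈ affRing P0)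
    (htr : Transcendental K t) [FiniteDimensional K⟮t⟯ F] : IsFractionRing (affRing P0) F := by
  letI := algebraAdjoin ht
  haveI := isScalarTower_adjoin ht
  haveI := isIntegralClosure_affRing ht htr
  exact IsIntegralClosure.isFractionRing_of_finite_extension (Algebra.adjoin K {t}) K⟮t⟯ F
    (affRing P0)

/-- The affine ring is a finite `K[t]`-module (coordinate form). -/
theorem finite_affRing_of_coord {P0 : Place K F} {t : F} (ht : t ∈ affRing P0)
    (htr : Transcendental K t) [FiniteDimensional K⟮t⟯ F] :
    letI := algebraAdjoin ht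
    Module.Finite (Algebra.adjoin K {t}) (affRing P0) := by
  letI := algebraAdjoin ht
  haveI := isScalarTower_adjoin ht
  haveI := isIntegralClosure_affRing ht htr
  exact IsIntegralClosure.finite (Algebra.adjoin K {t}) K⟮t⟯ F (affRing P0)

end Coord


/-! ## Existence of a coordinate, and the unconditional statements -/

section Main

variable {K : Type u} {F : Type v} [Field K] [Field F] [Algebra K F] [IsAlgClosed K] [CharZero K]

/-- `L(n • P0) ≤ affRing P0`. -/
theorem riemannRochSpace_single_le (P0 : Place K F) (n : ℤ) :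
    ∀ f ∈ riemannRochSpace (Finsupp.single P0 n : Divisor K F), f ∈ affRing P0 := by
  intro f hf
  rw [mem_affRing_iff_ord]
  intro P hP
  rcases (mem_riemannRochSpace_iff.mp hf) P with h | h
  · rw [h]; simp
  · rwa [Finsupp.single_eq_of_ne hP, neg_zero] at h

/-- Membership in `L(n • P0)`: regular away from `P0` and pole order at most `n` at `P0`. -/
theorem mem_riemannRochSpace_single_iff (P0 : Place K F) (n : ℤ) (f : F) :
    f ∈ riemannRochSpace (Finsupp.single P0 n : Divisor K F) ↔
      f ∈ affRing P0 ∧ (f = 0 ∨ -n ≤ P0.ord f) := by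
  constructor
  · intro hf
    refine ⟨riemannRochSpace_single_le P0 n f hf, ?_⟩
    have := (mem_riemannRochSpace_iff.mp hf) P0
    rwa [Finsupp.single_eq_same] at this
  · rintro ⟨hf, h0⟩
    rw [mem_riemannRochSpace_iff]
    intro P
    by_cases hP : P = P0
    · subst hP
      rwa [Finsupp.single_eq_same]
    · right
      rw [Finsupp.single_eq_of_ne hP, neg_zero]
      exact (mem_affRing_iff_ord.mp hf) P hP

/-- There is a non-constant (equivalently transcendental) function regular away from `P0`. -/
theorem exists_coord (x : F) (hx : Transcendental K x) [FiniteDimensional K⟮x⟯ F]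
    (P0 : Place K F) : ∃ t : F, t ∈ affRing P0 ∧ Transcendental K t := by
  obtain ⟨hfin, hrr, -⟩ := riemann K F x hx
  have hdeg : P0.deg = 1 := Fermat.Agent.S24.helper204.place_deg_eq_one x hx P0
  set D : Divisor K F := Finsupp.single P0 ((genusFF K F : ℤ) + 1) with hD
  have h2 : (2 : ℤ) ≤ Module.finrank K (riemannRochSpace D) := by
    have h := hrr D
    rw [hD, Divisor.degree_single, hdeg] at h
    have h1 : (0 : ℤ) ≤ Module.finrank K (H1 (Finsupp.single P0 ((genusFF K F : ℤ) + 1) :
        Divisor K F)) := Int.natCast_nonneg _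
    rw [← hD] at h
    push_cast at h
    omega
  by_contra hno
  have hconst : ∀ f ∈ riemannRochSpace D, f ∈ Set.range (algebraMap K F) := by
    intro f hf
    by_contra hfr
    exact hno ⟨f, riemannRochSpace_single_le P0 _ f hf,
      Fermat.Agent.S24.helper204.transcendental_of_not_mem_range hfr⟩
  have hle : riemannRochSpace D ≤ Submodule.span K {(1 : F)} := by
    intro f hf
    obtain ⟨c, rfl⟩ := hconst f hf
    rw [Submodule.mem_span_singleton]
    exact ⟨c, by rw [Algebra.smul_def, mul_one]⟩
  have h1 : Module.finrank K (riemannRochSpace D) ≤ 1 := by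
    calc Module.finrank K (riemannRochSpace D)
        ≤ Module.finrank K (Submodule.span K {(1 : F)}) := Submodule.finrank_mono hle
      _ = 1 := finrank_span_singleton one_ne_zero
  omega

/-- **(AF2)** The affine ring at a place is a Dedekind domain. -/
theorem isDedekindDomain_affRing (x : F) (hx : Transcendental K x) [FiniteDimensional K⟮x⟯ F]
    (P0 : Place K F) : IsDedekindDomain (affRing P0) := by
  obtain ⟨t, ht, htr⟩ := exists_coord x hx P0
  haveI : FiniteDimensional K⟮t⟯ F :=
    Fermat.Agent.S24.helper204.finiteDimensional_adjoin_of_transcendental (x := x) htr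
  exact isDedekindDomain_affRing_of_coord ht htr

/-- **(AF2)** The fraction field of the affine ring at a place is `F`. -/
theorem isFractionRing_affRing (x : F) (hx : Transcendental K x) [FiniteDimensional K⟮x⟯ F]
    (P0 : Place K F) : IsFractionRing (affRing P0) F := by
  obtain ⟨t, ht, htr⟩ := exists_coord x hx P0
  haveI : FiniteDimensional K⟮t⟯ F :=
    Fermat.Agent.S24.helper204.finiteDimensional_adjoin_of_transcendental (x := x) htr
  exact isFractionRing_affRing_of_coord ht htr

/-- Some element of the affine ring has a pole at `P0`. -/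
theorem exists_pole (x : F) (hx : Transcendental K x) [FiniteDimensional K⟮x⟯ F]
    (P0 : Place K F) : ∃ t : F, t ∈ affRing P0 ∧ P0.ord t < 0 := by
  obtain ⟨t, ht, htr⟩ := exists_coord x hx P0
  haveI : FiniteDimensional K⟮t⟯ F :=
    Fermat.Agent.S24.helper204.finiteDimensional_adjoin_of_transcendental (x := x) htr
  exact ⟨t, ht, ord_lt_zero_of_mem_affRing ht htr⟩

end Main

/-! ## The one-point dictionary -/

section OnePoint

variable {K : Type u} {F : Type v} [Field K] [Field F] [Algebra K F]

/-- The inclusion of the affine ring into the valuation ring of a place `P ≠ P0`. -/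
def toValRing {P0 P : Place K F} (hP : P ≠ P0) : affRing P0 →+* P.toValuationSubring where
  toFun a := ⟨a.1, a.2 P hP⟩
  map_one' := rfl
  map_mul' _ _ := rfl
  map_zero' := rfl
  map_add' _ _ := rfl

@[simp] theorem coe_toValRing {P0 P : Place K F} (hP : P ≠ P0) (a : affRing P0) :
    ((toValRing hP a : P.toValuationSubring) : F) = (a : F) := rfl

/-- The ideal of the affine ring at a place `P ≠ P0`: functions vanishing at `P`. -/
def ptIdeal {P0 P : Place K F} (hP : P ≠ P0) : Ideal (affRing P0) :=
  (IsLocalRing.maximalIdeal P.toValuationSubring).comap (toValRing hP)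

instance ptIdeal_isPrime {P0 P : Place K F} (hP : P ≠ P0) : (ptIdeal hP).IsPrime :=
  Ideal.comap_isPrime _ _

theorem mem_ptIdeal {P0 P : Place K F} (hP : P ≠ P0) (a : affRing P0) :
    a ∈ ptIdeal hP ↔ (a : F) = 0 ∨ 0 < P.ord (a : F) := by
  rw [ptIdeal, Ideal.mem_comap]
  constructor
  · intro h
    by_cases h0 : (a : F) = 0
    · exact Or.inl h0
    · exact Or.inr ((Fermat.Agent.S24.helper204.ord_pos_iff P).mpr ⟨h0, a.2 P hP, h⟩)
  · rintro (h | h)
    · have : toValRing hP a = 0 := Subtype.ext h
      rw [this]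
      exact Ideal.zero_mem _
    · obtain ⟨-, _, h2⟩ := (Fermat.Agent.S24.helper204.ord_pos_iff P).mp h
      exact h2

theorem ptIdeal_ne_bot {P0 P : Place K F} (hP : P ≠ P0) [IsFractionRing (affRing P0) F] :
    ptIdeal hP ≠ ⊥ := by
  intro hbot
  apply P.ne_top'
  refine SetLike.ext fun f => ⟨fun _ => ValuationSubring.mem_top f, fun _ => ?_⟩
  obtain ⟨a, b, hb, rfl⟩ := IsFractionRing.div_surjective (A := affRing P0) f
  have hb0 : (b : F) ≠ 0 := by
    intro h
    have : b = 0 := Subtype.ext h
    exact nonZeroDivisors.ne_zero hb this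
  have hbn : b ∉ ptIdeal hP := by
    rw [hbot, Ideal.mem_bot]
    intro h
    exact hb0 (by rw [h]; rfl)
  rw [mem_ptIdeal, not_or, not_lt] at hbn
  have h1 : 0 ≤ P.ord (b : F) := (Fermat.Agent.S24.helper204.ord_nonneg_iff P).mpr (b.2 P hP)
  have h2 : P.ord (b : F) = 0 := le_antisymm hbn.2 h1
  have h3 : (b : F)⁻¹ ∈ P.toValuationSubring := by
    rw [← Fermat.Agent.S24.helper204.ord_nonneg_iff, P.ord_inv, h2, neg_zero]
  show (a : F) / (b : F) ∈ P.toValuationSubring
  rw [div_eq_mul_inv]
  exact mul_mem (a.2 P hP) h3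

/-- **(AF3)** The maximal ideals of the affine ring at `P0` are exactly the places `≠ P0`:
the affine ring is an instance of the S27 one-point dictionary. -/
theorem onePoint_affRing (P0 : Place K F) [IsDedekindDomain (affRing P0)]
    [IsFractionRing (affRing P0) F] (hpole : ∃ t : F, t ∈ affRing P0 ∧ P0.ord t < 0) :
    Fermat.Agent.S27.helper751.OnePoint (affRing P0) P0
      (fun w => Place.ofHeightOneSpectrum (K := K) (F := F) w) := by
  refine ⟨fun w h => ?_, fun P hP => ?_, fun w f => ?_⟩
  · obtain ⟨t, ht, hneg⟩ := hpole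
    have ht1 : w.valuation F t ≤ 1 := w.valuation_le_one (⟨t, ht⟩ : affRing P0)
    have ht2 : t ∈ (Place.ofHeightOneSpectrum (K := K) (F := F) w).toValuationSubring := by
      rw [Place.ofHeightOneSpectrum_toValuationSubring, Valuation.mem_valuationSubring_iff]
      exact ht1
    rw [h] at ht2
    have := (Fermat.Agent.S24.helper204.ord_nonneg_iff P0).mpr ht2
    omega
  · refine ⟨⟨ptIdeal hP, inferInstance, ptIdeal_ne_bot hP⟩, ?_⟩
    apply Fermat.Agent.S24.helper204.ofHeightOneSpectrum_eq_of_le
    · intro r
      exact r.2 P hP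
    · intro r hr
      have hr' : r ∉ ptIdeal hP := hr
      rw [mem_ptIdeal, not_or, not_lt] at hr'
      have h1 : 0 ≤ P.ord (r : F) := (Fermat.Agent.S24.helper204.ord_nonneg_iff P).mpr (r.2 P hP)
      have h2 : P.ord (r : F) = 0 := le_antisymm hr'.2 h1
      show (r : F)⁻¹ ∈ P.toValuationSubring
      rw [← Fermat.Agent.S24.helper204.ord_nonneg_iff, P.ord_inv, h2, neg_zero]
  · have h := Fermat.Agent.S24.helper204.ord_ofHeightOneSpectrum (K := K) w f
    rcases eq_or_ne f 0 with rfl | hf
    · simp
    · have h1 : (Place.ofHeightOneSpectrum (K := K) (F := F) w).adicValuation f ≠ 0 :=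
        Place.adicValuation_ne_zero _ hf
      have h2 : w.valuation F f ≠ 0 := (Valuation.ne_zero_iff _).mpr hf
      unfold Place.ord at h
      rw [neg_inj] at h
      rw [← WithZero.exp_log h1, ← WithZero.exp_log h2, h]

end OnePoint


/-! ## Chart rings: functions regular off the poles of a non-constant function `u`

Generalisation of the affine ring (ruling R10 of the S17 captain): `chartRing u` is the ring of
functions regular at every place where `u` is regular.  For transcendental `u` it is the integral
closure of `K[u]` in `F`, a Dedekind domain with fraction field `F`, finite over `K[u]`, of finite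
type over `K`, and its maximal ideals are exactly the places at which `u` is regular. -/

section Chart

variable {K : Type u} {F : Type v} [Field K] [Field F] [Algebra K F]

/-- The ring of functions regular at every place where `u` is regular. -/
def chartRing (u : F) : Subalgebra K F where
  carrier := {f | ∀ P : Place K F, u ∈ P.toValuationSubring → f ∈ P.toValuationSubring}
  mul_mem' := fun ha hb P hP => mul_mem (ha P hP) (hb P hP)
  add_mem' := fun ha hb P hP => add_mem (ha P hP) (hb P hP)
  algebraMap_mem' := fun a P _ => P.algebraMap_mem' a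

theorem mem_chartRing {u f : F} :
    f ∈ chartRing (K := K) u ↔
      ∀ P : Place K F, u ∈ P.toValuationSubring → f ∈ P.toValuationSubring := Iff.rfl

theorem mem_chartRing_iff_ord {u f : F} :
    f ∈ chartRing (K := K) u ↔ ∀ P : Place K F, 0 ≤ P.ord u → 0 ≤ P.ord f := by
  simp only [mem_chartRing, Fermat.Agent.S24.helper204.ord_nonneg_iff]

theorem self_mem_chartRing (u : F) : u ∈ chartRing (K := K) u := fun _ h => h

/-- The affine ring at `P0` is the chart ring of any of its elements with a pole at `P0`. -/
theorem affRing_eq_chartRing {P0 : Place K F} {t : F} (ht : t ∈ affRing P0)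
    (hpole : P0.ord t < 0) : affRing P0 = chartRing t := by
  ext f
  constructor
  · intro hf P hP
    refine hf P ?_
    rintro rfl
    have := (Fermat.Agent.S24.helper204.ord_nonneg_iff P).mpr hP
    omega
  · intro hf P hP
    exact hf P (ht P hP)

variable [IsAlgClosed K] [CharZero K]

open scoped IntermediateField.algebraAdjoinAdjoin

/-- For transcendental `u`, the chart ring is the integral closure of `K[u]` in `F`. -/
theorem mem_integralClosure_adjoin_iff_chart {u : F} (_hu : Transcendental K u)
    [FiniteDimensional K⟮u⟯ F] (f : F) :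
    f ∈ integralClosure (Algebra.adjoin K {u}) F ↔ f ∈ chartRing (K := K) u := by
  constructor
  · intro hf P hP
    exact Fermat.Agent.S24.helper204.integralClosure_le_of_mem P hP ⟨f, hf⟩
  · intro hf
    have key : ∀ w : HeightOneSpectrum (integralClosure (Algebra.adjoin K {u}) F),
        w.valuation F f ≤ 1 := by
      intro w
      have hu1 : w.valuation F u ≤ 1 := by
        have huB : u ∈ integralClosure (Algebra.adjoin K {u}) F :=
          (integralClosure (Algebra.adjoin K {u}) F).algebraMap_mem
            (⟨u, Algebra.self_mem_adjoin_singleton K u⟩ : Algebra.adjoin K {u})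
        exact w.valuation_le_one (⟨u, huB⟩ : integralClosure (Algebra.adjoin K {u}) F)
      have hu2 : u ∈ (Place.ofHeightOneSpectrum (K := K) (F := F) w).toValuationSubring := by
        rw [Place.ofHeightOneSpectrum_toValuationSubring, Valuation.mem_valuationSubring_iff]
        exact hu1
      have hmem := hf _ hu2
      rwa [Place.ofHeightOneSpectrum_toValuationSubring, Valuation.mem_valuationSubring_iff]
        at hmem
    obtain ⟨b, hb⟩ := HeightOneSpectrum.mem_integers_of_valuation_le_one F f key
    rw [← hb]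
    exact b.2

/-- `K[u] ≤ chartRing u`. -/
theorem adjoin_le_chartRing (u : F) : Algebra.adjoin K {u} ≤ chartRing (K := K) u :=
  Algebra.adjoin_le (Set.singleton_subset_iff.mpr (self_mem_chartRing u))

/-- The `K[u]`-algebra structure of the chart ring; a `def`, to be used with `letI`. -/
@[reducible] def chartAlgebra (u : F) : Algebra (Algebra.adjoin K {u}) (chartRing (K := K) u) :=
  (Subalgebra.inclusion (adjoin_le_chartRing u)).toRingHom.toAlgebra

theorem chart_isScalarTower (u : F) :
    letI := chartAlgebra (K := K) u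
    IsScalarTower (Algebra.adjoin K {u}) (chartRing (K := K) u) F := by
  letI := chartAlgebra (K := K) u
  exact IsScalarTower.of_algebraMap_eq fun a => rfl

theorem chart_isScalarTower' (u : F) :
    letI := chartAlgebra (K := K) u
    IsScalarTower K (Algebra.adjoin K {u}) (chartRing (K := K) u) := by
  letI := chartAlgebra (K := K) u
  exact IsScalarTower.of_algebraMap_eq fun a => rfl

theorem chart_isIntegralClosure {u : F} (hu : Transcendental K u) [FiniteDimensional K⟮u⟯ F] :
    letI := chartAlgebra (K := K) u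
    IsIntegralClosure (chartRing (K := K) u) (Algebra.adjoin K {u}) F := by
  letI := chartAlgebra (K := K) u
  refine ⟨Subtype.val_injective, fun {f} => ?_⟩
  rw [← mem_integralClosure_iff, mem_integralClosure_adjoin_iff_chart hu]
  constructor
  · intro hf
    exact ⟨⟨f, hf⟩, rfl⟩
  · rintro ⟨y, rfl⟩
    exact y.2

/-- **(C1)** The chart ring of a transcendental `u` is a Dedekind domain. -/
theorem isDedekindDomain_chartRing {u : F} (hu : Transcendental K u) [FiniteDimensional K⟮u⟯ F] :
    IsDedekindDomain (chartRing (K := K) u) := by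
  letI := chartAlgebra (K := K) u
  haveI := chart_isScalarTower (K := K) u
  haveI := chart_isIntegralClosure hu
  exact IsIntegralClosure.isDedekindDomain (Algebra.adjoin K {u}) K⟮u⟯ F (chartRing (K := K) u)

/-- **(C1)** The chart ring of a transcendental `u` has fraction field `F`. -/
theorem isFractionRing_chartRing {u : F} (hu : Transcendental K u) [FiniteDimensional K⟮u⟯ F] :
    IsFractionRing (chartRing (K := K) u) F := by
  letI := chartAlgebra (K := K) u
  haveI := chart_isScalarTower (K := K) u
  haveI := chart_isIntegralClosure hu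
  exact IsIntegralClosure.isFractionRing_of_finite_extension (Algebra.adjoin K {u}) K⟮u⟯ F
    (chartRing (K := K) u)

/-- **(C1)** The chart ring is a finite `K[u]`-module. -/
theorem finite_chartRing {u : F} (hu : Transcendental K u) [FiniteDimensional K⟮u⟯ F] :
    letI := chartAlgebra (K := K) u
    Module.Finite (Algebra.adjoin K {u}) (chartRing (K := K) u) := by
  letI := chartAlgebra (K := K) u
  haveI := chart_isScalarTower (K := K) u
  haveI := chart_isIntegralClosure hu
  exact IsIntegralClosure.finite (Algebra.adjoin K {u}) K⟮u⟯ F (chartRing (K := K) u)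

/-- **(C1)** Every element of the chart ring is integral over `K[u]` (inside `F`). -/
theorem isIntegral_of_mem_chartRing {u : F} (hu : Transcendental K u) [FiniteDimensional K⟮u⟯ F]
    {f : F} (hf : f ∈ chartRing (K := K) u) : IsIntegral (Algebra.adjoin K {u}) f :=
  (mem_integralClosure_iff _ _).mp ((mem_integralClosure_adjoin_iff_chart hu f).mpr hf)

/-- **(C1)** The chart ring is a `K`-algebra of finite type. -/
theorem finiteType_chartRing {u : F} (hu : Transcendental K u) [FiniteDimensional K⟮u⟯ F] :
    Algebra.FiniteType K (chartRing (K := K) u) := by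
  letI := chartAlgebra (K := K) u
  haveI := chart_isScalarTower' (K := K) u
  haveI := finite_chartRing hu
  haveI : Algebra.FiniteType K (Algebra.adjoin K {u}) := by
    refine ⟨(Subalgebra.fg_top _).mpr ?_⟩
    have := Subalgebra.fg_adjoin_finset (R := K) ({u} : Finset F)
    simpa using this
  exact Algebra.FiniteType.trans (R := K) (S := Algebra.adjoin K {u}) inferInstance inferInstance

end Chart


/-! ## Points of a chart ring -/

section ChartPoints

variable {K : Type u} {F : Type v} [Field K] [Field F] [Algebra K F]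

/-- The inclusion of the chart ring into the valuation ring of a place where `u` is regular. -/
def chartToValRing {u : F} {P : Place K F} (hP : u ∈ P.toValuationSubring) :
    chartRing (K := K) u →+* P.toValuationSubring where
  toFun a := ⟨a.1, a.2 P hP⟩
  map_one' := rfl
  map_mul' _ _ := rfl
  map_zero' := rfl
  map_add' _ _ := rfl

@[simp] theorem coe_chartToValRing {u : F} {P : Place K F} (hP : u ∈ P.toValuationSubring)
    (a : chartRing (K := K) u) : ((chartToValRing hP a : P.toValuationSubring) : F) = (a : F) :=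
  rfl

/-- The ideal of the chart ring at a place `P` where `u` is regular. -/
def chartPtIdeal {u : F} {P : Place K F} (hP : u ∈ P.toValuationSubring) :
    Ideal (chartRing (K := K) u) :=
  (IsLocalRing.maximalIdeal P.toValuationSubring).comap (chartToValRing hP)

instance chartPtIdeal_isPrime {u : F} {P : Place K F} (hP : u ∈ P.toValuationSubring) :
    (chartPtIdeal hP).IsPrime :=
  Ideal.comap_isPrime _ _

theorem mem_chartPtIdeal {u : F} {P : Place K F} (hP : u ∈ P.toValuationSubring)
    (a : chartRing (K := K) u) : a ∈ chartPtIdeal hP ↔ (a : F) = 0 ∨ 0 < P.ord (a : F) := by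
  rw [chartPtIdeal, Ideal.mem_comap]
  constructor
  · intro h
    by_cases h0 : (a : F) = 0
    · exact Or.inl h0
    · exact Or.inr ((Fermat.Agent.S24.helper204.ord_pos_iff P).mpr ⟨h0, a.2 P hP, h⟩)
  · rintro (h | h)
    · have : chartToValRing hP a = 0 := Subtype.ext h
      rw [this]
      exact Ideal.zero_mem _
    · obtain ⟨-, _, h2⟩ := (Fermat.Agent.S24.helper204.ord_pos_iff P).mp h
      exact h2

theorem chartPtIdeal_ne_bot {u : F} {P : Place K F} (hP : u ∈ P.toValuationSubring)
    [IsFractionRing (chartRing (K := K) u) F] : chartPtIdeal hP ≠ ⊥ := by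
  intro hbot
  apply P.ne_top'
  refine SetLike.ext fun f => ⟨fun _ => ValuationSubring.mem_top f, fun _ => ?_⟩
  obtain ⟨a, b, hb, rfl⟩ := IsFractionRing.div_surjective (A := chartRing (K := K) u) f
  have hb0 : (b : F) ≠ 0 := by
    intro h
    have : b = 0 := Subtype.ext h
    exact nonZeroDivisors.ne_zero hb this
  have hbn : b ∉ chartPtIdeal hP := by
    rw [hbot, Ideal.mem_bot]
    intro h
    exact hb0 (by rw [h]; rfl)
  rw [mem_chartPtIdeal, not_or, not_lt] at hbn
  have h1 : 0 ≤ P.ord (b : F) := (Fermat.Agent.S24.helper204.ord_nonneg_iff P).mpr (b.2 P hP)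
  have h2 : P.ord (b : F) = 0 := le_antisymm hbn.2 h1
  have h3 : (b : F)⁻¹ ∈ P.toValuationSubring := by
    rw [← Fermat.Agent.S24.helper204.ord_nonneg_iff, P.ord_inv, h2, neg_zero]
  show (a : F) / (b : F) ∈ P.toValuationSubring
  rw [div_eq_mul_inv]
  exact mul_mem (a.2 P hP) h3

/-- The height-one prime of the chart ring at a place where `u` is regular. -/
def chartPrime {u : F} {P : Place K F} (hP : u ∈ P.toValuationSubring)
    [IsFractionRing (chartRing (K := K) u) F] : HeightOneSpectrum (chartRing (K := K) u) :=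
  ⟨chartPtIdeal hP, inferInstance, chartPtIdeal_ne_bot hP⟩

@[simp] theorem chartPrime_asIdeal {u : F} {P : Place K F} (hP : u ∈ P.toValuationSubring)
    [IsFractionRing (chartRing (K := K) u) F] : (chartPrime hP).asIdeal = chartPtIdeal hP := rfl

/-- `u` is regular at the place of every height-one prime of the chart ring. -/
theorem mem_ofHeightOneSpectrum_chart (u : F) [IsDedekindDomain (chartRing (K := K) u)]
    [IsFractionRing (chartRing (K := K) u) F] (w : HeightOneSpectrum (chartRing (K := K) u))
    (a : chartRing (K := K) u) :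
    (a : F) ∈ (Place.ofHeightOneSpectrum (K := K) (F := F) w).toValuationSubring := by
  rw [Place.ofHeightOneSpectrum_toValuationSubring, Valuation.mem_valuationSubring_iff]
  exact w.valuation_le_one a

/-- **(C1)** The place of the prime `chartPrime hP` is `P`. -/
theorem ofHeightOneSpectrum_chartPrime {u : F} {P : Place K F} (hP : u ∈ P.toValuationSubring)
    [IsDedekindDomain (chartRing (K := K) u)] [IsFractionRing (chartRing (K := K) u) F] :
    Place.ofHeightOneSpectrum (K := K) (F := F) (chartPrime hP) = P := by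
  apply Fermat.Agent.S24.helper204.ofHeightOneSpectrum_eq_of_le
  · intro r
    exact r.2 P hP
  · intro r hr
    have hr' : r ∉ chartPtIdeal hP := hr
    rw [mem_chartPtIdeal, not_or, not_lt] at hr'
    have h1 : 0 ≤ P.ord (r : F) := (Fermat.Agent.S24.helper204.ord_nonneg_iff P).mpr (r.2 P hP)
    have h2 : P.ord (r : F) = 0 := le_antisymm hr'.2 h1
    show (r : F)⁻¹ ∈ P.toValuationSubring
    rw [← Fermat.Agent.S24.helper204.ord_nonneg_iff, P.ord_inv, h2, neg_zero]

/-- **(C1)** The height-one primes of the chart ring are exactly the `chartPrime`s: the places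
where `u` is regular. -/
theorem exists_chartPrime_eq (u : F) [IsDedekindDomain (chartRing (K := K) u)]
    [IsFractionRing (chartRing (K := K) u) F] (w : HeightOneSpectrum (chartRing (K := K) u)) :
    ∃ (P : Place K F) (hP : u ∈ P.toValuationSubring), chartPrime hP = w := by
  have hu := mem_ofHeightOneSpectrum_chart u w ⟨u, self_mem_chartRing u⟩
  refine ⟨Place.ofHeightOneSpectrum (K := K) (F := F) w, hu, ?_⟩
  apply Fermat.Agent.S24.helper204.ofHeightOneSpectrum_injective (K := K) (F := F)
  exact ofHeightOneSpectrum_chartPrime hu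

/-- **(C1)** Valuations agree: the adic valuation of the place of `w` is `w.valuation`. -/
theorem adicValuation_ofHeightOneSpectrum {R : Type*} [CommRing R] [IsDedekindDomain R]
    [Algebra R F] [IsFractionRing R F] [Algebra K R] [IsScalarTower K R F]
    (w : HeightOneSpectrum R) (f : F) :
    (Place.ofHeightOneSpectrum (K := K) (F := F) w).adicValuation f = w.valuation F f := by
  have h := Fermat.Agent.S24.helper204.ord_ofHeightOneSpectrum (K := K) w f
  rcases eq_or_ne f 0 with rfl | hf
  · simp
  · have h1 : (Place.ofHeightOneSpectrum (K := K) (F := F) w).adicValuation f ≠ 0 :=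
      Place.adicValuation_ne_zero _ hf
    have h2 : w.valuation F f ≠ 0 := (Valuation.ne_zero_iff _).mpr hf
    unfold Place.ord at h
    rw [neg_inj] at h
    rw [← WithZero.exp_log h1, ← WithZero.exp_log h2, h]

/-- Orders agree: `ord` at the place of `chartPrime hP` read off from the prime. -/
theorem ord_eq_neg_log_valuation_chartPrime {u : F} {P : Place K F}
    (hP : u ∈ P.toValuationSubring) [IsDedekindDomain (chartRing (K := K) u)]
    [IsFractionRing (chartRing (K := K) u) F] (f : F) :
    P.ord f = -(WithZero.log ((chartPrime hP).valuation F f)) := by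
  have h := Fermat.Agent.S24.helper204.ord_ofHeightOneSpectrum (K := K) (chartPrime hP) f
  rwa [ofHeightOneSpectrum_chartPrime hP] at h

end ChartPoints


/-! ## (AF4) The Weierstrass basis of the affine ring over `K[t]` -/

section Weierstrass

variable {K : Type u} {F : Type v} [Field K] [Field F] [Algebra K F] [IsAlgClosed K] [CharZero K]

open Polynomial

/-- Riemann's theorem in the form used here: `ℓ(D) = deg D + 1 - g` for `deg D ≥ c`. -/
theorem exists_finrank_eq (x : F) (hx : Transcendental K x) [FiniteDimensional K⟮x⟯ F] :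
    ∃ c : ℤ, ∀ D : Divisor K F, c ≤ Divisor.degree D →
      (Module.finrank K (riemannRochSpace D) : ℤ) = Divisor.degree D + 1 - (genusFF K F : ℤ) := by
  obtain ⟨-, hrr, c, hc⟩ := riemann K F x hx
  refine ⟨c, fun D hD => ?_⟩
  have hns := hc D hD
  have hsub : Subsingleton (H1 D) := Submodule.Quotient.subsingleton_iff.mpr hns
  have h0 : Module.finrank K (H1 D) = 0 := Module.finrank_zero_of_subsingleton
  have h := hrr D
  rw [h0] at h
  simpa using h

/-- The ultrametric inequality for `ord`. -/
theorem min_ord_le_ord_add (v : Place K F) {f g : F} (hf : f ≠ 0) (hg : g ≠ 0)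
    (hfg : f + g ≠ 0) : min (v.ord f) (v.ord g) ≤ v.ord (f + g) := by
  have h := Valuation.map_add v.adicValuation f g
  rw [v.adicValuation_eq_exp_neg_ord hf, v.adicValuation_eq_exp_neg_ord hg,
    v.adicValuation_eq_exp_neg_ord hfg] at h
  rcases le_max_iff.mp h with h1 | h1
  · rw [WithZero.exp_le_exp] at h1
    exact (min_le_left _ _).trans (by omega)
  · rw [WithZero.exp_le_exp] at h1
    exact (min_le_right _ _).trans (by omega)

/-- A nonzero element of the affine ring has no zero at `P0`: `ord_P0 ≤ 0`. -/
theorem ord_nonpos_of_mem_affRing (x : F) (hx : Transcendental K x) [FiniteDimensional K⟮x⟯ F]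
    {P0 : Place K F} {a : F} (ha : a ∈ affRing P0) (ha0 : a ≠ 0) : P0.ord a ≤ 0 := by
  classical
  have hP : HasPrincipalDivisors K F := Fermat.Agent.S24.helper204.hasPrincipalDivisors x hx
  have hdeg : ∀ v : Place K F, v.deg = 1 :=
    fun v => Fermat.Agent.S24.helper204.place_deg_eq_one x hx v
  obtain ⟨D, hD, hD0⟩ := hP.exists_divisor a ha0
  by_contra hpos
  rw [not_le] at hpos
  have hnn : (0 : Divisor K F) ≤ D - Finsupp.single P0 1 := by
    rw [Finsupp.le_def]
    intro v
    rw [Finsupp.coe_zero, Pi.zero_apply, Finsupp.sub_apply, hD v]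
    by_cases hv : v = P0
    · subst hv
      rw [Finsupp.single_eq_same]
      omega
    · rw [Finsupp.single_eq_of_ne hv, sub_zero]
      exact (mem_affRing_iff_ord.mp ha) v hv
  have h1 := Fermat.Agent.S27.helper3372.degree_nonneg hdeg hnn
  rw [map_sub, hD0, Divisor.degree_single, hdeg] at h1
  norm_num at h1

/-- Elements of every large pole order exist. -/
theorem exists_ord_eq (x : F) (hx : Transcendental K x) [FiniteDimensional K⟮x⟯ F]
    (P0 : Place K F) : ∃ c : ℤ, ∀ n : ℤ, c ≤ n →
      ∃ f : F, f ∈ affRing P0 ∧ f ≠ 0 ∧ P0.ord f = -n := by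
  obtain ⟨c, hc⟩ := exists_finrank_eq (K := K) (F := F) x hx
  obtain ⟨hfin, -, -⟩ := riemann K F x hx
  have hdeg : P0.deg = 1 := Fermat.Agent.S24.helper204.place_deg_eq_one x hx P0
  refine ⟨c + 1, fun n hn => ?_⟩
  have h1 := hc (Finsupp.single P0 n) (by rw [Divisor.degree_single, hdeg]; push_cast; omega)
  have h2 := hc (Finsupp.single P0 (n - 1))
    (by rw [Divisor.degree_single, hdeg]; push_cast; omega)
  rw [Divisor.degree_single, hdeg] at h1 h2
  push_cast at h1 h2
  haveI := (hfin (Finsupp.single P0 (n - 1) : Divisor K F)).2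
  have hnot : ¬ (riemannRochSpace (Finsupp.single P0 n : Divisor K F)
      ≤ riemannRochSpace (Finsupp.single P0 (n - 1) : Divisor K F)) := by
    intro hle
    have := Submodule.finrank_mono hle
    omega
  obtain ⟨f, hf, hfn⟩ := SetLike.not_le_iff_exists.mp hnot
  rw [mem_riemannRochSpace_single_iff] at hf hfn
  have hf0 : f ≠ 0 := by
    rintro rfl
    exact hfn ⟨hf.1, Or.inl rfl⟩
  refine ⟨f, hf.1, hf0, ?_⟩
  have h3 : -n ≤ P0.ord f := hf.2.resolve_left hf0
  have h4 : ¬ (-(n - 1) ≤ P0.ord f) := fun h => hfn ⟨hf.1, Or.inr h⟩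
  omega

/-- The pole-weight structure of the affine ring at `P0` (S27 `helper4345.PoleWeight`), with
coordinate `t`. -/
def poleWeight (x : F) (hx : Transcendental K x) [FiniteDimensional K⟮x⟯ F] {P0 : Place K F}
    (t : affRing P0) (ht : Transcendental K (t : F)) :
    Fermat.Agent.S27.helper4345.PoleWeight K (affRing P0) where
  wt a := (-P0.ord (a : F)).toNat
  wt_mul a b ha hb := by
    have ha' : (a : F) ≠ 0 := fun h => ha (Subtype.ext h)
    have hb' : (b : F) ≠ 0 := fun h => hb (Subtype.ext h)
    have h1 := ord_nonpos_of_mem_affRing x hx a.2 ha'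
    have h2 := ord_nonpos_of_mem_affRing x hx b.2 hb'
    show (-P0.ord ((a : F) * (b : F))).toNat = _
    rw [P0.ord_mul ha' hb']
    omega
  wt_add a b ha hb hab := by
    have ha' : (a : F) ≠ 0 := fun h => ha (Subtype.ext h)
    have hb' : (b : F) ≠ 0 := fun h => hb (Subtype.ext h)
    have hab' : (a : F) + (b : F) ≠ 0 := fun h => hab (Subtype.ext h)
    have h := min_ord_le_ord_add P0 ha' hb' hab'
    show (-P0.ord ((a : F) + (b : F))).toNat ≤ _
    rcases min_le_iff.mp h with h1 | h1
    · exact le_max_of_le_left (Int.toNat_le_toNat (by omega))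
    · exact le_max_of_le_right (Int.toNat_le_toNat (by omega))
  exists_sub a b ha hb hab := by
    have ha' : (a : F) ≠ 0 := fun h => ha (Subtype.ext h)
    have hb' : (b : F) ≠ 0 := fun h => hb (Subtype.ext h)
    have h1 := ord_nonpos_of_mem_affRing x hx a.2 ha'
    have h2 := ord_nonpos_of_mem_affRing x hx b.2 hb'
    have hord : P0.ord (a : F) = P0.ord (b : F) := by
      have : (-P0.ord (a : F)).toNat = (-P0.ord (b : F)).toNat := hab
      omega
    have hq0 : (a : F) / (b : F) ≠ 0 := div_ne_zero ha' hb'
    have hq : P0.ord ((a : F) / (b : F)) = 0 := by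
      rw [div_eq_mul_inv, P0.ord_mul ha' (inv_ne_zero hb'), P0.ord_inv, hord]
      ring
    have hqv : P0.adicValuation ((a : F) / (b : F)) ≤ 1 := by
      rw [P0.adicValuation_le_one_iff]
      exact Or.inr hq.ge
    obtain ⟨c, hc⟩ := Fermat.Agent.S27.helper3372.exists_const_sub_lt P0
      (Fermat.Agent.S27.helper3372.residue_surjective_of_finite x P0) hqv
    refine ⟨c, ?_⟩
    by_cases heq : a = c • b
    · exact Or.inl heq
    right
    have hne : (a : F) - algebraMap K F c * (b : F) ≠ 0 := by
      intro h
      apply heq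
      apply Subtype.ext
      rw [Subalgebra.coe_smul, Algebra.smul_def]
      exact sub_eq_zero.mp h
    have hne2 : (a : F) / (b : F) - algebraMap K F c ≠ 0 := by
      intro h
      apply hne
      have : (a : F) = algebraMap K F c * (b : F) := by
        rw [← sub_eq_zero.mp h, div_mul_cancel₀ _ hb']
      rw [this, sub_self]
    rw [P0.adicValuation_le_exp_iff] at hc
    have hc' : (1 : ℤ) ≤ P0.ord ((a : F) / (b : F) - algebraMap K F c) := by
      have := hc.resolve_left hne2
      simpa using this
    have hfact : (a : F) - algebraMap K F c * (b : F)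
        = ((a : F) / (b : F) - algebraMap K F c) * (b : F) := by
      rw [sub_mul, div_mul_cancel₀ _ hb']
    have hord2 : P0.ord ((a : F) - algebraMap K F c * (b : F))
        = P0.ord ((a : F) / (b : F) - algebraMap K F c) + P0.ord (b : F) := by
      rw [hfact, P0.ord_mul hne2 hb']
    have hmem : (a : F) - algebraMap K F c * (b : F) ∈ affRing P0 :=
      sub_mem a.2 (mul_mem ((affRing P0).algebraMap_mem c) b.2)
    have h3 := ord_nonpos_of_mem_affRing x hx hmem hne
    show (-P0.ord ((a : F) - (c • b : affRing P0))).toNat < (-P0.ord (a : F)).toNat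
    rw [Subalgebra.coe_smul, Algebra.smul_def]
    omega
  x := t
  x_ne := by
    rintro rfl
    exact ht (isAlgebraic_zero (R := K) (A := F))
  x_pos := by
    haveI : FiniteDimensional K⟮(t : F)⟯ F :=
      Fermat.Agent.S24.helper204.finiteDimensional_adjoin_of_transcendental (x := x) ht
    have := ord_lt_zero_of_mem_affRing t.2 ht
    show 0 < (-P0.ord (t : F)).toNat
    omega
  exists_mod i hi := by
    obtain ⟨c, hc⟩ := exists_ord_eq x hx P0
    set m : ℕ := (-P0.ord (t : F)).toNat with hm
    have hi' : i < m := hi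
    obtain ⟨f, hf, hf0, hford⟩ := hc ((i + m * c.toNat : ℕ) : ℤ) (by
      have hm1 : 1 ≤ m := by omega
      have : c.toNat ≤ m * c.toNat := Nat.le_mul_of_pos_left _ hm1
      have h2 : c ≤ (c.toNat : ℤ) := Int.self_le_toNat c
      push_cast
      have h3 : (c.toNat : ℤ) ≤ (m : ℤ) * (c.toNat : ℤ) := by exact_mod_cast this
      omega)
    refine ⟨⟨f, hf⟩, fun h => hf0 (congrArg Subtype.val h), ?_⟩
    show (-P0.ord f).toNat % m = i
    rw [hford, neg_neg, Int.toNat_natCast, Nat.add_mul_mod_self_left, Nat.mod_eq_of_lt hi']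

theorem poleWeight_wt (x : F) (hx : Transcendental K x) [FiniteDimensional K⟮x⟯ F]
    {P0 : Place K F} (t : affRing P0) (ht : Transcendental K (t : F)) (a : affRing P0) :
    (poleWeight x hx t ht).wt a = (-P0.ord (a : F)).toNat := rfl

theorem poleWeight_x (x : F) (hx : Transcendental K x) [FiniteDimensional K⟮x⟯ F]
    {P0 : Place K F} (t : affRing P0) (ht : Transcendental K (t : F)) :
    (poleWeight x hx t ht).x = t := rfl

/-- For nonzero `a` in the affine ring, `ord_P0 a = - wt a`. -/
theorem ord_eq_neg_wt (x : F) (hx : Transcendental K x) [FiniteDimensional K⟮x⟯ F]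
    {P0 : Place K F} (t : affRing P0) (ht : Transcendental K (t : F)) {a : affRing P0}
    (ha : a ≠ 0) : P0.ord (a : F) = -((poleWeight x hx t ht).wt a : ℤ) := by
  have ha' : (a : F) ≠ 0 := fun h => ha (Subtype.ext h)
  have h1 := ord_nonpos_of_mem_affRing x hx a.2 ha'
  rw [poleWeight_wt]
  omega

/-- **(AF4) Weierstrass basis.** For a transcendental `t` in the affine ring at `P0`, with
`m = -ord_P0 t`, there are `ω_0 = 1, …, ω_(m-1)` in the affine ring with pole orders
`ρ i ≡ i (mod m)` such that `(c_i) ↦ ∑ c_i(t) ω_i` is a bijection from `K[X]^m` onto the affine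
ring, and the pole order of `∑ c_i(t) ω_i` is the largest `m * deg c_i + ρ i`. -/
theorem exists_weierstrassBasis (x : F) (hx : Transcendental K x) [FiniteDimensional K⟮x⟯ F]
    {P0 : Place K F} (t : affRing P0) (ht : Transcendental K (t : F)) :
    ∃ (m : ℕ) (ρ : Fin m → ℕ) (ω : Fin m → affRing P0),
      (m : ℤ) = -P0.ord (t : F) ∧
      (∀ i, ω i ≠ 0 ∧ P0.ord (ω i : F) = -(ρ i : ℤ) ∧ ρ i % m = i) ∧
      (∀ i : Fin m, (i : ℕ) = 0 → ω i = 1) ∧
      Function.Bijective (fun c : Fin m → K[X] => ∑ i, aeval t (c i) * ω i) ∧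
      ∀ c : Fin m → K[X], c ≠ 0 → ∃ i₀, c i₀ ≠ 0 ∧
        P0.ord ((∑ i, aeval t (c i) * ω i : affRing P0) : F)
          = -((m * (c i₀).natDegree + ρ i₀ : ℕ) : ℤ) ∧
        ∀ i, c i ≠ 0 → m * (c i).natDegree + ρ i ≤ m * (c i₀).natDegree + ρ i₀ := by
  set P := poleWeight x hx t ht with hP
  refine ⟨P.m, P.rho, P.omega, ?_, fun i => ⟨P.omega_ne_zero i, ?_, P.rho_mod i⟩,
    fun i hi => P.omega_zero i hi, ⟨P.phi_injective, P.phi_surjective⟩, fun c hc => ?_⟩
  · have hpos := P.x_pos
    have : P.m = (-P0.ord (t : F)).toNat := rfl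
    rw [this]
    have h2 : 0 < (-P0.ord (t : F)).toNat := hpos
    omega
  · rw [ord_eq_neg_wt x hx t ht (P.omega_ne_zero i), ← hP, P.wt_omega]
  · obtain ⟨i₀, h0, hw, hmax⟩ := P.wt_phi hc
    refine ⟨i₀, h0, ?_, fun i hi => hw ▸ hmax i hi⟩
    have hne : P.phi c ≠ 0 := P.phi_ne_zero hc
    have := ord_eq_neg_wt x hx t ht hne
    rw [← hP, hw] at this
    exact this

end Weierstrass


/-! ## (W1) Any family of minimal pole orders is a Weierstrass basis

Abstract statement in the S27 `PoleWeight` setting: the basis property and the weight formula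
hold for EVERY family `ω i ≠ 0` with `wt (ω i) = ρ i`, not only for the chosen `P.omega`.
This is what allows Galois-fixed (rational) Weierstrass bases. -/

section General

open Polynomial Fermat.Agent.S27.helper4345

variable {K B : Type*} [Field K] [CommRing B] [IsDomain B] [Algebra K B] (P : PoleWeight K B)

/-- The coordinate map of a family `ω`: `a ↦ ∑ i, a i (x) * ω i`. -/
def phiOf (ω : Fin P.m → B) : (Fin P.m → K[X]) →ₗ[K] B where
  toFun a := ∑ i, aeval P.x (a i) * ω i
  map_add' a b := by
    simp only [Pi.add_apply, map_add, add_mul, Finset.sum_add_distrib]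
  map_smul' c a := by
    simp only [Pi.smul_apply, map_smul, smul_mul_assoc, Finset.smul_sum, RingHom.id_apply]

theorem phiOf_apply (ω : Fin P.m → B) (a : Fin P.m → K[X]) :
    phiOf P ω a = ∑ i, aeval P.x (a i) * ω i := rfl

theorem phiOf_single (ω : Fin P.m → B) (i : Fin P.m) (p : K[X]) :
    phiOf P ω (Pi.single i p) = aeval P.x p * ω i := by
  classical
  rw [phiOf_apply, Finset.sum_eq_single i]
  · rw [Pi.single_eq_same]
  · intro j _ hj
    rw [Pi.single_eq_of_ne hj, map_zero, zero_mul]
  · intro h
    exact absurd (Finset.mem_univ i) h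

variable {P} {ω : Fin P.m → B}

theorem wd_termOf (hω : ∀ i, ω i ≠ 0 ∧ P.wt (ω i) = P.rho i) {a : Fin P.m → K[X]}
    {i : Fin P.m} (h : a i ≠ 0) :
    P.wd (aeval P.x (a i) * ω i)
      = ((P.m * (a i).natDegree + P.rho i : ℕ) : WithBot ℕ) := by
  rw [P.wd_mul, P.wd_aeval h, P.wd_of_ne (hω i).1, (hω i).2]
  rfl

theorem exists_max_termOf (hω : ∀ i, ω i ≠ 0 ∧ P.wt (ω i) = P.rho i) {a : Fin P.m → K[X]}
    (ha : a ≠ 0) :
    ∃ i₀, a i₀ ≠ 0 ∧
      P.wd (phiOf P ω a) = ((P.m * (a i₀).natDegree + P.rho i₀ : ℕ) : WithBot ℕ) ∧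
      ∀ i, a i ≠ 0 → P.m * (a i).natDegree + P.rho i ≤ P.m * (a i₀).natDegree + P.rho i₀ := by
  classical
  have hne : (Finset.univ.filter fun i => a i ≠ 0).Nonempty := by
    by_contra h
    rw [Finset.not_nonempty_iff_eq_empty, Finset.filter_eq_empty_iff] at h
    exact ha (funext fun i => by simpa using h (Finset.mem_univ i))
  obtain ⟨i₀, hi₀, hmax⟩ :=
    Finset.exists_max_image _ (fun i => P.m * (a i).natDegree + P.rho i) hne
  rw [Finset.mem_filter] at hi₀
  refine ⟨i₀, hi₀.2, ?_, fun i hi => hmax i (Finset.mem_filter.mpr ⟨Finset.mem_univ _, hi⟩)⟩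
  rw [phiOf_apply, P.wd_sum_eq _ _ i₀ (Finset.mem_univ _)
    (mul_ne_zero (P.aeval_ne_zero hi₀.2) (hω i₀).1), wd_termOf hω hi₀.2]
  intro j _ hj
  by_cases haj : a j = 0
  · rw [haj, map_zero, zero_mul, P.wd_zero]
    exact P.bot_lt_wd (mul_ne_zero (P.aeval_ne_zero hi₀.2) (hω i₀).1)
  · rw [wd_termOf hω haj, wd_termOf hω hi₀.2]
    have h1 := hmax j (Finset.mem_filter.mpr ⟨Finset.mem_univ _, haj⟩)
    have h2 : P.m * (a j).natDegree + P.rho j ≠ P.m * (a i₀).natDegree + P.rho i₀ := by
      intro h
      have h3 := congrArg (· % P.m) h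
      simp only [Nat.mul_add_mod, P.rho_mod] at h3
      exact hj (Fin.ext h3)
    exact WithBot.coe_lt_coe.mpr (lt_of_le_of_ne h1 h2)

theorem phiOf_ne_zero (hω : ∀ i, ω i ≠ 0 ∧ P.wt (ω i) = P.rho i) {a : Fin P.m → K[X]}
    (ha : a ≠ 0) : phiOf P ω a ≠ 0 := by
  obtain ⟨_, _, h, _⟩ := exists_max_termOf hω ha
  exact (P.wt_of_wd h).1

theorem phiOf_injective (hω : ∀ i, ω i ≠ 0 ∧ P.wt (ω i) = P.rho i) :
    Function.Injective (phiOf P ω) :=
  (injective_iff_map_eq_zero _).mpr fun _ h => by_contra fun ha => phiOf_ne_zero hω ha h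

/-- The weight of `∑ a_i(x) ω_i` is the largest `m * deg (a i) + ρ i`. -/
theorem wt_phiOf (hω : ∀ i, ω i ≠ 0 ∧ P.wt (ω i) = P.rho i) {a : Fin P.m → K[X]}
    (ha : a ≠ 0) :
    ∃ i₀, a i₀ ≠ 0 ∧ P.wt (phiOf P ω a) = P.m * (a i₀).natDegree + P.rho i₀ ∧
      ∀ i, a i ≠ 0 → P.m * (a i).natDegree + P.rho i ≤ P.wt (phiOf P ω a) := by
  obtain ⟨i₀, h0, h, hmax⟩ := exists_max_termOf hω ha
  have hw := (P.wt_of_wd h).2
  exact ⟨i₀, h0, hw, fun i hi => hw ▸ hmax i hi⟩

theorem phiOf_surjective (hω : ∀ i, ω i ≠ 0 ∧ P.wt (ω i) = P.rho i) :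
    Function.Surjective (phiOf P ω) := by
  have key : ∀ n : ℕ, ∀ b : B, b ≠ 0 → P.wt b = n → ∃ a, phiOf P ω a = b := by
    intro n
    induction n using Nat.strong_induction_on with
    | _ n ih =>
      intro b hb hn
      obtain ⟨i, hi⟩ : ∃ i : Fin P.m, (i : ℕ) = P.wt b % P.m :=
        ⟨⟨P.wt b % P.m, Nat.mod_lt _ P.x_pos⟩, rfl⟩
      have hle := P.rho_le i hb hi.symm
      have hmod : P.rho i % P.m = P.wt b % P.m := (P.rho_mod i).trans hi
      obtain ⟨e, he⟩ : ∃ e, P.wt b = P.m * e + P.rho i := by
        obtain ⟨e, he⟩ := (Nat.modEq_iff_dvd' hle).mp hmod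
        exact ⟨e, by omega⟩
      have hxe : P.x ^ e ≠ 0 := pow_ne_zero e P.x_ne
      have hu0 : P.x ^ e * ω i ≠ 0 := mul_ne_zero hxe (hω i).1
      have hwu : P.wt (P.x ^ e * ω i) = P.m * e + P.rho i := by
        apply (P.wt_of_wd _).2
        rw [P.wd_mul, P.wd_x_pow, P.wd_of_ne (hω i).1, (hω i).2]
        rfl
      have hsingle : ∀ c : K, phiOf P ω (Pi.single i (C c * X ^ e))
          = c • (P.x ^ e * ω i) := by
        intro c
        rw [phiOf_single, map_mul, aeval_C, map_pow, aeval_X, Algebra.smul_def, mul_assoc]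
      obtain ⟨c, hc | hc⟩ := P.exists_sub b _ hb hu0 (by rw [hwu, ← he])
      · exact ⟨_, (hsingle c).trans hc.symm⟩
      · by_cases h0 : b - c • (P.x ^ e * ω i) = 0
        · exact ⟨_, (hsingle c).trans (sub_eq_zero.mp h0).symm⟩
        · obtain ⟨a', ha'⟩ := ih _ (hn ▸ hc) _ h0 rfl
          refine ⟨a' + Pi.single i (C c * X ^ e), ?_⟩
          rw [map_add, ha', hsingle]
          ring
  intro b
  by_cases hb : b = 0
  · exact ⟨0, by rw [hb, map_zero]⟩
  · exact key _ b hb rfl

end General


/-! ## (W2) Weierstrass bases inside a prescribed set (rational Weierstrass bases) -/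

section WeierstrassIn

variable {K : Type u} {F : Type v} [Field K] [Field F] [Algebra K F] [IsAlgClosed K] [CharZero K]

open Polynomial

/-- **(AF4-RAT)** If a set `S ⊆ F` contains `1` and realises every pole order at `P0` of the
affine ring (e.g. `S` = the rational functions, by Galois descent of `L(n • P0)`), then the
Weierstrass basis of the affine ring over `K[t]` can be chosen inside `S`. Same `m`, same
pole-order formula as `exists_weierstrassBasis`. -/
theorem exists_weierstrassBasis_in (x : F) (hx : Transcendental K x) [FiniteDimensional K⟮x⟯ F]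
    {P0 : Place K F} (t : affRing P0) (ht : Transcendental K (t : F)) (S : Set F)
    (h1 : (1 : F) ∈ S)
    (hS : ∀ f : F, f ∈ affRing P0 → f ≠ 0 →
      ∃ f' : F, f' ∈ S ∧ f' ∈ affRing P0 ∧ f' ≠ 0 ∧ P0.ord f' = P0.ord f) :
    ∃ (m : ℕ) (ρ : Fin m → ℕ) (ω : Fin m → affRing P0),
      (m : ℤ) = -P0.ord (t : F) ∧
      (∀ i, ω i ≠ 0 ∧ P0.ord (ω i : F) = -(ρ i : ℤ) ∧ ρ i % m = i ∧ (ω i : F) ∈ S) ∧
      (∀ i : Fin m, (i : ℕ) = 0 → ω i = 1) ∧
      Function.Bijective (fun c : Fin m → K[X] => ∑ i, aeval t (c i) * ω i) ∧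
      ∀ c : Fin m → K[X], c ≠ 0 → ∃ i₀, c i₀ ≠ 0 ∧
        P0.ord ((∑ i, aeval t (c i) * ω i : affRing P0) : F)
          = -((m * (c i₀).natDegree + ρ i₀ : ℕ) : ℤ) ∧
        ∀ i, c i ≠ 0 → m * (c i).natDegree + ρ i ≤ m * (c i₀).natDegree + ρ i₀ := by
  classical
  set P := poleWeight x hx t ht with hP
  -- a representative in `S` of each chosen basis element
  have hex : ∀ i : Fin P.m, ∃ f' : F, f' ∈ S ∧ f' ∈ affRing P0 ∧ f' ≠ 0 ∧
      P0.ord f' = P0.ord (P.omega i : F) := fun i =>
    hS (P.omega i : F) (P.omega i).2 (fun h => P.omega_ne_zero i (Subtype.ext h))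
  choose g hgS hgA hg0 hgord using hex
  let ω : Fin P.m → affRing P0 := fun i => if (i : ℕ) = 0 then 1 else ⟨g i, hgA i⟩
  have hω0 : ∀ i : Fin P.m, (i : ℕ) = 0 → ω i = 1 := fun i hi => by simp [ω, hi]
  have hω1 : ∀ i : Fin P.m, (i : ℕ) ≠ 0 → ω i = ⟨g i, hgA i⟩ := fun i hi => by simp [ω, hi]
  have hω : ∀ i, ω i ≠ 0 ∧ P.wt (ω i) = P.rho i := by
    intro i
    by_cases hi : (i : ℕ) = 0
    · rw [hω0 i hi]
      exact ⟨one_ne_zero, by rw [P.wt_one, P.rho_zero i hi]⟩
    · rw [hω1 i hi]
      refine ⟨fun h => hg0 i (congrArg Subtype.val h), ?_⟩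
      rw [← P.wt_omega i]
      show (-P0.ord (g i)).toNat = (-P0.ord ((P.omega i : affRing P0) : F)).toNat
      rw [hgord i]
  have hωS : ∀ i, (ω i : F) ∈ S := by
    intro i
    by_cases hi : (i : ℕ) = 0
    · rw [hω0 i hi]
      exact h1
    · rw [hω1 i hi]
      exact hgS i
  refine ⟨P.m, P.rho, ω, ?_, fun i => ⟨(hω i).1, ?_, P.rho_mod i, hωS i⟩, hω0,
    ⟨phiOf_injective hω, phiOf_surjective hω⟩, fun c hc => ?_⟩
  · have hpos := P.x_pos
    have : P.m = (-P0.ord (t : F)).toNat := rfl
    rw [this]
    have h2 : 0 < (-P0.ord (t : F)).toNat := hpos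
    omega
  · rw [ord_eq_neg_wt x hx t ht (hω i).1, ← hP, (hω i).2]
  · obtain ⟨i₀, h0, hw, hmax⟩ := wt_phiOf hω hc
    refine ⟨i₀, h0, ?_, fun i hi => hw ▸ hmax i hi⟩
    have hne : phiOf P ω c ≠ 0 := phiOf_ne_zero hω hc
    have := ord_eq_neg_wt x hx t ht hne
    rw [← hP, hw] at this
    exact this

/-- The hypothesis `hS` of `exists_weierstrassBasis_in` from a descent statement: if every
`L(n • P0)` is spanned over `K` by its elements in `S` (Galois descent of `L(n • P0)` for a
rational place `P0`), then `S` realises every pole order of the affine ring. -/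
theorem exists_mem_ord_eq_of_span {P0 : Place K F} (S : Set F)
    (hspan : ∀ n : ℤ, riemannRochSpace (Finsupp.single P0 n : Divisor K F) ≤
      Submodule.span K (S ∩ (riemannRochSpace (Finsupp.single P0 n : Divisor K F) : Set F))) :
    ∀ f : F, f ∈ affRing P0 → f ≠ 0 →
      ∃ f' : F, f' ∈ S ∧ f' ∈ affRing P0 ∧ f' ≠ 0 ∧ P0.ord f' = P0.ord f := by
  intro f hf hf0
  set n : ℤ := -P0.ord f with hn
  have hfn : f ∈ riemannRochSpace (Finsupp.single P0 n : Divisor K F) := by
    rw [mem_riemannRochSpace_single_iff]
    exact ⟨hf, Or.inr (by rw [hn, neg_neg])⟩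
  have hfn1 : f ∉ riemannRochSpace (Finsupp.single P0 (n - 1) : Divisor K F) := by
    rw [mem_riemannRochSpace_single_iff]
    rintro ⟨-, h | h⟩
    · exact hf0 h
    · omega
  by_contra hno
  have hall : ∀ f' ∈ S ∩ (riemannRochSpace (Finsupp.single P0 n : Divisor K F) : Set F),
      f' ∈ riemannRochSpace (Finsupp.single P0 (n - 1) : Divisor K F) := by
    rintro f' ⟨hf'S, hf'n⟩
    have hf'n' := (mem_riemannRochSpace_single_iff P0 n f').mp hf'n
    rw [mem_riemannRochSpace_single_iff]
    refine ⟨hf'n'.1, ?_⟩
    by_cases hf'0 : f' = 0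
    · exact Or.inl hf'0
    · right
      have h1 : -n ≤ P0.ord f' := hf'n'.2.resolve_left hf'0
      have h2 : P0.ord f' ≠ P0.ord f := fun h => hno ⟨f', hf'S, hf'n'.1, hf'0, h⟩
      omega
  have hle : Submodule.span K (S ∩ (riemannRochSpace (Finsupp.single P0 n : Divisor K F) : Set F))
      ≤ riemannRochSpace (Finsupp.single P0 (n - 1) : Divisor K F) :=
    Submodule.span_le.mpr hall
  exact hfn1 (hle (hspan n hfn))

end WeierstrassIn

end

end Fermat.Agent.S17.helper3723
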