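import Fermat.Agent.S17.helper2801_HinfDefs
import Fermat.Agent.S17.helper3723_AffRing
import Fermat.Agent.S17.helper1298_Reduced
import Fermat.Agent.S17.helper1643_AffInst
import Fermat.Agent.S17.helper2681_NormDictAbs
import Fermat.Agent.S17.helper1256_HinfNorthcott

/-!
# S17, Pluecker track: leaf L6 (`HinfSpec`) of `helper3197_PlueckerSpec` (integrator helper2801)

`Hinf(D) = h(P_D) / n`, `P_D = ∏_{P ≠ P0} (X - τ(P))^{D(P)}`, for a rational function `τ` whose
only pole is `P0`, of exact order `n ≥ 1` (definitions in `helper2801_HinfDefs`).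

* `exists_ratPD`  : `P_D` has rational coefficients for a rational divisor `D`;
* `hinf_add`      : clause (a) of `HinfSpec` (Gelfond);
* `exists_coord`  : existence of the coordinate `τ` from the leaves L1 + L2;
-/

set_option autoImplicit false

open ModularCurve AlgebraicCurve Polynomial IntermediateField
open Fermat.Agent.S27.helper6247
open Fermat.Agent.S17.helper3197

namespace Fermat.Agent.S17.helper2801

noncomputable section

/-! ## Galois equivariance of the norm polynomial -/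

section Generic

variable {K : Type*} {F : Type*} [Field K] [Field F] [Algebra K F]

open SemilinearAut

/-- The norm polynomial of `s • D` is the `s`-conjugate of that of `D` (for `t` fixed by `s`). -/
theorem normPoly_smul' (s : SemilinearAut K F) {t : F} (ht : s • t = t) (D : Divisor K F) :
    Fermat.Agent.S17.helper1643.normPoly t (s • D)
      = (Fermat.Agent.S17.helper1643.normPoly t D).map ((baseAut s : K ≃+* K) : K →+* K) := by
  unfold Fermat.Agent.S17.helper1643.normPoly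
  rw [divisor_smul_def, Finsupp.prod_mapDomain_index_inj (MulAction.injective s), Finsupp.prod,
    Finsupp.prod, Polynomial.map_prod]
  refine Finset.prod_congr rfl fun P _ => ?_
  rw [Fermat.Agent.S17.helper1298.ev_smul_of_fixed s P ht, Polynomial.map_pow, Polynomial.map_sub,
    Polynomial.map_X, Polynomial.map_C]
  rfl

theorem smul_erase (s : SemilinearAut K F) (P0 : Place K F) (D : Divisor K F) :
    s • Finsupp.erase P0 D = Finsupp.erase (s • P0) (s • D) := by
  classical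
  ext w
  rw [divisor_smul_apply, Finsupp.erase_apply, Finsupp.erase_apply, divisor_smul_apply]
  by_cases h : w = s • P0
  · rw [if_pos h, if_pos (by rw [h, inv_smul_smul])]
  · rw [if_neg h, if_neg (fun h' => h (by rw [← h', smul_inv_smul]))]

/-- Over an algebraically closed constant field a function with a pole is transcendental. -/
theorem transcendental_of_ord_neg [IsAlgClosed K] {P : Place K F} {t : F} (h : P.ord t < 0) :
    Transcendental K t := by
  intro halg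
  have hint : IsIntegral K t := halg.isIntegral
  have hdeg : (minpoly K t).degree = 1 :=
    IsAlgClosed.degree_eq_one_of_irreducible K (minpoly.irreducible hint)
  obtain ⟨c, hc⟩ := minpoly.mem_range_of_degree_eq_one K t hdeg
  rw [← hc, Fermat.Agent.S24.helper1370.ord_algebraMap] at h
  exact lt_irrefl _ h

end Generic

variable {F₀ : IntermediateField ℚ (LaurentSeries ℚ)}

/-! ## Rationality -/

theorem arithmeticGalois_smul_ratEmb (σ : GalQ) (a : F₀) :
    arithmeticGalois F₀ σ • ratEmb F₀ a = ratEmb F₀ a := by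
  apply Subtype.ext
  rw [coe_arithmeticGalois_smul, coe_ratEmb]
  exact coeffMap_coeffEmb σ _

theorem isRat_add {D E : Divisor Qb (FB F₀)} (hD : IsRat F₀ D) (hE : IsRat F₀ E) :
    IsRat F₀ (D + E) := fun σ => by rw [smul_add, hD σ, hE σ]

theorem isRat_zsmul_pt {P0 : Place Qb (FB F₀)} (hP0 : IsRatPlace F₀ P0) (k : ℤ) :
    IsRat F₀ (k • pt P0) := fun σ => by
  rw [smul_comm, Fermat.Agent.S17.helper1298.smul_pt, hP0 σ]

/-- The zero divisor of a rational function (at any level) is rational. -/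
theorem isRat_of_isZeroDiv {P0 : Place Qb (FB F₀)} (hP0 : IsRatPlace F₀ P0) {k : ℤ} {α : F₀}
    {Z : Divisor Qb (FB F₀)} (hZ : IsZeroDiv F₀ P0 k α Z) : IsRat F₀ Z := by
  intro σ
  ext v
  have h1 : (arithmeticGalois F₀ σ • Z) v = Z ((arithmeticGalois F₀ σ)⁻¹ • v) :=
    SemilinearAut.divisor_smul_apply _ _ _
  have h2 : ((arithmeticGalois F₀ σ)⁻¹ • v).ord (ratEmb F₀ α) = v.ord (ratEmb F₀ α) := by
    have h3 := SemilinearAut.ord_smul (arithmeticGalois F₀ σ)
      ((arithmeticGalois F₀ σ)⁻¹ • v) (ratEmb F₀ α)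
    rw [smul_inv_smul, arithmeticGalois_smul_ratEmb] at h3
    exact h3.symm
  have h4 : (k • pt P0 : Divisor Qb (FB F₀)) ((arithmeticGalois F₀ σ)⁻¹ • v)
      = (k • pt P0 : Divisor Qb (FB F₀)) v := by
    rw [← SemilinearAut.divisor_smul_apply, isRat_zsmul_pt hP0 k σ]
  rw [h1, hZ, hZ, h2, h4]

theorem PD_map_of_isRat {P0 : Place Qb (FB F₀)} (hP0 : IsRatPlace F₀ P0) {τ : FB F₀}
    (hτ : ∀ σ : GalQ, arithmeticGalois F₀ σ • τ = τ) {D : Divisor Qb (FB F₀)}
    (hD : IsRat F₀ D) (σ : GalQ) :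
    (PD P0 τ D).map ((σ.toRingEquiv : Qb ≃+* Qb) : Qb →+* Qb) = PD P0 τ D := by
  have h := normPoly_smul' (arithmeticGalois F₀ σ) (hτ σ) (Finsupp.erase P0 D)
  rw [smul_erase, hP0 σ, hD σ, baseAut_arithmeticGalois] at h
  exact h.symm

/-- **Rationality of `P_D`.** For a rational place `P0`, a rational function `τ` and a rational
divisor `D`, the polynomial `P_D` has rational coefficients. -/
theorem exists_ratPD {P0 : Place Qb (FB F₀)} (hP0 : IsRatPlace F₀ P0) {τ : FB F₀}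
    (hτ : ∀ σ : GalQ, arithmeticGalois F₀ σ • τ = τ) {D : Divisor Qb (FB F₀)}
    (hD : IsRat F₀ D) : ∃ Q : ℚ[X], Q.map (algebraMap ℚ Qb) = PD P0 τ D := by
  have : Algebra.IsAlgebraic ℚ (AlgebraicClosure ℚ) := AlgebraicClosure.isAlgebraic ℚ
  have : IsAlgClosure ℚ (AlgebraicClosure ℚ) := ⟨inferInstance, inferInstance⟩
  have hgal : IsGalois ℚ Qb := inferInstance
  have hl : PD P0 τ D ∈ Polynomial.lifts (algebraMap ℚ Qb) := by
    rw [Polynomial.lifts_iff_coeff_lifts]
    intro k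
    rw [InfiniteGalois.mem_range_algebraMap_iff_fixed]
    intro σ
    have h := congrArg (fun p : Qb[X] => p.coeff k) (PD_map_of_isRat hP0 hτ hD σ)
    simp only [Polynomial.coeff_map] at h
    exact h
  exact (Polynomial.mem_lifts _).mp hl

/-! ## Degrees -/

section Degree

variable {K : Type*} {F : Type*} [Field K] [Field F] [Algebra K F]

theorem natDegree_normPoly (hdeg : ∀ v : Place K F, v.deg = 1) (t : F) {D : Divisor K F}
    (hD : 0 ≤ D) :
    ((Fermat.Agent.S17.helper1643.normPoly t D).natDegree : ℤ) = Divisor.degree D := by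
  unfold Fermat.Agent.S17.helper1643.normPoly
  rw [Finsupp.prod, Polynomial.natDegree_prod_of_monic _ _
    (fun P _ => (Polynomial.monic_X_sub_C _).pow _),
    Fermat.Agent.S17.helper1298.degree_eq_sum hdeg D, Nat.cast_sum]
  refine Finset.sum_congr rfl fun P _ => ?_
  rw [(Polynomial.monic_X_sub_C _).natDegree_pow, Polynomial.natDegree_X_sub_C, mul_one]
  exact Int.toNat_of_nonneg (hD P)

theorem degree_erase (hdeg : ∀ v : Place K F, v.deg = 1) (P0 : Place K F) (D : Divisor K F) :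
    Divisor.degree (Finsupp.erase P0 D) = Divisor.degree D - D P0 := by
  rw [Finsupp.erase_eq_sub_single, map_sub, Divisor.degree_single, hdeg P0, Nat.cast_one, mul_one]

end Degree

theorem natDegree_PD_le (hdeg : ∀ v : Place Qb (FB F₀), v.deg = 1) (P0 : Place Qb (FB F₀))
    (τ : FB F₀) {D : Divisor Qb (FB F₀)} (hD : 0 ≤ D) :
    ((PD P0 τ D).natDegree : ℤ) ≤ Divisor.degree D := by
  unfold PD
  rw [natDegree_normPoly hdeg τ (erase_nonneg hD), degree_erase hdeg]
  have := hD P0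
  simp only [Finsupp.coe_zero, Pi.zero_apply] at this
  omega

theorem natDegree_ratPD {P0 : Place Qb (FB F₀)} {τ : FB F₀} {D : Divisor Qb (FB F₀)}
    (h : ∃ Q : ℚ[X], Q.map (algebraMap ℚ Qb) = PD P0 τ D) :
    (ratPD P0 τ D).natDegree = (PD P0 τ D).natDegree := by
  rw [← map_ratPD h, Polynomial.natDegree_map]

theorem ratPD_ne_zero {P0 : Place Qb (FB F₀)} {τ : FB F₀} {D : Divisor Qb (FB F₀)}
    (h : ∃ Q : ℚ[X], Q.map (algebraMap ℚ Qb) = PD P0 τ D) : ratPD P0 τ D ≠ 0 := by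
  intro h0
  have h1 := map_ratPD h
  rw [h0, Polynomial.map_zero] at h1
  exact (PD_monic P0 τ D).ne_zero h1.symm

theorem ratPD_monic {P0 : Place Qb (FB F₀)} {τ : FB F₀} {D : Divisor Qb (FB F₀)}
    (h : ∃ Q : ℚ[X], Q.map (algebraMap ℚ Qb) = PD P0 τ D) : (ratPD P0 τ D).Monic := by
  have h1 : ((ratPD P0 τ D).map (algebraMap ℚ Qb)).Monic := by
    rw [map_ratPD h]; exact PD_monic P0 τ D
  exact Polynomial.monic_of_injective (algebraMap ℚ Qb).injective h1

theorem ratPD_add {P0 : Place Qb (FB F₀)} {τ : FB F₀} {D E : Divisor Qb (FB F₀)}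
    (hD : 0 ≤ D) (hE : 0 ≤ E)
    (h : ∃ Q : ℚ[X], Q.map (algebraMap ℚ Qb) = PD P0 τ D)
    (h' : ∃ Q : ℚ[X], Q.map (algebraMap ℚ Qb) = PD P0 τ E)
    (h'' : ∃ Q : ℚ[X], Q.map (algebraMap ℚ Qb) = PD P0 τ (D + E)) :
    ratPD P0 τ (D + E) = ratPD P0 τ D * ratPD P0 τ E := by
  apply Polynomial.map_injective (algebraMap ℚ Qb) (algebraMap ℚ Qb).injective
  rw [Polynomial.map_mul, map_ratPD h, map_ratPD h', map_ratPD h'', PD_add P0 τ hD hE]

/-! ## Clause (a): additivity up to `O(1)` (Gelfond) -/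

/-- **L6 (a).** `Hinf(D + E) = Hinf(D) + Hinf(E) + O(1)` on rational effective divisors of
bounded degree. -/
theorem hinf_add (hdeg : ∀ v : Place Qb (FB F₀), v.deg = 1) {P0 : Place Qb (FB F₀)}
    (hP0 : IsRatPlace F₀ P0) {τ : FB F₀} (hτ : ∀ σ : GalQ, arithmeticGalois F₀ σ • τ = τ)
    (n : ℕ) (d : ℤ) :
    ∃ C : ℝ, ∀ D E : Divisor Qb (FB F₀), IsRat F₀ D → IsRat F₀ E → 0 ≤ D → 0 ≤ E →
      Divisor.degree D ≤ d → Divisor.degree E ≤ d →
      |HinfOf P0 τ n (D + E) - HinfOf P0 τ n D - HinfOf P0 τ n E| ≤ C := by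
  obtain ⟨C, hC0, hC⟩ :=
    Fermat.Agent.Lib.helper1102.abs_polyLogHeight_mul_sub_le (K := ℚ) (2 * d.toNat)
  refine ⟨C / n, fun D E hDr hEr hD hE hDd hEd => ?_⟩
  have h := exists_ratPD hP0 hτ hDr
  have h' := exists_ratPD hP0 hτ hEr
  have h'' := exists_ratPD hP0 hτ (isRat_add hDr hEr)
  have hdD : (ratPD P0 τ D).natDegree ≤ d.toNat := by
    have := natDegree_PD_le hdeg P0 τ hD
    rw [natDegree_ratPD h]
    omega
  have hdE : (ratPD P0 τ E).natDegree ≤ d.toNat := by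
    have := natDegree_PD_le hdeg P0 τ hE
    rw [natDegree_ratPD h']
    omega
  have hmul : (ratPD P0 τ D * ratPD P0 τ E).natDegree ≤ 2 * d.toNat := by
    have := Polynomial.natDegree_mul_le (p := ratPD P0 τ D) (q := ratPD P0 τ E)
    omega
  have key := hC (ratPD P0 τ D) (ratPD P0 τ E) (ratPD_ne_zero h) (ratPD_ne_zero h') hmul
  unfold HinfOf
  rw [ratPD_add hD hE h h' h'']
  have e : Fermat.Agent.Lib.helper1102.polyLogHeight (ratPD P0 τ D * ratPD P0 τ E) / (n : ℝ)
      - Fermat.Agent.Lib.helper1102.polyLogHeight (ratPD P0 τ D) / n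
      - Fermat.Agent.Lib.helper1102.polyLogHeight (ratPD P0 τ E) / n
      = (Fermat.Agent.Lib.helper1102.polyLogHeight (ratPD P0 τ D * ratPD P0 τ E)
          - (Fermat.Agent.Lib.helper1102.polyLogHeight (ratPD P0 τ D)
            + Fermat.Agent.Lib.helper1102.polyLogHeight (ratPD P0 τ E))) / n := by
    ring
  rw [e, abs_div, abs_of_nonneg (Nat.cast_nonneg n : (0 : ℝ) ≤ (n : ℝ))]
  exact div_le_div_of_nonneg_right key (Nat.cast_nonneg n)

/-! ## The coordinate function -/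

/-- **Existence of the coordinate** (from the leaves L1 + L2): a rational function whose only
pole is `P0`, of exact order `n ≥ 1`. -/
theorem exists_coord (hdeg : ∀ v : Place Qb (FB F₀), v.deg = 1) {P0 : Place Qb (FB F₀)}
    (hP0 : IsRatPlace F₀ P0) (hL1 : RiemannSpec F₀) (hL2 : RatDescSpec F₀) :
    ∃ (t₀ : F₀) (n : ℕ), 0 < n ∧ ratEmb F₀ t₀ ∈ Fermat.Agent.S17.helper3723.affRing P0 ∧
      P0.ord (ratEmb F₀ t₀) = -(n : ℤ) := by
  obtain ⟨hfin, c₁, hc₁⟩ := hL1
  obtain ⟨N, hN1, hNc⟩ : ∃ N : ℤ, 1 ≤ N ∧ c₁ ≤ N - 1 := ⟨max c₁ 0 + 1, by omega, by omega⟩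
  have hdegN : ∀ k : ℤ, Divisor.degree (k • pt P0 : Divisor Qb (FB F₀)) = k := fun k => by
    rw [map_zsmul, Fermat.Agent.S17.helper1298.degree_pt_eq hdeg, smul_eq_mul, mul_one]
  have h1 := hc₁ (N • pt P0) (by rw [hdegN]; omega)
  have h2 := hc₁ ((N - 1) • pt P0) (by rw [hdegN]; exact hNc)
  rw [hdegN] at h1 h2
  have hnot : ¬ (riemannRochSpace (N • pt P0 : Divisor Qb (FB F₀))
      ≤ riemannRochSpace ((N - 1) • pt P0 : Divisor Qb (FB F₀))) := by
    intro hle
    have := hfin ((N - 1) • pt P0)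
    have := Submodule.finrank_mono hle
    omega
  obtain ⟨-, -, hspan⟩ := hL2 (N • pt P0) (isRat_zsmul_pt hP0 N)
  have hex : ∃ t₀ ∈ ratRR F₀ (N • pt P0),
      ratEmb F₀ t₀ ∉ riemannRochSpace ((N - 1) • pt P0 : Divisor Qb (FB F₀)) := by
    by_contra hcon
    push Not at hcon
    apply hnot
    rw [← hspan, Submodule.span_le]
    rintro _ ⟨t₀, ht₀, rfl⟩
    exact hcon t₀ ht₀
  obtain ⟨t₀, ht₀, hnt₀⟩ := hex
  have hpt : ∀ k : ℤ, (k • pt P0 : Divisor Qb (FB F₀)) = Finsupp.single P0 k := fun k => by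
    unfold pt
    rw [Finsupp.smul_single, smul_eq_mul, mul_one]
  rw [mem_ratRR, hpt, Fermat.Agent.S17.helper3723.mem_riemannRochSpace_single_iff] at ht₀
  rw [hpt, Fermat.Agent.S17.helper3723.mem_riemannRochSpace_single_iff] at hnt₀
  have h0 : ratEmb F₀ t₀ ≠ 0 := fun h => hnt₀ ⟨ht₀.1, Or.inl h⟩
  have h3 : -N ≤ P0.ord (ratEmb F₀ t₀) := ht₀.2.resolve_left h0
  have h4 : ¬ (-(N - 1) ≤ P0.ord (ratEmb F₀ t₀)) := fun h => hnt₀ ⟨ht₀.1, Or.inr h⟩
  refine ⟨t₀, N.toNat, by omega, ht₀.1, ?_⟩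
  rw [Int.toNat_of_nonneg (by omega)]
  omega

/-! ## Clause (b): the norm dictionary -/

section NormDict

universe u v

variable {K : Type u} {F : Type v} [Field K] [Field F] [Algebra K F] [IsAlgClosed K] [CharZero K]
  [Algebra.IsAlgebraic ℚ K]

/-- **Norm dictionary, carrier form** (generic constant field `K` algebraic over `ℚ`): for a
coordinate `t` with its only pole at `P0` and a `K`-linearly independent finite family `e` of
functions regular off `P0`, the height of the (rational) norm polynomial of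
`ψ = ∑ c_s e_s`, `c ∈ ℚ^σ`, is `(-ord_P0 t) * h(c) + O(1)`. -/
theorem abs_polyLogHeight_normPoly_sub_le (x : F) (hx : Transcendental K x)
    [FiniteDimensional K⟮x⟯ F] (P0 : Place K F) (t : F)
    (ht : t ∈ Fermat.Agent.S17.helper3723.affRing P0) (htr : Transcendental K t)
    {σ : Type*} [Fintype σ] (e : σ → F) (heA : ∀ s, e s ∈ Fermat.Agent.S17.helper3723.affRing P0)
    (he : LinearIndependent K e) :
    ∃ C : ℝ, ∀ (c : σ → ℚ) (Z : Divisor K F) (Q : ℚ[X]), c ≠ 0 → Z P0 = 0 →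
      (∀ P : Place K F, P ≠ P0 → Z P = P.ord (∑ s, algebraMap ℚ K (c s) • e s)) →
      Q.map (algebraMap ℚ K) = Fermat.Agent.S17.helper1643.normPoly t Z →
      |Fermat.Agent.Lib.helper1102.polyLogHeight Q
        - ((-P0.ord t).toNat : ℝ) * Height.logHeight c| ≤ C := by
  classical
  obtain ⟨m, -, ω, hm, -, -, hbij, -⟩ :=
    Fermat.Agent.S17.helper3723.exists_weierstrassBasis x hx (P0 := P0) ⟨t, ht⟩ htr
  have hmn : (-P0.ord t).toNat = m := by
    have : (m : ℤ) = -P0.ord t := hm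
    omega
  let e' : σ → ↥(Fermat.Agent.S17.helper3723.affRing P0) := fun s => ⟨e s, heA s⟩
  have he' : LinearIndependent K e' :=
    LinearIndependent.of_comp (Fermat.Agent.S17.helper3723.affRing P0).val.toLinearMap he
  obtain ⟨C, hC⟩ :=
    Fermat.Agent.S17.helper2681.abs_polyLogHeight_sub_le_of_charpoly
      (⟨t, ht⟩ : ↥(Fermat.Agent.S17.helper3723.affRing P0)) ω hbij e' he'
  refine ⟨C, fun c Z Q hc hinf hZ hQ => ?_⟩
  set ψ : ↥(Fermat.Agent.S17.helper3723.affRing P0) := ∑ s, algebraMap ℚ K (c s) • e' s with hψdef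
  have hψcoe : (ψ : F) = ∑ s, algebraMap ℚ K (c s) • e s := by
    rw [hψdef, AddSubmonoidClass.coe_finsetSum]
    rfl
  have hψ0 : ψ ≠ 0 := by
    intro h
    apply hc
    have h1 := (Fintype.linearIndependent_iff.mp he') (fun s => algebraMap ℚ K (c s)) h
    funext s
    exact (map_eq_zero (algebraMap ℚ K)).mp (h1 s)
  have hfin := Fermat.Agent.S17.helper1643.finite_quotient_span_singleton_aff x hx P0 hψ0
  have hchar := Fermat.Agent.S17.helper1643.charpoly_mulQ_span_singleton_aff x hx P0 hψ0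
    (Z := Z) hinf (fun P hP => by rw [hψcoe]; exact hZ P hP) ⟨t, ht⟩
  have key := hC c ψ Q hc rfl (by rw [hQ]; exact hchar.symm)
  rw [Fintype.card_fin] at key
  rw [hmn]
  exact key

end NormDict

theorem ratEmb_rat_smul (q : ℚ) (a : F₀) :
    ratEmb F₀ (q • a) = (algebraMap ℚ Qb q) • ratEmb F₀ a := by
  rw [Rat.smul_def, map_mul, map_ratCast, Algebra.smul_def, eq_ratCast, map_ratCast]

theorem zsmul_pt_eq_single (P0 : Place Qb (FB F₀)) (k : ℤ) :
    (k • pt P0 : Divisor Qb (FB F₀)) = Finsupp.single P0 k := by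
  unfold pt
  rw [Finsupp.smul_single, smul_eq_mul, mul_one]

theorem ratEmb_mem_affRing_of_mem_Alev {P0 : Place Qb (FB F₀)} {k : ℤ} {a : F₀}
    (ha : a ∈ Alev F₀ P0 k) : ratEmb F₀ a ∈ Fermat.Agent.S17.helper3723.affRing P0 := by
  rw [mem_ratRR, zsmul_pt_eq_single,
    Fermat.Agent.S17.helper3723.mem_riemannRochSpace_single_iff] at ha
  exact ha.1

/-- **L6 (b).** The norm dictionary: `Hinf(Z(α)) = h(α) + O(1)` for `0 ≠ α ∈ A_k`. -/
theorem hinf_normDict (x : FB F₀) (hx : Transcendental Qb x) [FiniteDimensional Qb⟮x⟯ (FB F₀)]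
    {P0 : Place Qb (FB F₀)} (hP0 : IsRatPlace F₀ P0) (hL : LinDisjSpec F₀)
    (t₀ : F₀) (n : ℕ) (hn : 0 < n)
    (hmem : ratEmb F₀ t₀ ∈ Fermat.Agent.S17.helper3723.affRing P0)
    (hord : P0.ord (ratEmb F₀ t₀) = -(n : ℤ)) (fr : Frame F₀ P0) (k : ℤ) :
    ∃ C : ℝ, ∀ (α : ↥(Alev F₀ P0 k)) (Z : Divisor Qb (FB F₀)), α ≠ 0 →
      IsZeroDiv F₀ P0 k (α : F₀) Z → |HinfOf P0 (ratEmb F₀ t₀) n Z - htA fr k α| ≤ C := by
  classical
  have : Algebra.IsAlgebraic ℚ (AlgebraicClosure ℚ) := AlgebraicClosure.isAlgebraic ℚ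
  have hτ : ∀ σ : GalQ, arithmeticGalois F₀ σ • ratEmb F₀ t₀ = ratEmb F₀ t₀ :=
    fun σ => arithmeticGalois_smul_ratEmb σ t₀
  have htr : Transcendental Qb (ratEmb F₀ t₀) :=
    transcendental_of_ord_neg (P := P0) (by rw [hord]; omega)
  have h1 : LinearIndependent ℚ (fun s => ((fr.b k s : ↥(Alev F₀ P0 k)) : F₀)) :=
    (fr.b k).linearIndependent.map' (Alev F₀ P0 k).subtype (Submodule.ker_subtype _)
  obtain ⟨C, hC⟩ := abs_polyLogHeight_normPoly_sub_le x hx P0 (ratEmb F₀ t₀) hmem htr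
    (fun s => ratEmb F₀ ((fr.b k s : ↥(Alev F₀ P0 k)) : F₀))
    (fun s => ratEmb_mem_affRing_of_mem_Alev (fr.b k s).2) (hL (fr.n k) _ h1)
  have hnn : (-P0.ord (ratEmb F₀ t₀)).toNat = n := by rw [hord]; omega
  rw [hnn] at hC
  refine ⟨C / n, fun α Z hα hZ => ?_⟩
  -- the coordinates of `α`
  have hc0 : (fun s => (fr.b k).repr α s) ≠ 0 := by
    intro h
    apply hα
    apply (fr.b k).repr.injective
    rw [map_zero]
    ext s
    exact congrFun h s
  have hψ : ratEmb F₀ (α : F₀) = ∑ s, algebraMap ℚ Qb ((fr.b k).repr α s)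
      • ratEmb F₀ ((fr.b k s : ↥(Alev F₀ P0 k)) : F₀) := by
    have h2 : (α : F₀) = ∑ s, (fr.b k).repr α s • ((fr.b k s : ↥(Alev F₀ P0 k)) : F₀) := by
      conv_lhs => rw [← (fr.b k).sum_repr α]
      rw [AddSubmonoidClass.coe_finsetSum]
      rfl
    conv_lhs => rw [h2]
    rw [map_sum]
    exact Finset.sum_congr rfl fun s _ => ratEmb_rat_smul _ _
  have hZ' : ∀ P : Place Qb (FB F₀), P ≠ P0 → (Finsupp.erase P0 Z) P
      = P.ord (∑ s, algebraMap ℚ Qb ((fr.b k).repr α s)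
          • ratEmb F₀ ((fr.b k s : ↥(Alev F₀ P0 k)) : F₀)) := by
    intro P hP
    rw [← hψ, Finsupp.erase_ne hP, hZ P, zsmul_pt_eq_single, Finsupp.single_eq_of_ne hP, add_zero]
  have hrat := exists_ratPD hP0 hτ (isRat_of_isZeroDiv hP0 hZ)
  have key := hC (fun s => (fr.b k).repr α s) (Finsupp.erase P0 Z) (ratPD P0 (ratEmb F₀ t₀) Z)
    hc0 Finsupp.erase_same hZ' (map_ratPD hrat)
  have hm0 : (0 : ℝ) < (n : ℝ) := by exact_mod_cast hn
  unfold HinfOf htA
  have e1 : Fermat.Agent.Lib.helper1102.polyLogHeight (ratPD P0 (ratEmb F₀ t₀) Z) / (n : ℝ)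
      - Height.logHeight (fun i => (fr.b k).repr α i)
      = (Fermat.Agent.Lib.helper1102.polyLogHeight (ratPD P0 (ratEmb F₀ t₀) Z)
          - (n : ℝ) * Height.logHeight (fun s => (fr.b k).repr α s)) / n := by
    field_simp
  rw [e1, abs_div, abs_of_pos hm0]
  exact div_le_div_of_nonneg_right key hm0.le

/-! ## The leaf -/

/-- **Leaf L6 (`HinfSpec`).** -/
theorem hinfSpec (x : FB F₀) (hx : Transcendental Qb x) [FiniteDimensional Qb⟮x⟯ (FB F₀)]
    {P0 : Place Qb (FB F₀)} (hP0 : IsRatPlace F₀ P0) (hL1 : RiemannSpec F₀)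
    (hL2 : RatDescSpec F₀) (hL : LinDisjSpec F₀) :
    ∃ Hinf : Divisor Qb (FB F₀) → ℝ, HinfSpec F₀ P0 Hinf := by
  have hdeg : ∀ v : Place Qb (FB F₀), v.deg = 1 :=
    fun v => Fermat.Agent.S24.helper204.place_deg_eq_one x hx v
  obtain ⟨t₀, n, hn, hmem, hord⟩ := exists_coord hdeg hP0 hL1 hL2
  have hτ : ∀ σ : GalQ, arithmeticGalois F₀ σ • ratEmb F₀ t₀ = ratEmb F₀ t₀ :=
    fun σ => arithmeticGalois_smul_ratEmb σ t₀
  have htr : Transcendental Qb (ratEmb F₀ t₀) :=
    transcendental_of_ord_neg (P := P0) (by rw [hord]; omega)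
  refine ⟨HinfOf P0 (ratEmb F₀ t₀) n, fun d => hinf_add hdeg hP0 hτ n d,
    fun fr k => hinf_normDict x hx hP0 hL t₀ n hn hmem hord fr k,
    fun d B => Fermat.Agent.S17.helper1256.hinf_northcott x P0 (ratEmb F₀ t₀) htr n hn
      (fun E hE => exists_ratPD hP0 hτ hE) hdeg d B⟩

end

end Fermat.Agent.S17.helper2801
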