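import Fermat.Agent.S17.helper3197_PlueckerSpec

/-!
# S17, Pluecker track: the ASSEMBLY (architect helper3197)

`fg_of_leaves`: finite generation of the Galois-fixed points of `Pic0 ℚ̄ (FB F₀)` from the leaves
of `helper3197_PlueckerSpec.lean`, through `helper2795.fg_of_plueckerData`.
-/

set_option autoImplicit false

open ModularCurve AlgebraicCurve
open Fermat.Agent.S27.helper6247

namespace Fermat.Agent.S17.helper3197

noncomputable section

variable {F₀ : IntermediateField ℚ (LaurentSeries ℚ)}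

/-! ## Basic facts on rational divisors -/

theorem IsRat.add {D E : Divisor Qb (FB F₀)} (hD : IsRat F₀ D) (hE : IsRat F₀ E) :
    IsRat F₀ (D + E) := fun σ => by rw [smul_add, hD σ, hE σ]

theorem IsRat.neg {D : Divisor Qb (FB F₀)} (hD : IsRat F₀ D) : IsRat F₀ (-D) :=
  fun σ => by rw [smul_neg, hD σ]

theorem IsRat.sub {D E : Divisor Qb (FB F₀)} (hD : IsRat F₀ D) (hE : IsRat F₀ E) :
    IsRat F₀ (D - E) := fun σ => by rw [smul_sub, hD σ, hE σ]

theorem isRat_zero : IsRat F₀ (0 : Divisor Qb (FB F₀)) := fun _ => smul_zero _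

theorem isRat_zsmul_pt {P0 : Place Qb (FB F₀)} (hP0 : IsRatPlace F₀ P0) (m : ℤ) :
    IsRat F₀ (m • pt P0) := fun σ => by
  rw [smul_comm, pt, SemilinearAut.smul_single, hP0 σ]

/-- The arithmetic Galois action fixes the rational functions. -/
theorem arithmeticGalois_smul_ratEmb (σ : GalQ) (x : F₀) :
    arithmeticGalois F₀ σ • ratEmb F₀ x = ratEmb F₀ x :=
  Subtype.ext (by
    rw [coe_arithmeticGalois_smul, coe_ratEmb]
    exact coeffMap_coeffEmb σ _)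

/-- The divisor of a rational function is rational. -/
theorem isRat_of_ord {x : F₀} {D : Divisor Qb (FB F₀)}
    (hD : ∀ v : Place Qb (FB F₀), D v = v.ord (ratEmb F₀ x)) : IsRat F₀ D := fun σ => by
  ext w
  rw [SemilinearAut.divisor_smul_apply, hD, hD]
  have h := SemilinearAut.ord_smul (arithmeticGalois F₀ σ) ((arithmeticGalois F₀ σ)⁻¹ • w)
    (ratEmb F₀ x)
  rw [smul_inv_smul, arithmeticGalois_smul_ratEmb] at h
  exact h.symm

theorem ratEmb_ne_zero {x : F₀} (hx : x ≠ 0) : ratEmb F₀ x ≠ 0 :=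
  (map_ne_zero (ratEmb F₀)).mpr hx

theorem ratRR_mono {D E : Divisor Qb (FB F₀)} (h : D ≤ E) : ratRR F₀ D ≤ ratRR F₀ E := by
  intro x hx
  rw [mem_ratRR, mem_riemannRochSpace_iff] at hx ⊢
  intro v
  rcases hx v with h0 | h1
  · exact Or.inl h0
  · exact Or.inr (le_trans (neg_le_neg (h v)) h1)

/-! ## Degrees and classes -/

variable {P0 : Place Qb (FB F₀)}

theorem degree_zsmul_pt (hdeg : ∀ v : Place Qb (FB F₀), v.deg = 1) (P : Place Qb (FB F₀))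
    (m : ℤ) : Divisor.degree (m • pt P) = m := by
  rw [map_zsmul, pt, Divisor.degree_single, hdeg]
  simp

theorem degree_eq_sum (hdeg : ∀ v : Place Qb (FB F₀), v.deg = 1) (D : Divisor Qb (FB F₀)) :
    Divisor.degree D = ∑ v ∈ D.support, D v := by
  unfold Divisor.degree
  rw [Finsupp.liftAddHom_apply, Finsupp.sum]
  refine Finset.sum_congr rfl fun v _ => ?_
  simp [hdeg]

/-- An effective divisor of degree `0` is `0`. -/
theorem eq_zero_of_nonneg_of_degree (hdeg : ∀ v : Place Qb (FB F₀), v.deg = 1)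
    {D : Divisor Qb (FB F₀)} (h0 : 0 ≤ D) (hd : Divisor.degree D = 0) : D = 0 := by
  rw [degree_eq_sum hdeg] at hd
  ext v
  by_contra hv
  have hmem : v ∈ D.support := Finsupp.mem_support_iff.mpr hv
  exact hv ((Finset.sum_eq_zero_iff_of_nonneg (fun w _ => h0 w)).mp hd v hmem)

theorem cls_of_degZero {E : Divisor Qb (FB F₀)} (h : Divisor.degree E = 0) :
    cls E = Pic0.mk ⟨E, h⟩ := dif_pos h

theorem cls_add {E₁ E₂ : Divisor Qb (FB F₀)} (h₁ : Divisor.degree E₁ = 0)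
    (h₂ : Divisor.degree E₂ = 0) : cls (E₁ + E₂) = cls E₁ + cls E₂ := by
  have h : Divisor.degree (E₁ + E₂) = 0 := by rw [map_add, h₁, h₂, add_zero]
  rw [cls_of_degZero h, cls_of_degZero h₁, cls_of_degZero h₂]
  rfl

theorem cls_neg {E : Divisor Qb (FB F₀)} (h : Divisor.degree E = 0) : cls (-E) = -cls E := by
  have h' : Divisor.degree (-E) = 0 := by rw [map_neg, h, neg_zero]
  rw [cls_of_degZero h, cls_of_degZero h']
  rfl

theorem cls_sub {E₁ E₂ : Divisor Qb (FB F₀)} (h₁ : Divisor.degree E₁ = 0)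
    (h₂ : Divisor.degree E₂ = 0) : cls (E₁ - E₂) = cls E₁ - cls E₂ := by
  rw [sub_eq_add_neg, cls_add h₁ (by rw [map_neg, h₂, neg_zero]), cls_neg h₂, sub_eq_add_neg]

theorem cls_eq_zero_of_principal {E : Divisor Qb (FB F₀)} (h : Divisor.degree E = 0)
    {f : FB F₀} (hf : f ≠ 0) (hE : ∀ v : Place Qb (FB F₀), E v = v.ord f) : cls E = 0 := by
  rw [cls_of_degZero h]
  refine (QuotientAddGroup.eq_zero_iff _).mpr ?_
  rw [AddSubgroup.mem_addSubgroupOf]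
  exact ⟨f, hf, hE⟩

theorem exists_of_cls_eq {E₁ E₂ : Divisor Qb (FB F₀)} (h₁ : Divisor.degree E₁ = 0)
    (h₂ : Divisor.degree E₂ = 0) (h : cls E₁ = cls E₂) :
    ∃ f : FB F₀, f ≠ 0 ∧ ∀ v : Place Qb (FB F₀), (E₁ - E₂) v = v.ord f := by
  have h3 : cls (E₁ - E₂) = 0 := by rw [cls_sub h₁ h₂, h, sub_self]
  have hd : Divisor.degree (E₁ - E₂) = 0 := by rw [map_sub, h₁, h₂, sub_zero]
  rw [cls_of_degZero hd] at h3
  have h4 := (QuotientAddGroup.eq_zero_iff _).mp h3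
  rw [AddSubgroup.mem_addSubgroupOf] at h4
  exact h4

theorem smul_cls (σ : GalQ) (E : Divisor Qb (FB F₀)) :
    σ • cls E = cls (arithmeticGalois F₀ σ • E) := by
  by_cases h : Divisor.degree E = 0
  · have h' : Divisor.degree (arithmeticGalois F₀ σ • E) = 0 := by
      rw [SemilinearAut.degree_smul, h]
    rw [cls_of_degZero h, cls_of_degZero h', galois_smul_pic0_def, SemilinearAut.pic0_smul_mk]
    rfl
  · have h' : ¬ Divisor.degree (arithmeticGalois F₀ σ • E) = 0 := by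
      rw [SemilinearAut.degree_smul]; exact h
    have e1 : cls E = 0 := dif_neg h
    have e2 : cls (arithmeticGalois F₀ σ • E) = 0 := dif_neg h'
    rw [e1, e2, galois_smul_pic0_def]
    exact smul_zero (A := Pic0 Qb (FB F₀)) (arithmeticGalois F₀ σ)

theorem degree_clsAt_arg (hdeg : ∀ v : Place Qb (FB F₀), v.deg = 1) (D : Divisor Qb (FB F₀)) :
    Divisor.degree (D - Divisor.degree D • pt P0) = 0 := by
  rw [map_sub, degree_zsmul_pt hdeg, sub_self]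

/-- The class of a rational divisor is Galois-fixed. -/
theorem smul_clsAt (hP0 : IsRatPlace F₀ P0) {D : Divisor Qb (FB F₀)} (hD : IsRat F₀ D)
    (σ : GalQ) : σ • clsAt P0 D = clsAt P0 D := by
  unfold clsAt
  rw [smul_cls, (hD.sub (isRat_zsmul_pt hP0 _)) σ]

theorem clsAt_add (hdeg : ∀ v : Place Qb (FB F₀), v.deg = 1) (D E : Divisor Qb (FB F₀)) :
    clsAt P0 (D + E) = clsAt P0 D + clsAt P0 E := by
  unfold clsAt
  rw [← cls_add (degree_clsAt_arg hdeg D) (degree_clsAt_arg hdeg E)]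
  congr 1
  rw [map_add, add_smul]
  abel

/-! ## Dimensions and frames -/

theorem finrank_Wlev (m : ℤ) {D : Divisor Qb (FB F₀)} (h0 : 0 ≤ D) :
    Module.finrank ℚ ↥(Wlev F₀ P0 m D) = Module.finrank ℚ ↥(ratRR F₀ (m • pt P0 - D)) := by
  have hle : ratRR F₀ (m • pt P0 - D) ≤ Alev F₀ P0 m := by
    refine ratRR_mono fun v => ?_
    have := h0 v
    simp only [Finsupp.coe_sub, Pi.sub_apply, Finsupp.coe_zero, Pi.zero_apply] at this ⊢
    linarith
  exact (Submodule.comapSubtypeEquivOfLe hle).finrank_eq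

theorem exists_frame (hRD : RatDescSpec F₀) (hP0 : IsRatPlace F₀ P0) :
    Nonempty (Frame F₀ P0) :=
  ⟨{ n := fun m => Module.finrank ℚ ↥(Alev F₀ P0 m)
     b := fun m =>
      haveI := (hRD _ (isRat_zsmul_pt hP0 m)).1
      Module.finBasis ℚ ↥(Alev F₀ P0 m) }⟩

theorem ratRR_ne_bot_of_finrank {E : Divisor Qb (FB F₀)}
    (h : Module.finrank ℚ ↥(ratRR F₀ E) ≠ 0) : ratRR F₀ E ≠ ⊥ := by
  intro hbot
  apply h
  rw [hbot]
  exact finrank_bot ℚ F₀

/-! ## Zero divisors of rational functions -/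

/-- For `0 ≠ α₀ ∈ ratRR (k • P0 - D')`: the zero divisor of `α₀` at level `k` is `D' + E` with
`E` effective, rational, of degree `k - deg D'`. -/
theorem exists_zeroDiv [HasPrincipalDivisors Qb (FB F₀)]
    (hdeg : ∀ v : Place Qb (FB F₀), v.deg = 1) (hP0 : IsRatPlace F₀ P0) {k : ℤ}
    {D' : Divisor Qb (FB F₀)} (hD' : IsRat F₀ D') {α₀ : F₀} (hα₀ne : α₀ ≠ 0)
    (hα₀mem : α₀ ∈ ratRR F₀ (k • pt P0 - D')) :
    ∃ E : Divisor Qb (FB F₀), 0 ≤ E ∧ IsRat F₀ E ∧ Divisor.degree E = k - Divisor.degree D' ∧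
      IsZeroDiv F₀ P0 k α₀ (D' + E) := by
  obtain ⟨Dα, hDα, hDαdeg⟩ := HasPrincipalDivisors.exists_divisor (K := Qb) (ratEmb F₀ α₀)
    (ratEmb_ne_zero hα₀ne)
  refine ⟨Dα + k • pt P0 - D', ?_, ?_, ?_, ?_⟩
  · intro v
    rcases (mem_riemannRochSpace_iff.mp hα₀mem) v with h | h
    · exact absurd h (ratEmb_ne_zero hα₀ne)
    · have e : (Dα + k • pt P0 - D') v = v.ord (ratEmb F₀ α₀) + (k • pt P0) v - D' v := by
        rw [Finsupp.sub_apply, Finsupp.add_apply, hDα]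
      have e2 : ((k • pt P0 - D' : Divisor Qb (FB F₀))) v = (k • pt P0) v - D' v :=
        Finsupp.sub_apply _ _ _
      show (0 : ℤ) ≤ (Dα + k • pt P0 - D') v
      rw [e]
      rw [e2] at h
      linarith
  · exact ((isRat_of_ord hDα).add (isRat_zsmul_pt hP0 k)).sub hD'
  · rw [map_sub, map_add, hDαdeg, degree_zsmul_pt hdeg, zero_add]
  · intro v
    rw [add_sub_cancel, Finsupp.add_apply, hDα]

set_option synthInstance.maxHeartbeats 400000 in
/-- The partner function: if `D`, `D'` have the same class and `α₀` has zero divisor `D' + E`,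
there is a rational `β₀` with zero divisor `D + E`. -/
theorem exists_partner [HasPrincipalDivisors Qb (FB F₀)]
    (hdeg : ∀ v : Place Qb (FB F₀), v.deg = 1) (hP0 : IsRatPlace F₀ P0)
    (hfin : ∀ E : Divisor Qb (FB F₀), Module.Finite Qb (riemannRochSpace E))
    (hRD : RatDescSpec F₀)
    {D D' E : Divisor Qb (FB F₀)} (hD : IsRat F₀ D) (hE : IsRat F₀ E)
    (h0 : 0 ≤ D) (hE0 : 0 ≤ E) (hcls : clsAt P0 D = clsAt P0 D') {k' : ℤ} {α₀ : F₀}
    (hα₀ne : α₀ ≠ 0) (hZ : IsZeroDiv F₀ P0 k' α₀ (D' + E)) :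
    ∃ β₀ : F₀, β₀ ≠ 0 ∧ β₀ ∈ Alev F₀ P0 (Divisor.degree D + Divisor.degree E) ∧
      IsZeroDiv F₀ P0 (Divisor.degree D + Divisor.degree E) β₀ (D + E) := by
  -- the level `k'` is the degree of `D' + E`
  obtain ⟨Dα, hDα, hDαdeg⟩ := HasPrincipalDivisors.exists_divisor (K := Qb) (ratEmb F₀ α₀)
    (ratEmb_ne_zero hα₀ne)
  have hDE : D' + E = Dα + k' • pt P0 := by
    ext v
    rw [hZ v, Finsupp.add_apply, hDα]
  have hk' : k' = Divisor.degree D' + Divisor.degree E := by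
    have := congrArg Divisor.degree hDE
    rw [map_add, map_add, hDαdeg, degree_zsmul_pt hdeg, zero_add] at this
    exact this.symm
  -- the function `φ` with divisor `D - d P0 - (D' - d' P0)`
  obtain ⟨φ, hφ, hφdiv⟩ := exists_of_cls_eq (degree_clsAt_arg hdeg D) (degree_clsAt_arg hdeg D')
    hcls
  set d := Divisor.degree D with hd
  set d' := Divisor.degree D' with hd'
  set e := Divisor.degree E with he
  have hE₀rat : IsRat F₀ ((d + e) • pt P0 - D - E) := ((isRat_zsmul_pt hP0 _).sub hD).sub hE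
  -- `g = α₀ φ` lies in `L(E₀)`
  have hg : ratEmb F₀ α₀ * φ ∈ riemannRochSpace ((d + e) • pt P0 - D - E) := by
    rw [mem_riemannRochSpace_iff]
    intro v
    right
    rw [Place.ord_mul v (ratEmb_ne_zero hα₀ne) hφ, ← hφdiv v]
    have h1 := hZ v
    simp only [Finsupp.coe_sub, Finsupp.coe_add, Finsupp.coe_smul, Pi.sub_apply, Pi.add_apply,
      Pi.smul_apply, smul_eq_mul] at h1 ⊢
    rw [hk'] at h1
    have : v.ord (ratEmb F₀ α₀) = D' v + E v - (d' + e) * (pt P0) v := by linarith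
    rw [this]
    ring_nf
    exact le_refl _
  have hgne : ratEmb F₀ α₀ * φ ≠ 0 := mul_ne_zero (ratEmb_ne_zero hα₀ne) hφ
  have hfr : Module.finrank Qb ↥(riemannRochSpace ((d + e) • pt P0 - D - E)) ≠ 0 := by
    have := hfin ((d + e) • pt P0 - D - E)
    have : 0 < Module.finrank Qb ↥(riemannRochSpace ((d + e) • pt P0 - D - E)) :=
      Module.finrank_pos_iff_exists_ne_zero.mpr
        ⟨⟨_, hg⟩, fun h => hgne (congrArg Subtype.val h)⟩
    exact this.ne'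
  have hne : ratRR F₀ ((d + e) • pt P0 - D - E) ≠ ⊥ :=
    ratRR_ne_bot_of_finrank (by rw [(hRD _ hE₀rat).2.1]; exact hfr)
  obtain ⟨β₀, hβ₀mem, hβ₀ne⟩ := Submodule.exists_mem_ne_zero_of_ne_bot hne
  obtain ⟨Dβ, hDβ, hDβdeg⟩ := HasPrincipalDivisors.exists_divisor (K := Qb) (ratEmb F₀ β₀)
    (ratEmb_ne_zero hβ₀ne)
  -- `T = div β + (d + e) P0 - (D + E)` is effective of degree `0`
  have hT0 : 0 ≤ Dβ + (d + e) • pt P0 - (D + E) := by
    intro v
    rcases (mem_riemannRochSpace_iff.mp hβ₀mem) v with h | h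
    · exact absurd h (ratEmb_ne_zero hβ₀ne)
    · show (0 : ℤ) ≤ (Dβ + (d + e) • pt P0 - (D + E)) v
      simp only [Finsupp.coe_sub, Finsupp.coe_add, Finsupp.coe_smul, Pi.sub_apply, Pi.add_apply,
        Pi.smul_apply, smul_eq_mul] at h ⊢
      rw [hDβ]
      linarith
  have hTdeg : Divisor.degree (Dβ + (d + e) • pt P0 - (D + E)) = 0 := by
    rw [map_sub, map_add, map_add, hDβdeg, degree_zsmul_pt hdeg]
    ring
  have hT := eq_zero_of_nonneg_of_degree hdeg hT0 hTdeg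
  have hDE' : D + E = Dβ + (d + e) • pt P0 := (sub_eq_zero.mp hT).symm
  have hZβ : IsZeroDiv F₀ P0 (d + e) β₀ (D + E) := fun v => by
    rw [hDE', Finsupp.add_apply, hDβ]
  refine ⟨β₀, hβ₀ne, ?_, hZβ⟩
  show ratEmb F₀ β₀ ∈ riemannRochSpace ((d + e) • pt P0)
  rw [mem_riemannRochSpace_iff]
  intro v
  right
  have h1 := hZβ v
  have h2 : (0 : ℤ) ≤ (D + E) v := by
    have a := h0 v
    have b := hE0 v
    simp only [Finsupp.coe_add, Pi.add_apply, Finsupp.coe_zero, Pi.zero_apply] at a b ⊢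
    linarith
  linarith

/-! ## Class invariance `(1a)` -/

/-- Class invariance of `Ψ` for a fixed pair of representatives, with explicit constants. -/
theorem psi_classInv_aux [HasPrincipalDivisors Qb (FB F₀)]
    (hdeg : ∀ v : Place Qb (FB F₀), v.deg = 1) (hP0 : IsRatPlace F₀ P0)
    (hfin : ∀ E : Divisor Qb (FB F₀), Module.Finite Qb (riemannRochSpace E))
    (hRD : RatDescSpec F₀) (fr : Frame F₀ P0) (c : ℤ)
    (hρ : 1 ≤ (c : ℝ) + 1 - (genusFF Qb (FB F₀) : ℝ))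
    (hrk : ∀ E : Divisor Qb (FB F₀), IsRat F₀ E → Divisor.degree E = c →
      (Module.finrank ℚ ↥(ratRR F₀ E) : ℝ) = (c : ℝ) + 1 - (genusFF Qb (FB F₀) : ℝ))
    (Hinf : Divisor Qb (FB F₀) → ℝ) (CM : ℤ → ℤ → ℝ)
    (hCM : ∀ (m k : ℤ) (D Z : Divisor Qb (FB F₀)) (α : ↥(Alev F₀ P0 k)), 0 ≤ D → α ≠ 0 →
      IsZeroDiv F₀ P0 k (α : F₀) Z →
      |Phi fr (m + k) (D + Z) - Phi fr m D
        - (Module.finrank ℚ ↥(Wlev F₀ P0 m D) : ℝ) * htA fr k α| ≤ CM m k)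
    (Cb : ℤ → ℝ)
    (hCb : ∀ (k : ℤ) (α : ↥(Alev F₀ P0 k)) (Z : Divisor Qb (FB F₀)), α ≠ 0 →
      IsZeroDiv F₀ P0 k (α : F₀) Z → |Hinf Z - htA fr k α| ≤ Cb k)
    (Ca : ℝ) (dmax : ℤ)
    (hCa : ∀ D E : Divisor Qb (FB F₀), IsRat F₀ D → IsRat F₀ E → 0 ≤ D → 0 ≤ E →
      Divisor.degree D ≤ dmax → Divisor.degree E ≤ dmax → |Hinf (D + E) - Hinf D - Hinf E| ≤ Ca)
    (hcd : c ≤ dmax)
    {D D' : Divisor Qb (FB F₀)} (hD : IsRat F₀ D) (hD' : IsRat F₀ D') (h0 : 0 ≤ D)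
    (h0' : 0 ≤ D') (hdD : Divisor.degree D ≤ dmax) (hdD' : Divisor.degree D' ≤ dmax)
    (hcls : clsAt P0 D = clsAt P0 D') :
    |PsiAt fr c Hinf D - PsiAt fr c Hinf D'|
      ≤ CM (Divisor.degree D + c) (Divisor.degree D' + c)
        + CM (Divisor.degree D' + c) (Divisor.degree D + c)
        + ((c : ℝ) + 1 - (genusFF Qb (FB F₀) : ℝ))
          * (Cb (Divisor.degree D' + c) + Cb (Divisor.degree D + c) + 2 * Ca) := by
  set ρ : ℝ := (c : ℝ) + 1 - (genusFF Qb (FB F₀) : ℝ) with hρdef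
  -- Step 1: a nonzero `α₀ ∈ W_{d'+c}(D')`
  have hE1rat : IsRat F₀ ((Divisor.degree D' + c) • pt P0 - D') :=
    (isRat_zsmul_pt hP0 _).sub hD'
  have hE1deg : Divisor.degree ((Divisor.degree D' + c) • pt P0 - D') = c := by
    rw [map_sub, degree_zsmul_pt hdeg]; ring
  have hrk1 := hrk _ hE1rat hE1deg
  have hne1 : ratRR F₀ ((Divisor.degree D' + c) • pt P0 - D') ≠ ⊥ := by
    refine ratRR_ne_bot_of_finrank fun h => ?_
    rw [h] at hrk1
    norm_num at hrk1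
    linarith
  obtain ⟨α₀, hα₀mem, hα₀ne⟩ := Submodule.exists_mem_ne_zero_of_ne_bot hne1
  have hα₀A : α₀ ∈ Alev F₀ P0 (Divisor.degree D' + c) := by
    refine ratRR_mono (fun v => ?_) hα₀mem
    have := h0' v
    simp only [Finsupp.coe_sub, Pi.sub_apply, Finsupp.coe_zero, Pi.zero_apply] at this ⊢
    linarith
  -- Step 2: its zero divisor `D' + E`
  obtain ⟨E, hE0, hErat, hEdeg, hZ⟩ := exists_zeroDiv hdeg hP0 hD' hα₀ne hα₀mem
  have hEdeg' : Divisor.degree E = c := by rw [hEdeg]; ring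
  -- Step 3: the partner `β₀` with zero divisor `D + E`
  obtain ⟨β₀, hβ₀ne, hβ₀A, hZβ⟩ := exists_partner hdeg hP0 hfin hRD hD hErat h0 hE0 hcls hα₀ne hZ
  rw [hEdeg'] at hβ₀A hZβ
  -- Step 4: the two multiplication laws
  have hα_ne : (⟨α₀, hα₀A⟩ : ↥(Alev F₀ P0 (Divisor.degree D' + c))) ≠ 0 := fun h =>
    hα₀ne (congrArg Subtype.val h)
  have hβ_ne : (⟨β₀, hβ₀A⟩ : ↥(Alev F₀ P0 (Divisor.degree D + c))) ≠ 0 := fun h =>
    hβ₀ne (congrArg Subtype.val h)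
  have m1 := hCM (Divisor.degree D + c) (Divisor.degree D' + c) D (D' + E) ⟨α₀, hα₀A⟩ h0 hα_ne hZ
  have m2 := hCM (Divisor.degree D' + c) (Divisor.degree D + c) D' (D + E) ⟨β₀, hβ₀A⟩ h0' hβ_ne
    hZβ
  have e1 : D' + (D + E) = D + (D' + E) := by abel
  have e2 : Divisor.degree D' + c + (Divisor.degree D + c)
      = Divisor.degree D + c + (Divisor.degree D' + c) := by ring
  rw [e1, e2] at m2
  -- the ranks
  have hE2rat : IsRat F₀ ((Divisor.degree D + c) • pt P0 - D) := (isRat_zsmul_pt hP0 _).sub hD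
  have hE2deg : Divisor.degree ((Divisor.degree D + c) • pt P0 - D) = c := by
    rw [map_sub, degree_zsmul_pt hdeg]; ring
  have r1 : (Module.finrank ℚ ↥(Wlev F₀ P0 (Divisor.degree D + c) D) : ℝ) = ρ := by
    rw [finrank_Wlev _ h0]; exact hrk _ hE2rat hE2deg
  have r2 : (Module.finrank ℚ ↥(Wlev F₀ P0 (Divisor.degree D' + c) D') : ℝ) = ρ := by
    rw [finrank_Wlev _ h0']; exact hrk1
  rw [r1] at m1
  rw [r2] at m2
  -- Step 5: the norm dictionary and additivity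
  have b1 := hCb (Divisor.degree D' + c) ⟨α₀, hα₀A⟩ (D' + E) hα_ne hZ
  have b2 := hCb (Divisor.degree D + c) ⟨β₀, hβ₀A⟩ (D + E) hβ_ne hZβ
  have a1 := hCa D' E hD' hErat h0' hE0 hdD' (by rw [hEdeg']; exact hcd)
  have a2 := hCa D E hD hErat h0 hE0 hdD (by rw [hEdeg']; exact hcd)
  -- Step 6: arithmetic
  set X := Phi fr (Divisor.degree D + c + (Divisor.degree D' + c)) (D + (D' + E)) with hX
  set hα := htA fr (Divisor.degree D' + c) ⟨α₀, hα₀A⟩ with hhα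
  set hβ := htA fr (Divisor.degree D + c) ⟨β₀, hβ₀A⟩ with hhβ
  set u : ℝ := hβ - hα - (Hinf D - Hinf D') with hu
  have hu_abs : |u| ≤ Cb (Divisor.degree D' + c) + Cb (Divisor.degree D + c) + 2 * Ca := by
    rw [abs_le] at b1 b2 a1 a2 ⊢
    constructor <;> simp only [hu] <;> linarith [b1.1, b1.2, b2.1, b2.2, a1.1, a1.2, a2.1, a2.2]
  have hρ0 : 0 ≤ ρ := by linarith
  have hu1 : ρ * u ≤ ρ * (Cb (Divisor.degree D' + c) + Cb (Divisor.degree D + c) + 2 * Ca) :=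
    mul_le_mul_of_nonneg_left ((le_abs_self u).trans hu_abs) hρ0
  have hu2 : -(ρ * (Cb (Divisor.degree D' + c) + Cb (Divisor.degree D + c) + 2 * Ca)) ≤ ρ * u := by
    have := mul_le_mul_of_nonneg_left ((neg_abs_le u).trans' (neg_le_neg hu_abs)) hρ0
    linarith
  have key : PsiAt fr c Hinf D - PsiAt fr c Hinf D'
      = ρ * u + ((X - Phi fr (Divisor.degree D' + c) D' - ρ * hβ)
          - (X - Phi fr (Divisor.degree D + c) D - ρ * hα)) := by
    unfold PsiAt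
    simp only [hu]
    ring
  rw [key, abs_le]
  rw [abs_le] at m1 m2
  constructor <;> linarith [m1.1, m1.2, m2.1, m2.2]

/-! ## The lower bound (Siegel + norm dictionary) -/

theorem degree_nonneg (hdeg : ∀ v : Place Qb (FB F₀), v.deg = 1) {D : Divisor Qb (FB F₀)}
    (h0 : 0 ≤ D) : 0 ≤ Divisor.degree D := by
  rw [degree_eq_sum hdeg]
  exact Finset.sum_nonneg fun v _ => h0 v

/-- The lower bound `Ψ(D) ≥ ρ · Hinf(E) - const` by a small representative `E` of the opposite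
class, with explicit constants. -/
theorem psi_lower_aux [HasPrincipalDivisors Qb (FB F₀)]
    (hdeg : ∀ v : Place Qb (FB F₀), v.deg = 1) (hP0 : IsRatPlace F₀ P0)
    (fr : Frame F₀ P0) (c : ℤ)
    (hρ : 1 ≤ (c : ℝ) + 1 - (genusFF Qb (FB F₀) : ℝ))
    (hrk : ∀ E : Divisor Qb (FB F₀), IsRat F₀ E → Divisor.degree E = c →
      (Module.finrank ℚ ↥(ratRR F₀ E) : ℝ) = (c : ℝ) + 1 - (genusFF Qb (FB F₀) : ℝ))
    (Hinf : Divisor Qb (FB F₀) → ℝ) (CS : ℤ → ℝ)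
    (hCS : ∀ (m : ℤ) (W : Submodule ℚ ↥(Alev F₀ P0 m)), W ≠ ⊥ → ∃ x ∈ W, x ≠ 0 ∧
      (Module.finrank ℚ ↥W : ℝ) * htA fr m x ≤ plkHeight (fr.b m) W + CS m)
    (Cb : ℤ → ℝ)
    (hCb : ∀ (k : ℤ) (α : ↥(Alev F₀ P0 k)) (Z : Divisor Qb (FB F₀)), α ≠ 0 →
      IsZeroDiv F₀ P0 k (α : F₀) Z → |Hinf Z - htA fr k α| ≤ Cb k)
    (Ca : ℝ) (dmax : ℤ)
    (hCa : ∀ D E : Divisor Qb (FB F₀), IsRat F₀ D → IsRat F₀ E → 0 ≤ D → 0 ≤ E →
      Divisor.degree D ≤ dmax → Divisor.degree E ≤ dmax → |Hinf (D + E) - Hinf D - Hinf E| ≤ Ca)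
    (hcd : c ≤ dmax)
    {D : Divisor Qb (FB F₀)} (hD : IsRat F₀ D) (h0 : 0 ≤ D) (hdD : Divisor.degree D ≤ dmax) :
    ∃ E : Divisor Qb (FB F₀), IsRat F₀ E ∧ 0 ≤ E ∧ Divisor.degree E = c ∧
      clsAt P0 E = -clsAt P0 D ∧
      ((c : ℝ) + 1 - (genusFF Qb (FB F₀) : ℝ)) * Hinf E
        - (CS (Divisor.degree D + c) + ((c : ℝ) + 1 - (genusFF Qb (FB F₀) : ℝ))
            * (Cb (Divisor.degree D + c) + Ca)) ≤ PsiAt fr c Hinf D := by
  set ρ : ℝ := (c : ℝ) + 1 - (genusFF Qb (FB F₀) : ℝ) with hρdef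
  have hE2rat : IsRat F₀ ((Divisor.degree D + c) • pt P0 - D) := (isRat_zsmul_pt hP0 _).sub hD
  have hE2deg : Divisor.degree ((Divisor.degree D + c) • pt P0 - D) = c := by
    rw [map_sub, degree_zsmul_pt hdeg]; ring
  have r1 : (Module.finrank ℚ ↥(Wlev F₀ P0 (Divisor.degree D + c) D) : ℝ) = ρ := by
    rw [finrank_Wlev _ h0]; exact hrk _ hE2rat hE2deg
  have hWne : Wlev F₀ P0 (Divisor.degree D + c) D ≠ ⊥ := by
    intro hbot
    rw [hbot] at r1
    have h00 : Module.finrank ℚ ↥(⊥ : Submodule ℚ ↥(Alev F₀ P0 (Divisor.degree D + c))) = 0 :=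
      finrank_bot ℚ _
    rw [h00] at r1
    norm_num at r1
    linarith
  obtain ⟨x, hxW, hxne, hx⟩ := hCS _ _ hWne
  rw [r1] at hx
  have hx₀ne : (x : F₀) ≠ 0 := fun h => hxne (Subtype.ext h)
  have hx₀mem : (x : F₀) ∈ ratRR F₀ ((Divisor.degree D + c) • pt P0 - D) := hxW
  obtain ⟨E, hE0, hErat, hEdeg, hZ⟩ := exists_zeroDiv hdeg hP0 hD hx₀ne hx₀mem
  have hEdeg' : Divisor.degree E = c := by rw [hEdeg]; ring
  refine ⟨E, hErat, hE0, hEdeg', ?_, ?_⟩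
  · -- the class
    have hDxdeg : Divisor.degree (D + E - (Divisor.degree D + c) • pt P0) = 0 := by
      rw [map_sub, map_add, degree_zsmul_pt hdeg, hEdeg']; ring
    have hDx0 : cls (D + E - (Divisor.degree D + c) • pt P0) = 0 := by
      refine cls_eq_zero_of_principal hDxdeg (ratEmb_ne_zero hx₀ne) fun v => ?_
      have := hZ v
      rw [Finsupp.sub_apply, this]
      ring
    have e : E - Divisor.degree E • pt P0
        = (D + E - (Divisor.degree D + c) • pt P0) - (D - Divisor.degree D • pt P0) := by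
      rw [hEdeg', add_smul]; abel
    unfold clsAt
    rw [e, cls_sub hDxdeg (degree_clsAt_arg hdeg D), hDx0, zero_sub]
  · have b := hCb (Divisor.degree D + c) x (D + E) hxne hZ
    have a := hCa D E hD hErat h0 hE0 hdD (by rw [hEdeg']; exact hcd)
    rw [abs_le] at a b
    have hρ0 : 0 ≤ ρ := by linarith
    have h1 : Hinf D + Hinf E - Ca - Cb (Divisor.degree D + c) ≤ htA fr (Divisor.degree D + c) x := by
      linarith [a.1, b.2]
    have h2 := mul_le_mul_of_nonneg_left h1 hρ0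
    have hx' : ρ * htA fr (Divisor.degree D + c) x
        ≤ Phi fr (Divisor.degree D + c) D + CS (Divisor.degree D + c) := hx
    have key : PsiAt fr c Hinf D = Phi fr (Divisor.degree D + c) D - ρ * Hinf D := rfl
    rw [key]
    have e3 : ρ * (Hinf D + Hinf E - Ca - Cb (Divisor.degree D + c))
        = ρ * Hinf D + ρ * Hinf E - ρ * (Cb (Divisor.degree D + c) + Ca) := by ring
    rw [e3] at h2
    linarith

/-! ## The seven-term inequality for `Ψ` -/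

theorem psi_cube_aux (fr : Frame F₀ P0) (c d : ℤ)
    (hρ : 1 ≤ (c : ℝ) + 1 - (genusFF Qb (FB F₀) : ℝ))
    (Hinf : Divisor Qb (FB F₀) → ℝ) (Ca : ℝ) (dmax : ℤ)
    (hCa : ∀ D E : Divisor Qb (FB F₀), IsRat F₀ D → IsRat F₀ E → 0 ≤ D → 0 ≤ E →
      Divisor.degree D ≤ dmax → Divisor.degree E ≤ dmax → |Hinf (D + E) - Hinf D - Hinf E| ≤ Ca)
    (h2d : 2 * d ≤ dmax) (hd0 : 0 ≤ d) (Cc : ℝ)
    (hCc : ∀ D₁ D₂ D₃ : Divisor Qb (FB F₀), IsAdmTriple F₀ P0 d D₁ D₂ D₃ →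
      Phi fr (3 * d + c) (D₁ + D₂ + D₃) - Phi fr (2 * d + c) (D₁ + D₂)
        - Phi fr (2 * d + c) (D₁ + D₃) - Phi fr (2 * d + c) (D₂ + D₃)
        + Phi fr (d + c) D₁ + Phi fr (d + c) D₂ + Phi fr (d + c) D₃ ≤ Cc)
    {D₁ D₂ D₃ : Divisor Qb (FB F₀)} (h : IsAdmTriple F₀ P0 d D₁ D₂ D₃) :
    PsiAt fr c Hinf (D₁ + D₂ + D₃) - PsiAt fr c Hinf (D₁ + D₂) - PsiAt fr c Hinf (D₁ + D₃)
      - PsiAt fr c Hinf (D₂ + D₃) + PsiAt fr c Hinf D₁ + PsiAt fr c Hinf D₂ + PsiAt fr c Hinf D₃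
      ≤ Cc + ((c : ℝ) + 1 - (genusFF Qb (FB F₀) : ℝ)) * (3 * Ca) := by
  set ρ : ℝ := (c : ℝ) + 1 - (genusFF Qb (FB F₀) : ℝ) with hρdef
  have hd1 : d ≤ dmax := by linarith
  have d123 : Divisor.degree (D₁ + D₂ + D₃) = 3 * d := by
    rw [map_add, map_add, h.deg₁, h.deg₂, h.deg₃]; ring
  have d12 : Divisor.degree (D₁ + D₂) = 2 * d := by rw [map_add, h.deg₁, h.deg₂]; ring
  have d13 : Divisor.degree (D₁ + D₃) = 2 * d := by rw [map_add, h.deg₁, h.deg₃]; ring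
  have d23 : Divisor.degree (D₂ + D₃) = 2 * d := by rw [map_add, h.deg₂, h.deg₃]; ring
  have a123 := hCa (D₁ + D₂) D₃ (h.rat₁.add h.rat₂) h.rat₃ (add_nonneg h.eff₁ h.eff₂) h.eff₃
    (by rw [d12]; exact h2d) (by rw [h.deg₃]; exact hd1)
  have a12 := hCa D₁ D₂ h.rat₁ h.rat₂ h.eff₁ h.eff₂ (by rw [h.deg₁]; exact hd1)
    (by rw [h.deg₂]; exact hd1)
  have a13 := hCa D₁ D₃ h.rat₁ h.rat₃ h.eff₁ h.eff₃ (by rw [h.deg₁]; exact hd1)
    (by rw [h.deg₃]; exact hd1)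
  have a23 := hCa D₂ D₃ h.rat₂ h.rat₃ h.eff₂ h.eff₃ (by rw [h.deg₂]; exact hd1)
    (by rw [h.deg₃]; exact hd1)
  have hc := hCc D₁ D₂ D₃ h
  set u : ℝ := Hinf (D₁ + D₂ + D₃) - Hinf (D₁ + D₂) - Hinf (D₁ + D₃) - Hinf (D₂ + D₃)
    + Hinf D₁ + Hinf D₂ + Hinf D₃ with hu
  have hu_abs : -(3 * Ca) ≤ u := by
    rw [abs_le] at a123 a12 a13 a23
    simp only [hu]
    linarith [a123.1, a123.2, a12.1, a12.2, a13.1, a13.2, a23.1, a23.2]
  have hρ0 : 0 ≤ ρ := by linarith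
  have hu2 : ρ * -(3 * Ca) ≤ ρ * u := mul_le_mul_of_nonneg_left hu_abs hρ0
  have key : PsiAt fr c Hinf (D₁ + D₂ + D₃) - PsiAt fr c Hinf (D₁ + D₂)
      - PsiAt fr c Hinf (D₁ + D₃) - PsiAt fr c Hinf (D₂ + D₃) + PsiAt fr c Hinf D₁
      + PsiAt fr c Hinf D₂ + PsiAt fr c Hinf D₃
      = (Phi fr (3 * d + c) (D₁ + D₂ + D₃) - Phi fr (2 * d + c) (D₁ + D₂)
        - Phi fr (2 * d + c) (D₁ + D₃) - Phi fr (2 * d + c) (D₂ + D₃)
        + Phi fr (d + c) D₁ + Phi fr (d + c) D₂ + Phi fr (d + c) D₃) - ρ * u := by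
    unfold PsiAt
    rw [d123, d12, d13, d23, h.deg₁, h.deg₂, h.deg₃]
    simp only [hu]
    ring
  rw [key]
  linarith

/-! ## The assembly -/

theorem exists_bound_Icc (f : ℤ → ℝ) (a b : ℤ) :
    ∃ C : ℝ, ∀ i, a ≤ i → i ≤ b → f i ≤ C := by
  obtain ⟨C, hC⟩ := ((Finset.Icc a b).image f).bddAbove
  exact ⟨C, fun i h1 h2 => hC (Finset.mem_coe.mpr
    (Finset.mem_image.mpr ⟨i, Finset.mem_Icc.mpr ⟨h1, h2⟩, rfl⟩))⟩

theorem exists_bound_Icc2 (f : ℤ → ℤ → ℝ) (a b : ℤ) :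
    ∃ C : ℝ, ∀ i j, a ≤ i → i ≤ b → a ≤ j → j ≤ b → f i j ≤ C := by
  obtain ⟨C, hC⟩ :=
    ((Finset.Icc a b ×ˢ Finset.Icc a b).image (fun p : ℤ × ℤ => f p.1 p.2)).bddAbove
  exact ⟨C, fun i j h1 h2 h3 h4 => hC (Finset.mem_coe.mpr (Finset.mem_image.mpr
    ⟨(i, j), Finset.mem_product.mpr ⟨Finset.mem_Icc.mpr ⟨h1, h2⟩, Finset.mem_Icc.mpr ⟨h3, h4⟩⟩,
      rfl⟩))⟩

/-- **The Pluecker assembly.** Finite generation of the Galois-fixed points of `Pic0` from the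
leaves of the Spec. -/
theorem fg_of_leaves [HasPrincipalDivisors Qb (FB F₀)]
    (hdeg : ∀ v : Place Qb (FB F₀), v.deg = 1) (hP0 : IsRatPlace F₀ P0)
    (hR : RiemannSpec F₀) (hRD : RatDescSpec F₀) (hS : SiegelSpec) (hM : MulSpec F₀ P0)
    (hH : ∃ Hinf : Divisor Qb (FB F₀) → ℝ, HinfSpec F₀ P0 Hinf) (hC : CubeSpec F₀ P0)
    (hMove : MoveSpec F₀ P0) (hW : WeakMWSpec F₀) :
    AddGroup.FG ↥(FixedPoints.addSubgroup GalQ (Pic0 Qb (FB F₀))) := by
  classical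
  obtain ⟨hfin, c₁R, hc₁R⟩ := hR
  obtain ⟨Hinf, hHa, hHb, hHc⟩ := hH
  obtain ⟨n₀, hn₀, c₁C, hcube⟩ := hC
  obtain ⟨d₁, hmove⟩ := hMove
  obtain ⟨fr⟩ := exists_frame hRD hP0
  -- the parameters `c` (level offset) and `d` (degree of the representatives)
  have hg0 : (0 : ℤ) ≤ (genusFF Qb (FB F₀) : ℤ) := Int.natCast_nonneg _
  obtain ⟨M, hMdef⟩ : ∃ M : ℤ, M = |c₁R| + |c₁C| + (genusFF Qb (FB F₀) : ℤ) := ⟨_, rfl⟩
  have hM0 : 0 ≤ M := by rw [hMdef]; positivity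
  obtain ⟨c, hcdef⟩ : ∃ c : ℤ, c = n₀ * M := ⟨_, rfl⟩
  have hcM : M ≤ c := by rw [hcdef]; nlinarith
  have hc1R : c₁R ≤ c := by
    have := le_abs_self c₁R
    have := abs_nonneg c₁C
    linarith
  have hc1C : c₁C ≤ c := by
    have := le_abs_self c₁C
    have := abs_nonneg c₁R
    linarith
  have hcg : (genusFF Qb (FB F₀) : ℤ) ≤ c := by
    have := abs_nonneg c₁R
    have := abs_nonneg c₁C
    linarith
  have hc0 : 0 ≤ c := le_trans hM0 hcM
  obtain ⟨d, hddef⟩ : ∃ d : ℤ, d = n₀ * |d₁| := ⟨_, rfl⟩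
  have hd0 : 0 ≤ d := by rw [hddef]; positivity
  have hdd₁ : d₁ ≤ d := by
    have h1 := le_abs_self d₁
    have h2 := abs_nonneg d₁
    have h3 : |d₁| ≤ n₀ * |d₁| := by nlinarith
    rw [hddef]; linarith
  obtain ⟨dmax, hdmax⟩ : ∃ dmax : ℤ, dmax = 3 * d + c := ⟨_, rfl⟩
  have hcd : c ≤ dmax := by rw [hdmax]; linarith
  have h3d : 3 * d ≤ dmax := by rw [hdmax]; linarith
  have h2d : 2 * d ≤ dmax := by rw [hdmax]; linarith
  have hd1 : d ≤ dmax := by linarith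
  have hρ : 1 ≤ (c : ℝ) + 1 - (genusFF Qb (FB F₀) : ℝ) := by
    have : ((genusFF Qb (FB F₀) : ℤ) : ℝ) ≤ (c : ℝ) := by exact_mod_cast hcg
    have e : ((genusFF Qb (FB F₀) : ℤ) : ℝ) = (genusFF Qb (FB F₀) : ℝ) := by norm_cast
    linarith
  have hρpos : 0 < (c : ℝ) + 1 - (genusFF Qb (FB F₀) : ℝ) := by linarith
  have hrk : ∀ E : Divisor Qb (FB F₀), IsRat F₀ E → Divisor.degree E = c →
      (Module.finrank ℚ ↥(ratRR F₀ E) : ℝ) = (c : ℝ) + 1 - (genusFF Qb (FB F₀) : ℝ) := by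
    intro E hE hEd
    rw [(hRD E hE).2.1]
    have h := hc₁R E (by rw [hEd]; exact hc1R)
    rw [hEd] at h
    have h' : ((Module.finrank Qb ↥(riemannRochSpace E) : ℤ) : ℝ)
        = ((c + 1 - (genusFF Qb (FB F₀) : ℤ) : ℤ) : ℝ) := by rw [h]
    push_cast at h'
    exact h'
  -- the constants
  choose CM hCM using hM fr
  choose Cb hCb using hHb fr
  obtain ⟨Ca, hCa⟩ := hHa dmax
  choose CS0 hCS0 using hS
  have hCS : ∀ (m : ℤ) (W : Submodule ℚ ↥(Alev F₀ P0 m)), W ≠ ⊥ → ∃ x ∈ W, x ≠ 0 ∧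
      (Module.finrank ℚ ↥W : ℝ) * htA fr m x ≤ plkHeight (fr.b m) W + CS0 (fr.n m) :=
    fun m W hWne => hCS0 (fr.n m) _ (fr.b m) W hWne
  obtain ⟨Cc, hCc⟩ := hcube fr c d hc1C ⟨M, hcdef⟩ hd0 ⟨|d₁|, hddef⟩
  obtain ⟨C₁, hC₁⟩ := exists_bound_Icc2 (fun i j => CM (i + c) (j + c) + CM (j + c) (i + c)
    + ((c : ℝ) + 1 - (genusFF Qb (FB F₀) : ℝ)) * (Cb (j + c) + Cb (i + c) + 2 * Ca)) 0 dmax
  obtain ⟨c₀, hc₀⟩ := exists_bound_Icc (fun i => CS0 (fr.n (i + c))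
    + ((c : ℝ) + 1 - (genusFF Qb (FB F₀) : ℝ)) * (Cb (i + c) + Ca)) 0 dmax
  -- the representatives
  let Dv : Type := {D : Divisor Qb (FB F₀) // IsRat F₀ D ∧ 0 ≤ D ∧ Divisor.degree D ≤ dmax}
  let clsv : Dv → ↥(FixedPoints.addSubgroup GalQ (Pic0 Qb (FB F₀))) := fun D =>
    ⟨clsAt P0 D.1, (FixedPoints.mem_addSubgroup GalQ _ _).mpr (smul_clsAt hP0 D.2.1)⟩
  let Ψ : Dv → ℝ := fun D => PsiAt fr c Hinf D.1
  let Ev : Type := {E : Divisor Qb (FB F₀) // IsRat F₀ E ∧ 0 ≤ E ∧ Divisor.degree E = c}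
  let clsE : Ev → ↥(FixedPoints.addSubgroup GalQ (Pic0 Qb (FB F₀))) := fun E =>
    ⟨clsAt P0 E.1, (FixedPoints.mem_addSubgroup GalQ _ _).mpr (smul_clsAt hP0 E.2.1)⟩
  let NE : Ev → ℝ := fun E => ((c : ℝ) + 1 - (genusFF Qb (FB F₀) : ℝ)) * Hinf E.1
  refine Fermat.Agent.S17.helper2795.fg_of_plueckerData (C₁ := C₁)
    (C₂ := Cc + ((c : ℝ) + 1 - (genusFF Qb (FB F₀) : ℝ)) * (3 * Ca)) clsv Ψ ?_ ?_ clsE NE ?_ c₀ ?_
    hW
  · -- class invariance
    intro D D' h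
    have h' : clsAt P0 D.1 = clsAt P0 D'.1 := congrArg Subtype.val h
    exact (psi_classInv_aux hdeg hP0 hfin hRD fr c hρ hrk Hinf CM hCM Cb hCb Ca dmax hCa hcd
      D.2.1 D'.2.1 D.2.2.1 D'.2.2.1 D.2.2.2 D'.2.2.2 h').trans
      (hC₁ _ _ (degree_nonneg hdeg D.2.2.1) D.2.2.2 (degree_nonneg hdeg D'.2.2.1) D'.2.2.2)
  · -- the seven-term inequality on representatives
    intro x y z
    obtain ⟨D₁, r1, e1, g1, o1, m1, -, k1⟩ := hmove d hdd₁ x.1
      (fun σ => (FixedPoints.mem_addSubgroup GalQ _ _).mp x.2 σ) ∅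
    obtain ⟨D₂, r2, e2, g2, o2, m2, s2, k2⟩ := hmove d hdd₁ y.1
      (fun σ => (FixedPoints.mem_addSubgroup GalQ _ _).mp y.2 σ) D₁.support
    obtain ⟨D₃, r3, e3, g3, o3, m3, s3, k3⟩ := hmove d hdd₁ z.1
      (fun σ => (FixedPoints.mem_addSubgroup GalQ _ _).mp z.2 σ) (D₁.support ∪ D₂.support)
    have adm : IsAdmTriple F₀ P0 d D₁ D₂ D₃ := by
      refine ⟨r1, r2, r3, e1, e2, e3, g1, g2, g3, ?_, ?_⟩
      · rw [Finsupp.add_apply, Finsupp.add_apply, o1, o2, o3]; rfl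
      · intro v
        rw [Finsupp.add_apply, Finsupp.add_apply]
        by_cases hv1 : v ∈ D₁.support
        · rw [s2 v hv1, s3 v (Finset.mem_union_left _ hv1)]
          have := m1 v
          linarith
        · rw [Finsupp.notMem_support_iff.mp hv1]
          by_cases hv2 : v ∈ D₂.support
          · rw [s3 v (Finset.mem_union_right _ hv2)]
            have := m2 v
            linarith
          · rw [Finsupp.notMem_support_iff.mp hv2]
            have := m3 v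
            linarith
    have d12 : Divisor.degree (D₁ + D₂) ≤ dmax := by rw [map_add, g1, g2]; linarith
    have d13 : Divisor.degree (D₁ + D₃) ≤ dmax := by rw [map_add, g1, g3]; linarith
    have d23 : Divisor.degree (D₂ + D₃) ≤ dmax := by rw [map_add, g2, g3]; linarith
    have d123 : Divisor.degree (D₁ + D₂ + D₃) ≤ dmax := by
      rw [map_add, map_add, g1, g2, g3]; linarith
    refine ⟨⟨D₁, r1, e1, by rw [g1]; exact hd1⟩, ⟨D₂, r2, e2, by rw [g2]; exact hd1⟩,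
      ⟨D₃, r3, e3, by rw [g3]; exact hd1⟩, ⟨D₁ + D₂, r1.add r2, add_nonneg e1 e2, d12⟩,
      ⟨D₁ + D₃, r1.add r3, add_nonneg e1 e3, d13⟩, ⟨D₂ + D₃, r2.add r3, add_nonneg e2 e3, d23⟩,
      ⟨D₁ + D₂ + D₃, (r1.add r2).add r3, add_nonneg (add_nonneg e1 e2) e3, d123⟩,
      Subtype.ext k1, Subtype.ext k2, Subtype.ext k3, ?_, ?_, ?_, ?_, ?_⟩
    · exact Subtype.ext (by
        show clsAt P0 (D₁ + D₂) = x.1 + y.1
        rw [clsAt_add hdeg, k1, k2])
    · exact Subtype.ext (by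
        show clsAt P0 (D₁ + D₃) = x.1 + z.1
        rw [clsAt_add hdeg, k1, k3])
    · exact Subtype.ext (by
        show clsAt P0 (D₂ + D₃) = y.1 + z.1
        rw [clsAt_add hdeg, k2, k3])
    · exact Subtype.ext (by
        show clsAt P0 (D₁ + D₂ + D₃) = x.1 + y.1 + z.1
        rw [clsAt_add hdeg, clsAt_add hdeg, k1, k2, k3])
    · exact psi_cube_aux fr c d hρ Hinf Ca dmax hCa h2d hd0 Cc hCc adm
  · -- Northcott for the small representatives
    intro B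
    have hfinset := hHc c (B / ((c : ℝ) + 1 - (genusFF Qb (FB F₀) : ℝ)))
    refine (hfinset.preimage (Subtype.val_injective.injOn)).subset ?_
    intro E hE
    have hE' : ((c : ℝ) + 1 - (genusFF Qb (FB F₀) : ℝ)) * Hinf E.1 ≤ B := hE
    refine ⟨E.2.1, E.2.2.1, E.2.2.2, ?_⟩
    rw [le_div_iff₀ hρpos]
    linarith
  · -- the lower bound
    intro D
    obtain ⟨E, hErat, hE0, hEdeg, hEcls, hbound⟩ := psi_lower_aux hdeg hP0 fr c hρ hrk Hinf
      (fun m => CS0 (fr.n m)) hCS Cb hCb Ca dmax hCa hcd D.2.1 D.2.2.1 D.2.2.2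
    refine ⟨⟨E, hErat, hE0, hEdeg⟩, Subtype.ext hEcls, ?_⟩
    have h1 := hc₀ (Divisor.degree D.1) (degree_nonneg hdeg D.2.2.1) D.2.2.2
    show ((c : ℝ) + 1 - (genusFF Qb (FB F₀) : ℝ)) * Hinf E - c₀ ≤ PsiAt fr c Hinf D.1
    have h2 : CS0 (fr.n (Divisor.degree D.1 + c))
        + ((c : ℝ) + 1 - (genusFF Qb (FB F₀) : ℝ)) * (Cb (Divisor.degree D.1 + c) + Ca) ≤ c₀ := h1
    linarith

/-- The assembly in the exact shape of the frozen statement S17. -/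
theorem s17_of_leaves (N : ℕ) {P0 : Place Qb (FB (modularFunctionFieldFull N))}
    [HasPrincipalDivisors Qb (FB (modularFunctionFieldFull N))]
    (hdeg : ∀ v : Place Qb (FB (modularFunctionFieldFull N)), v.deg = 1)
    (hP0 : IsRatPlace (modularFunctionFieldFull N) P0)
    (hR : RiemannSpec (modularFunctionFieldFull N))
    (hRD : RatDescSpec (modularFunctionFieldFull N)) (hS : SiegelSpec)
    (hM : MulSpec (modularFunctionFieldFull N) P0)
    (hH : ∃ Hinf : Divisor Qb (FB (modularFunctionFieldFull N)) → ℝ,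
      HinfSpec (modularFunctionFieldFull N) P0 Hinf)
    (hC : CubeSpec (modularFunctionFieldFull N) P0)
    (hMove : MoveSpec (modularFunctionFieldFull N) P0)
    (hW : WeakMWSpec (modularFunctionFieldFull N)) :
    AddGroup.FG ↥(FixedPoints.addSubgroup ((AlgebraicClosure ℚ) ≃ₐ[ℚ] (AlgebraicClosure ℚ))
      (JZero N)) :=
  fg_of_leaves hdeg hP0 hR hRD hS hM hH hC hMove hW

end

end Fermat.Agent.S17.helper3197
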