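/-
S17 (Mordell–Weil for `JZero N`): INSTANTIATION of the Pluecker Spec (`helper3197_PlueckerSpec`)
and of the Pluecker assembly (`helper3197_PlueckerAsm.fg_of_leaves`) at the modular curve,
captain file (helper4656).

* `F0 N = modularFunctionFieldFull N`, so `FB (F0 N) = modularFunctionFieldBar N` and
  `Pic0 Qb (FB (F0 N)) = JZero N` (all reducible);
* `Pinf N` = the cusp `∞` (`S29.helper36.qPlaceL`), a rational place;
* `jQb N`  = the function `j`, transcendental, with `FB (F0 N)` finite over `ℚ̄(j)`;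
* the leaves L1, L2, L2', L4, L5, L6, L8, L9 of the Spec at `F0 N`, `Pinf N`;
* `fg_JZero_of_cube` : the frozen conclusion of S17 from the cube inequality (leaf L7).
-/
import Fermat.Agent.S17.helper3197_PlueckerAsm
import Fermat.Agent.S17.helper2530_RiemannLeaf
import Fermat.Agent.S17.helper1935_RatDesc
import Fermat.Agent.S17.helper2177_SiegelLeaf
import Fermat.Agent.S17.helper3436_MulSpec
import Fermat.Agent.S17.helper2801_HinfSpec
import Fermat.Agent.S17.helper1263_MovingInst
import Fermat.Agent.S17.helper5065_WeakMW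
import Fermat.Agent.S17.helper3753_QPlaceFixed
import Fermat.Agent.S29.helper36_FunctionFieldL

set_option autoImplicit false

open ModularCurve AlgebraicCurve
open Fermat.Agent.S17.helper3197

namespace Fermat.Agent.S17.helper4656

noncomputable section

/-- The rational model of the function field of `X₀(N)`. -/
abbrev F0 (N : ℕ) : IntermediateField ℚ (LaurentSeries ℚ) := modularFunctionFieldFull N

/-- The cusp `∞`. -/
abbrev Pinf (N : ℕ) : Place Qb (FB (F0 N)) := Fermat.Agent.S29.helper36.qPlaceL Qb N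

/-- The function `j`. -/
abbrev jQb (N : ℕ) : FB (F0 N) := Fermat.Agent.S29.helper36.jL Qb N

theorem isRatPlace_Pinf (N : ℕ) : IsRatPlace (F0 N) (Pinf N) :=
  fun σ => Fermat.Agent.S17.helper3753.arithmeticGalois_smul_qPlaceL Qb N σ

theorem transcendental_jQb (N : ℕ) : Transcendental Qb (jQb N) :=
  Fermat.Agent.S29.helper36.transcendental_jL Qb N

theorem finiteDimensional_jQb (N : ℕ) [NeZero N] :
    FiniteDimensional (IntermediateField.adjoin Qb {jQb N}) (FB (F0 N)) :=
  Fermat.Agent.S29.helper36.finiteDimensional_jL Qb N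

/-- Leaf L1 at the modular curve. -/
theorem riemannSpec_X0 (N : ℕ) [NeZero N] : RiemannSpec (F0 N) :=
  have := finiteDimensional_jQb N
  Fermat.Agent.S17.helper2530.riemannSpec (F0 N) (jQb N) (transcendental_jQb N)

/-- Leaf L2 at the modular curve. -/
theorem ratDescSpec_X0 (N : ℕ) [NeZero N] : RatDescSpec (F0 N) :=
  Fermat.Agent.S17.helper1935.ratDescSpec_of_riemannSpec (F0 N) (riemannSpec_X0 N)

/-- Leaf L2' at the modular curve. -/
theorem linDisjSpec_X0 (N : ℕ) : LinDisjSpec (F0 N) :=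
  Fermat.Agent.S17.helper1935.linDisjSpec (F0 N)

/-- Leaf L5 at the modular curve. -/
theorem mulSpec_X0 (N : ℕ) : MulSpec (F0 N) (Pinf N) :=
  Fermat.Agent.S17.helper3436.mulSpec (F0 N) (Pinf N) (linDisjSpec_X0 N)

/-- Leaf L6 at the modular curve. -/
theorem hinfSpec_X0 (N : ℕ) [NeZero N] :
    ∃ Hinf : Divisor Qb (FB (F0 N)) → ℝ, HinfSpec (F0 N) (Pinf N) Hinf :=
  have := finiteDimensional_jQb N
  Fermat.Agent.S17.helper2801.hinfSpec (jQb N) (transcendental_jQb N) (isRatPlace_Pinf N)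
    (riemannSpec_X0 N) (ratDescSpec_X0 N) (linDisjSpec_X0 N)

/-- Leaf L8 at the modular curve. -/
theorem moveSpec_X0 (N : ℕ) [NeZero N] : MoveSpec (F0 N) (Pinf N) :=
  have := finiteDimensional_jQb N
  Fermat.Agent.S17.helper1263.moveSpec (F0 N) (Pinf N) (jQb N) (transcendental_jQb N)
    (isRatPlace_Pinf N)

/-- Leaf L9 at the modular curve (weak Mordell–Weil at `2`). -/
theorem weakMWSpec_X0 (N : ℕ) [NeZero N] : WeakMWSpec (F0 N) :=
  Fermat.Agent.S17.helper5065.weakMWSpec N

/-- **Mordell–Weil for `JZero N`** from the three leaves of the Pluecker Spec that are not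
formal: the naive height `Hinf` (leaf L6), the cube inequality (leaf L7) and weak Mordell–Weil
at `2` (leaf L9). -/
theorem fg_JZero_of_leaves (N : ℕ) [NeZero N]
    (h6 : ∃ Hinf : Divisor Qb (FB (F0 N)) → ℝ, HinfSpec (F0 N) (Pinf N) Hinf)
    (h7 : CubeSpec (F0 N) (Pinf N)) (h9 : WeakMWSpec (F0 N)) :
    AddGroup.FG ↥(FixedPoints.addSubgroup ((AlgebraicClosure ℚ) ≃ₐ[ℚ] (AlgebraicClosure ℚ))
      (JZero N)) :=
  have : HasPrincipalDivisors Qb (FB (F0 N)) :=
    Fermat.Agent.S29.helper36.hasPrincipalDivisors_L Qb N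
  fg_of_leaves (F₀ := F0 N) (P0 := Pinf N)
    (fun v => Fermat.Agent.S29.helper36.place_deg_eq_one_L Qb N v)
    (isRatPlace_Pinf N) (riemannSpec_X0 N) (ratDescSpec_X0 N)
    Fermat.Agent.S17.helper2177.siegelSpec (mulSpec_X0 N) h6 h7 (moveSpec_X0 N) h9

/-- **Mordell–Weil for `JZero N`** from the cube inequality (leaf L7 of the Pluecker Spec). -/
theorem fg_JZero_of_cube (N : ℕ) [NeZero N] (h7 : CubeSpec (F0 N) (Pinf N)) :
    AddGroup.FG ↥(FixedPoints.addSubgroup ((AlgebraicClosure ℚ) ≃ₐ[ℚ] (AlgebraicClosure ℚ))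
      (JZero N)) :=
  fg_JZero_of_leaves N (hinfSpec_X0 N) h7 (weakMWSpec_X0 N)

end

end Fermat.Agent.S17.helper4656
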