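import Fermat.Agent.S27.helper8094_Lefschetz
import Fermat.Agent.S27.helper197_CFE
import Fermat.Agent.S27.helper6247_Assembly
import Fermat.Agent.S27.helper5322_ComplexAsm
import Fermat.Agent.S27.helper1918_Desc
import Fermat.Agent.S37.helper1478_HeckeWiring
import Fermat.Prelude.Def_ModularCurve_ArithmeticGalois

/-!
# S17, leaf W3 (helper958): divisibility of `JZero N`

The weak Mordell–Weil wiring `helper9541.finiteIndex_nsmul_JZero_of_specializationExists` needs
`hdiv : ∀ x : JZero N, ∃ y : JZero N, p • y = x`.  This file gives the assembly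

  complex divisibility  +  finite-orbit descent  ⟹  divisibility of `Pic0` over `ℚ̄`,

in hypothesis-passing style:

* `Stmt_DivC`     : `Pic0 ℂ F` is divisible for every function field `F` finite over `ℂ(x)`;
* `Stmt_DESCorb`  : classes `y₁` of a constant field extension `F1 / F0` such that `n • y₁` comes
  from `F0` descend to `F0` (when `Pic0(F1)[n]` is finite);
* `divC_of_aj`    : `Stmt_DivC` from the S27 core interface `helper6247.Stmt_AJ`
  (the Abel–Jacobi homomorphism `E : ℂ^g →+ Pic0` is onto);
* `divisible_of_embedding` : divisibility for a curve whose constant field embeds into `ℂ`;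
* `divisible_JZero` : the `hdiv` shape for `JZero N` (hypothesis-passing);
* `divisible_JZero_final` : the same, UNCONDITIONALLY (S27 analytic core `helper6247.asm_AJ`,
  `asm_Complex`, and the finite-orbit descent `helper1918.descGen`, all on main).
-/

set_option autoImplicit false
set_option linter.style.haveILetI false

open AlgebraicCurve ModularCurve IntermediateField
open scoped IntermediateField

namespace Fermat.Agent.S17.helper958

open Fermat.Agent.S27

universe u v u' v'

/-! ## The two interfaces -/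

/-- (P1) **Complex divisibility**: `Pic0 ℂ F` is a divisible group. -/
def Stmt_DivC : Prop :=
  ∀ (F : Type) [Field F] [Algebra ℂ F] (x : F), Transcendental ℂ x →
    ∀ [FiniteDimensional ℂ⟮x⟯ F] (n : ℕ), 0 < n → ∀ c : Pic0 ℂ F, ∃ y : Pic0 ℂ F, n • y = c

/-- (P2) **Finite-orbit descent**: for a constant field extension `(K1, F1)` of `(K0, F0)` with
`Pic0(F1)[n]` finite, a degree-zero divisor `D1` of `F1` such that `n • D1` is linearly equivalent
to a divisor coming from `F0` is itself linearly equivalent to a divisor coming from `F0`.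
(Generalises `helper8094.Stmt_DESC`, which is the case `E0 = 0`.) -/
def Stmt_DESCorb : Prop :=
  ∀ (K0 : Type u) (F0 : Type v) (K1 : Type u') (F1 : Type v')
    [Field K0] [Field F0] [Field K1] [Field F1]
    [Algebra K0 F0] [Algebra K1 F1] [Algebra K0 K1] [Algebra F0 F1] [Algebra K0 F1]
    [IsScalarTower K0 F0 F1] [IsScalarTower K0 K1 F1]
    [IsAlgClosed K0] [CharZero K0] [IsAlgClosed K1] [CharZero K1]
    [IsCurveOver K0 F0] [Algebra.EssFiniteType K0 F0]
    [IsCurveOver K1 F1] [Algebra.EssFiniteType K1 F1],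
    helper8094.IsConstExt K0 F0 K1 F1 →
    ∀ n : ℕ, (Pic0.torsion K1 F1 n : Set (Pic0 K1 F1)).Finite →
    ∀ ι : Place K0 F0 → Place K1 F1, (∀ v, helper8094.IsExtOf (ι v) v) →
    ∀ (D1 : Divisor K1 F1) (E0 : Divisor K0 F0), Divisor.degree D1 = 0 →
      Divisor.degree E0 = 0 →
      n • D1 - Finsupp.mapDomain ι E0 ∈ Divisor.principal (K := K1) (F := F1) →
      ∃ D0 : Divisor K0 F0, Divisor.degree D0 = 0 ∧
        D1 - Finsupp.mapDomain ι D0 ∈ Divisor.principal (K := K1) (F := F1)

/-! ## (D1) The complex case from the Abel–Jacobi interface -/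

/-- The Abel–Jacobi homomorphism of `helper6247.Stmt_AJ` is onto (chart saturation and
connectedness), hence `Pic0 ℂ F` is divisible. -/
theorem divC_of_aj (hAJ : helper6247.Stmt_AJ) (hConn : helper6247.Stmt_Connected) :
    Stmt_DivC := by
  intro F _ _ x hx _ n hn c
  have hdeg : ∀ v : Place ℂ F, v.deg = 1 := Fermat.Agent.S24.helper204.place_deg_eq_one x hx
  obtain ⟨E, hEchart, -⟩ := hAJ F x hx
  have hz : ∀ v w : Place ℂ F, Divisor.degree (helper6247.pt v - helper6247.pt w) = 0 := by
    intro v w
    rw [map_sub, helper5322.degree_pt, helper5322.degree_pt, hdeg v, hdeg w, sub_self]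
  -- surjectivity of `E`
  have hsurj : Function.Surjective E := by
    by_cases hne : Nonempty (Place ℂ F)
    swap
    · have : IsEmpty (Place ℂ F) := not_nonempty_iff.mp hne
      intro c
      obtain ⟨⟨D, hD⟩, rfl⟩ := Pic0.mk_surjective c
      have hD0 : D = 0 := Subsingleton.elim _ _
      subst hD0
      exact ⟨0, by rw [map_zero]; rfl⟩
    obtain ⟨P₀⟩ := hne
    set S : Set (Place ℂ F) :=
      {P | helper6247.cls (helper6247.pt P - helper6247.pt P₀) ∈ E.range} with hS
    have hsplit : ∀ P P' : Place ℂ F,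
        helper6247.cls (helper6247.pt P - helper6247.pt P₀) =
          helper6247.cls (helper6247.pt P - helper6247.pt P') +
            helper6247.cls (helper6247.pt P' - helper6247.pt P₀) := by
      intro P P'
      rw [← helper5322.cls_add (hz P P') (hz P' P₀)]
      congr 1
      abel
    have hS0 : P₀ ∈ S := by
      show helper6247.cls (helper6247.pt P₀ - helper6247.pt P₀) ∈ E.range
      rw [sub_self, helper5322.cls_zero]
      exact E.range.zero_mem
    have hSsat : ∀ (u : F) (Q : ℂ → Place ℂ F) (r : ℝ), helper6247.IsChart u Q r →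
        ∀ s ∈ Metric.ball (0 : ℂ) r, (Q 0 ∈ S ↔ Q s ∈ S) := by
      intro u Q r hch s hs
      obtain ⟨J, -, hJ⟩ := hEchart u Q r hch
      have h1 := hJ s hs
      have h2 := hsplit (Q s) (Q 0)
      constructor
      · intro h
        show helper6247.cls (helper6247.pt (Q s) - helper6247.pt P₀) ∈ E.range
        rw [h2, h1]
        exact E.range.add_mem ⟨J s, rfl⟩ h
      · intro h
        have h3 : helper6247.cls (helper6247.pt (Q 0) - helper6247.pt P₀) =
            helper6247.cls (helper6247.pt (Q s) - helper6247.pt P₀) - E (J s) := by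
          rw [h2, h1]
          abel
        show helper6247.cls (helper6247.pt (Q 0) - helper6247.pt P₀) ∈ E.range
        rw [h3]
        exact E.range.sub_mem h ⟨J s, rfl⟩
    have hSuniv : S = Set.univ := hConn F x hx S ⟨P₀, hS0⟩ hSsat
    have hall : ∀ P : Place ℂ F, ∃ w, E w = helper6247.cls (helper6247.pt P - helper6247.pt P₀) := by
      intro P
      have hPS : P ∈ S := by rw [hSuniv]; trivial
      exact hPS
    intro c
    obtain ⟨⟨D, hD⟩, rfl⟩ := Pic0.mk_surjective c
    have hD' : Divisor.degree D = 0 := hD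
    have h1 := helper5322.cls_sub_degree_smul hdeg P₀ D
    rw [hD', zero_smul, sub_zero, helper5322.cls_of_degree hD'] at h1
    have hmem : Pic0.mk ⟨D, hD⟩ ∈ E.range := by
      rw [h1]
      exact E.range.sum_mem fun v _ => E.range.zsmul_mem (hall v) _
    exact hmem
  obtain ⟨w, rfl⟩ := hsurj c
  refine ⟨E ((n : ℂ)⁻¹ • w), ?_⟩
  rw [← map_nsmul]
  congr 1
  have hn0 : (n : ℂ) ≠ 0 := Nat.cast_ne_zero.mpr hn.ne'
  rw [← Nat.cast_smul_eq_nsmul ℂ n, smul_smul, mul_inv_cancel₀ hn0, one_smul]

/-! ## (D3) Assembly: curves whose constant field embeds into `ℂ` -/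

/-- **Divisibility for a curve whose constant field embeds into `ℂ`**, from the complex case and
finite-orbit descent. -/
theorem divisible_of_embedding (hC : helper6247.Stmt_Complex) (hDiv : Stmt_DivC)
    (hD : Stmt_DESCorb.{u, 0, 0, 0})
    (K0 : Type u) (F0 : Type) [Field K0] [Field F0] [Algebra K0 F0] [IsAlgClosed K0]
    [CharZero K0] [IsCurveOver K0 F0] [Algebra.EssFiniteType K0 F0]
    (j : K0 →+* ℂ) (n : ℕ) (hn : 0 < n) (x : Pic0 K0 F0) :
    ∃ y : Pic0 K0 F0, n • y = x := by
  letI : Algebra K0 ℂ := j.toAlgebra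
  obtain ⟨t, ht, hfin⟩ := helper5411.exists_transcendental_finite (K := K0) (F := F0)
  haveI : FiniteDimensional K0⟮t⟯ F0 := hfin
  have ht1 := helper8788.Compositum.transcendental_algebraMap K0 F0 ℂ ht
  haveI := helper8788.Compositum.finiteDimensional_adjoin K0 F0 ℂ t
  haveI : IsCurveOver ℂ (helper8788.Compositum K0 F0 ℂ) :=
    helper1949.isCurveOver_of_finite _ ht1
  haveI : Algebra.EssFiniteType ℂ (helper8788.Compositum K0 F0 ℂ) :=
    helper1949.essFiniteType_of_finite (algebraMap F0 (helper8788.Compositum K0 F0 ℂ) t)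
  have hce : helper8094.IsConstExt K0 F0 ℂ (helper8788.Compositum K0 F0 ℂ) :=
    helper8094.isConstExt_compositum K0 F0 ℂ
  obtain ⟨hE, -, -⟩ := helper197.stmt_CFE1 K0 F0 ℂ (helper8788.Compositum K0 F0 ℂ) hce
  choose ι hι _ using hE
  obtain ⟨hb, hc, hd, -⟩ :=
    helper197.stmt_CFE4 K0 F0 ℂ (helper8788.Compositum K0 F0 ℂ) hce ι hι
  -- finiteness of the torsion over `ℂ`
  have hcount1 := helper8094.complex_any_universe hC (helper8788.Compositum K0 F0 ℂ) n hn
  have hfin1 : (Pic0.torsion ℂ (helper8788.Compositum K0 F0 ℂ) n :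
      Set (Pic0 ℂ (helper8788.Compositum K0 F0 ℂ))).Finite := by
    have hpos : 0 < Nat.card (Pic0.torsion ℂ (helper8788.Compositum K0 F0 ℂ) n) := by
      rw [hcount1]
      exact pow_pos hn _
    haveI := (Nat.card_pos_iff.mp hpos).2
    exact Set.toFinite _
  -- divide over `ℂ`
  obtain ⟨D, rfl⟩ := Pic0.mk_surjective x
  obtain ⟨y1, hy1⟩ := hDiv (helper8788.Compositum K0 F0 ℂ)
    (algebraMap F0 (helper8788.Compositum K0 F0 ℂ) t) ht1 n hn
    (helper8094.picMap ι hb hc (Pic0.mk D))
  obtain ⟨D1, rfl⟩ := Pic0.mk_surjective y1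
  have hpr : n • (D1 : Divisor ℂ (helper8788.Compositum K0 F0 ℂ)) -
      Finsupp.mapDomain ι (D : Divisor K0 F0) ∈
        Divisor.principal (K := ℂ) (F := helper8788.Compositum K0 F0 ℂ) := by
    have h1 : Pic0.mk (n • D1) = Pic0.mk (helper8094.degZeroMap ι hb D) := by
      rw [← helper8094.picMap_mk ι hb hc, ← hy1]
      rfl
    have h2 := (helper8094.mk_eq_mk_iff _ _).mp h1
    simpa using h2
  -- descend
  obtain ⟨D0, hD0, hpr0⟩ := hD K0 F0 ℂ (helper8788.Compositum K0 F0 ℂ) hce n hfin1 ι hι
    (D1 : Divisor ℂ (helper8788.Compositum K0 F0 ℂ)) (D : Divisor K0 F0) D1.2 D.2 hpr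
  refine ⟨Pic0.mk ⟨D0, hD0⟩, ?_⟩
  apply helper8094.picMap_injective ι hb hc hd
  have h3 : helper8094.picMap ι hb hc (Pic0.mk ⟨D0, hD0⟩) = Pic0.mk D1 := by
    rw [helper8094.picMap_mk, eq_comm, helper8094.mk_eq_mk_iff]
    exact hpr0
  rw [map_nsmul, h3, hy1]

/-- The same for countable constant fields. -/
theorem divisible_of_countable (hC : helper6247.Stmt_Complex) (hDiv : Stmt_DivC)
    (hD : Stmt_DESCorb.{u, 0, 0, 0})
    (K0 : Type u) (F0 : Type) [Field K0] [Field F0] [Algebra K0 F0] [IsAlgClosed K0]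
    [CharZero K0] [IsCurveOver K0 F0] [Algebra.EssFiniteType K0 F0] [Countable K0]
    (n : ℕ) (hn : 0 < n) (x : Pic0 K0 F0) : ∃ y : Pic0 K0 F0, n • y = x := by
  obtain ⟨j⟩ := helper1197.nonempty_ringHom_complex_of_countable K0
  exact divisible_of_embedding hC hDiv hD K0 F0 j n hn x

/-! ## (D4) The instance `JZero N` -/

/-- The function field of `X₀(N)` over `ℚ̄` is a curve. -/
theorem isCurveOver_level (N : ℕ) [NeZero N] :
    IsCurveOver (AlgebraicClosure ℚ) (modularFunctionFieldBar N) := by
  haveI := Fermat.Agent.S37.helper1478.finiteDimensional_level N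
  exact helper1949.isCurveOver_of_finite _ (Fermat.Agent.S37.helper1478.transcendental_jBar N)

theorem essFiniteType_level (N : ℕ) [NeZero N] :
    Algebra.EssFiniteType (AlgebraicClosure ℚ) (modularFunctionFieldBar N) := by
  haveI := Fermat.Agent.S37.helper1478.finiteDimensional_level N
  exact helper1949.essFiniteType_of_finite (Fermat.Agent.S24.helper24.jBar N)

/-- **Divisibility of `JZero N`**, in the `hdiv` shape of
`helper9541.finiteIndex_nsmul_JZero_of_specializationExists`, from the complex case and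
finite-orbit descent. -/
theorem divisible_JZero (hC : helper6247.Stmt_Complex) (hDiv : Stmt_DivC)
    (hD : Stmt_DESCorb.{0, 0, 0, 0}) (N : ℕ) [NeZero N] (n : ℕ) (hn : 0 < n) :
    ∀ x : JZero N, ∃ y : JZero N, n • y = x := by
  intro x
  haveI := isCurveOver_level N
  haveI := essFiniteType_level N
  have : Countable (AlgebraicClosure ℚ) := by
    have : Algebra.IsAlgebraic ℚ (AlgebraicClosure ℚ) := AlgebraicClosure.isAlgebraic ℚ
    have h := Algebra.IsAlgebraic.cardinalMk_le_max ℚ (AlgebraicClosure ℚ)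
    exact Cardinal.mk_le_aleph0_iff.mp
      (h.trans (max_le (Cardinal.mk_le_aleph0 (α := ℚ)) le_rfl))
  exact divisible_of_countable hC hDiv hD (AlgebraicClosure ℚ) (modularFunctionFieldBar N) n hn x

/-! ## Unconditional forms -/

/-- Complex divisibility, unconditionally (S27 analytic core `helper6247.asm_AJ`). -/
theorem stmt_DivC : Stmt_DivC := divC_of_aj helper6247.asm_AJ helper6247.asm_Connected

/-- Finite-orbit descent, unconditionally (`helper1918.descGen`). -/
theorem stmt_DESCorb : Stmt_DESCorb.{u, v, u', v'} := by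
  intro K0 F0 K1 F1 _ _ _ _ _ _ _ _ _ _ _ _ _ _ _ _ _ _ _ hC n hfin ι hι D1 E0 hD1 _ hpr
  exact helper1918.descGen K0 F0 K1 F1 hC
    (helper8094.stmt_weakRR_of_riemann helper4996.stmt_Riemann K1 F1) n hfin ι hι D1 E0 hD1 hpr

/-- **`JZero N` is a divisible group**: the input `hdiv` of the weak Mordell–Weil wiring
`helper9541.finiteIndex_nsmul_JZero_of_specializationExists`, for every level `N ≠ 0` and
every `n ≥ 1`, unconditionally. -/
theorem divisible_JZero_final (N : ℕ) [NeZero N] (n : ℕ) (hn : 0 < n) :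
    ∀ x : JZero N, ∃ y : JZero N, n • y = x :=
  divisible_JZero helper6247.asm_Complex stmt_DivC stmt_DESCorb N n hn

/-- **Divisibility of `Pic0`** for every curve over a countable algebraically closed field of
characteristic zero (function field in `Type`), unconditionally. -/
theorem divisible_pic0_of_countable (K0 : Type u) (F0 : Type) [Field K0] [Field F0]
    [Algebra K0 F0] [IsAlgClosed K0] [CharZero K0] [IsCurveOver K0 F0]
    [Algebra.EssFiniteType K0 F0] [Countable K0] (n : ℕ) (hn : 0 < n) (x : Pic0 K0 F0) :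
    ∃ y : Pic0 K0 F0, n • y = x :=
  divisible_of_countable helper6247.asm_Complex stmt_DivC stmt_DESCorb K0 F0 n hn x

/-- Divisibility of `Pic0` for every curve whose constant field embeds into `ℂ`. -/
theorem divisible_pic0_of_embedding (K0 : Type u) (F0 : Type) [Field K0] [Field F0]
    [Algebra K0 F0] [IsAlgClosed K0] [CharZero K0] [IsCurveOver K0 F0]
    [Algebra.EssFiniteType K0 F0] (j : K0 →+* ℂ) (n : ℕ) (hn : 0 < n) (x : Pic0 K0 F0) :
    ∃ y : Pic0 K0 F0, n • y = x :=
  divisible_of_embedding helper6247.asm_Complex stmt_DivC stmt_DESCorb K0 F0 j n hn x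

end Fermat.Agent.S17.helper958
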