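/-
S17-DIV (board row 1733, seat helper2219): `Pic0` of a curve over an algebraically closed field
of characteristic zero is a DIVISIBLE group (unconditional).

* `aj_surjective`, `pic0_complex_divisible`: the Abel–Jacobi homomorphism `E : ℂ^g → Pic0` of the
  landed S27 analytic core (`helper6247.asm_AJ`) is onto (landed connectedness theorem), hence
  `Pic0 ℂ F` is divisible; `pic0_complex_divisible_univ` is the same in every universe.
* `pic0_divisible_of_embedding`: descent to a field `K0` that embeds into `ℂ`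
  (constant field extension `F0 ⊗ ℂ`, injectivity of `Pic0 F0 → Pic0 F1`, finiteness of the
  torsion over `ℂ`, and the generalised Aut-orbit descent `helper1918.descGen`).
* `pic0_divisible`: every algebraically closed field of characteristic zero (countable models,
  `helper70.stmt_down2`).
-/
import Fermat.Agent.S27.helper6247_Assembly
import Fermat.Agent.S27.helper8094_Lefschetz
import Fermat.Agent.S27.helper197_CFE
import Fermat.Agent.S27.helper1918_Desc
import Fermat.Agent.S27.helper70_Down2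

set_option autoImplicit false

open AlgebraicCurve IntermediateField

namespace Fermat.Agent.S17.helper2219

open Fermat.Agent.S27 Fermat.Agent.S27.helper6247

universe u v

noncomputable section

/-! ## Divisibility over the complex numbers -/

/-- The Abel–Jacobi homomorphism of the S27 core interface `Stmt_AJ` is onto. -/
theorem aj_surjective (F : Type) [Field F] [Algebra ℂ F] (x : F)
    (hx : Transcendental ℂ x) [FiniteDimensional ℂ⟮x⟯ F] :
    ∃ E : (Fin (genusFF ℂ F) → ℂ) →+ Pic0 ℂ F, Function.Surjective E := by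
  obtain ⟨-, hrr, -⟩ := asm_Riemann.{0, 0} ℂ F x hx
  have : HasPrincipalDivisors ℂ F := Fermat.Agent.S24.helper483.hasPrincipalDivisors x hx
  have hdeg : ∀ v : Place ℂ F, v.deg = 1 := Fermat.Agent.S24.helper483.place_deg_eq_one x hx
  obtain ⟨E, hE, -⟩ := asm_AJ F x hx
  refine ⟨E, ?_⟩
  by_cases hne : Nonempty (Place ℂ F)
  swap
  · rw [not_nonempty_iff] at hne
    intro y
    obtain ⟨⟨Z, hZ⟩, rfl⟩ := Pic0.mk_surjective y
    have hZ0 : Z = 0 := Subsingleton.elim _ _
    subst hZ0
    exact ⟨0, by rw [map_zero]; rfl⟩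
  obtain ⟨P0⟩ := hne
  -- every point class lies in the range of `E`
  have hrange : ∀ P : Place ℂ F, cls (pt P - pt P0) ∈ Set.range E := by
    have hS := asm_Connected F x hx {P | cls (pt P - pt P0) ∈ Set.range E}
      ⟨P0, by
        show cls (pt P0 - pt P0) ∈ Set.range E
        rw [sub_self]
        exact ⟨0, by rw [map_zero, helper4604.cls_zero]⟩⟩
      (by
        intro u' Q' r' hch s hs
        obtain ⟨J', -, hJ'⟩ := hE u' Q' r' hch
        have h1 := hJ' s hs
        have h2 : cls (pt (Q' s) - pt P0)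
            = cls (pt (Q' s) - pt (Q' 0)) + cls (pt (Q' 0) - pt P0) := by
          rw [← helper4604.cls_add (helper4604.pt_sub_pt_mem_degZero (hdeg _) (hdeg _))
            (helper4604.pt_sub_pt_mem_degZero (hdeg _) (hdeg _))]
          congr 1
          abel
        show cls (pt (Q' 0) - pt P0) ∈ Set.range E ↔ cls (pt (Q' s) - pt P0) ∈ Set.range E
        rw [h2, h1]
        constructor
        · rintro ⟨w, hw⟩
          exact ⟨J' s + w, by rw [map_add, hw]⟩
        · rintro ⟨w, hw⟩
          exact ⟨w - J' s, by rw [map_sub, hw]; abel⟩)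
    intro P
    have hP : P ∈ ({P | cls (pt P - pt P0) ∈ Set.range E} : Set (Place ℂ F)) := by
      rw [hS]
      trivial
    exact hP
  intro y
  obtain ⟨⟨Z, hZ⟩, rfl⟩ := Pic0.mk_surjective y
  obtain ⟨D, hD, hDdeg, hDp⟩ := helper4604.exists_effective_rep hrr P0 (hdeg P0) Z hZ
  obtain ⟨Q, rfl⟩ := helper4604.exists_points_of_effective hdeg _ D hD hDdeg
  choose w hw using fun i => hrange (Q i)
  refine ⟨∑ i, w i, ?_⟩
  rw [map_sum]
  simp_rw [hw]
  rw [← helper4604.cls_sumDiv_sub hdeg P0 Q, ← helper4604.cls_of_mem hZ]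
  refine helper4604.cls_eq_of_sub_mem_principal ?_ hZ hDp
  rw [Divisor.mem_degZero, map_sub, hDdeg, map_nsmul, helper4604.degree_pt (hdeg P0)]
  simp

/-- **Divisibility over `ℂ`** (function fields in `Type`). -/
theorem pic0_complex_divisible (F : Type) [Field F] [Algebra ℂ F] (x : F)
    (hx : Transcendental ℂ x) [FiniteDimensional ℂ⟮x⟯ F] (n : ℕ) (hn : 0 < n)
    (c : Pic0 ℂ F) : ∃ y : Pic0 ℂ F, n • y = c := by
  obtain ⟨E, hE⟩ := aj_surjective F x hx
  obtain ⟨w, rfl⟩ := hE c
  refine ⟨E ((n : ℂ)⁻¹ • w), ?_⟩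
  rw [← map_nsmul]
  congr 1
  rw [← Nat.cast_smul_eq_nsmul ℂ, smul_smul, mul_inv_cancel₀ (Nat.cast_ne_zero.mpr hn.ne'),
    one_smul]

/-- **Divisibility over `ℂ`**, function fields in an arbitrary universe. -/
theorem pic0_complex_divisible_univ (F : Type v) [Field F] [Algebra ℂ F]
    [IsCurveOver ℂ F] [Algebra.EssFiniteType ℂ F] (n : ℕ) (hn : 0 < n) (c : Pic0 ℂ F) :
    ∃ y : Pic0 ℂ F, n • y = c := by
  have : Small.{0} F := helper931.small_of_essFiniteType ℂ F
  have h : helper931.Compat (RingEquiv.refl ℂ) (Shrink.algEquiv ℂ F).symm.toRingEquiv :=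
    helper931.Compat.of_algEquiv _
  have : IsCurveOver ℂ (Shrink.{0} F) := helper931.isCurveOver_of_compat h
  have : Algebra.EssFiniteType ℂ (Shrink.{0} F) := helper931.essFiniteType_of_compat h
  obtain ⟨x, hx, hfin⟩ := helper5411.exists_transcendental_finite (K := ℂ) (F := Shrink.{0} F)
  have : FiniteDimensional ℂ⟮x⟯ (Shrink.{0} F) := hfin
  obtain ⟨y', hy'⟩ := pic0_complex_divisible (Shrink.{0} F) x hx n hn (helper931.pic0Equiv h c)
  refine ⟨(helper931.pic0Equiv h).symm y', ?_⟩
  apply (helper931.pic0Equiv h).injective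
  rw [map_nsmul, AddEquiv.apply_symm_apply, hy']

/-! ## Divisibility over a field that embeds into `ℂ` -/

open Fermat.Agent.S27.helper8094 in
/-- **Divisibility of `Pic0`** for a curve over an algebraically closed field of characteristic
zero that embeds into `ℂ`. -/
theorem pic0_divisible_of_embedding
    (K0 : Type u) (F0 : Type v) [Field K0] [Field F0] [Algebra K0 F0] [IsAlgClosed K0]
    [CharZero K0] [IsCurveOver K0 F0] [Algebra.EssFiniteType K0 F0]
    (j : K0 →+* ℂ) (n : ℕ) (hn : 0 < n) (y : Pic0 K0 F0) :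
    ∃ z : Pic0 K0 F0, n • z = y := by
  letI : Algebra K0 ℂ := j.toAlgebra
  obtain ⟨x, hx, hfin⟩ := helper5411.exists_transcendental_finite (K := K0) (F := F0)
  have : FiniteDimensional K0⟮x⟯ F0 := hfin
  have hx1 := helper8788.Compositum.transcendental_algebraMap K0 F0 ℂ hx
  have := helper8788.Compositum.finiteDimensional_adjoin K0 F0 ℂ x
  have : IsCurveOver ℂ (helper8788.Compositum K0 F0 ℂ) :=
    helper1949.isCurveOver_of_finite _ hx1
  have : Algebra.EssFiniteType ℂ (helper8788.Compositum K0 F0 ℂ) :=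
    helper1949.essFiniteType_of_finite (algebraMap F0 (helper8788.Compositum K0 F0 ℂ) x)
  have hce : IsConstExt K0 F0 ℂ (helper8788.Compositum K0 F0 ℂ) := isConstExt_compositum K0 F0 ℂ
  obtain ⟨hE, -, -⟩ := helper197.stmt_CFE1 K0 F0 ℂ (helper8788.Compositum K0 F0 ℂ) hce
  choose ι hι _ using hE
  obtain ⟨hb, hc, hd, -⟩ := helper197.stmt_CFE4 K0 F0 ℂ (helper8788.Compositum K0 F0 ℂ) hce ι hι
  -- the torsion over `ℂ` is finite
  have hcount1 := complex_any_universe asm_Complex (helper8788.Compositum K0 F0 ℂ) n hn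
  have hfin1 : (Pic0.torsion ℂ (helper8788.Compositum K0 F0 ℂ) n :
      Set (Pic0 ℂ (helper8788.Compositum K0 F0 ℂ))).Finite := by
    have hpos : 0 < Nat.card (Pic0.torsion ℂ (helper8788.Compositum K0 F0 ℂ) n) := by
      rw [hcount1]
      exact pow_pos hn _
    have := (Nat.card_pos_iff.mp hpos).2
    exact Set.toFinite _
  have hrr1 : WeakRR ℂ (helper8788.Compositum K0 F0 ℂ) :=
    stmt_weakRR_of_riemann asm_Riemann.{0, v} ℂ (helper8788.Compositum K0 F0 ℂ)
  -- divide over `ℂ`
  obtain ⟨E0, rfl⟩ := Pic0.mk_surjective y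
  obtain ⟨z1, hz1⟩ := pic0_complex_divisible_univ (helper8788.Compositum K0 F0 ℂ) n hn
    (picMap ι hb hc (Pic0.mk E0))
  obtain ⟨D1, rfl⟩ := Pic0.mk_surjective z1
  have hprin : n • (D1 : Divisor ℂ (helper8788.Compositum K0 F0 ℂ))
      - Finsupp.mapDomain ι (E0 : Divisor K0 F0)
      ∈ Divisor.principal (K := ℂ) (F := helper8788.Compositum K0 F0 ℂ) := by
    have h1 : Pic0.mk (n • D1) = Pic0.mk (degZeroMap ι hb E0) := by
      rw [← picMap_mk ι hb hc, ← hz1]
      rfl
    have h2 := (mk_eq_mk_iff _ _).mp h1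
    simpa using h2
  -- descend (generalised Aut-orbit descent, helper1918)
  obtain ⟨D0, hD0, hD0p⟩ := helper1918.descGen K0 F0 ℂ (helper8788.Compositum K0 F0 ℂ) hce hrr1
    n hfin1 ι hι (D1 : Divisor ℂ (helper8788.Compositum K0 F0 ℂ)) (E0 : Divisor K0 F0) D1.2 hprin
  refine ⟨Pic0.mk ⟨D0, hD0⟩, ?_⟩
  apply picMap_injective ι hb hc hd
  have h3 : picMap ι hb hc (Pic0.mk ⟨D0, hD0⟩) = Pic0.mk D1 := by
    rw [picMap_mk, eq_comm, mk_eq_mk_iff]
    exact hD0p
  rw [map_nsmul, h3]
  exact hz1

/-! ## The general case -/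

open Fermat.Agent.S27.helper8094 in
/-- **`Pic0` of a curve over an algebraically closed field of characteristic zero is a
divisible group.** -/
theorem pic0_divisible (K : Type u) (F : Type v) [Field K] [Field F] [Algebra K F]
    [IsAlgClosed K] [CharZero K] [IsCurveOver K F] [Algebra.EssFiniteType K F]
    (n : ℕ) (hn : 0 < n) (y : Pic0 K F) : ∃ z : Pic0 K F, n • z = y := by
  classical
  obtain ⟨D, rfl⟩ := Pic0.mk_surjective y
  obtain ⟨K0, F0, _, _, _, _, _, _, _, _, _, _, _, hcnt, hce, hP⟩ :=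
    helper70.stmt_down2 K F (D : Divisor K F).support
  have : CharZero K0 := (algebraMap K0 K).charZero
  have : Countable K0 := hcnt
  obtain ⟨j⟩ := helper1197.nonempty_ringHom_complex_of_countable K0
  obtain ⟨hE, hU, -⟩ := helper197.stmt_CFE1 K0 F0 K F hce
  choose ι hι huniq using hE
  obtain ⟨hb, hc, hd, -⟩ := helper197.stmt_CFE4 K0 F0 K F hce ι hι
  have hinj : Function.Injective ι := by
    intro v v' hvv
    apply place_ext_ord
    intro f
    rw [← hι v f, ← hι v' f, hvv]
  have hrange : ∀ w ∈ (D : Divisor K F).support, w ∈ Set.range ι := by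
    intro w hw
    obtain ⟨v, hv⟩ := hU w (hP w hw)
    exact ⟨v, (huniq v w hv).symm⟩
  have hmap : Finsupp.mapDomain ι
      (Finsupp.comapDomain ι (D : Divisor K F) hinj.injOn) = (D : Divisor K F) :=
    Finsupp.mapDomain_comapDomain ι hinj _ (fun w hw => hrange w (Finset.mem_coe.mp hw))
  have hdeg : Divisor.degree (Finsupp.comapDomain ι (D : Divisor K F) hinj.injOn) = 0 := by
    rw [← hb, hmap]
    exact D.2
  have hpm : picMap ι hb hc (Pic0.mk ⟨_, hdeg⟩) = Pic0.mk D := by
    rw [picMap_mk]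
    exact congrArg Pic0.mk (Subtype.ext hmap)
  obtain ⟨z0, hz0⟩ := pic0_divisible_of_embedding K0 F0 j n hn (Pic0.mk ⟨_, hdeg⟩)
  exact ⟨picMap ι hb hc z0, by rw [← map_nsmul, hz0, hpm]⟩

end

end Fermat.Agent.S17.helper2219
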