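/-
S17-DIV (board row 1733, seat helper2219): UNCONDITIONAL divisibility of `JZero N`.

`jzero_nsmul_surjective` is verbatim the hypothesis `hdiv` of the weak Mordell–Weil wiring
`helper9541.finiteIndex_nsmul_JZero_of_specializationExists`, for every `n > 0`.
-/
import Fermat.Agent.S17.helper2219_Divisible
import Fermat.Agent.S24.helper3176_FieldAlg
import Fermat.Agent.S24.helper504_JFinrank

set_option autoImplicit false

open AlgebraicCurve IntermediateField ModularCurve

namespace Fermat.Agent.S17.helper2219

open Fermat.Agent.S27 Fermat.Agent.S24.helper24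

/-- The function field of `X₀(N)` over `ℚ̄` is a curve in the sense of the Prelude. -/
theorem isCurveOver_FN (N : ℕ) [NeZero N] :
    IsCurveOver Kbar (FN N) ∧ Algebra.EssFiniteType Kbar (FN N) := by
  have hx : Transcendental Kbar (jBar N) := Fermat.Agent.S24.helper3176.stmt_JTranscendental N
  have : FiniteDimensional Kbar⟮jBar N⟯ (FN N) := (Fermat.Agent.S24.helper504.stmt_JFinrank N).1
  exact ⟨helper1949.isCurveOver_of_finite (jBar N) hx,
    helper1949.essFiniteType_of_finite (jBar N)⟩

/-- **Divisibility of `JZero N`**, unconditionally: for every `n > 0` multiplication by `n` is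
onto (verbatim `hdiv` of `helper9541.finiteIndex_nsmul_JZero_of_specializationExists`). -/
theorem jzero_nsmul_surjective (N : ℕ) [NeZero N] (n : ℕ) (hn : 0 < n) :
    ∀ x : JZero N, ∃ y : JZero N, n • y = x := by
  have : IsCurveOver Kbar (FN N) := (isCurveOver_FN N).1
  have : Algebra.EssFiniteType Kbar (FN N) := (isCurveOver_FN N).2
  exact fun x => pic0_divisible Kbar (FN N) n hn x

end Fermat.Agent.S17.helper2219
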