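import Mathlib
import Fermat.Agent.S37.helper815_LineNorm
import Fermat.Agent.S37.helper4612_NormValue
import Fermat.Agent.S27.helper4586_Ev

/-!
# S17, WP route, leaf (WR): Weil reciprocity (helper2813, board row 1968)

`K` algebraically closed of characteristic zero, `F` a function field of one variable over `K`
(finite over `K⟮x⟯` for a transcendental `x`).  For nonzero `f g : F` with disjoint divisors

  `∏_P f(P) ^ ord_P g = ∏_P g(P) ^ ord_P f`.

Proof: the norm of `f` to the line `K⟮x⟯`, `x := g / (g - 1)`, is `c * ∏_b (x - b) ^ n b` with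
`n b = ∑_{w over x = b} ord_w f` (`helper815`), and its value at the point `x = a` of the line is
`∏_{w over x = a} f(w) ^ e(w)` (`helper4612.norm_sub_prod_mem_nonunits`).  Comparing the points
`a = 0` (zeros of `g`) and `a = 1` (poles of `g`) gives the formula.
-/

set_option autoImplicit false

noncomputable section

namespace Fermat.Agent.S17.helper2813

open AlgebraicCurve IntermediateField
open Fermat.Agent.S27.helper6247 (ev)
open Fermat.Agent.S27.helper4586 (IsVal HasValues)
open Fermat.Agent.S37.helper815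

section General

variable {K F : Type*} [Field K] [Field F] [Algebra K F]

/-- `IsVal` in terms of the non-units of the valuation ring. -/
theorem isVal_iff_mem_nonunits (P : Place K F) (f : F) (c : K) :
    IsVal P f c ↔ f - algebraMap K F c ∈ P.toValuationSubring.nonunits := by
  rw [ValuationSubring.mem_nonunits_iff_exists_mem_maximalIdeal]
  constructor
  · intro h
    have h' : P.adicValuation (f - algebraMap K F c) < 1 := h
    have hmem : f - algebraMap K F c ∈ P.toValuationSubring :=
      Fermat.Agent.S27.helper4586.mem_of_ord_nonneg P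
        ((Fermat.Agent.S27.helper4586.adicValuation_le_one_iff P _).mp h'.le)
    refine ⟨hmem, ?_⟩
    rw [← Place.heightOneSpectrum_asIdeal,
      ← IsDedekindDomain.HeightOneSpectrum.intValuation_lt_one_iff_mem, ← P.adicValuation_coe]
    exact h'
  · rintro ⟨hmem, h⟩
    rw [← Place.heightOneSpectrum_asIdeal,
      ← IsDedekindDomain.HeightOneSpectrum.intValuation_lt_one_iff_mem, ← P.adicValuation_coe] at h
    exact h

/-- Values commute with integer powers (nonzero value). -/
theorem isVal_zpow {P : Place K F} {f : F} {a : K} (h : IsVal P f a) (ha : a ≠ 0) (n : ℤ) :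
    IsVal P (f ^ n) (a ^ n) := by
  cases n with
  | ofNat k =>
    simp only [Int.ofNat_eq_natCast, zpow_natCast]
    exact h.pow k
  | negSucc k =>
    simp only [zpow_negSucc]
    exact (h.pow (k + 1)).inv (pow_ne_zero _ ha)

/-- The value of `(x - a) / (x - a')` at a place where `x` has the value `b ≠ a'`. -/
theorem isVal_moebius {w : Place K F} {x : F} {a a' b : K}
    (hb : 0 < w.ord (x - algebraMap K F b)) (hba' : b ≠ a') :
    IsVal w ((x - algebraMap K F a) / (x - algebraMap K F a')) ((b - a) / (b - a')) := by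
  have h0 : IsVal w x b := Fermat.Agent.S27.helper4586.isVal_of_ord_pos hb
  exact (h0.sub (Fermat.Agent.S27.helper4586.isVal_algebraMap w a)).div
    (h0.sub (Fermat.Agent.S27.helper4586.isVal_algebraMap w a')) (sub_ne_zero.mpr hba')

/-- The value of `(x - a) / (x - a')` at a pole of `x` is `1`. -/
theorem isVal_moebius_pole {w : Place K F} {x : F} (a a' : K) (hneg : w.ord x < 0) :
    IsVal w ((x - algebraMap K F a) / (x - algebraMap K F a')) 1 := by
  have hx0 : x ≠ 0 := by
    rintro rfl
    simp at hneg
  have h0 : IsVal w x⁻¹ 0 :=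
    (Fermat.Agent.S27.helper4586.isVal_zero_iff w x⁻¹).mpr (Or.inr (by rw [w.ord_inv]; omega))
  have h1 : ∀ d : K, IsVal w (1 - algebraMap K F d * x⁻¹) 1 := by
    intro d
    have := (Fermat.Agent.S27.helper4586.isVal_one w).sub
      ((Fermat.Agent.S27.helper4586.isVal_algebraMap w d).mul h0)
    simpa using this
  have h2 : ∀ d : K, x - algebraMap K F d = x * (1 - algebraMap K F d * x⁻¹) := by
    intro d
    field_simp
  have h3 := (h1 a).div (h1 a') one_ne_zero
  rw [h2 a, h2 a', mul_div_mul_left _ _ hx0]
  simpa using h3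

theorem prod_zpow_eq_zpow_sum {ι : Type*} {c : K} (hc : c ≠ 0) (s : Finset ι) (n : ι → ℤ) :
    ∏ i ∈ s, c ^ n i = c ^ ∑ i ∈ s, n i := by
  classical
  induction s using Finset.induction_on with
  | empty => simp
  | insert i s hi ih => rw [Finset.prod_insert hi, Finset.sum_insert hi, zpow_add₀ hc, ih]

/-- Orders of `y = g / (g - 1)` and of `y - 1 = 1 / (g - 1)` at a place, by the sign of
`ord g`. -/
theorem ord_moebius_cases (w : Place K F) {g : F} (hg : g ≠ 0) (hg1 : g - 1 ≠ 0) :
    (0 < w.ord g ∧ w.ord (g / (g - 1)) = w.ord g ∧ w.ord (g / (g - 1) - 1) = 0) ∨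
    (w.ord g < 0 ∧ w.ord (g / (g - 1)) = 0 ∧ w.ord (g / (g - 1) - 1) = -w.ord g) ∨
    (w.ord g = 0 ∧ w.ord (g / (g - 1)) ≤ 0 ∧ w.ord (g / (g - 1) - 1) ≤ 0) := by
  have h1 : w.ord (g / (g - 1)) = w.ord g - w.ord (g - 1) := by
    rw [div_eq_mul_inv, w.ord_mul hg (inv_ne_zero hg1), w.ord_inv]; ring
  have h2 : w.ord (g / (g - 1) - 1) = -w.ord (g - 1) := by
    have : g / (g - 1) - 1 = (g - 1)⁻¹ := by
      field_simp
      ring
    rw [this, w.ord_inv]
  rcases lt_trichotomy (w.ord g) 0 with h | h | h
  · right; left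
    have h3 : w.ord (g - 1) = w.ord g := by
      have := ord_sub_algebraMap_of_neg (K := K) w h 1
      simpa using this
    refine ⟨h, ?_, ?_⟩
    · rw [h1, h3, sub_self]
    · rw [h2, h3]
  · right; right
    have h3 : 0 ≤ w.ord (g - 1) := by
      rw [Fermat.Agent.S27.helper4586.ord_nonneg_iff_mem]
      exact sub_mem ((Fermat.Agent.S27.helper4586.ord_nonneg_iff_mem w).mp h.ge) (one_mem _)
    refine ⟨h, ?_, ?_⟩
    · rw [h1, h]; omega
    · rw [h2]; omega
  · left
    have h3 : w.ord (g - 1) = 0 := by
      have := ord_sub_algebraMap_eq_zero (K := K) w (x := g) (a := 0) (b := 1)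
        (by simpa using h) one_ne_zero
      simpa using this
    refine ⟨h, ?_, ?_⟩
    · rw [h1, h3, sub_zero]
    · rw [h2, h3, neg_zero]

end General

section Line

variable {K F : Type*} [Field K] [Field F] [Algebra K F] [IsAlgClosed K] [CharZero K]
variable {x : F} [FiniteDimensional K⟮x⟯ F]

omit [CharZero K] in
/-- Residue fields of places are `K`. -/
theorem residue_surjective (x : F) [FiniteDimensional K⟮x⟯ F] (w : Place K F) :
    Function.Surjective (algebraMap K w.ResidueField) :=
  Fermat.Agent.S24.helper489.residue_surjective w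
    (fun u hu => Fermat.Agent.S24.helper2549.exchange_isAlgebraic x u hu)

/-- The norm-order formula over the line. -/
theorem normOrderFormula [HasPrincipalDivisors K F] (x : F) [FiniteDimensional K⟮x⟯ F] :
    NormOrderFormula K x :=
  fun v _ hf => Fermat.Agent.S37.helper8426.ord_norm_eq_sum_fiber (residue_surjective x) v hf

/-- **Value of the norm at a point of the line.**  If `N(f) = c * ∏ (x - b) ^ n b`, `n a = 0` and
`f` is regular on the fibre `x = a`, then `∏_{w over x = a} f(w) ^ e(w) = c * ∏ (a - b) ^ n b`. -/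
theorem prod_fiber_ev_pow [HasPrincipalDivisors K F] (hx : Transcendental K x) {f : F} {c : K}
    {n : K →₀ ℤ}
    (hN : Algebra.norm K⟮x⟯ f = algebraMap K K⟮x⟯ c * divProd (AdjoinSimple.gen K x) n)
    (a : K) (hna : n a = 0)
    (hfa : ∀ w : Place K F, 0 < w.ord (x - algebraMap K F a) → 0 ≤ w.ord f) :
    ∏ w ∈ (linePlace hx a).fiber F, ev w f ^ w.ramificationIndex K⟮x⟯ =
      c * n.prod fun b m => (a - b) ^ m := by
  have : CharZero K⟮x⟯ := charZero_of_injective_algebraMap (algebraMap K K⟮x⟯).injective
  have h1 : IsVal (linePlace hx a) (Algebra.norm K⟮x⟯ f)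
      (∏ w ∈ (linePlace hx a).fiber F, ev w f ^ w.ramificationIndex K⟮x⟯) := by
    rw [isVal_iff_mem_nonunits]
    refine Fermat.Agent.S37.helper4612.norm_sub_prod_mem_nonunits (linePlace hx a)
      (fun w _ => residue_surjective x w) f (fun w => ev w f) (fun w hw => ?_)
    rw [← isVal_iff_mem_nonunits]
    exact Fermat.Agent.S27.helper4586.isVal_ev
      (Fermat.Agent.S27.helper4586.hasValues_of_finite x w)
      (hfa w ((mem_fiber_linePlace_iff hx w a).mp hw))
  have h2 : IsVal (linePlace hx a) (algebraMap K K⟮x⟯ c * divProd (AdjoinSimple.gen K x) n)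
      (c * n.prod fun b m => (a - b) ^ m) := by
    refine (Fermat.Agent.S27.helper4586.isVal_algebraMap _ c).mul ?_
    rw [divProd, Finsupp.prod, Finsupp.prod]
    refine IsVal.prod _ (fun b hb => ?_)
    have hba : b ≠ a := by
      rintro rfl
      exact (Finsupp.mem_support_iff.mp hb) hna
    have h3 : IsVal (linePlace hx a) (AdjoinSimple.gen K x - algebraMap K K⟮x⟯ b) (a - b) := by
      apply Fermat.Agent.S27.helper4586.isVal_of_ord_pos
      have h4 : AdjoinSimple.gen K x - algebraMap K K⟮x⟯ b - algebraMap K K⟮x⟯ (a - b) =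
          AdjoinSimple.gen K x - algebraMap K K⟮x⟯ a := by
        rw [map_sub]; ring
      rw [h4, linePlace_ord_gen_sub]
      exact one_pos
    exact isVal_zpow h3 (sub_ne_zero.mpr hba.symm) _
  rw [hN] at h1
  exact h1.unique h2

/-- **Two-point Weil reciprocity** for `(x - a) / (x - a')`: if `f` has no zero or pole on the
fibres `x = a` and `x = a'`, then
`∏_{x = a} f(w) ^ ord_w (x - a) / ∏_{x = a'} f(w) ^ ord_w (x - a') = ∏_w ((x - a)/(x - a'))(w) ^ ord_w f`. -/
theorem weil_two_point (hx : Transcendental K x) {f : F} (hf : f ≠ 0) {a a' : K}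
    (hfa : ∀ w : Place K F, 0 < w.ord (x - algebraMap K F a) → w.ord f = 0)
    (hfa' : ∀ w : Place K F, 0 < w.ord (x - algebraMap K F a') → w.ord f = 0)
    (Df : Divisor K F) (hDf : ∀ w, Df w = w.ord f)
    (S S' : Finset (Place K F)) (hS : ∀ w, w ∈ S ↔ 0 < w.ord (x - algebraMap K F a))
    (hS' : ∀ w, w ∈ S' ↔ 0 < w.ord (x - algebraMap K F a')) :
    (∏ w ∈ S, ev w f ^ w.ord (x - algebraMap K F a)) /
        (∏ w ∈ S', ev w f ^ w.ord (x - algebraMap K F a')) =
      Df.prod fun w m => ev w ((x - algebraMap K F a) / (x - algebraMap K F a')) ^ m := by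
  classical
  have hPD : HasPrincipalDivisors K F := Fermat.Agent.S24.helper204.hasPrincipalDivisors x hx
  obtain ⟨c, n, hc, hcn, hn⟩ := norm_eq_const_mul_divProd hx (normOrderFormula x) hf
  have hna : n a = 0 := by
    rw [hn a]
    exact Finset.sum_eq_zero fun w hw => hfa w ((mem_fiber_linePlace_iff hx w a).mp hw)
  have hna' : n a' = 0 := by
    rw [hn a']
    exact Finset.sum_eq_zero fun w hw => hfa' w ((mem_fiber_linePlace_iff hx w a').mp hw)
  have e1 := prod_fiber_ev_pow hx hcn a hna (fun w hw => (hfa w hw).ge)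
  have e2 := prod_fiber_ev_pow hx hcn a' hna' (fun w hw => (hfa' w hw).ge)
  have hS1 : ∏ w ∈ S, ev w f ^ w.ord (x - algebraMap K F a) =
      c * n.prod fun b m => (a - b) ^ m := by
    rw [← e1]
    have hSe : S = (linePlace hx a).fiber F := by
      ext w; rw [hS, mem_fiber_linePlace_iff]
    rw [hSe]
    refine Finset.prod_congr rfl fun w hw => ?_
    rw [← ramificationIndex_eq_ord hx w ((mem_fiber_linePlace_iff hx w a).mp hw), zpow_natCast]
  have hS2 : ∏ w ∈ S', ev w f ^ w.ord (x - algebraMap K F a') =
      c * n.prod fun b m => (a' - b) ^ m := by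
    rw [← e2]
    have hSe : S' = (linePlace hx a').fiber F := by
      ext w; rw [hS', mem_fiber_linePlace_iff]
    rw [hSe]
    refine Finset.prod_congr rfl fun w hw => ?_
    rw [← ramificationIndex_eq_ord hx w ((mem_fiber_linePlace_iff hx w a').mp hw), zpow_natCast]
  rw [hS1, hS2, mul_div_mul_left _ _ hc]
  -- the right-hand side, pushed to the line
  set ψ : K → K := fun b => if b = a ∨ b = a' then 1 else (b - a) / (b - a') with hψ
  have hψ0 : ∀ b, ψ b ≠ 0 := by
    intro b
    simp only [hψ]
    split_ifs with h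
    · exact one_ne_zero
    · push Not at h
      exact div_ne_zero (sub_ne_zero.mpr h.1) (sub_ne_zero.mpr h.2)
  have hR : (Df.prod fun w m => ev w ((x - algebraMap K F a) / (x - algebraMap K F a')) ^ m) =
      n.prod fun b m => ψ b ^ m := by
    have hnD : n = lineDivisor x Df := by
      ext b; rw [hn b, lineDivisor_apply hx hDf b]
    rw [hnD, lineDivisor, Finsupp.prod_mapDomain_index (fun b => zpow_zero _)
      (fun b m₁ m₂ => zpow_add₀ (hψ0 b) m₁ m₂), Finsupp.prod_filter_index, Finsupp.support_filter,
      Finset.prod_filter, Finsupp.prod]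
    refine Finset.prod_congr rfl fun w hw => ?_
    have hw0 : w.ord f ≠ 0 := by
      rw [← hDf w]; exact Finsupp.mem_support_iff.mp hw
    split_ifs with hp
    · have hb := ord_sub_xValue_pos hx w hp
      have hba : xValue x w ≠ a := fun h => hw0 (hfa w (h ▸ hb))
      have hba' : xValue x w ≠ a' := fun h => hw0 (hfa' w (h ▸ hb))
      rw [(isVal_moebius (a := a) hb hba').ev_eq]
      simp only [hψ, hba, hba', or_self, if_false]
    · rw [(isVal_moebius_pole a a' (not_le.mp hp)).ev_eq, one_zpow]
  rw [hR, Finsupp.prod, Finsupp.prod, Finsupp.prod, ← Finset.prod_div_distrib]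
  refine Finset.prod_congr rfl fun b hb => ?_
  have hba : b ≠ a := by
    rintro rfl
    exact (Finsupp.mem_support_iff.mp hb) hna
  have hba' : b ≠ a' := by
    rintro rfl
    exact (Finsupp.mem_support_iff.mp hb) hna'
  simp only [hψ, hba, hba', or_self, if_false]
  rw [← div_zpow, ← neg_sub b a, ← neg_sub b a', neg_div_neg_eq]

end Line

section Main

variable {K F : Type*} [Field K] [Field F] [Algebra K F] [IsAlgClosed K] [CharZero K]

/-- The orders of a nonzero function sum to zero. -/
theorem sum_ord_eq_zero (x : F) (hx : Transcendental K x) [FiniteDimensional K⟮x⟯ F] {f : F}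
    (hf : f ≠ 0) (Df : Divisor K F) (hDf : ∀ P, Df P = P.ord f) : (Df.sum fun _ m => m) = 0 := by
  have hPD : HasPrincipalDivisors K F := Fermat.Agent.S24.helper204.hasPrincipalDivisors x hx
  obtain ⟨D, hD, hdeg⟩ := HasPrincipalDivisors.exists_divisor (K := K) f hf
  have hDD : D = Df := Finsupp.ext fun v => by rw [hD v, hDf v]
  rw [hDD] at hdeg
  have h1 : Divisor.degree Df = Df.sum fun v m => m * (v.deg : ℤ) := by
    simp [Divisor.degree, Finsupp.liftAddHom_apply]
  rw [← hdeg, h1]
  refine Finsupp.sum_congr fun v _ => ?_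
  rw [Fermat.Agent.S24.helper204.place_deg_eq_one x hx v]
  simp

/-- **Weil reciprocity.**  For nonzero `f`, `g` with disjoint divisors,
`∏_P f(P) ^ ord_P g = ∏_P g(P) ^ ord_P f`. -/
theorem weil_reciprocity (x : F) (hx : Transcendental K x) [FiniteDimensional K⟮x⟯ F] {f g : F}
    (hf : f ≠ 0) (hg : g ≠ 0) (hdisj : ∀ P : Place K F, P.ord f = 0 ∨ P.ord g = 0)
    (Df Dg : Divisor K F) (hDf : ∀ P, Df P = P.ord f) (hDg : ∀ P, Dg P = P.ord g) :
    (Dg.prod fun P m => ev P f ^ m) = Df.prod fun P m => ev P g ^ m := by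
  classical
  by_cases hgK : g ∈ Set.range (algebraMap K F)
  · -- constant `g`
    obtain ⟨c, rfl⟩ := hgK
    have hDg0 : Dg = 0 := Finsupp.ext fun v => by
      rw [hDg v, Fermat.Agent.S24.helper204.ord_algebraMap_eq_zero]; rfl
    rw [hDg0, Finsupp.prod_zero_index]
    have h1 : (Df.prod fun P m => ev P (algebraMap K F c) ^ m) = c ^ (Df.sum fun _ m => m) := by
      have hc0 : c ≠ 0 := by
        rintro rfl
        exact hg (map_zero _)
      rw [Finsupp.prod, Finsupp.sum, ← prod_zpow_eq_zpow_sum hc0]
      exact Finset.prod_congr rfl fun v _ => by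
        rw [Fermat.Agent.S27.helper4586.ev_algebraMap]
    rw [h1, sum_ord_eq_zero x hx hf Df hDf, zpow_zero]
  · -- transcendental `g`: use the coordinate `y = g / (g - 1)`
    have hgt : Transcendental K g :=
      Fermat.Agent.S24.helper204.transcendental_of_not_mem_range hgK
    have hg1 : g - 1 ≠ 0 := by
      intro h
      exact hgK ⟨1, by rw [map_one]; exact (sub_eq_zero.mp h).symm⟩
    set y : F := g / (g - 1) with hy
    have hyK : y ∉ Set.range (algebraMap K F) := by
      rintro ⟨d, hd⟩
      apply hgK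
      have h2 : g = y * (g - 1) := by rw [hy]; field_simp
      have h3 : g * (1 - y) = -y := by linear_combination h2
      by_cases hd1 : d = 1
      · exfalso
        rw [← hd, hd1, map_one] at h3
        simp at h3
      · refine ⟨-d / (1 - d), ?_⟩
        have h4 : (1 : F) - algebraMap K F d ≠ 0 := by
          rw [← map_one (algebraMap K F), ← map_sub, Ne, map_eq_zero, sub_eq_zero]
          exact fun h => hd1 h.symm
        rw [map_div₀, map_neg, map_sub, map_one, eq_comm, eq_div_iff h4, hd]
        exact h3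
    have hyt : Transcendental K y :=
      Fermat.Agent.S24.helper204.transcendental_of_not_mem_range hyK
    have : FiniteDimensional K⟮y⟯ F :=
      Fermat.Agent.S24.helper204.finiteDimensional_adjoin_of_transcendental (x := x) hyt
    have hcases : ∀ w : Place K F,
        (0 < w.ord g ∧ w.ord y = w.ord g ∧ w.ord (y - 1) = 0) ∨
        (w.ord g < 0 ∧ w.ord y = 0 ∧ w.ord (y - 1) = -w.ord g) ∨
        (w.ord g = 0 ∧ w.ord y ≤ 0 ∧ w.ord (y - 1) ≤ 0) :=
      fun w => ord_moebius_cases w hg hg1
    have hZ : ∀ w : Place K F, 0 < w.ord (y - algebraMap K F 0) ↔ 0 < w.ord g := by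
      intro w
      rw [map_zero, sub_zero]
      rcases hcases w with h | h | h <;> omega
    have hP : ∀ w : Place K F, 0 < w.ord (y - algebraMap K F 1) ↔ w.ord g < 0 := by
      intro w
      rw [map_one]
      rcases hcases w with h | h | h <;> omega
    have key := weil_two_point (x := y) hyt hf (a := 0) (a' := 1)
      (fun w hw => (hdisj w).resolve_right (by have := (hZ w).mp hw; omega))
      (fun w hw => (hdisj w).resolve_right (by have := (hP w).mp hw; omega))
      Df hDf (Dg.support.filter fun w => 0 < w.ord g)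
      (Dg.support.filter fun w => ¬ 0 < w.ord g)
      (fun w => by
        rw [Finset.mem_filter, Finsupp.mem_support_iff, hDg w, hZ w]
        constructor
        · exact fun h => h.2
        · exact fun h => ⟨by omega, h⟩)
      (fun w => by
        rw [Finset.mem_filter, Finsupp.mem_support_iff, hDg w, hP w]
        constructor
        · exact fun h => by omega
        · exact fun h => ⟨by omega, by omega⟩)
    have hyg : (y - algebraMap K F 0) / (y - algebraMap K F 1) = g := by
      rw [map_zero, sub_zero, map_one, hy]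
      field_simp
      ring
    rw [hyg] at key
    rw [← key, Finsupp.prod, ← Finset.prod_filter_mul_prod_filter_not Dg.support
      (fun w => 0 < w.ord g), div_eq_mul_inv, ← Finset.prod_inv_distrib]
    congr 1
    · refine Finset.prod_congr rfl fun w hw => ?_
      rw [Finset.mem_filter] at hw
      rw [hDg w, map_zero, sub_zero]
      congr 1
      rcases hcases w with h | h | h <;> omega
    · refine Finset.prod_congr rfl fun w hw => ?_
      rw [Finset.mem_filter, Finsupp.mem_support_iff, hDg w] at hw
      rw [hDg w, map_one, ← zpow_neg]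
      congr 1
      rcases hcases w with h | h | h <;> omega

/-- **Weil reciprocity**, `finprod` form (no divisors in the statement). -/
theorem weil_reciprocity_finprod (x : F) (hx : Transcendental K x) [FiniteDimensional K⟮x⟯ F]
    {f g : F} (hf : f ≠ 0) (hg : g ≠ 0) (hdisj : ∀ P : Place K F, P.ord f = 0 ∨ P.ord g = 0) :
    ∏ᶠ P : Place K F, ev P f ^ P.ord g = ∏ᶠ P : Place K F, ev P g ^ P.ord f := by
  have hPD : HasPrincipalDivisors K F := Fermat.Agent.S24.helper204.hasPrincipalDivisors x hx
  obtain ⟨Df, hDf, -⟩ := HasPrincipalDivisors.exists_divisor (K := K) f hf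
  obtain ⟨Dg, hDg, -⟩ := HasPrincipalDivisors.exists_divisor (K := K) g hg
  have h1 : ∀ (u v : F) (D : Divisor K F), (∀ P, D P = P.ord v) →
      ∏ᶠ P : Place K F, ev P u ^ P.ord v = D.prod fun P m => ev P u ^ m := by
    intro u v D hD
    rw [finprod_eq_prod_of_mulSupport_subset (s := D.support), Finsupp.prod]
    · exact Finset.prod_congr rfl fun P _ => by rw [hD P]
    · intro P hP
      rw [Function.mem_mulSupport] at hP
      rw [Finset.mem_coe, Finsupp.mem_support_iff, hD P]
      intro h0
      exact hP (by rw [h0, zpow_zero])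
  rw [h1 f g Dg hDg, h1 g f Df hDf]
  exact weil_reciprocity x hx hf hg hdisj Df Dg hDf hDg

open Classical in
/-- **Weil reciprocity**, in the group of units of `K` (junk value `1` where the function has a
zero or a pole; this is the shape of an `evalDiv f D : Kˣ`). -/
theorem weil_reciprocity_units (x : F) (hx : Transcendental K x) [FiniteDimensional K⟮x⟯ F]
    {f g : F} (hf : f ≠ 0) (hg : g ≠ 0) (hdisj : ∀ P : Place K F, P.ord f = 0 ∨ P.ord g = 0)
    (Df Dg : Divisor K F) (hDf : ∀ P, Df P = P.ord f) (hDg : ∀ P, Dg P = P.ord g) :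
    (Dg.prod fun P m => (if h : ev P f = 0 then (1 : Kˣ) else Units.mk0 (ev P f) h) ^ m) =
      Df.prod fun P m => (if h : ev P g = 0 then (1 : Kˣ) else Units.mk0 (ev P g) h) ^ m := by
  have key : ∀ (u v : F) (D : Divisor K F), u ≠ 0 → (∀ P, D P = P.ord v) →
      (∀ P : Place K F, P.ord u = 0 ∨ P.ord v = 0) →
      ((D.prod fun P m => (if h : ev P u = 0 then (1 : Kˣ) else Units.mk0 (ev P u) h) ^ m : Kˣ)
        : K) = D.prod fun P m => ev P u ^ m := by
    intro u v D hu hD hd
    rw [Finsupp.prod, Finsupp.prod, Units.coe_prod]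
    refine Finset.prod_congr rfl fun P hP => ?_
    have hv0 : P.ord v ≠ 0 := by
      rw [← hD P]; exact Finsupp.mem_support_iff.mp hP
    have hu0 : P.ord u = 0 := (hd P).resolve_right hv0
    have hne : ev P u ≠ 0 :=
      (Fermat.Agent.S27.helper4586.ev_ne_zero_iff
        (Fermat.Agent.S27.helper4586.hasValues_of_finite x P) hu0.ge).mpr ⟨hu, hu0⟩
    rw [dif_neg hne, Units.val_zpow_eq_zpow_val, Units.val_mk0]
  apply Units.ext
  rw [key f g Dg hf hDg hdisj, key g f Df hg hDf (fun P => (hdisj P).symm)]
  exact weil_reciprocity x hx hf hg hdisj Df Dg hDf hDg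

end Main

end Fermat.Agent.S17.helper2813
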