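/-
S17-M0-KRR (helper1665), part 2: KAEHLER = WEIL by twisted chart duality.

`K` algebraically closed of characteristic zero, `x : F` transcendental, `F` finite over `K(x)`.
With `B₁`, `B₂` the integral closures of `K[x]`, `K[x⁻¹]` and `B₁₂ = B₁[x⁻¹]`:

* `finrank_twisted_quot`: `dim B₁₂ / (B₁ + x⁻ᵐ B₂) + 1 = m [F : K(x)] + γ` for `m ≥ 1`
  (chart Euler characteristic of S18 `helper789`, applied to the twisted chart);
* `finrank_omegaCore_twist`: `dim Ω_m = dim B₁₂ / (B₁ + x⁻ᵐ B₂)` (the abstract duality core of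
  S18 `helper3927`, applied to the twisted chart);
* `mem_omegaCore_twist_iff_ord`: `y ∈ Ω_m ↔ div y + div(dx) - div x + m X∞ ≥ 0` (exact tame
  different, part 1, and the local differential lemma of S24);
* `genusFF_eq_chartGenus`: the Prelude genus `genusFF` is the chart genus `γ`;
* `degree_of_ordDifferential`: every Kähler canonical divisor has degree `2 genusFF - 2`;
* `hasCanonicalDivisor`, `genus_eq_genusFF`: the Prelude Kähler genus equals `genusFF`.
-/
import Mathlib
import Fermat.Agent.S17.helper1665_ExactDifferent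
import Fermat.Agent.S18.helper3927_ChartDuality
import Fermat.Agent.S18.helper789_ChartInst
import Fermat.Agent.S18.helper1364_GenusGlue
import Fermat.Agent.S24.helper1602_LocalDiffGlue
import Fermat.Agent.S24.helper19_RHBookkeeping
import Fermat.Agent.S18.helper981_FundEq
import Fermat.Agent.S18.helper8566_GenusBridge
import Fermat.Agent.S27.helper6634_EvUnram

set_option autoImplicit false
set_option linter.unusedSectionVars false

namespace Fermat.Agent.S17.helper1665

open Module AlgebraicCurve IntermediateField Polynomial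
open Fermat.Agent.S18 Fermat.Agent.S18.helper789

section Twist

variable {K F : Type*} [Field K] [Field F] [Algebra K F]

theorem mem_shift_shift_inv {x : F} (hx : x ≠ 0) (B : Submodule K F) (m : ℕ) :
    shift x⁻¹ (shift x B m) m = B := by
  ext φ
  rw [mem_shift, mem_shift, ← mul_assoc, ← mul_pow, mul_inv_cancel₀ hx, one_pow, one_mul]

/-- Twisting the chart at infinity by `x⁻ᵐ` keeps the two-chart structure. -/
theorem TwoChart.twist {ι₁ ι₂ : Type*} [Fintype ι₁] [Fintype ι₂] {x : F} {B1 B2 : Submodule K F}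
    {e : ι₁ → F} {f : ι₂ → F} (h : TwoChart x B1 B2 e f) (m : ℕ) :
    TwoChart x B1 (shift x B2 m) e (fun j => x⁻¹ ^ m * f j) := by
  have hx := h.x_ne
  have hcancel : ∀ z : F, x ^ m * (x⁻¹ ^ m * z) = z := fun z => by
    rw [← mul_assoc, ← mul_pow, mul_inv_cancel₀ hx, one_pow, one_mul]
  have hcancel' : ∀ z : F, x⁻¹ ^ m * (x ^ m * z) = z := fun z => by
    rw [← mul_assoc, ← mul_pow, inv_mul_cancel₀ hx, one_pow, one_mul]
  refine ⟨hx, h.chart1, ⟨fun φ => ?_, fun p hp => ?_⟩, fun j => ?_, fun i => ?_⟩
  · rw [mem_shift, h.chart2.mem]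
    constructor
    · rintro ⟨p, hp⟩
      refine ⟨p, ?_⟩
      have : φ = x⁻¹ ^ m * ∑ i, aeval x⁻¹ (p i) * f i := by rw [← hp, hcancel']
      rw [this, Finset.mul_sum]
      exact Finset.sum_congr rfl fun i _ => by ring
    · rintro ⟨p, hp⟩
      refine ⟨p, ?_⟩
      rw [hp, Finset.mul_sum]
      refine Finset.sum_congr rfl fun i _ => ?_
      rw [mul_left_comm, hcancel]
  · apply h.chart2.indep
    have : ∑ i, aeval x⁻¹ (p i) * f i = x ^ m * ∑ i, aeval x⁻¹ (p i) * (x⁻¹ ^ m * f i) := by
      rw [Finset.mul_sum]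
      refine Finset.sum_congr rfl fun i _ => ?_
      rw [mul_left_comm, hcancel]
    rw [this, hp, mul_zero]
  · obtain ⟨n, hn⟩ := h.f_mem j
    refine ⟨n + m, ?_⟩
    rw [pow_add, mul_assoc, hcancel]
    exact hn
  · obtain ⟨n, hn⟩ := h.e_mem i
    refine ⟨n + m, ?_⟩
    rw [mem_shift, pow_add, mul_comm (x⁻¹ ^ n), mul_assoc, hcancel]
    exact hn

end Twist

section TwistData

variable {K E F : Type*} [Field K] [Field E] [Field F] [Algebra K E] [Algebra K F] [Algebra E F]
  [IsScalarTower K E F]

/-- Twisting the chart at infinity keeps the chart hypotheses of the duality core. -/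
theorem chartData_twist {X : E} {B1 B2 B12 : Submodule K F}
    (h : helper3927.ChartData X B1 B2 B12) (m : ℕ) :
    helper3927.ChartData X B1 (shift (algebraMap E F X) B2 m) B12 := by
  have hx : algebraMap E F X ≠ 0 := h.x_ne_zero
  have hcancel : ∀ z : F, algebraMap E F X ^ m * ((algebraMap E F X)⁻¹ ^ m * z) = z := fun z => by
    rw [← mul_assoc, ← mul_pow, mul_inv_cancel₀ hx, one_pow, one_mul]
  refine ⟨h.hX, h.le1, fun φ hφ => ?_, h.mul1, fun φ hφ => ?_, h.mul12, h.inv12, h.ex1,
    fun φ hφ => ?_⟩
  · rw [mem_shift] at hφ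
    have := h.zpow_mem12 (h.le2 hφ) (-(m : ℤ))
    rwa [zpow_neg, zpow_natCast, ← inv_pow, ← mul_assoc, ← mul_pow, inv_mul_cancel₀ hx, one_pow,
      one_mul] at this
  · rw [mem_shift] at hφ ⊢
    rw [mul_left_comm]
    exact h.mul2 _ hφ
  · obtain ⟨n, hn⟩ := h.ex2 φ hφ
    refine ⟨n + m, ?_⟩
    rw [mem_shift, pow_add, mul_comm ((algebraMap E F X)⁻¹ ^ n), mul_assoc, hcancel]
    exact hn

end TwistData

section Concrete

open scoped IntermediateField.algebraAdjoinAdjoin

variable {K F : Type*} [Field K] [Field F] [Algebra K F] [IsAlgClosed K] [CharZero K]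
variable (x : F) (hx : Transcendental K x) [FiniteDimensional K⟮x⟯ F]

include hx

/-- `B₁ ∩ x⁻ᵐ B₂ = 0` for `m ≥ 1`: a function regular away from the poles of `x` and vanishing
there is zero. -/
theorem chartB_inf_shift_eq_bot {m : ℕ} (hm : 0 < m) :
    chartB K x ⊓ shift x (chartB K x⁻¹) m = ⊥ := by
  have hx0 : x ≠ 0 := ne_zero_of_transcendental hx
  have hfd : FiniteDimensional K⟮x⁻¹⟯ F := by
    rw [adjoin_simple_inv]
    infer_instance
  have h1 := helper8246.finite_integralClosure_adjoin (K := K) x
  have h2 := helper8246.finite_integralClosure_adjoin (K := K) x⁻¹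
  rw [eq_bot_iff]
  rintro φ ⟨hφ1, hφ2⟩
  rw [Submodule.mem_bot]
  have hφ1' : IsIntegral (Algebra.adjoin K {x}) φ := hφ1
  have hφ2' : IsIntegral (Algebra.adjoin K {x⁻¹}) (x ^ m * φ) := hφ2
  have hφ3 : IsIntegral (Algebra.adjoin K {x⁻¹}) φ := by
    have h := (isIntegral_aeval_adjoin (K := K) x⁻¹ (X ^ m)).mul hφ2'
    rwa [map_pow, aeval_X, ← mul_assoc, ← mul_pow, inv_mul_cancel₀ hx0, one_pow, one_mul] at h
  obtain ⟨c, rfl⟩ := mem_range_of_isIntegral_of_isAlgClosed
    (isIntegral_of_mem_both hx h1 h2 hφ1' hφ3)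
  by_contra hc
  have hc0 : c ≠ 0 := fun h0 => hc (by rw [h0, map_zero])
  have hxm2 : IsIntegral (Algebra.adjoin K {x⁻¹}) (x ^ m) := by
    have h := (helper1364.isIntegral_adjoin_algebraMap (K := K) x⁻¹ c⁻¹).mul hφ2'
    rwa [mul_left_comm, ← map_mul, inv_mul_cancel₀ hc0, map_one, mul_one] at h
  have hxm1 : IsIntegral (Algebra.adjoin K {x}) (x ^ m) := by
    have h := isIntegral_aeval_adjoin (K := K) x (X ^ m)
    rwa [map_pow, aeval_X] at h
  obtain ⟨d, hd⟩ := mem_range_of_isIntegral_of_isAlgClosed
    (isIntegral_of_mem_both hx h1 h2 hxm1 hxm2)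
  apply hx
  refine ⟨X ^ m - C d, X_pow_sub_C_ne_zero hm d, ?_⟩
  rw [map_sub, map_pow, aeval_X, aeval_C, hd, sub_self]

/-- `h¹(-m X∞) = m [F : K(x)] + γ - 1` for `m ≥ 1`, in the two-chart description. -/
theorem finrank_twisted_quot {m : ℕ} (hm : 0 < m) :
    finrank K (↥(overlap x (chartB K x)) ⧸
        (chartB K x ⊔ shift x (chartB K x⁻¹) m).submoduleOf (overlap x (chartB K x))) + 1
      = m * finrank K⟮x⟯ F + chartGenus K x := by
  have hx0 : x ≠ 0 := ne_zero_of_transcendental hx
  have hfd : FiniteDimensional K⟮x⁻¹⟯ F := by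
    rw [adjoin_simple_inv]
    infer_instance
  have h1 := helper8246.finite_integralClosure_adjoin (K := K) x
  have h2 := helper8246.finite_integralClosure_adjoin (K := K) x⁻¹
  obtain ⟨n₁, n₂, e, f, h⟩ := exists_twoChart x hx h1 h2
  have hc2 : n₂ = finrank K⟮x⟯ F := by
    have := card_eq_finrank_of_freeChart h.chart2 (transcendental_inv' hx)
    rw [Fintype.card_fin] at this
    rw [this, adjoin_simple_inv]
  have h0 : finrank K ↥(chartL x (chartB K x) (chartB K x⁻¹) 0 0) = 1 :=
    finrank_chartSp_zero hx h1 h2 fun g hg => mem_range_of_isIntegral_of_isAlgClosed hg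
  have heuler := (TwoChart.twist h m).euler m 0
  have hL1 : chartL x (chartB K x) (shift x (chartB K x⁻¹) m) m 0
      = chartL x (chartB K x) (chartB K x⁻¹) 0 0 := by
    unfold chartL
    rw [mem_shift_shift_inv hx0, shift_zero, shift_zero]
  have hL2 : chartL x (chartB K x) (shift x (chartB K x⁻¹) m) 0 0 = ⊥ := by
    unfold chartL
    rw [shift_zero, shift_zero]
    exact chartB_inf_shift_eq_bot x hx hm
  have hH1 : chartH x (chartB K x) (shift x (chartB K x⁻¹) m) m 0 = chartGenus K x := by
    unfold chartGenus chartH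
    rw [mem_shift_shift_inv hx0, shift_zero, shift_zero]
  have hH2 : chartH x (chartB K x) (shift x (chartB K x⁻¹) m) 0 0
      = finrank K (↥(overlap x (chartB K x)) ⧸
        (chartB K x ⊔ shift x (chartB K x⁻¹) m).submoduleOf (overlap x (chartB K x))) := by
    unfold chartH
    rw [shift_zero, shift_zero]
  rw [hL1, hL2, hH1, hH2, h0, finrank_bot, Fintype.card_fin, Fintype.card_fin, hc2] at heuler
  omega

/-- The three charts in the `helper789` vocabulary satisfy the hypotheses of the duality core. -/
theorem chartData_chartB :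
    helper3927.ChartData (E := K⟮x⟯) (AdjoinSimple.gen K x) (chartB K x) (chartB K x⁻¹)
      (overlap x (chartB K x)) := by
  have hx0 : x ≠ 0 := ne_zero_of_transcendental hx
  have e1 : helper3927.chartFin K x = chartB K x := Submodule.ext fun φ => Iff.rfl
  have e2 : helper3927.chartInf K x = chartB K x⁻¹ := Submodule.ext fun φ => Iff.rfl
  have e3 : helper3927.chartMid K x = overlap x (chartB K x) := Submodule.ext fun φ => by
    rw [helper3927.mem_chartMid, mem_overlap_chartB]
    rfl
  have h := helper3927.chartData (K := K) hx0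
  rwa [e1, e2, e3] at h

/-- **Twisted chart duality**: `dim Ω_m = h¹(-m X∞)`. -/
theorem finrank_omegaCore_twist (m : ℕ) :
    finrank K (helper3927.omegaCore (E := K⟮x⟯) (AdjoinSimple.gen K x) (chartB K x)
        (shift x (chartB K x⁻¹) m))
      = finrank K (↥(overlap x (chartB K x)) ⧸
        (chartB K x ⊔ shift x (chartB K x⁻¹) m).submoduleOf (overlap x (chartB K x))) := by
  have hCD := chartData_twist (chartData_chartB x hx) m
  obtain ⟨s, b, hb⟩ := helper3927.exists_basis_mem_chartFin (K := K) x
  have hb' : ∀ i, b i ∈ overlap x (chartB K x) := fun i =>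
    (chartData_chartB x hx).le1 (hb i)
  exact hCD.finrank_omegaCore (c0 := helper3927.coeffZero x hx)
    (helper3927.coeffZero_gen_zpow x hx) (helper3927.eq_zero_of_coeffZero x hx)
    (helper3927.exists_frac x hx) b hb'

end Concrete

section Membership

open scoped IntermediateField.algebraAdjoinAdjoin
open Fermat.Agent.S24.helper204

variable {K F : Type*} [Field K] [Field F] [Algebra K F]

/-- The trace only depends on the intermediate field as a set. -/
theorem trace_coe_congr' {E₁ E₂ : IntermediateField K F} (h : E₁ = E₂) (z : F) :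
    ((Algebra.trace E₁ F z : E₁) : F) = ((Algebra.trace E₂ F z : E₂) : F) := by
  subst h
  rfl

/-- Membership in the twisted space of chart differentials, as a pair of chart-dual
conditions in the coordinates `x` and `x⁻¹`. -/
theorem mem_omegaCore_twist_iff {x : F} (hx0 : x ≠ 0) (m : ℕ) (y : F) :
    y ∈ helper3927.omegaCore (E := K⟮x⟯) (AdjoinSimple.gen K x) (chartB K x)
        (shift x (chartB K x⁻¹) m) ↔
      IsChartDual K x y ∧ IsChartDual K x⁻¹ (x⁻¹ ^ m * y) := by
  have heq : K⟮x⁻¹⟯ = K⟮x⟯ := adjoin_simple_inv x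
  have hcancel : ∀ z : F, x ^ m * (x⁻¹ ^ m * z) = z := fun z => by
    rw [← mul_assoc, ← mul_pow, mul_inv_cancel₀ hx0, one_pow, one_mul]
  have hcancel' : ∀ z : F, x⁻¹ ^ m * (x ^ m * z) = z := fun z => by
    rw [← mul_assoc, ← mul_pow, inv_mul_cancel₀ hx0, one_pow, one_mul]
  rw [helper3927.mem_omegaCore]
  refine and_congr ?_ ?_
  · refine forall₂_congr fun b _ => exists_congr fun p => ?_
    rw [← Subtype.coe_inj, MulMemClass.coe_mul, helper3927.coe_aeval_gen]
    rfl
  · constructor
    · intro h b hb
      have hmem : x⁻¹ ^ m * b ∈ shift x (chartB K x⁻¹) m := by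
        rw [mem_shift, hcancel]
        exact hb
      obtain ⟨p, hp⟩ := h _ hmem
      refine ⟨p, ?_⟩
      rw [trace_coe_congr' heq]
      have h2 := congrArg (fun r : K⟮x⟯ => (r : F)) hp
      simp only [MulMemClass.coe_mul, helper3927.coe_aeval_gen_inv] at h2
      rw [show x⁻¹ ^ m * y * b = y * (x⁻¹ ^ m * b) by ring, h2]
      rfl
    · intro h φ hφ
      rw [mem_shift] at hφ
      obtain ⟨p, hp⟩ := h _ hφ
      refine ⟨p, ?_⟩
      rw [trace_coe_congr' heq, show x⁻¹ ^ m * y * (x ^ m * φ) = y * φ by
        rw [mul_assoc, mul_left_comm, hcancel']] at hp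
      rw [← Subtype.coe_inj, MulMemClass.coe_mul, helper3927.coe_aeval_gen_inv, hp]
      rfl

end Membership

section Orders

open KaehlerDifferential
open Fermat.Agent.S24.helper204

variable {K F : Type*} [Field K] [Field F] [Algebra K F]

/-- If `t ≡ d` at `v` with `d ≠ 0` a constant, then `t` is a unit at `v`. -/
theorem ord_eq_zero_of_sub_const_pos (v : Place K F) {t : F} {d : K} (hd : d ≠ 0)
    (h : 0 < v.ord (t - algebraMap K F d)) : v.ord t = 0 := by
  have hdF : v.ord (algebraMap K F d) = 0 := ord_algebraMap_eq_zero v d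
  have hmem : t ∈ v.toValuationSubring := by
    have h1 : t - algebraMap K F d ∈ v.toValuationSubring := mem_of_ord_nonneg v h.le
    have h2 := add_mem h1 (v.algebraMap_mem' d)
    simpa using h2
  have h0 : 0 ≤ v.ord t := ord_nonneg_of_mem v hmem
  rcases h0.lt_or_eq with hpos | heq
  · exfalso
    have hne : t - (t - algebraMap K F d) ≠ 0 := by
      rw [sub_sub_cancel, Ne, map_eq_zero]
      exact hd
    have := ord_sub_pos v hpos h hne
    rw [sub_sub_cancel, hdF] at this
    exact lt_irrefl _ this
  · exact heq.symm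

/-- Orders at a finite nonzero point in the two coordinates `x`, `x⁻¹` agree. -/
theorem ord_inv_sub_const_eq (v : Place K F) {x : F} (hx : Transcendental K x) {d : K}
    (hd : d ≠ 0) (h : 0 < v.ord (x⁻¹ - algebraMap K F d)) :
    v.ord (x⁻¹ - algebraMap K F d) = v.ord (x - algebraMap K F d⁻¹) := by
  have hx0 : x ≠ 0 := by
    have := sub_ne_zero_of_transcendental hx 0
    rwa [map_zero, sub_zero] at this
  have hxi : v.ord x⁻¹ = 0 := ord_eq_zero_of_sub_const_pos v hd h
  have hdF : algebraMap K F d ≠ 0 := by rw [Ne, map_eq_zero]; exact hd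
  have hne : x - algebraMap K F d⁻¹ ≠ 0 := sub_ne_zero_of_transcendental hx d⁻¹
  have hfac : x⁻¹ - algebraMap K F d =
      algebraMap K F (-d) * (x⁻¹ * (x - algebraMap K F d⁻¹)) := by
    rw [map_neg, map_inv₀]
    field_simp
    ring
  have hnd : algebraMap K F (-d) ≠ 0 := by rw [Ne, map_eq_zero, neg_eq_zero]; exact hd
  rw [hfac, v.ord_mul hnd (mul_ne_zero (inv_ne_zero hx0) hne),
    v.ord_mul (inv_ne_zero hx0) hne, ord_algebraMap_eq_zero, hxi]
  ring

theorem ord_nonneg_of_sub_const_pos (v : Place K F) {t : F} {d : K}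
    (h : 0 < v.ord (t - algebraMap K F d)) : 0 ≤ v.ord t := by
  have h1 : t - algebraMap K F d ∈ v.toValuationSubring := mem_of_ord_nonneg v h.le
  have h2 := add_mem h1 (v.algebraMap_mem' d)
  exact ord_nonneg_of_mem v (by simpa using h2)

variable [IsAlgClosed K] [CharZero K]
variable (x : F) (hx : Transcendental K x) [FiniteDimensional K⟮x⟯ F]

include hx

theorem residue_surjective (v : Place K F) :
    Function.Surjective (algebraMap K v.ResidueField) := by
  have h1 : Module.finrank K v.ResidueField = 1 := place_deg_eq_one x hx v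
  intro z
  have htop : (⊥ : Subalgebra K v.ResidueField) = ⊤ :=
    Subalgebra.bot_eq_top_of_finrank_eq_one h1
  have hz : z ∈ (⊥ : Subalgebra K v.ResidueField) := htop ▸ Algebra.mem_top
  exact Algebra.mem_bot.mp hz

/-- `ord_v(dx) = e_v - 1` at a place over a finite point `x = c`. -/
theorem ordDifferential_D_of_zero (v : Place K F) {c : K}
    (hc : 0 < v.ord (x - algebraMap K F c)) :
    v.ordDifferential (D K F x) = v.ord (x - algebraMap K F c) - 1 := by
  have h := Fermat.Agent.S24.helper1602.ordDifferential_D_of_residue x hx v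
    (residue_surjective x hx v) (u := x - algebraMap K F c) hc.ne'
  rwa [map_sub, Derivation.map_algebraMap, sub_zero] at h

/-- `ord_v(dx) = ord_v x - 1` at a pole of `x`. -/
theorem ordDifferential_D_of_pole (v : Place K F) (hv : v.ord x < 0) :
    v.ordDifferential (D K F x) = v.ord x - 1 :=
  Fermat.Agent.S24.helper1602.ordDifferential_D_of_residue x hx v (residue_surjective x hx v) hv.ne

/-- **The twisted chart differentials in terms of places**: `y ∈ Ω_m` iff
`div(y) + div(dx) - div(x) + m X∞ ≥ 0`. -/
theorem mem_omegaCore_twist_iff_ord (m : ℕ) (y : F) :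
    y ∈ helper3927.omegaCore (E := K⟮x⟯) (AdjoinSimple.gen K x) (chartB K x)
        (shift x (chartB K x⁻¹) m) ↔
      ∀ v : Place K F, y = 0 ∨
        v.ord x - v.ordDifferential (D K F x) - m * max 0 (-(v.ord x)) ≤ v.ord y := by
  have hx0 : x ≠ 0 := ne_zero_of_transcendental hx
  have hxi : Transcendental K x⁻¹ := transcendental_inv' hx
  have hfd : FiniteDimensional K⟮x⁻¹⟯ F := finiteDimensional_adjoin_inv
  rw [mem_omegaCore_twist_iff hx0, isChartDual_iff_ord hx, isChartDual_iff_ord hxi]
  have hy' : x⁻¹ ^ m * y = 0 ↔ y = 0 := by simp [hx0]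
  have hord : ∀ v : Place K F, y ≠ 0 → v.ord (x⁻¹ ^ m * y) = -(m * v.ord x) + v.ord y := by
    intro v hy
    rw [v.ord_mul (pow_ne_zero _ (inv_ne_zero hx0)) hy, ← zpow_natCast, v.ord_zpow, v.ord_inv]
    ring
  constructor
  · rintro ⟨h1, h2⟩ v
    rcases eq_or_ne y 0 with rfl | hy
    · exact Or.inl rfl
    right
    rcases place_center x hx v with hneg | ⟨c, hc, -⟩
    · have h := h2 v 0 (by rw [map_zero, sub_zero, v.ord_inv]; omega)
      rw [hy', or_iff_right hy, hord v hy, map_zero, sub_zero, v.ord_inv] at h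
      rw [ordDifferential_D_of_pole x hx v hneg, max_eq_right (by omega)]
      linarith
    · have h := h1 v c hc
      rw [or_iff_right hy] at h
      have hnn : 0 ≤ v.ord x := ord_nonneg_of_sub_const_pos v hc
      rw [ordDifferential_D_of_zero x hx v hc, max_eq_left (by omega), mul_zero, sub_zero]
      exact h
  · intro h
    refine ⟨fun v c hc => ?_, fun v c hc => ?_⟩
    · rcases eq_or_ne y 0 with rfl | hy
      · exact Or.inl rfl
      right
      have hv := (h v).resolve_left hy
      have hnn : 0 ≤ v.ord x := ord_nonneg_of_sub_const_pos v hc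
      rw [ordDifferential_D_of_zero x hx v hc, max_eq_left (by omega), mul_zero, sub_zero] at hv
      exact hv
    · rcases eq_or_ne y 0 with rfl | hy
      · left; simp
      right
      have hv := (h v).resolve_left hy
      rw [hord v hy]
      rcases eq_or_ne c 0 with rfl | hc0
      · rw [map_zero, sub_zero, v.ord_inv] at hc ⊢
        have hneg : v.ord x < 0 := by omega
        rw [ordDifferential_D_of_pole x hx v hneg, max_eq_right (by omega)] at hv
        linarith
      · have hxi0 : v.ord x⁻¹ = 0 := ord_eq_zero_of_sub_const_pos v hc0 hc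
        have hx00 : v.ord x = 0 := by rw [v.ord_inv] at hxi0; omega
        have heq := ord_inv_sub_const_eq v hx hc0 hc
        have hc' : 0 < v.ord (x - algebraMap K F c⁻¹) := heq ▸ hc
        rw [ordDifferential_D_of_zero x hx v hc', hx00] at hv
        rw [hxi0, heq, hx00]
        simp only [neg_zero, max_self, mul_zero, sub_zero, zero_sub] at hv ⊢
        linarith

end Orders

section Final

open KaehlerDifferential
open Fermat.Agent.S24.helper204

variable {K F : Type*} [Field K] [Field F] [Algebra K F] [IsAlgClosed K] [CharZero K]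
variable (x : F) (hx : Transcendental K x) [FiniteDimensional K⟮x⟯ F]

include hx

theorem nonempty_place_of_transcendental : Nonempty (Place K F) := by
  obtain ⟨s, hs, hsum⟩ := exists_finset_poles x hx
  by_contra hne
  rw [not_nonempty_iff] at hne
  have hs0 : s = ∅ := Finset.eq_empty_of_isEmpty s
  rw [hs0, Finset.sum_empty] at hsum
  have hpos : 0 < finrank K⟮x⟯ F := Module.finrank_pos
  omega

/-- The Prelude genus `genusFF` is the two-chart genus `dim B₁₂ / (B₁ + B₂)`. -/
theorem genusFF_eq_chartGenus : genusFF K F = chartGenus K x := by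
  have := hasPrincipalDivisors x hx
  have hdeg := place_deg_eq_one x hx
  obtain ⟨P₀⟩ := nonempty_place_of_transcendental x hx
  have hx0 : x ≠ 0 := ne_zero_of_transcendental hx
  obtain ⟨X, hX⟩ := helper981.exists_poleDivisor (K := K) hx0
  have hXdeg := helper981.degree_poleDivisor_eq_finrank hdeg P₀ x hx X hX
  have hRB := helper981.hasRiemannBound_of_transcendental' x hx P₀ hdeg
  have hCR : helper1364.ChartRiemann K x (finrank K⟮x⟯ F) (chartGenus K x : ℤ) :=
    helper1364.chartRiemann_of_family (helper1364.chartSpace K x) (fun n g => Iff.rfl)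
      (hdim_of_isAlgClosed x hx _ (fun n g => Iff.rfl))
  have h := helper1364.riemannGenus_eq_chartGenus hdeg P₀ x hx hX hXdeg
    (helper8566.chartIntegral_of_perfect x) (helper8566.chartIntegral_inv_of_perfect x) hCR
  rw [helper981.genusFF_eq_riemannGenus hdeg P₀ hRB]
  exact_mod_cast h

/-- **Kähler = Weil, degree form, for `dx`.**  The divisor of the Kähler differential `dx`
has degree `2 g - 2`, `g = genusFF K F` (the dimension of the repartition `H¹(0)`). -/
theorem degree_divisor_D (Dx : Divisor K F)
    (hDx : ∀ v : Place K F, Dx v = v.ordDifferential (D K F x)) :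
    Divisor.degree Dx = 2 * (genusFF K F : ℤ) - 2 := by
  have := hasPrincipalDivisors x hx
  have hdeg := place_deg_eq_one x hx
  obtain ⟨P₀⟩ := nonempty_place_of_transcendental x hx
  have hx0 : x ≠ 0 := ne_zero_of_transcendental hx
  obtain ⟨X, hX⟩ := helper981.exists_poleDivisor (K := K) hx0
  have hXdeg := helper981.degree_poleDivisor_eq_finrank hdeg P₀ x hx X hX
  have hRB := helper981.hasRiemannBound_of_transcendental' x hx P₀ hdeg
  obtain ⟨c, hc⟩ := helper981.exists_forall_finrank_eq hdeg P₀ hRB
  have hg : genusFF K F = helper981.riemannGenus K F :=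
    helper981.genusFF_eq_riemannGenus hdeg P₀ hRB
  have hγ := genusFF_eq_chartGenus x hx
  have hn : 0 < finrank K⟮x⟯ F := Module.finrank_pos
  set m : ℕ := max 1 (c - Divisor.degree Dx).toNat with hm
  have hm1 : 0 < m := lt_of_lt_of_le one_pos (le_max_left _ _)
  have hdegm : Divisor.degree (Dx + m • X) = Divisor.degree Dx + (m : ℤ) * (finrank K⟮x⟯ F : ℤ) := by
    rw [map_add, map_nsmul, hXdeg, nsmul_eq_mul]
  have hmc : c ≤ Divisor.degree (Dx + m • X) := by
    rw [hdegm]
    have h1 : c - Divisor.degree Dx ≤ ((c - Divisor.degree Dx).toNat : ℤ) := Int.self_le_toNat _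
    have h2 : ((c - Divisor.degree Dx).toNat : ℤ) ≤ (m : ℤ) := by
      exact_mod_cast le_max_right 1 (c - Divisor.degree Dx).toNat
    have h3 : (1 : ℤ) ≤ (finrank K⟮x⟯ F : ℤ) := by exact_mod_cast hn
    have h4 : (0 : ℤ) ≤ (m : ℤ) := Int.natCast_nonneg _
    nlinarith
  have hL := hc _ hmc
  have hmap : helper3927.omegaCore (E := K⟮x⟯) (AdjoinSimple.gen K x) (chartB K x)
      (shift x (chartB K x⁻¹) m)
        = (riemannRochSpace (Dx + m • X)).map (LinearMap.mulLeft K x) := by
    ext y
    rw [mem_omegaCore_twist_iff_ord x hx, Submodule.mem_map]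
    constructor
    · intro h
      refine ⟨x⁻¹ * y, ?_, by rw [LinearMap.mulLeft_apply, mul_inv_cancel_left₀ hx0]⟩
      rw [mem_riemannRochSpace_iff]
      intro v
      rcases eq_or_ne y 0 with rfl | hy
      · left; simp
      right
      have hv := (h v).resolve_left hy
      rw [v.ord_mul (inv_ne_zero hx0) hy, v.ord_inv, Finsupp.add_apply, Finsupp.smul_apply,
        hDx v, hX v, nsmul_eq_mul]
      linarith
    · rintro ⟨g, hg, rfl⟩ v
      rw [mem_riemannRochSpace_iff] at hg
      rcases eq_or_ne g 0 with rfl | hg0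
      · left; simp
      right
      have hv := (hg v).resolve_left hg0
      rw [LinearMap.mulLeft_apply, v.ord_mul hx0 hg0]
      rw [Finsupp.add_apply, Finsupp.smul_apply, hDx v, hX v, nsmul_eq_mul] at hv
      linarith
  have hfin1 : finrank K (helper3927.omegaCore (E := K⟮x⟯) (AdjoinSimple.gen K x) (chartB K x)
      (shift x (chartB K x⁻¹) m)) = finrank K (riemannRochSpace (Dx + m • X)) := by
    rw [hmap]
    exact (Submodule.equivMapOfInjective _ (fun a b h => mul_left_cancel₀ hx0 h) _).finrank_eq.symm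
  have h1 := finrank_omegaCore_twist x hx m
  have h2 := finrank_twisted_quot x hx hm1
  rw [← h1, hfin1] at h2
  have h2' : ((finrank K (riemannRochSpace (Dx + m • X)) : ℕ) : ℤ) + 1
      = (m : ℤ) * (finrank K⟮x⟯ F : ℤ) + (chartGenus K x : ℤ) := by exact_mod_cast h2
  rw [hdegm] at hL
  have hg' : (genusFF K F : ℤ) = (helper981.riemannGenus K F : ℤ) := by exact_mod_cast hg
  have hγ' : (genusFF K F : ℤ) = (chartGenus K x : ℤ) := by exact_mod_cast hγ
  linarith

/-- **Kähler = Weil, degree form.**  Every canonical divisor in the Kähler sense (the divisor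
of a nonzero Kähler differential, Prelude `Place.ordDifferential`) has degree `2 g - 2` with
`g = genusFF K F`. -/
theorem degree_of_ordDifferential (ω : Ω[F⁄K]) (hω : ω ≠ 0) (Dv : Divisor K F)
    (hDv : ∀ v : Place K F, Dv v = v.ordDifferential ω) :
    Divisor.degree Dv = 2 * (genusFF K F : ℤ) - 2 := by
  have hP := hasPrincipalDivisors x hx
  obtain ⟨f, rfl⟩ := Fermat.Agent.S24.helper1602.exists_eq_smul_D x hx ω
  have hf : f ≠ 0 := by
    rintro rfl
    simp at hω
  obtain ⟨Df, hDf, hDf0⟩ := hP.exists_divisor f hf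
  have hdx := Fermat.Agent.S24.helper1602.D_ne_zero x hx
  have key := degree_divisor_D x hx (Dv - Df) (fun v => by
    have := Fermat.Agent.S24.helper1602.dCoordGenerates_of_residue x hx v
      (residue_surjective x hx v)
    have := Fermat.Agent.S24.helper1602.nontrivial_kaehler x hx
    rw [Finsupp.sub_apply, hDv v, hDf v,
      Fermat.Agent.S24.helper564.ordDifferential_smul_of_ne_zero v hf hdx]
    ring)
  rw [map_sub, hDf0, sub_zero] at key
  exact key

/-- The Kähler canonical divisors exist: `HasCanonicalDivisor` for every function field of one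
variable over an algebraically closed field of characteristic zero. -/
theorem hasCanonicalDivisor : HasCanonicalDivisor (K := K) (F := F) := by
  classical
  have hP := hasPrincipalDivisors x hx
  refine ⟨fun ω hω => ?_⟩
  obtain ⟨f, rfl⟩ := Fermat.Agent.S24.helper1602.exists_eq_smul_D x hx ω
  have hf : f ≠ 0 := by
    rintro rfl
    simp at hω
  obtain ⟨Df, hDf, -⟩ := hP.exists_divisor f hf
  have hdx := Fermat.Agent.S24.helper1602.D_ne_zero x hx
  obtain ⟨s, hs, -⟩ := exists_finset_poles x hx
  have hram := Fermat.Agent.S27.helper6634.ramified_finite_self x hx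
  have hfin : (Function.support fun v : Place K F => v.ordDifferential (D K F x)).Finite := by
    refine (s.finite_toSet.union hram).subset fun v hv => ?_
    rw [Function.mem_support] at hv
    rcases place_center x hx v with hneg | ⟨c, hc, -⟩
    · exact Or.inl (Finset.mem_coe.mpr ((hs v).mpr hneg))
    · right
      refine ⟨c, ?_⟩
      rw [ordDifferential_D_of_zero x hx v hc] at hv
      omega
  refine ⟨Df + Finsupp.ofSupportFinite _ hfin, fun v => ?_⟩
  have := Fermat.Agent.S24.helper1602.dCoordGenerates_of_residue x hx v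
    (residue_surjective x hx v)
  have := Fermat.Agent.S24.helper1602.nontrivial_kaehler x hx
  rw [Finsupp.add_apply, hDf v, Finsupp.ofSupportFinite_coe,
    Fermat.Agent.S24.helper564.ordDifferential_smul_of_ne_zero v hf hdx]

/-- **Kähler genus = Weil genus**: the Prelude genus defined through the degree of a Kähler
canonical divisor is `genusFF` (the dimension of `H¹(0)` of repartitions). -/
theorem genus_eq_genusFF [HasCanonicalDivisor (K := K) (F := F)] :
    genus K F = genusFF K F :=
  Fermat.Agent.S24.helper19.genus_eq_of_degree (genusFF K F)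
    ⟨D K F x, Fermat.Agent.S24.helper1602.D_ne_zero x hx⟩
    (fun ω hω Dv hDv => degree_of_ordDifferential x hx ω hω Dv hDv)

end Final

end Fermat.Agent.S17.helper1665
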