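import Fermat.Agent.S24
import Fermat.Agent.S20
import Fermat.Agent.S17.helper1665_KaehlerChart
import Fermat.Agent.S18.helper1903_RiemannAsm

/-!
# The Weil genus of `X₀(N)` (helper1665, S17-M0-KRR, modular corollary)

`genusFF ℚ̄ (function field of X₀(N)) = genusFormula N`, from the landed S24 statement (the
Kähler genus) and Kähler = Weil (`helper1665.genus_eq_genusFF`).  No hypotheses.
With the landed S20 statement: `dim S₂(Γ₀(N)) = genusFF ℚ̄ F_N`.
-/

set_option autoImplicit false

namespace Fermat.Agent.S17.helper1665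

open AlgebraicCurve ModularCurve
open Fermat.Agent.S24.helper24

/-- `HasCanonicalDivisor` for the function field of `X₀(N)` over `ℚ̄`. -/
theorem hasCanonicalDivisor_FN (N : ℕ) [NeZero N] :
    HasCanonicalDivisor (K := AlgebraicClosure ℚ) (F := ↥(modularFunctionFieldBar N)) :=
  haveI := Fermat.Agent.S18.helper1903.finiteDimensional_jBar N
  hasCanonicalDivisor (jBar N) (Fermat.Agent.S24.helper3176.transcendental_jBar N)

/-- **The Weil genus of `X₀(N)`**: `genusFF ℚ̄ F_N = genusFormula N`. -/
theorem genusFF_FN_eq_genusFormula (N : ℕ) [NeZero N] :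
    (genusFF (AlgebraicClosure ℚ) ↥(modularFunctionFieldBar N) : ℚ) = genusFormula N := by
  have := Fermat.Agent.S18.helper1903.finiteDimensional_jBar N
  have := hasCanonicalDivisor_FN N
  rw [← genus_eq_genusFF (jBar N) (Fermat.Agent.S24.helper3176.transcendental_jBar N)]
  exact Fermat.Agent.S24.result N

/-- Every Kähler canonical divisor of `X₀(N)` has degree `2 g - 2`, `g = genusFF`. -/
theorem degree_canonical_FN (N : ℕ) [NeZero N]
    (ω : Ω[↥(modularFunctionFieldBar N)⁄AlgebraicClosure ℚ]) (hω : ω ≠ 0)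
    (Dv : Divisor (AlgebraicClosure ℚ) ↥(modularFunctionFieldBar N))
    (hDv : ∀ v : Place (AlgebraicClosure ℚ) ↥(modularFunctionFieldBar N),
      Dv v = v.ordDifferential ω) :
    Divisor.degree Dv
      = 2 * (genusFF (AlgebraicClosure ℚ) ↥(modularFunctionFieldBar N) : ℤ) - 2 :=
  haveI := Fermat.Agent.S18.helper1903.finiteDimensional_jBar N
  degree_of_ordDifferential (jBar N) (Fermat.Agent.S24.helper3176.transcendental_jBar N) ω hω Dv hDv

/-- **`dim S₂(Γ₀(N))` is the Weil genus of `X₀(N)`** (both inequalities), from the landed S20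
and S24 statements and Kähler = Weil. -/
theorem finrank_cuspForm_eq_genusFF (N : ℕ) [NeZero N] :
    Module.finrank ℂ (CuspForm (CongruenceSubgroup.Gamma0 N) 2)
      = genusFF (AlgebraicClosure ℚ) ↥(modularFunctionFieldBar N) := by
  have h : (Module.finrank ℂ (CuspForm (CongruenceSubgroup.Gamma0 N) 2) : ℚ)
      = (genusFF (AlgebraicClosure ℚ) ↥(modularFunctionFieldBar N) : ℚ) :=
    (Fermat.Agent.S20.result N).trans (genusFF_FN_eq_genusFormula N).symm
  exact_mod_cast h

end Fermat.Agent.S17.helper1665
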