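import Mathlib
import Fermat.Agent.S17.helper9541_WeakMW
import Fermat.Agent.Lib.helper2502_Minkowski
import Fermat.Agent.S55.helper6119_Kummer
import Fermat.Agent.S55.helper9292_SelmerDict
import Fermat.Agent.S14.helper662_LocalQb

/-!
# S17-EUB (helper1026): finiteness of the maximal abelian exponent-`p` extension unramified
outside `M`

Main result: `expUnramifiedBound (p M) (hp : p.Prime) (hM : M ≠ 0) :
  Fermat.Agent.S17.helper9541.ExpUnramifiedBound p M`,
the one classical number-theoretic input of the weak Mordell–Weil wiring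
`Fermat/Agent/S17/helper9541_WeakMW.lean`.

Route: adjoin a primitive `p`-th root of unity `ζ` to `K`, getting `K₁`; the group `Kum` of
elements of `K₁ˣ` which are locally a unit times a `p`-th power outside `p * M` is finite modulo
`p`-th powers (S55 `helper9292`, from the `S`-unit theorem and the finiteness of the class group);
`L` is `K₁` with all `p`-th roots of a finite set of representatives adjoined.  Every character of
the elementary abelian quotient `G_K / (U ∩ G_K)` is, on `G_{K₁}`, a Kummer character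
`g ↦ g α / α` (Hilbert 90 in level form, S55 `helper6119`), and the local lemma
`exists_valuation_eq_of_inertia_fixed` (Lagrange resolvents + lifting of finite-level inertia)
shows `α ^ p ∈ Kum`, hence `α ∈ L`.
-/

set_option autoImplicit false

namespace Fermat.Agent.S17.helper1026

open scoped Pointwise
open Fermat.Agent.Lib

local notation "Qb" => AlgebraicClosure ℚ
local notation "GQ" => (AlgebraicClosure ℚ ≃ₐ[ℚ] AlgebraicClosure ℚ)
local notation "Zb" => integralClosure ℤ (AlgebraicClosure ℚ)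

attribute [local instance] helper54.isAlgebraic_Qbar helper54.isAlgClosure_Qbar
  helper54.isGalois_Qbar helper54.isIntegral_Qbar

attribute [local instance] helper2502.zbarTopology helper2502.discreteTopology_zbar
  helper2502.continuousSMul_zbar

/-! ## Part 1: lifting of finite-level inertia inside a coset of a non-normal open subgroup -/

/-- **Lifting of inertia, coset form.** Let `N` be an open subgroup of `Gal(ℚ̄/ℚ)`, `g` an element
normalising `N` and acting trivially, modulo the prime cut out by `A`, on the `N`-fixed algebraic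
integers. Then the coset `N g` meets the inertia subgroup of `A`. -/
theorem exists_mul_mem_inertia (N : Subgroup GQ) (hN : IsOpen (N : Set GQ)) {ℓ : ℕ}
    (hℓ : ℓ.Prime) (A : ValuationSubring Qb) (hA : A.LiesOverPrime ℓ) (g : GQ)
    (hg1 : ∀ n ∈ N, g * n * g⁻¹ ∈ N) (hg2 : ∀ n ∈ N, g⁻¹ * n * g ∈ N)
    (hgI : ∀ s : Zb, (∀ n ∈ N, n • s = s) → g • s - s ∈ helper54.primeOfValuationSubring A) :
    ∃ n ∈ N, n * g ∈ A.inertiaSubgroupIn ℚ := by
  set Q := helper54.primeOfValuationSubring A with hQdef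
  have hcl : IsClosed (N : Set GQ) := Subgroup.isClosed_of_isOpen N hN
  have : CompactSpace N := helper2502.compactSpace_of_isClosed N hcl
  have := helper2502.isInvariant_fixedInts N
  -- `N`-fixed integers stay `N`-fixed under `g` and `g⁻¹`
  have hfix1 : ∀ s : Zb, (∀ n ∈ N, n • s = s) → ∀ n ∈ N, n • (g⁻¹ • s) = g⁻¹ • s := by
    intro s hs n hn
    have h1 := hs _ (hg1 n hn)
    have h2 : n • (g⁻¹ • s) = g⁻¹ • ((g * n * g⁻¹) • s) := by
      rw [← mul_smul, ← mul_smul]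
      congr 1
      group
    rw [h2, h1]
  have hfix2 : ∀ s : Zb, (∀ n ∈ N, n • s = s) → ∀ n ∈ N, n • (g • s) = g • s := by
    intro s hs n hn
    have h1 := hs _ (hg2 n hn)
    have h2 : n • (g • s) = g • ((g⁻¹ * n * g) • s) := by
      rw [← mul_smul, ← mul_smul]
      congr 1
      group
    rw [h2, h1]
  have hmemN : ∀ s : helper2502.fixedInts N, ∀ n ∈ N, n • (s : Zb) = (s : Zb) :=
    fun s n hn => s.2 ⟨n, hn⟩
  -- Step 1: `Q` and `g • Q` lie over the same prime of the fixed integers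
  have hunder : (g • Q).under (helper2502.fixedInts N) = Q.under (helper2502.fixedInts N) := by
    ext s
    rw [Ideal.mem_comap, Ideal.mem_comap]
    show (s : Zb) ∈ g • Q ↔ (s : Zb) ∈ Q
    rw [helper2502.mem_smul_ideal_iff]
    have h1 := hgI (g⁻¹ • (s : Zb)) (hfix1 _ (hmemN s))
    rw [smul_inv_smul] at h1
    constructor
    · intro h
      have := Q.add_mem h1 h
      simpa using this
    · intro h
      have := Q.sub_mem h h1
      simpa using this
  obtain ⟨n₁, hn₁⟩ := Algebra.IsInvariant.exists_smul_of_under_eq_of_profinite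
    (A := helper2502.fixedInts N) (B := Zb) (G := N) (g • Q) Q hunder
  -- `g₂ = n₁ g` stabilises `Q`
  set g₂ : GQ := (n₁ : GQ) * g with hg₂def
  have hQ : g₂ • Q = Q := by
    rw [hg₂def, mul_smul]
    exact hn₁.symm
  have hS : ∀ s : helper2502.fixedInts N, g₂ • (s : Zb) - (s : Zb) ∈ Q := by
    intro s
    have h1 : (n₁ : GQ) • (g • (s : Zb)) = g • (s : Zb) := hfix2 _ (hmemN s) _ n₁.2
    rw [hg₂def, mul_smul, h1]
    exact hgI _ (hmemN s)
  -- Step 2: correct by an element of the decomposition group inside `N`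
  let φ₀ : (Zb ⧸ Q) ≃ₐ[ℤ ⧸ Q.under ℤ] (Zb ⧸ Q) :=
    Ideal.Quotient.stabilizerHom Q (Q.under ℤ) GQ ⟨g₂, hQ⟩
  have hφ₀ : ∀ b : Zb, φ₀ (Ideal.Quotient.mk Q b) = Ideal.Quotient.mk Q (g₂ • b) := fun b => rfl
  let φ : (Zb ⧸ Q) ≃ₐ[helper2502.fixedInts N ⧸ Q.under (helper2502.fixedInts N)] (Zb ⧸ Q) :=
    { φ₀.toRingEquiv with
      commutes' := by
        intro r
        obtain ⟨s, rfl⟩ := Ideal.Quotient.mk_surjective r
        rw [Ideal.Quotient.algebraMap_mk_of_liesOver]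
        show φ₀ (Ideal.Quotient.mk Q (s : Zb)) = Ideal.Quotient.mk Q (s : Zb)
        rw [hφ₀, Ideal.Quotient.eq]
        exact hS s }
  have hφ : ∀ b : Zb, φ (Ideal.Quotient.mk Q b) = Ideal.Quotient.mk Q (g₂ • b) := fun b => rfl
  obtain ⟨⟨n₂, hn₂⟩, hn₂φ⟩ := Ideal.Quotient.stabilizerHom_surjective_of_profinite (G := N)
    (Q.under (helper2502.fixedInts N)) Q φ
  have hn₂Q : (n₂ : GQ) • Q = Q := hn₂
  have hcong : ∀ b : Zb, (n₂ : GQ) • b - g₂ • b ∈ Q := by
    intro b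
    have h1 : Ideal.Quotient.mk Q (n₂ • b) = Ideal.Quotient.mk Q (g₂ • b) := by
      rw [← hφ, ← hn₂φ]
      rfl
    exact Ideal.Quotient.eq.mp h1
  set g₃ : GQ := (n₂ : GQ)⁻¹ * g₂ with hg₃def
  have hg₃Q : g₃ • Q = Q := by
    rw [hg₃def, mul_smul, hQ, inv_smul_eq_iff, hn₂Q]
  have hg₃I : ∀ b : Zb, g₃ • b - b ∈ Q := by
    intro b
    have h1 := hcong b
    have h2 : (n₂ : GQ) • b - g₂ • b = (n₂ : GQ) • (b - ((n₂ : GQ)⁻¹ * g₂) • b) := by
      rw [smul_sub, ← mul_smul, mul_inv_cancel_left]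
    rw [h2, ← hn₂Q, Ideal.smul_mem_pointwise_smul_iff] at h1
    have := Q.neg_mem h1
    simpa [hg₃def] using this
  refine ⟨(n₂ : GQ)⁻¹ * (n₁ : GQ), N.mul_mem (N.inv_mem n₂.2) n₁.2, ?_⟩
  have e : (n₂ : GQ)⁻¹ * (n₁ : GQ) * g = g₃ := by
    rw [hg₃def, hg₂def, mul_assoc]
  rw [e]
  exact helper2502.mem_inertiaSubgroupIn_of_zbar hℓ A hA g₃ hg₃Q hg₃I

/-! ## Part 2: the local lemma (an extension `K₁(α)/K₁`, `α ^ p ∈ K₁`, unramified at `A`, does
not change the value group at `A`) -/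

section local_lemma

open Fermat.Agent.S14.helper662 (resolvent map_resolvent sum_resolvent pow_apply_of_fix
  pow_apply_of_mul valuation_le_one_of_isIntegral valuation_natCast_eq_one)

/-- The subgroup of `G_ℚ` fixing `K₁` pointwise and fixing `α`. -/
noncomputable def kumStab (K₁ : IntermediateField ℚ Qb) (α : Qb) : Subgroup GQ :=
  K₁.fixingSubgroup ⊓ MulAction.stabilizer GQ α

theorem mem_kumStab {K₁ : IntermediateField ℚ Qb} {α : Qb} {τ : GQ} :
    τ ∈ kumStab K₁ α ↔ τ ∈ K₁.fixingSubgroup ∧ τ α = α := by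
  rw [kumStab, Subgroup.mem_inf, MulAction.mem_stabilizer_iff]
  rfl

theorem isOpen_kumStab (K₁ : IntermediateField ℚ Qb) [FiniteDimensional ℚ K₁] (α : Qb) :
    IsOpen (kumStab K₁ α : Set GQ) := by
  have hfin : FiniteDimensional ℚ (IntermediateField.adjoin ℚ ({α} : Set Qb)) :=
    IntermediateField.finiteDimensional_adjoin
      (fun z _ => (Algebra.IsAlgebraic.isAlgebraic z).isIntegral)
  have hopen := IntermediateField.fixingSubgroup_isOpen
    (IntermediateField.adjoin ℚ ({α} : Set Qb))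
  have h2 : IsOpen (MulAction.stabilizer GQ α : Set GQ) := by
    refine Subgroup.isOpen_mono
      (H₁ := (IntermediateField.adjoin ℚ ({α} : Set Qb)).fixingSubgroup) ?_ hopen
    intro σ hσ
    rw [IntermediateField.mem_fixingSubgroup_iff] at hσ
    exact MulAction.mem_stabilizer_iff.mpr
      (hσ α (IntermediateField.subset_adjoin ℚ _ (by simp)))
  rw [kumStab, Subgroup.coe_inf]
  exact (IntermediateField.fixingSubgroup_isOpen K₁).inter h2

theorem inv_apply_of_apply {g : GQ} {x y : Qb} (h : g x = y) : g⁻¹ y = x := by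
  rw [← h, ← AlgEquiv.mul_apply, inv_mul_cancel, AlgEquiv.one_apply]

/-- An element of `G_{K₁}` multiplying `α` by an element of `K₁` normalises `kumStab K₁ α`. -/
theorem conj_mem_kumStab {K₁ : IntermediateField ℚ Qb} {α c : Qb} {g : GQ}
    (hg : g ∈ K₁.fixingSubgroup) (hc : c ∈ K₁) (hc0 : c ≠ 0) (hgα : g α = c * α) {n : GQ}
    (hn : n ∈ kumStab K₁ α) :
    g * n * g⁻¹ ∈ kumStab K₁ α ∧ g⁻¹ * n * g ∈ kumStab K₁ α := by
  rw [mem_kumStab] at hn
  obtain ⟨hnK, hnα⟩ := hn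
  have hgc : g c = c := (IntermediateField.mem_fixingSubgroup_iff K₁ g).mp hg c hc
  have hnc : n c = c := (IntermediateField.mem_fixingSubgroup_iff K₁ n).mp hnK c hc
  have hgci : g c⁻¹ = c⁻¹ := by rw [map_inv₀, hgc]
  have hnci : n c⁻¹ = c⁻¹ := by rw [map_inv₀, hnc]
  have h1 : g (c⁻¹ * α) = α := by
    rw [map_mul, hgci, hgα, ← mul_assoc, inv_mul_cancel₀ hc0, one_mul]
  constructor
  · rw [mem_kumStab]
    refine ⟨mul_mem (mul_mem hg hnK) (inv_mem hg), ?_⟩
    show g (n (g⁻¹ α)) = α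
    rw [inv_apply_of_apply h1, map_mul, hnci, hnα, h1]
  · rw [mem_kumStab]
    refine ⟨mul_mem (mul_mem (inv_mem hg) hnK) hg, ?_⟩
    show g⁻¹ (n (g α)) = α
    rw [hgα, map_mul, hnc, hnα, ← hgα]
    exact inv_apply_of_apply rfl

/-- If a power `α ^ k`, `0 < k < p`, has the valuation of an element of `K₁` and `α ^ p ∈ K₁`,
then `α` has the valuation of an element of `K₁`. -/
theorem exists_valuation_eq_of_pow {p : ℕ} (hp : p.Prime) (K₁ : IntermediateField ℚ Qb) {α : Qb}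
    (hα0 : α ≠ 0) (hαp : α ^ p ∈ K₁) (A : ValuationSubring Qb) {k : ℕ} (hk0 : 0 < k)
    (hkp : k < p) {c : Qb} (hc : c ∈ K₁) (hc0 : c ≠ 0)
    (hv : A.valuation α ^ k = A.valuation c) :
    ∃ y ∈ K₁, y ≠ 0 ∧ A.valuation α = A.valuation y := by
  have hcop : Nat.Coprime k p :=
    (Nat.coprime_comm.mp ((Nat.Prime.coprime_iff_not_dvd hp).mpr
      (Nat.not_dvd_of_pos_of_lt hk0 hkp)))
  obtain ⟨a, b, hab⟩ := Nat.isCoprime_iff_coprime.mpr hcop
  have hvα : A.valuation α ≠ 0 := (Valuation.ne_zero_iff _).mpr hα0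
  refine ⟨c ^ a * (α ^ p) ^ b, mul_mem (zpow_mem hc a) (zpow_mem hαp b),
    mul_ne_zero (zpow_ne_zero _ hc0) (zpow_ne_zero _ (pow_ne_zero _ hα0)), ?_⟩
  rw [map_mul, map_zpow₀, map_zpow₀, ← hv, map_pow, ← zpow_natCast, ← zpow_natCast,
    ← zpow_mul, ← zpow_mul, ← zpow_add₀ hvα]
  have e : (k : ℤ) * a + (p : ℤ) * b = 1 := by linarith
  rw [e, zpow_one]

/-- **Local lemma.** Let `K₁ ∋ ζ_p` be a number field in `ℚ̄`, `α ^ p ∈ K₁`, and let `A` lie over
`ℓ ≠ p`. If the inertia group of `A` in `G_{K₁}` fixes `α`, then the valuation of `α` at `A` is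
the valuation of an element of `K₁`. -/
theorem exists_valuation_eq_of_inertia_fixed {p ℓ : ℕ} (hp : p.Prime) (hℓ : ℓ.Prime)
    (hℓp : ℓ ≠ p) (K₁ : IntermediateField ℚ Qb) [FiniteDimensional ℚ K₁] {ζ : Qb}
    (hζ : IsPrimitiveRoot ζ p) (hζK : ζ ∈ K₁) {α : Qb} (hα0 : α ≠ 0) (hαp : α ^ p ∈ K₁)
    (A : ValuationSubring Qb) (hA : A.LiesOverPrime ℓ)
    (hunr : ∀ σ ∈ A.inertiaSubgroupIn ℚ, σ ∈ K₁.fixingSubgroup → σ α = α) :
    ∃ y ∈ K₁, y ≠ 0 ∧ A.valuation α = A.valuation y := by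
  by_contra hcon
  have : NeZero p := ⟨hp.ne_zero⟩
  have hζp : ζ ^ p = 1 := hζ.pow_eq_one
  have hζ0 : ζ ≠ 0 := hζ.ne_zero hp.ne_zero
  have hζi : IsIntegral ℤ ζ := hζ.isIntegral hp.pos
  have hfixζ : ∀ τ ∈ K₁.fixingSubgroup, τ ζ = ζ := fun τ hτ =>
    (IntermediateField.mem_fixingSubgroup_iff K₁ τ).mp hτ ζ hζK
  -- every element of `G_{K₁}` multiplies `α` by a power of `ζ`
  have hpow : ∀ τ ∈ K₁.fixingSubgroup, ∃ k < p, τ α = ζ ^ k * α := by
    intro τ hτ
    have hτα : τ (α ^ p) = α ^ p := (IntermediateField.mem_fixingSubgroup_iff K₁ τ).mp hτ _ hαp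
    have h2 : (τ α / α) ^ p = 1 := by
      rw [div_pow, ← map_pow, hτα]
      exact div_self (pow_ne_zero _ hα0)
    obtain ⟨k, hkp, hk⟩ := hζ.eq_pow_of_pow_eq_one h2
    exact ⟨k, hkp, by rw [hk, div_mul_cancel₀ _ hα0]⟩
  -- `α ∉ K₁`
  have hαK : α ∉ K₁ := fun h => hcon ⟨α, h, hα0, rfl⟩
  -- the Kummer automorphism `σ₁`
  have h1 : ∃ τ ∈ K₁.fixingSubgroup, τ α ≠ α := by
    by_contra hcon2
    push Not at hcon2
    apply hαK
    rw [← InfiniteGalois.fixedField_fixingSubgroup K₁, IntermediateField.mem_fixedField_iff]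
    exact hcon2
  obtain ⟨τ, hτK, hτα⟩ := h1
  obtain ⟨k, hkp, hτα'⟩ := hpow τ hτK
  have hk0 : k ≠ 0 := by
    rintro rfl
    apply hτα
    rw [hτα', pow_zero, one_mul]
  have hcop : Nat.Coprime k p :=
    (Nat.coprime_comm.mp ((Nat.Prime.coprime_iff_not_dvd hp).mpr
      (Nat.not_dvd_of_pos_of_lt (Nat.pos_of_ne_zero hk0) hkp)))
  obtain ⟨j, -, hj⟩ := Nat.exists_mul_mod_eq_one_of_coprime hcop hp.one_lt
  obtain ⟨σ₁, hσK, hσζ, hσα⟩ : ∃ σ₁ : GQ, σ₁ ∈ K₁.fixingSubgroup ∧ σ₁ ζ = ζ ∧ σ₁ α = ζ * α := by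
    refine ⟨τ ^ j, pow_mem hτK j, pow_apply_of_fix (hfixζ τ hτK) j, ?_⟩
    rw [pow_apply_of_mul (hfixζ τ hτK) hτα' j]
    congr 1
    have h3 : ζ ^ (k * j) = ζ ^ (k * j % p) := by
      conv_lhs => rw [← Nat.div_add_mod (k * j) p, pow_add, pow_mul, hζp, one_pow, one_mul]
    rw [h3, hj, pow_one]
  have hσpow : ∀ m : ℕ, (σ₁ ^ m) α = ζ ^ m * α := by
    intro m
    have := pow_apply_of_mul (k := 1) hσζ (by rw [pow_one]; exact hσα) m
    rwa [one_mul] at this
  have hσpowK : ∀ m : ℕ, σ₁ ^ m ∈ K₁.fixingSubgroup := fun m => pow_mem hσK m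
  set N := kumStab K₁ α with hNdef
  have hN : IsOpen (N : Set GQ) := isOpen_kumStab K₁ α
  have hconj : ∀ m : ℕ, ∀ n ∈ N, σ₁ ^ m * n * (σ₁ ^ m)⁻¹ ∈ N ∧ (σ₁ ^ m)⁻¹ * n * σ₁ ^ m ∈ N :=
    fun m n hn => conj_mem_kumStab (hσpowK m) (pow_mem hζK m) (pow_ne_zero _ hζ0) (hσpow m) hn
  have hσpN : σ₁ ^ p ∈ N := by
    rw [hNdef, mem_kumStab]
    exact ⟨hσpowK p, by rw [hσpow, hζp, one_mul]⟩
  -- an element fixed by `σ₁` and `N` lies in `K₁`
  have hmemK : ∀ x : Qb, σ₁ x = x → (∀ n ∈ N, n x = x) → x ∈ K₁ := by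
    intro x hx hxN
    rw [← InfiniteGalois.fixedField_fixingSubgroup K₁, IntermediateField.mem_fixedField_iff]
    intro τ' hτ'
    obtain ⟨k', -, hk'⟩ := hpow τ' hτ'
    have hn : (σ₁ ^ k')⁻¹ * τ' ∈ N := by
      rw [hNdef, mem_kumStab]
      refine ⟨mul_mem (inv_mem (hσpowK k')) hτ', ?_⟩
      show (σ₁ ^ k')⁻¹ (τ' α) = α
      rw [hk']
      exact inv_apply_of_apply (hσpow k')
    have e : τ' = σ₁ ^ k' * ((σ₁ ^ k')⁻¹ * τ') := by group
    rw [e, AlgEquiv.mul_apply, hxN _ hn, pow_apply_of_fix hx k']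
  have hgI : ∀ s : Zb, (∀ n ∈ N, n • s = s) → σ₁ • s - s ∈ helper54.primeOfValuationSubring A := by
    intro s hs
    rw [helper54.mem_primeOfValuationSubring, ValuationSubring.mem_nonunits_iff]
    set γ : Qb := (s : Qb) with hγ
    have hcoe : ((σ₁ • s - s : Zb) : Qb) = σ₁ γ - γ := rfl
    rw [hcoe]
    have hγN : ∀ n ∈ N, n γ = γ := fun n hn => congrArg Subtype.val (hs n hn)
    have hγp : (σ₁ ^ p) γ = γ := hγN _ hσpN
    have hR1 := fun j => map_resolvent hp.pos hζp hσζ hγp j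
    have hR2 := sum_resolvent hp hζ σ₁ γ
    have hR3 : ∀ j, ∀ n ∈ N, n (resolvent p ζ σ₁ γ j) = resolvent p ζ σ₁ γ j := by
      intro j n hn
      unfold Fermat.Agent.S14.helper662.resolvent
      rw [map_sum]
      refine Finset.sum_congr rfl (fun i _ => ?_)
      have hnζ : n ζ = ζ := hfixζ n (mem_kumStab.mp hn).1
      rw [map_mul, map_pow, hnζ]
      congr 1
      have hn' : (σ₁ ^ i)⁻¹ * n * σ₁ ^ i ∈ N := (hconj i n hn).2
      have hg : σ₁ ^ i * ((σ₁ ^ i)⁻¹ * n * σ₁ ^ i) = n * σ₁ ^ i := by group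
      calc n ((σ₁ ^ i) γ) = (n * σ₁ ^ i) γ := rfl
        _ = (σ₁ ^ i * ((σ₁ ^ i)⁻¹ * n * σ₁ ^ i)) γ := by rw [hg]
        _ = (σ₁ ^ i) (((σ₁ ^ i)⁻¹ * n * σ₁ ^ i) γ) := rfl
        _ = (σ₁ ^ i) γ := by rw [hγN _ hn']
    have hRint : ∀ j, IsIntegral ℤ (resolvent p ζ σ₁ γ j) := by
      intro j
      unfold Fermat.Agent.S14.helper662.resolvent
      refine IsIntegral.sum _ (fun i _ => (hζi.pow _).mul ?_)
      exact ((σ₁ ^ i) • s : Zb).2
    have hRlt : ∀ j, 0 < j → j < p → A.valuation (resolvent p ζ σ₁ γ j) < 1 := by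
      intro j hj0 hjp
      by_cases hR0 : resolvent p ζ σ₁ γ j = 0
      · rw [hR0, map_zero]
        exact zero_lt_one
      · by_contra hlt
        have hv1 : A.valuation (resolvent p ζ σ₁ γ j) = 1 :=
          le_antisymm (valuation_le_one_of_isIntegral A (hRint j)) (not_lt.mp hlt)
        have e : ζ ^ (j * (p - 1)) * ζ ^ j = 1 := by
          rw [← pow_add]
          have : j * (p - 1) + j = p * j := by
            obtain ⟨q, rfl⟩ : ∃ q, p = q + 1 := ⟨p - 1, (Nat.succ_pred_eq_of_pos hp.pos).symm⟩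
            simp only [Nat.add_sub_cancel]
            ring
          rw [this, pow_mul, hζp, one_pow]
        have hc : resolvent p ζ σ₁ γ j * α ^ j ∈ K₁ := by
          apply hmemK
          · rw [map_mul, map_pow, hR1, hσα, mul_pow]
            linear_combination (resolvent p ζ σ₁ γ j * α ^ j) * e
          · intro n hn
            rw [map_mul, map_pow, hR3 j n hn, (mem_kumStab.mp hn).2]
        have hc0 : resolvent p ζ σ₁ γ j * α ^ j ≠ 0 := mul_ne_zero hR0 (pow_ne_zero _ hα0)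
        have hv : A.valuation α ^ j = A.valuation (resolvent p ζ σ₁ γ j * α ^ j) := by
          rw [map_mul, map_pow, hv1, one_mul]
        exact hcon (exists_valuation_eq_of_pow hp K₁ hα0 hαp A hj0 hjp hc hc0 hv)
    have e1 : (p : Qb) * (σ₁ γ - γ) =
        ∑ j ∈ Finset.range p, (ζ ^ (j * (p - 1)) - 1) * resolvent p ζ σ₁ γ j := by
      have e2 : σ₁ ((p : Qb) * γ) = (p : Qb) * σ₁ γ := by rw [map_mul, map_natCast]
      rw [mul_sub, ← e2, ← hR2, map_sum, ← Finset.sum_sub_distrib]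
      refine Finset.sum_congr rfl (fun j _ => ?_)
      rw [hR1]
      ring
    have e3 : A.valuation ((p : Qb) * (σ₁ γ - γ)) < 1 := by
      rw [e1]
      refine Valuation.map_sum_lt _ one_ne_zero (fun j hj => ?_)
      rcases Nat.eq_zero_or_pos j with rfl | hj0
      · simp
      · rw [map_mul]
        calc A.valuation (ζ ^ (j * (p - 1)) - 1) * A.valuation (resolvent p ζ σ₁ γ j)
            ≤ 1 * A.valuation (resolvent p ζ σ₁ γ j) := by
              gcongr
              exact valuation_le_one_of_isIntegral A ((hζi.pow _).sub isIntegral_one)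
          _ = A.valuation (resolvent p ζ σ₁ γ j) := one_mul _
          _ < 1 := hRlt j hj0 (Finset.mem_range.mp hj)
    have e4 : A.valuation (p : Qb) = 1 :=
      valuation_natCast_eq_one hℓ hA (fun hd => hℓp ((Nat.prime_dvd_prime_iff_eq hℓ hp).mp hd))
    rwa [map_mul, e4, one_mul] at e3
  have hc1 := hconj 1
  simp only [pow_one] at hc1
  obtain ⟨n, hnN, hnI⟩ := exists_mul_mem_inertia N hN hℓ A hA σ₁ (fun n hn => (hc1 n hn).1)
    (fun n hn => (hc1 n hn).2) hgI
  rw [hNdef, mem_kumStab] at hnN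
  have h5 := hunr _ hnI (mul_mem hnN.1 hσK)
  have h6 : (n * σ₁) α = ζ * α := by
    show n (σ₁ α) = ζ * α
    rw [hσα, map_mul, hfixζ n hnN.1, hnN.2]
  rw [h6] at h5
  have h7 : (ζ - 1) * α = 0 := by rw [sub_mul, one_mul, h5, sub_self]
  rcases mul_eq_zero.mp h7 with h8 | h8
  · exact hζ.ne_one hp.one_lt (sub_eq_zero.mp h8)
  · exact hα0 h8

end local_lemma

/-! ## Part 3: the global Kummer argument -/

section global

open scoped NumberField
open IsDedekindDomain

attribute [local instance] helper54.numberField_intermediate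

/-- **Characters separate points of a finite abelian quotient of exponent `p`.** -/
theorem exists_char_of_not_mem {G : Type*} [Group G] (V : Subgroup G) (M : Type*) [CommMonoid M]
    (p : ℕ) [NeZero p] [HasEnoughRootsOfUnity M p] (hfin : V.FiniteIndex)
    (hcomm : ∀ a b : G, a * b * a⁻¹ * b⁻¹ ∈ V) (hexp : ∀ a : G, a ^ p ∈ V)
    {s : G} (hs : s ∉ V) :
    ∃ χ : G →* Mˣ, (∀ v ∈ V, χ v = 1) ∧ χ s ≠ 1 := by
  have hnormal : V.Normal := by
    refine ⟨fun n hn g => ?_⟩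
    have h1 := hcomm g n
    have h2 : g * n * g⁻¹ = g * n * g⁻¹ * n⁻¹ * n := by group
    rw [h2]
    exact V.mul_mem h1 hn
  let _ : CommGroup (G ⧸ V) :=
    { QuotientGroup.Quotient.group V with
      mul_comm := by
        intro x y
        obtain ⟨a, rfl⟩ := QuotientGroup.mk_surjective x
        obtain ⟨b, rfl⟩ := QuotientGroup.mk_surjective y
        rw [← QuotientGroup.mk_mul, ← QuotientGroup.mk_mul, QuotientGroup.eq]
        have h1 := hcomm b⁻¹ a⁻¹
        have h2 : (a * b)⁻¹ * (b * a) = b⁻¹ * a⁻¹ * b⁻¹⁻¹ * a⁻¹⁻¹ := by group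
        rw [h2]
        exact h1 }
  have : Finite (G ⧸ V) := Subgroup.finite_quotient_of_finiteIndex
  have hdvd : Monoid.exponent (G ⧸ V) ∣ p := by
    apply Monoid.exponent_dvd_of_forall_pow_eq_one
    intro x
    obtain ⟨a, rfl⟩ := QuotientGroup.mk_surjective x
    rw [← QuotientGroup.mk_pow, QuotientGroup.eq_one_iff]
    exact hexp a
  have : HasEnoughRootsOfUnity M (Monoid.exponent (G ⧸ V)) := HasEnoughRootsOfUnity.of_dvd M hdvd
  have hne : (QuotientGroup.mk s : G ⧸ V) ≠ 1 := by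
    rw [Ne, QuotientGroup.eq_one_iff]
    exact hs
  obtain ⟨φ, hφ⟩ := CommGroup.exists_apply_ne_one_of_hasEnoughRootsOfUnity (G ⧸ V) M hne
  refine ⟨φ.comp (QuotientGroup.mk' V), fun v hv => ?_, hφ⟩
  show φ (QuotientGroup.mk v) = 1
  rw [(QuotientGroup.eq_one_iff v).mpr hv, map_one]

/-- **Finiteness of the Kummer group modulo `p`-th powers**, in the form of a finite set of
`p`-th roots of representatives. -/
theorem exists_finite_roots (K₁ : IntermediateField ℚ Qb) [FiniteDimensional ℚ K₁]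
    (S : Finset Nat.Primes) {p : ℕ} (hp : p.Prime) {ζ : Qb} (hζ : IsPrimitiveRoot ζ p)
    (hζK : ζ ∈ K₁) :
    ∃ T : Set Qb, T.Finite ∧ ∀ a : K₁ˣ,
      a ∈ Fermat.Agent.S55.helper9292.kumS (𝓞 K₁) K₁
        (Fermat.Agent.S55.helper9292.SF K₁ S : Set (HeightOneSpectrum (𝓞 K₁))) p →
      ∃ r ∈ T, ∃ b : K₁ˣ, ((a : K₁) : Qb) = r ^ p * ((b : K₁) : Qb) ^ p := by
  classical
  have : Fact p.Prime := ⟨hp⟩
  have hζ' : IsPrimitiveRoot (⟨ζ, hζK⟩ : K₁) p :=
    IsPrimitiveRoot.of_map_of_injective (f := algebraMap K₁ Qb) hζ (algebraMap K₁ Qb).injective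
  set Kum := Fermat.Agent.S55.helper9292.kumS (𝓞 K₁) K₁
        (Fermat.Agent.S55.helper9292.SF K₁ S : Set (HeightOneSpectrum (𝓞 K₁))) p with hKum
  have hidx : (Fermat.Agent.S55.helper9292.powSub K₁ˣ p).relIndex Kum ≠ 0 := by
    rw [hKum, Fermat.Agent.S55.helper9292.relIndex_powSub_kumS_numberField _ hp.ne_zero hζ',
      Fermat.Agent.S55.helper9292.clSModCard_eq_pow]
    exact mul_ne_zero (pow_ne_zero _ hp.ne_zero) (pow_ne_zero _ hp.ne_zero)
  have hFI : ((Fermat.Agent.S55.helper9292.powSub K₁ˣ p).subgroupOf Kum).FiniteIndex := ⟨hidx⟩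
  have : Finite (↥Kum ⧸ (Fermat.Agent.S55.helper9292.powSub K₁ˣ p).subgroupOf Kum) :=
    Subgroup.finite_quotient_of_finiteIndex
  have hroot : ∀ q : ↥Kum ⧸ (Fermat.Agent.S55.helper9292.powSub K₁ˣ p).subgroupOf Kum,
      ∃ z : Qb, z ^ p = ((((q.out : ↥Kum) : K₁ˣ) : K₁) : Qb) :=
    fun q => IsAlgClosed.exists_pow_nat_eq _ hp.pos
  choose r hr using hroot
  refine ⟨Set.range r, Set.finite_range r, fun a ha => ?_⟩
  set q : ↥Kum ⧸ (Fermat.Agent.S55.helper9292.powSub K₁ˣ p).subgroupOf Kum :=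
    QuotientGroup.mk ⟨a, ha⟩ with hq
  have h1 : (QuotientGroup.mk q.out : ↥Kum ⧸ _) = QuotientGroup.mk ⟨a, ha⟩ :=
    QuotientGroup.out_eq' q
  rw [QuotientGroup.eq, Subgroup.mem_subgroupOf, Fermat.Agent.S55.helper9292.mem_powSub] at h1
  obtain ⟨b, hb⟩ := h1
  refine ⟨r q, Set.mem_range_self q, b, ?_⟩
  rw [hr q]
  have h2 : a = ((q.out : ↥Kum) : K₁ˣ) * b ^ p := by
    rw [hb]
    simp
  conv_lhs => rw [h2]
  push_cast
  rfl

/-- **Finiteness of the maximal abelian extension of exponent `p` unramified outside `M`.** -/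
theorem expUnramifiedBound (p M : ℕ) (hp : p.Prime) (hM : M ≠ 0) :
    Fermat.Agent.S17.helper9541.ExpUnramifiedBound p M := by
  classical
  intro K hKfin
  have : NeZero p := ⟨hp.ne_zero⟩
  obtain ⟨ζ, hζ⟩ := HasEnoughRootsOfUnity.exists_primitiveRoot Qb p
  have hζi : IsIntegral ℚ ζ := Algebra.IsIntegral.isIntegral ζ
  have hζfin : FiniteDimensional ℚ (IntermediateField.adjoin ℚ ({ζ} : Set Qb)) :=
    IntermediateField.adjoin.finiteDimensional hζi
  set K₁ : IntermediateField ℚ Qb := K ⊔ IntermediateField.adjoin ℚ ({ζ} : Set Qb) with hK₁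
  have hK₁fin : FiniteDimensional ℚ K₁ := IntermediateField.finiteDimensional_sup K _
  have hKK₁ : K ≤ K₁ := le_sup_left
  have hζK : ζ ∈ K₁ :=
    (le_sup_right : IntermediateField.adjoin ℚ ({ζ} : Set Qb) ≤ K₁)
      (IntermediateField.mem_adjoin_simple_self ℚ ζ)
  -- the set of bad primes
  have hpM : p * M ≠ 0 := mul_ne_zero hp.ne_zero hM
  set S : Finset Nat.Primes := (p * M).primeFactors.subtype Nat.Prime with hS
  have hSmem : ∀ q : Nat.Primes, q ∉ S → ¬ (q : ℕ) ∣ p * M := by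
    intro q hq hdvd
    apply hq
    rw [hS]
    exact Finset.mem_subtype.mpr (Nat.mem_primeFactors.mpr ⟨q.2, hdvd, hpM⟩)
  obtain ⟨T, hTfin, hT⟩ := exists_finite_roots K₁ S hp hζ hζK
  have : Finite T := hTfin.to_subtype
  have hTadj : FiniteDimensional ℚ (IntermediateField.adjoin ℚ T) :=
    IntermediateField.finiteDimensional_adjoin (fun z _ => Algebra.IsIntegral.isIntegral z)
  refine ⟨K₁ ⊔ IntermediateField.adjoin ℚ T, IntermediateField.finiteDimensional_sup _ _, ?_⟩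
  rintro U ⟨L', hL'fin, hL'U⟩ hcomm hexp hunr σ ⟨hσL, hσK⟩
  by_contra hσU
  -- the character
  have hle : K₁.fixingSubgroup ≤ K.fixingSubgroup := IntermediateField.fixingSubgroup_antitone hKK₁
  have hUfin : U.FiniteIndex := by
    have hidx : L'.fixingSubgroup.index ≠ 0 := by
      rw [← IntermediateField.finrank_eq_fixingSubgroup_index]
      exact Module.finrank_pos.ne'
    have : L'.fixingSubgroup.FiniteIndex := ⟨hidx⟩
    exact Subgroup.finiteIndex_of_le hL'U
  have hVfin : (U.subgroupOf K.fixingSubgroup).FiniteIndex := inferInstance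
  obtain ⟨χ, hχV, hχσ⟩ := exists_char_of_not_mem (U.subgroupOf K.fixingSubgroup) Qb p hVfin
    (fun a b => by
      rw [Subgroup.mem_subgroupOf]
      exact hcomm a a.2 b b.2)
    (fun a => by
      rw [Subgroup.mem_subgroupOf, Subgroup.coe_pow]
      exact hexp a a.2)
    (s := ⟨σ, hσK⟩) (by
      rw [Subgroup.mem_subgroupOf]
      exact hσU)
  have hχU : ∀ (g : GQ) (hg : g ∈ K.fixingSubgroup), g ∈ U → χ ⟨g, hg⟩ = 1 := by
    intro g hg hgU
    apply hχV
    rw [Subgroup.mem_subgroupOf]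
    exact hgU
  have hχp : ∀ g : K.fixingSubgroup, χ g ^ p = 1 := by
    intro g
    rw [← map_pow]
    apply hχV
    rw [Subgroup.mem_subgroupOf, Subgroup.coe_pow]
    exact hexp g g.2
  have hχK : ∀ g : K.fixingSubgroup, ((χ g : Qbˣ) : Qb) ∈ K₁ := by
    intro g
    have h1 : ((χ g : Qbˣ) : Qb) ^ p = 1 := by
      rw [← Units.val_pow_eq_pow_val, hχp]
      rfl
    obtain ⟨i, -, hi⟩ := hζ.eq_pow_of_pow_eq_one h1
    rw [← hi]
    exact pow_mem hζK i
  -- transport to `Gal(ℚ̄/K₁)` and Hilbert 90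
  let e : K₁.fixingSubgroup ≃* (Qb ≃ₐ[K₁] Qb) := IntermediateField.fixingSubgroupEquiv K₁
  have he : ∀ (g : K₁.fixingSubgroup) (x : Qb), e g x = (g : GQ) x := fun g x => rfl
  let c : (Qb ≃ₐ[K₁] Qb) →* Qbˣ := (χ.comp (Subgroup.inclusion hle)).comp e.symm.toMonoidHom
  have hcdef : ∀ g, c g = χ (Subgroup.inclusion hle (e.symm g)) := fun g => rfl
  have hc : ∀ g k, c (g * k) = c g * Units.map (g : Qb →* Qb) (c k) := by
    intro g k
    rw [map_mul]
    congr 1
    apply Units.ext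
    rw [Units.coe_map]
    have hmem : ((c k : Qbˣ) : Qb) ∈ K₁ := hχK _
    exact (g.commutes ⟨_, hmem⟩).symm
  set L₀ : IntermediateField ℚ Qb := L' ⊔ K₁ with hL₀
  have hL₀fin : FiniteDimensional ℚ L₀ := IntermediateField.finiteDimensional_sup L' K₁
  let L'' : IntermediateField K₁ Qb := IntermediateField.extendScalars (le_sup_right : K₁ ≤ L₀)
  have hL''fin : FiniteDimensional K₁ L'' := by
    have e1 : L₀ ≃ₗ[ℚ] L'' :=
      { toFun := fun x => ⟨x.1, x.2⟩
        invFun := fun x => ⟨x.1, x.2⟩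
        map_add' := fun _ _ => rfl
        map_smul' := fun _ _ => rfl
        left_inv := fun _ => rfl
        right_inv := fun _ => rfl }
    have : Module.Finite ℚ L'' := Module.Finite.equiv e1
    exact Module.Finite.of_restrictScalars_finite ℚ K₁ L''
  have hcL : ∀ g, ∀ u ∈ L''.fixingSubgroup, c (g * u) = c g := by
    intro g u hu
    rw [map_mul]
    have hu1 : c u = 1 := by
      rw [hcdef]
      apply hχV
      rw [Subgroup.mem_subgroupOf]
      apply hL'U
      rw [IntermediateField.mem_fixingSubgroup_iff]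
      intro x hx
      rw [IntermediateField.mem_fixingSubgroup_iff] at hu
      exact hu x ((le_sup_left : L' ≤ L₀) hx)
    rw [hu1, mul_one]
  obtain ⟨b, hb⟩ := Fermat.Agent.S55.helper6119.hilbert90_level c hc L'' hcL
  set α : Qb := (b : Qb) with hα
  have hα0 : α ≠ 0 := b.ne_zero
  have hact : ∀ (g : GQ) (hg : g ∈ K₁.fixingSubgroup),
      g α = ((χ ⟨g, hle hg⟩ : Qbˣ) : Qb) * α := by
    intro g hg
    have h1 := hb (e ⟨g, hg⟩)
    have h2 : c (e ⟨g, hg⟩) = χ ⟨g, hle hg⟩ := by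
      rw [hcdef, MulEquiv.symm_apply_apply]
      rfl
    rw [h2] at h1
    have h3 := congrArg Units.val h1
    rw [Units.val_div_eq_div_val, Units.coe_map, MonoidHom.coe_coe, eq_div_iff b.ne_zero] at h3
    exact h3.symm
  have hαp : α ^ p ∈ K₁ := by
    rw [← InfiniteGalois.fixedField_fixingSubgroup K₁, IntermediateField.mem_fixedField_iff]
    intro g hg
    rw [map_pow, hact g hg, mul_pow, ← Units.val_pow_eq_pow_val, hχp, Units.val_one, one_mul]
  -- `α ^ p` lies in the Kummer group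
  have ha0 : (⟨α ^ p, hαp⟩ : K₁) ≠ 0 := by
    intro h
    exact pow_ne_zero p hα0 (congrArg Subtype.val h)
  have haKum : Units.mk0 (⟨α ^ p, hαp⟩ : K₁) ha0 ∈ Fermat.Agent.S55.helper9292.kumS (𝓞 K₁) K₁
      (Fermat.Agent.S55.helper9292.SF K₁ S : Set (HeightOneSpectrum (𝓞 K₁))) p := by
    rw [Fermat.Agent.S55.helper9292.mem_kumS_SF_iff]
    intro q hq A hA
    have hqpM := hSmem q hq
    have hqp : (q : ℕ) ≠ p := by
      intro h
      exact hqpM (h ▸ dvd_mul_right _ _)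
    have hqM : ¬ (q : ℕ) ∣ M := fun h => hqpM (dvd_mul_of_dvd_right h p)
    obtain ⟨y, hyK, hy0, hval⟩ := exists_valuation_eq_of_inertia_fixed hp q.2 hqp K₁ hζ hζK hα0
      hαp A hA (by
        intro τ hτI hτK
        have hτU : τ ∈ U := hunr q q.2 hqM A hA τ hτI (hle hτK)
        rw [hact τ hτK, hχU τ (hle hτK) hτU, Units.val_one, one_mul])
    have hy0' : (⟨y, hyK⟩ : K₁) ≠ 0 := by
      intro h
      exact hy0 (congrArg Subtype.val h)
    refine ⟨Units.mk0 ⟨y, hyK⟩ hy0', ?_⟩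
    show A.valuation (α ^ p / y ^ p) = 1
    rw [map_div₀, map_pow, map_pow, hval,
      div_self (pow_ne_zero _ ((Valuation.ne_zero_iff _).mpr hy0))]
  obtain ⟨r, hrT, b₁, hab⟩ := hT _ haKum
  -- hence `α ∈ L`
  have hαL : α ∈ K₁ ⊔ IntermediateField.adjoin ℚ T := by
    have hab' : α ^ p = r ^ p * ((b₁ : K₁) : Qb) ^ p := hab
    have hrb : r * ((b₁ : K₁) : Qb) ≠ 0 := by
      intro h
      apply pow_ne_zero p hα0
      rw [hab', ← mul_pow, h, zero_pow hp.ne_zero]
    have h1 : (α / (r * ((b₁ : K₁) : Qb))) ^ p = 1 := by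
      rw [div_pow, mul_pow, ← hab']
      exact div_self (pow_ne_zero _ hα0)
    obtain ⟨i, -, hi⟩ := hζ.eq_pow_of_pow_eq_one h1
    have h2 : α = ζ ^ i * (r * ((b₁ : K₁) : Qb)) := by
      rw [hi, div_mul_cancel₀ _ hrb]
    rw [h2]
    exact mul_mem (pow_mem ((le_sup_left : K₁ ≤ K₁ ⊔ IntermediateField.adjoin ℚ T) hζK) i)
      (mul_mem ((le_sup_right : IntermediateField.adjoin ℚ T ≤ K₁ ⊔ IntermediateField.adjoin ℚ T)
          (IntermediateField.subset_adjoin ℚ T hrT))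
        ((le_sup_left : K₁ ≤ K₁ ⊔ IntermediateField.adjoin ℚ T) (b₁ : K₁).2))
  -- conclusion
  have hσK₁ : σ ∈ K₁.fixingSubgroup := IntermediateField.fixingSubgroup_antitone le_sup_left hσL
  have h1 := hact σ hσK₁
  have h2 : σ α = α := (IntermediateField.mem_fixingSubgroup_iff _ σ).mp hσL α hαL
  rw [h2] at h1
  have h3 : ((χ ⟨σ, hle hσK₁⟩ : Qbˣ) : Qb) = 1 :=
    mul_right_cancel₀ hα0 (h1.symm.trans (one_mul α).symm)
  exact hχσ (Units.ext h3)

end global

end Fermat.Agent.S17.helper1026
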