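import Fermat.Agent.Lib.helper1080_HeightCramer
import Fermat.Agent.Lib.helper927_AbsHeight
import Fermat.Agent.Lib.helper1256_AbsHeightApi

/-!
# S17-U, height side: the flip height inequality (abstract form)

Everything here is about tuples of elements of a field `Ω` of characteristic zero which is
algebraic over `ℚ` (e.g. `AlgebraicClosure ℚ`), with the absolute logarithmic heights
`absLogHeight` / `affLogHeight` of `helper927_AbsHeight`.

* `absLogHeight_cramerVec_le`, `exists_ker_absLogHeight_le`, `absLogHeight_le_of_ker_line` :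
  absolute forms of the Cramer bounds of `helper1080_HeightCramer`.
* `absLogHeight_le_of_span_line` : a vector spanning the line
  `span (v s) ∩ {c | c k = 0 for k ∈ T}` has height bounded by the heights of the `v s`.
* `affLogHeight_eval_le` : crude height bound for the value of a polynomial at an affine point.
* `sum_affLogHeight_le_absLogHeight_coeff` : roots versus coefficients (multiset form of
  `helper1256.abs_sum_affLogHeight_sub_absLogHeight_coeff_le`).
* `flip_height_bound` : the flip height inequality.
-/

namespace Fermat.Agent.S17.helper1080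

open Matrix Function
open Fermat.Agent.Lib.helper1080
open Fermat.Agent.Lib.helper927

section AbsCramer

variable {Ω : Type*} [Field Ω] [CharZero Ω] [Algebra.IsAlgebraic ℚ Ω]
variable {m n : Type*} [Fintype n] [DecidableEq n]

/-- Logarithmic form of `mulHeight_cramerVec_le`. -/
theorem logHeight_cramerVec_le {K : Type*} [Field K] [Height.AdmissibleAbsValues K] {ρ : ℕ}
    (M : Matrix m n K) (r : Fin ρ → m) {c : Fin (ρ + 1) → n} (hc : Injective c) :
    Height.logHeight (cramerVec M r c) ≤
      Height.totalWeight K * Real.log ρ.factorial + ∑ i, Height.logHeight (affVec (M (r i))) := by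
  have hle := mulHeight_cramerVec_le M r hc
  have hfac : (ρ.factorial : ℝ) ≠ 0 := Nat.cast_ne_zero.mpr (Nat.factorial_ne_zero _)
  have hprod : ∏ i, Height.mulHeight (affVec (M (r i))) ≠ 0 :=
    Finset.prod_ne_zero_iff.mpr fun i _ => Height.mulHeight_ne_zero _
  have := Real.log_le_log (Height.mulHeight_pos (cramerVec M r c)) hle
  rw [Real.log_mul (pow_ne_zero _ hfac) hprod, Real.log_pow,
    Real.log_prod fun i _ => Height.mulHeight_ne_zero _] at this
  simpa [Height.logHeight_eq_log_mulHeight] using this

/-- **Absolute height of a Cramer vector.** -/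
theorem absLogHeight_cramerVec_le {ρ : ℕ} (M : Matrix m n Ω) (r : Fin ρ → m)
    {c : Fin (ρ + 1) → n} (hc : Injective c) :
    absLogHeight (cramerVec M r c) ≤
      Real.log ρ.factorial + ∑ i, absLogHeight (affVec (M (r i))) := by
  classical
  obtain ⟨F, hF, hs⟩ := exists_numberField_le (Set.range fun q : Fin ρ × n => M (r q.1) q.2)
    (Set.finite_range _)
  have hM : ∀ i x, M (r i) x ∈ F := fun i x => hs ⟨(i, x), rfl⟩
  let M' : Matrix (Fin ρ) n F := fun i x => ⟨M (r i) x, hM i x⟩
  have hcr : ∀ x, ((cramerVec M' id c x : F) : Ω) = cramerVec M r c x := by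
    intro x
    unfold cramerVec
    rw [AddSubmonoidClass.coe_finsetSum]
    refine Finset.sum_congr rfl fun j _ => ?_
    split_ifs with hj
    · have hdet : ((det (M'.submatrix id (c ∘ j.succAbove)) : F) : Ω) =
          det (M.submatrix r (c ∘ j.succAbove)) := by
        have h1 := RingHom.map_det (algebraMap F Ω) (M'.submatrix id (c ∘ j.succAbove))
        have h2 : (algebraMap F Ω).mapMatrix (M'.submatrix id (c ∘ j.succAbove)) =
            M.submatrix r (c ∘ j.succAbove) := by
          ext i k
          rfl
        rw [h2] at h1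
        exact h1
      push_cast
      rw [hdet]
    · rfl
  have h1 : absLogHeight (cramerVec M r c) =
      Height.logHeight (cramerVec M' id c) / Module.finrank ℚ F := by
    rw [← absLogHeight_coe F (cramerVec M' id c)]
    congr 1
    funext x
    exact (hcr x).symm
  have h2 : ∀ i, absLogHeight (affVec (M (r i))) =
      Height.logHeight (affVec (M' i)) / Module.finrank ℚ F := by
    intro i
    rw [← absLogHeight_coe F (affVec (M' i))]
    congr 1
    funext o
    cases o with
    | none => simp
    | some x => rfl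
  have hd := finrank_rat_pos F
  have key := logHeight_cramerVec_le M' id hc
  rw [NumberField.totalWeight_eq_finrank] at key
  rw [h1, Finset.sum_congr rfl fun i _ => h2 i, ← Finset.sum_div, div_le_iff₀ hd]
  calc Height.logHeight (cramerVec M' id c) ≤ _ := key
    _ = _ := by
      simp only [id]
      field_simp

/-- **Small kernel vector, absolute form**: a matrix over `Ω` with a nontrivial kernel has a
nonzero kernel vector of absolute height at most `log (#rows)!` plus the sum of the affine
absolute heights of the rows. -/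
theorem exists_ker_absLogHeight_le [Fintype m] (M : Matrix m n Ω)
    (h : ∃ v : n → Ω, v ≠ 0 ∧ M *ᵥ v = 0) :
    ∃ w : n → Ω, w ≠ 0 ∧ M *ᵥ w = 0 ∧
      absLogHeight w ≤ Real.log (Fintype.card m).factorial +
        ∑ i, absLogHeight (affVec (M i)) := by
  classical
  obtain ⟨ρ, r, c, hr, hc, hne, hker⟩ := exists_cramerVec_of_ker M h
  refine ⟨_, hne, hker, (absLogHeight_cramerVec_le M r hc).trans ?_⟩
  have hρ : ρ ≤ Fintype.card m := by simpa using Fintype.card_le_of_injective r hr
  have h1 : Real.log (ρ.factorial : ℝ) ≤ Real.log ((Fintype.card m).factorial : ℝ) :=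
    Real.log_le_log (by exact_mod_cast Nat.factorial_pos ρ)
      (by exact_mod_cast Nat.factorial_le hρ)
  have h2 : ∑ i, absLogHeight (affVec (M (r i))) ≤ ∑ i, absLogHeight (affVec (M i)) := by
    calc ∑ i, absLogHeight (affVec (M (r i)))
        = ∑ x ∈ Finset.univ.image r, absLogHeight (affVec (M x)) :=
          (Finset.sum_image (f := fun x => absLogHeight (affVec (M x)))
            (fun _ _ _ _ hxy => hr hxy)).symm
      _ ≤ ∑ x, absLogHeight (affVec (M x)) :=
          Finset.sum_le_sum_of_subset_of_nonneg (Finset.subset_univ _)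
            fun i _ _ => absLogHeight_nonneg _
  linarith

/-- If the kernel of `M` is a line, every nonzero kernel vector obeys the bound of
`exists_ker_absLogHeight_le`. -/
theorem absLogHeight_le_of_ker_line [Fintype m] (M : Matrix m n Ω) {w : n → Ω} (hw0 : w ≠ 0)
    (hw : M *ᵥ w = 0) (hline : ∀ w' : n → Ω, M *ᵥ w' = 0 → ∃ a : Ω, w' = a • w) :
    absLogHeight w ≤ Real.log (Fintype.card m).factorial +
      ∑ i, absLogHeight (affVec (M i)) := by
  obtain ⟨w', hw'0, hw', hle⟩ := exists_ker_absLogHeight_le M ⟨w, hw0, hw⟩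
  obtain ⟨a, rfl⟩ := hline w' hw'
  have ha : a ≠ 0 := by
    rintro rfl
    exact hw'0 (zero_smul _ _)
  rwa [absLogHeight_smul w ha] at hle

end AbsCramer

section SpanLine

variable {Ω : Type*} [Field Ω] [CharZero Ω] [Algebra.IsAlgebraic ℚ Ω]
variable {S V : Type*} [Fintype S] [Fintype V]

/-- **Height of the generator of a line cut out of a span by coordinate conditions.**
Let `v s` (`s : S`) be vectors of `V → Ω`, `T` a set of coordinates, and `c ≠ 0` a vector in
the span of the `v s` whose coordinates in `T` vanish, unique up to a scalar with these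
properties. Then the absolute height of `c` is bounded by the heights of the `v s`. -/
theorem absLogHeight_le_of_span_line (v : S → V → Ω) (T : Finset V) {c : V → Ω} (hc0 : c ≠ 0)
    (hspan : c ∈ Submodule.span Ω (Set.range v)) (hT : ∀ k ∈ T, c k = 0)
    (huniq : ∀ c' ∈ Submodule.span Ω (Set.range v), (∀ k ∈ T, c' k = 0) → ∃ u : Ω, c' = u • c) :
    absLogHeight c ≤ Real.log (T.card).factorial +
      ∑ k ∈ T, absLogHeight (affVec (fun s => v s k)) +
      absLogHeight (fun q : V × S => v q.2 q.1) + Real.log (Fintype.card S) := by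
  classical
  obtain ⟨b, hb_sub, hb_span, hb_li⟩ := exists_linearIndependent Ω (Set.range v)
  have hbfin : b.Finite := (Set.finite_range v).subset hb_sub
  have : Fintype b := hbfin.fintype
  have hσ : ∀ w : b, ∃ s, v s = (w : V → Ω) := fun w => hb_sub w.2
  choose σ hσ using hσ
  have hrange : Submodule.span Ω (Set.range (Subtype.val : b → V → Ω)) =
      Submodule.span Ω (Set.range v) := by
    rw [Subtype.range_coe, hb_span]
  have hc_b : c ∈ Submodule.span Ω (Set.range (Subtype.val : b → V → Ω)) := by
    rw [hrange]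
    exact hspan
  obtain ⟨lam, hlam⟩ := (Submodule.mem_span_range_iff_exists_fun Ω).mp hc_b
  -- the matrix of the conditions
  let M : Matrix T b Ω := fun k w => (w : V → Ω) k
  have hcomb : ∀ (mu : b → Ω) (k : V), (∑ w, mu w • (w : V → Ω)) k = ∑ w : b, (w : V → Ω) k * mu w := by
    intro mu k
    rw [Finset.sum_apply]
    refine Finset.sum_congr rfl fun w _ => ?_
    simp [mul_comm]
  have hlam0 : lam ≠ 0 := by
    rintro rfl
    apply hc0
    rw [← hlam]
    simp
  have hMlam : M *ᵥ lam = 0 := by
    ext k
    have := hT k k.2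
    rw [← hlam, hcomb] at this
    simpa [M, Matrix.mulVec, dotProduct] using this
  have hline : ∀ lam' : b → Ω, M *ᵥ lam' = 0 → ∃ u : Ω, lam' = u • lam := by
    intro lam' hlam'
    have hmem : (∑ w, lam' w • (w : V → Ω)) ∈ Submodule.span Ω (Set.range v) := by
      have hmem' : (∑ w, lam' w • (w : V → Ω)) ∈
          Submodule.span Ω (Set.range (Subtype.val : b → V → Ω)) :=
        (Submodule.mem_span_range_iff_exists_fun Ω).mpr ⟨lam', rfl⟩
      rw [hrange] at hmem'
      exact hmem'
    have hvan : ∀ k ∈ T, (∑ w, lam' w • (w : V → Ω)) k = 0 := by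
      intro k hk
      rw [hcomb]
      have := congrFun hlam' ⟨k, hk⟩
      simpa [M, Matrix.mulVec, dotProduct] using this
    obtain ⟨u, hu⟩ := huniq _ hmem hvan
    refine ⟨u, ?_⟩
    have hzero : ∑ w, (lam' w - u * lam w) • (w : V → Ω) = 0 := by
      simp only [sub_smul, Finset.sum_sub_distrib, mul_smul]
      rw [← Finset.smul_sum, hlam, hu, sub_self]
    have := Fintype.linearIndependent_iff.mp hb_li _ hzero
    funext w
    have := this w
    simp only [Pi.smul_apply, smul_eq_mul]
    linear_combination this
  have h1 := absLogHeight_le_of_ker_line M hlam0 hMlam hline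
  -- rows of `M` are subtuples of the rows of `v`
  have hrow : ∀ k : T, absLogHeight (affVec (M k)) ≤
      absLogHeight (affVec (fun s => v s (k : V))) := by
    intro k
    have : affVec (M k) = affVec (fun s => v s (k : V)) ∘ Option.map σ := by
      funext o
      cases o with
      | none => rfl
      | some w => exact (congrFun (hσ w) k).symm
    rw [this]
    exact absLogHeight_comp_le _ _
  have h2 : ∑ k : T, absLogHeight (affVec (M k)) ≤
      ∑ k ∈ T, absLogHeight (affVec (fun s => v s k)) := by
    rw [← Finset.sum_coe_sort T (fun k => absLogHeight (affVec (fun s => v s k)))]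
    exact Finset.sum_le_sum fun k _ => hrow k
  -- `c` is the image of `lam` under the matrix of the `b`-vectors
  let A : V × b → Ω := fun q => (q.2 : V → Ω) q.1
  have hcA : c = fun k => ∑ w, A (k, w) * lam w := by
    funext k
    rw [← hlam, hcomb]
  have h3 := absLogHeight_linearMap_apply_le A lam
  rw [← hcA] at h3
  have h4 : absLogHeight A ≤ absLogHeight (fun q : V × S => v q.2 q.1) := by
    have : A = (fun q : V × S => v q.2 q.1) ∘ fun q : V × b => (q.1, σ q.2) := by
      funext q
      exact (congrFun (hσ q.2) q.1).symm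
    rw [this]
    exact absLogHeight_comp_le _ _
  have h5 : Real.log (Nat.card b) ≤ Real.log (Fintype.card S) := by
    have hinj : Injective σ := by
      intro w w' hww
      apply Subtype.ext
      rw [← hσ w, ← hσ w', hww]
    have hle : Nat.card b ≤ Fintype.card S := by
      rw [Nat.card_eq_fintype_card]
      exact Fintype.card_le_of_injective σ hinj
    have hpos : 0 < Nat.card b := by
      rw [Nat.card_eq_fintype_card, Fintype.card_pos_iff]
      obtain ⟨w, -⟩ := Function.ne_iff.mp hlam0
      exact ⟨w⟩
    exact Real.log_le_log (by exact_mod_cast hpos) (by exact_mod_cast hle)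
  rw [Fintype.card_coe] at h1
  linarith

end SpanLine

section Eval

variable {Ω : Type*} [Field Ω] [CharZero Ω] [Algebra.IsAlgebraic ℚ Ω]
variable {X : Type*} [Fintype X]

/-- The additive constant in the crude height bound for the values of a polynomial. -/
noncomputable def evalC (q : MvPolynomial X Ω) : ℝ :=
  Real.log q.support.card + ∑ d ∈ q.support, affLogHeight (q.coeff d)

/-- The multiplicative constant in the crude height bound for the values of a polynomial. -/
noncomputable def evalA (q : MvPolynomial X Ω) : ℝ := ∑ d ∈ q.support, ∑ x, (d x : ℝ)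

omit [CharZero Ω] [Algebra.IsAlgebraic ℚ Ω] in
theorem evalA_nonneg (q : MvPolynomial X Ω) : 0 ≤ evalA q :=
  Finset.sum_nonneg fun _ _ => Finset.sum_nonneg fun _ _ => Nat.cast_nonneg _

omit [Algebra.IsAlgebraic ℚ Ω] [Fintype X] in
theorem evalC_nonneg (q : MvPolynomial X Ω) : 0 ≤ evalC q :=
  add_nonneg (Real.log_natCast_nonneg _) (Finset.sum_nonneg fun _ _ => affLogHeight_nonneg _)

/-- **Crude height bound for the value of a polynomial at an affine point** (coefficients in
`Ω`, no homogeneity): `h(q(ξ)) ≤ C_q + A_q * ∑ h(ξ x)`. -/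
theorem affLogHeight_eval_le (q : MvPolynomial X Ω) (ξ : X → Ω) :
    affLogHeight (MvPolynomial.eval ξ q) ≤ evalC q + evalA q * ∑ x, affLogHeight (ξ x) := by
  rw [MvPolynomial.eval_eq']
  have hterm : ∀ d ∈ q.support, affLogHeight (q.coeff d * ∏ i, ξ i ^ d i) ≤
      affLogHeight (q.coeff d) + (∑ x, (d x : ℝ)) * ∑ x, affLogHeight (ξ x) := by
    intro d _
    refine (affLogHeight_mul_le _ _).trans (add_le_add le_rfl ?_)
    refine (affLogHeight_prod_le _ _).trans ?_
    rw [Finset.mul_sum]
    refine Finset.sum_le_sum fun i _ => ?_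
    rw [affLogHeight_pow]
    refine mul_le_mul_of_nonneg_right ?_ (affLogHeight_nonneg _)
    exact_mod_cast Finset.single_le_sum (f := fun x => d x) (fun _ _ => Nat.zero_le _)
      (Finset.mem_univ i)
  calc affLogHeight (∑ d ∈ q.support, q.coeff d * ∏ i, ξ i ^ d i)
      ≤ Real.log q.support.card +
          ∑ d ∈ q.support, affLogHeight (q.coeff d * ∏ i, ξ i ^ d i) := affLogHeight_sum_le _ _
    _ ≤ Real.log q.support.card + ∑ d ∈ q.support,
          (affLogHeight (q.coeff d) + (∑ x, (d x : ℝ)) * ∑ x, affLogHeight (ξ x)) :=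
        add_le_add le_rfl (Finset.sum_le_sum hterm)
    _ = evalC q + evalA q * ∑ x, affLogHeight (ξ x) := by
        rw [Finset.sum_add_distrib, ← Finset.sum_mul, evalC, evalA]
        ring

omit [CharZero Ω] [Algebra.IsAlgebraic ℚ Ω] in
/-- Scaling the point scales the value of a homogeneous polynomial. -/
theorem eval_smul_of_isHomogeneous {ν : MvPolynomial X Ω} {n : ℕ} (hν : ν.IsHomogeneous n)
    (u : Ω) (c : X → Ω) :
    MvPolynomial.eval (u • c) ν = u ^ n * MvPolynomial.eval c ν := by
  rw [MvPolynomial.eval_eq', MvPolynomial.eval_eq', Finset.mul_sum]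
  refine Finset.sum_congr rfl fun d hd => ?_
  have hdeg : ∑ i, d i = n := by
    have := hν.degree_eq_sum_deg_support hd
    rw [this]
    exact (Finset.sum_subset (Finset.subset_univ _) (fun i _ hi => by simpa using hi)).symm
  simp only [Pi.smul_apply, smul_eq_mul, mul_pow, Finset.prod_mul_distrib,
    Finset.prod_pow_eq_pow_sum, hdeg]
  ring

end Eval

section Roots

variable {Ω : Type*} [Field Ω] [CharZero Ω] [Algebra.IsAlgebraic ℚ Ω]

open Polynomial in
/-- **Roots versus coefficients, absolute form, multiset version** (one-sided; from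
`helper1256.abs_sum_affLogHeight_sub_absLogHeight_coeff_le`): the sum of the absolute heights
of the roots is at most `d * log 2` plus the absolute height of the coefficient vector. -/
theorem sum_affLogHeight_le_absLogHeight_coeff (γ : Multiset Ω) {N : ℕ} (hN : γ.card ≤ N) :
    (γ.map affLogHeight).sum ≤ γ.card * Real.log 2 +
      absLogHeight (fun j : Fin (N + 1) => (γ.map fun a => X - C a).prod.coeff j) := by
  obtain ⟨n, α, rfl⟩ := Fermat.Agent.Lib.helper1256.exists_fin_map_eq γ
  have hcard : (Finset.univ.val.map α).card = n := by simp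
  rw [hcard] at hN ⊢
  have key := Fermat.Agent.Lib.helper1256.abs_sum_affLogHeight_sub_absLogHeight_coeff_le α
    (fun i => Algebra.IsIntegral.isIntegral _) (N := N) (by simpa using hN)
  have h1 : ((Finset.univ.val.map α).map affLogHeight).sum = ∑ i, affLogHeight (α i) := by
    rw [Multiset.map_map]
    rfl
  have h2 : ((Finset.univ.val.map α).map fun a => X - C a).prod =
      ∏ i, (X - C (α i) : Polynomial Ω) := by
    rw [Multiset.map_map]
    rfl
  rw [h1, h2]
  have h3 := (abs_le.mp key).2
  simp only [Fintype.card_fin] at h3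
  linarith

end Roots

section Flip

variable {Ω : Type*} [Field Ω] [CharZero Ω] [Algebra.IsAlgebraic ℚ Ω]
variable {S V : Type*} [Fintype S] [Fintype V]

open Polynomial in
/-- **Flip height inequality, vector form.** `c` spans the line cut out of the span of the
vectors `v s` by the vanishing of the coordinates in `T`; the "norm form" `ν` evaluated at `c`
is a polynomial with roots `α ∪ β`. Then the heights of the roots `β` are bounded by the
heights of the entries of the `v s`, with constants depending only on `ν`, `D`, `#S`, `#V`. -/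
theorem flip_height_bound_of_vectors (D nt : ℕ) (ν : Fin (D + 1) → MvPolynomial V Ω)
    (hν : ∀ j, (ν j).IsHomogeneous nt) (v : S → V → Ω) (T : Finset V) {c : V → Ω}
    (α β : Multiset Ω) {a : Ω} (hc0 : c ≠ 0)
    (hspan : c ∈ Submodule.span Ω (Set.range v)) (hT : ∀ k ∈ T, c k = 0)
    (huniq : ∀ c' ∈ Submodule.span Ω (Set.range v), (∀ k ∈ T, c' k = 0) → ∃ u : Ω, c' = u • c)
    (ha : a ≠ 0)
    (hnorm : ∑ j : Fin (D + 1), C (MvPolynomial.eval c (ν j)) * X ^ (j : ℕ) =
      C a * (α.map fun x => X - C x).prod * (β.map fun x => X - C x).prod) :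
    (β.map affLogHeight).sum ≤ D * Real.log 2 + ∑ j, evalC (ν j) +
      (∑ j, evalA (ν j)) * (Fintype.card V * (Real.log (Fintype.card V).factorial +
        Real.log (Fintype.card S) + 2 * ∑ k, ∑ s, affLogHeight (v s k))) := by
  classical
  set R : ℝ := ∑ k, ∑ s, affLogHeight (v s k) with hR
  -- the height of `c`
  have hc : absLogHeight c ≤
      Real.log (Fintype.card V).factorial + Real.log (Fintype.card S) + 2 * R := by
    have h1 := absLogHeight_le_of_span_line v T hc0 hspan hT huniq
    have h2 : Real.log (T.card).factorial ≤ Real.log (Fintype.card V).factorial :=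
      Real.log_le_log (by exact_mod_cast Nat.factorial_pos _)
        (by exact_mod_cast Nat.factorial_le (Finset.card_le_univ T))
    have h3 : ∑ k ∈ T, absLogHeight (affVec (fun s => v s k)) ≤ R := by
      calc ∑ k ∈ T, absLogHeight (affVec (fun s => v s k))
          ≤ ∑ k ∈ T, ∑ s, affLogHeight (v s k) :=
            Finset.sum_le_sum fun k _ => absLogHeight_option_le_sum (fun s => v s k)
        _ ≤ ∑ k, ∑ s, affLogHeight (v s k) :=
            Finset.sum_le_sum_of_subset_of_nonneg (Finset.subset_univ _)
              (fun k _ _ => Finset.sum_nonneg fun s _ => affLogHeight_nonneg _)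
    have h4 : absLogHeight (fun q : V × S => v q.2 q.1) ≤ R := by
      have e : (fun q : V × S => v q.2 q.1) = affVec (fun q : V × S => v q.2 q.1) ∘ some := rfl
      calc absLogHeight (fun q : V × S => v q.2 q.1)
          = absLogHeight (affVec (fun q : V × S => v q.2 q.1) ∘ some) := by rw [← e]
        _ ≤ absLogHeight (affVec (fun q : V × S => v q.2 q.1)) := absLogHeight_comp_le _ _
        _ ≤ ∑ q : V × S, affLogHeight (v q.2 q.1) :=
            absLogHeight_option_le_sum (fun q : V × S => v q.2 q.1)
        _ = R := by rw [Fintype.sum_prod_type]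
    linarith
  -- normalise one coordinate of `c`
  obtain ⟨k₀, hk₀⟩ := Function.ne_iff.mp hc0
  have hk₀' : c k₀ ≠ 0 := by simpa using hk₀
  set ct : V → Ω := (c k₀)⁻¹ • c with hct
  have hct_le : ∀ k, affLogHeight (ct k) ≤ absLogHeight c := by
    intro k
    have := affLogHeight_div_le_absLogHeight c k k₀
    simpa [hct, div_eq_inv_mul] using this
  have hsum_ct : ∑ k, affLogHeight (ct k) ≤ Fintype.card V * absLogHeight c := by
    calc ∑ k, affLogHeight (ct k) ≤ ∑ _k : V, absLogHeight c :=
          Finset.sum_le_sum fun k _ => hct_le k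
      _ = Fintype.card V * absLogHeight c := by simp
  -- the coefficients of the norm at the normalised point
  set e : Fin (D + 1) → Ω := fun j => MvPolynomial.eval ct (ν j) with he
  have he_le : ∀ j, affLogHeight (e j) ≤
      evalC (ν j) + evalA (ν j) * (Fintype.card V * absLogHeight c) := by
    intro j
    refine (affLogHeight_eval_le (ν j) ct).trans ?_
    exact add_le_add le_rfl (mul_le_mul_of_nonneg_left hsum_ct (evalA_nonneg _))
  -- the polynomial
  set γ : Multiset Ω := α + β with hγ
  set Q : Polynomial Ω := (γ.map fun x => X - C x).prod with hQ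
  have hPQ : ∑ j : Fin (D + 1), C (MvPolynomial.eval c (ν j)) * X ^ (j : ℕ) = C a * Q := by
    rw [hnorm, hQ, hγ, Multiset.map_add, Multiset.prod_add, mul_assoc]
  have hQmonic : Q.Monic := monic_multiset_prod_of_monic _ _ (fun x _ => monic_X_sub_C x)
  have hQdeg : Q.natDegree = γ.card := by
    rw [hQ]
    exact natDegree_multiset_prod_X_sub_C_eq_card γ
  have hcoeffP : ∀ i : ℕ, (∑ j : Fin (D + 1), C (MvPolynomial.eval c (ν j)) * X ^ (j : ℕ)).coeff i
      = if h : i < D + 1 then MvPolynomial.eval c (ν ⟨i, h⟩) else 0 := by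
    intro i
    rw [Polynomial.finsetSum_coeff]
    simp only [coeff_C_mul_X_pow]
    split_ifs with h
    · rw [Finset.sum_eq_single ⟨i, h⟩]
      · simp
      · intro j _ hj
        rw [if_neg]
        intro hij
        exact hj (Fin.ext hij.symm)
      · intro hni
        exact absurd (Finset.mem_univ _) hni
    · refine Finset.sum_eq_zero fun j _ => ?_
      rw [if_neg]
      intro hij
      exact h (hij ▸ j.2)
  have hcard : γ.card ≤ D := by
    by_contra hlt
    push Not at hlt
    have h1 : (C a * Q).coeff γ.card = a := by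
      rw [coeff_C_mul, ← hQdeg, hQmonic.coeff_natDegree, mul_one]
    rw [← hPQ, hcoeffP, dif_neg (by omega)] at h1
    exact ha h1.symm
  have hcoeffQ : (fun j : Fin (D + 1) => Q.coeff j) = (a⁻¹ * (c k₀) ^ nt) • e := by
    funext j
    have h1 : (C a * Q).coeff j = MvPolynomial.eval c (ν j) := by
      rw [← hPQ, hcoeffP, dif_pos j.2]
    rw [coeff_C_mul] at h1
    have h2 : e j = ((c k₀)⁻¹) ^ nt * MvPolynomial.eval c (ν j) := by
      simp only [he, hct]
      exact eval_smul_of_isHomogeneous (hν j) _ _
    simp only [Pi.smul_apply, smul_eq_mul]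
    rw [h2, ← h1]
    have h3 : c k₀ ^ nt * ((c k₀)⁻¹) ^ nt = 1 := by
      rw [← mul_pow, mul_inv_cancel₀ hk₀', one_pow]
    have h4 : a⁻¹ * a = 1 := inv_mul_cancel₀ ha
    calc Q.coeff j = (a⁻¹ * a) * (c k₀ ^ nt * ((c k₀)⁻¹) ^ nt) * Q.coeff j := by
          rw [h3, h4]
          ring
      _ = a⁻¹ * c k₀ ^ nt * ((c k₀)⁻¹ ^ nt * (a * Q.coeff j)) := by ring
  have hroots := sum_affLogHeight_le_absLogHeight_coeff γ hcard
  rw [← hQ, hcoeffQ,
    absLogHeight_smul e (mul_ne_zero (inv_ne_zero ha) (pow_ne_zero _ hk₀'))] at hroots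
  have he_sum : absLogHeight e ≤ ∑ j, affLogHeight (e j) := by
    have e' : e = affVec e ∘ some := rfl
    calc absLogHeight e = absLogHeight (affVec e ∘ some) := by rw [← e']
      _ ≤ absLogHeight (affVec e) := absLogHeight_comp_le _ _
      _ ≤ ∑ j, affLogHeight (e j) := absLogHeight_option_le_sum e
  have hβ : (β.map affLogHeight).sum ≤ (γ.map affLogHeight).sum := by
    rw [hγ, Multiset.map_add, Multiset.sum_add]
    have : 0 ≤ (α.map affLogHeight).sum := Multiset.sum_nonneg (by
      intro x hx
      obtain ⟨y, _, rfl⟩ := Multiset.mem_map.mp hx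
      exact affLogHeight_nonneg _)
    linarith
  have hγcard : (γ.card : ℝ) * Real.log 2 ≤ D * Real.log 2 :=
    mul_le_mul_of_nonneg_right (by exact_mod_cast hcard) (Real.log_nonneg (by norm_num))
  have hsumA : 0 ≤ ∑ j, evalA (ν j) := Finset.sum_nonneg fun j _ => evalA_nonneg _
  have h6 : ∑ j, affLogHeight (e j) ≤
      ∑ j, evalC (ν j) + (∑ j, evalA (ν j)) * (Fintype.card V * absLogHeight c) := by
    calc ∑ j, affLogHeight (e j)
        ≤ ∑ j, (evalC (ν j) + evalA (ν j) * (Fintype.card V * absLogHeight c)) :=
          Finset.sum_le_sum fun j _ => he_le j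
      _ = _ := by rw [Finset.sum_add_distrib, Finset.sum_mul]
  have h7 : (∑ j, evalA (ν j)) * (Fintype.card V * absLogHeight c) ≤
      (∑ j, evalA (ν j)) * (Fintype.card V * (Real.log (Fintype.card V).factorial +
        Real.log (Fintype.card S) + 2 * R)) :=
    mul_le_mul_of_nonneg_left (mul_le_mul_of_nonneg_left hc (Nat.cast_nonneg _)) hsumA
  linarith

/-- The constants of `flip_height_bound`: the additive one of the spanning family. -/
noncomputable def spanC {I : Type*} [Fintype I] (p : S → V → MvPolynomial I Ω) : ℝ :=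
  ∑ k, ∑ s, evalC (p s k)

/-- The constants of `flip_height_bound`: the multiplicative one of the spanning family. -/
noncomputable def spanA {I : Type*} [Fintype I] (p : S → V → MvPolynomial I Ω) : ℝ :=
  ∑ k, ∑ s, evalA (p s k)

/-- **Flip height inequality.** The spanning vectors are the values at a point `ξ` of fixed
polynomials `p s k` (coefficients in `Ω`); `ν` is a fixed family of homogeneous forms (the
coefficients of the norm form). Then there are constants `A`, `B` depending only on `p`, `ν`
such that for every point `ξ`, every coordinate set `T`, every generator `c` of the line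
`span (p(ξ)) ∩ {c | c k = 0 for k ∈ T}` and every factorisation
`∑ ν_j(c) X^j = a ∏ (X - α) ∏ (X - β)`:
`∑ h(β) ≤ A * ∑ h(ξ x) + B`. -/
theorem flip_height_bound {I : Type*} [Fintype I] (p : S → V → MvPolynomial I Ω) (D nt : ℕ)
    (ν : Fin (D + 1) → MvPolynomial V Ω) (hν : ∀ j, (ν j).IsHomogeneous nt) :
    ∃ A B : ℝ, 0 ≤ A ∧ ∀ (ξ : I → Ω) (T : Finset V) (c : V → Ω) (α β : Multiset Ω) (a : Ω),
      c ≠ 0 →
      c ∈ Submodule.span Ω (Set.range fun s : S => fun k : V => MvPolynomial.eval ξ (p s k)) →
      (∀ k ∈ T, c k = 0) →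
      (∀ c' ∈ Submodule.span Ω (Set.range fun s : S => fun k : V => MvPolynomial.eval ξ (p s k)),
        (∀ k ∈ T, c' k = 0) → ∃ u : Ω, c' = u • c) →
      a ≠ 0 →
      (∑ j : Fin (D + 1), Polynomial.C (MvPolynomial.eval c (ν j)) * Polynomial.X ^ (j : ℕ) =
        Polynomial.C a * (α.map fun x => Polynomial.X - Polynomial.C x).prod *
          (β.map fun x => Polynomial.X - Polynomial.C x).prod) →
      (β.map affLogHeight).sum ≤ A * ∑ x, affLogHeight (ξ x) + B := by
  have hsumA : 0 ≤ ∑ j, evalA (ν j) := Finset.sum_nonneg fun j _ => evalA_nonneg _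
  have hspanA : 0 ≤ spanA p :=
    Finset.sum_nonneg fun k _ => Finset.sum_nonneg fun s _ => evalA_nonneg _
  refine ⟨(∑ j, evalA (ν j)) * (Fintype.card V * (2 * spanA p)),
    D * Real.log 2 + ∑ j, evalC (ν j) + (∑ j, evalA (ν j)) * (Fintype.card V *
      (Real.log (Fintype.card V).factorial + Real.log (Fintype.card S) + 2 * spanC p)),
    by positivity, ?_⟩
  intro ξ T c α β a hc0 hspan hT huniq ha hnorm
  have h1 := flip_height_bound_of_vectors D nt ν hν
    (fun s : S => fun k : V => MvPolynomial.eval ξ (p s k)) T α β hc0 hspan hT huniq ha hnorm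
  have h2 : ∑ k, ∑ s, affLogHeight (MvPolynomial.eval ξ (p s k)) ≤
      spanC p + spanA p * ∑ x, affLogHeight (ξ x) := by
    calc ∑ k, ∑ s, affLogHeight (MvPolynomial.eval ξ (p s k))
        ≤ ∑ k, ∑ s, (evalC (p s k) + evalA (p s k) * ∑ x, affLogHeight (ξ x)) :=
          Finset.sum_le_sum fun k _ => Finset.sum_le_sum fun s _ => affLogHeight_eval_le _ _
      _ = spanC p + spanA p * ∑ x, affLogHeight (ξ x) := by
          simp only [Finset.sum_add_distrib, ← Finset.sum_mul, spanC, spanA]
  have h3 : (∑ j, evalA (ν j)) * (Fintype.card V * (Real.log (Fintype.card V).factorial +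
        Real.log (Fintype.card S) +
          2 * ∑ k, ∑ s, affLogHeight (MvPolynomial.eval ξ (p s k)))) ≤
      (∑ j, evalA (ν j)) * (Fintype.card V * (Real.log (Fintype.card V).factorial +
        Real.log (Fintype.card S) + 2 * (spanC p + spanA p * ∑ x, affLogHeight (ξ x)))) :=
    mul_le_mul_of_nonneg_left (mul_le_mul_of_nonneg_left (by linarith) (Nat.cast_nonneg _)) hsumA
  refine (h1.trans (add_le_add le_rfl h3)).trans (le_of_eq ?_)
  ring

end Flip

end Fermat.Agent.S17.helper1080
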