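/-
S17 G2-ASM (ASM-C) — helper1164.  Mathlib only.

The chart rings of the Pluecker track live over `Qbar` (tensor powers of integral closures), and
their points are `Qbar`-points.  The height machine (CUBE-HT) wants rings with points in NUMBER
FIELDS.  This file is the adapter:

* `exists_span_witness`: a finite set of coefficients witnessing `a i ∈ Ideal.span (range b)`
  inside every subalgebra containing it;
* `isIntegral_adjoin_subalgebra`: integrality over `ℚ[g]` passes to every subalgebra containing `g`;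
* `exists_fg_subalgebra`, `exists_fg_subalgebra_two_sided`: a finitely generated `ℚ`-subalgebra
  `R0` containing the coordinates, the families, any prescribed finite set, in which the span
  relations still hold and which is integral over `ℚ[g]`;
* `corestrict`: a point `χ : R →+* Ω` restricted to `R0` with values in an intermediate field;
* `exists_numberField_corestrict`: finitely many points of finitely generated subalgebras (and
  finitely many algebraic numbers) live in ONE number field;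
* `isIntegral_adjoin_rat_of_isIntegral_adjoin`: integral over `K[g]`, `K/ℚ` algebraic, implies
  integral over `ℚ[g]`.
-/
import Mathlib

set_option autoImplicit false

namespace Fermat.Agent.S17.helper1164

open Polynomial

section Witness

variable {R : Type*} [CommRing R] [Algebra ℚ R] {α β γ : Type*}

/-- **Coefficient witness.**  If `a i ∈ Ideal.span (range b)` for all `i`, there is a finite set
`T₀ ⊆ R` (the coefficients) such that in EVERY subalgebra `R0 ⊇ T₀` containing the `a i` and the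
`b j`, the memberships hold inside `R0`. -/
theorem exists_span_witness [Finite α] [Finite β] (a : α → R) (b : β → R)
    (hab : ∀ i, a i ∈ Ideal.span (Set.range b)) :
    ∃ T₀ : Set R, T₀.Finite ∧ ∀ R0 : Subalgebra ℚ R, T₀ ⊆ R0 →
      ∀ (ha : ∀ i, a i ∈ R0) (hb : ∀ j, b j ∈ R0) (i : α),
        (⟨a i, ha i⟩ : R0) ∈ Ideal.span (Set.range fun j => (⟨b j, hb j⟩ : R0)) := by
  classical
  cases nonempty_fintype β
  have h : ∀ i, ∃ c : β → R, ∑ j, c j * b j = a i := fun i =>
    (Ideal.mem_span_range_iff_exists_fun).mp (hab i)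
  choose c hc using h
  refine ⟨Set.range fun p : α × β => c p.1 p.2, Set.finite_range _, ?_⟩
  intro R0 hT ha hb i
  have hcm : ∀ j, c i j ∈ R0 := fun j => hT ⟨(i, j), rfl⟩
  have : (⟨a i, ha i⟩ : R0) = ∑ j, (⟨c i j, hcm j⟩ : R0) * ⟨b j, hb j⟩ := by
    apply Subtype.ext
    simp [← hc i]
  rw [this]
  exact Ideal.sum_mem _ fun j _ => Ideal.mul_mem_left _ _ (Ideal.subset_span ⟨j, rfl⟩)

/-- **Integrality passes to subalgebras containing the coordinates.**  If `(r : R)` is integral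
over `ℚ[g]`, then `r`, as an element of a subalgebra `R0` containing `g`, is integral over the
subalgebra of `R0` generated by `g`. -/
theorem isIntegral_adjoin_subalgebra (R0 : Subalgebra ℚ R) (g' : γ → R0) (r : R0)
    (h : IsIntegral (Algebra.adjoin ℚ (Set.range fun k => (g' k : R))) (r : R)) :
    IsIntegral (Algebra.adjoin ℚ (Set.range g')) r := by
  classical
  set A : Subalgebra ℚ R := Algebra.adjoin ℚ (Set.range fun k => (g' k : R)) with hA
  set A' : Subalgebra ℚ R0 := Algebra.adjoin ℚ (Set.range g') with hA'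
  have hmap : A'.map R0.val = A := by
    rw [hA', AlgHom.map_adjoin, ← Set.range_comp]
    rfl
  let e : A' ≃ₐ[ℚ] A :=
    (A'.equivMapOfInjective R0.val Subtype.val_injective).trans (Subalgebra.equivOfEq _ _ hmap)
  have he : ∀ y : A', ((e y : A) : R) = ((y : R0) : R) := fun y => rfl
  let f : A →+* A' := e.symm.toAlgHom.toRingHom
  have hf : ∀ x : A, (((f x : A') : R0) : R) = (x : R) := by
    intro x
    have := he (e.symm x)
    rw [AlgEquiv.apply_symm_apply] at this
    exact this.symm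
  obtain ⟨p, hp, hroot⟩ := h
  refine ⟨p.map f, hp.map _, ?_⟩
  apply Subtype.val_injective
  rw [Polynomial.eval₂_map]
  have key : (R0.val : R0 →+* R) (eval₂ ((algebraMap A' R0).comp f) r p)
      = eval₂ (algebraMap A R) (r : R) p := by
    rw [Polynomial.hom_eval₂]
    congr 1
    ext x
    exact hf x
  exact key.trans hroot

/-- Integrality over `ℚ[g]` for all elements of a subalgebra containing `g`. -/
theorem isIntegral_of_forall_isIntegral (g : γ → R)
    (hint : ∀ r : R, IsIntegral (Algebra.adjoin ℚ (Set.range g)) r)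
    (R0 : Subalgebra ℚ R) (hg : ∀ k, g k ∈ R0) (r : R0) :
    IsIntegral (Algebra.adjoin ℚ (Set.range fun k => (⟨g k, hg k⟩ : R0))) r :=
  isIntegral_adjoin_subalgebra R0 (fun k => ⟨g k, hg k⟩) r (hint r)

/-- **The finitely generated subalgebra, one-sided form.**  `T` is any finite set one wants
inside `R0` (e.g. the factors of the product families `a`, `b`). -/
theorem exists_fg_subalgebra [Finite α] [Finite β] [Finite γ] (g : γ → R) (a : α → R)
    (b : β → R) (T : Set R) (hT : T.Finite)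
    (hint : ∀ r : R, IsIntegral (Algebra.adjoin ℚ (Set.range g)) r)
    (hab : ∀ i, a i ∈ Ideal.span (Set.range b)) :
    ∃ R0 : Subalgebra ℚ R, R0.FG ∧ T ⊆ R0 ∧
      ∃ (hg : ∀ k, g k ∈ R0) (ha : ∀ i, a i ∈ R0) (hb : ∀ j, b j ∈ R0),
        (∀ i, (⟨a i, ha i⟩ : R0) ∈ Ideal.span (Set.range fun j => (⟨b j, hb j⟩ : R0))) ∧
        ∀ r : R0, IsIntegral (Algebra.adjoin ℚ (Set.range fun k => (⟨g k, hg k⟩ : R0))) r := by
  obtain ⟨T₀, hT₀, hw⟩ := exists_span_witness a b hab
  have hfin : (Set.range g ∪ Set.range a ∪ Set.range b ∪ T₀ ∪ T).Finite :=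
    ((((Set.finite_range g).union (Set.finite_range a)).union (Set.finite_range b)).union
      hT₀).union hT
  refine ⟨Algebra.adjoin ℚ (Set.range g ∪ Set.range a ∪ Set.range b ∪ T₀ ∪ T),
    Subalgebra.fg_def.mpr ⟨_, hfin, rfl⟩,
    fun x hx => Algebra.subset_adjoin (Or.inr hx),
    fun k => Algebra.subset_adjoin (Or.inl (Or.inl (Or.inl (Or.inl ⟨k, rfl⟩)))),
    fun i => Algebra.subset_adjoin (Or.inl (Or.inl (Or.inl (Or.inr ⟨i, rfl⟩)))),
    fun j => Algebra.subset_adjoin (Or.inl (Or.inl (Or.inr ⟨j, rfl⟩))), ?_, ?_⟩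
  · exact hw _ (fun x hx => Algebra.subset_adjoin (Or.inl (Or.inr hx))) _ _
  · exact isIntegral_of_forall_isIntegral g hint _ _

/-- **The finitely generated subalgebra, two-sided form** (`span a = span b`). -/
theorem exists_fg_subalgebra_two_sided [Finite α] [Finite β] [Finite γ] (g : γ → R)
    (a : α → R) (b : β → R) (T : Set R) (hT : T.Finite)
    (hint : ∀ r : R, IsIntegral (Algebra.adjoin ℚ (Set.range g)) r)
    (hab : Ideal.span (Set.range a) = Ideal.span (Set.range b)) :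
    ∃ R0 : Subalgebra ℚ R, R0.FG ∧ T ⊆ R0 ∧
      ∃ (hg : ∀ k, g k ∈ R0) (ha : ∀ i, a i ∈ R0) (hb : ∀ j, b j ∈ R0),
        (Ideal.span (Set.range fun i => (⟨a i, ha i⟩ : R0))
          = Ideal.span (Set.range fun j => (⟨b j, hb j⟩ : R0))) ∧
        ∀ r : R0, IsIntegral (Algebra.adjoin ℚ (Set.range fun k => (⟨g k, hg k⟩ : R0))) r := by
  obtain ⟨T₁, hT₁, hw₁⟩ := exists_span_witness a b
    (fun i => hab ▸ Ideal.subset_span (Set.mem_range_self i))
  obtain ⟨T₂, hT₂, hw₂⟩ := exists_span_witness b a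
    (fun j => hab.symm ▸ Ideal.subset_span (Set.mem_range_self j))
  have hfin : (Set.range g ∪ Set.range a ∪ Set.range b ∪ T₁ ∪ T₂ ∪ T).Finite :=
    (((((Set.finite_range g).union (Set.finite_range a)).union (Set.finite_range b)).union
      hT₁).union hT₂).union hT
  set R0 : Subalgebra ℚ R :=
    Algebra.adjoin ℚ (Set.range g ∪ Set.range a ∪ Set.range b ∪ T₁ ∪ T₂ ∪ T) with hR0
  have hg : ∀ k, g k ∈ R0 := fun k =>
    Algebra.subset_adjoin (Or.inl (Or.inl (Or.inl (Or.inl (Or.inl ⟨k, rfl⟩)))))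
  have ha : ∀ i, a i ∈ R0 := fun i =>
    Algebra.subset_adjoin (Or.inl (Or.inl (Or.inl (Or.inl (Or.inr ⟨i, rfl⟩)))))
  have hb : ∀ j, b j ∈ R0 := fun j =>
    Algebra.subset_adjoin (Or.inl (Or.inl (Or.inl (Or.inr ⟨j, rfl⟩))))
  have h₁ : T₁ ⊆ R0 := fun x hx => Algebra.subset_adjoin (Or.inl (Or.inl (Or.inr hx)))
  have h₂ : T₂ ⊆ R0 := fun x hx => Algebra.subset_adjoin (Or.inl (Or.inr hx))
  refine ⟨R0, Subalgebra.fg_def.mpr ⟨_, hfin, rfl⟩,
    fun x hx => Algebra.subset_adjoin (Or.inr hx), hg, ha, hb, ?_, ?_⟩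
  · apply le_antisymm
    · rw [Ideal.span_le]
      rintro _ ⟨i, rfl⟩
      exact hw₁ R0 h₁ ha hb i
    · rw [Ideal.span_le]
      rintro _ ⟨j, rfl⟩
      exact hw₂ R0 h₂ hb ha j
  · exact isIntegral_of_forall_isIntegral g hint R0 hg

/-- Class form of `isIntegral_of_forall_isIntegral` (the shape of the hypothesis `hint` of
`helper1395.mulHeight_le_of_charts` / `cube_logHeight_le_of_charts` with `R l := R0`). -/
theorem algebra_isIntegral_subalgebra (g : γ → R)
    (hint : ∀ r : R, IsIntegral (Algebra.adjoin ℚ (Set.range g)) r)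
    (R0 : Subalgebra ℚ R) (hg : ∀ k, g k ∈ R0) :
    Algebra.IsIntegral (Algebra.adjoin ℚ (Set.range fun k => (⟨g k, hg k⟩ : R0))) R0 :=
  ⟨isIntegral_of_forall_isIntegral g hint R0 hg⟩

/-- **Master form**: a finitely generated subalgebra containing the coordinates `g` and a
prescribed finite set `T`, integral over `ℚ[g]`. -/
theorem exists_fg_subalgebra_of_finite [Finite γ] (g : γ → R) (T : Set R) (hT : T.Finite)
    (hint : ∀ r : R, IsIntegral (Algebra.adjoin ℚ (Set.range g)) r) :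
    ∃ R0 : Subalgebra ℚ R, R0.FG ∧ T ⊆ R0 ∧ ∃ hg : ∀ k, g k ∈ R0,
      Algebra.IsIntegral (Algebra.adjoin ℚ (Set.range fun k => (⟨g k, hg k⟩ : R0))) R0 := by
  refine ⟨Algebra.adjoin ℚ (Set.range g ∪ T),
    Subalgebra.fg_def.mpr ⟨_, (Set.finite_range g).union hT, rfl⟩,
    fun x hx => Algebra.subset_adjoin (Or.inr hx),
    fun k => Algebra.subset_adjoin (Or.inl ⟨k, rfl⟩), ?_⟩
  exact algebra_isIntegral_subalgebra g hint _ _

/-- The product of the ideals generated by two families is generated by the products. -/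
theorem span_range_mul_span_range {A : Type*} [CommSemiring A] {ι κ : Type*} (a : ι → A)
    (b : κ → A) : Ideal.span (Set.range a) * Ideal.span (Set.range b)
      = Ideal.span (Set.range fun p : ι × κ => a p.1 * b p.2) := by
  rw [Ideal.span_mul_span']
  congr 1
  ext x
  constructor
  · rintro ⟨_, ⟨i, rfl⟩, _, ⟨j, rfl⟩, rfl⟩
    exact ⟨(i, j), rfl⟩
  · rintro ⟨p, rfl⟩
    exact ⟨_, ⟨p.1, rfl⟩, _, ⟨p.2, rfl⟩, rfl⟩

/-- **The finitely generated subalgebra, cube form (one-sided).**  Seven families in `R` with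
`Alt₁₂₃ * Alt₁ * Alt₂ * Alt₃ ≤ Alt₁₂ * Alt₁₃ * Alt₂₃` (ideals generated by the families): there is
a finitely generated `ℚ`-subalgebra `R0` containing the coordinates and the seven families in which
the same inclusion holds, integral over `ℚ[g]`.  This is verbatim the chart input of
`helper1395.cube_logHeight_le_of_charts` with `R l := R0`. -/
theorem exists_fg_subalgebra_cube {ι₁₂₃ ι₁ ι₂ ι₃ ι₁₂ ι₁₃ ι₂₃ : Type*} [Finite ι₁₂₃] [Finite ι₁]
    [Finite ι₂] [Finite ι₃] [Finite ι₁₂] [Finite ι₁₃] [Finite ι₂₃] [Finite γ] (g : γ → R)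
    (a₁₂₃ : ι₁₂₃ → R) (a₁ : ι₁ → R) (a₂ : ι₂ → R) (a₃ : ι₃ → R)
    (a₁₂ : ι₁₂ → R) (a₁₃ : ι₁₃ → R) (a₂₃ : ι₂₃ → R) (T : Set R) (hT : T.Finite)
    (hint : ∀ r : R, IsIntegral (Algebra.adjoin ℚ (Set.range g)) r)
    (hid : Ideal.span (Set.range a₁₂₃) * Ideal.span (Set.range a₁) *
        Ideal.span (Set.range a₂) * Ideal.span (Set.range a₃)
      ≤ Ideal.span (Set.range a₁₂) * Ideal.span (Set.range a₁₃) * Ideal.span (Set.range a₂₃)) :
    ∃ R0 : Subalgebra ℚ R, R0.FG ∧ T ⊆ R0 ∧
      ∃ (hg : ∀ k, g k ∈ R0) (h₁₂₃ : ∀ i, a₁₂₃ i ∈ R0) (h₁ : ∀ i, a₁ i ∈ R0)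
        (h₂ : ∀ i, a₂ i ∈ R0) (h₃ : ∀ i, a₃ i ∈ R0) (h₁₂ : ∀ i, a₁₂ i ∈ R0)
        (h₁₃ : ∀ i, a₁₃ i ∈ R0) (h₂₃ : ∀ i, a₂₃ i ∈ R0),
        (Ideal.span (Set.range fun i => (⟨a₁₂₃ i, h₁₂₃ i⟩ : R0)) *
            Ideal.span (Set.range fun i => (⟨a₁ i, h₁ i⟩ : R0)) *
            Ideal.span (Set.range fun i => (⟨a₂ i, h₂ i⟩ : R0)) *
            Ideal.span (Set.range fun i => (⟨a₃ i, h₃ i⟩ : R0))
          ≤ Ideal.span (Set.range fun i => (⟨a₁₂ i, h₁₂ i⟩ : R0)) *
            Ideal.span (Set.range fun i => (⟨a₁₃ i, h₁₃ i⟩ : R0)) *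
            Ideal.span (Set.range fun i => (⟨a₂₃ i, h₂₃ i⟩ : R0))) ∧
        Algebra.IsIntegral (Algebra.adjoin ℚ (Set.range fun k => (⟨g k, hg k⟩ : R0))) R0 := by
  -- the two product families in `R`
  set A : ((ι₁₂₃ × ι₁) × ι₂) × ι₃ → R :=
    fun p => a₁₂₃ p.1.1.1 * a₁ p.1.1.2 * a₂ p.1.2 * a₃ p.2 with hA
  set B : (ι₁₂ × ι₁₃) × ι₂₃ → R := fun q => a₁₂ q.1.1 * a₁₃ q.1.2 * a₂₃ q.2 with hB
  have hAB : ∀ p, A p ∈ Ideal.span (Set.range B) := by
    intro p
    have h4 : Ideal.span (Set.range a₁₂₃) * Ideal.span (Set.range a₁) *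
        Ideal.span (Set.range a₂) * Ideal.span (Set.range a₃) = Ideal.span (Set.range A) := by
      rw [span_range_mul_span_range, span_range_mul_span_range, span_range_mul_span_range]
    have h3 : Ideal.span (Set.range a₁₂) * Ideal.span (Set.range a₁₃) *
        Ideal.span (Set.range a₂₃) = Ideal.span (Set.range B) := by
      rw [span_range_mul_span_range, span_range_mul_span_range]
    rw [h4, h3] at hid
    exact hid (Ideal.subset_span ⟨p, rfl⟩)
  obtain ⟨T₀, hT₀, hw⟩ := exists_span_witness A B hAB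
  have hfin : (Set.range a₁₂₃ ∪ Set.range a₁ ∪ Set.range a₂ ∪ Set.range a₃ ∪ Set.range a₁₂ ∪
      Set.range a₁₃ ∪ Set.range a₂₃ ∪ T₀ ∪ T).Finite :=
    ((((((((Set.finite_range a₁₂₃).union (Set.finite_range a₁)).union
      (Set.finite_range a₂)).union (Set.finite_range a₃)).union (Set.finite_range a₁₂)).union
      (Set.finite_range a₁₃)).union (Set.finite_range a₂₃)).union hT₀).union hT
  obtain ⟨R0, hfg, hsub, hg, hI⟩ := exists_fg_subalgebra_of_finite g _ hfin hint
  have h₁₂₃ : ∀ i, a₁₂₃ i ∈ R0 := fun i => hsub (Or.inl (Or.inl (Or.inl (Or.inl (Or.inl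
    (Or.inl (Or.inl (Or.inl ⟨i, rfl⟩))))))))
  have h₁ : ∀ i, a₁ i ∈ R0 := fun i => hsub (Or.inl (Or.inl (Or.inl (Or.inl (Or.inl
    (Or.inl (Or.inl (Or.inr ⟨i, rfl⟩))))))))
  have h₂ : ∀ i, a₂ i ∈ R0 := fun i => hsub (Or.inl (Or.inl (Or.inl (Or.inl (Or.inl
    (Or.inl (Or.inr ⟨i, rfl⟩)))))))
  have h₃ : ∀ i, a₃ i ∈ R0 := fun i => hsub (Or.inl (Or.inl (Or.inl (Or.inl (Or.inl
    (Or.inr ⟨i, rfl⟩))))))
  have h₁₂ : ∀ i, a₁₂ i ∈ R0 := fun i => hsub (Or.inl (Or.inl (Or.inl (Or.inl
    (Or.inr ⟨i, rfl⟩)))))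
  have h₁₃ : ∀ i, a₁₃ i ∈ R0 := fun i => hsub (Or.inl (Or.inl (Or.inl (Or.inr ⟨i, rfl⟩))))
  have h₂₃ : ∀ i, a₂₃ i ∈ R0 := fun i => hsub (Or.inl (Or.inl (Or.inr ⟨i, rfl⟩)))
  have hT₀R : T₀ ⊆ R0 := fun x hx => hsub (Or.inl (Or.inr hx))
  refine ⟨R0, hfg, fun x hx => hsub (Or.inr hx), hg, h₁₂₃, h₁, h₂, h₃, h₁₂, h₁₃, h₂₃, ?_, hI⟩
  have hAm : ∀ p, A p ∈ R0 := fun p =>
    R0.mul_mem (R0.mul_mem (R0.mul_mem (h₁₂₃ _) (h₁ _)) (h₂ _)) (h₃ _)
  have hBm : ∀ q, B q ∈ R0 := fun q => R0.mul_mem (R0.mul_mem (h₁₂ _) (h₁₃ _)) (h₂₃ _)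
  have key := hw R0 hT₀R hAm hBm
  rw [span_range_mul_span_range, span_range_mul_span_range, span_range_mul_span_range,
    span_range_mul_span_range, span_range_mul_span_range, Ideal.span_le]
  rintro _ ⟨p, rfl⟩
  exact key p

end Witness

section Corestrict

variable {R : Type*} [CommRing R] [Algebra ℚ R] {Ω : Type*} [Field Ω] [CharZero Ω]

/-- If a point sends generators into an intermediate field, it sends the subalgebra they generate
into it. -/
theorem map_mem_of_mem_adjoin {S : Set R} (χ : R →+* Ω) (L : IntermediateField ℚ Ω)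
    (hS : ∀ s ∈ S, χ s ∈ L) : ∀ r ∈ Algebra.adjoin ℚ S, χ r ∈ L := by
  have : Algebra.adjoin ℚ S ≤ L.toSubalgebra.comap χ.toRatAlgHom :=
    Algebra.adjoin_le fun s hs => hS s hs
  exact fun r hr => this hr

/-- **Corestriction.**  The point `χ` restricted to the subalgebra `R0`, with values in an
intermediate field `L` containing `χ R0`. -/
noncomputable def corestrict (R0 : Subalgebra ℚ R) (χ : R →+* Ω) (L : IntermediateField ℚ Ω)
    (hL : ∀ r ∈ R0, χ r ∈ L) : R0 →ₐ[ℚ] L where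
  toFun r := ⟨χ r, hL r r.2⟩
  map_one' := Subtype.ext (by simp)
  map_mul' x y := Subtype.ext (by simp)
  map_zero' := Subtype.ext (by simp)
  map_add' x y := Subtype.ext (by simp)
  commutes' q := Subtype.ext (by simp)

@[simp] theorem coe_corestrict (R0 : Subalgebra ℚ R) (χ : R →+* Ω) (L : IntermediateField ℚ Ω)
    (hL : ∀ r ∈ R0, χ r ∈ L) (r : R0) : ((corestrict R0 χ L hL r : L) : Ω) = χ r := rfl

/-- Finitely many algebraic numbers lie in a number field. -/
theorem exists_numberField_of_finite (s : Set Ω) (hs : s.Finite)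
    (halg : ∀ z ∈ s, IsIntegral ℚ z) :
    ∃ L : IntermediateField ℚ Ω, NumberField L ∧ s ⊆ L := by
  have : Finite s := hs
  have : FiniteDimensional ℚ (IntermediateField.adjoin ℚ s) :=
    IntermediateField.finiteDimensional_adjoin halg
  have : NumberField (IntermediateField.adjoin ℚ s) := NumberField.mk
  exact ⟨IntermediateField.adjoin ℚ s, inferInstance, IntermediateField.subset_adjoin ℚ s⟩

end Corestrict

section MultiPoint

variable {P : Type*} [Finite P] {R : P → Type*} [∀ p, CommRing (R p)] [∀ p, Algebra ℚ (R p)]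
variable {Ω : Type*} [Field Ω] [CharZero Ω]

/-- **Finitely many points live in one number field.**  `p` runs over a finite type (e.g. the
charts containing a given tuple of points); `R0 p` is a finitely generated `ℚ`-subalgebra of
`R p`; `χ p` is a point of `R p` with algebraic values on `R0 p`; `s` is a finite set of algebraic
numbers (e.g. the coordinates of the vectors to be compared).  Then ONE number field
`L ⊆ Ω` contains `s` and receives all the corestrictions `R0 p →ₐ[ℚ] L`. -/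
theorem exists_numberField_corestrict (R0 : ∀ p, Subalgebra ℚ (R p)) (hfg : ∀ p, (R0 p).FG)
    (χ : ∀ p, R p →+* Ω) (hχ : ∀ p, ∀ r ∈ R0 p, IsIntegral ℚ (χ p r))
    (s : Set Ω) (hs : s.Finite) (hsalg : ∀ z ∈ s, IsIntegral ℚ z) :
    ∃ L : IntermediateField ℚ Ω, NumberField L ∧ s ⊆ L ∧
      ∀ p, ∃ φ : R0 p →ₐ[ℚ] L, ∀ r : R0 p, ((φ r : L) : Ω) = χ p r := by
  classical
  choose t ht using fun p => Subalgebra.fg_def.mp (hfg p)
  have hfin : (s ∪ ⋃ p, χ p '' t p).Finite :=
    hs.union (Set.finite_iUnion fun p => (ht p).1.image _)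
  have halg : ∀ z ∈ s ∪ ⋃ p, χ p '' t p, IsIntegral ℚ z := by
    rintro z (hz | hz)
    · exact hsalg z hz
    · obtain ⟨p, r, hr, rfl⟩ := Set.mem_iUnion.mp hz
      exact hχ p r ((ht p).2 ▸ Algebra.subset_adjoin hr)
  obtain ⟨L, hL, hsub⟩ := exists_numberField_of_finite _ hfin halg
  refine ⟨L, hL, fun z hz => hsub (Or.inl hz), fun p => ?_⟩
  have hmem : ∀ r ∈ R0 p, χ p r ∈ L := by
    rw [← (ht p).2]
    exact map_mem_of_mem_adjoin (χ p) L fun r hr =>
      hsub (Or.inr (Set.mem_iUnion.mpr ⟨p, r, hr, rfl⟩))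
  exact ⟨corestrict (R0 p) (χ p) L hmem, fun r => rfl⟩

/-- The same when `Ω` is algebraic over `ℚ` (e.g. `Ω = AlgebraicClosure ℚ`). -/
theorem exists_numberField_corestrict_of_isAlgebraic [Algebra.IsAlgebraic ℚ Ω]
    (R0 : ∀ p, Subalgebra ℚ (R p)) (hfg : ∀ p, (R0 p).FG) (χ : ∀ p, R p →+* Ω)
    (s : Set Ω) (hs : s.Finite) :
    ∃ L : IntermediateField ℚ Ω, NumberField L ∧ s ⊆ L ∧
      ∀ p, ∃ φ : R0 p →ₐ[ℚ] L, ∀ r : R0 p, ((φ r : L) : Ω) = χ p r :=
  exists_numberField_corestrict R0 hfg χ (fun _ _ _ => Algebra.IsIntegral.isIntegral _) s hs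
    (fun _ _ => Algebra.IsIntegral.isIntegral _)

end MultiPoint

section BaseChange

variable {K : Type*} [Field K] [Algebra ℚ K] [Algebra.IsAlgebraic ℚ K]
variable {R : Type*} [CommRing R] [Algebra ℚ R] [Algebra K R] [IsScalarTower ℚ K R] {γ : Type*}

/-- **From `K[g]` to `ℚ[g]`.**  If `K/ℚ` is algebraic and every element of the `K`-algebra `R` is
integral over `K[g]`, then every element of `R` is integral over `ℚ[g]`. -/
theorem isIntegral_adjoin_rat_of_isIntegral_adjoin (g : γ → R)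
    (hint : ∀ r : R, IsIntegral (Algebra.adjoin K (Set.range g)) r) (r : R) :
    IsIntegral (Algebra.adjoin ℚ (Set.range g)) r := by
  classical
  -- the integral closure of `ℚ[g]` in `R`
  set A₀ : Subalgebra ℚ R := Algebra.adjoin ℚ (Set.range g) with hA₀
  have hle : ∀ x ∈ Algebra.adjoin K (Set.range g), IsIntegral A₀ x := by
    intro x hx
    induction hx using Algebra.adjoin_induction with
    | mem x hx =>
      have hx' : x ∈ A₀ := Algebra.subset_adjoin hx
      exact (isIntegral_algebraMap (R := A₀) (A := R) (x := ⟨x, hx'⟩))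
    | algebraMap c =>
      have hc : IsIntegral ℚ c := Algebra.IsIntegral.isIntegral c
      have hc' : IsIntegral ℚ (algebraMap K R c) := hc.map (IsScalarTower.toAlgHom ℚ K R)
      exact hc'.tower_top
    | add x y _ _ hx hy => exact hx.add hy
    | mul x y _ _ hx hy => exact hx.mul hy
  obtain ⟨p, hp, hroot⟩ := hint r
  -- map the coefficients into the integral closure
  have hcoe : ∀ x : Algebra.adjoin K (Set.range g), (x : R) ∈ integralClosure A₀ R :=
    fun x => hle x x.2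
  let f : Algebra.adjoin K (Set.range g) →+* integralClosure A₀ R :=
    { toFun := fun x => ⟨x, hcoe x⟩
      map_one' := rfl
      map_mul' := fun _ _ => rfl
      map_zero' := rfl
      map_add' := fun _ _ => rfl }
  have hr : IsIntegral (integralClosure A₀ R) r := by
    refine ⟨p.map f, hp.map _, ?_⟩
    rw [Polynomial.eval₂_map]
    exact hroot
  exact isIntegral_trans _ hr

end BaseChange

end Fermat.Agent.S17.helper1164
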