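/-
S17 (Mordell–Weil for `JZero N`), Plücker-height track (findings #2583 / #2745 / #2779 / #2821):
the step "(V-ht)" = FROM IDEAL IDENTITIES IN CHART RINGS TO HEIGHT INEQUALITIES WITH CONSTANTS
UNIFORM IN THE NUMBER FIELD.  Mathlib-only, spec-independent (board row 1692, S17-CUBE-HT).

Setting of the consumer: finitely many charts `l`; the chart ring `R l` (a `ℚ`-algebra, e.g. the
`n`-fold tensor power of the coordinate ring of the affine chart `{f_l ≠ 0}` of the curve) is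
integral over `ℚ[g l]`, where `g l k` are finitely many chart coordinates (`e_s / f_l` at each of
the `n` points); `a l`, `b l` are finite families in `R l` (chart-normalised minors, products of
minors) with `Ideal.span (range (a l)) ≤ Ideal.span (range (b l))` (output of `(V-alg)`).
A tuple of points over a number field `L` lying in the chart `l` is a `φ : R l →ₐ[ℚ] L`.

Contents.
* `abv_root_le_of_monic`, `abv_root_le_of_monic_of_isNonarchimedean` : root bounds.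
* `SpanBddWith`, `SpanBdd`, `ChartBdd`, `chartBdd_of_isIntegral`, `spanBdd_of_mem_span`,
  `exists_spanBddWith_of_span_le` : (H1) the coefficient bound: for `a ∈ span b`,
  `v (φ a) ≤ c_v * ρ ^ D * sup_j v (φ (b j))` on the region `v (φ (g k)) ≤ ρ`, with
  `c_v = (v N)⁻¹` at nonarchimedean `v` and `c_v = C` at archimedean `v`; `(N, D, C)` depend only on
  the chart data.
* `mulHeight_le_of_local_bounds`, `mulHeight_le_of_local_bounds_numberField` : (H2) local-to-global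
  with the product formula: `mulHeight x ≤ (C * N) ^ [L : ℚ] * mulHeight y`.
* `exists_chart_nonarch`, `exists_chart_arch` : (H3) chart choice by pigeonhole: among the sections
  `f_l = ∑ t, l ^ t * e_t`, `l` in a finite set `T` of nodes with `n * M < T.card`, one is good for
  `n` given points at a given absolute value.
* `mulHeight_le_of_charts`, `logHeight_le_of_charts`, `abs_logHeight_sub_le_of_charts` : (H4) the
  multi-chart theorem (one-sided from `≤` of ideals, two-sided from `=`).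
* `CubeChartAt`, `cube_logHeight_le_of_charts`, `cube_logHeight_rat_le_of_charts` (one-sided, from
  `Alt₁₂₃ * Alt₁ * Alt₂ * Alt₃ ≤ Alt₁₂ * Alt₁₃ * Alt₂₃`), `abs_cube_logHeight_le_of_charts`,
  `abs_cube_logHeight_rat_le_of_charts` (two-sided, from `=`) : (H5) the seven-term cube form, over
  `L` and for `ℚ`-rational Plücker vectors (the shape of `hrep` in the Plücker endgame).
* `algebra_isIntegral_of_generators`, `exists_chart_region_nonarch`, `exists_chart_region_arch` :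
  adapters for the consumer (integrality on generators; (H3) in the ratio form of the region
  hypotheses of (H4)/(H5), radii `(v (chartDen T M))⁻¹` and `chartConst T M`).
-/
import Mathlib
import Fermat.Agent.Lib.helper3588_AbsHeight

set_option autoImplicit false

namespace Fermat.Agent.S17.helper1395

open Polynomial

universe w

section RootBound

variable {L : Type*} [Field L] (v : AbsoluteValue L ℝ)

/-- Ultrametric bound for a finite sum. -/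
theorem abv_sum_le_of_isNonarchimedean (hv : IsNonarchimedean v) {β : Type*} (s : Finset β)
    (f : β → L) {B : ℝ} (hB : 0 ≤ B) (h : ∀ i ∈ s, v (f i) ≤ B) : v (∑ i ∈ s, f i) ≤ B := by
  classical
  induction s using Finset.induction_on with
  | empty => simpa using hB
  | insert a s ha ih =>
    rw [Finset.sum_insert ha]
    refine (hv _ _).trans (max_le (h a (Finset.mem_insert_self a s)) ?_)
    exact ih fun i hi => h i (Finset.mem_insert_of_mem hi)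

/-- Triangle-inequality bound for a finite sum with a uniform bound on the terms. -/
theorem abv_sum_le_card_mul {β : Type*} (s : Finset β)
    (f : β → L) {B : ℝ} (h : ∀ i ∈ s, v (f i) ≤ B) : v (∑ i ∈ s, f i) ≤ s.card * B := by
  calc v (∑ i ∈ s, f i) ≤ ∑ i ∈ s, v (f i) := v.sum_le s f
    _ ≤ ∑ _i ∈ s, B := Finset.sum_le_sum h
    _ = s.card * B := by rw [Finset.sum_const, nsmul_eq_mul]

/-- A root `z` of a monic polynomial whose lower coefficients have absolute value `≤ B`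
satisfies `v z ≤ max 1 (n * B)` (`n` the degree). -/
theorem abv_root_le_of_monic {P : L[X]} (hP : P.Monic) {z : L} (hz : P.eval z = 0) {B : ℝ}
    (hB : ∀ i < P.natDegree, v (P.coeff i) ≤ B) : v z ≤ max 1 (P.natDegree * B) := by
  rcases le_or_gt (v z) 1 with h1 | h1
  · exact h1.trans (le_max_left _ _)
  refine le_trans ?_ (le_max_right _ _)
  set n := P.natDegree with hn
  have hsum : z ^ n = -∑ i ∈ Finset.range n, P.coeff i * z ^ i := by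
    have h := hP.as_sum
    have h2 := congrArg (Polynomial.eval z) h
    rw [hz] at h2
    simp only [eval_add, eval_pow, eval_X, eval_finsetSum, eval_mul, eval_C] at h2
    rw [eq_neg_iff_add_eq_zero]
    exact h2.symm
  have hn0 : n ≠ 0 := by
    intro h0
    rw [h0] at hsum
    simp at hsum
  have hzpos : 0 < v z := lt_trans zero_lt_one h1
  have hB0 : 0 ≤ B := (v.nonneg _).trans (hB 0 (Nat.pos_of_ne_zero hn0))
  have hle : v z ^ n ≤ n * B * v z ^ (n - 1) := by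
    calc v z ^ n = v (z ^ n) := (map_pow v z n).symm
      _ = v (∑ i ∈ Finset.range n, P.coeff i * z ^ i) := by rw [hsum, v.map_neg]
      _ ≤ (Finset.range n).card * (B * v z ^ (n - 1)) := by
          refine abv_sum_le_card_mul v _ _ fun i hi => ?_
          have hi' : i < n := Finset.mem_range.mp hi
          rw [v.map_mul, map_pow]
          refine mul_le_mul (hB i hi') ?_ (by positivity) hB0
          exact pow_le_pow_right₀ h1.le (by omega)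
      _ = n * B * v z ^ (n - 1) := by rw [Finset.card_range]; ring
  have hpow : v z ^ n = v z * v z ^ (n - 1) := by
    rw [← pow_succ']
    congr 1
    omega
  rw [hpow] at hle
  exact le_of_mul_le_mul_right hle (by positivity)

/-- Nonarchimedean version: `v z ≤ B` as soon as `1 ≤ B` bounds the lower coefficients. -/
theorem abv_root_le_of_monic_of_isNonarchimedean (hv : IsNonarchimedean v) {P : L[X]}
    (hP : P.Monic) {z : L} (hz : P.eval z = 0) {B : ℝ} (hB1 : 1 ≤ B)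
    (hB : ∀ i < P.natDegree, v (P.coeff i) ≤ B) : v z ≤ B := by
  rcases le_or_gt (v z) 1 with h1 | h1
  · exact h1.trans hB1
  set n := P.natDegree with hn
  have hsum : z ^ n = -∑ i ∈ Finset.range n, P.coeff i * z ^ i := by
    have h := hP.as_sum
    have h2 := congrArg (Polynomial.eval z) h
    rw [hz] at h2
    simp only [eval_add, eval_pow, eval_X, eval_finsetSum, eval_mul, eval_C] at h2
    rw [eq_neg_iff_add_eq_zero]
    exact h2.symm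
  have hn0 : n ≠ 0 := by
    intro h0
    rw [h0] at hsum
    simp at hsum
  have hzpos : 0 < v z := lt_trans zero_lt_one h1
  have hB0 : 0 ≤ B := zero_le_one.trans hB1
  have hle : v z ^ n ≤ B * v z ^ (n - 1) := by
    calc v z ^ n = v (z ^ n) := (map_pow v z n).symm
      _ = v (∑ i ∈ Finset.range n, P.coeff i * z ^ i) := by rw [hsum, v.map_neg]
      _ ≤ B * v z ^ (n - 1) := by
          refine abv_sum_le_of_isNonarchimedean v hv _ _ (by positivity) fun i hi => ?_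
          have hi' : i < n := Finset.mem_range.mp hi
          rw [v.map_mul, map_pow]
          refine mul_le_mul (hB i hi') ?_ (by positivity) hB0
          exact pow_le_pow_right₀ h1.le (by omega)
  have hpow : v z ^ n = v z * v z ^ (n - 1) := by
    rw [← pow_succ']
    congr 1
    omega
  rw [hpow] at hle
  exact le_of_mul_le_mul_right hle (by positivity)

theorem abv_natAbs (z : ℤ) : v ((z.natAbs : ℕ) : L) = v ((z : ℤ) : L) := by
  rcases Int.natAbs_eq z with h | h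
  · conv_rhs => rw [h]
    simp
  · conv_rhs => rw [h]
    simp

theorem abv_intCast_le_abs (m : ℤ) : v (m : L) ≤ |(m : ℝ)| := by
  obtain ⟨n, rfl | rfl⟩ := Int.eq_nat_or_neg m
  · simpa using v.apply_nat_le_self n
  · simpa using v.apply_nat_le_self n

end RootBound

section Bdd

variable {R : Type*} [CommRing R] [Algebra ℚ R] {γ κ : Type*}

/-- The local bound with explicit constants `(N, D, C)`: at every point `φ : R →ₐ[ℚ] L` and every
absolute value `v` of `L` such that the chart coordinates `g k` have `v (φ (g k)) ≤ ρ`, the value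
`v (φ a)` is at most `c_v * ρ ^ D * M`, where `M` bounds the `v (φ (b j))` and `c_v = (v N)⁻¹`
if `v` is nonarchimedean, `c_v = C` if `v` is `≥ 1` on the nonzero integers. -/
def SpanBddWith (g : γ → R) (b : κ → R) (a : R) (N D : ℕ) (C : ℝ) : Prop :=
  ∀ (L : Type w) [Field L] [Algebra ℚ L] (φ : R →ₐ[ℚ] L) (v : AbsoluteValue L ℝ) (ρ M : ℝ),
    1 ≤ ρ → 0 ≤ M → (∀ k, v (φ (g k)) ≤ ρ) → (∀ j, v (φ (b j)) ≤ M) →
    (IsNonarchimedean v → v (φ a) ≤ (v (N : L))⁻¹ * ρ ^ D * M) ∧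
    ((∀ n : ℕ, n ≠ 0 → 1 ≤ v (n : L)) → v (φ a) ≤ C * ρ ^ D * M)

/-- `a` is bounded by the family `b` on the chart regions of the coordinates `g`. -/
def SpanBdd (g : γ → R) (b : κ → R) (a : R) : Prop :=
  ∃ (N D : ℕ) (C : ℝ), N ≠ 0 ∧ 1 ≤ C ∧ SpanBddWith.{w} g b a N D C

/-- `r` is bounded on the chart regions of the coordinates `g`. -/
def ChartBdd (g : γ → R) (r : R) : Prop :=
  SpanBdd.{w} g (fun _ : Unit => (1 : R)) r

theorem abv_natCast_pos {L : Type*} [Field L] [Algebra ℚ L] (v : AbsoluteValue L ℝ)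
    {N : ℕ} (hN : N ≠ 0) : 0 < v (N : L) := by
  have : CharZero L := algebraRat.charZero L
  exact v.pos (Nat.cast_ne_zero.mpr hN)

theorem one_le_inv_abv_natCast {L : Type*} [Field L] [Algebra ℚ L]
    (v : AbsoluteValue L ℝ) (hv : IsNonarchimedean v) {N : ℕ} (hN : N ≠ 0) :
    1 ≤ (v (N : L))⁻¹ :=
  (one_le_inv₀ (abv_natCast_pos v hN)).mpr (IsNonarchimedean.apply_natCast_le_one hv)

theorem SpanBddWith.mono {g : γ → R} {b : κ → R} {a : R} {N D : ℕ} {C : ℝ}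
    (h : SpanBddWith.{w} g b a N D C) (hN : N ≠ 0) {N' : ℕ} (D' : ℕ) {C' : ℝ} (hN' : N' ≠ 0)
    (hC : 0 ≤ C) (hC' : 1 ≤ C') : SpanBddWith.{w} g b a (N * N') (D + D') (C * C') := by
  intro L _ _ φ v ρ M hρ hM hg hb
  obtain ⟨h1, h2⟩ := h L φ v ρ M hρ hM hg hb
  have hρD : ρ ^ D ≤ ρ ^ (D + D') := pow_le_pow_right₀ hρ (Nat.le_add_right _ _)
  have hρ0 : 0 ≤ ρ ^ D := by positivity
  refine ⟨fun hv => (h1 hv).trans ?_, fun hv => (h2 hv).trans ?_⟩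
  · have hpos := abv_natCast_pos v hN
    have h1' := one_le_inv_abv_natCast v hv hN'
    rw [Nat.cast_mul, v.map_mul, mul_inv]
    have : (v (N : L))⁻¹ ≤ (v (N : L))⁻¹ * (v (N' : L))⁻¹ :=
      le_mul_of_one_le_right (inv_nonneg.mpr hpos.le) h1'
    gcongr
  · have : C ≤ C * C' := le_mul_of_one_le_right hC hC'
    gcongr

theorem SpanBdd.zero (g : γ → R) (b : κ → R) : SpanBdd.{w} g b 0 := by
  refine ⟨1, 0, 1, one_ne_zero, le_rfl, ?_⟩
  intro L _ _ φ v ρ M hρ hM hg hb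
  simp only [map_zero, Nat.cast_one, map_one, inv_one, pow_zero, one_mul]
  exact ⟨fun _ => hM, fun _ => hM⟩

theorem SpanBdd.of_mem (g : γ → R) (b : κ → R) (j : κ) : SpanBdd.{w} g b (b j) := by
  refine ⟨1, 0, 1, one_ne_zero, le_rfl, ?_⟩
  intro L _ _ φ v ρ M hρ hM hg hb
  simp only [Nat.cast_one, map_one, inv_one, pow_zero, one_mul]
  exact ⟨fun _ => hb j, fun _ => hb j⟩

theorem SpanBdd.add {g : γ → R} {b : κ → R} {a a' : R} (ha : SpanBdd.{w} g b a)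
    (ha' : SpanBdd.{w} g b a') : SpanBdd.{w} g b (a + a') := by
  obtain ⟨N, D, C, hN, hC, h⟩ := ha
  obtain ⟨N', D', C', hN', hC', h'⟩ := ha'
  refine ⟨N * N', D + D', C + C', mul_ne_zero hN hN', by linarith, ?_⟩
  intro L _ _ φ v ρ M hρ hM hg hb
  obtain ⟨h1, h2⟩ := h L φ v ρ M hρ hM hg hb
  obtain ⟨h1', h2'⟩ := h' L φ v ρ M hρ hM hg hb
  have hρD : ρ ^ D ≤ ρ ^ (D + D') := pow_le_pow_right₀ hρ (Nat.le_add_right _ _)
  have hρD' : ρ ^ D' ≤ ρ ^ (D + D') := pow_le_pow_right₀ hρ (Nat.le_add_left _ _)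
  have hρ0 : 0 ≤ ρ ^ D := by positivity
  have hρ0' : 0 ≤ ρ ^ D' := by positivity
  rw [map_add]
  refine ⟨fun hv => (hv _ _).trans (max_le ((h1 hv).trans ?_) ((h1' hv).trans ?_)), fun hv => ?_⟩
  · have hpos := abv_natCast_pos v hN
    have hone := one_le_inv_abv_natCast v hv hN'
    rw [Nat.cast_mul, v.map_mul, mul_inv]
    have : (v (N : L))⁻¹ ≤ (v (N : L))⁻¹ * (v (N' : L))⁻¹ :=
      le_mul_of_one_le_right (inv_nonneg.mpr hpos.le) hone
    gcongr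
  · have hpos := abv_natCast_pos v hN'
    have hone := one_le_inv_abv_natCast v hv hN
    rw [Nat.cast_mul, v.map_mul, mul_inv]
    have : (v (N' : L))⁻¹ ≤ (v (N : L))⁻¹ * (v (N' : L))⁻¹ :=
      le_mul_of_one_le_left (inv_nonneg.mpr hpos.le) hone
    gcongr
  · calc v (φ a + φ a') ≤ v (φ a) + v (φ a') := v.add_le _ _
      _ ≤ C * ρ ^ D * M + C' * ρ ^ D' * M := add_le_add (h2 hv) (h2' hv)
      _ ≤ C * ρ ^ (D + D') * M + C' * ρ ^ (D + D') * M := by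
          have hC0 : 0 ≤ C := zero_le_one.trans hC
          have hC0' : 0 ≤ C' := zero_le_one.trans hC'
          gcongr
      _ = (C + C') * ρ ^ (D + D') * M := by ring

theorem SpanBdd.smul {g : γ → R} {b : κ → R} {r a : R} (hr : ChartBdd.{w} g r)
    (ha : SpanBdd.{w} g b a) : SpanBdd.{w} g b (r * a) := by
  obtain ⟨N, D, C, hN, hC, h⟩ := hr
  obtain ⟨N', D', C', hN', hC', h'⟩ := ha
  refine ⟨N * N', D + D', C * C', mul_ne_zero hN hN', one_le_mul_of_one_le_of_one_le hC hC', ?_⟩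
  intro L _ _ φ v ρ M hρ hM hg hb
  obtain ⟨h1, h2⟩ := h L φ v ρ 1 hρ zero_le_one hg (fun _ => by simp)
  obtain ⟨h1', h2'⟩ := h' L φ v ρ M hρ hM hg hb
  rw [map_mul, v.map_mul]
  have hρ0 : 0 ≤ ρ ^ D := by positivity
  have hρ0' : 0 ≤ ρ ^ D' := by positivity
  refine ⟨fun hv => ?_, fun hv => ?_⟩
  · have hpos := abv_natCast_pos v hN
    have hpos' := abv_natCast_pos v hN'
    calc v (φ r) * v (φ a) ≤ ((v (N : L))⁻¹ * ρ ^ D * 1) * ((v (N' : L))⁻¹ * ρ ^ D' * M) :=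
          mul_le_mul (h1 hv) (h1' hv) (v.nonneg _) (by positivity)
      _ = (v ((N * N' : ℕ) : L))⁻¹ * ρ ^ (D + D') * M := by
          rw [Nat.cast_mul, v.map_mul, mul_inv, pow_add]; ring
  · have hC0 : 0 ≤ C := zero_le_one.trans hC
    calc v (φ r) * v (φ a) ≤ (C * ρ ^ D * 1) * (C' * ρ ^ D' * M) :=
          mul_le_mul (h2 hv) (h2' hv) (v.nonneg _) (by positivity)
      _ = C * C' * ρ ^ (D + D') * M := by rw [pow_add]; ring

theorem chartBdd_algebraMap (g : γ → R) (q : ℚ) : ChartBdd.{w} g (algebraMap ℚ R q) := by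
  refine ⟨q.den, 0, |(q.num : ℝ)| + 1, q.den_ne_zero, by linarith [abs_nonneg (q.num : ℝ)], ?_⟩
  intro L _ _ φ v ρ M hρ hM hg hb
  have hM1 : 1 ≤ M := by simpa using hb ()
  have hden := abv_natCast_pos v q.den_ne_zero
  have hval : φ (algebraMap ℚ R q) = (q.num : L) / (q.den : L) := by
    rw [AlgHom.commutes, eq_ratCast]
    exact_mod_cast (Rat.cast_def (K := L) q)
  rw [hval, map_div₀, pow_zero, mul_one, mul_one]
  refine ⟨fun hv => ?_, fun hv => ?_⟩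
  · have hnum : v (q.num : L) ≤ 1 := IsNonarchimedean.apply_intCast_le_one hv
    calc v (q.num : L) / v (q.den : L) ≤ 1 / v (q.den : L) := by gcongr
      _ = (v (q.den : L))⁻¹ := one_div _
      _ ≤ (v (q.den : L))⁻¹ * M := le_mul_of_one_le_right (inv_nonneg.mpr hden.le) hM1
  · have hnum : v (q.num : L) ≤ |(q.num : ℝ)| := abv_intCast_le_abs v q.num
    have hden1 : 1 ≤ v (q.den : L) := hv q.den q.den_ne_zero
    calc v (q.num : L) / v (q.den : L) ≤ v (q.num : L) / 1 := by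
          gcongr
      _ = v (q.num : L) := div_one _
      _ ≤ |(q.num : ℝ)| + 1 := hnum.trans (by linarith)
      _ ≤ (|(q.num : ℝ)| + 1) * M :=
          le_mul_of_one_le_right (by linarith [abs_nonneg (q.num : ℝ)]) hM1

theorem chartBdd_gen (g : γ → R) (k : γ) : ChartBdd.{w} g (g k) := by
  refine ⟨1, 1, 1, one_ne_zero, le_rfl, ?_⟩
  intro L _ _ φ v ρ M hρ hM hg hb
  have hM1 : 1 ≤ M := by simpa using hb ()
  have h : v (φ (g k)) ≤ ρ * M := (hg k).trans (le_mul_of_one_le_right (by linarith) hM1)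
  simp only [Nat.cast_one, map_one, inv_one, pow_one, one_mul]
  exact ⟨fun _ => h, fun _ => h⟩

theorem ChartBdd.add {g : γ → R} {r s : R} (hr : ChartBdd.{w} g r) (hs : ChartBdd.{w} g s) :
    ChartBdd.{w} g (r + s) :=
  SpanBdd.add hr hs

theorem ChartBdd.mul {g : γ → R} {r s : R} (hr : ChartBdd.{w} g r) (hs : ChartBdd.{w} g s) :
    ChartBdd.{w} g (r * s) :=
  SpanBdd.smul hr hs

theorem chartBdd_of_mem_adjoin (g : γ → R) {r : R} (hr : r ∈ Algebra.adjoin ℚ (Set.range g)) :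
    ChartBdd.{w} g r := by
  induction hr using Algebra.adjoin_induction with
  | mem x hx =>
    obtain ⟨k, rfl⟩ := hx
    exact chartBdd_gen g k
  | algebraMap q => exact chartBdd_algebraMap g q
  | add x y _ _ hx hy => exact hx.add hy
  | mul x y _ _ hx hy => exact hx.mul hy

theorem exists_common_spanBddWith {g : γ → R} {b : κ → R} {ι : Type*} (s : Finset ι) (a : ι → R)
    (h : ∀ i ∈ s, SpanBdd.{w} g b (a i)) :
    ∃ (N D : ℕ) (C : ℝ), N ≠ 0 ∧ 1 ≤ C ∧ ∀ i ∈ s, SpanBddWith.{w} g b (a i) N D C := by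
  classical
  induction s using Finset.induction_on with
  | empty => exact ⟨1, 0, 1, one_ne_zero, le_rfl, by simp⟩
  | insert i s hi ih =>
    obtain ⟨N, D, C, hN, hC, hs⟩ := ih fun j hj => h j (Finset.mem_insert_of_mem hj)
    obtain ⟨N', D', C', hN', hC', hi'⟩ := h i (Finset.mem_insert_self i s)
    refine ⟨N * N', D + D', C * C', mul_ne_zero hN hN', one_le_mul_of_one_le_of_one_le hC hC', ?_⟩
    intro j hj
    rcases Finset.mem_insert.mp hj with rfl | hj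
    · have := hi'.mono hN' D hN (zero_le_one.trans hC') hC
      rwa [mul_comm N' N, add_comm D' D, mul_comm C' C] at this
    · exact (hs j hj).mono hN D' hN' (zero_le_one.trans hC) hC'

/-- Elements integral over `ℚ[g]` are bounded on the chart regions. -/
theorem chartBdd_of_isIntegral (g : γ → R) {r : R}
    (hr : IsIntegral (Algebra.adjoin ℚ (Set.range g)) r) : ChartBdd.{w} g r := by
  obtain ⟨p, hp, hpr⟩ := hr
  obtain ⟨N, D, C, hN, hC, hcoef⟩ := exists_common_spanBddWith.{w} (g := g)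
    (b := fun _ : Unit => (1 : R)) (Finset.range p.natDegree)
    (fun i => ((p.coeff i : Algebra.adjoin ℚ (Set.range g)) : R))
    (fun i _ => chartBdd_of_mem_adjoin g (p.coeff i).2)
  have hC0 : 0 ≤ C := zero_le_one.trans hC
  refine ⟨N, D, 1 + p.natDegree * C, hN, ?_, ?_⟩
  · have : (0 : ℝ) ≤ p.natDegree * C := by positivity
    linarith
  intro L _ _ φ v ρ M hρ hM hg hb
  have hM1 : 1 ≤ M := by simpa using hb ()
  set ψ : Algebra.adjoin ℚ (Set.range g) →+* L :=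
    (φ : R →+* L).comp (algebraMap (Algebra.adjoin ℚ (Set.range g)) R) with hψ
  set P : L[X] := p.map ψ with hPdef
  have hPm : P.Monic := hp.map ψ
  have hPdeg : P.natDegree = p.natDegree := hp.natDegree_map ψ
  have hPz : P.eval (φ r) = 0 := by
    have h1 : (φ : R →+* L) (eval₂ (algebraMap (Algebra.adjoin ℚ (Set.range g)) R) r p) = 0 := by
      rw [hpr, map_zero]
    rw [hom_eval₂] at h1
    rw [hPdef, eval_map]
    exact h1
  have hcoefP : ∀ i, P.coeff i = φ (p.coeff i : R) := fun i => by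
    rw [hPdef, coeff_map]; rfl
  have hρD : 1 ≤ ρ ^ D := one_le_pow₀ hρ
  have hbd : ∀ i < P.natDegree,
      (IsNonarchimedean v → v (P.coeff i) ≤ (v (N : L))⁻¹ * ρ ^ D * 1) ∧
      ((∀ n : ℕ, n ≠ 0 → 1 ≤ v (n : L)) → v (P.coeff i) ≤ C * ρ ^ D * 1) := by
    intro i hi
    rw [hcoefP]
    exact hcoef i (Finset.mem_range.mpr (hPdeg ▸ hi)) L φ v ρ 1 hρ zero_le_one hg
      (fun _ => by simp)
  refine ⟨fun hv => ?_, fun hv => ?_⟩
  · have hinv := one_le_inv_abv_natCast v hv hN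
    have hB1 : 1 ≤ (v (N : L))⁻¹ * ρ ^ D * 1 := by
      rw [mul_one]; exact one_le_mul_of_one_le_of_one_le hinv hρD
    have h := abv_root_le_of_monic_of_isNonarchimedean v hv hPm hPz hB1
      (fun i hi => (hbd i hi).1 hv)
    calc v (φ r) ≤ (v (N : L))⁻¹ * ρ ^ D * 1 := h
      _ ≤ (v (N : L))⁻¹ * ρ ^ D * M := by
          have : 0 ≤ (v (N : L))⁻¹ * ρ ^ D := by positivity
          gcongr
  · have h := abv_root_le_of_monic v hPm hPz (B := C * ρ ^ D * 1) (fun i hi => (hbd i hi).2 hv)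
    rw [hPdeg, mul_one] at h
    have hn0 : (0 : ℝ) ≤ p.natDegree := Nat.cast_nonneg _
    calc v (φ r) ≤ max 1 (p.natDegree * (C * ρ ^ D)) := h
      _ ≤ (1 + p.natDegree * C) * ρ ^ D := by
          refine max_le ?_ ?_
          · have : (0 : ℝ) ≤ p.natDegree * C * ρ ^ D := by positivity
            nlinarith
          · have : (0 : ℝ) ≤ ρ ^ D := by positivity
            nlinarith
      _ ≤ (1 + p.natDegree * C) * ρ ^ D * M :=
          le_mul_of_one_le_right (by positivity) hM1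

/-- **Coefficient bound (H1).** If `R` is integral over `ℚ[g]`, every element of the ideal
generated by the family `b` is bounded by `b` on the chart regions. -/
theorem spanBdd_of_mem_span (g : γ → R)
    [Algebra.IsIntegral (Algebra.adjoin ℚ (Set.range g)) R] (b : κ → R) {a : R}
    (ha : a ∈ Ideal.span (Set.range b)) : SpanBdd.{w} g b a := by
  induction ha using Submodule.span_induction with
  | mem x hx =>
    obtain ⟨j, rfl⟩ := hx
    exact SpanBdd.of_mem g b j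
  | zero => exact SpanBdd.zero g b
  | add x y _ _ hx hy => exact hx.add hy
  | smul r x _ hx =>
    exact SpanBdd.smul (chartBdd_of_isIntegral g
      (Algebra.IsIntegral.isIntegral (R := Algebra.adjoin ℚ (Set.range g)) r)) hx

/-- **Coefficient bound (H1), family form with common constants.** -/
theorem exists_spanBddWith_of_span_le (g : γ → R)
    [Algebra.IsIntegral (Algebra.adjoin ℚ (Set.range g)) R] {ι : Type*} [Finite ι]
    (a : ι → R) (b : κ → R) (hab : Ideal.span (Set.range a) ≤ Ideal.span (Set.range b)) :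
    ∃ (N D : ℕ) (C : ℝ), N ≠ 0 ∧ 1 ≤ C ∧ ∀ i, SpanBddWith.{w} g b (a i) N D C := by
  cases nonempty_fintype ι
  obtain ⟨N, D, C, hN, hC, h⟩ := exists_common_spanBddWith.{w} (g := g) (b := b) Finset.univ a
    (fun i _ => spanBdd_of_mem_span g b (hab (Ideal.subset_span ⟨i, rfl⟩)))
  exact ⟨N, D, C, hN, hC, fun i => h i (Finset.mem_univ i)⟩

end Bdd

section LocalGlobal

open Height AdmissibleAbsValues Function

variable {L : Type*} [Field L] [AdmissibleAbsValues L] {ι κ : Type*} [Finite ι] [Finite κ]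

/-- **Local-to-global (H2), general form.** -/
theorem mulHeight_le_of_local_bounds (x : ι → L) (y : κ → L) (hx : x ≠ 0) (hy : y ≠ 0)
    {c : L} (hc : c ≠ 0) {C : ℝ} (hC : 0 ≤ C)
    (harch : ∀ v ∈ archAbsVal (K := L), ∀ i, v (x i) ≤ C * ⨆ j, v (y j))
    (hnon : ∀ v ∈ nonarchAbsVal (K := L), ∀ i, v (x i) ≤ (v c)⁻¹ * ⨆ j, v (y j)) :
    mulHeight x ≤ C ^ totalWeight L * (archAbsVal.map (· c)).prod * mulHeight y := by
  have : Nonempty ι := (ne_iff.mp hx).nonempty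
  have : Nonempty κ := (ne_iff.mp hy).nonempty
  rw [mulHeight_eq hx, mulHeight_eq hy]
  have hsupy : ∀ v : AbsoluteValue L ℝ, 0 ≤ ⨆ j, v (y j) := fun v =>
    Real.iSup_nonneg_of_nonnegHomClass v _
  have hsupx : ∀ v : AbsoluteValue L ℝ, 0 ≤ ⨆ i, v (x i) := fun v =>
    Real.iSup_nonneg_of_nonnegHomClass v _
  -- archimedean part
  have hA : (archAbsVal.map fun v : AbsoluteValue L ℝ ↦ ⨆ i, v (x i)).prod
      ≤ C ^ totalWeight L * (archAbsVal.map fun v : AbsoluteValue L ℝ ↦ ⨆ j, v (y j)).prod := by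
    calc (archAbsVal.map fun v : AbsoluteValue L ℝ ↦ ⨆ i, v (x i)).prod
        ≤ (archAbsVal.map fun v : AbsoluteValue L ℝ ↦ C * ⨆ j, v (y j)).prod :=
          Multiset.prod_map_le_prod_map₀ _ _ (fun v _ ↦ hsupx v)
            fun v hv ↦ ciSup_le fun i ↦ harch v hv i
      _ = C ^ totalWeight L * (archAbsVal.map fun v : AbsoluteValue L ℝ ↦ ⨆ j, v (y j)).prod := by
          rw [Multiset.prod_map_mul, Multiset.map_const', Multiset.prod_replicate, totalWeight]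
  -- nonarchimedean part
  have hfc : (fun v : nonarchAbsVal (K := L) ↦ (v.val c)⁻¹).HasFiniteMulSupport := by
    fun_prop (disch := assumption)
  have hfx : (fun v : nonarchAbsVal (K := L) ↦ ⨆ i, v.val (x i)).HasFiniteMulSupport := by
    fun_prop (disch := assumption)
  have hfy : (fun v : nonarchAbsVal (K := L) ↦ ⨆ j, v.val (y j)).HasFiniteMulSupport := by
    fun_prop (disch := assumption)
  have hF : (∏ᶠ v : nonarchAbsVal (K := L), ⨆ i, v.val (x i))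
      ≤ (∏ᶠ v : nonarchAbsVal (K := L), v.val c)⁻¹ * ∏ᶠ v : nonarchAbsVal (K := L), ⨆ j, v.val (y j) := by
    rw [← finprod_inv_distrib, ← finprod_mul_distrib hfc hfy]
    exact finprod_le_finprod hfx (fun v ↦ hsupx v.val) (hfc.mul hfy)
      fun v ↦ ciSup_le fun i ↦ hnon v.val v.prop i
  have hpf := product_formula hc
  have hfin0 : (∏ᶠ v : nonarchAbsVal (K := L), v.val c) ≠ 0 := by
    intro h0
    rw [h0, mul_zero] at hpf
    exact zero_ne_one hpf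
  have hinv : (∏ᶠ v : nonarchAbsVal (K := L), v.val c)⁻¹ = (archAbsVal.map (· c)).prod :=
    (eq_inv_of_mul_eq_one_left hpf).symm
  rw [hinv] at hF
  have hAy0 : 0 ≤ (archAbsVal.map fun v : AbsoluteValue L ℝ ↦ ⨆ j, v (y j)).prod :=
    Multiset.prod_map_nonneg fun v _ ↦ hsupy v
  have hFx0 : 0 ≤ ∏ᶠ v : nonarchAbsVal (K := L), ⨆ i, v.val (x i) :=
    finprod_nonneg fun v ↦ hsupx v.val
  calc (archAbsVal.map fun v : AbsoluteValue L ℝ ↦ ⨆ i, v (x i)).prod *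
        ∏ᶠ v : nonarchAbsVal (K := L), ⨆ i, v.val (x i)
      ≤ (C ^ totalWeight L * (archAbsVal.map fun v : AbsoluteValue L ℝ ↦ ⨆ j, v (y j)).prod) *
        ((archAbsVal.map (· c)).prod * ∏ᶠ v : nonarchAbsVal (K := L), ⨆ j, v.val (y j)) :=
        mul_le_mul hA hF hFx0 (mul_nonneg (pow_nonneg hC _) hAy0)
    _ = _ := by ring

end LocalGlobal

section Chart

open Matrix

/-- The integer Vandermonde matrix `(l j ^ t)` of a tuple of natural nodes. -/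
def vdm {m : ℕ} (l : Fin m → ℕ) : Matrix (Fin m) (Fin m) ℤ :=
  Matrix.vandermonde fun j => (l j : ℤ)

theorem vdm_det_ne_zero {m : ℕ} {l : Fin m → ℕ} (hl : Function.Injective l) :
    (vdm l).det ≠ 0 := by
  rw [vdm, Matrix.det_vandermonde_ne_zero_iff]
  exact Nat.cast_injective.comp hl

/-- The section `f_l = ∑ t, l ^ t * e_t` attached to the node `l`, evaluated on a coordinate
vector `e`. -/
def nodeSection {L : Type*} [Field L] {m : ℕ} (e : Fin m → L) (l : ℕ) : L :=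
  ∑ t : Fin m, (l : L) ^ (t : ℕ) * e t

theorem nodeSection_def {L : Type*} [Field L] {m : ℕ} (e : Fin m → L) (l : ℕ) :
    nodeSection e l = ∑ t : Fin m, (l : L) ^ (t : ℕ) * e t := rfl

/-- Cramer's rule for the Vandermonde system `f_j = ∑ t, l j ^ t * e t`. -/
theorem det_vdm_mul_eq {L : Type*} [Field L] {m : ℕ} (l : Fin m → ℕ) (e : Fin m → L)
    (s : Fin m) :
    ((vdm l).det : L) * e s
      = ∑ j, (((vdm l).adjugate s j : ℤ) : L) * nodeSection e (l j) := by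
  have h2 : ∀ t, ∑ j, (vdm l).adjugate s j * (vdm l) j t = if s = t then (vdm l).det else 0 := by
    intro t
    have := congrFun (congrFun (Matrix.adjugate_mul (vdm l)) s) t
    simpa [Matrix.mul_apply, Matrix.smul_apply, Matrix.one_apply] using this
  symm
  calc ∑ j, (((vdm l).adjugate s j : ℤ) : L) * nodeSection e (l j)
      = ∑ t : Fin m, (∑ j, (((vdm l).adjugate s j : ℤ) : L) * (l j : L) ^ (t : ℕ)) * e t := by
        simp_rw [nodeSection_def, Finset.mul_sum, Finset.sum_mul]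
        rw [Finset.sum_comm]
        refine Finset.sum_congr rfl fun t _ => Finset.sum_congr rfl fun j _ => ?_
        ring
    _ = ∑ t, (((if s = t then (vdm l).det else 0 : ℤ)) : L) * e t := by
        refine Finset.sum_congr rfl fun t _ => ?_
        rw [← h2 t]
        push_cast
        simp [vdm, Matrix.vandermonde_apply]
    _ = ((vdm l).det : L) * e s := by simp

/-- Among `M + 1` nodes one is good for a given vector: nonarchimedean case. -/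
theorem exists_node_nonarch {L : Type*} [Field L] (v : AbsoluteValue L ℝ)
    (hv : IsNonarchimedean v) {M : ℕ} (l : Fin (M + 1) → ℕ) (e : Fin (M + 1) → L) :
    ∃ j, ∀ s, v ((vdm l).det : L) * v (e s) ≤ v (nodeSection e (l j)) := by
  obtain ⟨j0, hj0⟩ := Finite.exists_max (fun j => v (nodeSection e (l j)))
  refine ⟨j0, fun s => ?_⟩
  rw [← v.map_mul, det_vdm_mul_eq]
  refine abv_sum_le_of_isNonarchimedean v hv _ _ (v.nonneg _) fun j _ => ?_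
  rw [v.map_mul]
  have h1 : v (((vdm l).adjugate s j : ℤ) : L) ≤ 1 := IsNonarchimedean.apply_intCast_le_one hv
  calc v (((vdm l).adjugate s j : ℤ) : L) * v (nodeSection e (l j))
      ≤ 1 * v (nodeSection e (l j)) := by gcongr
    _ = v (nodeSection e (l j)) := one_mul _
    _ ≤ _ := hj0 j

/-- The sum of the absolute values of the entries of the adjugate of the Vandermonde matrix. -/
noncomputable def adjBound {m : ℕ} (l : Fin m → ℕ) : ℝ :=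
  ∑ s, ∑ j, |(((vdm l).adjugate s j : ℤ) : ℝ)|

theorem adjBound_nonneg {m : ℕ} (l : Fin m → ℕ) : 0 ≤ adjBound l :=
  Finset.sum_nonneg fun _ _ => Finset.sum_nonneg fun _ _ => abs_nonneg _

/-- Among `M + 1` distinct nodes one is good for a given vector: archimedean case. -/
theorem exists_node_arch {L : Type*} [Field L] (v : AbsoluteValue L ℝ)
    (hv : ∀ k : ℕ, k ≠ 0 → 1 ≤ v (k : L)) {M : ℕ} (l : Fin (M + 1) → ℕ)
    (hl : Function.Injective l) (e : Fin (M + 1) → L) :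
    ∃ j, ∀ s, v (e s) ≤ adjBound l * v (nodeSection e (l j)) := by
  obtain ⟨j0, hj0⟩ := Finite.exists_max (fun j => v (nodeSection e (l j)))
  refine ⟨j0, fun s => ?_⟩
  have hdet : 1 ≤ v ((vdm l).det : L) := by
    rw [← abv_natAbs]
    exact hv _ (Int.natAbs_ne_zero.mpr (vdm_det_ne_zero hl))
  calc v (e s) ≤ v ((vdm l).det : L) * v (e s) := le_mul_of_one_le_left (v.nonneg _) hdet
    _ = v (∑ j, (((vdm l).adjugate s j : ℤ) : L) * nodeSection e (l j)) := by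
        rw [← v.map_mul, det_vdm_mul_eq]
    _ ≤ ∑ j, v ((((vdm l).adjugate s j : ℤ) : L) * nodeSection e (l j)) :=
        v.sum_le _ _
    _ ≤ ∑ j, |(((vdm l).adjugate s j : ℤ) : ℝ)| * v (nodeSection e (l j0)) := by
        refine Finset.sum_le_sum fun j _ => ?_
        rw [v.map_mul]
        exact mul_le_mul (abv_intCast_le_abs v _) (hj0 j) (v.nonneg _) (abs_nonneg _)
    _ = (∑ j, |(((vdm l).adjugate s j : ℤ) : ℝ)|) * v (nodeSection e (l j0)) := by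
        rw [Finset.sum_mul]
    _ ≤ adjBound l * v (nodeSection e (l j0)) := by
        refine mul_le_mul_of_nonneg_right ?_ (v.nonneg _)
        exact Finset.single_le_sum (f := fun s => ∑ j, |(((vdm l).adjugate s j : ℤ) : ℝ)|)
          (fun _ _ => Finset.sum_nonneg fun _ _ => abs_nonneg _) (Finset.mem_univ s)

/-- Pigeonhole: if among any `M + 1` distinct nodes of `T` one is good for each single point,
then some node of `T` is good for all points simultaneously, as soon as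
`(number of points) * M < T.card`. -/
theorem exists_good_node {π : Type*} [Finite π] (M : ℕ) (T : Finset ℕ)
    (hT : Nat.card π * M < T.card) (good : ℕ → π → Prop)
    (h : ∀ l : Fin (M + 1) → ℕ, Function.Injective l → (∀ j, l j ∈ T) →
      ∀ i, ∃ j, good (l j) i) :
    ∃ l ∈ T, ∀ i, good l i := by
  classical
  cases nonempty_fintype π
  by_contra hcon
  push Not at hcon
  have hTne : T.Nonempty := Finset.card_pos.mp (lt_of_le_of_lt (Nat.zero_le _) hT)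
  obtain ⟨l0, hl0⟩ := hTne
  obtain ⟨i0, -⟩ := hcon l0 hl0
  have : Nonempty π := ⟨i0⟩
  choose! bad hbad using hcon
  have hcard : (Finset.univ : Finset π).card * M < T.card := by
    rwa [Finset.card_univ, ← Nat.card_eq_fintype_card]
  obtain ⟨i, -, hi⟩ := Finset.exists_lt_card_fiber_of_mul_lt_card_of_maps_to
    (s := T) (t := Finset.univ) (f := bad) (fun _ _ => Finset.mem_univ _) hcard
  obtain ⟨U, hUsub, hUcard⟩ := Finset.exists_subset_card_eq (Nat.succ_le_of_lt hi)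
  let l : Fin (M + 1) → ℕ := fun j => U.orderEmbOfFin hUcard j
  have hlmem : ∀ j, l j ∈ U := fun j => Finset.orderEmbOfFin_mem U hUcard j
  have hl : Function.Injective l := (U.orderEmbOfFin hUcard).injective
  have hlS : ∀ j, l j ∈ T ∧ bad (l j) = i := fun j => by
    have := hUsub (hlmem j)
    simpa [Finset.mem_filter] using this
  obtain ⟨j, hj⟩ := h l hl (fun j => (hlS j).1) i
  exact hbad (l j) (hlS j).1 ((hlS j).2 ▸ hj)

/-- The integer denominator of the chart choice with nodes in `T` and `M + 1` coordinates. -/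
noncomputable def chartDen (T : Finset ℕ) (M : ℕ) : ℕ :=
  ∏ l : Fin (M + 1) → T,
    if (vdm fun j => (l j : ℕ)).det = 0 then 1 else (vdm fun j => (l j : ℕ)).det.natAbs

theorem chartDen_ne_zero (T : Finset ℕ) (M : ℕ) : chartDen T M ≠ 0 := by
  unfold chartDen
  refine Finset.prod_ne_zero_iff.mpr fun l _ => ?_
  split_ifs with h
  · exact one_ne_zero
  · exact Int.natAbs_ne_zero.mpr h

/-- The archimedean constant of the chart choice with nodes in `T` and `M + 1` coordinates. -/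
noncomputable def chartConst (T : Finset ℕ) (M : ℕ) : ℝ :=
  1 + ∑ l : Fin (M + 1) → T, adjBound fun j => (l j : ℕ)

theorem one_le_chartConst (T : Finset ℕ) (M : ℕ) : 1 ≤ chartConst T M := by
  unfold chartConst
  have : 0 ≤ ∑ l : Fin (M + 1) → T, adjBound fun j => (l j : ℕ) :=
    Finset.sum_nonneg fun _ _ => adjBound_nonneg _
  linarith

/-- **Chart choice (H3), nonarchimedean places.** Let `T` be a finite set of natural numbers
(the nodes) and let `e i : Fin (M + 1) → L` be the coordinate vectors of points indexed by `π`,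
with `Nat.card π * M < T.card`. Then some section `f_l = ∑ t, l ^ t * e_t` with `l ∈ T`
satisfies `v (chartDen T M) * v (e i s) ≤ v (f_l (P_i))` for all points and all coordinates. -/
theorem exists_chart_nonarch {L : Type*} [Field L] (v : AbsoluteValue L ℝ)
    (hv : IsNonarchimedean v) {π : Type*} [Finite π] (M : ℕ) (T : Finset ℕ)
    (hT : Nat.card π * M < T.card) (e : π → Fin (M + 1) → L) :
    ∃ l ∈ T, ∀ i s, v (chartDen T M : L) * v (e i s) ≤ v (nodeSection (e i) l) := by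
  refine exists_good_node M T hT
    (fun l i => ∀ s, v (chartDen T M : L) * v (e i s) ≤ v (nodeSection (e i) l))
    fun l hl hmem i => ?_
  obtain ⟨j, hj⟩ := exists_node_nonarch v hv l (e i)
  refine ⟨j, fun s => le_trans ?_ (hj s)⟩
  have hdvd : (vdm l).det.natAbs ∣ chartDen T M := by
    have h := Finset.dvd_prod_of_mem
      (fun l' : Fin (M + 1) → T =>
        if (vdm fun j => (l' j : ℕ)).det = 0 then 1 else (vdm fun j => (l' j : ℕ)).det.natAbs)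
      (Finset.mem_univ (fun j => (⟨l j, hmem j⟩ : T)))
    simp only [if_neg (vdm_det_ne_zero hl)] at h
    exact h
  obtain ⟨m, hm⟩ := hdvd
  have hle' : v (chartDen T M : L) ≤ v ((vdm l).det : L) := by
    rw [hm, Nat.cast_mul, v.map_mul, abv_natAbs]
    exact mul_le_of_le_one_right (v.nonneg _) (IsNonarchimedean.apply_natCast_le_one hv)
  exact mul_le_mul_of_nonneg_right hle' (v.nonneg _)

/-- **Chart choice (H3), archimedean places** (absolute values that are `≥ 1` on the nonzero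
natural numbers). -/
theorem exists_chart_arch {L : Type*} [Field L] (v : AbsoluteValue L ℝ)
    (hv : ∀ k : ℕ, k ≠ 0 → 1 ≤ v (k : L)) {π : Type*} [Finite π] (M : ℕ) (T : Finset ℕ)
    (hT : Nat.card π * M < T.card) (e : π → Fin (M + 1) → L) :
    ∃ l ∈ T, ∀ i s, v (e i s) ≤ chartConst T M * v (nodeSection (e i) l) := by
  refine exists_good_node M T hT
    (fun l i => ∀ s, v (e i s) ≤ chartConst T M * v (nodeSection (e i) l))
    fun l hl hmem i => ?_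
  obtain ⟨j, hj⟩ := exists_node_arch v hv l hl (e i)
  refine ⟨j, fun s => (hj s).trans (mul_le_mul_of_nonneg_right ?_ (v.nonneg _))⟩
  have h := Finset.single_le_sum (f := fun l' : Fin (M + 1) → T =>
      adjBound fun j => (l' j : ℕ)) (fun _ _ => adjBound_nonneg _)
    (Finset.mem_univ (fun j => (⟨l j, hmem j⟩ : T)))
  unfold chartConst
  simp only at h
  linarith

end Chart

section Charts

open Height AdmissibleAbsValues NumberField

/-- **Local-to-global (H2), number-field form.** Constants `(v N)⁻¹` at the finite places and `C`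
at the infinite places give the global constant `(C * N) ^ [L : ℚ]`, uniformly in `L`. -/
theorem mulHeight_le_of_local_bounds_numberField {L : Type*} [Field L] [NumberField L]
    {ι κ : Type*} [Finite ι] [Finite κ] (x : ι → L) (y : κ → L) (hx : x ≠ 0) (hy : y ≠ 0)
    {N : ℕ} (hN : N ≠ 0) {C : ℝ} (hC : 0 ≤ C)
    (harch : ∀ v ∈ archAbsVal (K := L), ∀ i, v (x i) ≤ C * ⨆ j, v (y j))
    (hnon : ∀ v ∈ nonarchAbsVal (K := L), ∀ i, v (x i) ≤ (v (N : L))⁻¹ * ⨆ j, v (y j)) :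
    mulHeight x ≤ (C * N) ^ Module.finrank ℚ L * mulHeight y := by
  have h := mulHeight_le_of_local_bounds x y hx hy (c := (N : L)) (Nat.cast_ne_zero.mpr hN) hC
    harch hnon
  have hprod : (archAbsVal.map (· (N : L))).prod = (N : ℝ) ^ Module.finrank ℚ L := by
    rw [prod_archAbsVal_eq]
    have : ∀ w : InfinitePlace L, w.val (N : L) = (N : ℝ) := fun w => by
      rw [← InfinitePlace.coe_apply, InfinitePlace.map_natCast]
    simp_rw [this]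
    rw [Finset.prod_pow_eq_pow_sum, InfinitePlace.sum_mult_eq]
  rw [hprod, totalWeight_eq_finrank, ← mul_pow] at h
  exact h

theorem one_le_abv_natCast_of_mem_archAbsVal {L : Type*} [Field L] [NumberField L]
    {v : AbsoluteValue L ℝ} (hv : v ∈ archAbsVal (K := L)) (k : ℕ) (hk : k ≠ 0) :
    1 ≤ v (k : L) := by
  obtain ⟨w, rfl⟩ := (isInfinitePlace_iff v).mp (mem_multisetInfinitePlace.mp hv)
  rw [← InfinitePlace.coe_apply, InfinitePlace.map_natCast]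
  exact_mod_cast Nat.one_le_iff_ne_zero.mpr hk

variable {Λ : Type*} [Finite Λ] {R : Λ → Type*} [∀ l, CommRing (R l)] [∀ l, Algebra ℚ (R l)]
  {γ ι κ : Type*}

/-- Common constants for finitely many charts. -/
theorem exists_chart_constants [Finite ι] (g : ∀ l, γ → R l)
    (hint : ∀ l, Algebra.IsIntegral (Algebra.adjoin ℚ (Set.range (g l))) (R l))
    (a : ∀ l, ι → R l) (b : ∀ l, κ → R l)
    (hab : ∀ l, Ideal.span (Set.range (a l)) ≤ Ideal.span (Set.range (b l))) :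
    ∃ (N D : ℕ) (C : ℝ), N ≠ 0 ∧ 1 ≤ C ∧
      ∀ l i, SpanBddWith.{w} (g l) (b l) (a l i) N D C := by
  classical
  cases nonempty_fintype Λ
  have h := fun l => by
    haveI := hint l
    exact exists_spanBddWith_of_span_le.{w} (g l) (a l) (b l) (hab l)
  choose N D C hN hC hbd using h
  have hCprod : ∀ s : Finset Λ, 1 ≤ ∏ l ∈ s, C l := fun s =>
    Finset.prod_induction _ (fun x => 1 ≤ x) (fun _ _ => one_le_mul_of_one_le_of_one_le) le_rfl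
      fun l _ => hC l
  refine ⟨∏ l, N l, ∑ l, D l, ∏ l, C l, Finset.prod_ne_zero_iff.mpr fun l _ => hN l,
    hCprod _, fun l i => ?_⟩
  have hm := (hbd l i).mono (hN l) (N' := ∏ l' ∈ Finset.univ.erase l, N l')
    (∑ l' ∈ Finset.univ.erase l, D l') (C' := ∏ l' ∈ Finset.univ.erase l, C l')
    (Finset.prod_ne_zero_iff.mpr fun l' _ => hN l') (zero_le_one.trans (hC l)) (hCprod _)
  rwa [Finset.mul_prod_erase _ _ (Finset.mem_univ l), Finset.add_sum_erase _ _ (Finset.mem_univ l),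
    Finset.mul_prod_erase _ _ (Finset.mem_univ l)] at hm

/-- **Multi-chart theorem (H4).** Given finitely many charts with `span (a l) ≤ span (b l)` and
region radii `(v N₁)⁻¹` (finite places), `C₁` (infinite places), there is a constant `C` such that
for every number field `L` and all nonzero vectors `x, y` over `L`: if at every place some chart
`l`, some point `φ` of the chart in the region and some scalar `ν ≠ 0` give `x = ν • φ ∘ a l` and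
`y = ν • φ ∘ b l`, then `mulHeight x ≤ C ^ [L : ℚ] * mulHeight y`. -/
theorem mulHeight_le_of_charts [Finite ι] [Finite κ] (g : ∀ l, γ → R l)
    (hint : ∀ l, Algebra.IsIntegral (Algebra.adjoin ℚ (Set.range (g l))) (R l))
    (a : ∀ l, ι → R l) (b : ∀ l, κ → R l)
    (hab : ∀ l, Ideal.span (Set.range (a l)) ≤ Ideal.span (Set.range (b l)))
    {N₁ : ℕ} (hN₁ : N₁ ≠ 0) {C₁ : ℝ} (hC₁ : 1 ≤ C₁) :
    ∃ C : ℝ, 1 ≤ C ∧ ∀ (L : Type w) [Field L] [NumberField L] (x : ι → L) (y : κ → L),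
      x ≠ 0 → y ≠ 0 →
      (∀ v ∈ archAbsVal (K := L), ∃ (l : Λ) (φ : R l →ₐ[ℚ] L) (ν : L), ν ≠ 0 ∧
        (∀ i, x i = ν * φ (a l i)) ∧ (∀ j, y j = ν * φ (b l j)) ∧
        ∀ k, v (φ (g l k)) ≤ C₁) →
      (∀ v ∈ nonarchAbsVal (K := L), ∃ (l : Λ) (φ : R l →ₐ[ℚ] L) (ν : L), ν ≠ 0 ∧
        (∀ i, x i = ν * φ (a l i)) ∧ (∀ j, y j = ν * φ (b l j)) ∧
        ∀ k, v (φ (g l k)) ≤ (v (N₁ : L))⁻¹) →
      mulHeight x ≤ C ^ Module.finrank ℚ L * mulHeight y := by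
  obtain ⟨N, D, C, hN, hC, hbd⟩ := exists_chart_constants.{w} g hint a b hab
  have hC0 : 0 ≤ C := zero_le_one.trans hC
  have hC₁0 : 0 ≤ C₁ := zero_le_one.trans hC₁
  refine ⟨C * C₁ ^ D * ((N * N₁ ^ D : ℕ) : ℝ), ?_, ?_⟩
  · have h1 : 1 ≤ C * C₁ ^ D := one_le_mul_of_one_le_of_one_le hC (one_le_pow₀ hC₁)
    have h2 : (1 : ℝ) ≤ ((N * N₁ ^ D : ℕ) : ℝ) := by
      exact_mod_cast Nat.one_le_iff_ne_zero.mpr (mul_ne_zero hN (pow_ne_zero _ hN₁))
    exact one_le_mul_of_one_le_of_one_le h1 h2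
  intro L _ _ x y hx hy harch hnon
  have : Nonempty κ := (Function.ne_iff.mp hy).nonempty
  refine mulHeight_le_of_local_bounds_numberField x y hx hy
    (mul_ne_zero hN (pow_ne_zero _ hN₁)) (by positivity) ?_ ?_
  · intro v hv i
    obtain ⟨l, φ, ν, hν, hxa, hyb, hreg⟩ := harch v hv
    have hM : ∀ j, v (φ (b l j)) ≤ ⨆ j, v (φ (b l j)) := fun j =>
      le_ciSup (f := fun j => v (φ (b l j))) (Finite.bddAbove_range _) j
    have hM0 : 0 ≤ ⨆ j, v (φ (b l j)) := Real.iSup_nonneg fun j => v.nonneg _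
    have h2 := (hbd l i L φ v C₁ _ hC₁ hM0 hreg hM).2
      (one_le_abv_natCast_of_mem_archAbsVal hv)
    have hsup : (⨆ j, v (y j)) = v ν * ⨆ j, v (φ (b l j)) := by
      simp_rw [hyb, v.map_mul]
      exact (Real.mul_iSup_of_nonneg (v.nonneg ν) _).symm
    rw [hxa i, v.map_mul, hsup]
    calc v ν * v (φ (a l i)) ≤ v ν * (C * C₁ ^ D * ⨆ j, v (φ (b l j))) :=
          mul_le_mul_of_nonneg_left h2 (v.nonneg ν)
      _ = C * C₁ ^ D * (v ν * ⨆ j, v (φ (b l j))) := by ring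
  · intro v hv i
    obtain ⟨l, φ, ν, hν, hxa, hyb, hreg⟩ := hnon v hv
    have hvna : IsNonarchimedean v := isNonarchimedean v hv
    have hM : ∀ j, v (φ (b l j)) ≤ ⨆ j, v (φ (b l j)) := fun j =>
      le_ciSup (f := fun j => v (φ (b l j))) (Finite.bddAbove_range _) j
    have hM0 : 0 ≤ ⨆ j, v (φ (b l j)) := Real.iSup_nonneg fun j => v.nonneg _
    have h1 := (hbd l i L φ v (v (N₁ : L))⁻¹ _ (one_le_inv_abv_natCast v hvna hN₁) hM0 hreg
      hM).1 hvna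
    have hsup : (⨆ j, v (y j)) = v ν * ⨆ j, v (φ (b l j)) := by
      simp_rw [hyb, v.map_mul]
      exact (Real.mul_iSup_of_nonneg (v.nonneg ν) _).symm
    rw [hxa i, v.map_mul, hsup]
    calc v ν * v (φ (a l i))
        ≤ v ν * ((v (N : L))⁻¹ * (v (N₁ : L))⁻¹ ^ D * ⨆ j, v (φ (b l j))) :=
          mul_le_mul_of_nonneg_left h1 (v.nonneg ν)
      _ = (v ((N * N₁ ^ D : ℕ) : L))⁻¹ * (v ν * ⨆ j, v (φ (b l j))) := by
          rw [Nat.cast_mul, Nat.cast_pow, v.map_mul, map_pow, mul_inv, inv_pow]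
          ring

end Charts

section Cube

open Height AdmissibleAbsValues NumberField

variable {Λ : Type*} [Finite Λ] {R : Λ → Type*} [∀ l, CommRing (R l)] [∀ l, Algebra ℚ (R l)]
  {γ ι κ : Type*}

/-- **Multi-chart theorem (H4), logarithmic one-sided form.** -/
theorem logHeight_le_of_charts [Finite ι] [Finite κ] (g : ∀ l, γ → R l)
    (hint : ∀ l, Algebra.IsIntegral (Algebra.adjoin ℚ (Set.range (g l))) (R l))
    (a : ∀ l, ι → R l) (b : ∀ l, κ → R l)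
    (hab : ∀ l, Ideal.span (Set.range (a l)) ≤ Ideal.span (Set.range (b l)))
    {N₁ : ℕ} (hN₁ : N₁ ≠ 0) {C₁ : ℝ} (hC₁ : 1 ≤ C₁) :
    ∃ C : ℝ, 1 ≤ C ∧ ∀ (L : Type w) [Field L] [NumberField L] (x : ι → L) (y : κ → L),
      x ≠ 0 → y ≠ 0 →
      (∀ v ∈ archAbsVal (K := L), ∃ (l : Λ) (φ : R l →ₐ[ℚ] L) (ν : L), ν ≠ 0 ∧
        (∀ i, x i = ν * φ (a l i)) ∧ (∀ j, y j = ν * φ (b l j)) ∧
        ∀ k, v (φ (g l k)) ≤ C₁) →
      (∀ v ∈ nonarchAbsVal (K := L), ∃ (l : Λ) (φ : R l →ₐ[ℚ] L) (ν : L), ν ≠ 0 ∧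
        (∀ i, x i = ν * φ (a l i)) ∧ (∀ j, y j = ν * φ (b l j)) ∧
        ∀ k, v (φ (g l k)) ≤ (v (N₁ : L))⁻¹) →
      logHeight x ≤ logHeight y + Module.finrank ℚ L * Real.log C := by
  obtain ⟨C, hC, h⟩ := mulHeight_le_of_charts.{w} g hint a b hab hN₁ hC₁
  refine ⟨C, hC, ?_⟩
  intro L _ _ x y hx hy harch hnon
  have h1 := h L x y hx hy harch hnon
  have hCpos : 0 < C := zero_lt_one.trans_le hC
  have := Real.log_le_log (mulHeight_pos x) h1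
  rw [Real.log_mul (pow_pos hCpos _).ne' (mulHeight_ne_zero y), Real.log_pow] at this
  rw [logHeight_eq_log_mulHeight, logHeight_eq_log_mulHeight]
  linarith

/-- **Multi-chart theorem (H4), two-sided form**: equal ideals give `|h(x) - h(y)| ≤ [L:ℚ] log C`. -/
theorem abs_logHeight_sub_le_of_charts [Finite ι] [Finite κ] (g : ∀ l, γ → R l)
    (hint : ∀ l, Algebra.IsIntegral (Algebra.adjoin ℚ (Set.range (g l))) (R l))
    (a : ∀ l, ι → R l) (b : ∀ l, κ → R l)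
    (hab : ∀ l, Ideal.span (Set.range (a l)) = Ideal.span (Set.range (b l)))
    {N₁ : ℕ} (hN₁ : N₁ ≠ 0) {C₁ : ℝ} (hC₁ : 1 ≤ C₁) :
    ∃ C : ℝ, 1 ≤ C ∧ ∀ (L : Type w) [Field L] [NumberField L] (x : ι → L) (y : κ → L),
      x ≠ 0 → y ≠ 0 →
      (∀ v ∈ archAbsVal (K := L), ∃ (l : Λ) (φ : R l →ₐ[ℚ] L) (ν : L), ν ≠ 0 ∧
        (∀ i, x i = ν * φ (a l i)) ∧ (∀ j, y j = ν * φ (b l j)) ∧
        ∀ k, v (φ (g l k)) ≤ C₁) →
      (∀ v ∈ nonarchAbsVal (K := L), ∃ (l : Λ) (φ : R l →ₐ[ℚ] L) (ν : L), ν ≠ 0 ∧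
        (∀ i, x i = ν * φ (a l i)) ∧ (∀ j, y j = ν * φ (b l j)) ∧
        ∀ k, v (φ (g l k)) ≤ (v (N₁ : L))⁻¹) →
      |logHeight x - logHeight y| ≤ Module.finrank ℚ L * Real.log C := by
  obtain ⟨C, hC, h⟩ := logHeight_le_of_charts.{w} g hint a b (fun l => (hab l).le) hN₁ hC₁
  obtain ⟨C', hC', h'⟩ := logHeight_le_of_charts.{w} g hint b a (fun l => (hab l).ge) hN₁ hC₁
  refine ⟨max C C', hC.trans (le_max_left _ _), ?_⟩
  intro L _ _ x y hx hy harch hnon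
  have l1 := h L x y hx hy harch hnon
  have l2 := h' L y x hy hx
    (fun v hv => by
      obtain ⟨l, φ, ν, hν, hxa, hyb, hreg⟩ := harch v hv
      exact ⟨l, φ, ν, hν, hyb, hxa, hreg⟩)
    (fun v hv => by
      obtain ⟨l, φ, ν, hν, hxa, hyb, hreg⟩ := hnon v hv
      exact ⟨l, φ, ν, hν, hyb, hxa, hreg⟩)
  have hCpos : 0 < C := zero_lt_one.trans_le hC
  have hCpos' : 0 < C' := zero_lt_one.trans_le hC'
  have hlogC : Real.log C ≤ Real.log (max C C') := Real.log_le_log hCpos (le_max_left _ _)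
  have hlogC' : Real.log C' ≤ Real.log (max C C') := Real.log_le_log hCpos' (le_max_right _ _)
  have hf : (0 : ℝ) ≤ Module.finrank ℚ L := Nat.cast_nonneg _
  have m1 := mul_le_mul_of_nonneg_left hlogC hf
  have m2 := mul_le_mul_of_nonneg_left hlogC' hf
  rw [abs_le]
  constructor <;> linarith

/-- The ideal generated by the products of two families is the product of the ideals. -/
theorem span_range_mul {A : Type*} [CommRing A] {ι ι' : Type*} (a : ι → A) (a' : ι' → A) :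
    Ideal.span (Set.range fun p : ι × ι' => a p.1 * a' p.2)
      = Ideal.span (Set.range a) * Ideal.span (Set.range a') := by
  rw [Ideal.span_mul_span']
  congr 1
  ext z
  constructor
  · rintro ⟨p, rfl⟩
    exact Set.mul_mem_mul ⟨p.1, rfl⟩ ⟨p.2, rfl⟩
  · rintro ⟨_, ⟨i, rfl⟩, _, ⟨j, rfl⟩, rfl⟩
    exact ⟨(i, j), rfl⟩

theorem fun_mul_ne_zero {L : Type*} [Field L] {ι ι' : Type*} {x : ι → L} {y : ι' → L}
    (hx : x ≠ 0) (hy : y ≠ 0) : (fun p : ι × ι' => x p.1 * y p.2) ≠ 0 := by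
  obtain ⟨i, hi⟩ := Function.ne_iff.mp hx
  obtain ⟨j, hj⟩ := Function.ne_iff.mp hy
  exact Function.ne_iff.mpr ⟨(i, j), mul_ne_zero hi hj⟩

/-- The Segre product of four families. -/
def segre₄ {A : Type*} [Mul A] {ι₁ ι₂ ι₃ ι₄ : Type*} (a₁ : ι₁ → A) (a₂ : ι₂ → A) (a₃ : ι₃ → A)
    (a₄ : ι₄ → A) : ((ι₁ × ι₂) × ι₃) × ι₄ → A :=
  fun p => a₁ p.1.1.1 * a₂ p.1.1.2 * a₃ p.1.2 * a₄ p.2

/-- The Segre product of three families. -/
def segre₃ {A : Type*} [Mul A] {ι₁ ι₂ ι₃ : Type*} (a₁ : ι₁ → A) (a₂ : ι₂ → A) (a₃ : ι₃ → A) :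
    (ι₁ × ι₂) × ι₃ → A :=
  fun p => a₁ p.1.1 * a₂ p.1.2 * a₃ p.2

theorem span_range_segre₄ {A : Type*} [CommRing A] {ι₁ ι₂ ι₃ ι₄ : Type*} (a₁ : ι₁ → A)
    (a₂ : ι₂ → A) (a₃ : ι₃ → A) (a₄ : ι₄ → A) :
    Ideal.span (Set.range (segre₄ a₁ a₂ a₃ a₄)) = Ideal.span (Set.range a₁) *
      Ideal.span (Set.range a₂) * Ideal.span (Set.range a₃) * Ideal.span (Set.range a₄) := by
  rw [← span_range_mul a₁ a₂, ← span_range_mul _ a₃, ← span_range_mul _ a₄]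
  rfl

theorem span_range_segre₃ {A : Type*} [CommRing A] {ι₁ ι₂ ι₃ : Type*} (a₁ : ι₁ → A)
    (a₂ : ι₂ → A) (a₃ : ι₃ → A) :
    Ideal.span (Set.range (segre₃ a₁ a₂ a₃)) = Ideal.span (Set.range a₁) *
      Ideal.span (Set.range a₂) * Ideal.span (Set.range a₃) := by
  rw [← span_range_mul a₁ a₂, ← span_range_mul _ a₃]
  rfl

theorem segre₄_ne_zero {L : Type*} [Field L] {ι₁ ι₂ ι₃ ι₄ : Type*} {x₁ : ι₁ → L} {x₂ : ι₂ → L}
    {x₃ : ι₃ → L} {x₄ : ι₄ → L} (h₁ : x₁ ≠ 0) (h₂ : x₂ ≠ 0) (h₃ : x₃ ≠ 0) (h₄ : x₄ ≠ 0) :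
    segre₄ x₁ x₂ x₃ x₄ ≠ 0 :=
  fun_mul_ne_zero (fun_mul_ne_zero (fun_mul_ne_zero h₁ h₂) h₃) h₄

theorem segre₃_ne_zero {L : Type*} [Field L] {ι₁ ι₂ ι₃ : Type*} {x₁ : ι₁ → L} {x₂ : ι₂ → L}
    {x₃ : ι₃ → L} (h₁ : x₁ ≠ 0) (h₂ : x₂ ≠ 0) (h₃ : x₃ ≠ 0) :
    segre₃ x₁ x₂ x₃ ≠ 0 :=
  fun_mul_ne_zero (fun_mul_ne_zero h₁ h₂) h₃

theorem logHeight_segre₄ {L : Type*} [Field L] [AdmissibleAbsValues L] {ι₁ ι₂ ι₃ ι₄ : Type*}
    [Finite ι₁] [Finite ι₂] [Finite ι₃] [Finite ι₄] {x₁ : ι₁ → L} {x₂ : ι₂ → L}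
    {x₃ : ι₃ → L} {x₄ : ι₄ → L} (h₁ : x₁ ≠ 0) (h₂ : x₂ ≠ 0) (h₃ : x₃ ≠ 0) (h₄ : x₄ ≠ 0) :
    logHeight (segre₄ x₁ x₂ x₃ x₄)
      = logHeight x₁ + logHeight x₂ + logHeight x₃ + logHeight x₄ := by
  have e1 := logHeight_fun_mul_eq h₁ h₂
  have e2 := logHeight_fun_mul_eq (fun_mul_ne_zero h₁ h₂) h₃
  have e3 := logHeight_fun_mul_eq (fun_mul_ne_zero (fun_mul_ne_zero h₁ h₂) h₃) h₄
  rw [← e1, ← e2, ← e3]
  rfl

theorem logHeight_segre₃ {L : Type*} [Field L] [AdmissibleAbsValues L] {ι₁ ι₂ ι₃ : Type*}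
    [Finite ι₁] [Finite ι₂] [Finite ι₃] {x₁ : ι₁ → L} {x₂ : ι₂ → L}
    {x₃ : ι₃ → L} (h₁ : x₁ ≠ 0) (h₂ : x₂ ≠ 0) (h₃ : x₃ ≠ 0) :
    logHeight (segre₃ x₁ x₂ x₃) = logHeight x₁ + logHeight x₂ + logHeight x₃ := by
  have e1 := logHeight_fun_mul_eq h₁ h₂
  have e2 := logHeight_fun_mul_eq (fun_mul_ne_zero h₁ h₂) h₃
  rw [← e1, ← e2]
  rfl

variable {ι₁₂₃ ι₁ ι₂ ι₃ ι₁₂ ι₁₃ ι₂₃ : Type*}

/-- At the absolute value `v`, the seven vectors `x_S` are the values at ONE point `φ` of ONE chart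
`l`, in the region of radius `ρ`, of the seven chart families `a_S l`, up to normalising scalars
`ν_S` with `ν₁₂₃ * ν₁ * ν₂ * ν₃ = ν₁₂ * ν₁₃ * ν₂₃ ≠ 0`. -/
def CubeChartAt {L : Type*} [Field L] [Algebra ℚ L] (g : ∀ l, γ → R l)
    (a₁₂₃ : ∀ l, ι₁₂₃ → R l) (a₁ : ∀ l, ι₁ → R l) (a₂ : ∀ l, ι₂ → R l) (a₃ : ∀ l, ι₃ → R l)
    (a₁₂ : ∀ l, ι₁₂ → R l) (a₁₃ : ∀ l, ι₁₃ → R l) (a₂₃ : ∀ l, ι₂₃ → R l)
    (x₁₂₃ : ι₁₂₃ → L) (x₁ : ι₁ → L) (x₂ : ι₂ → L) (x₃ : ι₃ → L)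
    (x₁₂ : ι₁₂ → L) (x₁₃ : ι₁₃ → L) (x₂₃ : ι₂₃ → L) (v : AbsoluteValue L ℝ) (ρ : ℝ) : Prop :=
  ∃ (l : Λ) (φ : R l →ₐ[ℚ] L) (ν₁₂₃ ν₁ ν₂ ν₃ ν₁₂ ν₁₃ ν₂₃ : L),
    ν₁₂₃ * ν₁ * ν₂ * ν₃ = ν₁₂ * ν₁₃ * ν₂₃ ∧ ν₁₂ * ν₁₃ * ν₂₃ ≠ 0 ∧
    (∀ i, x₁₂₃ i = ν₁₂₃ * φ (a₁₂₃ l i)) ∧ (∀ i, x₁ i = ν₁ * φ (a₁ l i)) ∧
    (∀ i, x₂ i = ν₂ * φ (a₂ l i)) ∧ (∀ i, x₃ i = ν₃ * φ (a₃ l i)) ∧
    (∀ i, x₁₂ i = ν₁₂ * φ (a₁₂ l i)) ∧ (∀ i, x₁₃ i = ν₁₃ * φ (a₁₃ l i)) ∧
    (∀ i, x₂₃ i = ν₂₃ * φ (a₂₃ l i)) ∧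
    ∀ k, v (φ (g l k)) ≤ ρ

omit [Finite Λ] in
theorem CubeChartAt.exists_chart {L : Type*} [Field L] [Algebra ℚ L] {g : ∀ l, γ → R l}
    {a₁₂₃ : ∀ l, ι₁₂₃ → R l} {a₁ : ∀ l, ι₁ → R l} {a₂ : ∀ l, ι₂ → R l} {a₃ : ∀ l, ι₃ → R l}
    {a₁₂ : ∀ l, ι₁₂ → R l} {a₁₃ : ∀ l, ι₁₃ → R l} {a₂₃ : ∀ l, ι₂₃ → R l}
    {x₁₂₃ : ι₁₂₃ → L} {x₁ : ι₁ → L} {x₂ : ι₂ → L} {x₃ : ι₃ → L}
    {x₁₂ : ι₁₂ → L} {x₁₃ : ι₁₃ → L} {x₂₃ : ι₂₃ → L} {v : AbsoluteValue L ℝ} {ρ : ℝ}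
    (h : CubeChartAt g a₁₂₃ a₁ a₂ a₃ a₁₂ a₁₃ a₂₃ x₁₂₃ x₁ x₂ x₃ x₁₂ x₁₃ x₂₃ v ρ) :
    ∃ (l : Λ) (φ : R l →ₐ[ℚ] L) (ν : L), ν ≠ 0 ∧
      (∀ p, segre₄ x₁₂₃ x₁ x₂ x₃ p = ν * φ (segre₄ (a₁₂₃ l) (a₁ l) (a₂ l) (a₃ l) p)) ∧
      (∀ p, segre₃ x₁₂ x₁₃ x₂₃ p = ν * φ (segre₃ (a₁₂ l) (a₁₃ l) (a₂₃ l) p)) ∧
      ∀ k, v (φ (g l k)) ≤ ρ := by
  obtain ⟨l, φ, ν₁₂₃, ν₁, ν₂, ν₃, ν₁₂, ν₁₃, ν₂₃, hν, hν0, e₁₂₃, e₁, e₂, e₃, e₁₂, e₁₃, e₂₃,
    hreg⟩ := h
  refine ⟨l, φ, ν₁₂ * ν₁₃ * ν₂₃, hν0, fun p => ?_, fun p => ?_, hreg⟩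
  · show x₁₂₃ p.1.1.1 * x₁ p.1.1.2 * x₂ p.1.2 * x₃ p.2
      = ν₁₂ * ν₁₃ * ν₂₃ * φ (a₁₂₃ l p.1.1.1 * a₁ l p.1.1.2 * a₂ l p.1.2 * a₃ l p.2)
    rw [← hν, e₁₂₃, e₁, e₂, e₃, map_mul, map_mul, map_mul]
    ring
  · show x₁₂ p.1.1 * x₁₃ p.1.2 * x₂₃ p.2
      = ν₁₂ * ν₁₃ * ν₂₃ * φ (a₁₂ l p.1.1 * a₁₃ l p.1.2 * a₂₃ l p.2)
    rw [e₁₂, e₁₃, e₂₃, map_mul, map_mul]
    ring

/-- **Cube form (H5), one-sided.** If in every chart
`Alt₁₂₃ * Alt₁ * Alt₂ * Alt₃ ≤ Alt₁₂ * Alt₁₃ * Alt₂₃` (`Alt_S = Ideal.span (range (a_S l))`),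
then the alternating sum of the seven logarithmic heights is at most `[L : ℚ] * log C`,
with `C` depending only on the chart data and the region radii. -/
theorem cube_logHeight_le_of_charts [Finite ι₁₂₃] [Finite ι₁] [Finite ι₂] [Finite ι₃]
    [Finite ι₁₂] [Finite ι₁₃] [Finite ι₂₃] (g : ∀ l, γ → R l)
    (hint : ∀ l, Algebra.IsIntegral (Algebra.adjoin ℚ (Set.range (g l))) (R l))
    (a₁₂₃ : ∀ l, ι₁₂₃ → R l) (a₁ : ∀ l, ι₁ → R l) (a₂ : ∀ l, ι₂ → R l) (a₃ : ∀ l, ι₃ → R l)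
    (a₁₂ : ∀ l, ι₁₂ → R l) (a₁₃ : ∀ l, ι₁₃ → R l) (a₂₃ : ∀ l, ι₂₃ → R l)
    (hid : ∀ l, Ideal.span (Set.range (a₁₂₃ l)) * Ideal.span (Set.range (a₁ l)) *
        Ideal.span (Set.range (a₂ l)) * Ideal.span (Set.range (a₃ l))
      ≤ Ideal.span (Set.range (a₁₂ l)) * Ideal.span (Set.range (a₁₃ l)) *
        Ideal.span (Set.range (a₂₃ l)))
    {N₁ : ℕ} (hN₁ : N₁ ≠ 0) {C₁ : ℝ} (hC₁ : 1 ≤ C₁) :
    ∃ C : ℝ, 1 ≤ C ∧ ∀ (L : Type w) [Field L] [NumberField L]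
      (x₁₂₃ : ι₁₂₃ → L) (x₁ : ι₁ → L) (x₂ : ι₂ → L) (x₃ : ι₃ → L)
      (x₁₂ : ι₁₂ → L) (x₁₃ : ι₁₃ → L) (x₂₃ : ι₂₃ → L),
      x₁₂₃ ≠ 0 → x₁ ≠ 0 → x₂ ≠ 0 → x₃ ≠ 0 → x₁₂ ≠ 0 → x₁₃ ≠ 0 → x₂₃ ≠ 0 →
      (∀ v ∈ archAbsVal (K := L),
        CubeChartAt g a₁₂₃ a₁ a₂ a₃ a₁₂ a₁₃ a₂₃ x₁₂₃ x₁ x₂ x₃ x₁₂ x₁₃ x₂₃ v C₁) →
      (∀ v ∈ nonarchAbsVal (K := L),
        CubeChartAt g a₁₂₃ a₁ a₂ a₃ a₁₂ a₁₃ a₂₃ x₁₂₃ x₁ x₂ x₃ x₁₂ x₁₃ x₂₃ v (v (N₁ : L))⁻¹) →
      logHeight x₁₂₃ - logHeight x₁₂ - logHeight x₁₃ - logHeight x₂₃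
          + logHeight x₁ + logHeight x₂ + logHeight x₃
        ≤ Module.finrank ℚ L * Real.log C := by
  have hab : ∀ l, Ideal.span (Set.range (segre₄ (a₁₂₃ l) (a₁ l) (a₂ l) (a₃ l)))
      ≤ Ideal.span (Set.range (segre₃ (a₁₂ l) (a₁₃ l) (a₂₃ l))) := fun l => by
    rw [span_range_segre₄, span_range_segre₃]
    exact hid l
  obtain ⟨C, hC, h⟩ := logHeight_le_of_charts.{w} g hint
    (fun l => segre₄ (a₁₂₃ l) (a₁ l) (a₂ l) (a₃ l)) (fun l => segre₃ (a₁₂ l) (a₁₃ l) (a₂₃ l))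
    hab hN₁ hC₁
  refine ⟨C, hC, ?_⟩
  intro L _ _ x₁₂₃ x₁ x₂ x₃ x₁₂ x₁₃ x₂₃ h₁₂₃ h₁ h₂ h₃ h₁₂ h₁₃ h₂₃ harch hnon
  have hfin := h L (segre₄ x₁₂₃ x₁ x₂ x₃) (segre₃ x₁₂ x₁₃ x₂₃)
    (segre₄_ne_zero h₁₂₃ h₁ h₂ h₃) (segre₃_ne_zero h₁₂ h₁₃ h₂₃)
    (fun v hv => (harch v hv).exists_chart) (fun v hv => (hnon v hv).exists_chart)
  rw [logHeight_segre₄ h₁₂₃ h₁ h₂ h₃, logHeight_segre₃ h₁₂ h₁₃ h₂₃] at hfin
  linarith

/-- **Cube form (H5), two-sided.** If in every chart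
`Alt₁₂₃ * Alt₁ * Alt₂ * Alt₃ = Alt₁₂ * Alt₁₃ * Alt₂₃`, then the alternating sum of the seven
logarithmic heights is bounded in absolute value by `[L : ℚ] * log C`. -/
theorem abs_cube_logHeight_le_of_charts [Finite ι₁₂₃] [Finite ι₁] [Finite ι₂] [Finite ι₃]
    [Finite ι₁₂] [Finite ι₁₃] [Finite ι₂₃] (g : ∀ l, γ → R l)
    (hint : ∀ l, Algebra.IsIntegral (Algebra.adjoin ℚ (Set.range (g l))) (R l))
    (a₁₂₃ : ∀ l, ι₁₂₃ → R l) (a₁ : ∀ l, ι₁ → R l) (a₂ : ∀ l, ι₂ → R l) (a₃ : ∀ l, ι₃ → R l)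
    (a₁₂ : ∀ l, ι₁₂ → R l) (a₁₃ : ∀ l, ι₁₃ → R l) (a₂₃ : ∀ l, ι₂₃ → R l)
    (hid : ∀ l, Ideal.span (Set.range (a₁₂₃ l)) * Ideal.span (Set.range (a₁ l)) *
        Ideal.span (Set.range (a₂ l)) * Ideal.span (Set.range (a₃ l))
      = Ideal.span (Set.range (a₁₂ l)) * Ideal.span (Set.range (a₁₃ l)) *
        Ideal.span (Set.range (a₂₃ l)))
    {N₁ : ℕ} (hN₁ : N₁ ≠ 0) {C₁ : ℝ} (hC₁ : 1 ≤ C₁) :
    ∃ C : ℝ, 1 ≤ C ∧ ∀ (L : Type w) [Field L] [NumberField L]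
      (x₁₂₃ : ι₁₂₃ → L) (x₁ : ι₁ → L) (x₂ : ι₂ → L) (x₃ : ι₃ → L)
      (x₁₂ : ι₁₂ → L) (x₁₃ : ι₁₃ → L) (x₂₃ : ι₂₃ → L),
      x₁₂₃ ≠ 0 → x₁ ≠ 0 → x₂ ≠ 0 → x₃ ≠ 0 → x₁₂ ≠ 0 → x₁₃ ≠ 0 → x₂₃ ≠ 0 →
      (∀ v ∈ archAbsVal (K := L),
        CubeChartAt g a₁₂₃ a₁ a₂ a₃ a₁₂ a₁₃ a₂₃ x₁₂₃ x₁ x₂ x₃ x₁₂ x₁₃ x₂₃ v C₁) →
      (∀ v ∈ nonarchAbsVal (K := L),
        CubeChartAt g a₁₂₃ a₁ a₂ a₃ a₁₂ a₁₃ a₂₃ x₁₂₃ x₁ x₂ x₃ x₁₂ x₁₃ x₂₃ v (v (N₁ : L))⁻¹) →
      |logHeight x₁₂₃ - logHeight x₁₂ - logHeight x₁₃ - logHeight x₂₃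
          + logHeight x₁ + logHeight x₂ + logHeight x₃|
        ≤ Module.finrank ℚ L * Real.log C := by
  have hab : ∀ l, Ideal.span (Set.range (segre₄ (a₁₂₃ l) (a₁ l) (a₂ l) (a₃ l)))
      = Ideal.span (Set.range (segre₃ (a₁₂ l) (a₁₃ l) (a₂₃ l))) := fun l => by
    rw [span_range_segre₄, span_range_segre₃]
    exact hid l
  obtain ⟨C, hC, h⟩ := abs_logHeight_sub_le_of_charts.{w} g hint
    (fun l => segre₄ (a₁₂₃ l) (a₁ l) (a₂ l) (a₃ l)) (fun l => segre₃ (a₁₂ l) (a₁₃ l) (a₂₃ l))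
    hab hN₁ hC₁
  refine ⟨C, hC, ?_⟩
  intro L _ _ x₁₂₃ x₁ x₂ x₃ x₁₂ x₁₃ x₂₃ h₁₂₃ h₁ h₂ h₃ h₁₂ h₁₃ h₂₃ harch hnon
  have hfin := h L (segre₄ x₁₂₃ x₁ x₂ x₃) (segre₃ x₁₂ x₁₃ x₂₃)
    (segre₄_ne_zero h₁₂₃ h₁ h₂ h₃) (segre₃_ne_zero h₁₂ h₁₃ h₂₃)
    (fun v hv => (harch v hv).exists_chart) (fun v hv => (hnon v hv).exists_chart)
  rw [logHeight_segre₄ h₁₂₃ h₁ h₂ h₃, logHeight_segre₃ h₁₂ h₁₃ h₂₃] at hfin
  have e : logHeight x₁₂₃ - logHeight x₁₂ - logHeight x₁₃ - logHeight x₂₃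
      + logHeight x₁ + logHeight x₂ + logHeight x₃
      = logHeight x₁₂₃ + logHeight x₁ + logHeight x₂ + logHeight x₃
        - (logHeight x₁₂ + logHeight x₁₃ + logHeight x₂₃) := by ring
  rw [e]
  exact hfin

/-- The height over `L` of a vector proportional to a `ℚ`-rational vector. -/
theorem logHeight_eq_finrank_mul_of_rat {L : Type*} [Field L] [NumberField L] {ι : Type*}
    [Finite ι] (x : ι → L) (hx : x ≠ 0) (X : ι → ℚ) (c : L)
    (hxX : ∀ i, x i = c * algebraMap ℚ L (X i)) :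
    logHeight x = Module.finrank ℚ L * logHeight X := by
  have hc : c ≠ 0 := by
    rintro rfl
    exact hx (funext fun i => by rw [hxX i, zero_mul]; rfl)
  have hx' : x = c • fun i => algebraMap ℚ L (X i) := funext fun i => by
    rw [hxX i]; rfl
  rw [hx', logHeight_smul_eq_logHeight _ hc, Fermat.Agent.Lib.helper3588.logHeight_algebraMap]

/-- **Cube form for `ℚ`-rational Plücker vectors (H5), one-sided.** Same hypotheses as
`cube_logHeight_le_of_charts`; if moreover each `x_S` is proportional to a `ℚ`-rational vector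
`X_S`, then the alternating sum of the seven heights over `ℚ` is at most `log C`, where `C`
does not depend on the number field `L` over which the points are defined. -/
theorem cube_logHeight_rat_le_of_charts [Finite ι₁₂₃] [Finite ι₁] [Finite ι₂] [Finite ι₃]
    [Finite ι₁₂] [Finite ι₁₃] [Finite ι₂₃] (g : ∀ l, γ → R l)
    (hint : ∀ l, Algebra.IsIntegral (Algebra.adjoin ℚ (Set.range (g l))) (R l))
    (a₁₂₃ : ∀ l, ι₁₂₃ → R l) (a₁ : ∀ l, ι₁ → R l) (a₂ : ∀ l, ι₂ → R l) (a₃ : ∀ l, ι₃ → R l)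
    (a₁₂ : ∀ l, ι₁₂ → R l) (a₁₃ : ∀ l, ι₁₃ → R l) (a₂₃ : ∀ l, ι₂₃ → R l)
    (hid : ∀ l, Ideal.span (Set.range (a₁₂₃ l)) * Ideal.span (Set.range (a₁ l)) *
        Ideal.span (Set.range (a₂ l)) * Ideal.span (Set.range (a₃ l))
      ≤ Ideal.span (Set.range (a₁₂ l)) * Ideal.span (Set.range (a₁₃ l)) *
        Ideal.span (Set.range (a₂₃ l)))
    {N₁ : ℕ} (hN₁ : N₁ ≠ 0) {C₁ : ℝ} (hC₁ : 1 ≤ C₁) :
    ∃ C : ℝ, 1 ≤ C ∧ ∀ (L : Type w) [Field L] [NumberField L]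
      (x₁₂₃ : ι₁₂₃ → L) (x₁ : ι₁ → L) (x₂ : ι₂ → L) (x₃ : ι₃ → L)
      (x₁₂ : ι₁₂ → L) (x₁₃ : ι₁₃ → L) (x₂₃ : ι₂₃ → L),
      x₁₂₃ ≠ 0 → x₁ ≠ 0 → x₂ ≠ 0 → x₃ ≠ 0 → x₁₂ ≠ 0 → x₁₃ ≠ 0 → x₂₃ ≠ 0 →
      (∀ v ∈ archAbsVal (K := L),
        CubeChartAt g a₁₂₃ a₁ a₂ a₃ a₁₂ a₁₃ a₂₃ x₁₂₃ x₁ x₂ x₃ x₁₂ x₁₃ x₂₃ v C₁) →
      (∀ v ∈ nonarchAbsVal (K := L),
        CubeChartAt g a₁₂₃ a₁ a₂ a₃ a₁₂ a₁₃ a₂₃ x₁₂₃ x₁ x₂ x₃ x₁₂ x₁₃ x₂₃ v (v (N₁ : L))⁻¹) →
      ∀ (X₁₂₃ : ι₁₂₃ → ℚ) (X₁ : ι₁ → ℚ) (X₂ : ι₂ → ℚ) (X₃ : ι₃ → ℚ)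
        (X₁₂ : ι₁₂ → ℚ) (X₁₃ : ι₁₃ → ℚ) (X₂₃ : ι₂₃ → ℚ) (c₁₂₃ c₁ c₂ c₃ c₁₂ c₁₃ c₂₃ : L),
        (∀ i, x₁₂₃ i = c₁₂₃ * algebraMap ℚ L (X₁₂₃ i)) → (∀ i, x₁ i = c₁ * algebraMap ℚ L (X₁ i)) →
        (∀ i, x₂ i = c₂ * algebraMap ℚ L (X₂ i)) → (∀ i, x₃ i = c₃ * algebraMap ℚ L (X₃ i)) →
        (∀ i, x₁₂ i = c₁₂ * algebraMap ℚ L (X₁₂ i)) → (∀ i, x₁₃ i = c₁₃ * algebraMap ℚ L (X₁₃ i)) →
        (∀ i, x₂₃ i = c₂₃ * algebraMap ℚ L (X₂₃ i)) →
        logHeight X₁₂₃ - logHeight X₁₂ - logHeight X₁₃ - logHeight X₂₃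
            + logHeight X₁ + logHeight X₂ + logHeight X₃ ≤ Real.log C := by
  obtain ⟨C, hC, h⟩ := cube_logHeight_le_of_charts.{w} g hint a₁₂₃ a₁ a₂ a₃ a₁₂ a₁₃ a₂₃ hid
    hN₁ hC₁
  refine ⟨C, hC, ?_⟩
  intro L _ _ x₁₂₃ x₁ x₂ x₃ x₁₂ x₁₃ x₂₃ h₁₂₃ h₁ h₂ h₃ h₁₂ h₁₃ h₂₃ harch hnon
    X₁₂₃ X₁ X₂ X₃ X₁₂ X₁₃ X₂₃ c₁₂₃ c₁ c₂ c₃ c₁₂ c₁₃ c₂₃ e₁₂₃ e₁ e₂ e₃ e₁₂ e₁₃ e₂₃
  have hfin := h L x₁₂₃ x₁ x₂ x₃ x₁₂ x₁₃ x₂₃ h₁₂₃ h₁ h₂ h₃ h₁₂ h₁₃ h₂₃ harch hnon
  rw [logHeight_eq_finrank_mul_of_rat x₁₂₃ h₁₂₃ X₁₂₃ c₁₂₃ e₁₂₃,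
    logHeight_eq_finrank_mul_of_rat x₁ h₁ X₁ c₁ e₁, logHeight_eq_finrank_mul_of_rat x₂ h₂ X₂ c₂ e₂,
    logHeight_eq_finrank_mul_of_rat x₃ h₃ X₃ c₃ e₃,
    logHeight_eq_finrank_mul_of_rat x₁₂ h₁₂ X₁₂ c₁₂ e₁₂,
    logHeight_eq_finrank_mul_of_rat x₁₃ h₁₃ X₁₃ c₁₃ e₁₃,
    logHeight_eq_finrank_mul_of_rat x₂₃ h₂₃ X₂₃ c₂₃ e₂₃] at hfin
  have hf : (0 : ℝ) < Module.finrank ℚ L := by exact_mod_cast Module.finrank_pos
  have e : (Module.finrank ℚ L : ℝ) * logHeight X₁₂₃ - Module.finrank ℚ L * logHeight X₁₂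
      - Module.finrank ℚ L * logHeight X₁₃ - Module.finrank ℚ L * logHeight X₂₃
      + Module.finrank ℚ L * logHeight X₁ + Module.finrank ℚ L * logHeight X₂
      + Module.finrank ℚ L * logHeight X₃
      = Module.finrank ℚ L * (logHeight X₁₂₃ - logHeight X₁₂ - logHeight X₁₃ - logHeight X₂₃
            + logHeight X₁ + logHeight X₂ + logHeight X₃) := by ring
  rw [e] at hfin
  exact le_of_mul_le_mul_left hfin hf

/-- **Cube form for `ℚ`-rational Plücker vectors (H5), two-sided.** -/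
theorem abs_cube_logHeight_rat_le_of_charts [Finite ι₁₂₃] [Finite ι₁] [Finite ι₂] [Finite ι₃]
    [Finite ι₁₂] [Finite ι₁₃] [Finite ι₂₃] (g : ∀ l, γ → R l)
    (hint : ∀ l, Algebra.IsIntegral (Algebra.adjoin ℚ (Set.range (g l))) (R l))
    (a₁₂₃ : ∀ l, ι₁₂₃ → R l) (a₁ : ∀ l, ι₁ → R l) (a₂ : ∀ l, ι₂ → R l) (a₃ : ∀ l, ι₃ → R l)
    (a₁₂ : ∀ l, ι₁₂ → R l) (a₁₃ : ∀ l, ι₁₃ → R l) (a₂₃ : ∀ l, ι₂₃ → R l)
    (hid : ∀ l, Ideal.span (Set.range (a₁₂₃ l)) * Ideal.span (Set.range (a₁ l)) *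
        Ideal.span (Set.range (a₂ l)) * Ideal.span (Set.range (a₃ l))
      = Ideal.span (Set.range (a₁₂ l)) * Ideal.span (Set.range (a₁₃ l)) *
        Ideal.span (Set.range (a₂₃ l)))
    {N₁ : ℕ} (hN₁ : N₁ ≠ 0) {C₁ : ℝ} (hC₁ : 1 ≤ C₁) :
    ∃ C : ℝ, 1 ≤ C ∧ ∀ (L : Type w) [Field L] [NumberField L]
      (x₁₂₃ : ι₁₂₃ → L) (x₁ : ι₁ → L) (x₂ : ι₂ → L) (x₃ : ι₃ → L)
      (x₁₂ : ι₁₂ → L) (x₁₃ : ι₁₃ → L) (x₂₃ : ι₂₃ → L),
      x₁₂₃ ≠ 0 → x₁ ≠ 0 → x₂ ≠ 0 → x₃ ≠ 0 → x₁₂ ≠ 0 → x₁₃ ≠ 0 → x₂₃ ≠ 0 →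
      (∀ v ∈ archAbsVal (K := L),
        CubeChartAt g a₁₂₃ a₁ a₂ a₃ a₁₂ a₁₃ a₂₃ x₁₂₃ x₁ x₂ x₃ x₁₂ x₁₃ x₂₃ v C₁) →
      (∀ v ∈ nonarchAbsVal (K := L),
        CubeChartAt g a₁₂₃ a₁ a₂ a₃ a₁₂ a₁₃ a₂₃ x₁₂₃ x₁ x₂ x₃ x₁₂ x₁₃ x₂₃ v (v (N₁ : L))⁻¹) →
      ∀ (X₁₂₃ : ι₁₂₃ → ℚ) (X₁ : ι₁ → ℚ) (X₂ : ι₂ → ℚ) (X₃ : ι₃ → ℚ)
        (X₁₂ : ι₁₂ → ℚ) (X₁₃ : ι₁₃ → ℚ) (X₂₃ : ι₂₃ → ℚ) (c₁₂₃ c₁ c₂ c₃ c₁₂ c₁₃ c₂₃ : L),
        (∀ i, x₁₂₃ i = c₁₂₃ * algebraMap ℚ L (X₁₂₃ i)) → (∀ i, x₁ i = c₁ * algebraMap ℚ L (X₁ i)) →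
        (∀ i, x₂ i = c₂ * algebraMap ℚ L (X₂ i)) → (∀ i, x₃ i = c₃ * algebraMap ℚ L (X₃ i)) →
        (∀ i, x₁₂ i = c₁₂ * algebraMap ℚ L (X₁₂ i)) → (∀ i, x₁₃ i = c₁₃ * algebraMap ℚ L (X₁₃ i)) →
        (∀ i, x₂₃ i = c₂₃ * algebraMap ℚ L (X₂₃ i)) →
        |logHeight X₁₂₃ - logHeight X₁₂ - logHeight X₁₃ - logHeight X₂₃
            + logHeight X₁ + logHeight X₂ + logHeight X₃| ≤ Real.log C := by
  obtain ⟨C, hC, h⟩ := abs_cube_logHeight_le_of_charts.{w} g hint a₁₂₃ a₁ a₂ a₃ a₁₂ a₁₃ a₂₃ hid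
    hN₁ hC₁
  refine ⟨C, hC, ?_⟩
  intro L _ _ x₁₂₃ x₁ x₂ x₃ x₁₂ x₁₃ x₂₃ h₁₂₃ h₁ h₂ h₃ h₁₂ h₁₃ h₂₃ harch hnon
    X₁₂₃ X₁ X₂ X₃ X₁₂ X₁₃ X₂₃ c₁₂₃ c₁ c₂ c₃ c₁₂ c₁₃ c₂₃ e₁₂₃ e₁ e₂ e₃ e₁₂ e₁₃ e₂₃
  have hfin := h L x₁₂₃ x₁ x₂ x₃ x₁₂ x₁₃ x₂₃ h₁₂₃ h₁ h₂ h₃ h₁₂ h₁₃ h₂₃ harch hnon
  rw [logHeight_eq_finrank_mul_of_rat x₁₂₃ h₁₂₃ X₁₂₃ c₁₂₃ e₁₂₃,
    logHeight_eq_finrank_mul_of_rat x₁ h₁ X₁ c₁ e₁, logHeight_eq_finrank_mul_of_rat x₂ h₂ X₂ c₂ e₂,
    logHeight_eq_finrank_mul_of_rat x₃ h₃ X₃ c₃ e₃,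
    logHeight_eq_finrank_mul_of_rat x₁₂ h₁₂ X₁₂ c₁₂ e₁₂,
    logHeight_eq_finrank_mul_of_rat x₁₃ h₁₃ X₁₃ c₁₃ e₁₃,
    logHeight_eq_finrank_mul_of_rat x₂₃ h₂₃ X₂₃ c₂₃ e₂₃] at hfin
  have hf : (0 : ℝ) < Module.finrank ℚ L := by exact_mod_cast Module.finrank_pos
  have e : (Module.finrank ℚ L : ℝ) * logHeight X₁₂₃ - Module.finrank ℚ L * logHeight X₁₂
      - Module.finrank ℚ L * logHeight X₁₃ - Module.finrank ℚ L * logHeight X₂₃
      + Module.finrank ℚ L * logHeight X₁ + Module.finrank ℚ L * logHeight X₂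
      + Module.finrank ℚ L * logHeight X₃
      = Module.finrank ℚ L * (logHeight X₁₂₃ - logHeight X₁₂ - logHeight X₁₃ - logHeight X₂₃
            + logHeight X₁ + logHeight X₂ + logHeight X₃) := by ring
  rw [e, abs_mul, abs_of_pos hf] at hfin
  exact le_of_mul_le_mul_left hfin hf

end Cube

section Consumer

/-- Integrality of a chart ring over `ℚ[g]` may be checked on `ℚ`-algebra generators. -/
theorem algebra_isIntegral_of_generators {R : Type*} [CommRing R] [Algebra ℚ R] {γ : Type*}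
    (g : γ → R) (S : Set R) (hS : Algebra.adjoin ℚ S = ⊤)
    (h : ∀ s ∈ S, IsIntegral (Algebra.adjoin ℚ (Set.range g)) s) :
    Algebra.IsIntegral (Algebra.adjoin ℚ (Set.range g)) R := by
  refine ⟨fun r => ?_⟩
  have hle : Algebra.adjoin ℚ S ≤
      (integralClosure (Algebra.adjoin ℚ (Set.range g)) R).restrictScalars ℚ :=
    Algebra.adjoin_le fun s hs => h s hs
  have hr : r ∈ Algebra.adjoin ℚ S := by rw [hS]; exact Algebra.mem_top
  exact hle hr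

/-- **Chart choice (H3), ratio form, nonarchimedean places**: for some node `l ∈ T` the chart
coordinates `e i s / f_l (P_i)` of all the points lie in the region of radius
`(v (chartDen T M))⁻¹`. -/
theorem exists_chart_region_nonarch {L : Type*} [Field L] [CharZero L] (v : AbsoluteValue L ℝ)
    (hv : IsNonarchimedean v) {π : Type*} [Finite π] (M : ℕ) (T : Finset ℕ)
    (hT : Nat.card π * M < T.card) (e : π → Fin (M + 1) → L) (he : ∀ i, e i ≠ 0) :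
    ∃ l ∈ T, ∀ i, nodeSection (e i) l ≠ 0 ∧
      ∀ s, v (e i s / nodeSection (e i) l) ≤ (v (chartDen T M : L))⁻¹ := by
  obtain ⟨l, hl, h⟩ := exists_chart_nonarch v hv M T hT e
  have hden : 0 < v (chartDen T M : L) := v.pos (Nat.cast_ne_zero.mpr (chartDen_ne_zero T M))
  refine ⟨l, hl, fun i => ?_⟩
  obtain ⟨s0, hs0⟩ := Function.ne_iff.mp (he i)
  have hpos : 0 < v (nodeSection (e i) l) :=
    lt_of_lt_of_le (mul_pos hden (v.pos hs0)) (h i s0)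
  refine ⟨v.pos_iff.mp hpos, fun s => ?_⟩
  rw [map_div₀, div_le_iff₀ hpos, inv_mul_eq_div, le_div_iff₀ hden, mul_comm]
  exact h i s

/-- **Chart choice (H3), ratio form, archimedean places.** -/
theorem exists_chart_region_arch {L : Type*} [Field L] (v : AbsoluteValue L ℝ)
    (hv : ∀ k : ℕ, k ≠ 0 → 1 ≤ v (k : L)) {π : Type*} [Finite π] (M : ℕ) (T : Finset ℕ)
    (hT : Nat.card π * M < T.card) (e : π → Fin (M + 1) → L) (he : ∀ i, e i ≠ 0) :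
    ∃ l ∈ T, ∀ i, nodeSection (e i) l ≠ 0 ∧
      ∀ s, v (e i s / nodeSection (e i) l) ≤ chartConst T M := by
  obtain ⟨l, hl, h⟩ := exists_chart_arch v hv M T hT e
  have hC : 0 < chartConst T M := zero_lt_one.trans_le (one_le_chartConst T M)
  refine ⟨l, hl, fun i => ?_⟩
  obtain ⟨s0, hs0⟩ := Function.ne_iff.mp (he i)
  have hpos : 0 < v (nodeSection (e i) l) := by
    have h1 : 0 < chartConst T M * v (nodeSection (e i) l) := lt_of_lt_of_le (v.pos hs0) (h i s0)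
    by_contra hn
    have h0 : v (nodeSection (e i) l) = 0 := le_antisymm (not_lt.mp hn) (v.nonneg _)
    rw [h0, mul_zero] at h1
    exact lt_irrefl _ h1
  refine ⟨v.pos_iff.mp hpos, fun s => ?_⟩
  rw [map_div₀, div_le_iff₀ hpos]
  exact h i s

end Consumer

end Fermat.Agent.S17.helper1395
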