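/-
S17 G2-ASM (ASM-C + H5 glued) — helper1164.

The cube inequality for POINTS WITH VALUES IN AN ALGEBRAIC EXTENSION `Ω` of `ℚ` (e.g.
`Ω = AlgebraicClosure ℚ`) of chart rings `R l` which are only assumed integral over `ℚ[g l]`
(no finite generation: e.g. tensor powers over `Qbar` of integral closures).

Input, chart side (depends on nothing but the charts): `g`, the seven families `a_S`, `hint`,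
`hid` exactly as in `helper1395.cube_logHeight_le_of_charts`, except that integrality is asked
elementwise.

Input, point side: seven vectors `x_S` with entries in `Ω`; a FINITE family of candidate points
`χ p : R (chart p) →+* Ω` (`p : P`; in the application `P` = the charts containing the given tuple
of points of the curve), at each of which the seven vectors are the values of the seven families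
up to scalars `ν_S` with `ν₁₂₃ ν₁ ν₂ ν₃ = ν₁₂ ν₁₃ ν₂₃ ≠ 0` (`CubePointAt`); a finite set `s ⊆ Ω`
of one's choice; and the REGION hypothesis: for every number field `L ⊆ Ω` containing `s` and the
chart coordinates `χ p (g k)` of all candidate points, at every place of `L` some candidate point
lies in the region (radius `C₁` at the archimedean places, `(v N₁)⁻¹` at the others).

Output: `exists_numberField_cube_logHeight_le` (over one number field `L ⊇ s`),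
`cube_absLogHeight_le_of_points` (absolute heights of `helper927`), and
`cube_logHeight_rat_le_of_points` (for `ℚ`-rational vectors proportional to the `x_S`).
-/
import Mathlib
import Fermat.Agent.Lib.helper927_AbsHeight
import Fermat.Agent.S17.helper1395_CubeHeight
import Fermat.Agent.S17.helper1164_AdjoinAdapter

set_option autoImplicit false

namespace Fermat.Agent.S17.helper1164

open Height AdmissibleAbsValues NumberField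
open Fermat.Agent.Lib.helper927 (absLogHeight)

universe w u

section CubeQbar

variable {Λ : Type*} [Finite Λ] {R : Λ → Type*} [∀ l, CommRing (R l)] [∀ l, Algebra ℚ (R l)]
  {γ ι₁₂₃ ι₁ ι₂ ι₃ ι₁₂ ι₁₃ ι₂₃ : Type*}

/-- The seven vectors `x_S` (entries in `Ω`) are, up to normalising scalars `ν_S` with
`ν₁₂₃ * ν₁ * ν₂ * ν₃ = ν₁₂ * ν₁₃ * ν₂₃ ≠ 0`, the values at the point `χ` of the chart `l` of the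
seven chart families `a_S l`. -/
def CubePointAt {Ω : Type*} [Field Ω]
    (a₁₂₃ : ∀ l, ι₁₂₃ → R l) (a₁ : ∀ l, ι₁ → R l) (a₂ : ∀ l, ι₂ → R l) (a₃ : ∀ l, ι₃ → R l)
    (a₁₂ : ∀ l, ι₁₂ → R l) (a₁₃ : ∀ l, ι₁₃ → R l) (a₂₃ : ∀ l, ι₂₃ → R l)
    (x₁₂₃ : ι₁₂₃ → Ω) (x₁ : ι₁ → Ω) (x₂ : ι₂ → Ω) (x₃ : ι₃ → Ω)
    (x₁₂ : ι₁₂ → Ω) (x₁₃ : ι₁₃ → Ω) (x₂₃ : ι₂₃ → Ω) (l : Λ) (χ : R l →+* Ω) : Prop :=
  ∃ ν₁₂₃ ν₁ ν₂ ν₃ ν₁₂ ν₁₃ ν₂₃ : Ω,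
    ν₁₂₃ * ν₁ * ν₂ * ν₃ = ν₁₂ * ν₁₃ * ν₂₃ ∧ ν₁₂ * ν₁₃ * ν₂₃ ≠ 0 ∧
    (∀ i, x₁₂₃ i = ν₁₂₃ * χ (a₁₂₃ l i)) ∧ (∀ i, x₁ i = ν₁ * χ (a₁ l i)) ∧
    (∀ i, x₂ i = ν₂ * χ (a₂ l i)) ∧ (∀ i, x₃ i = ν₃ * χ (a₃ l i)) ∧
    (∀ i, x₁₂ i = ν₁₂ * χ (a₁₂ l i)) ∧ (∀ i, x₁₃ i = ν₁₃ * χ (a₁₃ l i)) ∧
    (∀ i, x₂₃ i = ν₂₃ * χ (a₂₃ l i))

omit [Finite Λ] in
/-- A nonzero tuple stays nonzero when its entries are viewed in an intermediate field. -/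
theorem liftFun_ne_zero {Ω : Type*} [Field Ω] [CharZero Ω] (L : IntermediateField ℚ Ω)
    {ι : Type*} (x : ι → Ω) (m : ∀ i, x i ∈ L) (hx : x ≠ 0) :
    (fun i => (⟨x i, m i⟩ : L)) ≠ 0 := fun h0 =>
  hx (funext fun i => congrArg Subtype.val (congrFun h0 i))

/-- **Cube inequality for `Ω`-points, number-field form.** -/
theorem exists_numberField_cube_logHeight_le [Finite ι₁₂₃] [Finite ι₁] [Finite ι₂] [Finite ι₃]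
    [Finite ι₁₂] [Finite ι₁₃] [Finite ι₂₃] [Finite γ] (g : ∀ l, γ → R l)
    (hint : ∀ l (r : R l), IsIntegral (Algebra.adjoin ℚ (Set.range (g l))) r)
    (a₁₂₃ : ∀ l, ι₁₂₃ → R l) (a₁ : ∀ l, ι₁ → R l) (a₂ : ∀ l, ι₂ → R l) (a₃ : ∀ l, ι₃ → R l)
    (a₁₂ : ∀ l, ι₁₂ → R l) (a₁₃ : ∀ l, ι₁₃ → R l) (a₂₃ : ∀ l, ι₂₃ → R l)
    (hid : ∀ l, Ideal.span (Set.range (a₁₂₃ l)) * Ideal.span (Set.range (a₁ l)) *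
        Ideal.span (Set.range (a₂ l)) * Ideal.span (Set.range (a₃ l))
      ≤ Ideal.span (Set.range (a₁₂ l)) * Ideal.span (Set.range (a₁₃ l)) *
        Ideal.span (Set.range (a₂₃ l)))
    {N₁ : ℕ} (hN₁ : N₁ ≠ 0) {C₁ : ℝ} (hC₁ : 1 ≤ C₁) :
    ∃ C : ℝ, 1 ≤ C ∧ ∀ (Ω : Type w) [Field Ω] [CharZero Ω] [Algebra.IsAlgebraic ℚ Ω]
      (x₁₂₃ : ι₁₂₃ → Ω) (x₁ : ι₁ → Ω) (x₂ : ι₂ → Ω) (x₃ : ι₃ → Ω)
      (x₁₂ : ι₁₂ → Ω) (x₁₃ : ι₁₃ → Ω) (x₂₃ : ι₂₃ → Ω),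
      x₁₂₃ ≠ 0 → x₁ ≠ 0 → x₂ ≠ 0 → x₃ ≠ 0 → x₁₂ ≠ 0 → x₁₃ ≠ 0 → x₂₃ ≠ 0 →
      ∀ (P : Type u) [Finite P] (chart : P → Λ) (χ : ∀ p, R (chart p) →+* Ω),
      (∀ p, CubePointAt a₁₂₃ a₁ a₂ a₃ a₁₂ a₁₃ a₂₃ x₁₂₃ x₁ x₂ x₃ x₁₂ x₁₃ x₂₃ (chart p) (χ p)) →
      ∀ s : Set Ω, s.Finite →
      (∀ (L : IntermediateField ℚ Ω) [NumberField L], s ⊆ L →
        ∀ hL : ∀ p k, χ p (g (chart p) k) ∈ L,
          (∀ v ∈ archAbsVal (K := L), ∃ p, ∀ k,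
            v (⟨χ p (g (chart p) k), hL p k⟩ : L) ≤ C₁) ∧
          (∀ v ∈ nonarchAbsVal (K := L), ∃ p, ∀ k,
            v (⟨χ p (g (chart p) k), hL p k⟩ : L) ≤ (v (N₁ : L))⁻¹)) →
      ∃ (L : IntermediateField ℚ Ω) (_ : NumberField L), s ⊆ L ∧
        ∃ (y₁₂₃ : ι₁₂₃ → L) (y₁ : ι₁ → L) (y₂ : ι₂ → L) (y₃ : ι₃ → L)
          (y₁₂ : ι₁₂ → L) (y₁₃ : ι₁₃ → L) (y₂₃ : ι₂₃ → L),
          (∀ i, (y₁₂₃ i : Ω) = x₁₂₃ i) ∧ (∀ i, (y₁ i : Ω) = x₁ i) ∧ (∀ i, (y₂ i : Ω) = x₂ i) ∧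
          (∀ i, (y₃ i : Ω) = x₃ i) ∧ (∀ i, (y₁₂ i : Ω) = x₁₂ i) ∧ (∀ i, (y₁₃ i : Ω) = x₁₃ i) ∧
          (∀ i, (y₂₃ i : Ω) = x₂₃ i) ∧
          logHeight y₁₂₃ - logHeight y₁₂ - logHeight y₁₃ - logHeight y₂₃
              + logHeight y₁ + logHeight y₂ + logHeight y₃
            ≤ Module.finrank ℚ L * Real.log C := by
  classical
  -- Step 1: finitely generated subalgebras of the chart rings, chosen once and for all.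
  have h0 := fun l => exists_fg_subalgebra_cube (g l) (a₁₂₃ l) (a₁ l) (a₂ l) (a₃ l) (a₁₂ l)
    (a₁₃ l) (a₂₃ l) ∅ Set.finite_empty (hint l) (hid l)
  choose R0 hfg _hT hg h₁₂₃ h₁ h₂ h₃ h₁₂ h₁₃ h₂₃ hid0 hint0 using h0
  -- Step 2: the cube theorem for the subalgebras.
  obtain ⟨C, hC, hmain⟩ := Fermat.Agent.S17.helper1395.cube_logHeight_le_of_charts.{w}
    (R := fun l => R0 l) (fun l k => (⟨g l k, hg l k⟩ : R0 l)) hint0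
    (fun l i => (⟨a₁₂₃ l i, h₁₂₃ l i⟩ : R0 l)) (fun l i => (⟨a₁ l i, h₁ l i⟩ : R0 l))
    (fun l i => (⟨a₂ l i, h₂ l i⟩ : R0 l)) (fun l i => (⟨a₃ l i, h₃ l i⟩ : R0 l))
    (fun l i => (⟨a₁₂ l i, h₁₂ l i⟩ : R0 l)) (fun l i => (⟨a₁₃ l i, h₁₃ l i⟩ : R0 l))
    (fun l i => (⟨a₂₃ l i, h₂₃ l i⟩ : R0 l)) hid0 hN₁ hC₁
  refine ⟨C, hC, ?_⟩
  intro Ω _ _ _ x₁₂₃ x₁ x₂ x₃ x₁₂ x₁₃ x₂₃ n₁₂₃ n₁ n₂ n₃ n₁₂ n₁₃ n₂₃ P _ chart χ hpt s hs hreg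
  choose ν₁₂₃ ν₁ ν₂ ν₃ ν₁₂ ν₁₃ ν₂₃ hν hν0 e₁₂₃ e₁ e₂ e₃ e₁₂ e₁₃ e₂₃ using hpt
  -- Step 3: one number field for everything.
  have hfx : (Set.range x₁₂₃ ∪ Set.range x₁ ∪ Set.range x₂ ∪ Set.range x₃ ∪ Set.range x₁₂ ∪
      Set.range x₁₃ ∪ Set.range x₂₃).Finite :=
    (((((Set.finite_range x₁₂₃).union (Set.finite_range x₁)).union
      (Set.finite_range x₂)).union (Set.finite_range x₃)).union (Set.finite_range x₁₂)).union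
      (Set.finite_range x₁₃) |>.union (Set.finite_range x₂₃)
  have hfν : (Set.range ν₁₂₃ ∪ Set.range ν₁ ∪ Set.range ν₂ ∪ Set.range ν₃ ∪ Set.range ν₁₂ ∪
      Set.range ν₁₃ ∪ Set.range ν₂₃).Finite :=
    (((((Set.finite_range ν₁₂₃).union (Set.finite_range ν₁)).union
      (Set.finite_range ν₂)).union (Set.finite_range ν₃)).union (Set.finite_range ν₁₂)).union
      (Set.finite_range ν₁₃) |>.union (Set.finite_range ν₂₃)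
  obtain ⟨L, hNF, hsL, hφ⟩ := exists_numberField_corestrict_of_isAlgebraic
    (fun p => R0 (chart p)) (fun p => hfg (chart p)) χ
    (s ∪ (Set.range x₁₂₃ ∪ Set.range x₁ ∪ Set.range x₂ ∪ Set.range x₃ ∪ Set.range x₁₂ ∪
        Set.range x₁₃ ∪ Set.range x₂₃) ∪
      (Set.range ν₁₂₃ ∪ Set.range ν₁ ∪ Set.range ν₂ ∪ Set.range ν₃ ∪ Set.range ν₁₂ ∪
        Set.range ν₁₃ ∪ Set.range ν₂₃))
    ((hs.union hfx).union hfν)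
  choose φ hφ using hφ
  have hsL' : s ⊆ L := fun z hz => hsL (Or.inl (Or.inl hz))
  have m₁₂₃ : ∀ i, x₁₂₃ i ∈ L := fun i => hsL (Or.inl (Or.inr (Or.inl (Or.inl (Or.inl
    (Or.inl (Or.inl (Or.inl ⟨i, rfl⟩))))))))
  have m₁ : ∀ i, x₁ i ∈ L := fun i => hsL (Or.inl (Or.inr (Or.inl (Or.inl (Or.inl
    (Or.inl (Or.inl (Or.inr ⟨i, rfl⟩))))))))
  have m₂ : ∀ i, x₂ i ∈ L := fun i => hsL (Or.inl (Or.inr (Or.inl (Or.inl (Or.inl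
    (Or.inl (Or.inr ⟨i, rfl⟩)))))))
  have m₃ : ∀ i, x₃ i ∈ L := fun i => hsL (Or.inl (Or.inr (Or.inl (Or.inl (Or.inl
    (Or.inr ⟨i, rfl⟩))))))
  have m₁₂ : ∀ i, x₁₂ i ∈ L := fun i => hsL (Or.inl (Or.inr (Or.inl (Or.inl
    (Or.inr ⟨i, rfl⟩)))))
  have m₁₃ : ∀ i, x₁₃ i ∈ L := fun i => hsL (Or.inl (Or.inr (Or.inl (Or.inr ⟨i, rfl⟩))))
  have m₂₃ : ∀ i, x₂₃ i ∈ L := fun i => hsL (Or.inl (Or.inr (Or.inr ⟨i, rfl⟩)))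
  have k₁₂₃ : ∀ p, ν₁₂₃ p ∈ L := fun p => hsL (Or.inr (Or.inl (Or.inl (Or.inl
    (Or.inl (Or.inl (Or.inl ⟨p, rfl⟩)))))))
  have k₁ : ∀ p, ν₁ p ∈ L := fun p => hsL (Or.inr (Or.inl (Or.inl (Or.inl
    (Or.inl (Or.inl (Or.inr ⟨p, rfl⟩)))))))
  have k₂ : ∀ p, ν₂ p ∈ L := fun p => hsL (Or.inr (Or.inl (Or.inl (Or.inl
    (Or.inl (Or.inr ⟨p, rfl⟩))))))
  have k₃ : ∀ p, ν₃ p ∈ L := fun p => hsL (Or.inr (Or.inl (Or.inl (Or.inl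
    (Or.inr ⟨p, rfl⟩)))))
  have k₁₂ : ∀ p, ν₁₂ p ∈ L := fun p => hsL (Or.inr (Or.inl (Or.inl (Or.inr ⟨p, rfl⟩))))
  have k₁₃ : ∀ p, ν₁₃ p ∈ L := fun p => hsL (Or.inr (Or.inl (Or.inr ⟨p, rfl⟩)))
  have k₂₃ : ∀ p, ν₂₃ p ∈ L := fun p => hsL (Or.inr (Or.inr ⟨p, rfl⟩))
  have hL : ∀ p k, χ p (g (chart p) k) ∈ L := fun p k => by
    have h := hφ p ⟨g (chart p) k, hg (chart p) k⟩
    exact h ▸ (φ p _).2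
  obtain ⟨harch, hnon⟩ := hreg L hsL' hL
  refine ⟨L, hNF, hsL', fun i => ⟨x₁₂₃ i, m₁₂₃ i⟩, fun i => ⟨x₁ i, m₁ i⟩,
    fun i => ⟨x₂ i, m₂ i⟩, fun i => ⟨x₃ i, m₃ i⟩, fun i => ⟨x₁₂ i, m₁₂ i⟩,
    fun i => ⟨x₁₃ i, m₁₃ i⟩, fun i => ⟨x₂₃ i, m₂₃ i⟩, fun _ => rfl, fun _ => rfl, fun _ => rfl,
    fun _ => rfl, fun _ => rfl, fun _ => rfl, fun _ => rfl, ?_⟩
  -- Step 4: the chart condition over `L` at every place.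
  have hchart : ∀ (v : AbsoluteValue L ℝ) (ρ : ℝ),
      (∃ p, ∀ k, v (⟨χ p (g (chart p) k), hL p k⟩ : L) ≤ ρ) →
      Fermat.Agent.S17.helper1395.CubeChartAt (R := fun l => R0 l)
        (fun l k => (⟨g l k, hg l k⟩ : R0 l))
        (fun l i => (⟨a₁₂₃ l i, h₁₂₃ l i⟩ : R0 l)) (fun l i => (⟨a₁ l i, h₁ l i⟩ : R0 l))
        (fun l i => (⟨a₂ l i, h₂ l i⟩ : R0 l)) (fun l i => (⟨a₃ l i, h₃ l i⟩ : R0 l))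
        (fun l i => (⟨a₁₂ l i, h₁₂ l i⟩ : R0 l)) (fun l i => (⟨a₁₃ l i, h₁₃ l i⟩ : R0 l))
        (fun l i => (⟨a₂₃ l i, h₂₃ l i⟩ : R0 l))
        (fun i => (⟨x₁₂₃ i, m₁₂₃ i⟩ : L)) (fun i => (⟨x₁ i, m₁ i⟩ : L))
        (fun i => (⟨x₂ i, m₂ i⟩ : L)) (fun i => (⟨x₃ i, m₃ i⟩ : L))
        (fun i => (⟨x₁₂ i, m₁₂ i⟩ : L)) (fun i => (⟨x₁₃ i, m₁₃ i⟩ : L))
        (fun i => (⟨x₂₃ i, m₂₃ i⟩ : L)) v ρ := by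
    rintro v ρ ⟨p, hp⟩
    refine ⟨chart p, φ p, ⟨ν₁₂₃ p, k₁₂₃ p⟩, ⟨ν₁ p, k₁ p⟩, ⟨ν₂ p, k₂ p⟩, ⟨ν₃ p, k₃ p⟩,
      ⟨ν₁₂ p, k₁₂ p⟩, ⟨ν₁₃ p, k₁₃ p⟩, ⟨ν₂₃ p, k₂₃ p⟩, Subtype.ext (hν p),
      fun h => hν0 p (congrArg Subtype.val h), ?_, ?_, ?_, ?_, ?_, ?_, ?_, ?_⟩
    · exact fun i => Subtype.ext ((e₁₂₃ p i).trans (by rw [← hφ p ⟨_, h₁₂₃ (chart p) i⟩]; rfl))
    · exact fun i => Subtype.ext ((e₁ p i).trans (by rw [← hφ p ⟨_, h₁ (chart p) i⟩]; rfl))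
    · exact fun i => Subtype.ext ((e₂ p i).trans (by rw [← hφ p ⟨_, h₂ (chart p) i⟩]; rfl))
    · exact fun i => Subtype.ext ((e₃ p i).trans (by rw [← hφ p ⟨_, h₃ (chart p) i⟩]; rfl))
    · exact fun i => Subtype.ext ((e₁₂ p i).trans (by rw [← hφ p ⟨_, h₁₂ (chart p) i⟩]; rfl))
    · exact fun i => Subtype.ext ((e₁₃ p i).trans (by rw [← hφ p ⟨_, h₁₃ (chart p) i⟩]; rfl))
    · exact fun i => Subtype.ext ((e₂₃ p i).trans (by rw [← hφ p ⟨_, h₂₃ (chart p) i⟩]; rfl))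
    · intro k
      have hk : φ p ⟨g (chart p) k, hg (chart p) k⟩ = (⟨χ p (g (chart p) k), hL p k⟩ : L) :=
        Subtype.ext (hφ p _)
      rw [hk]
      exact hp k
  exact hmain L _ _ _ _ _ _ _ (liftFun_ne_zero L _ _ n₁₂₃) (liftFun_ne_zero L _ _ n₁)
    (liftFun_ne_zero L _ _ n₂) (liftFun_ne_zero L _ _ n₃) (liftFun_ne_zero L _ _ n₁₂)
    (liftFun_ne_zero L _ _ n₁₃) (liftFun_ne_zero L _ _ n₂₃)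
    (fun v hv => hchart v C₁ (harch v hv))
    (fun v hv => hchart v _ (hnon v hv))

omit [Finite Λ] in
/-- Absolute height of a tuple with a lift to a number field `L ⊆ Ω`. -/
theorem absLogHeight_eq_of_coe {Ω : Type*} [Field Ω] [CharZero Ω] (L : IntermediateField ℚ Ω)
    [NumberField L] {ι : Type*} [Finite ι] (x : ι → Ω) (y : ι → L) (h : ∀ i, (y i : Ω) = x i) :
    absLogHeight x = logHeight y / Module.finrank ℚ L := by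
  have hx : x = fun i => (y i : Ω) := funext fun i => (h i).symm
  rw [hx]
  exact Fermat.Agent.Lib.helper927.absLogHeight_coe L y

omit [Finite Λ] in
/-- Absolute height of a tuple proportional to a `ℚ`-rational tuple. -/
theorem absLogHeight_eq_logHeight_rat {Ω : Type*} [Field Ω] [CharZero Ω]
    [Algebra.IsAlgebraic ℚ Ω] {ι : Type*} [Finite ι] (x : ι → Ω) (hx : x ≠ 0) (X : ι → ℚ) (c : Ω)
    (h : ∀ i, x i = c * algebraMap ℚ Ω (X i)) : absLogHeight x = logHeight X := by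
  have hc : c ≠ 0 := by
    rintro rfl
    exact hx (funext fun i => by simp [h i])
  have hx' : x = c • fun i => algebraMap ℚ Ω (X i) := funext fun i => by simp [h i]
  rw [hx', Fermat.Agent.Lib.helper927.absLogHeight_smul _ hc,
    Fermat.Agent.Lib.helper927.absLogHeight_ringHom (algebraMap ℚ Ω) X]
  simp

/-- **Cube inequality for `Ω`-points, absolute heights** (`absLogHeight` of `helper927`). -/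
theorem cube_absLogHeight_le_of_points [Finite ι₁₂₃] [Finite ι₁] [Finite ι₂] [Finite ι₃]
    [Finite ι₁₂] [Finite ι₁₃] [Finite ι₂₃] [Finite γ] (g : ∀ l, γ → R l)
    (hint : ∀ l (r : R l), IsIntegral (Algebra.adjoin ℚ (Set.range (g l))) r)
    (a₁₂₃ : ∀ l, ι₁₂₃ → R l) (a₁ : ∀ l, ι₁ → R l) (a₂ : ∀ l, ι₂ → R l) (a₃ : ∀ l, ι₃ → R l)
    (a₁₂ : ∀ l, ι₁₂ → R l) (a₁₃ : ∀ l, ι₁₃ → R l) (a₂₃ : ∀ l, ι₂₃ → R l)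
    (hid : ∀ l, Ideal.span (Set.range (a₁₂₃ l)) * Ideal.span (Set.range (a₁ l)) *
        Ideal.span (Set.range (a₂ l)) * Ideal.span (Set.range (a₃ l))
      ≤ Ideal.span (Set.range (a₁₂ l)) * Ideal.span (Set.range (a₁₃ l)) *
        Ideal.span (Set.range (a₂₃ l)))
    {N₁ : ℕ} (hN₁ : N₁ ≠ 0) {C₁ : ℝ} (hC₁ : 1 ≤ C₁) :
    ∃ C : ℝ, 1 ≤ C ∧ ∀ (Ω : Type w) [Field Ω] [CharZero Ω] [Algebra.IsAlgebraic ℚ Ω]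
      (x₁₂₃ : ι₁₂₃ → Ω) (x₁ : ι₁ → Ω) (x₂ : ι₂ → Ω) (x₃ : ι₃ → Ω)
      (x₁₂ : ι₁₂ → Ω) (x₁₃ : ι₁₃ → Ω) (x₂₃ : ι₂₃ → Ω),
      x₁₂₃ ≠ 0 → x₁ ≠ 0 → x₂ ≠ 0 → x₃ ≠ 0 → x₁₂ ≠ 0 → x₁₃ ≠ 0 → x₂₃ ≠ 0 →
      ∀ (P : Type u) [Finite P] (chart : P → Λ) (χ : ∀ p, R (chart p) →+* Ω),
      (∀ p, CubePointAt a₁₂₃ a₁ a₂ a₃ a₁₂ a₁₃ a₂₃ x₁₂₃ x₁ x₂ x₃ x₁₂ x₁₃ x₂₃ (chart p) (χ p)) →
      ∀ s : Set Ω, s.Finite →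
      (∀ (L : IntermediateField ℚ Ω) [NumberField L], s ⊆ L →
        ∀ hL : ∀ p k, χ p (g (chart p) k) ∈ L,
          (∀ v ∈ archAbsVal (K := L), ∃ p, ∀ k,
            v (⟨χ p (g (chart p) k), hL p k⟩ : L) ≤ C₁) ∧
          (∀ v ∈ nonarchAbsVal (K := L), ∃ p, ∀ k,
            v (⟨χ p (g (chart p) k), hL p k⟩ : L) ≤ (v (N₁ : L))⁻¹)) →
      absLogHeight x₁₂₃ - absLogHeight x₁₂ - absLogHeight x₁₃ - absLogHeight x₂₃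
          + absLogHeight x₁ + absLogHeight x₂ + absLogHeight x₃ ≤ Real.log C := by
  obtain ⟨C, hC, h⟩ := exists_numberField_cube_logHeight_le.{w, u} g hint a₁₂₃ a₁ a₂ a₃ a₁₂ a₁₃
    a₂₃ hid hN₁ hC₁
  refine ⟨C, hC, ?_⟩
  intro Ω _ _ _ x₁₂₃ x₁ x₂ x₃ x₁₂ x₁₃ x₂₃ n₁₂₃ n₁ n₂ n₃ n₁₂ n₁₃ n₂₃ P _ chart χ hpt s hs hreg
  obtain ⟨L, hNF, -, y₁₂₃, y₁, y₂, y₃, y₁₂, y₁₃, y₂₃, c₁₂₃, c₁, c₂, c₃, c₁₂, c₁₃, c₂₃, hle⟩ :=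
    h Ω x₁₂₃ x₁ x₂ x₃ x₁₂ x₁₃ x₂₃ n₁₂₃ n₁ n₂ n₃ n₁₂ n₁₃ n₂₃ P chart χ hpt s hs hreg
  have hfr : (0 : ℝ) < Module.finrank ℚ L := Fermat.Agent.Lib.helper927.finrank_rat_pos L
  rw [absLogHeight_eq_of_coe L x₁₂₃ y₁₂₃ c₁₂₃, absLogHeight_eq_of_coe L x₁ y₁ c₁,
    absLogHeight_eq_of_coe L x₂ y₂ c₂, absLogHeight_eq_of_coe L x₃ y₃ c₃,
    absLogHeight_eq_of_coe L x₁₂ y₁₂ c₁₂, absLogHeight_eq_of_coe L x₁₃ y₁₃ c₁₃,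
    absLogHeight_eq_of_coe L x₂₃ y₂₃ c₂₃]
  have e : logHeight y₁₂₃ / Module.finrank ℚ L - logHeight y₁₂ / Module.finrank ℚ L
        - logHeight y₁₃ / Module.finrank ℚ L - logHeight y₂₃ / Module.finrank ℚ L
        + logHeight y₁ / Module.finrank ℚ L + logHeight y₂ / Module.finrank ℚ L
        + logHeight y₃ / Module.finrank ℚ L
      = (logHeight y₁₂₃ - logHeight y₁₂ - logHeight y₁₃ - logHeight y₂₃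
          + logHeight y₁ + logHeight y₂ + logHeight y₃) / Module.finrank ℚ L := by
    ring
  rw [e, div_le_iff₀ hfr, mul_comm]
  exact hle

/-- **Cube inequality for `Ω`-points, `ℚ`-rational Plücker vectors**: if the `x_S` are
proportional to `ℚ`-rational vectors `X_S`, the alternating sum of the seven heights over `ℚ` is
at most `log C` (the shape of the one-sided `hrep` of the Plücker endgame). -/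
theorem cube_logHeight_rat_le_of_points [Finite ι₁₂₃] [Finite ι₁] [Finite ι₂] [Finite ι₃]
    [Finite ι₁₂] [Finite ι₁₃] [Finite ι₂₃] [Finite γ] (g : ∀ l, γ → R l)
    (hint : ∀ l (r : R l), IsIntegral (Algebra.adjoin ℚ (Set.range (g l))) r)
    (a₁₂₃ : ∀ l, ι₁₂₃ → R l) (a₁ : ∀ l, ι₁ → R l) (a₂ : ∀ l, ι₂ → R l) (a₃ : ∀ l, ι₃ → R l)
    (a₁₂ : ∀ l, ι₁₂ → R l) (a₁₃ : ∀ l, ι₁₃ → R l) (a₂₃ : ∀ l, ι₂₃ → R l)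
    (hid : ∀ l, Ideal.span (Set.range (a₁₂₃ l)) * Ideal.span (Set.range (a₁ l)) *
        Ideal.span (Set.range (a₂ l)) * Ideal.span (Set.range (a₃ l))
      ≤ Ideal.span (Set.range (a₁₂ l)) * Ideal.span (Set.range (a₁₃ l)) *
        Ideal.span (Set.range (a₂₃ l)))
    {N₁ : ℕ} (hN₁ : N₁ ≠ 0) {C₁ : ℝ} (hC₁ : 1 ≤ C₁) :
    ∃ C : ℝ, 1 ≤ C ∧ ∀ (Ω : Type w) [Field Ω] [CharZero Ω] [Algebra.IsAlgebraic ℚ Ω]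
      (x₁₂₃ : ι₁₂₃ → Ω) (x₁ : ι₁ → Ω) (x₂ : ι₂ → Ω) (x₃ : ι₃ → Ω)
      (x₁₂ : ι₁₂ → Ω) (x₁₃ : ι₁₃ → Ω) (x₂₃ : ι₂₃ → Ω),
      x₁₂₃ ≠ 0 → x₁ ≠ 0 → x₂ ≠ 0 → x₃ ≠ 0 → x₁₂ ≠ 0 → x₁₃ ≠ 0 → x₂₃ ≠ 0 →
      ∀ (P : Type u) [Finite P] (chart : P → Λ) (χ : ∀ p, R (chart p) →+* Ω),
      (∀ p, CubePointAt a₁₂₃ a₁ a₂ a₃ a₁₂ a₁₃ a₂₃ x₁₂₃ x₁ x₂ x₃ x₁₂ x₁₃ x₂₃ (chart p) (χ p)) →
      ∀ s : Set Ω, s.Finite →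
      (∀ (L : IntermediateField ℚ Ω) [NumberField L], s ⊆ L →
        ∀ hL : ∀ p k, χ p (g (chart p) k) ∈ L,
          (∀ v ∈ archAbsVal (K := L), ∃ p, ∀ k,
            v (⟨χ p (g (chart p) k), hL p k⟩ : L) ≤ C₁) ∧
          (∀ v ∈ nonarchAbsVal (K := L), ∃ p, ∀ k,
            v (⟨χ p (g (chart p) k), hL p k⟩ : L) ≤ (v (N₁ : L))⁻¹)) →
      ∀ (X₁₂₃ : ι₁₂₃ → ℚ) (X₁ : ι₁ → ℚ) (X₂ : ι₂ → ℚ) (X₃ : ι₃ → ℚ)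
        (X₁₂ : ι₁₂ → ℚ) (X₁₃ : ι₁₃ → ℚ) (X₂₃ : ι₂₃ → ℚ) (c₁₂₃ c₁ c₂ c₃ c₁₂ c₁₃ c₂₃ : Ω),
        (∀ i, x₁₂₃ i = c₁₂₃ * algebraMap ℚ Ω (X₁₂₃ i)) → (∀ i, x₁ i = c₁ * algebraMap ℚ Ω (X₁ i)) →
        (∀ i, x₂ i = c₂ * algebraMap ℚ Ω (X₂ i)) → (∀ i, x₃ i = c₃ * algebraMap ℚ Ω (X₃ i)) →
        (∀ i, x₁₂ i = c₁₂ * algebraMap ℚ Ω (X₁₂ i)) → (∀ i, x₁₃ i = c₁₃ * algebraMap ℚ Ω (X₁₃ i)) →
        (∀ i, x₂₃ i = c₂₃ * algebraMap ℚ Ω (X₂₃ i)) →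
        logHeight X₁₂₃ - logHeight X₁₂ - logHeight X₁₃ - logHeight X₂₃
            + logHeight X₁ + logHeight X₂ + logHeight X₃ ≤ Real.log C := by
  obtain ⟨C, hC, h⟩ := cube_absLogHeight_le_of_points.{w, u} g hint a₁₂₃ a₁ a₂ a₃ a₁₂ a₁₃
    a₂₃ hid hN₁ hC₁
  refine ⟨C, hC, ?_⟩
  intro Ω _ _ _ x₁₂₃ x₁ x₂ x₃ x₁₂ x₁₃ x₂₃ n₁₂₃ n₁ n₂ n₃ n₁₂ n₁₃ n₂₃ P _ chart χ hpt s hs hreg
    X₁₂₃ X₁ X₂ X₃ X₁₂ X₁₃ X₂₃ c₁₂₃ c₁ c₂ c₃ c₁₂ c₁₃ c₂₃ e₁₂₃ e₁ e₂ e₃ e₁₂ e₁₃ e₂₃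
  have hle := h Ω x₁₂₃ x₁ x₂ x₃ x₁₂ x₁₃ x₂₃ n₁₂₃ n₁ n₂ n₃ n₁₂ n₁₃ n₂₃ P chart χ hpt s hs hreg
  rwa [absLogHeight_eq_logHeight_rat x₁₂₃ n₁₂₃ X₁₂₃ c₁₂₃ e₁₂₃,
    absLogHeight_eq_logHeight_rat x₁ n₁ X₁ c₁ e₁, absLogHeight_eq_logHeight_rat x₂ n₂ X₂ c₂ e₂,
    absLogHeight_eq_logHeight_rat x₃ n₃ X₃ c₃ e₃,
    absLogHeight_eq_logHeight_rat x₁₂ n₁₂ X₁₂ c₁₂ e₁₂,
    absLogHeight_eq_logHeight_rat x₁₃ n₁₃ X₁₃ c₁₃ e₁₃,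
    absLogHeight_eq_logHeight_rat x₂₃ n₂₃ X₂₃ c₂₃ e₂₃] at hle

end CubeQbar

end Fermat.Agent.S17.helper1164
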