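import Mathlib

/-!
# S17-VALG: evaluation minors at `d` points of a relative curve

Abstract, Mathlib-only form of "(V-alg)" (the pure-algebra core of the Pluecker
height route for S17) and of its one-sided half "an alternating determinant of
values is divisible by the pairwise diagonals".

Setting: `R` a commutative ring, `S` a commutative `R`-algebra and
`σ : Fin d → (S →ₐ[R] R)` a family of `R`-points (sections).

* `diag σ i j` is the ideal of `R` generated by all `σ i f - σ j f` (the `(i,j)`-diagonal);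
* `diagProd σ` is the product of the `diag σ i j` over `i < j`;
* `alt σ` is the ideal generated by all evaluation determinants `det (σ i (F k))`;
* `LocPrincipal σ` says that, near the `d` points over every maximal ideal of `R`,
  the kernels of the `σ i` are simultaneously principal (in denominator form).

Main results:

* `alt_eq_diagProd` : `LocPrincipal σ → alt σ = diagProd σ`;
* `det_mem_diagProd` : every evaluation determinant lies in `diagProd σ`;
* `minors_eq_diagProd` : matrix form for a family `ψ` whose evaluation vectors span;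
* `evalVec_mem_span_of_fibrewise` : Nakayama adapter for the spanning hypothesis;
* `locPrincipal_of_forall_maximal` : `LocPrincipal` from one-point local principality.
-/

set_option autoImplicit false

namespace Fermat.Agent.S17.helper1253

open scoped BigOperators

section Defs

variable {R S : Type*} [CommRing R] [CommRing S] [Algebra R S] {d : ℕ} {ι : Type*}

/-- The vector of values of `F` at the `d` points. -/
def evalVec (σ : Fin d → S →ₐ[R] R) (F : S) : Fin d → R := fun i => σ i F

/-- The `(i,j)`-diagonal ideal: generated by the differences of values at the points `i`, `j`. -/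
def diag (σ : ι → S →ₐ[R] R) (i j : ι) : Ideal R :=
  Ideal.span (Set.range fun f : S => σ i f - σ j f)

/-- The product of the diagonal ideals over all pairs `i < j`. -/
noncomputable def diagProd (σ : Fin d → S →ₐ[R] R) : Ideal R :=
  ∏ p : Fin d × Fin d, if p.1 < p.2 then diag σ p.1 p.2 else 1

/-- The ideal generated by all evaluation determinants `det (σ i (F k))`. -/
def alt (σ : Fin d → S →ₐ[R] R) : Ideal R :=
  Ideal.span (Set.range fun F : Fin d → S => Matrix.det (Matrix.of fun i k => σ i (F k)))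

/-- The product of the values `σ j (t i)` over all pairs `i < j`. -/
noncomputable def pairProd (σ : Fin d → S →ₐ[R] R) (t : Fin d → S) : R :=
  ∏ p : Fin d × Fin d, if p.1 < p.2 then σ p.2 (t p.1) else 1

/-- Simultaneous local principality of the kernels of the sections, in denominator form:
over every maximal ideal `m` of `R` there are a denominator `w : S`, a unit at each of the
`d` points over `m`, and elements `t i` of the kernels with `w • ker (σ i) ≤ (t i)`. -/
def LocPrincipal (σ : ι → S →ₐ[R] R) : Prop :=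
  ∀ m : Ideal R, m.IsMaximal → ∃ (w : S) (t : ι → S),
    (∀ k, σ k w ∉ m) ∧ (∀ i, σ i (t i) = 0) ∧
      ∀ i, ∀ x : S, σ i x = 0 → ∃ c : S, w * x = t i * c

/-- Simultaneous local principality passes to subfamilies (and reindexings). -/
theorem LocPrincipal.comp {ι' : Type*} {σ : ι → S →ₐ[R] R} (h : LocPrincipal σ)
    (e : ι' → ι) : LocPrincipal fun a => σ (e a) := by
  intro m hm
  obtain ⟨w, t, hw, ht, hdiv⟩ := h m hm
  exact ⟨w, fun a => t (e a), fun k => hw (e k), fun i => ht (e i), fun i x hx => hdiv (e i) x hx⟩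

/-- The diagonal ideal is symmetric in the two points. -/
theorem diag_comm (σ : ι → S →ₐ[R] R) (i j : ι) : diag σ i j = diag σ j i := by
  have key : ∀ i j : ι, diag σ i j ≤ diag σ j i := by
    intro i j
    unfold diag
    rw [Ideal.span_le]
    rintro _ ⟨f, rfl⟩
    have h1 : σ i f - σ j f = -(σ j f - σ i f) := by ring
    show σ i f - σ j f ∈ Ideal.span (Set.range fun f : S => σ j f - σ i f)
    rw [h1]
    exact neg_mem (Ideal.subset_span ⟨f, rfl⟩)
  exact le_antisymm (key i j) (key j i)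

/-- The diagonal ideal of two points is the set of values at the second point of the
functions vanishing at the first. -/
theorem mem_diag_iff (σ : ι → S →ₐ[R] R) (i j : ι) (x : R) :
    x ∈ diag σ i j ↔ ∃ f : S, σ i f = 0 ∧ σ j f = x := by
  constructor
  · intro hx
    unfold diag at hx
    induction hx using Submodule.span_induction with
    | mem x hx =>
      obtain ⟨f, rfl⟩ := hx
      exact ⟨algebraMap R S (σ i f) - f, by simp, by simp⟩
    | zero => exact ⟨0, by simp, by simp⟩
    | add x y _ _ hx hy =>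
      obtain ⟨f, hf0, rfl⟩ := hx
      obtain ⟨g, hg0, rfl⟩ := hy
      exact ⟨f + g, by simp [hf0, hg0], by simp⟩
    | smul a x _ hx =>
      obtain ⟨f, hf0, rfl⟩ := hx
      exact ⟨algebraMap R S a * f, by simp [hf0], by simp⟩
  · rintro ⟨f, hf0, rfl⟩
    have h1 : σ j f = -(σ i f - σ j f) := by rw [hf0]; ring
    rw [h1]
    exact neg_mem (Ideal.subset_span ⟨f, rfl⟩)

end Defs

section Core

variable {R S : Type*} [CommRing R] [CommRing S] [Algebra R S]

/-- An element that lies in `I` after multiplication by an element outside each maximal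
ideal lies in `I`. -/
theorem mem_of_forall_maximal_exists_mul_mem (I : Ideal R) (x : R)
    (h : ∀ m : Ideal R, m.IsMaximal → ∃ s, s ∉ m ∧ s * x ∈ I) : x ∈ I := by
  by_contra hx
  have hc : I.colon (Ideal.span {x}) ≠ ⊤ := by
    intro htop
    have h1 : (1 : R) ∈ I.colon (Ideal.span {x}) := htop ▸ Submodule.mem_top
    rw [Submodule.mem_colon_span_singleton] at h1
    exact hx (by simpa using h1)
  obtain ⟨m, hm, hle⟩ := Ideal.exists_le_maximal _ hc
  obtain ⟨s, hs, hsx⟩ := h m hm
  apply hs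
  apply hle
  rw [Submodule.mem_colon_span_singleton]
  simpa using hsx

theorem pairProd_succ {d : ℕ} (σ : Fin (d + 1) → S →ₐ[R] R) (t : Fin (d + 1) → S) :
    pairProd σ t = (∏ j : Fin d, σ j.succ (t 0)) *
      pairProd (fun i => σ i.succ) (fun i => t i.succ) := by
  unfold pairProd
  rw [Fintype.prod_prod_type, Fin.prod_univ_succ, Fintype.prod_prod_type]
  congr 1
  · rw [Fin.prod_univ_succ]
    simp [Fin.succ_pos]
  · refine Finset.prod_congr rfl fun i _ => ?_
    rw [Fin.prod_univ_succ]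
    simp [Fin.succ_lt_succ_iff]

/-- Divisibility half, uniform in the functions: after multiplication by one element of the
submonoid `M` (containing the values of the denominator), every evaluation determinant is a
multiple of `pairProd σ t`. -/
theorem exists_mul_det_mem (M : Submonoid R) :
    ∀ (d : ℕ) (σ : Fin d → S →ₐ[R] R) (w : S) (t : Fin d → S),
      (∀ k, σ k w ∈ M) → (∀ i, ∀ x : S, σ i x = 0 → ∃ c : S, w * x = t i * c) →
      ∃ s ∈ M, ∀ F : Fin d → S,
        s * Matrix.det (Matrix.of fun i k => σ i (F k)) ∈ Ideal.span {pairProd σ t} := by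
  intro d
  induction d with
  | zero =>
    intro σ w t _ _
    refine ⟨1, M.one_mem, fun F => ?_⟩
    simp [pairProd]
  | succ d ih =>
    intro σ w t hw hdiv
    obtain ⟨s', hs', hs'F⟩ := ih (fun i => σ i.succ) w (fun i => t i.succ)
      (fun k => hw k.succ) (fun i x hx => hdiv i.succ x hx)
    refine ⟨s' * ∏ i : Fin d, σ i.succ w, M.mul_mem hs' (M.prod_mem fun i _ => hw i.succ),
      fun F => ?_⟩
    -- the functions minus their values at the point `0`
    set F0 : Fin (d + 1) → S := fun k => F k - algebraMap R S (σ 0 (F k)) with hF0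
    have hF0z : ∀ k, σ 0 (F0 k) = 0 := by
      intro k
      simp [hF0]
    choose H hH using fun k => hdiv 0 (F0 k) (hF0z k)
    -- subtract row `0` from the other rows
    set A : Matrix (Fin (d + 1)) (Fin (d + 1)) R := Matrix.of fun i k => σ i (F k) with hA
    set B : Matrix (Fin (d + 1)) (Fin (d + 1)) R :=
      Matrix.of fun i k => if i = 0 then σ 0 (F k) else σ i (F0 k) with hB
    have hAB : A.det = B.det := by
      refine Matrix.det_eq_of_forall_row_eq_smul_add_const (fun i => if i = 0 then 0 else 1) 0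
        (by simp) ?_
      intro i k
      by_cases hi : i = 0
      · subst hi
        simp [hA, hB]
      · simp [hA, hB, hi, hF0]
    rw [hAB, Matrix.det_succ_row_zero, Finset.mul_sum]
    refine Ideal.sum_mem _ fun j _ => ?_
    -- the cofactor is an evaluation determinant for the remaining points
    have hsub : B.submatrix Fin.succ j.succAbove =
        Matrix.of fun (i : Fin d) (l : Fin d) => σ i.succ (F0 (j.succAbove l)) := by
      ext i l
      simp [hB, Fin.succ_ne_zero]
    have hscale : (∏ i : Fin d, σ i.succ w) *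
        Matrix.det (Matrix.of fun (i : Fin d) (l : Fin d) => σ i.succ (F0 (j.succAbove l))) =
        (∏ i : Fin d, σ i.succ (t 0)) *
        Matrix.det (Matrix.of fun (i : Fin d) (l : Fin d) => σ i.succ (H (j.succAbove l))) := by
      rw [← Matrix.det_mul_column, ← Matrix.det_mul_column]
      congr 1
      ext i l
      simp only [Matrix.of_apply]
      rw [← map_mul, ← map_mul, hH]
    have hmem := hs'F (fun l => H (j.succAbove l))
    rw [hsub, pairProd_succ]
    have key : s' * (∏ i : Fin d, σ i.succ w) * ((-1) ^ (j : ℕ) * B 0 j *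
        Matrix.det (Matrix.of fun (i : Fin d) (l : Fin d) => σ i.succ (F0 (j.succAbove l)))) =
        ((-1) ^ (j : ℕ) * B 0 j * ∏ i : Fin d, σ i.succ (t 0)) *
        (s' * Matrix.det (Matrix.of fun (i : Fin d) (l : Fin d) =>
          σ i.succ (H (j.succAbove l)))) := by
      linear_combination (s' * (-1) ^ (j : ℕ) * B 0 j) * hscale
    rw [key]
    obtain ⟨c, hc⟩ := Ideal.mem_span_singleton'.mp hmem
    rw [← hc]
    refine Ideal.mem_span_singleton'.mpr ⟨(-1) ^ (j : ℕ) * B 0 j * c, ?_⟩
    ring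

end Core

section T1

variable {R S : Type*} [CommRing R] [CommRing S] [Algebra R S] {d : ℕ}

/-- `pairProd σ t` is itself an evaluation determinant (that of the triangular family of
partial products of the `t i`) as soon as `t i` vanishes at the point `i`. -/
theorem pairProd_eq_det (σ : Fin d → S →ₐ[R] R) (t : Fin d → S) (ht : ∀ i, σ i (t i) = 0) :
    pairProd σ t = Matrix.det (Matrix.of fun i k =>
      σ i (∏ l : Fin d, if l < k then t l else 1)) := by
  rw [Matrix.det_of_isLowerTriangular]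
  · unfold pairProd
    rw [Fintype.prod_prod_type_right]
    refine Finset.prod_congr rfl fun k _ => ?_
    simp only [Matrix.of_apply, map_prod]
    refine Finset.prod_congr rfl fun l _ => ?_
    split_ifs <;> simp
  · intro i k hik
    have hik' : i < k := hik
    simp only [Matrix.of_apply, map_prod]
    refine Finset.prod_eq_zero (Finset.mem_univ i) ?_
    simp [hik', ht]

theorem pairProd_mem_alt (σ : Fin d → S →ₐ[R] R) (t : Fin d → S) (ht : ∀ i, σ i (t i) = 0) :
    pairProd σ t ∈ alt σ := by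
  rw [pairProd_eq_det σ t ht]
  exact Ideal.subset_span ⟨_, rfl⟩

theorem pairProd_mem_diagProd (σ : Fin d → S →ₐ[R] R) (t : Fin d → S)
    (ht : ∀ i, σ i (t i) = 0) : pairProd σ t ∈ diagProd σ := by
  unfold pairProd diagProd
  refine Ideal.prod_mem_prod fun p _ => ?_
  split_ifs with h
  · have h1 : σ p.2 (t p.1) = -(σ p.1 (t p.1) - σ p.2 (t p.1)) := by rw [ht]; ring
    rw [h1]
    exact neg_mem (Ideal.subset_span ⟨_, rfl⟩)
  · rw [Ideal.one_eq_top]
    exact Submodule.mem_top

/-- The value at the point `j` of the denominator carries the `(i,j)`-diagonal ideal into the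
principal ideal generated by the value at `j` of the local equation of the point `i`. -/
theorem mul_mem_span_of_mem_diag (σ : Fin d → S →ₐ[R] R) (w : S) (t : Fin d → S)
    (hdiv : ∀ i, ∀ x : S, σ i x = 0 → ∃ c : S, w * x = t i * c) (i j : Fin d) {x : R}
    (hx : x ∈ diag σ i j) : σ j w * x ∈ Ideal.span {σ j (t i)} := by
  unfold diag at hx
  induction hx using Submodule.span_induction with
  | mem x hx =>
    obtain ⟨f, rfl⟩ := hx
    obtain ⟨c, hc⟩ := hdiv i (f - algebraMap R S (σ i f)) (by simp)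
    have h1 := congrArg (σ j) hc
    simp only [map_mul, map_sub, AlgHom.commutes, Algebra.algebraMap_self, RingHom.id_apply]
      at h1
    refine Ideal.mem_span_singleton'.mpr ⟨-σ j c, ?_⟩
    linear_combination h1
  | zero => simp
  | add x y _ _ hx hy => rw [mul_add]; exact add_mem hx hy
  | smul a x _ hx => rw [smul_eq_mul, mul_left_comm]; exact Ideal.mul_mem_left _ _ hx

/-- If `a p` carries `I p` into `(b p)` for every `p`, then `∏ a p` carries `∏ I p` into
`(∏ b p)`. -/
theorem prod_mul_mem_span_prod {ι : Type*} (s : Finset ι) (a b : ι → R) (I : ι → Ideal R)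
    (h : ∀ p ∈ s, ∀ x ∈ I p, a p * x ∈ Ideal.span {b p}) :
    ∀ x ∈ ∏ p ∈ s, I p, (∏ p ∈ s, a p) * x ∈ Ideal.span {∏ p ∈ s, b p} := by
  classical
  induction s using Finset.induction_on with
  | empty => intro x _; simp
  | insert p s hp ih =>
    intro x hx
    rw [Finset.prod_insert hp] at hx
    rw [Finset.prod_insert hp, Finset.prod_insert hp]
    refine Submodule.mul_induction_on hx (fun y hy z hz => ?_) (fun y z hy hz => ?_)
    · have h1 := h p (Finset.mem_insert_self p s) y hy
      have h2 := ih (fun q hq => h q (Finset.mem_insert_of_mem hq)) z hz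
      obtain ⟨c1, hc1⟩ := Ideal.mem_span_singleton'.mp h1
      obtain ⟨c2, hc2⟩ := Ideal.mem_span_singleton'.mp h2
      refine Ideal.mem_span_singleton'.mpr ⟨c1 * c2, ?_⟩
      linear_combination (c2 * ∏ q ∈ s, b q) * hc1 + (a p * y) * hc2
    · rw [mul_add]
      exact add_mem hy hz

/-- **(T1-le), the one-sided bound**: every evaluation determinant lies in the product of
the diagonal ideals. -/
theorem det_mem_diagProd (σ : Fin d → S →ₐ[R] R) (h : LocPrincipal σ) (F : Fin d → S) :
    Matrix.det (Matrix.of fun i k => σ i (F k)) ∈ diagProd σ := by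
  refine mem_of_forall_maximal_exists_mul_mem _ _ fun m hm => ?_
  obtain ⟨w, t, hw, ht, hdiv⟩ := h m hm
  have := hm.isPrime
  obtain ⟨s, hs, hsF⟩ := exists_mul_det_mem m.primeCompl d σ w t hw hdiv
  refine ⟨s, hs, ?_⟩
  have hle : Ideal.span {pairProd σ t} ≤ diagProd σ :=
    (Ideal.span_singleton_le_iff_mem _).mpr (pairProd_mem_diagProd σ t ht)
  exact hle (hsF F)

theorem alt_le_diagProd (σ : Fin d → S →ₐ[R] R) (h : LocPrincipal σ) :
    alt σ ≤ diagProd σ := by
  unfold alt
  rw [Ideal.span_le]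
  rintro _ ⟨F, rfl⟩
  exact det_mem_diagProd σ h F

/-- A product of ideals is contained in `J` as soon as all products of elements are. -/
theorem prod_le_of_forall_prod_mem {κ : Type*} (s : Finset κ) (I : κ → Ideal R) :
    ∀ J : Ideal R, (∀ y : κ → R, (∀ p ∈ s, y p ∈ I p) → ∏ p ∈ s, y p ∈ J) →
      ∏ p ∈ s, I p ≤ J := by
  classical
  induction s using Finset.induction_on with
  | empty =>
    intro J h
    have h1 := h (fun _ => 1) (by simp)
    simp only [Finset.prod_empty] at h1
    rw [Finset.prod_empty, (Ideal.eq_top_iff_one J).mpr h1]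
    exact le_top
  | insert a s ha ih =>
    intro J h
    rw [Finset.prod_insert ha, Ideal.mul_le]
    intro r hr z hz
    have h2 : ∏ p ∈ s, I p ≤ J.colon (Ideal.span {r} : Ideal R) := by
      apply ih
      intro y hy
      rw [Submodule.mem_colon_span_singleton]
      have h3 := h (Function.update y a r) (by
        intro p hp
        rcases Finset.mem_insert.mp hp with rfl | hp'
        · rw [Function.update_self]
          exact hr
        · rw [Function.update_of_ne (ne_of_mem_of_not_mem hp' ha)]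
          exact hy p hp')
      rw [Finset.prod_insert ha, Function.update_self,
        Finset.prod_congr rfl (fun p hp =>
          Function.update_of_ne (ne_of_mem_of_not_mem hp ha) r y)] at h3
      rw [smul_eq_mul, mul_comm]
      exact h3
    have h4 := h2 hz
    rw [Submodule.mem_colon_span_singleton, smul_eq_mul, mul_comm] at h4
    exact h4

/-- Triangular evaluation determinant of a two-index family of functions vanishing at the
first index. -/
theorem prod_pair_eq_det (σ : Fin d → S →ₐ[R] R) (f : Fin d → Fin d → S)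
    (hf : ∀ i j, i < j → σ i (f i j) = 0) :
    (∏ p : Fin d × Fin d, if p.1 < p.2 then σ p.2 (f p.1 p.2) else 1) =
      Matrix.det (Matrix.of fun i k => σ i (∏ l : Fin d, if l < k then f l k else 1)) := by
  rw [Matrix.det_of_isLowerTriangular]
  · rw [Fintype.prod_prod_type_right]
    refine Finset.prod_congr rfl fun k _ => ?_
    simp only [Matrix.of_apply, map_prod]
    refine Finset.prod_congr rfl fun l _ => ?_
    split_ifs <;> simp
  · intro i k hik
    have hik' : i < k := hik
    simp only [Matrix.of_apply, map_prod]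
    refine Finset.prod_eq_zero (Finset.mem_univ i) ?_
    simp [hik', hf i k hik']

/-- **(T1-ge)**, unconditional: the product of the diagonal ideals is generated by
(triangular) evaluation determinants. No hypothesis on the points is needed. -/
theorem diagProd_le_alt (σ : Fin d → S →ₐ[R] R) : diagProd σ ≤ alt σ := by
  unfold diagProd
  apply prod_le_of_forall_prod_mem
  intro y hy
  have hex : ∀ p : Fin d × Fin d, ∃ f : S, p.1 < p.2 → (σ p.1 f = 0 ∧ σ p.2 f = y p) := by
    intro p
    by_cases hp : p.1 < p.2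
    · have h1 := hy p (Finset.mem_univ p)
      rw [if_pos hp, mem_diag_iff] at h1
      obtain ⟨f, hf0, hf1⟩ := h1
      exact ⟨f, fun _ => ⟨hf0, hf1⟩⟩
    · exact ⟨0, fun h => absurd h hp⟩
  choose f hf using hex
  have h2 : ∏ p : Fin d × Fin d, y p = (∏ p : Fin d × Fin d, if p.1 < p.2 then 1 else y p) *
      ∏ p : Fin d × Fin d, if p.1 < p.2 then σ p.2 (f (p.1, p.2)) else 1 := by
    rw [← Finset.prod_mul_distrib]
    refine Finset.prod_congr rfl fun p _ => ?_
    split_ifs with hp
    · rw [one_mul]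
      exact (hf p hp).2.symm
    · rw [mul_one]
  rw [h2, prod_pair_eq_det σ (fun i j => f (i, j)) (fun i j hij => (hf (i, j) hij).1)]
  exact Ideal.mul_mem_left _ _ (Ideal.subset_span ⟨_, rfl⟩)

/-- The local form of (T1-ge), with explicit denominator (not needed for `diagProd_le_alt`). -/
theorem exists_mul_mem_span_pairProd (σ : Fin d → S →ₐ[R] R) (w : S) (t : Fin d → S)
    (hdiv : ∀ i, ∀ x : S, σ i x = 0 → ∃ c : S, w * x = t i * c) {x : R} (hx : x ∈ diagProd σ) :
    (∏ p : Fin d × Fin d, if p.1 < p.2 then σ p.2 w else 1) * x ∈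
      Ideal.span {pairProd σ t} := by
  unfold pairProd
  refine prod_mul_mem_span_prod Finset.univ _ _
    (fun p : Fin d × Fin d => if p.1 < p.2 then diag σ p.1 p.2 else 1) ?_ x hx
  intro p _ y hy
  split_ifs with h1
  · rw [if_pos h1] at hy
    exact mul_mem_span_of_mem_diag σ w t hdiv p.1 p.2 hy
  · simp

/-- **(T1)**: under simultaneous local principality of the points, the ideal of evaluation
determinants is the product of the diagonal ideals. -/
theorem alt_eq_diagProd (σ : Fin d → S →ₐ[R] R) (h : LocPrincipal σ) :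
    alt σ = diagProd σ :=
  le_antisymm (alt_le_diagProd σ h) (diagProd_le_alt σ)

end T1

section T2

variable {R S : Type*} [CommRing R] [CommRing S] [Algebra R S] {d : ℕ}

/-- A multilinear map evaluated on vectors taken in the span of a family lies in the span of
its values on the family. -/
theorem multilinear_mem_span {M N ι : Type*} [AddCommGroup M] [Module R M] [AddCommGroup N]
    [Module R N] (f : MultilinearMap R (fun _ : Fin d => M) N) (u : ι → M) (v : Fin d → M)
    (hv : ∀ k, v k ∈ Submodule.span R (Set.range u)) :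
    f v ∈ Submodule.span R (Set.range fun e : Fin d → ι => f fun k => u (e k)) := by
  classical
  have key : ∀ (T : Finset (Fin d)) (v : Fin d → M),
      (∀ k ∈ T, v k ∈ Submodule.span R (Set.range u)) → (∀ k, k ∉ T → v k ∈ Set.range u) →
      f v ∈ Submodule.span R (Set.range fun e : Fin d → ι => f fun k => u (e k)) := by
    intro T
    induction T using Finset.induction_on with
    | empty =>
      intro v _ hv
      choose e he using fun k => hv k (Finset.notMem_empty k)
      refine Submodule.subset_span ⟨e, ?_⟩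
      have hev : (fun k => u (e k)) = v := funext he
      simp only [hev]
    | insert a T ha ih =>
      intro v hvT hv
      have hva := hvT a (Finset.mem_insert_self a T)
      have hupd : ∀ x ∈ Submodule.span R (Set.range u), f (Function.update v a x) ∈
          Submodule.span R (Set.range fun e : Fin d → ι => f fun k => u (e k)) := by
        intro x hx
        induction hx using Submodule.span_induction with
        | mem x hx =>
          apply ih
          · intro k hk
            have hka : k ≠ a := fun h => ha (h ▸ hk)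
            rw [Function.update_of_ne hka]
            exact hvT k (Finset.mem_insert_of_mem hk)
          · intro k hk
            by_cases hka : k = a
            · subst hka
              rw [Function.update_self]
              exact hx
            · rw [Function.update_of_ne hka]
              exact hv k (by simp [hka, hk])
        | zero => rw [f.map_update_zero]; exact zero_mem _
        | add x y _ _ hx hy => rw [f.map_update_add]; exact add_mem hx hy
        | smul c x _ hx => rw [f.map_update_smul]; exact Submodule.smul_mem _ _ hx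
      have h2 := hupd (v a) hva
      rwa [Function.update_eq_self] at h2
  exact key Finset.univ v (fun k _ => hv k) (fun k hk => absurd (Finset.mem_univ k) hk)

/-- The ideal generated by the `d × d` minors (for all choices of `d` columns) of the
evaluation matrix `(σ i (ψ s))` of a family `ψ`. -/
def minors {ι : Type*} (σ : Fin d → S →ₐ[R] R) (ψ : ι → S) : Ideal R :=
  Ideal.span (Set.range fun e : Fin d → ι =>
    Matrix.det (Matrix.of fun i k => σ i (ψ (e k))))

theorem minors_le_alt {ι : Type*} (σ : Fin d → S →ₐ[R] R) (ψ : ι → S) :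
    minors σ ψ ≤ alt σ := by
  unfold minors alt
  refine Ideal.span_le.mpr ?_
  rintro _ ⟨e, rfl⟩
  exact Ideal.subset_span ⟨fun k => ψ (e k), rfl⟩

theorem det_eq_detRowAlternating (σ : Fin d → S →ₐ[R] R) (F : Fin d → S) :
    Matrix.det (Matrix.of fun i k => σ i (F k)) =
      Matrix.detRowAlternating (fun k => evalVec σ (F k)) := by
  rw [← Matrix.det_transpose]
  rfl

theorem alt_le_minors {ι : Type*} (σ : Fin d → S →ₐ[R] R) (ψ : ι → S)
    (hspan : ∀ F : S, evalVec σ F ∈ Submodule.span R (Set.range fun s => evalVec σ (ψ s))) :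
    alt σ ≤ minors σ ψ := by
  unfold alt
  refine Ideal.span_le.mpr ?_
  rintro _ ⟨F, rfl⟩
  have h1 := multilinear_mem_span
    (Matrix.detRowAlternating (R := R) (n := Fin d)).toMultilinearMap
    (fun s => evalVec σ (ψ s)) (fun k => evalVec σ (F k)) (fun k => hspan (F k))
  have h2 : (Set.range fun e : Fin d → ι => Matrix.det (Matrix.of fun i k => σ i (ψ (e k)))) =
      Set.range fun e : Fin d → ι =>
        (Matrix.detRowAlternating (R := R) (n := Fin d)).toMultilinearMap
          fun k => evalVec σ (ψ (e k)) := by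
    congr 1
    funext e
    exact det_eq_detRowAlternating σ fun k => ψ (e k)
  show Matrix.det (Matrix.of fun i k => σ i (F k)) ∈ minors σ ψ
  rw [det_eq_detRowAlternating]
  unfold minors
  rw [h2]
  exact h1

/-- **(T2)**: if the evaluation vectors of the family `ψ` span (over `R`) the evaluation
vectors of all functions, the `d × d` minors of the evaluation matrix of `ψ` generate the
ideal of all evaluation determinants. -/
theorem minors_eq_alt {ι : Type*} (σ : Fin d → S →ₐ[R] R) (ψ : ι → S)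
    (hspan : ∀ F : S, evalVec σ F ∈ Submodule.span R (Set.range fun s => evalVec σ (ψ s))) :
    minors σ ψ = alt σ :=
  le_antisymm (minors_le_alt σ ψ) (alt_le_minors σ ψ hspan)

/-- **(V-alg)**: the ideal of `d × d` minors of the evaluation matrix of a spanning family is
the product of the diagonal ideals. -/
theorem minors_eq_diagProd {ι : Type*} (σ : Fin d → S →ₐ[R] R) (h : LocPrincipal σ)
    (ψ : ι → S)
    (hspan : ∀ F : S, evalVec σ F ∈ Submodule.span R (Set.range fun s => evalVec σ (ψ s))) :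
    minors σ ψ = diagProd σ :=
  (minors_eq_alt σ ψ hspan).trans (alt_eq_diagProd σ h)

/-- One-sided matrix form: no spanning hypothesis is needed for the inclusion. -/
theorem minors_le_diagProd {ι : Type*} (σ : Fin d → S →ₐ[R] R) (h : LocPrincipal σ)
    (ψ : ι → S) : minors σ ψ ≤ diagProd σ :=
  (minors_le_alt σ ψ).trans (alt_le_diagProd σ h)

end T2

section T3

variable {R S : Type*} [CommRing R] [CommRing S] [Algebra R S] {d : ℕ}

/-- The evaluation map at the `d` points, as an `R`-linear map. -/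
def evalLin (σ : Fin d → S →ₐ[R] R) : S →ₗ[R] (Fin d → R) :=
  LinearMap.pi fun i => (σ i).toLinearMap

theorem evalLin_apply (σ : Fin d → S →ₐ[R] R) (F : S) : evalLin σ F = evalVec σ F := rfl

/-- Nakayama over all maximal ideals: if `P` is a finitely generated submodule and
`P ≤ N ⊔ m • P` for every maximal ideal `m`, then `P ≤ N`. -/
theorem le_of_forall_maximal_le_sup_smul {M : Type*} [AddCommGroup M] [Module R M]
    (N P : Submodule R M) (hP : P.FG)
    (h : ∀ m : Ideal R, m.IsMaximal → P ≤ N ⊔ m • P) : P ≤ N := by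
  intro x hx
  by_contra hxN
  have hc : N.colon (Submodule.span R {x}) ≠ ⊤ := by
    intro htop
    have h1 : (1 : R) ∈ N.colon (Submodule.span R {x}) := htop ▸ Submodule.mem_top
    rw [Submodule.mem_colon_span_singleton] at h1
    exact hxN (by simpa using h1)
  obtain ⟨m, hm, hle⟩ := Ideal.exists_le_maximal _ hc
  obtain ⟨r, hr1, hr⟩ :=
    Submodule.exists_sub_one_mem_and_smul_le_of_fg_of_le_sup hP le_rfl (h m hm)
  have hrx : r • x ∈ N := hr (Submodule.smul_mem_pointwise_smul x r P hx)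
  have hrm : r ∈ m := hle (Submodule.mem_colon_span_singleton.mpr hrx)
  apply hm.ne_top
  rw [Ideal.eq_top_iff_one]
  have h1 : (1 : R) = r - (r - 1) := by ring
  rw [h1]
  exact sub_mem hrm hr1

/-- **(T3), Nakayama adapter** for the spanning hypothesis of (T2): it is enough to check it
fibrewise. Over every maximal ideal `m` of `R`, every function should agree at the `d` points
with an `R`-combination of the `ψ s` up to an element of `m S`. -/
theorem evalVec_mem_span_of_fibrewise {ι : Type*} (σ : Fin d → S →ₐ[R] R) (ψ : ι → S)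
    (hfg : (LinearMap.range (evalLin σ)).FG)
    (h : ∀ m : Ideal R, m.IsMaximal → ∀ F : S, ∃ G ∈ Submodule.span R (Set.range ψ),
      ∃ L ∈ Ideal.map (algebraMap R S) m, ∀ i, σ i F = σ i G + σ i L) (F : S) :
    evalVec σ F ∈ Submodule.span R (Set.range fun s => evalVec σ (ψ s)) := by
  have hle := le_of_forall_maximal_le_sup_smul
    (Submodule.span R (Set.range fun s => evalVec σ (ψ s))) (LinearMap.range (evalLin σ)) hfg ?_
  · exact hle ⟨F, rfl⟩
  intro m hm
  rintro _ ⟨F, rfl⟩
  obtain ⟨G, hG, L, hL, hFGL⟩ := h m hm F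
  have h1 : evalLin σ F = evalLin σ G + evalLin σ L := by
    funext i
    exact hFGL i
  rw [h1]
  refine Submodule.add_mem_sup ?_ ?_
  · have h2 : Submodule.map (evalLin σ) (Submodule.span R (Set.range ψ)) =
        Submodule.span R (Set.range fun s => evalVec σ (ψ s)) := by
      rw [Submodule.map_span, ← Set.range_comp]
      rfl
    rw [← h2]
    exact Submodule.mem_map_of_mem hG
  · have hL' : L ∈ m • (⊤ : Submodule R S) := by
      rw [Ideal.smul_top_eq_map]
      exact hL
    have h3 := Submodule.mem_map_of_mem (f := evalLin σ) hL'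
    rw [Submodule.map_smul'', Submodule.map_top] at h3
    exact h3

/-- (T3) over a noetherian base: the finiteness hypothesis is automatic. -/
theorem evalVec_mem_span_of_fibrewise' [IsNoetherianRing R] {ι : Type*}
    (σ : Fin d → S →ₐ[R] R) (ψ : ι → S)
    (h : ∀ m : Ideal R, m.IsMaximal → ∀ F : S, ∃ G ∈ Submodule.span R (Set.range ψ),
      ∃ L ∈ Ideal.map (algebraMap R S) m, ∀ i, σ i F = σ i G + σ i L) (F : S) :
    evalVec σ F ∈ Submodule.span R (Set.range fun s => evalVec σ (ψ s)) :=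
  evalVec_mem_span_of_fibrewise σ ψ (IsNoetherian.noetherian _) h F

end T3

section T4

variable {R S : Type*} [CommRing R] [CommRing S] [Algebra R S] {d : ℕ}

/-- One-point local principality of the kernel of a section `τ` at an ideal `𝔮` of `S`, in
denominator form: some `f ∉ 𝔮` carries the kernel into a principal ideal `(t)`, `t` in the
kernel. -/
def PrincipalAt (τ : S →ₐ[R] R) (𝔮 : Ideal S) : Prop :=
  ∃ f : S, f ∉ 𝔮 ∧ ∃ t : S, τ t = 0 ∧ ∀ a : S, τ a = 0 → ∃ c : S, f * a = t * c

/-- Separation: for a finite set `T` of maximal ideals and `𝔫 ∈ T` there is an element outside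
`𝔫` that lies in all the other members of `T`. -/
theorem exists_notMem_mem_of_maximal (T : Finset (Ideal S)) (hT : ∀ 𝔫 ∈ T, 𝔫.IsMaximal)
    (𝔫 : Ideal S) (h𝔫 : 𝔫 ∈ T) :
    ∃ e : S, e ∉ 𝔫 ∧ ∀ 𝔫' ∈ T, 𝔫' ≠ 𝔫 → e ∈ 𝔫' := by
  classical
  have hex : ∀ 𝔫' ∈ T, 𝔫' ≠ 𝔫 → ∃ a, a ∈ 𝔫' ∧ a ∉ 𝔫 := by
    intro 𝔫' h𝔫' hne
    by_contra hcon
    push Not at hcon
    exact hne ((hT 𝔫' h𝔫').eq_of_le (hT 𝔫 h𝔫).ne_top hcon)
  choose! a ha using hex
  refine ⟨∏ 𝔫' ∈ T.erase 𝔫, a 𝔫', ?_, ?_⟩
  · have := (hT 𝔫 h𝔫).isPrime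
    rw [Ideal.IsPrime.prod_mem_iff]
    rintro ⟨𝔫', h𝔫', hmem⟩
    rw [Finset.mem_erase] at h𝔫'
    exact (ha 𝔫' h𝔫'.2 h𝔫'.1).2 hmem
  · intro 𝔫' h𝔫' hne
    exact Ideal.mem_of_dvd _
      (Finset.dvd_prod_of_mem a (Finset.mem_erase.mpr ⟨hne, h𝔫'⟩)) (ha 𝔫' h𝔫' hne).1

/-- Semi-local principality: if the kernel of the section `τ` is principal near each member
of a finite set `T` of maximal ideals of `S`, then one denominator `w`, outside all members
of `T`, carries the kernel into one principal ideal `(t)`. -/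
theorem exists_denominator_of_principalAt (τ : S →ₐ[R] R) (T : Finset (Ideal S))
    (hT : ∀ 𝔫 ∈ T, 𝔫.IsMaximal) (h : ∀ 𝔫 ∈ T, PrincipalAt τ 𝔫) :
    ∃ w t : S, (∀ 𝔫 ∈ T, w ∉ 𝔫) ∧ τ t = 0 ∧ ∀ x : S, τ x = 0 → ∃ c : S, w * x = t * c := by
  classical
  choose! f hf tt htt hdiv using h
  choose! e he1 he2 using exists_notMem_mem_of_maximal T hT
  set t : S := ∑ 𝔫 ∈ T, e 𝔫 * tt 𝔫 with ht
  have htau : τ t = 0 := by
    rw [ht, map_sum]
    refine Finset.sum_eq_zero fun 𝔫 h𝔫 => ?_
    rw [map_mul, htt 𝔫 h𝔫, mul_zero]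
  -- the ideal of all denominators
  set 𝔞 : Ideal S := (Ideal.span {t}).colon (RingHom.ker (τ : S →+* R) : Set S) with h𝔞
  have hmem𝔞 : ∀ s : S, s ∈ 𝔞 ↔ ∀ x : S, τ x = 0 → s * x ∈ Ideal.span {t} := by
    intro s
    rw [h𝔞, Submodule.mem_colon]
    constructor
    · intro hs x hx
      exact hs x (by simpa [RingHom.mem_ker] using hx)
    · intro hs x hx
      exact hs x (by simpa [RingHom.mem_ker] using hx)
  have hnot : ∀ 𝔫 ∈ T, ¬ 𝔞 ≤ 𝔫 := by
    intro 𝔫 h𝔫 hle
    have hprime := (hT 𝔫 h𝔫).isPrime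
    -- express `f 𝔫 * tt 𝔫'` through `tt 𝔫`
    have hc : ∀ 𝔫' ∈ T, ∃ c : S, f 𝔫 * tt 𝔫' = tt 𝔫 * c :=
      fun 𝔫' h𝔫' => hdiv 𝔫 h𝔫 (tt 𝔫') (htt 𝔫' h𝔫')
    choose! c hc using hc
    set u : S := e 𝔫 * f 𝔫 + ∑ 𝔫' ∈ T.erase 𝔫, e 𝔫' * c 𝔫' with hu
    have hut : f 𝔫 * t = u * tt 𝔫 := by
      rw [ht, hu, Finset.mul_sum, ← Finset.add_sum_erase T _ h𝔫, add_mul, Finset.sum_mul]
      congr 1
      · ring
      · refine Finset.sum_congr rfl fun 𝔫' h𝔫' => ?_
        have h1 := hc 𝔫' (Finset.mem_of_mem_erase h𝔫')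
        linear_combination e 𝔫' * h1
    have hu𝔫 : u ∉ 𝔫 := by
      intro hmem
      have hsum : ∑ 𝔫' ∈ T.erase 𝔫, e 𝔫' * c 𝔫' ∈ 𝔫 := by
        refine Ideal.sum_mem _ fun 𝔫' h𝔫' => ?_
        rw [Finset.mem_erase] at h𝔫'
        exact Ideal.mul_mem_right _ _ (he2 𝔫' h𝔫'.2 𝔫 h𝔫 (Ne.symm h𝔫'.1))
      have h2 : e 𝔫 * f 𝔫 ∈ 𝔫 := by
        have h3 := sub_mem hmem hsum
        rwa [hu, add_sub_cancel_right] at h3
      rcases hprime.mem_or_mem h2 with h4 | h4
      · exact he1 𝔫 h𝔫 h4
      · exact hf 𝔫 h𝔫 h4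
    have huf : u * f 𝔫 ∈ 𝔞 := by
      rw [hmem𝔞]
      intro x hx
      obtain ⟨a, ha⟩ := hdiv 𝔫 h𝔫 x hx
      refine Ideal.mem_span_singleton'.mpr ⟨f 𝔫 * a, ?_⟩
      linear_combination a * hut - u * ha
    rcases hprime.mem_or_mem (hle huf) with h4 | h4
    · exact hu𝔫 h4
    · exact hf 𝔫 h𝔫 h4
  -- prime avoidance
  have havoid : ¬ ((𝔞 : Set S) ⊆ ⋃ 𝔫 ∈ (T : Set (Ideal S)), (𝔫 : Set S)) := by
    intro hsub
    have h1 := (Ideal.subset_union_prime (s := T) (f := fun 𝔫 => 𝔫) ⊥ ⊥
      (fun 𝔫 h𝔫 _ _ => (hT 𝔫 h𝔫).isPrime) (I := 𝔞)).mp hsub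
    obtain ⟨𝔫, h𝔫, hle⟩ := h1
    exact hnot 𝔫 h𝔫 hle
  rw [Set.not_subset] at havoid
  obtain ⟨w, hw𝔞, hwT⟩ := havoid
  refine ⟨w, t, ?_, htau, ?_⟩
  · intro 𝔫 h𝔫 hmem
    apply hwT
    simp only [Set.mem_iUnion]
    exact ⟨𝔫, h𝔫, hmem⟩
  · intro x hx
    have h1 := (hmem𝔞 w).mp hw𝔞 x hx
    obtain ⟨a, ha⟩ := Ideal.mem_span_singleton'.mp h1
    exact ⟨a, by rw [← ha, mul_comm]⟩

/-- **(T4)**: simultaneous local principality from one-point local principality of each
kernel at the points of `S` over each maximal ideal of `R`. -/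
theorem locPrincipal_of_principalAt {ι : Type*} [Fintype ι] (σ : ι → S →ₐ[R] R)
    (h : ∀ m : Ideal R, m.IsMaximal → ∀ i k,
      PrincipalAt (σ i) (Ideal.comap (σ k : S →+* R) m)) : LocPrincipal σ := by
  classical
  intro m hm
  set T : Finset (Ideal S) := Finset.univ.image fun k => Ideal.comap (σ k : S →+* R) m with hTdef
  have hT : ∀ 𝔫 ∈ T, 𝔫.IsMaximal := by
    intro 𝔫 h𝔫
    obtain ⟨k, -, rfl⟩ := Finset.mem_image.mp h𝔫
    exact Ideal.comap_isMaximal_of_surjective _
      (fun r => ⟨algebraMap R S r, by simp⟩)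
  have hP : ∀ i, ∀ 𝔫 ∈ T, PrincipalAt (σ i) 𝔫 := by
    intro i 𝔫 h𝔫
    obtain ⟨k, -, rfl⟩ := Finset.mem_image.mp h𝔫
    exact h m hm i k
  choose w t hw ht hdiv using fun i => exists_denominator_of_principalAt (σ i) T hT (hP i)
  have hkT : ∀ k, Ideal.comap (σ k : S →+* R) m ∈ T := fun k =>
    Finset.mem_image_of_mem _ (Finset.mem_univ k)
  refine ⟨∏ i, w i, t, ?_, ht, ?_⟩
  · intro k hmem
    have h1 : ∏ i, w i ∈ Ideal.comap (σ k : S →+* R) m := hmem
    have hprime := (hT _ (hkT k)).isPrime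
    rw [Ideal.IsPrime.prod_mem_iff] at h1
    obtain ⟨i, -, hi⟩ := h1
    exact hw i _ (hkT k) hi
  · intro i x hx
    obtain ⟨c, hc⟩ := hdiv i x hx
    refine ⟨(∏ j ∈ Finset.univ.erase i, w j) * c, ?_⟩
    rw [← Finset.mul_prod_erase Finset.univ w (Finset.mem_univ i)]
    linear_combination (∏ j ∈ Finset.univ.erase i, w j) * hc

/-- (T4), convenient form: each kernel is principal near every maximal ideal of `S`. -/
theorem locPrincipal_of_forall_maximal {ι : Type*} [Fintype ι] (σ : ι → S →ₐ[R] R)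
    (h : ∀ i, ∀ 𝔮 : Ideal S, 𝔮.IsMaximal → PrincipalAt (σ i) 𝔮) : LocPrincipal σ := by
  refine locPrincipal_of_principalAt σ fun m hm i k => h i _ ?_
  exact Ideal.comap_isMaximal_of_surjective _ (fun r => ⟨algebraMap R S r, by simp⟩)

/-- A kernel not contained in `𝔮` is trivially principal at `𝔮`. -/
theorem principalAt_of_not_le (τ : S →ₐ[R] R) (𝔮 : Ideal S)
    (h : ∃ f : S, τ f = 0 ∧ f ∉ 𝔮) : PrincipalAt τ 𝔮 := by
  obtain ⟨f, hf0, hf⟩ := h
  exact ⟨f, hf, f, hf0, fun a _ => ⟨a, rfl⟩⟩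

/-- (T4), minimal form: it is enough that the kernel of each section is principal near its
own point over each maximal ideal of `R` (at the other points of the family it is either
the same point or the kernel is not contained in it). -/
theorem locPrincipal_of_principalAt_self {ι : Type*} [Fintype ι] (σ : ι → S →ₐ[R] R)
    (h : ∀ m : Ideal R, m.IsMaximal → ∀ i,
      PrincipalAt (σ i) (Ideal.comap (σ i : S →+* R) m)) : LocPrincipal σ := by
  refine locPrincipal_of_principalAt σ fun m hm i k => ?_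
  by_cases hk : ∃ f : S, σ i f = 0 ∧ f ∉ Ideal.comap (σ k : S →+* R) m
  · exact principalAt_of_not_le (σ i) _ hk
  · push Not at hk
    have hsurj : ∀ j, Function.Surjective (σ j : S →+* R) :=
      fun j r => ⟨algebraMap R S r, by simp⟩
    have hmaxi : (Ideal.comap (σ i : S →+* R) m).IsMaximal :=
      Ideal.comap_isMaximal_of_surjective _ (hsurj i)
    have hmaxk : (Ideal.comap (σ k : S →+* R) m).IsMaximal :=
      Ideal.comap_isMaximal_of_surjective _ (hsurj k)
    have hle : Ideal.comap (σ i : S →+* R) m ≤ Ideal.comap (σ k : S →+* R) m := by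
      intro s hs
      have hs' : σ i s ∈ m := hs
      have h1 : s = (s - algebraMap R S (σ i s)) + algebraMap R S (σ i s) := by ring
      rw [h1]
      refine add_mem (hk _ (by simp)) ?_
      show σ k (algebraMap R S (σ i s)) ∈ m
      simpa using hs'
    rw [← hmaxi.eq_of_le hmaxk.ne_top hle]
    exact h m hm i

/-- Transport of local principality along a ring map `φ : S₀ → S` when the kernel of the
section is generated by the image of an ideal `J` of `S₀` (the hypothesis is in the shape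
of the diagonal-ideal statements of the S25 library). -/
theorem principalAt_of_map {S₀ : Type*} [CommRing S₀] (φ : S₀ →+* S) (J : Ideal S₀)
    (τ : S →ₐ[R] R) (hker : RingHom.ker (τ : S →+* R) = Ideal.map φ J) (𝔮 : Ideal S)
    (h : ∃ t ∈ J, ∃ s, s ∉ Ideal.comap φ 𝔮 ∧ ∀ a ∈ J, ∃ b, s * a = b * t) :
    PrincipalAt τ 𝔮 := by
  obtain ⟨t, htJ, s, hs, hdiv⟩ := h
  have hmemker : ∀ x : S, τ x = 0 ↔ x ∈ Ideal.map φ J := by
    intro x
    rw [← hker, RingHom.mem_ker]
    rfl
  refine ⟨φ s, hs, φ t, (hmemker _).mpr (Ideal.mem_map_of_mem φ htJ), ?_⟩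
  intro a ha
  rw [hmemker] at ha
  unfold Ideal.map at ha
  induction ha using Submodule.span_induction with
  | mem x hx =>
    obtain ⟨a₀, ha₀, rfl⟩ := hx
    obtain ⟨b, hb⟩ := hdiv a₀ ha₀
    refine ⟨φ b, ?_⟩
    rw [← map_mul, hb, map_mul, mul_comm]
  | zero => exact ⟨0, by simp⟩
  | add x y _ _ hx hy =>
    obtain ⟨c1, hc1⟩ := hx
    obtain ⟨c2, hc2⟩ := hy
    exact ⟨c1 + c2, by rw [mul_add, hc1, hc2, mul_add]⟩
  | smul r x _ hx =>
    obtain ⟨c, hc⟩ := hx
    exact ⟨r * c, by rw [smul_eq_mul, mul_left_comm, hc, mul_left_comm]⟩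

/-- The kernel of a section is generated by the elements `g - σ(g)`, `g` running over a set
of `R`-algebra generators of `S`. -/
theorem ker_eq_span_of_adjoin (τ : S →ₐ[R] R) (G : Set S) (hG : Algebra.adjoin R G = ⊤) :
    RingHom.ker (τ : S →+* R) = Ideal.span ((fun g => g - algebraMap R S (τ g)) '' G) := by
  apply le_antisymm
  · intro x hx
    have hx0 : τ x = 0 := hx
    have key : ∀ y ∈ Algebra.adjoin R G, y - algebraMap R S (τ y) ∈
        Ideal.span ((fun g => g - algebraMap R S (τ g)) '' G) := by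
      intro y hy
      induction hy using Algebra.adjoin_induction with
      | mem y hy => exact Ideal.subset_span ⟨y, hy, rfl⟩
      | algebraMap r => simp
      | add y z _ _ hy hz =>
        have h1 : y + z - algebraMap R S (τ (y + z)) =
            (y - algebraMap R S (τ y)) + (z - algebraMap R S (τ z)) := by
          rw [map_add, map_add]; ring
        rw [h1]
        exact add_mem hy hz
      | mul y z _ _ hy hz =>
        have h1 : y * z - algebraMap R S (τ (y * z)) =
            y * (z - algebraMap R S (τ z)) + algebraMap R S (τ z) * (y - algebraMap R S (τ y)) := by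
          rw [map_mul, map_mul]; ring
        rw [h1]
        exact add_mem (Ideal.mul_mem_left _ _ hz) (Ideal.mul_mem_left _ _ hy)
    have h2 := key x (hG ▸ Algebra.mem_top)
    rwa [hx0, map_zero, sub_zero] at h2
  · rw [Ideal.span_le]
    rintro _ ⟨g, -, rfl⟩
    show τ (g - algebraMap R S (τ g)) = 0
    simp

/-- The diagonal ideal is generated by the differences of values of algebra generators. -/
theorem diag_eq_span_of_adjoin (σ : Fin d → S →ₐ[R] R) (i j : Fin d) (G : Set S)
    (hG : Algebra.adjoin R G = ⊤) :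
    diag σ i j = Ideal.span ((fun g => σ i g - σ j g) '' G) := by
  apply le_antisymm
  · unfold diag
    rw [Ideal.span_le]
    rintro _ ⟨y, rfl⟩
    have key : ∀ y ∈ Algebra.adjoin R G, σ i y - σ j y ∈
        Ideal.span ((fun g => σ i g - σ j g) '' G) := by
      intro y hy
      induction hy using Algebra.adjoin_induction with
      | mem y hy => exact Ideal.subset_span ⟨y, hy, rfl⟩
      | algebraMap r => simp
      | add y z _ _ hy hz =>
        have h1 : σ i (y + z) - σ j (y + z) = (σ i y - σ j y) + (σ i z - σ j z) := by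
          rw [map_add, map_add]; ring
        rw [h1]
        exact add_mem hy hz
      | mul y z _ _ hy hz =>
        have h1 : σ i (y * z) - σ j (y * z) =
            σ i y * (σ i z - σ j z) + σ j z * (σ i y - σ j y) := by
          rw [map_mul, map_mul]; ring
        rw [h1]
        exact add_mem (Ideal.mul_mem_left _ _ hz) (Ideal.mul_mem_left _ _ hy)
    exact key y (hG ▸ Algebra.mem_top)
  · rw [Ideal.span_le]
    rintro _ ⟨g, -, rfl⟩
    exact Ideal.subset_span ⟨g, rfl⟩

end T4

section T5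

variable {R S : Type*} [CommRing R] [CommRing S] [Algebra R S]

/-- Simultaneous local principality only depends on the set of sections of the family. -/
theorem LocPrincipal.of_forall_exists {ι ι' : Type*} {σ : ι → S →ₐ[R] R} (h : LocPrincipal σ)
    (σ' : ι' → S →ₐ[R] R) (hsub : ∀ a, ∃ i, σ' a = σ i) : LocPrincipal σ' := by
  choose e he using hsub
  have h1 : σ' = fun a => σ (e a) := funext he
  rw [h1]
  exact h.comp e

/-- The product of all the diagonal ideals between the points of two families. -/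
noncomputable def crossProd {d₁ d₂ : ℕ} (τ₁ : Fin d₁ → S →ₐ[R] R) (τ₂ : Fin d₂ → S →ₐ[R] R) :
    Ideal R :=
  ∏ a : Fin d₁, ∏ b : Fin d₂, Ideal.span (Set.range fun f : S => τ₁ a f - τ₂ b f)

theorem diagProd_eq_prod_prod {d : ℕ} (σ : Fin d → S →ₐ[R] R) :
    diagProd σ = ∏ a : Fin d, ∏ b : Fin d, if a < b then diag σ a b else 1 :=
  Fintype.prod_prod_type' fun a b : Fin d => if a < b then diag σ a b else 1

/-- The product of the diagonal ideals of a concatenated family. -/
theorem diagProd_append {d₁ d₂ : ℕ} (τ₁ : Fin d₁ → S →ₐ[R] R) (τ₂ : Fin d₂ → S →ₐ[R] R) :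
    diagProd (Fin.append τ₁ τ₂) = diagProd τ₁ * crossProd τ₁ τ₂ * diagProd τ₂ := by
  have h11 : ∀ a b : Fin d₁, (if Fin.castAdd d₂ a < Fin.castAdd d₂ b then
      diag (Fin.append τ₁ τ₂) (Fin.castAdd d₂ a) (Fin.castAdd d₂ b) else 1) =
      if a < b then diag τ₁ a b else 1 := by
    intro a b
    have h1 : Fin.castAdd d₂ a < Fin.castAdd d₂ b ↔ a < b := by
      rw [Fin.lt_def, Fin.lt_def]
      simp only [Fin.val_castAdd]
    simp only [h1, diag, Fin.append_left]
  have h12 : ∀ (a : Fin d₁) (b : Fin d₂), (if Fin.castAdd d₂ a < Fin.natAdd d₁ b then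
      diag (Fin.append τ₁ τ₂) (Fin.castAdd d₂ a) (Fin.natAdd d₁ b) else 1) =
      Ideal.span (Set.range fun f : S => τ₁ a f - τ₂ b f) := by
    intro a b
    have h1 : Fin.castAdd d₂ a < Fin.natAdd d₁ b := by
      simp only [Fin.lt_def, Fin.val_castAdd, Fin.val_natAdd]
      omega
    rw [if_pos h1]
    simp only [diag, Fin.append_left, Fin.append_right]
  have h21 : ∀ (a : Fin d₂) (b : Fin d₁), (if Fin.natAdd d₁ a < Fin.castAdd d₂ b then
      diag (Fin.append τ₁ τ₂) (Fin.natAdd d₁ a) (Fin.castAdd d₂ b) else 1) = 1 := by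
    intro a b
    have h1 : ¬ Fin.natAdd d₁ a < Fin.castAdd d₂ b := by
      simp only [Fin.lt_def, Fin.val_castAdd, Fin.val_natAdd]
      omega
    rw [if_neg h1]
  have h22 : ∀ a b : Fin d₂, (if Fin.natAdd d₁ a < Fin.natAdd d₁ b then
      diag (Fin.append τ₁ τ₂) (Fin.natAdd d₁ a) (Fin.natAdd d₁ b) else 1) =
      if a < b then diag τ₂ a b else 1 := by
    intro a b
    have h1 : Fin.natAdd d₁ a < Fin.natAdd d₁ b ↔ a < b := by
      rw [Fin.lt_def, Fin.lt_def]
      simp only [Fin.val_natAdd]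
      omega
    simp only [h1, diag, Fin.append_right]
  rw [diagProd_eq_prod_prod, diagProd_eq_prod_prod, diagProd_eq_prod_prod, Fin.prod_univ_add]
  simp only [Fin.prod_univ_add, h11, h12, h21, h22, Finset.prod_const_one,
    Finset.prod_mul_distrib]
  unfold crossProd
  rw [one_mul]

theorem crossProd_append_left {d₁ d₂ d₃ : ℕ} (τ₁ : Fin d₁ → S →ₐ[R] R)
    (τ₂ : Fin d₂ → S →ₐ[R] R) (τ₃ : Fin d₃ → S →ₐ[R] R) :
    crossProd (Fin.append τ₁ τ₂) τ₃ = crossProd τ₁ τ₃ * crossProd τ₂ τ₃ := by
  unfold crossProd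
  rw [Fin.prod_univ_add]
  simp only [Fin.append_left, Fin.append_right]

/-- The cube identity for the products of diagonal ideals (purely formal). -/
theorem diagProd_cube {d₁ d₂ d₃ : ℕ} (τ₁ : Fin d₁ → S →ₐ[R] R) (τ₂ : Fin d₂ → S →ₐ[R] R)
    (τ₃ : Fin d₃ → S →ₐ[R] R) :
    diagProd (Fin.append (Fin.append τ₁ τ₂) τ₃) * diagProd τ₁ * diagProd τ₂ * diagProd τ₃ =
      diagProd (Fin.append τ₁ τ₂) * diagProd (Fin.append τ₁ τ₃) *
        diagProd (Fin.append τ₂ τ₃) := by
  simp only [diagProd_append, crossProd_append_left]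
  ring

theorem LocPrincipal.append_left {d₁ d₂ : ℕ} {τ₁ : Fin d₁ → S →ₐ[R] R}
    {τ₂ : Fin d₂ → S →ₐ[R] R} (h : LocPrincipal (Fin.append τ₁ τ₂)) : LocPrincipal τ₁ :=
  h.of_forall_exists τ₁ fun a => ⟨Fin.castAdd d₂ a, (Fin.append_left τ₁ τ₂ a).symm⟩

theorem LocPrincipal.append_right {d₁ d₂ : ℕ} {τ₁ : Fin d₁ → S →ₐ[R] R}
    {τ₂ : Fin d₂ → S →ₐ[R] R} (h : LocPrincipal (Fin.append τ₁ τ₂)) : LocPrincipal τ₂ :=
  h.of_forall_exists τ₂ fun a => ⟨Fin.natAdd d₁ a, (Fin.append_right τ₁ τ₂ a).symm⟩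

theorem LocPrincipal.append_13 {d₁ d₂ d₃ : ℕ} {τ₁ : Fin d₁ → S →ₐ[R] R}
    {τ₂ : Fin d₂ → S →ₐ[R] R} {τ₃ : Fin d₃ → S →ₐ[R] R}
    (h : LocPrincipal (Fin.append (Fin.append τ₁ τ₂) τ₃)) : LocPrincipal (Fin.append τ₁ τ₃) := by
  refine h.of_forall_exists _ fun a => ?_
  induction a using Fin.addCases with
  | left a =>
    exact ⟨Fin.castAdd d₃ (Fin.castAdd d₂ a), by
      rw [Fin.append_left, Fin.append_left, Fin.append_left]⟩
  | right b => exact ⟨Fin.natAdd (d₁ + d₂) b, by rw [Fin.append_right, Fin.append_right]⟩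

theorem LocPrincipal.append_23 {d₁ d₂ d₃ : ℕ} {τ₁ : Fin d₁ → S →ₐ[R] R}
    {τ₂ : Fin d₂ → S →ₐ[R] R} {τ₃ : Fin d₃ → S →ₐ[R] R}
    (h : LocPrincipal (Fin.append (Fin.append τ₁ τ₂) τ₃)) : LocPrincipal (Fin.append τ₂ τ₃) := by
  refine h.of_forall_exists _ fun a => ?_
  induction a using Fin.addCases with
  | left a =>
    exact ⟨Fin.castAdd d₃ (Fin.natAdd d₁ a), by
      rw [Fin.append_left, Fin.append_left, Fin.append_right]⟩
  | right b => exact ⟨Fin.natAdd (d₁ + d₂) b, by rw [Fin.append_right, Fin.append_right]⟩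

/-- **(T5), the cube identity** for the ideals of evaluation determinants of three families
of points `τ₁`, `τ₂`, `τ₃` (no disjointness or distinctness hypothesis). -/
theorem alt_cube {d₁ d₂ d₃ : ℕ} (τ₁ : Fin d₁ → S →ₐ[R] R) (τ₂ : Fin d₂ → S →ₐ[R] R)
    (τ₃ : Fin d₃ → S →ₐ[R] R) (h : LocPrincipal (Fin.append (Fin.append τ₁ τ₂) τ₃)) :
    alt (Fin.append (Fin.append τ₁ τ₂) τ₃) * alt τ₁ * alt τ₂ * alt τ₃ =
      alt (Fin.append τ₁ τ₂) * alt (Fin.append τ₁ τ₃) * alt (Fin.append τ₂ τ₃) := by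
  have h12 : LocPrincipal (Fin.append τ₁ τ₂) := h.append_left
  rw [alt_eq_diagProd _ h, alt_eq_diagProd _ h12.append_left, alt_eq_diagProd _ h12.append_right,
    alt_eq_diagProd _ h.append_right, alt_eq_diagProd _ h12, alt_eq_diagProd _ h.append_13,
    alt_eq_diagProd _ h.append_23, diagProd_cube]

/-- (T5) for subfamilies of one family `σ : κ → S →ₐ[R] R` given by arbitrary index maps. -/
theorem alt_cube_of_locPrincipal {κ : Type*} (σ : κ → S →ₐ[R] R) (h : LocPrincipal σ)
    {d₁ d₂ d₃ : ℕ} (e₁ : Fin d₁ → κ) (e₂ : Fin d₂ → κ) (e₃ : Fin d₃ → κ) :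
    alt (fun a => σ (Fin.append (Fin.append e₁ e₂) e₃ a)) * alt (fun a => σ (e₁ a)) *
        alt (fun a => σ (e₂ a)) * alt (fun a => σ (e₃ a)) =
      alt (fun a => σ (Fin.append e₁ e₂ a)) * alt (fun a => σ (Fin.append e₁ e₃ a)) *
        alt (fun a => σ (Fin.append e₂ e₃ a)) := by
  have key : ∀ {m n : ℕ} (u : Fin m → κ) (v : Fin n → κ),
      (fun a => σ (Fin.append u v a)) = Fin.append (fun a => σ (u a)) (fun a => σ (v a)) := by
    intro m n u v
    funext a
    induction a using Fin.addCases with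
    | left a => rw [Fin.append_left, Fin.append_left]
    | right b => rw [Fin.append_right, Fin.append_right]
  have hbig : LocPrincipal (Fin.append (Fin.append (fun a => σ (e₁ a)) (fun a => σ (e₂ a)))
      (fun a => σ (e₃ a))) := by
    rw [← key e₁ e₂, ← key (Fin.append e₁ e₂) e₃]
    exact h.comp _
  have := alt_cube (fun a => σ (e₁ a)) (fun a => σ (e₂ a)) (fun a => σ (e₃ a)) hbig
  rw [← key e₁ e₂, ← key (Fin.append e₁ e₂) e₃, ← key e₁ e₃, ← key e₂ e₃] at this
  exact this

/-- A single minor of the evaluation matrix of the family `ψ`, for the column choice `e`. -/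
def minor {d : ℕ} {ι : Type*} (σ : Fin d → S →ₐ[R] R) (ψ : ι → S) (e : Fin d → ι) : R :=
  Matrix.det (Matrix.of fun i k => σ i (ψ (e k)))

theorem minors_eq_span_range_minor {d : ℕ} {ι : Type*} (σ : Fin d → S →ₐ[R] R) (ψ : ι → S) :
    minors σ ψ = Ideal.span (Set.range (minor σ ψ)) := rfl

theorem span_range_mul_span_range {α β : Type*} (f : α → R) (g : β → R) :
    Ideal.span (Set.range f) * Ideal.span (Set.range g) =
      Ideal.span (Set.range fun p : α × β => f p.1 * g p.2) := by
  rw [Ideal.span_mul_span']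
  congr 1
  ext x
  constructor
  · rintro ⟨_, ⟨a, rfl⟩, _, ⟨b, rfl⟩, rfl⟩
    exact ⟨(a, b), rfl⟩
  · rintro ⟨p, rfl⟩
    exact ⟨_, ⟨p.1, rfl⟩, _, ⟨p.2, rfl⟩, rfl⟩

/-- **(T5), one-sided matrix form** (the inclusion used by the cube law for heights): only the
three two-block levels need the spanning hypothesis. -/
theorem minors_cube_le {d₁ d₂ d₃ : ℕ} {ι₁ ι₂ ι₃ ι₁₂ ι₁₃ ι₂₃ ι₁₂₃ : Type*}
    (τ₁ : Fin d₁ → S →ₐ[R] R) (τ₂ : Fin d₂ → S →ₐ[R] R) (τ₃ : Fin d₃ → S →ₐ[R] R)
    (h : LocPrincipal (Fin.append (Fin.append τ₁ τ₂) τ₃))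
    (ψ₁ : ι₁ → S) (ψ₂ : ι₂ → S) (ψ₃ : ι₃ → S) (ψ₁₂ : ι₁₂ → S) (ψ₁₃ : ι₁₃ → S) (ψ₂₃ : ι₂₃ → S)
    (ψ₁₂₃ : ι₁₂₃ → S)
    (h₁₂ : ∀ F : S, evalVec (Fin.append τ₁ τ₂) F ∈
      Submodule.span R (Set.range fun s => evalVec (Fin.append τ₁ τ₂) (ψ₁₂ s)))
    (h₁₃ : ∀ F : S, evalVec (Fin.append τ₁ τ₃) F ∈
      Submodule.span R (Set.range fun s => evalVec (Fin.append τ₁ τ₃) (ψ₁₃ s)))
    (h₂₃ : ∀ F : S, evalVec (Fin.append τ₂ τ₃) F ∈
      Submodule.span R (Set.range fun s => evalVec (Fin.append τ₂ τ₃) (ψ₂₃ s))) :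
    minors (Fin.append (Fin.append τ₁ τ₂) τ₃) ψ₁₂₃ * minors τ₁ ψ₁ * minors τ₂ ψ₂ * minors τ₃ ψ₃ ≤
      minors (Fin.append τ₁ τ₂) ψ₁₂ * minors (Fin.append τ₁ τ₃) ψ₁₃ *
        minors (Fin.append τ₂ τ₃) ψ₂₃ := by
  rw [minors_eq_alt _ _ h₁₂, minors_eq_alt _ _ h₁₃, minors_eq_alt _ _ h₂₃, ← alt_cube τ₁ τ₂ τ₃ h]
  exact Ideal.mul_mono (Ideal.mul_mono (Ideal.mul_mono (minors_le_alt _ _) (minors_le_alt _ _))
    (minors_le_alt _ _)) (minors_le_alt _ _)

/-- **(T5), matrix form with equality**, all seven levels spanning. -/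
theorem minors_cube {d₁ d₂ d₃ : ℕ} {ι₁ ι₂ ι₃ ι₁₂ ι₁₃ ι₂₃ ι₁₂₃ : Type*}
    (τ₁ : Fin d₁ → S →ₐ[R] R) (τ₂ : Fin d₂ → S →ₐ[R] R) (τ₃ : Fin d₃ → S →ₐ[R] R)
    (h : LocPrincipal (Fin.append (Fin.append τ₁ τ₂) τ₃))
    (ψ₁ : ι₁ → S) (ψ₂ : ι₂ → S) (ψ₃ : ι₃ → S) (ψ₁₂ : ι₁₂ → S) (ψ₁₃ : ι₁₃ → S) (ψ₂₃ : ι₂₃ → S)
    (ψ₁₂₃ : ι₁₂₃ → S)
    (h₁ : ∀ F : S, evalVec τ₁ F ∈ Submodule.span R (Set.range fun s => evalVec τ₁ (ψ₁ s)))
    (h₂ : ∀ F : S, evalVec τ₂ F ∈ Submodule.span R (Set.range fun s => evalVec τ₂ (ψ₂ s)))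
    (h₃ : ∀ F : S, evalVec τ₃ F ∈ Submodule.span R (Set.range fun s => evalVec τ₃ (ψ₃ s)))
    (h₁₂ : ∀ F : S, evalVec (Fin.append τ₁ τ₂) F ∈
      Submodule.span R (Set.range fun s => evalVec (Fin.append τ₁ τ₂) (ψ₁₂ s)))
    (h₁₃ : ∀ F : S, evalVec (Fin.append τ₁ τ₃) F ∈
      Submodule.span R (Set.range fun s => evalVec (Fin.append τ₁ τ₃) (ψ₁₃ s)))
    (h₂₃ : ∀ F : S, evalVec (Fin.append τ₂ τ₃) F ∈
      Submodule.span R (Set.range fun s => evalVec (Fin.append τ₂ τ₃) (ψ₂₃ s)))
    (h₁₂₃ : ∀ F : S, evalVec (Fin.append (Fin.append τ₁ τ₂) τ₃) F ∈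
      Submodule.span R (Set.range fun s => evalVec (Fin.append (Fin.append τ₁ τ₂) τ₃) (ψ₁₂₃ s))) :
    minors (Fin.append (Fin.append τ₁ τ₂) τ₃) ψ₁₂₃ * minors τ₁ ψ₁ * minors τ₂ ψ₂ * minors τ₃ ψ₃ =
      minors (Fin.append τ₁ τ₂) ψ₁₂ * minors (Fin.append τ₁ τ₃) ψ₁₃ *
        minors (Fin.append τ₂ τ₃) ψ₂₃ := by
  rw [minors_eq_alt _ _ h₁, minors_eq_alt _ _ h₂, minors_eq_alt _ _ h₃, minors_eq_alt _ _ h₁₂,
    minors_eq_alt _ _ h₁₃, minors_eq_alt _ _ h₂₃, minors_eq_alt _ _ h₁₂₃, alt_cube τ₁ τ₂ τ₃ h]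

/-- **(T5), element form** (the input shape of the chart/height bridge): every product of four
minors (levels `123`, `1`, `2`, `3`) is an `R`-combination of products of three minors (levels
`12`, `13`, `23`). -/
theorem minor_cube_mem {d₁ d₂ d₃ : ℕ} {ι₁ ι₂ ι₃ ι₁₂ ι₁₃ ι₂₃ ι₁₂₃ : Type*}
    (τ₁ : Fin d₁ → S →ₐ[R] R) (τ₂ : Fin d₂ → S →ₐ[R] R) (τ₃ : Fin d₃ → S →ₐ[R] R)
    (h : LocPrincipal (Fin.append (Fin.append τ₁ τ₂) τ₃))
    (ψ₁ : ι₁ → S) (ψ₂ : ι₂ → S) (ψ₃ : ι₃ → S) (ψ₁₂ : ι₁₂ → S) (ψ₁₃ : ι₁₃ → S) (ψ₂₃ : ι₂₃ → S)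
    (ψ₁₂₃ : ι₁₂₃ → S)
    (h₁₂ : ∀ F : S, evalVec (Fin.append τ₁ τ₂) F ∈
      Submodule.span R (Set.range fun s => evalVec (Fin.append τ₁ τ₂) (ψ₁₂ s)))
    (h₁₃ : ∀ F : S, evalVec (Fin.append τ₁ τ₃) F ∈
      Submodule.span R (Set.range fun s => evalVec (Fin.append τ₁ τ₃) (ψ₁₃ s)))
    (h₂₃ : ∀ F : S, evalVec (Fin.append τ₂ τ₃) F ∈
      Submodule.span R (Set.range fun s => evalVec (Fin.append τ₂ τ₃) (ψ₂₃ s)))
    (e₁₂₃ : Fin (d₁ + d₂ + d₃) → ι₁₂₃) (e₁ : Fin d₁ → ι₁) (e₂ : Fin d₂ → ι₂) (e₃ : Fin d₃ → ι₃) :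
    minor (Fin.append (Fin.append τ₁ τ₂) τ₃) ψ₁₂₃ e₁₂₃ * minor τ₁ ψ₁ e₁ * minor τ₂ ψ₂ e₂ *
        minor τ₃ ψ₃ e₃ ∈
      Ideal.span (Set.range fun q : (Fin (d₁ + d₂) → ι₁₂) × (Fin (d₁ + d₃) → ι₁₃) ×
          (Fin (d₂ + d₃) → ι₂₃) =>
        minor (Fin.append τ₁ τ₂) ψ₁₂ q.1 * minor (Fin.append τ₁ τ₃) ψ₁₃ q.2.1 *
          minor (Fin.append τ₂ τ₃) ψ₂₃ q.2.2) := by
  have hle := minors_cube_le τ₁ τ₂ τ₃ h ψ₁ ψ₂ ψ₃ ψ₁₂ ψ₁₃ ψ₂₃ ψ₁₂₃ h₁₂ h₁₃ h₂₃
  have hmem : minor (Fin.append (Fin.append τ₁ τ₂) τ₃) ψ₁₂₃ e₁₂₃ * minor τ₁ ψ₁ e₁ *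
      minor τ₂ ψ₂ e₂ * minor τ₃ ψ₃ e₃ ∈
      minors (Fin.append (Fin.append τ₁ τ₂) τ₃) ψ₁₂₃ * minors τ₁ ψ₁ * minors τ₂ ψ₂ *
        minors τ₃ ψ₃ :=
    Ideal.mul_mem_mul (Ideal.mul_mem_mul (Ideal.mul_mem_mul (Ideal.subset_span ⟨_, rfl⟩)
      (Ideal.subset_span ⟨_, rfl⟩)) (Ideal.subset_span ⟨_, rfl⟩)) (Ideal.subset_span ⟨_, rfl⟩)
  have h3 := hle hmem
  rw [minors_eq_span_range_minor, minors_eq_span_range_minor, minors_eq_span_range_minor,
    mul_assoc, span_range_mul_span_range, span_range_mul_span_range] at h3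
  convert h3 using 3
  funext q
  ring

end T5

section T3'

variable {R S : Type*} [CommRing R] [CommRing S] [Algebra R S] {d : ℕ}

/-- Newton expansion through the points one at a time: after multiplication by `w ^ d`, the
values of any function at the `d` points are an `R`-combination of the values of `d` fixed
functions. -/
theorem exists_newton_family :
    ∀ (d : ℕ) (σ : Fin d → S →ₐ[R] R) (w : S) (t : Fin d → S),
      (∀ i, σ i (t i) = 0) → (∀ i, ∀ x : S, σ i x = 0 → ∃ c : S, w * x = t i * c) →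
      ∃ H : Fin d → S, ∀ F : S, ∃ c : Fin d → R,
        ∀ i, σ i (w ^ d * F) = ∑ j, c j * σ i (H j) := by
  intro d
  induction d with
  | zero =>
    intro σ w t _ _
    exact ⟨Fin.elim0, fun F => ⟨Fin.elim0, fun i => i.elim0⟩⟩
  | succ d ih =>
    intro σ w t ht hdiv
    obtain ⟨H', hH'⟩ := ih (fun i => σ i.succ) w (fun i => t i.succ) (fun i => ht i.succ)
      (fun i x hx => hdiv i.succ x hx)
    refine ⟨Fin.cons (w ^ (d + 1)) (fun j => t 0 * H' j), fun F => ?_⟩
    obtain ⟨F', hF'⟩ := hdiv 0 (F - algebraMap R S (σ 0 F)) (by simp)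
    obtain ⟨c', hc'⟩ := hH' F'
    refine ⟨Fin.cons (σ 0 F) c', fun i => ?_⟩
    have hexp : w ^ (d + 1) * F =
        algebraMap R S (σ 0 F) * w ^ (d + 1) + t 0 * (w ^ d * F') := by
      have h1 : w ^ (d + 1) * F = algebraMap R S (σ 0 F) * w ^ (d + 1) +
          w ^ d * (w * (F - algebraMap R S (σ 0 F))) := by ring
      rw [h1, hF']
      ring
    rw [Fin.sum_univ_succ]
    simp only [Fin.cons_zero, Fin.cons_succ]
    rw [hexp, map_add, map_mul, map_mul (σ i) (t 0), AlgHom.commutes]
    simp only [Algebra.algebraMap_self, RingHom.id_apply]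
    congr 1
    rcases Fin.eq_zero_or_eq_succ i with rfl | ⟨i', rfl⟩
    · rw [ht 0, zero_mul]
      symm
      refine Finset.sum_eq_zero fun j _ => ?_
      rw [map_mul, ht 0, zero_mul, mul_zero]
    · rw [hc' i', Finset.mul_sum]
      refine Finset.sum_congr rfl fun j _ => ?_
      rw [map_mul]
      ring

theorem exists_prod_sub_eq {κ : Type*} (s : Finset κ) (a : κ → R) (W : S) :
    ∃ Q : S, ∏ k ∈ s, (W - algebraMap R S (a k)) =
      W * Q + algebraMap R S (∏ k ∈ s, (-a k)) := by
  classical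
  induction s using Finset.induction_on with
  | empty => exact ⟨0, by simp⟩
  | insert b s hb ih =>
    obtain ⟨Q, hQ⟩ := ih
    refine ⟨Q * (W - algebraMap R S (a b)) + algebraMap R S (∏ k ∈ s, (-a k)), ?_⟩
    rw [Finset.prod_insert hb, Finset.prod_insert hb, hQ, map_mul, map_neg]
    ring

/-- Every function `W` has a multiple `W * Q` taking one and the same value at all the points,
namely `± ∏ σ k W`. -/
theorem exists_mul_eval_eq (σ : Fin d → S →ₐ[R] R) (W : S) :
    ∃ Q : S, ∀ i, σ i (W * Q) = -∏ k, (-σ k W) := by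
  obtain ⟨Q, hQ⟩ := exists_prod_sub_eq Finset.univ (fun k => σ k W) W
  refine ⟨Q, fun i => ?_⟩
  have h1 := congrArg (σ i) hQ
  rw [map_prod, map_add, AlgHom.commutes] at h1
  have h0 : ∏ k, σ i (W - algebraMap R S (σ k W)) = 0 :=
    Finset.prod_eq_zero (Finset.mem_univ i) (by simp)
  rw [h0] at h1
  simp only [Algebra.algebraMap_self, RingHom.id_apply] at h1
  linear_combination -h1

theorem range_evalLin_le_sup {ι : Type*} (σ : Fin d → S →ₐ[R] R) (ψ : ι → S) (m : Ideal R)
    (h : ∀ F : S, ∃ G ∈ Submodule.span R (Set.range ψ),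
      ∃ L ∈ Ideal.map (algebraMap R S) m, ∀ i, σ i F = σ i G + σ i L) :
    LinearMap.range (evalLin σ) ≤
      Submodule.span R (Set.range fun s => evalVec σ (ψ s)) ⊔ m • LinearMap.range (evalLin σ) := by
  rintro _ ⟨F, rfl⟩
  obtain ⟨G, hG, L, hL, hFGL⟩ := h F
  have h1 : evalLin σ F = evalLin σ G + evalLin σ L := by
    funext i
    exact hFGL i
  rw [h1]
  refine Submodule.add_mem_sup ?_ ?_
  · have h2 : Submodule.map (evalLin σ) (Submodule.span R (Set.range ψ)) =
        Submodule.span R (Set.range fun s => evalVec σ (ψ s)) := by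
      rw [Submodule.map_span, ← Set.range_comp]
      rfl
    rw [← h2]
    exact Submodule.mem_map_of_mem hG
  · have hL' : L ∈ m • (⊤ : Submodule R S) := by
      rw [Ideal.smul_top_eq_map]
      exact hL
    have h3 := Submodule.mem_map_of_mem (f := evalLin σ) hL'
    rw [Submodule.map_smul'', Submodule.map_top] at h3
    exact h3

/-- **(T3'), Nakayama adapter without any finiteness hypothesis**: under simultaneous local
principality the module of evaluation vectors is locally finitely generated, so the spanning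
hypothesis of (T2) can be checked fibrewise over the maximal ideals of `R`. -/
theorem evalVec_mem_span_of_locPrincipal {ι : Type*} (σ : Fin d → S →ₐ[R] R)
    (hLP : LocPrincipal σ) (ψ : ι → S)
    (h : ∀ m : Ideal R, m.IsMaximal → ∀ F : S, ∃ G ∈ Submodule.span R (Set.range ψ),
      ∃ L ∈ Ideal.map (algebraMap R S) m, ∀ i, σ i F = σ i G + σ i L) (F : S) :
    evalVec σ F ∈ Submodule.span R (Set.range fun s => evalVec σ (ψ s)) := by
  set N := Submodule.span R (Set.range fun s => evalVec σ (ψ s)) with hN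
  set M := LinearMap.range (evalLin σ) with hM
  have key : ∀ m : Ideal R, m.IsMaximal → ∃ s, s ∉ m ∧ ∀ x ∈ M, s • x ∈ N := by
    intro m hm
    have hprime := hm.isPrime
    obtain ⟨w, t, hw, ht, hdiv⟩ := hLP m hm
    obtain ⟨H, hH⟩ := exists_newton_family d σ w t ht hdiv
    obtain ⟨Q, hQ⟩ := exists_mul_eval_eq σ (w ^ d)
    set p : R := -∏ k, (-σ k (w ^ d)) with hp
    have hpm : p ∉ m := by
      intro hmem
      have h1 : ∏ k, (-σ k (w ^ d)) ∈ m := by
        have h2 := neg_mem hmem
        rwa [hp, neg_neg] at h2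
      rw [Ideal.IsPrime.prod_mem_iff] at h1
      obtain ⟨k, -, hk⟩ := h1
      have h2 : σ k w ^ d ∈ m := by
        have h3 := neg_mem hk
        rwa [neg_neg, map_pow] at h3
      exact hw k (hprime.mem_of_pow_mem d h2)
    set M'' := Submodule.span R (Set.range fun j => evalVec σ (Q * H j)) with hM''
    have hM''fg : M''.FG := Submodule.fg_span (Set.finite_range _)
    have hM''le : M'' ≤ M := by
      rw [hM'', Submodule.span_le]
      rintro _ ⟨j, rfl⟩
      exact ⟨Q * H j, rfl⟩
    have hpM : ∀ x ∈ M, p • x ∈ M'' := by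
      rintro _ ⟨F, rfl⟩
      obtain ⟨c, hc⟩ := hH F
      have h1 : p • evalLin σ F = ∑ j, c j • evalVec σ (Q * H j) := by
        funext i
        simp only [Pi.smul_apply, smul_eq_mul, Finset.sum_apply, evalLin_apply, evalVec]
        have h2 : p * σ i F = σ i Q * σ i (w ^ d * F) := by
          rw [← hQ i, map_mul, map_mul]
          ring
        rw [h2, hc i, Finset.mul_sum]
        refine Finset.sum_congr rfl fun j _ => ?_
        rw [map_mul]
        ring
      rw [h1]
      exact Submodule.sum_mem _ fun j _ =>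
        Submodule.smul_mem _ _ (Submodule.subset_span ⟨j, rfl⟩)
    have hMle : M ≤ N ⊔ m • M := range_evalLin_le_sup σ ψ m (h m hm)
    have hM''sup : M'' ≤ N ⊔ m • M'' := by
      intro y hy
      obtain ⟨q, i, hi, hqi⟩ := hm.exists_inv hpm
      obtain ⟨n, hn, z, hz, rfl⟩ := Submodule.mem_sup.mp (hMle (hM''le hy))
      have hpz : p • z ∈ m • M'' := by
        refine Submodule.smul_induction_on hz (fun a ha x hx => ?_) (fun x y hx hy => ?_)
        · rw [smul_comm]
          exact Submodule.smul_mem_smul ha (hpM x hx)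
        · rw [smul_add]
          exact add_mem hx hy
      have hdec : n + z = (q * p) • n + (q • (p • z) + i • (n + z)) := by
        calc n + z = (q * p + i) • (n + z) := by rw [hqi, one_smul]
          _ = (q * p) • n + (q • (p • z) + i • (n + z)) := by
            rw [add_smul, smul_add, mul_smul q p z]
            abel
      rw [hdec]
      refine Submodule.add_mem_sup (Submodule.smul_mem _ _ hn) (add_mem ?_ ?_)
      · exact Submodule.smul_mem _ _ hpz
      · exact Submodule.smul_mem_smul hi hy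
    obtain ⟨r, hr1, hr⟩ :=
      Submodule.exists_sub_one_mem_and_smul_le_of_fg_of_le_sup hM''fg le_rfl hM''sup
    refine ⟨r * p, ?_, fun x hx => ?_⟩
    · intro hmem
      rcases hprime.mem_or_mem hmem with h1 | h1
      · apply hm.ne_top
        rw [Ideal.eq_top_iff_one]
        have h2 : (1 : R) = r - (r - 1) := by ring
        rw [h2]
        exact sub_mem h1 hr1
      · exact hpm h1
    · rw [mul_smul]
      exact hr (Submodule.smul_mem_pointwise_smul _ r M'' (hpM x hx))
  have hx : evalVec σ F ∈ M := ⟨F, rfl⟩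
  by_contra hxN
  have hc : N.colon (Submodule.span R {evalVec σ F}) ≠ ⊤ := by
    intro htop
    have h1 : (1 : R) ∈ N.colon (Submodule.span R {evalVec σ F}) := htop ▸ Submodule.mem_top
    rw [Submodule.mem_colon_span_singleton] at h1
    exact hxN (by simpa using h1)
  obtain ⟨m, hm, hle⟩ := Ideal.exists_le_maximal _ hc
  obtain ⟨s, hs, hsM⟩ := key m hm
  exact hs (hle (Submodule.mem_colon_span_singleton.mpr (hsM _ hx)))

/-- (T3') with the fibrewise hypothesis in quotient form: modulo the product of the kernels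
of the sections and `m S`, every function is an `R`-combination of the `ψ s`
(= "`L → B ⧸ I_D` is onto" in every fibre). -/
theorem evalVec_mem_span_of_locPrincipal' {ι : Type*} (σ : Fin d → S →ₐ[R] R)
    (hLP : LocPrincipal σ) (ψ : ι → S)
    (h : ∀ m : Ideal R, m.IsMaximal → ∀ F : S, ∃ G ∈ Submodule.span R (Set.range ψ),
      F - G ∈ (∏ i, RingHom.ker (σ i : S →+* R)) ⊔ Ideal.map (algebraMap R S) m) (F : S) :
    evalVec σ F ∈ Submodule.span R (Set.range fun s => evalVec σ (ψ s)) := by
  refine evalVec_mem_span_of_locPrincipal σ hLP ψ (fun m hm F => ?_) F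
  obtain ⟨G, hG, hFG⟩ := h m hm F
  obtain ⟨K, hK, L, hL, hKL⟩ := Submodule.mem_sup.mp hFG
  refine ⟨G, hG, L, hL, fun i => ?_⟩
  have hKi : σ i K = 0 := by
    have h1 : (∏ i, RingHom.ker (σ i : S →+* R)) ≤ RingHom.ker (σ i : S →+* R) :=
      Ideal.prod_le_inf.trans (Finset.inf_le (Finset.mem_univ i))
    exact h1 hK
  have h2 : F = G + (K + L) := by rw [hKL]; ring
  rw [h2, map_add, map_add, hKi, zero_add]

/-- **(V-alg), final form**: under simultaneous local principality and fibrewise spanning, the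
ideal of the `d × d` minors of the evaluation matrix of `ψ` is the product of the diagonal
ideals. -/
theorem minors_eq_diagProd_of_fibrewise {ι : Type*} (σ : Fin d → S →ₐ[R] R)
    (hLP : LocPrincipal σ) (ψ : ι → S)
    (h : ∀ m : Ideal R, m.IsMaximal → ∀ F : S, ∃ G ∈ Submodule.span R (Set.range ψ),
      F - G ∈ (∏ i, RingHom.ker (σ i : S →+* R)) ⊔ Ideal.map (algebraMap R S) m) :
    minors σ ψ = diagProd σ :=
  minors_eq_diagProd σ hLP ψ (evalVec_mem_span_of_locPrincipal' σ hLP ψ h)

end T3'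

section T6

variable {R S : Type*} [CommRing R] [CommRing S] [Algebra R S] {d : ℕ}

/-- A valuation bounded by `1` on `R` and by `c p` on the ideal `I p` is bounded by `∏ c p`
on the product of the `I p`. -/
theorem valuation_le_of_mem_prod {Γ₀ : Type*} [LinearOrderedCommGroupWithZero Γ₀]
    (v : Valuation R Γ₀) (hv : ∀ r, v r ≤ 1) {κ : Type*} (s : Finset κ) (I : κ → Ideal R)
    (c : κ → Γ₀) (h : ∀ p ∈ s, ∀ x ∈ I p, v x ≤ c p) :
    ∀ x ∈ ∏ p ∈ s, I p, v x ≤ ∏ p ∈ s, c p := by
  classical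
  induction s using Finset.induction_on with
  | empty =>
    intro x _
    rw [Finset.prod_empty]
    exact hv x
  | insert a s ha ih =>
    intro x hx
    rw [Finset.prod_insert ha] at hx
    rw [Finset.prod_insert ha]
    refine Submodule.mul_induction_on hx (fun y hy z hz => ?_) (fun y z hy hz => ?_)
    · rw [map_mul]
      exact mul_le_mul' (h a (Finset.mem_insert_self a s) y hy)
        (ih (fun p hp => h p (Finset.mem_insert_of_mem hp)) z hz)
    · exact (v.map_add_le hy hz)

/-- **(T6), valuation form of the one-sided bound** (for the function-field track): if a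
valuation `v ≤ 1` on `R` satisfies `v (σ i f - σ j f) ≤ c i j` for all functions `f`, then
`v (det (σ i (F k))) ≤ ∏_{i<j} c i j`. -/
theorem valuation_det_le {Γ₀ : Type*} [LinearOrderedCommGroupWithZero Γ₀]
    (v : Valuation R Γ₀) (hv : ∀ r, v r ≤ 1) (σ : Fin d → S →ₐ[R] R) (h : LocPrincipal σ)
    (c : Fin d → Fin d → Γ₀) (hc : ∀ i j, i < j → ∀ f : S, v (σ i f - σ j f) ≤ c i j)
    (F : Fin d → S) :
    v (Matrix.det (Matrix.of fun i k => σ i (F k))) ≤
      ∏ p : Fin d × Fin d, if p.1 < p.2 then c p.1 p.2 else 1 := by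
  have hmem := det_mem_diagProd σ h F
  unfold diagProd at hmem
  refine valuation_le_of_mem_prod v hv Finset.univ _ _ (fun p _ x hx => ?_) _ hmem
  split_ifs with hp
  · rw [if_pos hp] at hx
    unfold diag at hx
    induction hx using Submodule.span_induction with
    | mem x hx =>
      obtain ⟨f, rfl⟩ := hx
      exact hc p.1 p.2 hp f
    | zero => simp
    | add x y _ _ hx hy => exact v.map_add_le hx hy
    | smul a x _ hx =>
      rw [smul_eq_mul, map_mul]
      calc v a * v x ≤ 1 * c p.1 p.2 := mul_le_mul' (hv a) hx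
        _ = c p.1 p.2 := one_mul _
  · exact hv x

end T6

end Fermat.Agent.S17.helper1253
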