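import Mathlib
import Fermat.Prelude.Def_AlgebraicCurve_BaseChangeGalois
import Fermat.Prelude.Def_AlgebraicCurve_Repartitions
import Fermat.Agent.S24.helper1370_PlaceBasics

/-!
# S17-G3: the moving lemma (helper1263, board row 1693)

Abstract form, in the Prelude vocabulary `Place / Divisor / Pic0 / SemilinearAut`.

`K`, `F` fields, `[CharZero K]`, `[HasPrincipalDivisors K F]`, a group `Γ` acting on `F`
semilinearly through `ρ : Γ →* SemilinearAut K F`.

* `exists_avoid`      : an additive subgroup `A` of a `K`-module which is not contained in any of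
                        finitely many `K`-subspaces `W i` has an element outside all of them
                        (characteristic zero; pencil `f + n • g`, `n : ℕ`).
* `pencil_finite`     : for `f₁, f₂ ∈ L(E)` such that `f₂` has exact order `-E P` at the base
                        points of `f₁`, all but finitely many members `f₂ - c f₁` of the pencil have
                        a reduced divisor `div (f₂ - c f₁) + E` avoiding a given finite set
                        (input: finiteness of the ramification of `f₂ / f₁`).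
* `exists_reduced`    : a `ρ`-stable divisor `E` of positive degree whose linear system is finite
                        dimensional and base point free is linearly equivalent, through a
                        `ρ`-fixed function, to a reduced effective `ρ`-stable divisor avoiding any
                        given finite set of places.
* `moving`            : the same in `Pic0`, relative to a `ρ`-fixed base place `P0`.
* `moving_family`     : finitely many classes at once, with pairwise disjoint supports.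

Hypotheses are passed as the `Prop`s `Descent ρ` (finite dimensional `ρ`-stable subspaces are
spanned by their fixed vectors) and `FiniteRamification K F`.
-/

set_option autoImplicit false

open AlgebraicCurve

namespace Fermat.Agent.S17.helper1263

open Fermat.Agent.S24.helper1370

/-! ## Linear algebra: avoiding finitely many subspaces inside an additive subgroup -/

/-- In characteristic zero, an additive subgroup `A` of a `K`-module that is not contained in
any of the subspaces `W i`, `i ∈ T`, contains an element lying in none of them. -/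
theorem exists_avoid {K : Type*} [Field K] [CharZero K] {M : Type*} [AddCommGroup M] [Module K M]
    {ι : Type*} (A : AddSubgroup M) (W : ι → Submodule K M) (T : Finset ι)
    (h : ∀ i ∈ T, ∃ g ∈ A, g ∉ W i) : ∃ f ∈ A, ∀ i ∈ T, f ∉ W i := by
  classical
  induction T using Finset.induction_on with
  | empty => exact ⟨0, A.zero_mem, by simp⟩
  | insert i T hi ih =>
    obtain ⟨f, hfA, hf⟩ := ih (fun j hj => h j (Finset.mem_insert_of_mem hj))
    obtain ⟨g, hgA, hg⟩ := h i (Finset.mem_insert_self i T)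
    have hsub : ∀ j ∈ insert i T, {n : ℕ | f + n • g ∈ W j}.Subsingleton := by
      intro j hj n hn n' hn'
      by_contra hne
      have hn1 : f + (n : K) • g ∈ W j := by
        rw [Nat.cast_smul_eq_nsmul]; exact hn
      have hn2 : f + (n' : K) • g ∈ W j := by
        rw [Nat.cast_smul_eq_nsmul]; exact hn'
      have h1 : ((n : K) - (n' : K)) • g ∈ W j := by
        have h2 := (W j).sub_mem hn1 hn2
        have h3 : f + (n : K) • g - (f + (n' : K) • g) = ((n : K) - (n' : K)) • g := by
          rw [sub_smul]; abel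
        rwa [h3] at h2
      have hnn : (n : K) - (n' : K) ≠ 0 := sub_ne_zero.mpr (Nat.cast_injective.ne hne)
      have hgW : g ∈ W j := by
        have h2 := (W j).smul_mem ((n : K) - n')⁻¹ h1
        rwa [smul_smul, inv_mul_cancel₀ hnn, one_smul] at h2
      have hfW : f ∈ W j := by
        have h2 := (W j).sub_mem hn1 ((W j).smul_mem (n : K) hgW)
        rwa [add_sub_cancel_right] at h2
      rcases Finset.mem_insert.mp hj with rfl | hjT
      · exact hg hgW
      · exact hf j hjT hfW
    have hfin : (⋃ j ∈ insert i T, {n : ℕ | f + n • g ∈ W j}).Finite :=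
      Set.Finite.biUnion (Finset.finite_toSet _) (fun j hj => (hsub j hj).finite)
    obtain ⟨n, hn⟩ := hfin.exists_notMem
    refine ⟨f + n • g, A.add_mem hfA (A.nsmul_mem hgA n), fun j hj hmem => hn ?_⟩
    exact Set.mem_biUnion (Finset.mem_coe.mpr hj) hmem

variable {K F : Type*} [Field K] [Field F] [Algebra K F]

/-! ## Riemann–Roch spaces and orders -/

/-- A function in `L(E)` but not in `L(E - P)` is nonzero of exact order `-E P` at `P`. -/
theorem ord_eq_of_mem_of_notMem {E : Divisor K F} {P : Place K F} {f : F}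
    (hf : f ∈ riemannRochSpace E) (hf' : f ∉ riemannRochSpace (E - Finsupp.single P 1)) :
    f ≠ 0 ∧ P.ord f = -E P := by
  classical
  rw [mem_riemannRochSpace_iff] at hf hf'
  push Not at hf'
  obtain ⟨v, hv0, hv⟩ := hf'
  refine ⟨hv0, ?_⟩
  have h1 := (hf v).resolve_left hv0
  by_cases hvP : v = P
  · subst hvP
    have h2 := (hf v).resolve_left hv0
    rw [Finsupp.sub_apply, Finsupp.single_eq_same] at hv
    omega
  · rw [Finsupp.sub_apply, Finsupp.single_eq_of_ne hvP] at hv
    omega

/-- The order bound for a nonzero member of `L(E)`. -/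
theorem neg_le_ord_of_mem {E : Divisor K F} {f : F} (hf : f ∈ riemannRochSpace E) (hf0 : f ≠ 0)
    (P : Place K F) : -E P ≤ P.ord f :=
  ((mem_riemannRochSpace_iff.mp hf) P).resolve_left hf0

/-- A divisor with prescribed values `ord_P f + E P` (the divisor `div f + E`). -/
theorem exists_div_add [HasPrincipalDivisors K F] (E : Divisor K F) {f : F} (hf : f ≠ 0) :
    ∃ D : Divisor K F, (∀ P : Place K F, D P = P.ord f + E P) ∧
      Divisor.degree D = Divisor.degree E := by
  obtain ⟨D0, hD0, hdeg⟩ := HasPrincipalDivisors.exists_divisor (K := K) f hf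
  exact ⟨D0 + E, fun P => by rw [Finsupp.add_apply, hD0], by rw [map_add, hdeg, zero_add]⟩

/-! ## The pencil -/

/-- **Finite ramification** (hypothesis of the moving lemma): a function with a zero or a pole
has only finitely many places at which some `φ - c` vanishes to order `≥ 2`. -/
def FiniteRamification (K F : Type*) [Field K] [Field F] [Algebra K F] : Prop :=
  ∀ φ : F, (∃ P : Place K F, P.ord φ ≠ 0) →
    {P : Place K F | ∃ c : K, 2 ≤ P.ord (φ - algebraMap K F c)}.Finite

/-- **Pencil lemma.** Let `f₁, f₂` be nonzero functions with `div fᵢ + E ≥ 0` such that `f₂` has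
exact order `-E P` at every base point `P` of `f₁` (the places where `ord_P f₁ ≠ -E P`).
If `f₂ / f₁` has finite ramification, then for all but finitely many constants `c` the divisor
`div (f₂ - c f₁) + E` is reduced (all multiplicities `0` or `1`) and avoids the finite set `T`. -/
theorem pencil_finite {E : Divisor K F} {f₁ f₂ : F} (hf₁ : f₁ ≠ 0) (hf₂ : f₂ ≠ 0)
    (h₁ : ∀ P : Place K F, -E P ≤ P.ord f₁) (h₂ : ∀ P : Place K F, -E P ≤ P.ord f₂)
    (hbase : ∀ P : Place K F, P.ord f₁ ≠ -E P → P.ord f₂ = -E P)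
    (hram : {P : Place K F | ∃ c : K, 2 ≤ P.ord (f₂ / f₁ - algebraMap K F c)}.Finite)
    (T : Finset (Place K F)) :
    {c : K | ¬ (f₂ - c • f₁ ≠ 0 ∧
        (∀ P : Place K F, P.ord (f₂ - c • f₁) + E P = 0 ∨ P.ord (f₂ - c • f₁) + E P = 1) ∧
        ∀ P ∈ T, P.ord (f₂ - c • f₁) + E P = 0)}.Finite := by
  classical
  set φ := f₂ / f₁ with hφ
  set R : Finset (Place K F) := hram.toFinset ∪ T with hR
  have hB : ∀ P : Place K F, {c : K | 0 < P.ord (φ - algebraMap K F c)}.Subsingleton :=
    fun P c hc c' hc' => eq_of_ord_sub_algebraMap_pos P hc hc'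
  have h0 : {c : K | f₂ = c • f₁}.Subsingleton := by
    intro c hc c' hc'
    have hc1 : f₂ = c • f₁ := hc
    have hc2 : f₂ = c' • f₁ := hc'
    have h3 : (c - c') • f₁ = 0 := by rw [sub_smul, ← hc1, ← hc2, sub_self]
    rcases smul_eq_zero.mp h3 with h | h
    · exact sub_eq_zero.mp h
    · exact absurd h hf₁
  refine ((h0.finite).union
    (Set.Finite.biUnion R.finite_toSet (fun P _ => (hB P).finite))).subset ?_
  intro c hc
  by_contra hcon
  apply hc
  rw [Set.mem_union, not_or] at hcon
  obtain ⟨hc0, hcR⟩ := hcon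
  have hne : f₂ - c • f₁ ≠ 0 := fun h => hc0 (sub_eq_zero.mp h)
  have hfac : f₂ - c • f₁ = f₁ * (φ - algebraMap K F c) := by
    rw [hφ, Algebra.smul_def]
    field_simp
  have hφc : φ - algebraMap K F c ≠ 0 := by
    intro h
    rw [h, mul_zero] at hfac
    exact hne hfac
  have key1 : ∀ P : Place K F, P.ord f₁ ≠ -E P → P.ord (f₂ - c • f₁) + E P = 0 := by
    intro P hP
    have h2 := hbase P hP
    have h1 := h₁ P
    rcases eq_or_ne c 0 with rfl | hc0'
    · rw [zero_smul, sub_zero, h2]
      ring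
    · have h3 : P.ord (c • f₁) = P.ord f₁ := ord_const_smul P hc0' f₁
      have h4 : P.ord (f₂ + -(c • f₁)) = P.ord f₂ :=
        ord_add_eq_of_lt P hf₂ (by rw [ord_neg, h3]; omega)
      rw [sub_eq_add_neg, h4, h2]
      ring
  have key2 : ∀ P : Place K F, P.ord f₁ = -E P →
      P.ord (f₂ - c • f₁) + E P = P.ord (φ - algebraMap K F c) ∧
        0 ≤ P.ord (φ - algebraMap K F c) := by
    intro P hP
    have hφ0 : 0 ≤ P.ord φ := by
      rw [hφ, ord_div P hf₂ hf₁]
      have := h₂ P
      omega
    refine ⟨?_, ord_sub_algebraMap_nonneg P hφ0 c⟩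
    rw [hfac, P.ord_mul hf₁ hφc, hP]
    ring
  refine ⟨hne, fun P => ?_, fun P hPT => ?_⟩
  · by_cases hP : P.ord f₁ = -E P
    · obtain ⟨h1, h2⟩ := key2 P hP
      rw [h1]
      by_cases hPR : P ∈ R
      · left
        have h3 : ¬ 0 < P.ord (φ - algebraMap K F c) :=
          fun h => hcR (Set.mem_biUnion (Finset.mem_coe.mpr hPR) h)
        omega
      · have h3 : ¬ 2 ≤ P.ord (φ - algebraMap K F c) :=
          fun h => hPR (Finset.mem_union_left _ (hram.mem_toFinset.mpr ⟨c, h⟩))
        omega
    · left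
      exact key1 P hP
  · by_cases hP : P.ord f₁ = -E P
    · obtain ⟨h1, h2⟩ := key2 P hP
      rw [h1]
      have h3 : ¬ 0 < P.ord (φ - algebraMap K F c) :=
        fun h => hcR (Set.mem_biUnion (Finset.mem_coe.mpr (Finset.mem_union_right _ hPT)) h)
      omega
    · exact key1 P hP

/-! ## Semilinear actions: fixed functions and stable divisors -/

theorem ord_inv_smul_of_smul_eq {g : SemilinearAut K F} {f : F} (hf : g • f = f)
    (w : Place K F) : (g⁻¹ • w).ord f = w.ord f := by
  have h := SemilinearAut.ord_smul g (g⁻¹ • w) f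
  rw [smul_inv_smul, hf] at h
  exact h.symm

theorem apply_inv_smul_of_smul_eq {g : SemilinearAut K F} {E : Divisor K F} (hE : g • E = E)
    (w : Place K F) : E (g⁻¹ • w) = E w := by
  have h := SemilinearAut.divisor_smul_apply g E w
  rw [hE] at h
  exact h.symm

/-- `div f + E` is stable when `f` is fixed and `E` is stable. -/
theorem smul_eq_of_fixed {g : SemilinearAut K F} {f : F} {E D : Divisor K F} (hf : g • f = f)
    (hE : g • E = E) (hD : ∀ P : Place K F, D P = P.ord f + E P) : g • D = D := by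
  ext w
  rw [SemilinearAut.divisor_smul_apply, hD, hD, ord_inv_smul_of_smul_eq hf,
    apply_inv_smul_of_smul_eq hE]

/-- `L(E)` is stable when `E` is. -/
theorem smul_mem_riemannRochSpace {g : SemilinearAut K F} {E : Divisor K F} (hE : g • E = E)
    {f : F} (hf : f ∈ riemannRochSpace E) : g • f ∈ riemannRochSpace E := by
  rw [mem_riemannRochSpace_iff] at hf ⊢
  intro w
  rcases eq_or_ne f 0 with rfl | hf0
  · left
    exact smul_zero g
  right
  have h1 := (hf (g⁻¹ • w)).resolve_left hf0
  have h2 := SemilinearAut.ord_smul g (g⁻¹ • w) f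
  rw [smul_inv_smul] at h2
  rw [h2, ← apply_inv_smul_of_smul_eq hE w]
  exact h1

section Action

variable {Γ : Type*} [Group Γ] (ρ : Γ →* SemilinearAut K F)

/-- **Descent** (hypothesis of the moving lemma): every finite dimensional `ρ`-stable
`K`-subspace of `F` is spanned over `K` by its `ρ`-fixed vectors. -/
def Descent : Prop :=
  ∀ V : Submodule K F, Module.Finite K V → (∀ γ : Γ, ∀ f ∈ V, ρ γ • f ∈ V) →
    V ≤ Submodule.span K {f : F | f ∈ V ∧ ∀ γ : Γ, ρ γ • f = f}

/-- The additive group of `ρ`-fixed vectors of a subspace. -/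
def fixedIn (V : Submodule K F) : AddSubgroup F where
  carrier := {f | f ∈ V ∧ ∀ γ : Γ, ρ γ • f = f}
  zero_mem' := ⟨V.zero_mem, fun γ => smul_zero _⟩
  add_mem' := fun {a b} ha hb =>
    ⟨V.add_mem ha.1 hb.1, fun γ => by rw [smul_add, ha.2 γ, hb.2 γ]⟩
  neg_mem' := fun {a} ha => ⟨V.neg_mem ha.1, fun γ => by rw [smul_neg, ha.2 γ]⟩

theorem mem_fixedIn {V : Submodule K F} {f : F} :
    f ∈ fixedIn ρ V ↔ f ∈ V ∧ ∀ γ : Γ, ρ γ • f = f := Iff.rfl

/-- **Moving lemma, divisor form.** A `ρ`-stable divisor `E` of positive degree with finite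
dimensional base point free `L(E)` is linearly equivalent, through a `ρ`-fixed function `f`, to a
reduced effective `ρ`-stable divisor `D = div f + E` avoiding the finite set `T`. -/
theorem exists_reduced [CharZero K] [HasPrincipalDivisors K F] (hdesc : Descent ρ)
    (hram : FiniteRamification K F) (E : Divisor K F)
    (hfin : Module.Finite K (riemannRochSpace E))
    (hbpf : ∀ Q : Place K F,
      ∃ f ∈ riemannRochSpace E, f ∉ riemannRochSpace (E - Finsupp.single Q 1))
    (hEpos : 0 < Divisor.degree E) (hEstab : ∀ γ : Γ, ρ γ • E = E) (T : Finset (Place K F)) :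
    ∃ (f : F) (D : Divisor K F), f ≠ 0 ∧ (∀ γ : Γ, ρ γ • f = f) ∧
      (∀ P : Place K F, D P = P.ord f + E P) ∧ (∀ P : Place K F, D P = 0 ∨ D P = 1) ∧
      (∀ P ∈ T, D P = 0) ∧ (∀ γ : Γ, ρ γ • D = D) ∧ Divisor.degree D = Divisor.degree E := by
  classical
  have hstab : ∀ γ : Γ, ∀ f ∈ riemannRochSpace E, ρ γ • f ∈ riemannRochSpace E :=
    fun γ f hf => smul_mem_riemannRochSpace (hEstab γ) hf
  have hspan := hdesc _ hfin hstab
  have hex : ∀ Q : Place K F,
      ∃ g ∈ fixedIn ρ (riemannRochSpace E), g ∉ riemannRochSpace (E - Finsupp.single Q 1) := by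
    intro Q
    by_contra hcon
    push Not at hcon
    obtain ⟨f, hf, hf'⟩ := hbpf Q
    apply hf'
    have hle : Submodule.span K {f : F | f ∈ riemannRochSpace E ∧ ∀ γ : Γ, ρ γ • f = f}
        ≤ riemannRochSpace (E - Finsupp.single Q 1) :=
      Submodule.span_le.mpr (fun g hg => hcon g hg)
    exact hle (hspan hf)
  have hE0 : E ≠ 0 := by
    rintro rfl
    simp at hEpos
  obtain ⟨Q0, -⟩ := Finsupp.support_nonempty_iff.mpr hE0
  obtain ⟨f₁, hf₁A, hf₁Q⟩ := hex Q0
  obtain ⟨hf₁0, -⟩ := ord_eq_of_mem_of_notMem hf₁A.1 hf₁Q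
  obtain ⟨D₁, hD₁, hD₁deg⟩ := exists_div_add E hf₁0
  have hD₁0 : D₁ ≠ 0 := by
    rintro rfl
    rw [map_zero] at hD₁deg
    omega
  obtain ⟨Q1, hQ1⟩ := Finsupp.support_nonempty_iff.mpr hD₁0
  obtain ⟨f₂, hf₂A, hf₂⟩ := exists_avoid (fixedIn ρ (riemannRochSpace E))
    (fun Q : Place K F => riemannRochSpace (E - Finsupp.single Q 1)) D₁.support
    (fun Q _ => hex Q)
  have hf₂0 : f₂ ≠ 0 := (ord_eq_of_mem_of_notMem hf₂A.1 (hf₂ Q1 hQ1)).1
  have hbase : ∀ P : Place K F, P.ord f₁ ≠ -E P → P.ord f₂ = -E P := by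
    intro P hP
    have hPs : P ∈ D₁.support := by
      rw [Finsupp.mem_support_iff, hD₁]
      omega
    exact (ord_eq_of_mem_of_notMem hf₂A.1 (hf₂ P hPs)).2
  have hpole : ∃ P : Place K F, P.ord (f₂ / f₁) ≠ 0 := by
    refine ⟨Q1, ?_⟩
    have h1 : Q1.ord f₁ ≠ -E Q1 := by
      have h := Finsupp.mem_support_iff.mp hQ1
      rw [hD₁] at h
      omega
    have h2 := hbase Q1 h1
    rw [ord_div Q1 hf₂0 hf₁0]
    omega
  have hbad := pencil_finite hf₁0 hf₂0 (neg_le_ord_of_mem hf₁A.1 hf₁0)
    (neg_le_ord_of_mem hf₂A.1 hf₂0) hbase (hram _ hpole) T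
  have hbadN := hbad.preimage (Nat.cast_injective (R := K)).injOn
  obtain ⟨n, hn⟩ := hbadN.exists_notMem
  have hn' : f₂ - (n : K) • f₁ ≠ 0 ∧
      (∀ P : Place K F, P.ord (f₂ - (n : K) • f₁) + E P = 0 ∨
        P.ord (f₂ - (n : K) • f₁) + E P = 1) ∧
      ∀ P ∈ T, P.ord (f₂ - (n : K) • f₁) + E P = 0 := by
    by_contra hcon
    exact hn hcon
  obtain ⟨hne, hred, hT⟩ := hn'
  have hfix : ∀ γ : Γ, ρ γ • (f₂ - (n : K) • f₁) = f₂ - (n : K) • f₁ := by
    intro γ
    have hmem : f₂ - n • f₁ ∈ fixedIn ρ (riemannRochSpace E) :=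
      (fixedIn ρ (riemannRochSpace E)).sub_mem hf₂A
        ((fixedIn ρ (riemannRochSpace E)).nsmul_mem hf₁A n)
    rw [Nat.cast_smul_eq_nsmul]
    exact hmem.2 γ
  obtain ⟨D, hD, hDdeg⟩ := exists_div_add E hne
  refine ⟨f₂ - (n : K) • f₁, D, hne, hfix, hD, fun P => ?_, fun P hP => ?_,
    fun γ => smul_eq_of_fixed (hfix γ) (hEstab γ) hD, hDdeg⟩
  · rw [hD]
    exact hred P
  · rw [hD]
    exact hT P hP

/-! ## The moving lemma relative to a base place -/

/-- `D` is a *moved representative* of the degree zero divisor `A` relative to the base place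
`P0`: reduced, effective, of degree `d`, `ρ`-stable, disjoint from `P0` and from the finite set
`T`, and `D - d • P0` is linearly equivalent to `A`. -/
def IsMoved (P0 : Place K F) (d : ℕ) (T : Finset (Place K F)) (A D : Divisor K F) : Prop :=
  (∀ P : Place K F, D P = 0 ∨ D P = 1) ∧ D P0 = 0 ∧ (∀ P ∈ T, D P = 0) ∧
    (∀ γ : Γ, ρ γ • D = D) ∧ Divisor.degree D = d ∧
    D - Finsupp.single P0 (d : ℤ) - A ∈ Divisor.principal (K := K) (F := F)

/-- **Moving lemma** (relative to a `ρ`-fixed place `P0` of degree one).  `d > 0` is any degree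
from which on every `L(E)` is base point free. -/
theorem moving [CharZero K] [HasPrincipalDivisors K F] (hdesc : Descent ρ)
    (hram : FiniteRamification K F) (P0 : Place K F) (hP0 : ∀ γ : Γ, ρ γ • P0 = P0)
    (hP0deg : P0.deg = 1) (d : ℕ) (hd : 0 < d)
    (hfin : ∀ E : Divisor K F, (d : ℤ) ≤ Divisor.degree E →
      Module.Finite K (riemannRochSpace E))
    (hbpf : ∀ (E : Divisor K F) (Q : Place K F), (d : ℤ) ≤ Divisor.degree E →
      ∃ f ∈ riemannRochSpace E, f ∉ riemannRochSpace (E - Finsupp.single Q 1))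
    (A : Divisor K F) (hA0 : Divisor.degree A = 0) (hA : ∀ γ : Γ, ρ γ • A = A)
    (T : Finset (Place K F)) : ∃ D : Divisor K F, IsMoved ρ P0 d T A D := by
  classical
  set E : Divisor K F := A + Finsupp.single P0 (d : ℤ) with hE
  have hEdeg : Divisor.degree E = d := by
    rw [hE, map_add, hA0, Divisor.degree_single, hP0deg]
    simp
  have hEstab : ∀ γ : Γ, ρ γ • E = E := by
    intro γ
    rw [hE, smul_add, hA γ, SemilinearAut.smul_single, hP0 γ]
  obtain ⟨f, D, hf0, -, hD, hred, hT, hDstab, hDdeg⟩ :=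
    exists_reduced ρ hdesc hram E (hfin E hEdeg.ge) (fun Q => hbpf E Q hEdeg.ge)
      (by rw [hEdeg]; exact_mod_cast hd) hEstab (insert P0 T)
  refine ⟨D, hred, hT P0 (Finset.mem_insert_self P0 T),
    fun P hP => hT P (Finset.mem_insert_of_mem hP), hDstab, by rw [hDdeg, hEdeg], f, hf0,
    fun v => ?_⟩
  rw [Finsupp.sub_apply, Finsupp.sub_apply, hD v, hE, Finsupp.add_apply]
  ring

/-- **Moving lemma for finitely many classes**: moved representatives with pairwise disjoint
supports. -/
theorem moving_family [CharZero K] [HasPrincipalDivisors K F] (hdesc : Descent ρ)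
    (hram : FiniteRamification K F) (P0 : Place K F) (hP0 : ∀ γ : Γ, ρ γ • P0 = P0)
    (hP0deg : P0.deg = 1) (d : ℕ) (hd : 0 < d)
    (hfin : ∀ E : Divisor K F, (d : ℤ) ≤ Divisor.degree E →
      Module.Finite K (riemannRochSpace E))
    (hbpf : ∀ (E : Divisor K F) (Q : Place K F), (d : ℤ) ≤ Divisor.degree E →
      ∃ f ∈ riemannRochSpace E, f ∉ riemannRochSpace (E - Finsupp.single Q 1))
    {ι : Type*} (s : Finset ι) (A : ι → Divisor K F) (hA0 : ∀ i ∈ s, Divisor.degree (A i) = 0)
    (hA : ∀ i ∈ s, ∀ γ : Γ, ρ γ • A i = A i) (T : Finset (Place K F)) :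
    ∃ D : ι → Divisor K F, (∀ i ∈ s, IsMoved ρ P0 d T (A i) (D i)) ∧
      ∀ i ∈ s, ∀ j ∈ s, i ≠ j → ∀ P : Place K F, D i P = 0 ∨ D j P = 0 := by
  classical
  induction s using Finset.induction_on with
  | empty => exact ⟨fun _ => 0, by simp, by simp⟩
  | insert a s ha ih =>
    obtain ⟨D, hD, hdisj⟩ := ih (fun i hi => hA0 i (Finset.mem_insert_of_mem hi))
      (fun i hi => hA i (Finset.mem_insert_of_mem hi))
    obtain ⟨Da, hDa⟩ := moving ρ hdesc hram P0 hP0 hP0deg d hd hfin hbpf (A a)
      (hA0 a (Finset.mem_insert_self a s)) (hA a (Finset.mem_insert_self a s))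
      (T ∪ s.biUnion fun i => (D i).support)
    have hDa' : IsMoved ρ P0 d T (A a) Da := by
      obtain ⟨h1, h2, h3, h4, h5, h6⟩ := hDa
      exact ⟨h1, h2, fun P hP => h3 P (Finset.mem_union_left _ hP), h4, h5, h6⟩
    have hav : ∀ i ∈ s, ∀ P : Place K F, Da P = 0 ∨ D i P = 0 := by
      intro i hi P
      by_cases hP : D i P = 0
      · exact Or.inr hP
      · left
        refine hDa.2.2.1 P (Finset.mem_union_right _ (Finset.mem_biUnion.mpr ⟨i, hi, ?_⟩))
        exact Finsupp.mem_support_iff.mpr hP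
    have hne : ∀ i ∈ s, i ≠ a := fun i hi h => ha (h ▸ hi)
    refine ⟨Function.update D a Da, fun i hi => ?_, fun i hi j hj hij P => ?_⟩
    · rcases Finset.mem_insert.mp hi with rfl | hi
      · rw [Function.update_self]
        exact hDa'
      · rw [Function.update_of_ne (hne i hi)]
        exact hD i hi
    · rcases Finset.mem_insert.mp hi with hia | hi' <;>
        rcases Finset.mem_insert.mp hj with hja | hj'
      · exact absurd (hia.trans hja.symm) hij
      · rw [hia, Function.update_self, Function.update_of_ne (hne j hj')]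
        exact hav j hj' P
      · rw [hja, Function.update_self, Function.update_of_ne (hne i hi')]
        exact (hav i hi' P).symm
      · rw [Function.update_of_ne (hne i hi'), Function.update_of_ne (hne j hj')]
        exact hdisj i hi' j hj' hij P

/-! ## `Pic0` form -/

/-- **Stable representatives** (hypothesis, supplied by the theory of reduced divisors):
every `ρ`-fixed class in `Pic0` is the class of a `ρ`-stable divisor of degree zero. -/
def StableRep : Prop :=
  ∀ ξ : Pic0 K F, (∀ γ : Γ, ρ γ • ξ = ξ) →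
    ∃ (A : Divisor K F) (h : A ∈ Divisor.degZero (K := K) (F := F)),
      Pic0.mk ⟨A, h⟩ = ξ ∧ ∀ γ : Γ, ρ γ • A = A

/-- The class in `Pic0` of a moved representative. -/
theorem IsMoved.pic0_eq {P0 : Place K F} (hP0deg : P0.deg = 1) {d : ℕ}
    {T : Finset (Place K F)} {A D : Divisor K F} (h : IsMoved ρ P0 d T A D)
    (hA : A ∈ Divisor.degZero (K := K) (F := F)) :
    ∃ hD : D - Finsupp.single P0 (d : ℤ) ∈ Divisor.degZero (K := K) (F := F),
      Pic0.mk ⟨D - Finsupp.single P0 (d : ℤ), hD⟩ = Pic0.mk ⟨A, hA⟩ := by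
  obtain ⟨-, -, -, -, hdeg, hprin⟩ := h
  have hD : D - Finsupp.single P0 (d : ℤ) ∈ Divisor.degZero (K := K) (F := F) := by
    rw [Divisor.mem_degZero, map_sub, hdeg, Divisor.degree_single, hP0deg]
    simp
  refine ⟨hD, ?_⟩
  refine (QuotientAddGroup.eq (s := (Divisor.principal (K := K) (F := F)).addSubgroupOf
    (Divisor.degZero (K := K) (F := F)))).mpr ?_
  rw [AddSubgroup.mem_addSubgroupOf]
  have hneg := (Divisor.principal (K := K) (F := F)).neg_mem hprin
  have heq : ((-(⟨D - Finsupp.single P0 (d : ℤ), hD⟩ : Divisor.degZero (K := K) (F := F))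
      + ⟨A, hA⟩ : Divisor.degZero (K := K) (F := F)) : Divisor K F)
      = -(D - Finsupp.single P0 (d : ℤ) - A) := by
    push_cast
    abel
  rw [heq]
  exact hneg

/-- **Moving lemma, `Pic0` form.**  Finitely many `ρ`-fixed classes `ξ i` have representatives
`D i - d • P0` with `D i` reduced, effective, of degree `d`, `ρ`-stable, disjoint from `P0`,
from the finite set `T` and from each other. -/
theorem moving_pic0 [CharZero K] [HasPrincipalDivisors K F] (hdesc : Descent ρ)
    (hram : FiniteRamification K F) (hrep : StableRep ρ) (P0 : Place K F)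
    (hP0 : ∀ γ : Γ, ρ γ • P0 = P0) (hP0deg : P0.deg = 1) (d : ℕ) (hd : 0 < d)
    (hfin : ∀ E : Divisor K F, (d : ℤ) ≤ Divisor.degree E →
      Module.Finite K (riemannRochSpace E))
    (hbpf : ∀ (E : Divisor K F) (Q : Place K F), (d : ℤ) ≤ Divisor.degree E →
      ∃ f ∈ riemannRochSpace E, f ∉ riemannRochSpace (E - Finsupp.single Q 1))
    {ι : Type*} (s : Finset ι) (ξ : ι → Pic0 K F) (hξ : ∀ i ∈ s, ∀ γ : Γ, ρ γ • ξ i = ξ i)
    (T : Finset (Place K F)) :
    ∃ D : ι → Divisor K F,
      (∀ i ∈ s, (∀ P : Place K F, D i P = 0 ∨ D i P = 1) ∧ D i P0 = 0 ∧ (∀ P ∈ T, D i P = 0) ∧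
        (∀ γ : Γ, ρ γ • D i = D i) ∧ Divisor.degree (D i) = d ∧
        ∃ hD : D i - Finsupp.single P0 (d : ℤ) ∈ Divisor.degZero (K := K) (F := F),
          Pic0.mk ⟨D i - Finsupp.single P0 (d : ℤ), hD⟩ = ξ i) ∧
      ∀ i ∈ s, ∀ j ∈ s, i ≠ j → ∀ P : Place K F, D i P = 0 ∨ D j P = 0 := by
  classical
  have hchoice : ∀ i : ι, ∃ A : Divisor K F, i ∈ s →
      ∃ h : A ∈ Divisor.degZero (K := K) (F := F), Pic0.mk ⟨A, h⟩ = ξ i ∧
        ∀ γ : Γ, ρ γ • A = A := by
    intro i
    by_cases hi : i ∈ s
    · obtain ⟨A, h, h1, h2⟩ := hrep (ξ i) (hξ i hi)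
      exact ⟨A, fun _ => ⟨h, h1, h2⟩⟩
    · exact ⟨0, fun h => absurd h hi⟩
  choose A hA using hchoice
  obtain ⟨D, hD, hdisj⟩ := moving_family ρ hdesc hram P0 hP0 hP0deg d hd hfin hbpf s A
    (fun i hi => (hA i hi).1) (fun i hi => (hA i hi).2.2) T
  refine ⟨D, fun i hi => ?_, hdisj⟩
  obtain ⟨h0, hcls, -⟩ := hA i hi
  obtain ⟨hD0, hDcls⟩ := (hD i hi).pic0_eq ρ hP0deg h0
  obtain ⟨h1, h2, h3, h4, h5, -⟩ := hD i hi
  exact ⟨h1, h2, h3, h4, h5, hD0, hDcls.trans hcls⟩

end Action

end Fermat.Agent.S17.helper1263
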