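import Fermat.Agent.S17.helper1298_Reduced
import Fermat.Agent.S37.helper9343_BetaAdapter
import Fermat.Agent.S29.helper36_FunctionFieldL
import Fermat.Prelude.Def_ModularCurve_ArithmeticGalois

/-!
# S17-RED (R7): reduced divisors on `JZero N`, base place = the cusp `∞` (helper1298)

`Kbar = ℚ̄`, `FN N = modularFunctionFieldBar N`.  The cusp `∞` exists on main twice, as
`helper9343.qPlace N` (S37) and as `helper36.qPlaceL Kbar N` (S29, the base place chosen by the
S17 captain); they are equal (`qPlaceL_eq_qPlace`).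

* `redPkg_FN`                     : the package `RedPkg Kbar (FN N)`;
* `arithmeticGalois_smul_qPlaceL` : the cusp `∞` is fixed by the arithmetic Galois action
  (any coefficient field `L`); `arithmeticGalois_smul_qPlace` the same for `qPlace N`;
* for ANY Galois-fixed base place `P₀` (`_of_fixedPlace`), and specialised to `qPlace N`
  and `qPlaceL Kbar N`:
  * `smul_red_*`            : the reduced divisor of a Galois-fixed class is Galois-stable;
  * `exists_rat_normPoly_*` : for a Galois-fixed function `t`, the polynomial `∏ (X - t(R))` over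
    the points of the reduced divisor of a Galois-fixed class is rational of degree `≤ g`;
  * `natDegree_minpoly_le_*`: so every value `t(R)` has degree `≤ g` over `ℚ`;
  * `northcott_hRed_*`      : Northcott for `hRed h t P₀` on the Galois-fixed points, from
    Northcott for `h` on algebraic numbers of degree `≤ g`.
-/

set_option autoImplicit false

open ModularCurve AlgebraicCurve IntermediateField

namespace Fermat.Agent.S17.helper1298

open Fermat.Agent.S24.helper24 Fermat.Agent.S27.helper6247 Fermat.Agent.S37.helper9343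
open Fermat.Agent.S29.helper36

noncomputable section

theorem isGalois_rat_Kbar : IsGalois ℚ Kbar :=
  haveI : Algebra.IsAlgebraic ℚ (AlgebraicClosure ℚ) := AlgebraicClosure.isAlgebraic ℚ
  haveI : IsAlgClosure ℚ (AlgebraicClosure ℚ) := ⟨inferInstance, inferInstance⟩
  inferInstance

/-! ## The cusp `∞` is Galois-fixed -/

section Cusp

/-- Applying a field automorphism to the coefficients does not change the `q`-order. -/
theorem order_coeffMap_eq {L : Type*} [Field L] [Algebra ℚ L] (σ : L ≃ₐ[ℚ] L)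
    (x : LaurentSeries L) : (coeffMap (σ : L →+* L) x).order = x.order := by
  rcases eq_or_ne x 0 with rfl | hx
  · rw [map_zero]
  have h1 : (coeffMap (σ : L →+* L) x).coeff x.order ≠ 0 := by
    rw [coeffMap_coeff]
    exact (map_ne_zero_iff _ σ.injective).mpr (fun h => hx (HahnSeries.coeff_order_eq_zero.mp h))
  have hy : coeffMap (σ : L →+* L) x ≠ 0 := by
    intro h
    rw [h] at h1
    exact h1 rfl
  have h2 : x.coeff (coeffMap (σ : L →+* L) x).order ≠ 0 := by
    intro h
    apply hy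
    rw [← HahnSeries.coeff_order_eq_zero, coeffMap_coeff, h, map_zero]
  exact le_antisymm (HahnSeries.order_le_of_coeff_ne_zero h1)
    (HahnSeries.order_le_of_coeff_ne_zero h2)

/-- A place of `laurentBaseChange L F₀` whose order function is the `q`-order is fixed by the
arithmetic Galois action. -/
theorem arithmeticGalois_smul_eq_of_ord {L : Type*} [Field L] [Algebra ℚ L]
    (F₀ : IntermediateField ℚ (LaurentSeries ℚ)) (P : Place L (laurentBaseChange L F₀))
    (hP : ∀ f : laurentBaseChange L F₀, f ≠ 0 → P.ord f = (f : LaurentSeries L).order)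
    (σ : L ≃ₐ[ℚ] L) : arithmeticGalois F₀ σ • P = P := by
  have key : ∀ f : laurentBaseChange L F₀, P.ord (arithmeticGalois F₀ σ • f) = P.ord f := by
    intro f
    rcases eq_or_ne f 0 with rfl | hf
    · rw [smul_zero]
    have hf' : arithmeticGalois F₀ σ • f ≠ 0 := fun h => hf ((smul_eq_zero_iff' _ f).mp h)
    rw [hP f hf, hP _ hf', coe_arithmeticGalois_smul, order_coeffMap_eq]
  apply Fermat.Agent.S24.helper1370.ext_ord
  intro f
  have h := SemilinearAut.ord_smul (arithmeticGalois F₀ σ) P ((arithmeticGalois F₀ σ)⁻¹ • f)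
  rw [smul_inv_smul] at h
  rw [h, ← key, smul_inv_smul]

/-- **The cusp `∞` (`qPlaceL`, S29) is Galois-fixed**, for every coefficient field. -/
theorem arithmeticGalois_smul_qPlaceL (L : Type) [Field L] [Algebra ℚ L] (N : ℕ)
    (σ : L ≃ₐ[ℚ] L) :
    arithmeticGalois (modularFunctionFieldFull N) σ • qPlaceL L N = qPlaceL L N :=
  arithmeticGalois_smul_eq_of_ord _ _ (fun _ hf => qPlaceL_ord L N hf) σ

variable (N : ℕ)

theorem qPlace_ord_smul (σ : Kbar ≃ₐ[ℚ] Kbar) (f : FN N) :
    (qPlace N).ord (arithmeticGalois (modularFunctionFieldFull N) σ • f) = (qPlace N).ord f := by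
  rcases eq_or_ne f 0 with rfl | hf
  · rw [smul_zero]
  have hf' : arithmeticGalois (modularFunctionFieldFull N) σ • f ≠ 0 :=
    fun h => hf ((smul_eq_zero_iff' _ f).mp h)
  rw [qPlace_ord N hf, qPlace_ord N hf', coe_arithmeticGalois_smul, order_coeffMap_eq]

/-- **The cusp `∞` (`qPlace`, S37) is Galois-fixed.** -/
theorem arithmeticGalois_smul_qPlace (σ : Kbar ≃ₐ[ℚ] Kbar) :
    arithmeticGalois (modularFunctionFieldFull N) σ • qPlace N = qPlace N :=
  arithmeticGalois_smul_eq_of_ord _ _ (fun _ hf => qPlace_ord N hf) σ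

/-- The two cusp places on main coincide. -/
theorem qPlaceL_eq_qPlace : qPlaceL Kbar N = qPlace N := by
  apply Fermat.Agent.S24.helper1370.ext_ord
  intro f
  rcases eq_or_ne f 0 with rfl | hf
  · rw [Place.ord_zero, Place.ord_zero]
  · rw [qPlaceL_ord Kbar N hf, qPlace_ord N hf]

/-- `j` is Galois-fixed. -/
theorem arithmeticGalois_smul_jBar (σ : Kbar ≃ₐ[ℚ] Kbar) :
    arithmeticGalois (modularFunctionFieldFull N) σ • jBar N = jBar N := by
  apply Subtype.ext
  rw [coe_arithmeticGalois_smul, coe_jBar, coeffMap_coeffEmb]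

theorem galois_smul_eq (σ : Kbar ≃ₐ[ℚ] Kbar) (y : JZero N) :
    σ • y = arithmeticGalois (modularFunctionFieldFull N) σ • y := rfl

end Cusp

/-! ## Galois-fixed classes, for any Galois-fixed base place -/

section Fixed

variable (N : ℕ) [NeZero N]

/-- The reduced-divisor package for the function field of `X₀(N)` over `ℚ̄`. -/
theorem redPkg_FN : RedPkg Kbar (FN N) :=
  redPkg_of_finite (jBar N) (Fermat.Agent.S24.helper3176.transcendental_jBar N)

variable {N}
variable {P₀ : Place Kbar (FN N)}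

/-- **(R7)** the reduced divisor of a Galois-fixed class with respect to a Galois-fixed base
place is Galois-stable. -/
theorem smul_red_of_fixedPlace
    (hP₀ : ∀ σ : Kbar ≃ₐ[ℚ] Kbar, arithmeticGalois (modularFunctionFieldFull N) σ • P₀ = P₀)
    {y : JZero N} (hy : y ∈ FixedPoints.addSubgroup (Kbar ≃ₐ[ℚ] Kbar) (JZero N))
    (σ : Kbar ≃ₐ[ℚ] Kbar) :
    arithmeticGalois (modularFunctionFieldFull N) σ • red P₀ y = red P₀ y :=
  smul_red_eq_self (redPkg_FN N) _ (hP₀ σ) (hy σ)

/-- **(R7)** Galois permutes the values of a Galois-fixed function on the reduced divisor of a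
Galois-fixed class. -/
theorem vals_red_map_of_fixedPlace
    (hP₀ : ∀ σ : Kbar ≃ₐ[ℚ] Kbar, arithmeticGalois (modularFunctionFieldFull N) σ • P₀ = P₀)
    {y : JZero N} (hy : y ∈ FixedPoints.addSubgroup (Kbar ≃ₐ[ℚ] Kbar) (JZero N)) {t : FN N}
    (ht : ∀ σ : Kbar ≃ₐ[ℚ] Kbar, arithmeticGalois (modularFunctionFieldFull N) σ • t = t)
    (σ : Kbar ≃ₐ[ℚ] Kbar) :
    (vals t (red P₀ y)).map σ = vals t (red P₀ y) :=
  vals_red_map (redPkg_FN N) (arithmeticGalois (modularFunctionFieldFull N) σ)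
    (hP₀ σ) (ht σ) (hy σ)

/-- **(R7)** the norm polynomial of a Galois-fixed class is rational, monic, of degree `≤ g`. -/
theorem exists_rat_normPoly_of_fixedPlace
    (hP₀ : ∀ σ : Kbar ≃ₐ[ℚ] Kbar, arithmeticGalois (modularFunctionFieldFull N) σ • P₀ = P₀)
    {y : JZero N} (hy : y ∈ FixedPoints.addSubgroup (Kbar ≃ₐ[ℚ] Kbar) (JZero N)) {t : FN N}
    (ht : ∀ σ : Kbar ≃ₐ[ℚ] Kbar, arithmeticGalois (modularFunctionFieldFull N) σ • t = t) :
    ∃ q : Polynomial ℚ, q.Monic ∧ q.natDegree ≤ genusFF Kbar (FN N) ∧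
      q.map (algebraMap ℚ Kbar) = normPoly t (red P₀ y) := by
  have hfix : ∀ σ : Kbar ≃ₐ[ℚ] Kbar,
      (normPoly t (red P₀ y)).map (σ : Kbar →+* Kbar) = normPoly t (red P₀ y) :=
    fun σ => normPoly_red_map (redPkg_FN N) (arithmeticGalois (modularFunctionFieldFull N) σ)
      (hP₀ σ) (ht σ) (hy σ)
  have hcoeff : ∀ n : ℕ, (normPoly t (red P₀ y)).coeff n ∈ Set.range (algebraMap ℚ Kbar) := by
    intro n
    have := isGalois_rat_Kbar
    rw [InfiniteGalois.mem_range_algebraMap_iff_fixed]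
    intro σ
    have h := congrArg (fun p => Polynomial.coeff p n) (hfix σ)
    simp only [Polynomial.coeff_map] at h
    exact h
  have hlift : normPoly t (red P₀ y) ∈ Polynomial.lifts (algebraMap ℚ Kbar) :=
    (Polynomial.lifts_iff_coeff_lifts _).mpr hcoeff
  obtain ⟨q, hq⟩ := (Polynomial.mem_lifts _).mp hlift
  have hinj : Function.Injective (algebraMap ℚ Kbar) := (algebraMap ℚ Kbar).injective
  refine ⟨q, ?_, ?_, hq⟩
  · apply Polynomial.monic_of_injective hinj
    rw [hq]
    exact normPoly_monic _ _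
  · rw [← Polynomial.natDegree_map_eq_of_injective hinj q, hq]
    exact natDegree_normPoly_red_le (redPkg_FN N) P₀ t y

/-- **(R7)** every value of a Galois-fixed function at a point of the reduced divisor of a
Galois-fixed class has degree at most `g` over `ℚ`. -/
theorem natDegree_minpoly_le_of_fixedPlace
    (hP₀ : ∀ σ : Kbar ≃ₐ[ℚ] Kbar, arithmeticGalois (modularFunctionFieldFull N) σ • P₀ = P₀)
    {y : JZero N} (hy : y ∈ FixedPoints.addSubgroup (Kbar ≃ₐ[ℚ] Kbar) (JZero N)) {t : FN N}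
    (ht : ∀ σ : Kbar ≃ₐ[ℚ] Kbar, arithmeticGalois (modularFunctionFieldFull N) σ • t = t)
    {c : Kbar} (hc : c ∈ vals t (red P₀ y)) :
    (minpoly ℚ c).natDegree ≤ genusFF Kbar (FN N) := by
  obtain ⟨q, hqm, hqd, hq⟩ := exists_rat_normPoly_of_fixedPlace hP₀ hy ht
  have hroot : Polynomial.aeval c q = 0 := by
    rw [← roots_normPoly, ← hq, Polynomial.mem_roots (Polynomial.map_monic_ne_zero hqm)] at hc
    rw [Polynomial.aeval_def, Polynomial.eval₂_eq_eval_map]
    exact hc
  exact (Polynomial.natDegree_le_natDegree (minpoly.min ℚ c hqm hroot)).trans hqd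

/-- **Northcott for the naive height on `J₀(N)(ℚ)`.**  Let `P₀` be a Galois-fixed place, `t` a
non-constant Galois-fixed function and `h ≥ 0` a function on `ℚ̄` with the Northcott property on
algebraic numbers of degree `≤ g`.  Then only finitely many Galois-fixed classes have
`hRed h t P₀ y ≤ B`. -/
theorem finite_setOf_hRed_le_of_fixedPlace
    (hP₀ : ∀ σ : Kbar ≃ₐ[ℚ] Kbar, arithmeticGalois (modularFunctionFieldFull N) σ • P₀ = P₀)
    {t : FN N} (htr : Transcendental Kbar t)
    (ht : ∀ σ : Kbar ≃ₐ[ℚ] Kbar, arithmeticGalois (modularFunctionFieldFull N) σ • t = t)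
    {h : Kbar → ℝ} (hnn : ∀ c, 0 ≤ h c)
    (hNorth : ∀ B : ℝ,
      {c : Kbar | (minpoly ℚ c).natDegree ≤ genusFF Kbar (FN N) ∧ h c ≤ B}.Finite) (B : ℝ) :
    {y : JZero N | y ∈ FixedPoints.addSubgroup (Kbar ≃ₐ[ℚ] Kbar) (JZero N) ∧
      hRed h t P₀ y ≤ B}.Finite := by
  refine (finite_setOf_hRed_le (redPkg_FN N) P₀ t
    (fun c => finite_setOf_ev_eq (jBar N) htr c) hnn
    {c : Kbar | (minpoly ℚ c).natDegree ≤ genusFF Kbar (FN N)} hNorth B).subset ?_
  rintro y ⟨hy1, hy2⟩
  exact ⟨fun c hc => natDegree_minpoly_le_of_fixedPlace hP₀ hy1 ht hc, hy2⟩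

/-- The same as a `Northcott` statement on the subgroup of Galois-fixed points (the shape
consumed by Mathlib's `AddCommGroup.fg_of_descent`). -/
theorem northcott_hRed_of_fixedPlace
    (hP₀ : ∀ σ : Kbar ≃ₐ[ℚ] Kbar, arithmeticGalois (modularFunctionFieldFull N) σ • P₀ = P₀)
    {t : FN N} (htr : Transcendental Kbar t)
    (ht : ∀ σ : Kbar ≃ₐ[ℚ] Kbar, arithmeticGalois (modularFunctionFieldFull N) σ • t = t)
    {h : Kbar → ℝ} (hnn : ∀ c, 0 ≤ h c)
    (hNorth : ∀ B : ℝ,
      {c : Kbar | (minpoly ℚ c).natDegree ≤ genusFF Kbar (FN N) ∧ h c ≤ B}.Finite) :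
    Northcott (fun y : ↥(FixedPoints.addSubgroup (Kbar ≃ₐ[ℚ] Kbar) (JZero N)) =>
      hRed h t P₀ (y : JZero N)) := by
  refine ⟨fun B => ?_⟩
  have hfin := finite_setOf_hRed_le_of_fixedPlace hP₀ htr ht hnn hNorth B
  refine Set.Finite.of_injOn (f := fun y : ↥(FixedPoints.addSubgroup (Kbar ≃ₐ[ℚ] Kbar) (JZero N))
    => (y : JZero N)) ?_ (fun a _ b _ hab => Subtype.ext hab) hfin
  intro y hy
  exact ⟨y.2, hy⟩

end Fixed

/-! ## Specialisation to the cusp `∞` -/

section AtCusp

variable (N : ℕ) [NeZero N]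

/-- **(R7)** at `qPlace N` (S37). -/
theorem smul_red_qPlace {y : JZero N}
    (hy : y ∈ FixedPoints.addSubgroup (Kbar ≃ₐ[ℚ] Kbar) (JZero N)) (σ : Kbar ≃ₐ[ℚ] Kbar) :
    arithmeticGalois (modularFunctionFieldFull N) σ • red (qPlace N) y = red (qPlace N) y :=
  smul_red_of_fixedPlace (arithmeticGalois_smul_qPlace N) hy σ

/-- **(R7)** at `qPlaceL Kbar N` (S29; the base place of the S17 Spec). -/
theorem smul_red_qPlaceL {y : JZero N}
    (hy : y ∈ FixedPoints.addSubgroup (Kbar ≃ₐ[ℚ] Kbar) (JZero N)) (σ : Kbar ≃ₐ[ℚ] Kbar) :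
    arithmeticGalois (modularFunctionFieldFull N) σ • red (qPlaceL Kbar N) y
      = red (qPlaceL Kbar N) y :=
  smul_red_of_fixedPlace (arithmeticGalois_smul_qPlaceL Kbar N) hy σ

theorem vals_red_qPlace_map {y : JZero N}
    (hy : y ∈ FixedPoints.addSubgroup (Kbar ≃ₐ[ℚ] Kbar) (JZero N)) {t : FN N}
    (ht : ∀ σ : Kbar ≃ₐ[ℚ] Kbar, arithmeticGalois (modularFunctionFieldFull N) σ • t = t)
    (σ : Kbar ≃ₐ[ℚ] Kbar) :
    (vals t (red (qPlace N) y)).map σ = vals t (red (qPlace N) y) :=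
  vals_red_map_of_fixedPlace (arithmeticGalois_smul_qPlace N) hy ht σ

theorem exists_rat_normPoly {y : JZero N}
    (hy : y ∈ FixedPoints.addSubgroup (Kbar ≃ₐ[ℚ] Kbar) (JZero N)) {t : FN N}
    (ht : ∀ σ : Kbar ≃ₐ[ℚ] Kbar, arithmeticGalois (modularFunctionFieldFull N) σ • t = t) :
    ∃ q : Polynomial ℚ, q.Monic ∧ q.natDegree ≤ genusFF Kbar (FN N) ∧
      q.map (algebraMap ℚ Kbar) = normPoly t (red (qPlace N) y) :=
  exists_rat_normPoly_of_fixedPlace (arithmeticGalois_smul_qPlace N) hy ht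

theorem natDegree_minpoly_le_of_mem_vals {y : JZero N}
    (hy : y ∈ FixedPoints.addSubgroup (Kbar ≃ₐ[ℚ] Kbar) (JZero N)) {t : FN N}
    (ht : ∀ σ : Kbar ≃ₐ[ℚ] Kbar, arithmeticGalois (modularFunctionFieldFull N) σ • t = t)
    {c : Kbar} (hc : c ∈ vals t (red (qPlace N) y)) :
    (minpoly ℚ c).natDegree ≤ genusFF Kbar (FN N) :=
  natDegree_minpoly_le_of_fixedPlace (arithmeticGalois_smul_qPlace N) hy ht hc

theorem finite_setOf_hRed_le_JZero {t : FN N} (htr : Transcendental Kbar t)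
    (ht : ∀ σ : Kbar ≃ₐ[ℚ] Kbar, arithmeticGalois (modularFunctionFieldFull N) σ • t = t)
    {h : Kbar → ℝ} (hnn : ∀ c, 0 ≤ h c)
    (hNorth : ∀ B : ℝ,
      {c : Kbar | (minpoly ℚ c).natDegree ≤ genusFF Kbar (FN N) ∧ h c ≤ B}.Finite) (B : ℝ) :
    {y : JZero N | y ∈ FixedPoints.addSubgroup (Kbar ≃ₐ[ℚ] Kbar) (JZero N) ∧
      hRed h t (qPlace N) y ≤ B}.Finite :=
  finite_setOf_hRed_le_of_fixedPlace (arithmeticGalois_smul_qPlace N) htr ht hnn hNorth B

/-- Northcott for `hRed h t (qPlace N)` on the Galois-fixed points. -/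
theorem northcott_hRed_JZero {t : FN N} (htr : Transcendental Kbar t)
    (ht : ∀ σ : Kbar ≃ₐ[ℚ] Kbar, arithmeticGalois (modularFunctionFieldFull N) σ • t = t)
    {h : Kbar → ℝ} (hnn : ∀ c, 0 ≤ h c)
    (hNorth : ∀ B : ℝ,
      {c : Kbar | (minpoly ℚ c).natDegree ≤ genusFF Kbar (FN N) ∧ h c ≤ B}.Finite) :
    Northcott (fun y : ↥(FixedPoints.addSubgroup (Kbar ≃ₐ[ℚ] Kbar) (JZero N)) =>
      hRed h t (qPlace N) (y : JZero N)) :=
  northcott_hRed_of_fixedPlace (arithmeticGalois_smul_qPlace N) htr ht hnn hNorth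

/-- Northcott for `hRed h t (qPlaceL Kbar N)` on the Galois-fixed points. -/
theorem northcott_hRed_qPlaceL {t : FN N} (htr : Transcendental Kbar t)
    (ht : ∀ σ : Kbar ≃ₐ[ℚ] Kbar, arithmeticGalois (modularFunctionFieldFull N) σ • t = t)
    {h : Kbar → ℝ} (hnn : ∀ c, 0 ≤ h c)
    (hNorth : ∀ B : ℝ,
      {c : Kbar | (minpoly ℚ c).natDegree ≤ genusFF Kbar (FN N) ∧ h c ≤ B}.Finite) :
    Northcott (fun y : ↥(FixedPoints.addSubgroup (Kbar ≃ₐ[ℚ] Kbar) (JZero N)) =>
      hRed h t (qPlaceL Kbar N) (y : JZero N)) :=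
  northcott_hRed_of_fixedPlace (arithmeticGalois_smul_qPlaceL Kbar N) htr ht hnn hNorth

end AtCusp

end

end Fermat.Agent.S17.helper1298
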