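/-
S17 (Mordell–Weil for `JZero N`), board row 1764 "S17-HTORS" (helper1362):
input (iii) of the weak Mordell–Weil wiring `helper9541.finiteIndex_nsmul_JZero_of_specializationExists`,

    htors : Finite {t : JZero N // p • t = 0}

as a thin adapter on the FROZEN shape of S27 (torsion count of `Pic0` of a curve over an
algebraically closed field of characteristic zero).

Content (everything proved, no hypotheses left open except the named ones):
* `isCurveOver_modular`, `essFiniteType_modular` : the two instance hypotheses of the frozen S27
  statement for `K = ℚ̄`, `F = modularFunctionFieldBar N` (from the landed S24 facts: `j` is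
  transcendental and `F_N` is finite over `ℚ̄(j)`; and the landed S27 brick `helper1949`).
* `S27Shape` : the frozen S27 statement at universes `(0, 0)`, as a `Prop`.
* `finite_torsion_of_card_ne_zero` : `Nat.card (Pic0.torsion K F n) ≠ 0 → Finite {t // n • t = 0}`.
* `finite_nsmul_torsion_of_prime` : abstract: in any additive commutative group, if the
  `p`-torsion is finite for every prime `p`, then the `n`-torsion is finite for every `n ≠ 0`.
* `finite_torsion_JZero_of_card` : `htors` from the S27 count for this one curve at `k = 1`.
* `finite_torsion_JZero_of_S27` : `htors` for every prime `p` from `S27Shape`.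
* `finite_nsmul_torsion_JZero_of_S27` : `Finite {t : JZero N // n • t = 0}` for every `n ≠ 0`.
* `finite_setOf_nsmul_torsion_JZero_of_S27` : the `Set.Finite` form used by `helper2516`.
-/
import Mathlib
import Fermat.Prelude.Def_ModularCurve_ArithmeticGalois
import Fermat.Prelude.Def_AlgebraicCurve_IsCurveOver
import Fermat.Prelude.Def_AlgebraicCurve_Repartitions
import Fermat.Agent.S24.helper167_JFinrank
import Fermat.Agent.S24.helper6180_EvDatum
import Fermat.Agent.S24.helper1200_StmtLocalInf
import Fermat.Agent.S24.helper3176_FieldAlg
import Fermat.Agent.S27.helper1949_CurveOfFinite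

set_option autoImplicit false

open ModularCurve AlgebraicCurve IntermediateField

namespace Fermat.Agent.S17.helper1362

open Fermat.Agent.S24.helper24

/-! ## The modular function field is a curve over `ℚ̄` -/

section Modular

/-- `F_N` is finite over `ℚ̄(j)` (landed S24, `Stmt_JFinrank`). -/
theorem finiteDimensional_jBar_modular (N : ℕ) [NeZero N] :
    FiniteDimensional Kbar⟮jBar N⟯ (FN N) :=
  (Fermat.Agent.S24.helper167.stmt_JFinrank_of
    (fun N _ => Fermat.Agent.S24.helper6180.evDatum N)
    Fermat.Agent.S24.helper1200.stmt_LocalInf N).1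

/-- The function field of `X₀(N)` over `ℚ̄` is a curve in the sense of the Prelude. -/
theorem isCurveOver_modular (N : ℕ) [NeZero N] :
    IsCurveOver (AlgebraicClosure ℚ) (modularFunctionFieldBar N) := by
  have := finiteDimensional_jBar_modular N
  exact Fermat.Agent.S27.helper1949.isCurveOver_of_finite (jBar N)
    (Fermat.Agent.S24.helper3176.transcendental_jBar N)

/-- The function field of `X₀(N)` over `ℚ̄` is essentially of finite type. -/
theorem essFiniteType_modular (N : ℕ) [NeZero N] :
    Algebra.EssFiniteType (AlgebraicClosure ℚ) (modularFunctionFieldBar N) := by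
  have := finiteDimensional_jBar_modular N
  exact Fermat.Agent.S27.helper1949.essFiniteType_of_finite (jBar N)

end Modular

/-! ## Abstract torsion lemmas -/

section Abstract

/-- The kernel of multiplication by `m * n` is finite as soon as the kernels of multiplication
by `m` and by `n` are. -/
theorem finite_nsmul_torsion_mul {J : Type*} [AddCommGroup J] {m n : ℕ}
    (hm : Finite {t : J // m • t = 0}) (hn : Finite {t : J // n • t = 0}) :
    Finite {t : J // (m * n) • t = 0} := by
  classical
  -- a chosen preimage under `n • ·` for every element that has one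
  let c : J → J := fun s => if h : ∃ t : J, n • t = s then h.choose else 0
  have hc : ∀ t : J, n • c (n • t) = n • t := by
    intro t
    have h : ∃ t' : J, n • t' = n • t := ⟨t, rfl⟩
    simp only [c, dif_pos h]
    exact h.choose_spec
  -- `t ↦ (n • t, t - c (n • t))` is injective into `J[m] × J[n]`
  let f : {t : J // (m * n) • t = 0} → {t : J // m • t = 0} × {t : J // n • t = 0} :=
    fun t => (⟨n • t.1, by rw [← mul_smul]; exact t.2⟩,
      ⟨t.1 - c (n • t.1), by rw [smul_sub, hc, sub_self]⟩)
  have hf : Function.Injective f := by
    intro a b hab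
    have h1 : n • a.1 = n • b.1 := congrArg (fun x => x.1.1) hab
    have h2 : a.1 - c (n • a.1) = b.1 - c (n • b.1) := congrArg (fun x => x.2.1) hab
    rw [h1] at h2
    exact Subtype.ext (sub_left_injective h2)
  exact Finite.of_injective f hf

/-- If the `p`-torsion is finite for every prime `p`, then the `n`-torsion is finite for every
`n ≠ 0`. -/
theorem finite_nsmul_torsion_of_prime {J : Type*} [AddCommGroup J]
    (h : ∀ p : ℕ, p.Prime → Finite {t : J // p • t = 0}) (n : ℕ) (hn : n ≠ 0) :
    Finite {t : J // n • t = 0} := by
  induction n using Nat.recOnMul with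
  | zero => exact absurd rfl hn
  | one =>
    have : Subsingleton {t : J // 1 • t = 0} :=
      ⟨fun a b => Subtype.ext (by
        have ha := a.2
        have hb := b.2
        rw [one_smul] at ha hb
        rw [ha, hb])⟩
    exact Finite.of_subsingleton
  | prime p hp => exact h p hp
  | mul a b ha hb =>
    have ha0 : a ≠ 0 := fun h0 => hn (by rw [h0, zero_mul])
    have hb0 : b ≠ 0 := fun h0 => hn (by rw [h0, mul_zero])
    exact finite_nsmul_torsion_mul (ha ha0) (hb hb0)

end Abstract

/-! ## `Pic0` torsion -/

section Pic0

variable {K F : Type*} [Field K] [Field F] [Algebra K F]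

/-- The Prelude's `Pic0.torsion K F n` is the kernel of `n • ·`. -/
def torsionEquiv (n : ℕ) : Pic0.torsion K F n ≃ {t : Pic0 K F // n • t = 0} :=
  Equiv.subtypeEquivRight fun x => by
    rw [Pic0.mem_torsion, natCast_zsmul]

/-- A nonzero torsion count gives finiteness of the kernel of `n • ·`. -/
theorem finite_torsion_of_card_ne_zero (n : ℕ) (h : Nat.card (Pic0.torsion K F n) ≠ 0) :
    Finite {t : Pic0 K F // n • t = 0} := by
  have : Finite (Pic0.torsion K F n) := Nat.finite_of_card_ne_zero h
  exact Finite.of_equiv _ (torsionEquiv (K := K) (F := F) n)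

end Pic0

/-! ## The `JZero N` instance -/

section JZeroInstance

/-- The frozen statement S27 at universe levels `(0, 0)`. -/
def S27Shape : Prop :=
  ∀ (K F : Type) [Field K] [Field F] [Algebra K F] [IsAlgClosed K] [CharZero K]
    [IsCurveOver K F] [Algebra.EssFiniteType K F] (ℓ : ℕ) [Fact ℓ.Prime] (k : ℕ),
    Nat.card (Pic0.torsion K F (ℓ ^ k)) = ℓ ^ (2 * genusFF K F * k)

/-- **`htors` from the S27 count at `k = 1` for the modular curve.** -/
theorem finite_torsion_JZero_of_card (N : ℕ) (p : ℕ) (hp : p ≠ 0)
    (h : Nat.card (Pic0.torsion (AlgebraicClosure ℚ) (modularFunctionFieldBar N) (p ^ 1)) =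
      p ^ (2 * genusFF (AlgebraicClosure ℚ) (modularFunctionFieldBar N) * 1)) :
    Finite {t : JZero N // p • t = 0} := by
  rw [pow_one] at h
  exact finite_torsion_of_card_ne_zero p (by rw [h]; exact pow_ne_zero _ hp)

/-- **`htors` (input (iii) of weak Mordell–Weil) from the frozen S27 statement**, in the exact
shape of `helper9541.finiteIndex_nsmul_JZero_of_specializationExists`, for every prime `p`. -/
theorem finite_torsion_JZero_of_S27 (h27 : S27Shape) (N : ℕ) [NeZero N] (p : ℕ) (hp : p.Prime) :
    Finite {t : JZero N // p • t = 0} := by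
  have := isCurveOver_modular N
  have := essFiniteType_modular N
  have : Fact p.Prime := ⟨hp⟩
  exact finite_torsion_JZero_of_card N p hp.ne_zero
    (h27 (AlgebraicClosure ℚ) (modularFunctionFieldBar N) p 1)

/-- The `n`-torsion of `JZero N` is finite for every `n ≠ 0`, from the frozen S27 statement. -/
theorem finite_nsmul_torsion_JZero_of_S27 (h27 : S27Shape) (N : ℕ) [NeZero N] (n : ℕ)
    (hn : n ≠ 0) : Finite {t : JZero N // n • t = 0} :=
  finite_nsmul_torsion_of_prime (fun p hp => finite_torsion_JZero_of_S27 h27 N p hp) n hn

/-- `Set.Finite` form (the shape of `helper2516.fg_of_division_bound`). -/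
theorem finite_setOf_nsmul_torsion_JZero_of_S27 (h27 : S27Shape) (N : ℕ) [NeZero N] (n : ℕ)
    (hn : n ≠ 0) : {t : JZero N | n • t = 0}.Finite :=
  Set.finite_coe_iff.mp (finite_nsmul_torsion_JZero_of_S27 h27 N n hn)

end JZeroInstance

end Fermat.Agent.S17.helper1362
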