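/-
S17-W5 (helper1461): `ExpUnramifiedBound p M` for every prime `p` and every `M ≠ 0`
(the Kummer / class-group input `hkum` of the weak Mordell–Weil wiring
`Fermat.Agent.S17.helper9541.finiteIndex_nsmul_JZero_of_specializationExists`).

Over every number field `K ⊆ ℚ̄` the compositum of the abelian extensions of exponent `p` that are
unramified outside `M` is finite, in the frozen inertia vocabulary.

Proof (adapter on landed S55 / S14 / S05 bricks):
* every number field is unramified outside a finite set `S₁` (simple roots are inertia-fixed);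
* `K₁ = K(ζ_p)`, `S' = S₁ ∪ primes(M) ∪ {p}`; the `S'`-Kummer group of `K₁` is finite modulo
  `p`-th powers (S55 `helper9292`, S14 `helper2613`: class group + `S`-units);
* `L = K₁(t^(1/p) : t ∈ T)` for representatives `T`;
* a character of `G_K / (U ∩ G_K)` separating `σ ∉ U` restricts to a level Kummer character of
  `G_{K₁}` (S55 `helper9072`), whose generator `β` has `K₁(β)` unramified outside `S'`, hence
  `β ^ p` is in the Kummer group (S55 `helper4709`, `helper9292` dictionary), hence `β ∈ L`.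

Note: `ExpUnramifiedBound p 0` is false (the inertia clause is then vacuous), so `M ≠ 0` is needed;
the consumer has `M = N * p` with `N ≠ 0`.
-/
import Mathlib
import Fermat.Agent.S17.helper9541_WeakMW
import Fermat.Agent.S55.helper9292_SelmerDict
import Fermat.Agent.S55.helper4709_GlobRam2
import Fermat.Agent.S55.helper9072_LevelKummer
import Fermat.Agent.S05.helper4205_Inertia

set_option autoImplicit false

namespace Fermat.Agent.S17.helper1461

open scoped NumberField
open IsDedekindDomain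
open Fermat.Agent.Lib Fermat.Agent.S55

attribute [local instance] helper54.isAlgebraic_Qbar helper54.isAlgClosure_Qbar
  helper54.isGalois_Qbar helper54.isIntegral_Qbar helper54.numberField_intermediate

local notation "Qb" => AlgebraicClosure ℚ
local notation "GQ" => (AlgebraicClosure ℚ ≃ₐ[ℚ] AlgebraicClosure ℚ)

/-- A nonzero algebraic integer divides a nonzero rational integer among algebraic integers. -/
theorem exists_int_mul_eq (γ : Qb) (hγ : IsIntegral ℤ γ) (hγ0 : γ ≠ 0) :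
    ∃ (m : ℤ) (w : Qb), m ≠ 0 ∧ IsIntegral ℤ w ∧ γ * w = (m : Qb) := by
  have h0 : (minpoly ℤ γ).coeff 0 ≠ 0 := by
    have h1 : (minpoly ℚ γ).coeff 0 ≠ 0 := minpoly.coeff_zero_ne_zero hγ.tower_top hγ0
    rw [minpoly.isIntegrallyClosed_eq_field_fractions' ℚ hγ, Polynomial.coeff_map] at h1
    intro h
    rw [h, map_zero] at h1
    exact h1 rfl
  refine ⟨(minpoly ℤ γ).coeff 0, -(Polynomial.aeval γ (minpoly ℤ γ).divX), h0, ?_, ?_⟩
  · refine IsIntegral.neg ?_
    have h1 : Polynomial.aeval γ (minpoly ℤ γ).divX ∈ Algebra.adjoin ℤ {γ} :=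
      Polynomial.aeval_mem_adjoin_singleton ℤ γ
    exact (adjoin_le_integralClosure hγ) h1
  · have h1 : Polynomial.aeval γ (minpoly ℤ γ) = 0 := minpoly.aeval ℤ γ
    have h2 : (minpoly ℤ γ).divX * Polynomial.X + Polynomial.C ((minpoly ℤ γ).coeff 0)
        = minpoly ℤ γ := Polynomial.divX_mul_X_add _
    rw [← h2] at h1
    rw [map_add, map_mul, Polynomial.aeval_X, Polynomial.aeval_C, eq_intCast] at h1
    linear_combination -h1

/-- The prime factors of a natural number, as a finset of `Nat.Primes`. -/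
noncomputable def primesOf (m : ℕ) : Finset Nat.Primes :=
  m.primeFactors.attach.image fun x => (⟨x.1, Nat.prime_of_mem_primeFactors x.2⟩ : Nat.Primes)

theorem mem_primesOf {m : ℕ} (hm : m ≠ 0) (q : Nat.Primes) : q ∈ primesOf m ↔ (q : ℕ) ∣ m := by
  constructor
  · intro h
    obtain ⟨x, -, rfl⟩ := Finset.mem_image.mp h
    exact Nat.dvd_of_mem_primeFactors x.2
  · intro h
    exact Finset.mem_image.mpr
      ⟨⟨(q : ℕ), Nat.mem_primeFactors.mpr ⟨q.2, h, hm⟩⟩, Finset.mem_attach _ _, rfl⟩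

/-- Every algebraic number is fixed by the inertia groups at all primes outside a finite set. -/
theorem exists_finset_inertia_fixes (x : Qb) :
    ∃ S : Finset Nat.Primes, ∀ q : Nat.Primes, q ∉ S → ∀ A : ValuationSubring Qb,
      A.LiesOverPrime (q : ℕ) → ∀ σ ∈ A.inertiaSubgroupIn ℚ, σ x = x := by
  have hxalg : IsAlgebraic ℤ x :=
    (IsFractionRing.isAlgebraic_iff ℤ ℚ Qb).mpr (Algebra.IsAlgebraic.isAlgebraic x)
  obtain ⟨d, hd, hβint⟩ := hxalg.exists_integral_multiple
  set β : Qb := d • x with hβdef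
  set γ : Qb := Polynomial.aeval β (Polynomial.derivative (minpoly ℤ β)) with hγdef
  have hγint : IsIntegral ℤ γ :=
    adjoin_le_integralClosure hβint (Polynomial.aeval_mem_adjoin_singleton ℤ _)
  have hγ0 : γ ≠ 0 := by
    have hsep : (minpoly ℚ β).Separable :=
      (minpoly.irreducible (Algebra.IsIntegral.isIntegral β)).separable
    have h1 := hsep.aeval_derivative_ne_zero (minpoly.aeval ℚ β)
    rw [minpoly.isIntegrallyClosed_eq_field_fractions' ℚ hβint, Polynomial.derivative_map,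
      Polynomial.aeval_map_algebraMap] at h1
    exact h1
  obtain ⟨m, w, hm, hw, hγw⟩ := exists_int_mul_eq γ hγint hγ0
  refine ⟨primesOf m.natAbs, fun q hq A hA σ hσ => ?_⟩
  have hqm : ¬ (q : ℕ) ∣ m.natAbs := fun h =>
    hq ((mem_primesOf (Int.natAbs_ne_zero.mpr hm) q).mpr h)
  have hcop : Nat.Coprime m.natAbs q :=
    Nat.Coprime.symm ((Nat.Prime.coprime_iff_not_dvd q.2).2 hqm)
  have hvm : A.valuation (m : Qb) = 1 := by
    have h1 := helper4709.valuation_natCast_eq_one_of_coprime A hA m.natAbs hcop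
    rcases Int.natAbs_eq m with h | h
    · rw [h]; simpa using h1
    · rw [h]; simpa using h1
  have hγA : γ ∈ A := helper54.mem_valuationSubring_of_isIntegral A γ hγint
  have hwA : w ∈ A := helper54.mem_valuationSubring_of_isIntegral A w hw
  have hvγ : A.valuation γ = 1 := by
    have h1 : A.valuation γ * A.valuation w = 1 := by rw [← map_mul, hγw, hvm]
    have h2 : A.valuation γ ≤ 1 := (A.valuation_le_one_iff _).2 hγA
    have h3 : A.valuation w ≤ 1 := (A.valuation_le_one_iff _).2 hwA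
    by_contra h
    have h4 : A.valuation γ < 1 := lt_of_le_of_ne h2 h
    have h5 : A.valuation γ * A.valuation w < 1 :=
      lt_of_le_of_lt (mul_le_of_le_one_right' h3) h4
    rw [h1] at h5
    exact lt_irrefl _ h5
  have hβA : β ∈ A := helper54.mem_valuationSubring_of_isIntegral A _ hβint
  have hsub : ∀ g : Polynomial ℤ, (((g.map (Int.castRingHom A)).eval ⟨β, hβA⟩ : A) : Qb)
      = Polynomial.aeval β g := by
    intro g
    rw [Polynomial.eval_map, ← ValuationSubring.subtype_apply, Polynomial.hom_eval₂,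
      Polynomial.aeval_def]
    congr 1
  have key : σ β = β := by
    refine Fermat.Agent.S05.helper4205.apply_eq_self_of_simple_root hσ
      ((minpoly ℤ β).map (Int.castRingHom A)) ?_ ⟨β, hβA⟩ ?_ ?_
    · intro i
      rw [Polynomial.coeff_map]
      simp
    · apply Subtype.ext
      rw [hsub, minpoly.aeval]
      rfl
    · rw [Polynomial.derivative_map, A.valuation_eq_one_iff, hsub]
      exact hvγ
  rw [hβdef, map_zsmul] at key
  exact smul_right_injective Qb hd key

/-- Every number field inside `ℚ̄` is unramified (in the frozen inertia vocabulary) outside a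
finite set of primes. -/
theorem exists_isUnramifiedOutside (K : IntermediateField ℚ Qb) [FiniteDimensional ℚ K] :
    ∃ S : Finset Nat.Primes, K.IsUnramifiedOutside S := by
  classical
  let b := Module.finBasis ℚ K
  choose Sx hSx using exists_finset_inertia_fixes
  refine ⟨Finset.univ.biUnion fun i => Sx (b i : Qb), inferInstance, fun q hq A hA σ hσ => ?_⟩
  rw [IntermediateField.mem_fixingSubgroup_iff]
  intro x hx
  have hfix : ∀ i, σ (b i : Qb) = (b i : Qb) := fun i =>
    hSx _ q (fun h => hq (Finset.mem_biUnion.mpr ⟨i, Finset.mem_univ _, h⟩)) A hA σ hσ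
  have hrepr : (⟨x, hx⟩ : K) = ∑ i, (b.repr ⟨x, hx⟩ i) • b i := (b.sum_repr ⟨x, hx⟩).symm
  have hx' : x = ∑ i, (b.repr ⟨x, hx⟩ i) • (b i : Qb) := by
    have h : K.val ⟨x, hx⟩ = K.val (∑ i, (b.repr ⟨x, hx⟩ i) • b i) := congrArg _ hrepr
    rw [map_sum] at h
    refine (show x = K.val ⟨x, hx⟩ from rfl).trans (h.trans ?_)
    refine Finset.sum_congr rfl fun i _ => ?_
    rw [Algebra.smul_def, map_mul, Algebra.smul_def]
    rfl
  rw [hx', map_sum]
  refine Finset.sum_congr rfl fun i _ => ?_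
  rw [Algebra.smul_def, map_mul, AlgEquiv.commutes, hfix i]

/-- Finitely many representatives of the `S`-Kummer group modulo `p`-th powers. -/
theorem exists_finite_kummer_reps (F : IntermediateField ℚ Qb) [FiniteDimensional ℚ F]
    (S : Finset Nat.Primes) (p : ℕ) [Fact p.Prime] {ζ : F} (hζ : IsPrimitiveRoot ζ p) :
    ∃ T : Set Fˣ, T.Finite ∧
      ∀ a ∈ helper9292.kumS (𝓞 F) F (helper9292.SF F S : Set (HeightOneSpectrum (𝓞 F))) p,
        ∃ t ∈ T, ∃ b : Fˣ, a = t * b ^ p := by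
  have hp0 : p ≠ 0 := (Fact.out : p.Prime).ne_zero
  set Kum := helper9292.kumS (𝓞 F) F (helper9292.SF F S : Set (HeightOneSpectrum (𝓞 F))) p
  set H := helper9292.powSub Fˣ p
  have hrel : H.relIndex Kum ≠ 0 := by
    rw [helper9292.relIndex_powSub_kumS_numberField (helper9292.SF F S) hp0 hζ,
      helper9292.clSModCard_eq_pow]
    exact mul_ne_zero (pow_ne_zero _ hp0) (pow_ne_zero _ hp0)
  have : (H.subgroupOf Kum).FiniteIndex := ⟨hrel⟩
  have : Finite (Kum ⧸ H.subgroupOf Kum) := Subgroup.finite_quotient_of_finiteIndex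
  refine ⟨Set.range fun q : Kum ⧸ H.subgroupOf Kum => ((Quotient.out q : Kum) : Fˣ),
    Set.finite_range _, ?_⟩
  intro a ha
  set q : Kum ⧸ H.subgroupOf Kum := QuotientGroup.mk ⟨a, ha⟩ with hq
  refine ⟨((Quotient.out q : Kum) : Fˣ), ⟨q, rfl⟩, ?_⟩
  have h1 : (QuotientGroup.mk (Quotient.out q) : Kum ⧸ H.subgroupOf Kum)
      = QuotientGroup.mk ⟨a, ha⟩ := QuotientGroup.out_eq' q
  rw [QuotientGroup.eq, Subgroup.mem_subgroupOf] at h1
  obtain ⟨b, hb⟩ := helper9292.mem_powSub.mp h1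
  refine ⟨b, ?_⟩
  rw [hb]
  simp

/-- In a commutative group of exponent `p`, every nontrivial element is detected by a character
with values in `ℤ/p`. -/
theorem exists_char_of_exponent {Q : Type*} [CommGroup Q] (p : ℕ) [Fact p.Prime]
    (hexp : ∀ a : Q, a ^ p = 1) (v0 : Q) (hv0 : v0 ≠ 1) :
    ∃ χ : Q →* Multiplicative (ZMod p), χ v0 ≠ 1 := by
  have hexp' : ∀ x : Additive Q, p • x = 0 := by
    intro x
    obtain ⟨y, rfl⟩ := Additive.ofMul.surjective x
    rw [← ofMul_pow, hexp]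
    rfl
  let instM : Module (ZMod p) (Additive Q) := AddCommGroup.zmodModule hexp'
  have hv : Additive.ofMul v0 ≠ 0 := fun h => hv0 h
  obtain ⟨g, hg⟩ : ∃ g : Additive Q →+ ZMod p, g (Additive.ofMul v0) ≠ 0 := by
    by_contra h
    push Not at h
    exact hv ((Module.forall_dual_apply_eq_zero_iff (ZMod p) _).mp fun φ => h φ.toAddMonoidHom)
  refine ⟨AddMonoidHom.toMultiplicativeRight g, ?_⟩
  intro h
  exact hg h

/-- Separation by a character: if `H / (U ∩ H)` is abelian of exponent `p` and `σ ∈ H ∖ U`, there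
is a character `H → ℤ/p` trivial on `U ∩ H` and nontrivial at `σ`. -/
theorem exists_char_separating {G : Type*} [Group G] (H U : Subgroup G) (p : ℕ) [Fact p.Prime]
    (hcomm : ∀ σ ∈ H, ∀ τ ∈ H, σ * τ * σ⁻¹ * τ⁻¹ ∈ U)
    (hpow : ∀ σ ∈ H, σ ^ p ∈ U)
    {σ : G} (hσH : σ ∈ H) (hσU : σ ∉ U) :
    ∃ χ : H →* Multiplicative (ZMod p), (∀ h : H, (h : G) ∈ U → χ h = 1) ∧ χ ⟨σ, hσH⟩ ≠ 1 := by
  classical
  set V : Subgroup H := U.subgroupOf H with hV
  have hmemV : ∀ h : H, h ∈ V ↔ (h : G) ∈ U := fun h => Subgroup.mem_subgroupOf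
  have hN : V.Normal := by
    constructor
    intro n hn g
    rw [hmemV] at hn ⊢
    have h1 := hcomm g g.2 n n.2
    have h2 : ((g * n * g⁻¹ : H) : G) = ((g : G) * n * (g : G)⁻¹ * (n : G)⁻¹) * n := by
      push_cast
      group
    rw [h2]
    exact U.mul_mem h1 hn
  let instC : CommGroup (H ⧸ V) :=
    { (inferInstance : Group (H ⧸ V)) with
      mul_comm := by
        intro a b
        induction a using QuotientGroup.induction_on with | _ a => ?_
        induction b using QuotientGroup.induction_on with | _ b => ?_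
        rw [← QuotientGroup.mk_mul, ← QuotientGroup.mk_mul, QuotientGroup.eq, hmemV]
        have h1 := hcomm (b⁻¹ : H) (b⁻¹ : H).2 (a⁻¹ : H) (a⁻¹ : H).2
        have h2 : (((a * b)⁻¹ * (b * a) : H) : G)
            = ((b⁻¹ : H) : G) * ((a⁻¹ : H) : G) * ((b⁻¹ : H) : G)⁻¹ * ((a⁻¹ : H) : G)⁻¹ := by
          push_cast
          group
        rw [h2]
        exact h1 }
  have hexp : ∀ y : H ⧸ V, y ^ p = 1 := by
    intro y
    induction y using QuotientGroup.induction_on with | _ h => ?_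
    rw [← QuotientGroup.mk_pow, QuotientGroup.eq_one_iff, hmemV]
    have := hpow h h.2
    simpa using this
  have hv0 : (QuotientGroup.mk ⟨σ, hσH⟩ : H ⧸ V) ≠ 1 := by
    intro h1
    rw [QuotientGroup.eq_one_iff, hmemV] at h1
    exact hσU h1
  obtain ⟨χ, hχ⟩ := exists_char_of_exponent (Q := H ⧸ V) p hexp _ hv0
  refine ⟨χ.comp (QuotientGroup.mk' V), fun h hh => ?_, hχ⟩
  have h1 : (QuotientGroup.mk h : H ⧸ V) = 1 := by
    rw [QuotientGroup.eq_one_iff, hmemV]
    exact hh
  show χ (QuotientGroup.mk h) = 1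
  rw [h1, map_one]

/-- `ζ ^ n` only depends on `n` modulo `p` when `ζ ^ p = 1`. -/
theorem pow_zmod_val_add {R : Type*} [Monoid R] {p : ℕ} [NeZero p] {z : R} (hz : z ^ p = 1)
    (a b : ZMod p) : z ^ (a + b).val = z ^ a.val * z ^ b.val := by
  rw [ZMod.val_add, ← pow_add]
  conv_rhs => rw [← Nat.div_add_mod (a.val + b.val) p]
  rw [pow_add, pow_mul, hz, one_pow, one_mul]

/-- **S17-W5.** Over every number field `K ⊆ ℚ̄` the compositum of the abelian extensions of
exponent `p` which are unramified outside `M ≠ 0` is finite (frozen inertia vocabulary). -/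
theorem expUnramifiedBound (p : ℕ) (hp : p.Prime) (M : ℕ) (hM : M ≠ 0) :
    helper9541.ExpUnramifiedBound p M := by
  classical
  intro K hK
  have := hK
  have : Fact p.Prime := ⟨hp⟩
  have hp0 : p ≠ 0 := hp.ne_zero
  have : NeZero p := ⟨hp0⟩
  obtain ⟨ζ, hζ⟩ := HasEnoughRootsOfUnity.exists_primitiveRoot Qb p
  have hζ0 : ζ ≠ 0 := hζ.ne_zero hp0
  have : FiniteDimensional ℚ (IntermediateField.adjoin ℚ {ζ}) :=
    IntermediateField.adjoin.finiteDimensional (Algebra.IsIntegral.isIntegral ζ)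
  set K1 : IntermediateField ℚ Qb := K ⊔ IntermediateField.adjoin ℚ {ζ} with hK1
  have hK1fin : FiniteDimensional ℚ K1 := IntermediateField.finiteDimensional_sup K _
  have hKK1 : K ≤ K1 := le_sup_left
  have hζK1 : ζ ∈ K1 := (le_sup_right : IntermediateField.adjoin ℚ {ζ} ≤ K1)
    (IntermediateField.mem_adjoin_simple_self ℚ ζ)
  obtain ⟨S1, hS1⟩ := exists_isUnramifiedOutside K1
  set S' : Finset Nat.Primes := S1 ∪ primesOf M ∪ {⟨p, hp⟩} with hS'
  have hK1S' : K1.IsUnramifiedOutside S' :=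
    hS1.mono (Finset.subset_union_left.trans Finset.subset_union_left)
  have hpS' : ∀ q : Nat.Primes, (q : ℕ) ∣ p → q ∈ S' := by
    intro q hq
    have h1 : (q : ℕ) = p := (Nat.prime_dvd_prime_iff_eq q.2 hp).1 hq
    have h2 : q = ⟨p, hp⟩ := Subtype.ext h1
    rw [h2, hS']
    exact Finset.mem_union_right _ (Finset.mem_singleton_self _)
  have hMS' : ∀ q : Nat.Primes, q ∉ S' → ¬ (q : ℕ) ∣ M := by
    intro q hq hqM
    exact hq (Finset.mem_union_left _ (Finset.mem_union_right _ ((mem_primesOf hM q).mpr hqM)))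
  have hζ1 : IsPrimitiveRoot (⟨ζ, hζK1⟩ : K1) p :=
    IsPrimitiveRoot.of_map_of_injective (f := algebraMap K1 Qb) hζ (algebraMap K1 Qb).injective
  obtain ⟨T, hTfin, hT⟩ := exists_finite_kummer_reps K1 S' p hζ1
  set R : Set Qb := {x | ∃ t ∈ T, x ^ p = ((t : K1) : Qb)} with hR
  have hRfin : R.Finite := by
    have h1 : R = ⋃ t ∈ T, {x : Qb | x ^ p = ((t : K1) : Qb)} := by
      ext x
      simp [hR]
    rw [h1]
    refine Set.Finite.biUnion hTfin fun t _ => ?_
    have hne : (Polynomial.X ^ p - Polynomial.C (((t : K1) : Qb)) : Polynomial Qb) ≠ 0 :=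
      Polynomial.X_pow_sub_C_ne_zero (Nat.pos_of_ne_zero hp0) _
    refine ((Polynomial.X ^ p - Polynomial.C (((t : K1) : Qb))
      : Polynomial Qb).roots.toFinset.finite_toSet).subset ?_
    intro x hx
    simp only [Finset.mem_coe, Multiset.mem_toFinset, Polynomial.mem_roots hne,
      Polynomial.IsRoot.def, Polynomial.eval_sub, Polynomial.eval_pow, Polynomial.eval_X,
      Polynomial.eval_C]
    exact sub_eq_zero.mpr hx
  have : Finite R := hRfin.to_subtype
  have hRL : FiniteDimensional ℚ (IntermediateField.adjoin ℚ R) :=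
    IntermediateField.finiteDimensional_adjoin fun x _ => Algebra.IsIntegral.isIntegral x
  set L : IntermediateField ℚ Qb := K1 ⊔ IntermediateField.adjoin ℚ R with hL
  refine ⟨L, IntermediateField.finiteDimensional_sup K1 _, ?_⟩
  intro U hUopen hUcomm hUpow hUinert σ hσ
  obtain ⟨hσL, hσK⟩ := Subgroup.mem_inf.mp hσ
  by_contra hσU
  obtain ⟨χ, hχU, hχσ⟩ := exists_char_separating K.fixingSubgroup U p hUcomm hUpow hσK hσU
  have hG1K : K1.fixingSubgroup ≤ K.fixingSubgroup :=
    IntermediateField.fixingSubgroup_antitone hKK1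
  let k : K1.fixingSubgroup → ℕ := fun g => (Multiplicative.toAdd (χ ⟨g.1, hG1K g.2⟩)).val
  let ζu : Qbˣ := Units.mk0 ζ hζ0
  have hζu : ζu ^ p = 1 := Units.ext (by simpa [ζu] using hζ.pow_eq_one)
  let c : K1.fixingSubgroup → Qbˣ := fun g => ζu ^ k g
  have hfixζ : ∀ g : K1.fixingSubgroup, (K1.fixingSubgroup.subtype g) • ζu = ζu := by
    intro g
    apply Units.ext
    exact (IntermediateField.mem_fixingSubgroup_iff K1 g.1).1 g.2 ζ hζK1
  have hk : ∀ g h : K1.fixingSubgroup, ζu ^ k (g * h) = ζu ^ k g * ζu ^ k h := by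
    intro g h
    have h1 : χ ⟨(g * h).1, hG1K (g * h).2⟩ = χ ⟨g.1, hG1K g.2⟩ * χ ⟨h.1, hG1K h.2⟩ := by
      rw [← map_mul]
      rfl
    simp only [k]
    rw [h1, toAdd_mul]
    exact pow_zmod_val_add hζu _ _
  have hk1 : ∀ s : K1.fixingSubgroup, (s : GQ) ∈ U → k s = 0 := by
    intro s hs
    have h1 : χ ⟨s.1, hG1K s.2⟩ = 1 := hχU ⟨s.1, hG1K s.2⟩ hs
    simp only [k]
    rw [h1, toAdd_one, ZMod.val_zero]
  have hc : ∀ g h : K1.fixingSubgroup,
      c (g * h) = (K1.fixingSubgroup.subtype g) • c h * c g := by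
    intro g h
    simp only [c]
    rw [smul_pow', hfixζ g, hk g h, mul_comm]
  have hlev : helper9072.IsLev₁ (K1.fixingSubgroup.subtype) c := by
    obtain ⟨L', hL'fin, hL'U⟩ := hUopen
    refine ⟨L', hL'fin, fun g s hs => ?_⟩
    simp only [c]
    rw [hk g s, hk1 s (hL'U hs), pow_zero, mul_one]
  have hcp : ∀ g, c g ^ p = 1 := by
    intro g
    simp only [c]
    rw [← pow_mul, mul_comm, pow_mul, hζu, one_pow]
  obtain ⟨β, hβ, hβp⟩ :=
    helper9072.exists_kummer_of_mu_cocycle (K1.fixingSubgroup.subtype) hc hlev hcp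
  have hgβ : ∀ g : K1.fixingSubgroup, (g : GQ) (β : Qb) = ζ ^ k g * (β : Qb) := by
    intro g
    have h1 := congrArg Units.val (hβ g)
    rw [Units.val_div_eq_div_val] at h1
    have h2 : ((K1.fixingSubgroup.subtype g • β : Qbˣ) : Qb) = (g : GQ) (β : Qb) := rfl
    rw [h2, div_eq_iff β.ne_zero] at h1
    rw [h1]
    simp [c, ζu]
  have hβpK1 : (β : Qb) ^ p ∈ K1 := by
    rw [← InfiniteGalois.fixedField_fixingSubgroup K1, IntermediateField.mem_fixedField_iff]
    intro g hg
    have h1 := congrArg Units.val (hβp ⟨g, hg⟩)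
    have h2 : ((K1.fixingSubgroup.subtype ⟨g, hg⟩ • (β ^ p) : Qbˣ) : Qb) = g ((β : Qb) ^ p) := by
      rw [← Units.val_pow_eq_pow_val]
      rfl
    rw [h2] at h1
    rw [h1, Units.val_pow_eq_pow_val]
  have hF' : (K1 ⊔ IntermediateField.adjoin ℚ {(β : Qb)}).IsUnramifiedOutside S' := by
    have : FiniteDimensional ℚ (IntermediateField.adjoin ℚ {(β : Qb)}) :=
      IntermediateField.adjoin.finiteDimensional (Algebra.IsIntegral.isIntegral _)
    refine ⟨IntermediateField.finiteDimensional_sup K1 _, fun q hq A hA τ hτ => ?_⟩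
    have hτK1 : τ ∈ K1.fixingSubgroup := hK1S'.2 q hq A hA hτ
    have hτK : τ ∈ K.fixingSubgroup := hG1K hτK1
    have hτU : τ ∈ U := hUinert q q.2 (hMS' q hq) A hA τ hτ hτK
    rw [IntermediateField.fixingSubgroup_sup]
    refine ⟨hτK1, helper4709.mem_fixingSubgroup_adjoin_singleton τ _ ?_⟩
    have h1 := hgβ ⟨τ, hτK1⟩
    rw [hk1 ⟨τ, hτK1⟩ hτU, pow_zero, one_mul] at h1
    exact h1
  have hloc := (helper4709.isUnramifiedOutside_sup_adjoin_root_iff hK1S' p hpS' (β : Qb) hβpK1
    β.ne_zero).mp hF'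
  have ha0 : (⟨(β : Qb) ^ p, hβpK1⟩ : K1) ≠ 0 := fun h =>
    pow_ne_zero p β.ne_zero (congrArg Subtype.val h)
  let a : K1ˣ := Units.mk0 ⟨(β : Qb) ^ p, hβpK1⟩ ha0
  have haK : a ∈ helper9292.kumS (𝓞 K1) K1
      (helper9292.SF K1 S' : Set (HeightOneSpectrum (𝓞 K1))) p := by
    rw [helper9292.mem_kumS_SF_iff]
    intro q hq A hA
    obtain ⟨b, hbK1, hb0, hv⟩ := hloc q hq A hA
    have hb0' : (⟨b, hbK1⟩ : K1) ≠ 0 := fun h => hb0 (congrArg Subtype.val h)
    refine ⟨Units.mk0 ⟨b, hbK1⟩ hb0', ?_⟩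
    have h1 : algebraMap K1 Qb (((a : K1ˣ) : K1) / ((Units.mk0 ⟨b, hbK1⟩ hb0' : K1ˣ) : K1) ^ p)
        = (β : Qb) ^ p / b ^ p := by
      rw [map_div₀, map_pow]
      rfl
    rw [h1]
    exact hv
  obtain ⟨t, htT, b', hab'⟩ := hT a haK
  have hb'0 : ((b' : K1) : Qb) ≠ 0 := fun h => b'.ne_zero (Subtype.ext h)
  have hx : ((β : Qb) / ((b' : K1) : Qb)) ∈ R := by
    refine ⟨t, htT, ?_⟩
    have h1 : ((a : K1) : Qb) = ((t : K1) : Qb) * ((b' : K1) : Qb) ^ p := by
      have h := congrArg (fun u : K1ˣ => ((u : K1) : Qb)) hab'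
      simpa using h
    have h2 : ((a : K1) : Qb) = (β : Qb) ^ p := rfl
    rw [div_pow, ← h2, h1, mul_div_assoc, div_self (pow_ne_zero _ hb'0), mul_one]
  have hβL : (β : Qb) ∈ L := by
    have h1 : ((β : Qb) / ((b' : K1) : Qb)) ∈ L :=
      (le_sup_right : IntermediateField.adjoin ℚ R ≤ L) (IntermediateField.subset_adjoin ℚ R hx)
    have h2 : ((b' : K1) : Qb) ∈ L := (le_sup_left : K1 ≤ L) (b' : K1).2
    have h3 : (β : Qb) = (β : Qb) / ((b' : K1) : Qb) * ((b' : K1) : Qb) := by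
      field_simp
    rw [h3]
    exact L.mul_mem h1 h2
  have hσβ : σ (β : Qb) = β := (IntermediateField.mem_fixingSubgroup_iff L σ).1 hσL _ hβL
  have hσK1 : σ ∈ K1.fixingSubgroup :=
    IntermediateField.fixingSubgroup_antitone (le_sup_left : K1 ≤ L) hσL
  have h1 := hgβ ⟨σ, hσK1⟩
  have h1' : σ (β : Qb) = ζ ^ k ⟨σ, hσK1⟩ * (β : Qb) := h1
  rw [hσβ] at h1'
  have h2 : ζ ^ k ⟨σ, hσK1⟩ = 1 := by
    have h := mul_right_cancel₀ β.ne_zero
      (show (1 : Qb) * β = ζ ^ k ⟨σ, hσK1⟩ * β by rw [one_mul]; exact h1')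
    exact h.symm
  have h3 : p ∣ k ⟨σ, hσK1⟩ := (hζ.pow_eq_one_iff_dvd _).mp h2
  have h4 : k ⟨σ, hσK1⟩ < p := ZMod.val_lt _
  have h5 : k ⟨σ, hσK1⟩ = 0 := Nat.eq_zero_of_dvd_of_lt h3 h4
  apply hχσ
  have h6 : Multiplicative.toAdd (χ ⟨σ, hσK⟩) = 0 := (ZMod.val_eq_zero _).mp h5
  exact h6

end Fermat.Agent.S17.helper1461
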