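import Mathlib
import Fermat.Agent.S17.helper3723_AffRing
import Fermat.Agent.S27.helper4586_Ev

/-!
# S17-G2-CHART-INST, part 1: the `K`-points of a chart ring (helper1585)

Setting of the S27 Spec: `K` algebraically closed of characteristic zero, `F` a field over `K`,
`u : F` transcendental with `F` finite over `K(u)`.  `helper3723.chartRing u` is the ring of
functions regular at every place where `u` is regular (a Dedekind domain of finite type).

* `chartPt hV hP : chartRing u →ₐ[K] K`: evaluation at a place `P` where `u` is regular.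
* `ker_chartPt`: its kernel is `helper3723.chartPtIdeal hP`.
* `exists_chartPt_eq`: every `K`-point of the chart ring is `chartPt` of a place;
  `chartPt_injective`: of a unique one.
* `exists_ker_eq_of_isMaximal`: every maximal ideal of the chart ring is the kernel of a `K`-point.
* `exists_le_span_sup_sq`: **(B-LP)** in every Dedekind domain a maximal ideal `Q` satisfies
  `Q ≤ span {π} ⊔ Q ^ 2` for some `π ∈ Q`.
* `mem_prod_ker_of_ord`: the order criterion for membership in a product of kernels of points.
-/

set_option autoImplicit false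
set_option linter.style.haveILetI false
set_option linter.unusedSectionVars false

open AlgebraicCurve IsDedekindDomain IntermediateField

namespace Fermat.Agent.S17.helper1585

open Fermat.Agent.S17.helper3723 Fermat.Agent.S27.helper4586 Fermat.Agent.S27.helper6247

noncomputable section

universe u v

/-! ## Generic commutative algebra -/

section Generic

/-- **(B-LP)** In a Dedekind domain every maximal ideal is locally principal in the weak form
`Q ≤ span {π} ⊔ Q ^ 2`. -/
theorem exists_le_span_sup_sq {B : Type*} [CommRing B] [IsDedekindDomain B] (Q : Ideal B)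
    (hQ : Q.IsMaximal) : ∃ π ∈ Q, Q ≤ Ideal.span {π} ⊔ Q ^ 2 := by
  by_cases hbot : Q = ⊥
  · exact ⟨0, Q.zero_mem, by rw [hbot]; exact bot_le⟩
  · have hne : Q ^ 2 ≠ Q := by
      intro h
      have h1 : Q ^ 2 < Q ^ 1 := Ideal.pow_right_strictAnti Q hbot hQ.ne_top (by norm_num)
      rw [pow_one] at h1
      exact h1.ne h
    have hlt : Q ^ 2 < Q := lt_of_le_of_ne (Ideal.pow_le_self (by norm_num)) hne
    obtain ⟨π, hπQ, hπ⟩ := Set.exists_of_ssubset hlt
    refine ⟨π, hπQ, ?_⟩
    haveI := hQ.isPrime
    have key : Ideal.span {π} ⊔ Q ^ 2 = Q ^ 1 := by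
      apply Ideal.eq_prime_pow_of_succ_lt_of_le hbot
      · refine lt_of_le_of_ne le_sup_right ?_
        intro h
        apply hπ
        have : π ∈ Ideal.span {π} ⊔ Q ^ 2 :=
          Ideal.mem_sup_left (Ideal.subset_span (Set.mem_singleton π))
        rw [← h] at this
        exact this
      · rw [pow_one]
        exact sup_le ((Ideal.span_singleton_le_iff_mem Q).mpr hπQ) hlt.le
    rw [key, pow_one]

/-- Over an algebraically closed field, a maximal ideal of an algebra of finite type is the
kernel of a `K`-point. -/
theorem exists_algHom_ker_eq {K B : Type*} [Field K] [IsAlgClosed K] [CommRing B] [Algebra K B]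
    [Algebra.FiniteType K B] (Q : Ideal B) (hQ : Q.IsMaximal) :
    ∃ χ : B →ₐ[K] K, RingHom.ker χ = Q := by
  letI : Field (B ⧸ Q) := Ideal.Quotient.field Q
  haveI : Algebra.FiniteType K (B ⧸ Q) :=
    Algebra.FiniteType.of_surjective (Ideal.Quotient.mkₐ K Q) (Ideal.Quotient.mkₐ_surjective K Q)
  haveI : Module.Finite K (B ⧸ Q) := finite_of_finite_type_of_isJacobsonRing K (B ⧸ Q)
  haveI : Algebra.IsIntegral K (B ⧸ Q) := Algebra.IsIntegral.of_finite K (B ⧸ Q)
  have hbij : Function.Bijective (algebraMap K (B ⧸ Q)) :=
    IsAlgClosed.algebraMap_bijective_of_isIntegral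
  let e : K ≃ₐ[K] (B ⧸ Q) := AlgEquiv.ofBijective (Algebra.ofId K (B ⧸ Q)) hbij
  refine ⟨(e.symm : (B ⧸ Q) →ₐ[K] K).comp (Ideal.Quotient.mkₐ K Q), ?_⟩
  ext b
  rw [RingHom.mem_ker]
  constructor
  · intro h
    have h' : e.symm (Ideal.Quotient.mk Q b) = 0 := h
    rw [map_eq_zero_iff _ e.symm.injective] at h'
    exact Ideal.Quotient.eq_zero_iff_mem.mp h'
  · intro h
    show e.symm (Ideal.Quotient.mk Q b) = 0
    rw [Ideal.Quotient.eq_zero_iff_mem.mpr h, map_zero]

/-- Two `K`-points with the same kernel are equal. -/
theorem algHom_eq_of_ker_le {K B : Type*} [Field K] [CommRing B] [Algebra K B]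
    (χ χ' : B →ₐ[K] K) (h : RingHom.ker χ ≤ RingHom.ker χ') : χ = χ' := by
  ext b
  have h1 : b - algebraMap K B (χ b) ∈ RingHom.ker χ := by
    rw [RingHom.mem_ker, map_sub, AlgHom.commutes, Algebra.algebraMap_self_apply, sub_self]
  have h2 := h h1
  rw [RingHom.mem_ker, map_sub, AlgHom.commutes, Algebra.algebraMap_self_apply, sub_eq_zero]
    at h2
  exact h2.symm

end Generic

/-! ## The points of a chart ring -/

section Points

variable {K : Type u} {F : Type v} [Field K] [Field F] [Algebra K F]

/-- The inclusion of the chart ring into the valuation ring of a place where `u` is regular, as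
a `K`-algebra homomorphism. -/
def chartToValAlg {u : F} {P : Place K F} (hP : u ∈ P.toValuationSubring) :
    chartRing (K := K) u →ₐ[K] P.toValuationSubring :=
  { chartToValRing hP with commutes' := fun _ => rfl }

@[simp] theorem coe_chartToValAlg {u : F} {P : Place K F} (hP : u ∈ P.toValuationSubring)
    (a : chartRing (K := K) u) : ((chartToValAlg hP a : P.toValuationSubring) : F) = (a : F) :=
  rfl

/-- **(C2)** The `K`-point of the chart ring at a place `P` where `u` is regular. -/
def chartPt {u : F} {P : Place K F} (hV : HasValues P) (hP : u ∈ P.toValuationSubring) :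
    chartRing (K := K) u →ₐ[K] K :=
  (evHom hV).comp (chartToValAlg hP)

@[simp] theorem chartPt_apply {u : F} {P : Place K F} (hV : HasValues P)
    (hP : u ∈ P.toValuationSubring) (b : chartRing (K := K) u) :
    chartPt hV hP b = ev P (b : F) := rfl

/-- **(C2)** The kernel of the point at `P` is the ideal of functions vanishing at `P`. -/
theorem ker_chartPt {u : F} {P : Place K F} (hV : HasValues P) (hP : u ∈ P.toValuationSubring) :
    RingHom.ker (chartPt hV hP) = chartPtIdeal hP := by
  ext b
  rw [RingHom.mem_ker, chartPtIdeal, Ideal.mem_comap]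
  exact evHom_eq_zero_iff hV (chartToValRing hP b)

theorem mem_ker_chartPt {u : F} {P : Place K F} (hV : HasValues P)
    (hP : u ∈ P.toValuationSubring) (b : chartRing (K := K) u) :
    b ∈ RingHom.ker (chartPt hV hP) ↔ (b : F) = 0 ∨ 0 < P.ord (b : F) := by
  rw [ker_chartPt, mem_chartPtIdeal]

/-- **(C2)** Distinct places give distinct points. -/
theorem chartPt_injective {u : F} [IsDedekindDomain (chartRing (K := K) u)]
    [IsFractionRing (chartRing (K := K) u) F] {P P' : Place K F} (hV : HasValues P)
    (hV' : HasValues P') (hP : u ∈ P.toValuationSubring) (hP' : u ∈ P'.toValuationSubring)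
    (h : chartPt hV hP = chartPt hV' hP') : P = P' := by
  have h1 : chartPtIdeal hP = chartPtIdeal hP' := by
    rw [← ker_chartPt hV hP, ← ker_chartPt hV' hP', h]
  have h2 : chartPrime hP = chartPrime hP' := HeightOneSpectrum.ext h1
  rw [← ofHeightOneSpectrum_chartPrime hP, ← ofHeightOneSpectrum_chartPrime hP', h2]

end Points

/-! ## Every point of the chart ring comes from a place -/

section AC

variable {K : Type u} {F : Type v} [Field K] [Field F] [Algebra K F] [IsAlgClosed K] [CharZero K]

/-- The kernel of a `K`-point of the chart ring of a transcendental `u` is not zero. -/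
theorem ker_ne_bot {u : F} (hu : Transcendental K u) (χ : chartRing (K := K) u →ₐ[K] K) :
    RingHom.ker χ ≠ ⊥ := by
  intro h
  have h1 : (⟨u, self_mem_chartRing u⟩ : chartRing (K := K) u)
      - algebraMap K (chartRing (K := K) u) (χ ⟨u, self_mem_chartRing u⟩) ∈ RingHom.ker χ := by
    rw [RingHom.mem_ker, map_sub, AlgHom.commutes, Algebra.algebraMap_self_apply, sub_self]
  rw [h, Ideal.mem_bot, sub_eq_zero] at h1
  have h2 : u = algebraMap K F (χ ⟨u, self_mem_chartRing u⟩) := congrArg Subtype.val h1
  apply hu
  rw [h2]
  exact isAlgebraic_algebraMap _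

/-- **(C2)** Every `K`-point of the chart ring of a transcendental `u` is the evaluation at a
place where `u` is regular. -/
theorem exists_chartPt_eq {u : F} (hu : Transcendental K u) [FiniteDimensional K⟮u⟯ F]
    (χ : chartRing (K := K) u →ₐ[K] K) :
    ∃ (P : Place K F) (hP : u ∈ P.toValuationSubring),
      χ = chartPt (hasValues_of_finite u P) hP := by
  haveI := isDedekindDomain_chartRing hu
  haveI := isFractionRing_chartRing hu
  have hsurj : Function.Surjective χ := fun c =>
    ⟨algebraMap K (chartRing (K := K) u) c, by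
      rw [AlgHom.commutes, Algebra.algebraMap_self_apply]⟩
  have hmax : (RingHom.ker χ).IsMaximal := RingHom.ker_isMaximal_of_surjective χ hsurj
  let w : HeightOneSpectrum (chartRing (K := K) u) := ⟨RingHom.ker χ, hmax.isPrime, ker_ne_bot hu χ⟩
  obtain ⟨P, hP, hw⟩ := exists_chartPrime_eq u w
  refine ⟨P, hP, (algHom_eq_of_ker_le _ _ ?_).symm⟩
  rw [ker_chartPt]
  have h1 : chartPtIdeal hP = RingHom.ker χ := congrArg HeightOneSpectrum.asIdeal hw
  rw [h1]

/-- **(C2)** Every `K`-point of the chart ring is the evaluation at a unique place. -/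
theorem existsUnique_chartPt_eq {u : F} (hu : Transcendental K u) [FiniteDimensional K⟮u⟯ F]
    (χ : chartRing (K := K) u →ₐ[K] K) :
    ∃! P : Place K F, ∃ hP : u ∈ P.toValuationSubring,
      χ = chartPt (hasValues_of_finite u P) hP := by
  haveI := isDedekindDomain_chartRing hu
  haveI := isFractionRing_chartRing hu
  obtain ⟨P, hP, h⟩ := exists_chartPt_eq hu χ
  refine ⟨P, ⟨hP, h⟩, ?_⟩
  rintro P' ⟨hP', h'⟩
  exact chartPt_injective _ _ hP' hP (h'.symm.trans h)

/-- **(C2)** Every maximal ideal of the chart ring is the kernel of a `K`-point. -/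
theorem exists_ker_eq_of_isMaximal {u : F} (hu : Transcendental K u) [FiniteDimensional K⟮u⟯ F]
    (Q : Ideal (chartRing (K := K) u)) (hQ : Q.IsMaximal) :
    ∃ χ : chartRing (K := K) u →ₐ[K] K, RingHom.ker χ = Q := by
  haveI := finiteType_chartRing hu
  exact exists_algHom_ker_eq Q hQ

/-- **(C2)** Every maximal ideal of the chart ring is the ideal of a place where `u` is
regular. -/
theorem exists_chartPtIdeal_eq_of_isMaximal {u : F} (hu : Transcendental K u)
    [FiniteDimensional K⟮u⟯ F] (Q : Ideal (chartRing (K := K) u)) (hQ : Q.IsMaximal) :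
    ∃ (P : Place K F) (hP : u ∈ P.toValuationSubring), Q = chartPtIdeal hP := by
  obtain ⟨χ, rfl⟩ := exists_ker_eq_of_isMaximal hu Q hQ
  obtain ⟨P, hP, h⟩ := exists_chartPt_eq hu χ
  exact ⟨P, hP, by rw [h, ker_chartPt]⟩

/-- **(B-LP)** for the chart ring. -/
theorem chart_exists_le_span_sup_sq {u : F} (hu : Transcendental K u) [FiniteDimensional K⟮u⟯ F]
    (Q : Ideal (chartRing (K := K) u)) (hQ : Q.IsMaximal) :
    ∃ π ∈ Q, Q ≤ Ideal.span {π} ⊔ Q ^ 2 := by
  haveI := isDedekindDomain_chartRing hu
  exact exists_le_span_sup_sq Q hQ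

end AC

/-! ## The order criterion for products of point ideals -/

section Order

open WithZero

/-- In a Dedekind domain, membership in a product of height-one primes (with repetitions) is
checked prime by prime. -/
theorem mem_prod_asIdeal_iff {R : Type*} [CommRing R] [IsDedekindDomain R] {ι : Type*}
    [Fintype ι] (w : ι → HeightOneSpectrum R) (b : R) :
    b ∈ ∏ i, (w i).asIdeal ↔ ∀ i, b ∈ (w i).asIdeal ^ Nat.card {j // w j = w i} := by
  classical
  have h2 := HeightOneSpectrum.inf_pow_eq_prod (Finset.univ.image w)
      (fun v => (Finset.univ.filter fun j => w j = v).card) id (fun i _ j _ hij => hij)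
  simp only [id] at h2
  rw [Finset.prod_comp (fun v : HeightOneSpectrum R => v.asIdeal) w, ← h2,
    Submodule.mem_finsetInf]
  have hcard : ∀ v : HeightOneSpectrum R,
      (Finset.univ.filter fun j => w j = v).card = Nat.card {j // w j = v} := fun v => by
    rw [Nat.card_eq_fintype_card, Fintype.card_subtype]
  constructor
  · intro h i
    have := h (w i) (Finset.mem_image_of_mem w (Finset.mem_univ i))
    simpa only [id, hcard] using this
  · intro h v hv
    obtain ⟨i, -, rfl⟩ := Finset.mem_image.mp hv
    simpa only [id, hcard] using h i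

variable {K : Type u} {F : Type v} [Field K] [Field F] [Algebra K F]

/-- The adic valuation of a place where `u` is regular, read off from the chart ring. -/
theorem adicValuation_eq_intValuation_chartPrime {u : F} {P : Place K F}
    (hP : u ∈ P.toValuationSubring) [IsDedekindDomain (chartRing (K := K) u)]
    [IsFractionRing (chartRing (K := K) u) F] (b : chartRing (K := K) u) :
    P.adicValuation (b : F) = (chartPrime hP).intValuation b := by
  have h1 := adicValuation_ofHeightOneSpectrum (K := K) (F := F) (chartPrime hP) (b : F)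
  rw [ofHeightOneSpectrum_chartPrime hP] at h1
  rw [h1]
  exact (chartPrime hP).valuation_of_algebraMap b

/-- Membership in a power of a point ideal, by the adic valuation. -/
theorem mem_chartPtIdeal_pow_iff {u : F} {P : Place K F}
    (hP : u ∈ P.toValuationSubring) [IsDedekindDomain (chartRing (K := K) u)]
    [IsFractionRing (chartRing (K := K) u) F] (b : chartRing (K := K) u) (n : ℕ) :
    b ∈ chartPtIdeal hP ^ n ↔ P.adicValuation (b : F) ≤ exp (-(n : ℤ)) := by
  rw [adicValuation_eq_intValuation_chartPrime hP, HeightOneSpectrum.intValuation_le_pow_iff_mem,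
    chartPrime_asIdeal]

/-- The multiplicity of a place in `sumDiv P`. -/
theorem sumDiv_apply {ι : Type*} [Fintype ι] (P : ι → Place K F) (Q : Place K F) :
    sumDiv P Q = (Nat.card {j // P j = Q} : ℤ) := by
  classical
  rw [sumDiv, Finsupp.finsetSum_apply, Nat.card_eq_fintype_card, Fintype.card_subtype]
  simp only [pt, Finsupp.single_apply]
  rw [Finset.sum_boole]

/-- **Order criterion.** A function of the chart ring lies in the product of the point ideals of
`P i` (repetitions allowed) iff it vanishes at every `P i` to the order of `∑ i, P i`. -/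
theorem mem_prod_chartPtIdeal_iff {u : F} [IsDedekindDomain (chartRing (K := K) u)]
    [IsFractionRing (chartRing (K := K) u) F] {ι : Type*} [Fintype ι] (P : ι → Place K F)
    (hP : ∀ i, u ∈ (P i).toValuationSubring) (b : chartRing (K := K) u) :
    b ∈ ∏ i, chartPtIdeal (hP i) ↔
      ∀ i, (P i).adicValuation (b : F) ≤ exp (-(sumDiv P (P i))) := by
  have h1 := mem_prod_asIdeal_iff (fun i => chartPrime (hP i)) b
  simp only [chartPrime_asIdeal] at h1
  rw [h1]
  refine forall_congr' fun i => ?_
  rw [mem_chartPtIdeal_pow_iff, sumDiv_apply]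
  have hc : Nat.card {j // chartPrime (hP j) = chartPrime (hP i)} = Nat.card {j // P j = P i} := by
    apply Nat.card_congr
    refine Equiv.subtypeEquivRight fun j => ?_
    constructor
    · intro h
      rw [← ofHeightOneSpectrum_chartPrime (hP j), ← ofHeightOneSpectrum_chartPrime (hP i), h]
    · intro h
      apply Fermat.Agent.S24.helper204.ofHeightOneSpectrum_injective (K := K) (F := F)
      rw [ofHeightOneSpectrum_chartPrime (hP j), ofHeightOneSpectrum_chartPrime (hP i), h]
  rw [hc]

/-- The order criterion in terms of `ord`. -/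
theorem mem_prod_chartPtIdeal_iff_ord {u : F} [IsDedekindDomain (chartRing (K := K) u)]
    [IsFractionRing (chartRing (K := K) u) F] {ι : Type*} [Fintype ι] (P : ι → Place K F)
    (hP : ∀ i, u ∈ (P i).toValuationSubring) (b : chartRing (K := K) u) :
    b ∈ ∏ i, chartPtIdeal (hP i) ↔
      ∀ i, (b : F) = 0 ∨ sumDiv P (P i) ≤ (P i).ord (b : F) := by
  rw [mem_prod_chartPtIdeal_iff]
  refine forall_congr' fun i => ?_
  rw [Place.adicValuation_le_exp_iff, neg_neg]

/-- The order criterion for the kernels of the points. -/
theorem mem_prod_ker_chartPt_iff {u : F} [IsDedekindDomain (chartRing (K := K) u)]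
    [IsFractionRing (chartRing (K := K) u) F] {ι : Type*} [Fintype ι] (P : ι → Place K F)
    (hV : ∀ i, HasValues (P i)) (hP : ∀ i, u ∈ (P i).toValuationSubring)
    (b : chartRing (K := K) u) :
    b ∈ ∏ i, RingHom.ker (chartPt (hV i) (hP i)) ↔
      ∀ i, (P i).adicValuation (b : F) ≤ exp (-(sumDiv P (P i))) := by
  simp only [ker_chartPt]
  exact mem_prod_chartPtIdeal_iff P hP b

end Order

end

end Fermat.Agent.S17.helper1585
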