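import Mathlib
import Fermat.Agent.S17.helper1585_ChartRing

/-!
# S17-G2-CHART-INST, part 4: chart coordinate, integrality, values (helper1585)

* `chartCoord u : chartRing u`: the chart coordinate `u` as an element of its chart ring.
* `isIntegral_adjoin_chartCoord`: the chart ring is integral over `K[chartCoord u]`
  (input of S17-G2-UNIV (U5) and of the `ℚ`-adapter of G2-ASM).
* `chartPt_chartCoord`, `chartPt_eq_ev_mul_pow`: the values of the chart coordinate and of the
  normalised sections `e * u ^ k` at a point of the chart.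
* `inv_mem_iff_ev_ne_zero`, `ev_inv_of_ev_ne_zero`: for `u = f⁻¹` with `f` regular at `P`, the
  place `P` is a point of the chart iff `f(P) ≠ 0`, and then `u(P) = f(P)⁻¹`.
-/

set_option autoImplicit false
set_option linter.style.haveILetI false
set_option linter.unusedSectionVars false

open AlgebraicCurve IsDedekindDomain IntermediateField

namespace Fermat.Agent.S17.helper1585

open Fermat.Agent.S17.helper3723 Fermat.Agent.S27.helper4586 Fermat.Agent.S27.helper6247

noncomputable section

universe u v

section Coord

variable {K : Type u} {F : Type v} [Field K] [Field F] [Algebra K F]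

/-- The chart coordinate `u` as an element of its chart ring. -/
def chartCoord (u : F) : chartRing (K := K) u := ⟨u, self_mem_chartRing u⟩

@[simp] theorem coe_chartCoord (u : F) :
    ((chartCoord (K := K) u : chartRing (K := K) u) : F) = u := rfl

/-- The value of the chart coordinate at a point of the chart. -/
theorem chartPt_chartCoord {u : F} {P : Place K F} (hV : HasValues P)
    (hP : u ∈ P.toValuationSubring) : chartPt hV hP (chartCoord (K := K) u) = ev P u := rfl

/-- The value at a point of the chart of a normalised section `e * u ^ k`, `e` regular at the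
point: the row scaling identity of the evaluation matrices. -/
theorem chartPt_eq_ev_mul_pow {u : F} {P : Place K F} (hV : HasValues P)
    (hP : u ∈ P.toValuationSubring) {e : F} (he : 0 ≤ P.ord e) (k : ℕ)
    (ψ : chartRing (K := K) u) (hψ : (ψ : F) = e * u ^ k) :
    chartPt hV hP ψ = ev P e * ev P u ^ k := by
  have hu : 0 ≤ P.ord u := (ord_nonneg_iff_mem P).mpr hP
  have huk : 0 ≤ P.ord (u ^ k) := (ord_nonneg_iff_mem P).mpr (pow_mem hP k)
  rw [chartPt_apply, hψ, ev_mul hV he huk, ev_pow hV hu k]

/-- For `f ≠ 0` regular at `P`: `f⁻¹` is regular at `P` iff `f(P) ≠ 0`. -/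
theorem inv_mem_iff_ev_ne_zero {P : Place K F} (hV : HasValues P) {f : F} (hf : 0 ≤ P.ord f)
    (hf0 : f ≠ 0) : f⁻¹ ∈ P.toValuationSubring ↔ ev P f ≠ 0 := by
  rw [← ord_nonneg_iff_mem, P.ord_inv, ev_ne_zero_iff hV hf]
  constructor
  · intro h
    exact ⟨hf0, by omega⟩
  · rintro ⟨-, h⟩
    omega

/-- For `f` regular at `P` with `f(P) ≠ 0`: `f⁻¹(P) = f(P)⁻¹`. -/
theorem ev_inv_of_ev_ne_zero {P : Place K F} (hV : HasValues P) {f : F} (hf : 0 ≤ P.ord f)
    (h : ev P f ≠ 0) : ev P f⁻¹ = (ev P f)⁻¹ :=
  ev_inv hV ((ev_ne_zero_iff hV hf).mp h).2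

/-- The unnormalised value `e(P)` from the value of the normalised section `e * u ^ k`, at a
point of the chart where `u` does not vanish (every point `≠ P0` of the chart of `u = 1 / f`):
`e(P) = (u(P)⁻¹) ^ k * ψ(P)`.  This is the hypothesis `hE` of the evaluation side of G2-ASM. -/
theorem ev_eq_inv_pow_mul_chartPt {u : F} {P : Place K F} (hV : HasValues P)
    (hP : u ∈ P.toValuationSubring) (hu0 : P.ord u = 0) (hune : u ≠ 0) {e : F}
    (he : 0 ≤ P.ord e) (k : ℕ) (ψ : chartRing (K := K) u) (hψ : (ψ : F) = e * u ^ k) :
    ev P e = (ev P u)⁻¹ ^ k * chartPt hV hP ψ := by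
  have hne : ev P u ≠ 0 := (ev_ne_zero_iff hV hu0.ge).mpr ⟨hune, hu0⟩
  rw [chartPt_eq_ev_mul_pow hV hP he k ψ hψ, inv_pow, mul_comm (ev P e), ← mul_assoc,
    inv_mul_cancel₀ (pow_ne_zero k hne), one_mul]

/-- The same with `f = u⁻¹`: `e(P) = f(P) ^ k * ψ(P)`. -/
theorem ev_eq_ev_inv_pow_mul_chartPt {u : F} {P : Place K F} (hV : HasValues P)
    (hP : u ∈ P.toValuationSubring) (hu0 : P.ord u = 0) (hune : u ≠ 0) {e : F}
    (he : 0 ≤ P.ord e) (k : ℕ) (ψ : chartRing (K := K) u) (hψ : (ψ : F) = e * u ^ k) :
    ev P e = ev P u⁻¹ ^ k * chartPt hV hP ψ := by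
  rw [ev_inv hV hu0]
  exact ev_eq_inv_pow_mul_chartPt hV hP hu0 hune he k ψ hψ

end Coord

section Integral

variable {K : Type u} {F : Type v} [Field K] [Field F] [Algebra K F] [IsAlgClosed K] [CharZero K]

/-- **(U5) input.** The chart ring of a transcendental `u` is integral over the subalgebra
generated by the chart coordinate. -/
theorem isIntegral_adjoin_chartCoord {u : F} (hu : Transcendental K u)
    [FiniteDimensional K⟮u⟯ F] (b : chartRing (K := K) u) :
    IsIntegral (Algebra.adjoin K (Set.range fun _ : Unit => chartCoord (K := K) u)) b := by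
  letI := chartAlgebra (K := K) u
  haveI := finite_chartRing hu
  have hb : IsIntegral (Algebra.adjoin K {u}) b := Algebra.IsIntegral.isIntegral b
  have h1 : (Algebra.adjoin K (Set.range fun _ : Unit => chartCoord (K := K) u)).map
      (chartRing (K := K) u).val = Algebra.adjoin K {u} := by
    rw [AlgHom.map_adjoin]
    congr 1
    ext y
    simp [chartCoord]
  have hmem : ∀ a : Algebra.adjoin K {u},
      Subalgebra.inclusion (adjoin_le_chartRing (K := K) u) a
        ∈ Algebra.adjoin K (Set.range fun _ : Unit => chartCoord (K := K) u) := by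
    intro a
    have ha : (a : F) ∈ (Algebra.adjoin K (Set.range fun _ : Unit => chartCoord (K := K) u)).map
        (chartRing (K := K) u).val := by
      rw [h1]
      exact a.2
    obtain ⟨y, hy, hya⟩ := ha
    have hEq : Subalgebra.inclusion (adjoin_le_chartRing (K := K) u) a = y :=
      Subtype.ext hya.symm
    rw [hEq]
    exact hy
  let φ : Algebra.adjoin K {u} →+*
      Algebra.adjoin K (Set.range fun _ : Unit => chartCoord (K := K) u) :=
    ((Subalgebra.inclusion (adjoin_le_chartRing (K := K) u)).codRestrict _ hmem).toRingHom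
  exact IsIntegral.map_of_comp_eq φ (RingHom.id _) rfl hb

/-- The same with the generating set spelled as a singleton. -/
theorem isIntegral_adjoin_singleton_chartCoord {u : F} (hu : Transcendental K u)
    [FiniteDimensional K⟮u⟯ F] (b : chartRing (K := K) u) :
    IsIntegral (Algebra.adjoin K ({chartCoord (K := K) u} : Set (chartRing (K := K) u))) b := by
  have h := isIntegral_adjoin_chartCoord hu b
  rwa [Set.range_const] at h

/-- The same statement with the chart coordinate spelled as an anonymous constructor
(the shape requested by the track (A) wiring, chat #316 (P3)). -/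
theorem isIntegral_chartRing_adjoin {u : F} (hu : Transcendental K u) [FiniteDimensional K⟮u⟯ F]
    (b : chartRing (K := K) u) :
    IsIntegral (Algebra.adjoin K (Set.range fun _ : Unit =>
      (⟨u, Fermat.Agent.S17.helper3723.self_mem_chartRing u⟩ : chartRing (K := K) u))) b :=
  isIntegral_adjoin_chartCoord hu b

end Integral

end

end Fermat.Agent.S17.helper1585
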