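import Mathlib
import Fermat.Agent.S17.helper1585_ChartRing

/-!
# S17-G2-CHART-INST, part 2: Riemann on a chart, **(B-SPAN)** (helper1585)

`P0` a place, `u : F` a function with a zero of exact order `n0` at `P0` and no other zero
(consumer: `u = 1 / f` for `f` with a pole of exact order `n0` at `P0` and no other pole).
For `e s ∈ L(k n0 P0)` the functions `ψ s = e s * u ^ k` lie in the chart ring of `u`, and if the
`e s` span `L(k n0 P0)` then for every tuple of `d` points of the chart (repetitions and `P0`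
allowed) with `k n0 - d` at least the Riemann constant the classes of the `ψ s` span
`chartRing u ⧸ ∏ i, ker (χ i)`.

No dimension count: `L(m P0 - D)` nonspecial means `A = A(m P0 - D) + F`, and the repartition
equal to `b / u ^ k` at the points of `D` and `0` elsewhere is decomposed.
-/

set_option autoImplicit false
set_option linter.style.haveILetI false
set_option linter.unusedSectionVars false

open AlgebraicCurve IsDedekindDomain IntermediateField WithZero

namespace Fermat.Agent.S17.helper1585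

open Fermat.Agent.S17.helper3723 Fermat.Agent.S27.helper4586 Fermat.Agent.S27.helper6247

noncomputable section

universe u v

section Core

variable {K : Type u} {F : Type v} [Field K] [Field F] [Algebra K F]

theorem mem_of_adicValuation_le_one (Q : Place K F) {g : F} (h : Q.adicValuation g ≤ 1) :
    g ∈ Q.toValuationSubring := by
  rcases Q.adicValuation_le_one_iff.mp h with rfl | h0
  · exact zero_mem _
  · exact (Fermat.Agent.S24.helper204.ord_nonneg_iff Q).mp h0

/-- The valuation of `u ^ k` at a point of the chart of `u`, for `u` with a zero of order `n0`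
at `P0` and no other zero. -/
theorem adicValuation_pow_chart (P0 : Place K F) {u : F} {n0 : ℤ} (hu0 : u ≠ 0)
    (hord : P0.ord u = n0) (hoff : ∀ Q : Place K F, Q ≠ P0 → Q.ord u ≤ 0) (k : ℕ)
    (Q : Place K F) (hQ : u ∈ Q.toValuationSubring) :
    Q.adicValuation u ^ k = exp (-(Finsupp.single P0 ((k : ℤ) * n0) Q)) := by
  rw [Q.adicValuation_eq_exp_neg_ord hu0, ← exp_nsmul]
  congr 1
  by_cases hQ0 : Q = P0
  · subst hQ0
    rw [Finsupp.single_eq_same, hord]
    simp
  · have h1 : 0 ≤ Q.ord u := (Fermat.Agent.S24.helper204.ord_nonneg_iff Q).mpr hQ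
    have h2 : Q.ord u = 0 := le_antisymm (hoff Q hQ0) h1
    rw [Finsupp.single_eq_of_ne hQ0, h2]
    simp

/-- **Riemann on a chart, core.** If `k n0 P0 - ∑ P i` is nonspecial, every function of the
chart ring is congruent modulo `∏ i, ker (χ_{P i})` to `s * u ^ k` for some `s ∈ L(k n0 P0)`. -/
theorem exists_sub_mem_prod_ker (P0 : Place K F) {u : F} {n0 : ℤ} (hu0 : u ≠ 0)
    (hord : P0.ord u = n0) (hoff : ∀ Q : Place K F, Q ≠ P0 → Q.ord u ≤ 0)
    [IsDedekindDomain (chartRing (K := K) u)] [IsFractionRing (chartRing (K := K) u) F]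
    (k : ℕ) {ι : Type*} [Fintype ι] (P : ι → Place K F) (hV : ∀ i, HasValues (P i))
    (hP : ∀ i, u ∈ (P i).toValuationSubring)
    (hns : IsNonspecial (Finsupp.single P0 ((k : ℤ) * n0) - sumDiv P))
    (b : chartRing (K := K) u) :
    ∃ s ∈ riemannRochSpace (Finsupp.single P0 ((k : ℤ) * n0)),
      ∃ hs : s * u ^ k ∈ chartRing (K := K) u,
        b - ⟨s * u ^ k, hs⟩ ∈ ∏ i, RingHom.ker (chartPt (hV i) (hP i)) := by
  classical
  have huk : u ^ k ≠ 0 := pow_ne_zero k hu0
  -- the repartition `b / u ^ k` at the points, `0` elsewhere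
  let r : ↥(repartitions K F) :=
    ⟨fun Q => if ∃ i, P i = Q then (b : F) * (u ^ k)⁻¹ else 0,
      mem_repartitions_of_finite_ord ((Set.finite_range P).subset fun Q hQ => by
        by_contra hne
        have hne' : ¬ ∃ i, P i = Q := hne
        have hQ' : Q.ord (if ∃ i, P i = Q then (b : F) * (u ^ k)⁻¹ else 0) < 0 := hQ
        rw [if_neg hne', Place.ord_zero] at hQ'
        exact lt_irrefl _ hQ')⟩
  have hr : r ∈ repartitionsOf (Finsupp.single P0 ((k : ℤ) * n0) - sumDiv P)
      ⊔ principalRepartitions K F := by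
    have h := hns
    unfold IsNonspecial at h
    rw [h]
    exact Submodule.mem_top
  obtain ⟨a, ha, p, hp, hap⟩ := Submodule.mem_sup.mp hr
  obtain ⟨s, hs⟩ := mem_principalRepartitions_iff.mp hp
  have haE : ∀ Q : Place K F, Q.adicValuation ((a : Place K F → F) Q)
      ≤ exp ((Finsupp.single P0 ((k : ℤ) * n0) - sumDiv P) Q) := ha
  have hval : ∀ Q : Place K F,
      (a : Place K F → F) Q + s = if ∃ i, P i = Q then (b : F) * (u ^ k)⁻¹ else 0 := by
    intro Q
    have h1 : ((a + p : ↥(repartitions K F)) : Place K F → F) Q = (r : Place K F → F) Q := by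
      rw [hap]
    rw [Subalgebra.coe_add, Pi.add_apply, hs] at h1
    exact h1
  have hD0 : ∀ Q : Place K F, 0 ≤ sumDiv P Q := fun Q => by
    rw [sumDiv_apply]
    exact Int.natCast_nonneg _
  have haE' : ∀ Q : Place K F, Q.adicValuation ((a : Place K F → F) Q)
      ≤ exp (Finsupp.single P0 ((k : ℤ) * n0) Q) := fun Q =>
    (haE Q).trans (exp_le_exp.mpr (by
      rw [Finsupp.sub_apply]
      have := hD0 Q
      omega))
  have hb1 : ∀ Q : Place K F, u ∈ Q.toValuationSubring → Q.adicValuation (b : F) ≤ 1 :=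
    fun Q hQ => Q.adicValuation_le_one_of_mem (b.2 Q hQ)
  have hupow := adicValuation_pow_chart P0 hu0 hord hoff k
  -- Claim 1: `s ∈ L(k n0 P0)`
  have hsL : ∀ Q : Place K F, Q.adicValuation s ≤ exp (Finsupp.single P0 ((k : ℤ) * n0) Q) := by
    intro Q
    have hs' : s = (if ∃ i, P i = Q then (b : F) * (u ^ k)⁻¹ else 0) - (a : Place K F → F) Q := by
      rw [← hval Q]; ring
    rw [hs']
    refine (Valuation.map_sub _ _ _).trans (max_le ?_ (haE' Q))
    split_ifs with hi
    · obtain ⟨i, rfl⟩ := hi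
      rw [map_mul, map_inv₀, map_pow, hupow (P i) (hP i), exp_neg, inv_inv]
      exact mul_le_of_le_one_left' (hb1 (P i) (hP i))
    · rw [map_zero]
      exact zero_le
  -- Claim 2: `s * u ^ k` lies in the chart ring
  have hsu : s * u ^ k ∈ chartRing (K := K) u := by
    intro Q hQ
    apply mem_of_adicValuation_le_one
    rw [map_mul, map_pow, hupow Q hQ, exp_neg]
    calc Q.adicValuation s * (exp (Finsupp.single P0 ((k : ℤ) * n0) Q))⁻¹
        ≤ exp (Finsupp.single P0 ((k : ℤ) * n0) Q) * (exp (Finsupp.single P0 ((k : ℤ) * n0) Q))⁻¹ :=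
          mul_le_mul_left (hsL Q) _
      _ = 1 := mul_inv_cancel₀ exp_ne_zero
  refine ⟨s, hsL, hsu, ?_⟩
  -- Claim 3: the difference vanishes to the order of `∑ P i`
  rw [mem_prod_ker_chartPt_iff]
  intro i
  have h1 := hval (P i)
  rw [if_pos ⟨i, rfl⟩] at h1
  have h2 : ((b - ⟨s * u ^ k, hsu⟩ : chartRing (K := K) u) : F)
      = (a : Place K F → F) (P i) * u ^ k := by
    show (b : F) - s * u ^ k = _
    have h3 : (b : F) = ((a : Place K F → F) (P i) + s) * u ^ k := by
      rw [h1, mul_assoc, inv_mul_cancel₀ huk, mul_one]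
    rw [h3]; ring
  rw [h2, map_mul, map_pow, hupow (P i) (hP i)]
  calc (P i).adicValuation ((a : Place K F → F) (P i))
        * exp (-(Finsupp.single P0 ((k : ℤ) * n0) (P i)))
      ≤ exp ((Finsupp.single P0 ((k : ℤ) * n0) - sumDiv P) (P i))
        * exp (-(Finsupp.single P0 ((k : ℤ) * n0) (P i))) := mul_le_mul_left (haE (P i)) _
    _ = exp (-(sumDiv P (P i))) := by
        rw [← exp_add, Finsupp.sub_apply]
        congr 1
        ring

/-- For `u` with a zero of order `n0` at `P0` and no other zero, `L(k n0 P0) * u ^ k` lies in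
the chart ring of `u`. -/
theorem mul_pow_mem_chartRing (P0 : Place K F) {u : F} {n0 : ℤ} (hu0 : u ≠ 0)
    (hord : P0.ord u = n0) (hoff : ∀ Q : Place K F, Q ≠ P0 → Q.ord u ≤ 0) (k : ℕ) {s : F}
    (hs : s ∈ riemannRochSpace (Finsupp.single P0 ((k : ℤ) * n0))) :
    s * u ^ k ∈ chartRing (K := K) u := by
  intro Q hQ
  have hsL : Q.adicValuation s ≤ exp (Finsupp.single P0 ((k : ℤ) * n0) Q) := hs Q
  apply mem_of_adicValuation_le_one
  rw [map_mul, map_pow, adicValuation_pow_chart P0 hu0 hord hoff k Q hQ, exp_neg]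
  calc Q.adicValuation s * (exp (Finsupp.single P0 ((k : ℤ) * n0) Q))⁻¹
      ≤ exp (Finsupp.single P0 ((k : ℤ) * n0) Q) * (exp (Finsupp.single P0 ((k : ℤ) * n0) Q))⁻¹ :=
        mul_le_mul_left hsL _
    _ = 1 := mul_inv_cancel₀ exp_ne_zero

/-- **Riemann on a chart, spanning form.** If `k n0 P0 - ∑ P i` is nonspecial and the `e s`
span `L(k n0 P0)`, the classes of `ψ s = e s * u ^ k` span `chartRing u ⧸ ∏ i, ker (χ_{P i})`. -/
theorem span_quotient_eq_top_of_nonspecial (P0 : Place K F) {u : F} {n0 : ℤ} (hu0 : u ≠ 0)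
    (hord : P0.ord u = n0) (hoff : ∀ Q : Place K F, Q ≠ P0 → Q.ord u ≤ 0)
    [IsDedekindDomain (chartRing (K := K) u)] [IsFractionRing (chartRing (K := K) u) F]
    (k : ℕ) {ι : Type*} [Fintype ι] (P : ι → Place K F) (hV : ∀ i, HasValues (P i))
    (hP : ∀ i, u ∈ (P i).toValuationSubring)
    (hns : IsNonspecial (Finsupp.single P0 ((k : ℤ) * n0) - sumDiv P))
    {σ : Type*} (e : σ → F)
    (hspan : riemannRochSpace (Finsupp.single P0 ((k : ℤ) * n0)) ≤ Submodule.span K (Set.range e))
    (ψ : σ → chartRing (K := K) u) (hψ : ∀ s, (ψ s : F) = e s * u ^ k)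
    (b : chartRing (K := K) u) :
    ∃ g ∈ Submodule.span K (Set.range ψ),
      b - g ∈ ∏ i, RingHom.ker (chartPt (hV i) (hP i)) := by
  obtain ⟨s, hsL, hsu, hmem⟩ := exists_sub_mem_prod_ker P0 hu0 hord hoff k P hV hP hns b
  refine ⟨⟨s * u ^ k, hsu⟩, ?_, hmem⟩
  have h1 : s * u ^ k ∈ Submodule.span K (Set.range fun j => (ψ j : F)) := by
    have h3 : (fun j => (ψ j : F)) = (LinearMap.mulRight K (u ^ k)) ∘ e := by
      funext j
      rw [hψ j]
      rfl
    rw [h3, Set.range_comp, ← Submodule.map_span]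
    exact Submodule.mem_map_of_mem (hspan hsL)
  have h2 : Submodule.span K (Set.range fun j => (ψ j : F))
      = Submodule.map (chartRing (K := K) u).val.toLinearMap (Submodule.span K (Set.range ψ)) := by
    rw [Submodule.map_span, ← Set.range_comp]
    rfl
  rw [h2] at h1
  obtain ⟨y, hy, hyx⟩ := h1
  have hyeq : y = ⟨s * u ^ k, hsu⟩ := Subtype.ext hyx
  rw [← hyeq]
  exact hy

end Core

/-! ## The final form: **(B-SPAN)** for every tuple of `K`-points of the chart -/

section Final

variable {K : Type u} {F : Type v} [Field K] [Field F] [Algebra K F] [IsAlgClosed K] [CharZero K]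

/-- The degree of `m P0 - ∑ P i`. -/
theorem degree_single_sub_sumDiv (x : F) (hx : Transcendental K x) [FiniteDimensional K⟮x⟯ F]
    (P0 : Place K F) (m : ℤ) {d : ℕ} (P : Fin d → Place K F) :
    Divisor.degree (Finsupp.single P0 m - sumDiv P) = m - d := by
  have hdeg : ∀ Q : Place K F, Q.deg = 1 :=
    fun Q => Fermat.Agent.S24.helper204.place_deg_eq_one x hx Q
  rw [map_sub, Divisor.degree_single, hdeg P0, sumDiv, map_sum]
  simp only [pt, Divisor.degree_single, hdeg]
  simp

/-- **(B-SPAN), congruence form.** There is a constant `c` (the Riemann constant of `F`) such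
that: for every place `P0`, every transcendental `u` with a zero of exact order `n0` at `P0` and
no other zero, all `k`, `d` with `c ≤ k n0 - d`, every `d`-tuple `χ` of `K`-points of the chart
ring of `u` (repetitions allowed, the point `P0` allowed), every family `e` spanning
`L(k n0 P0)`: every function of the chart ring is congruent modulo `∏ i, ker (χ i)` to a
`K`-combination of the `ψ s = e s * u ^ k`. -/
theorem exists_chart_span_congr (x : F) (hx : Transcendental K x) [FiniteDimensional K⟮x⟯ F] :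
    ∃ c : ℤ, ∀ (P0 : Place K F) (u : F) (n0 : ℤ), Transcendental K u → P0.ord u = n0 →
      (∀ Q : Place K F, Q ≠ P0 → Q.ord u ≤ 0) → ∀ k d : ℕ, c ≤ (k : ℤ) * n0 - d →
      ∀ (χ : Fin d → chartRing (K := K) u →ₐ[K] K) {σ : Type*} (e : σ → F),
      riemannRochSpace (Finsupp.single P0 ((k : ℤ) * n0)) ≤ Submodule.span K (Set.range e) →
      ∀ ψ : σ → chartRing (K := K) u, (∀ s, (ψ s : F) = e s * u ^ k) →
      ∀ b : chartRing (K := K) u,
        ∃ g ∈ Submodule.span K (Set.range ψ), b - g ∈ ∏ i, RingHom.ker (χ i) := by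
  obtain ⟨c, hc⟩ := (riemann K F x hx).2.2
  refine ⟨c, ?_⟩
  intro P0 u n0 hu hord hoff k d hcd χ σ e hspan ψ hψ b
  haveI : FiniteDimensional K⟮u⟯ F :=
    Fermat.Agent.S24.helper204.finiteDimensional_adjoin_of_transcendental (x := x) hu
  haveI := isDedekindDomain_chartRing hu
  haveI := isFractionRing_chartRing hu
  have hu0 : u ≠ 0 := by
    rintro rfl
    exact hu (isAlgebraic_zero)
  choose P hP hχ using fun i => exists_chartPt_eq hu (χ i)
  have hns : IsNonspecial (Finsupp.single P0 ((k : ℤ) * n0) - sumDiv P) := by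
    apply hc
    rw [degree_single_sub_sumDiv x hx]
    exact hcd
  obtain ⟨g, hg, hmem⟩ := span_quotient_eq_top_of_nonspecial P0 hu0 hord hoff k P
    (fun i => hasValues_of_finite u (P i)) hP hns e hspan ψ hψ b
  refine ⟨g, hg, ?_⟩
  have hprod : ∏ i, RingHom.ker (χ i)
      = ∏ i, RingHom.ker (chartPt (hasValues_of_finite u (P i)) (hP i)) :=
    Finset.prod_congr rfl fun i _ => by rw [← hχ i]
  rw [hprod]
  exact hmem

/-- **(B-SPAN), quotient form**: the classes of the `ψ s = e s * u ^ k` span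
`chartRing u ⧸ ∏ i, ker (χ i)` over `K`. -/
theorem exists_chart_span (x : F) (hx : Transcendental K x) [FiniteDimensional K⟮x⟯ F] :
    ∃ c : ℤ, ∀ (P0 : Place K F) (u : F) (n0 : ℤ), Transcendental K u → P0.ord u = n0 →
      (∀ Q : Place K F, Q ≠ P0 → Q.ord u ≤ 0) → ∀ k d : ℕ, c ≤ (k : ℤ) * n0 - d →
      ∀ (χ : Fin d → chartRing (K := K) u →ₐ[K] K) {σ : Type*} (e : σ → F),
      riemannRochSpace (Finsupp.single P0 ((k : ℤ) * n0)) ≤ Submodule.span K (Set.range e) →
      ∀ ψ : σ → chartRing (K := K) u, (∀ s, (ψ s : F) = e s * u ^ k) →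
        Submodule.span K (Set.range fun s =>
          Ideal.Quotient.mk (∏ i, RingHom.ker (χ i)) (ψ s)) = ⊤ := by
  obtain ⟨c, hc⟩ := exists_chart_span_congr x hx
  refine ⟨c, ?_⟩
  intro P0 u n0 hu hord hoff k d hcd χ σ e hspan ψ hψ
  rw [eq_top_iff]
  intro y _
  obtain ⟨b, rfl⟩ := Ideal.Quotient.mk_surjective y
  obtain ⟨g, hg, hmem⟩ := hc P0 u n0 hu hord hoff k d hcd χ e hspan ψ hψ b
  have h1 : Ideal.Quotient.mk (∏ i, RingHom.ker (χ i)) b
      = Ideal.Quotient.mk (∏ i, RingHom.ker (χ i)) g := by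
    rw [Ideal.Quotient.eq]
    exact hmem
  rw [h1]
  have h2 := Submodule.apply_mem_span_image_of_mem_span
    (Ideal.Quotient.mkₐ K (∏ i, RingHom.ker (χ i))).toLinearMap hg
  rw [← Set.range_comp] at h2
  exact h2

end Final

end

end Fermat.Agent.S17.helper1585
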