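/-
S17 (helper1695): one-point local principality of the kernel of an `R`-point of a curve algebra.

Mathlib-only, spec-independent.  Setting: `K` a field, `B`, `R` commutative `K`-algebras, `S` a
commutative `R`-algebra generated over `R` by the image of `i : B →ₐ[K] S` (consumer:
`S = R ⊗[K] B`), `σ : S →ₐ[R] R` an `R`-point, `m` a maximal ideal of `R` with residue field `K`.
If the reduced point `p = {b | σ (i b) ∈ m}` has a uniformizer `t0` (`p ≤ span {t0} ⊔ p ^ 2`) and
`ker σ` is finitely generated, then `ker σ` is generated by `i t0 - σ (i t0)` near the maximal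
ideal `comap σ m` of `S`: there is `w` with `σ w ∉ m` and `w * ker σ ⊆ (i t0 - σ (i t0))`.
-/
import Mathlib

set_option autoImplicit false
set_option linter.unusedSectionVars false

namespace Fermat.Agent.S17.helper1695

section Core

variable {K B R S : Type*} [Field K] [CommRing B] [Algebra K B] [CommRing R] [Algebra K R]
  [CommRing S] [Algebra R S] [Algebra K S] [IsScalarTower K R S]

/-- The difference map `b ↦ i b - σ (i b)` (the image of `b ⊗ 1 - 1 ⊗ b`). -/
def delta (i : B →ₐ[K] S) (σ : S →ₐ[R] R) (b : B) : S := i b - algebraMap R S (σ (i b))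

variable (i : B →ₐ[K] S) (σ : S →ₐ[R] R)

@[simp]
theorem sigma_delta (b : B) : σ (delta i σ b) = 0 := by
  simp [delta]

theorem delta_mem_ker (b : B) : delta i σ b ∈ RingHom.ker σ := by
  rw [RingHom.mem_ker]
  exact sigma_delta i σ b

theorem delta_add (a b : B) : delta i σ (a + b) = delta i σ a + delta i σ b := by
  simp only [delta, map_add]
  ring

theorem delta_sub (a b : B) : delta i σ (a - b) = delta i σ a - delta i σ b := by
  simp only [delta, map_sub]
  ring

theorem delta_algebraMap (c : K) : delta i σ (algebraMap K B c) = 0 := by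
  simp only [delta, AlgHom.commutes]
  rw [IsScalarTower.algebraMap_apply K R S, AlgHom.commutes]
  simp

theorem delta_mul (a b : B) :
    delta i σ (a * b) = delta i σ a * delta i σ b + algebraMap R S (σ (i a)) * delta i σ b
      + algebraMap R S (σ (i b)) * delta i σ a := by
  simp only [delta, map_mul]
  ring

/-- Every element differs from its value by an element of the ideal spanned by the `delta b`. -/
theorem sub_algebraMap_mem_span (hgen : Algebra.adjoin R (Set.range i) = ⊤) (x : S) :
    x - algebraMap R S (σ x) ∈ Ideal.span (Set.range (delta i σ)) := by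
  have hx : x ∈ Algebra.adjoin R (Set.range i) := by rw [hgen]; trivial
  induction hx using Algebra.adjoin_induction with
  | mem x hx =>
    obtain ⟨b, rfl⟩ := hx
    exact Ideal.subset_span ⟨b, rfl⟩
  | algebraMap r => simp
  | add x y _ _ hx hy =>
    have : x + y - algebraMap R S (σ (x + y))
        = (x - algebraMap R S (σ x)) + (y - algebraMap R S (σ y)) := by
      simp only [map_add]; ring
    rw [this]
    exact Ideal.add_mem _ hx hy
  | mul x y _ _ hx hy =>
    have : x * y - algebraMap R S (σ (x * y))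
        = (x - algebraMap R S (σ x)) * y + algebraMap R S (σ x) * (y - algebraMap R S (σ y)) := by
      simp only [map_mul]; ring
    rw [this]
    exact Ideal.add_mem _ (Ideal.mul_mem_right _ _ hx) (Ideal.mul_mem_left _ _ hy)

/-- The kernel of the `R`-point `σ` is spanned by the differences `delta b`. -/
theorem ker_eq_span_delta (hgen : Algebra.adjoin R (Set.range i) = ⊤) :
    RingHom.ker σ = Ideal.span (Set.range (delta i σ)) := by
  apply le_antisymm
  · intro x hx
    rw [RingHom.mem_ker] at hx
    have := sub_algebraMap_mem_span i σ hgen x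
    rwa [hx, map_zero, sub_zero] at this
  · rw [Ideal.span_le]
    rintro _ ⟨b, rfl⟩
    exact delta_mem_ker i σ b

/-- **One-point local principality from a uniformizer.**  Let `σ : S →ₐ[R] R` be an `R`-point of
an `R`-algebra `S` generated by the image of `i : B →ₐ[K] S`, let `m` be a maximal ideal of `R`
with residue field `K`, and let `p` be the reduced point (`b ∈ p ↔ σ (i b) ∈ m`).  If `ker σ` is
finitely generated and `t0 ∈ p` is a uniformizer at `p` (`p ≤ span {t0} ⊔ p ^ 2`), then there is
`w : S` with `σ w ∉ m` such that `w * x` is a multiple of `delta i σ t0 = i t0 - σ (i t0)` for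
every `x ∈ ker σ`. -/
theorem exists_local_generator (hgen : Algebra.adjoin R (Set.range i) = ⊤)
    (hfg : (RingHom.ker σ).FG) (m : Ideal R) [hm : m.IsMaximal]
    (hres : ∀ r : R, ∃ c : K, r - algebraMap K R c ∈ m)
    (p : Ideal B) (hp : ∀ b : B, b ∈ p ↔ σ (i b) ∈ m)
    (t0 : B) (ht0 : t0 ∈ p) (hunif : p ≤ Ideal.span {t0} ⊔ p ^ 2) :
    ∃ w : S, σ w ∉ m ∧ ∀ x : S, σ x = 0 → ∃ c : S, w * x = delta i σ t0 * c := by
  classical
  set J : Ideal S := RingHom.ker σ with hJ
  set t : S := delta i σ t0 with ht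
  set q : Ideal S := J ⊔ m.map (algebraMap R S) with hq
  -- `q` lies over `m`
  have hq_le : ∀ x ∈ q, σ x ∈ m := by
    intro x hx
    have hle : q ≤ Ideal.comap (σ : S →+* R) m := by
      refine sup_le ?_ ?_
      · intro y hy
        rw [Ideal.mem_comap]
        have : σ y = 0 := hy
        simp [this]
      · rw [Ideal.map_le_iff_le_comap]
        intro r hr
        simpa [Ideal.mem_comap] using hr
    exact hle hx
  have hmap : ∀ b ∈ p, algebraMap R S (σ (i b)) ∈ q := fun b hb =>
    Ideal.mem_sup_right (Ideal.mem_map_of_mem _ ((hp b).mp hb))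
  have hdJ : ∀ b : B, delta i σ b ∈ J := fun b => delta_mem_ker i σ b
  have hdq : ∀ b : B, delta i σ b ∈ q := fun b => Ideal.mem_sup_left (hdJ b)
  -- key containment
  have hmul : ∀ x ∈ p, ∀ y ∈ p, delta i σ (x * y) ∈ Ideal.span {t} ⊔ q * J := by
    intro x hx y hy
    rw [delta_mul]
    refine Ideal.mem_sup_right ?_
    refine Ideal.add_mem _ (Ideal.add_mem _ ?_ ?_) ?_
    · exact Ideal.mul_mem_mul (hdq x) (hdJ y)
    · exact Ideal.mul_mem_mul (hmap x hx) (hdJ y)
    · exact Ideal.mul_mem_mul (hmap y hy) (hdJ x)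
  have hsq : ∀ u ∈ p ^ 2, delta i σ u ∈ Ideal.span {t} ⊔ q * J := by
    intro u hu
    rw [pow_two] at hu
    refine Submodule.mul_induction_on hu (fun x hx y hy => hmul x hx y hy) ?_
    intro x y hx hy
    rw [delta_add]
    exact Ideal.add_mem _ hx hy
  have hp_all : ∀ b ∈ p, delta i σ b ∈ Ideal.span {t} ⊔ q * J := by
    intro b hb
    have hb' := hunif hb
    rw [Ideal.mem_span_singleton_sup] at hb'
    obtain ⟨a, u, hu, rfl⟩ := hb'
    rw [delta_add]
    refine Ideal.add_mem _ ?_ (hsq u hu)
    rw [delta_mul]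
    refine Ideal.add_mem _ (Ideal.add_mem _ ?_ ?_) ?_
    · exact Ideal.mem_sup_left (Ideal.mul_mem_left _ _ (Ideal.mem_span_singleton_self t))
    · exact Ideal.mem_sup_left (Ideal.mul_mem_left _ _ (Ideal.mem_span_singleton_self t))
    · exact Ideal.mem_sup_right (Ideal.mul_mem_mul (hmap t0 ht0) (hdJ a))
  have hkey : ∀ b : B, delta i σ b ∈ Ideal.span {t} ⊔ q * J := by
    intro b
    obtain ⟨c, hc⟩ := hres (σ (i b))
    have hbc : b - algebraMap K B c ∈ p := by
      rw [hp, map_sub, map_sub, AlgHom.commutes, IsScalarTower.algebraMap_apply K R S,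
        AlgHom.commutes]
      simpa using hc
    have := hp_all _ hbc
    rwa [delta_sub, delta_algebraMap, sub_zero] at this
  have hJle : J ≤ Ideal.span {t} ⊔ q * J := by
    have h1 : Ideal.span (Set.range (delta i σ)) ≤ Ideal.span {t} ⊔ q * J :=
      Ideal.span_le.mpr (by rintro _ ⟨b, rfl⟩; exact hkey b)
    have h2 : J = Ideal.span (Set.range (delta i σ)) := ker_eq_span_delta i σ hgen
    rw [h2] at h1 ⊢
    exact h1
  -- Nakayama on `S ⧸ (t)`
  let I0 : Submodule S S := Ideal.span {t}
  let N : Submodule S (S ⧸ I0) := Submodule.map I0.mkQ J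
  have hN : N.FG := Submodule.FG.map _ hfg
  have hin : N ≤ q • N := by
    rintro _ ⟨x, hx, rfl⟩
    have hx' := hJle hx
    obtain ⟨a, ha, b, hb, rfl⟩ := Submodule.mem_sup.mp hx'
    have ha0 : I0.mkQ a = 0 := by
      rw [Submodule.mkQ_apply, Submodule.Quotient.mk_eq_zero]
      exact ha
    rw [map_add, ha0, zero_add]
    have : I0.mkQ b ∈ Submodule.map I0.mkQ (q • (J : Submodule S S)) :=
      Submodule.mem_map_of_mem (by rwa [Ideal.smul_eq_mul])
    rwa [Submodule.map_smul''] at this
  obtain ⟨w, hw1, hw2⟩ :=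
    Submodule.exists_sub_one_mem_and_smul_eq_zero_of_fg_of_le_smul q N hN hin
  refine ⟨w, ?_, ?_⟩
  · intro hw
    have h1 : σ (w - 1) ∈ m := hq_le _ hw1
    have h2 : (1 : R) ∈ m := by
      have := Ideal.sub_mem m hw h1
      simpa using this
    exact hm.ne_top ((Ideal.eq_top_iff_one m).mpr h2)
  · intro x hx
    have hxN : I0.mkQ x ∈ N := Submodule.mem_map_of_mem (RingHom.mem_ker.mpr hx)
    have h0 := hw2 _ hxN
    rw [← map_smul, Submodule.mkQ_apply, Submodule.Quotient.mk_eq_zero, smul_eq_mul] at h0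
    obtain ⟨c, hc⟩ := Ideal.mem_span_singleton'.mp h0
    exact ⟨c, by rw [← hc, mul_comm]⟩

end Core

section Adapters

variable {K B R S : Type*} [Field K] [CommRing B] [Algebra K B] [CommRing R] [Algebra K R]
  [CommRing S] [Algebra R S] [Algebra K S] [IsScalarTower K R S]

/-- **Residue fields of a finite type algebra over an algebraically closed field.** -/
theorem exists_sub_algebraMap_mem_of_finiteType [IsAlgClosed K] [Algebra.FiniteType K R]
    (m : Ideal R) [m.IsMaximal] (r : R) : ∃ c : K, r - algebraMap K R c ∈ m := by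
  let _ : Field (R ⧸ m) := Ideal.Quotient.field m
  have : Algebra.FiniteType K (R ⧸ m) :=
    Algebra.FiniteType.of_surjective (Ideal.Quotient.mkₐ K m) (Ideal.Quotient.mkₐ_surjective K m)
  have : Module.Finite K (R ⧸ m) := finite_of_finite_type_of_isJacobsonRing K (R ⧸ m)
  have hbij := IsAlgClosed.algebraMap_bijective_of_isIntegral (k := K) (K := R ⧸ m)
  obtain ⟨c, hc⟩ := hbij.2 (Ideal.Quotient.mk m r)
  refine ⟨c, ?_⟩
  rw [← Ideal.Quotient.eq, ← hc]
  rfl

/-- **Uniformizers in a Dedekind domain**: a maximal ideal `p` is generated by any element of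
`p \ p ^ 2` modulo `p ^ 2`. -/
theorem exists_uniformizer_of_isDedekindDomain [IsDedekindDomain B] (p : Ideal B)
    [hp : p.IsMaximal] : ∃ t0 ∈ p, p ≤ Ideal.span {t0} ⊔ p ^ 2 := by
  by_cases h0 : p = ⊥
  · exact ⟨0, by simp [h0], by simp [h0]⟩
  · have hlt : p ^ 2 < p := by simpa using Ideal.pow_succ_lt_pow h0 1
    obtain ⟨t0, ht0, ht0'⟩ := SetLike.exists_of_lt hlt
    refine ⟨t0, ht0, ?_⟩
    have hI2 : p ^ 2 ≤ Ideal.span {t0} ⊔ p ^ 2 := le_sup_right
    have hIp : Ideal.span {t0} ⊔ p ^ 2 ≤ p :=
      sup_le ((Ideal.span_singleton_le_iff_mem _).mpr ht0) hlt.le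
    have hdvd : Ideal.span {t0} ⊔ p ^ 2 ∣ p ^ 2 := Ideal.dvd_iff_le.mpr hI2
    have hprime : Prime p := Ideal.prime_of_isPrime h0 hp.isPrime
    obtain ⟨k, hk, hassoc⟩ := (dvd_prime_pow hprime 2).mp hdvd
    have hIk : Ideal.span {t0} ⊔ p ^ 2 = p ^ k := associated_iff_eq.mp hassoc
    interval_cases k
    · exfalso
      rw [pow_zero, Ideal.one_eq_top] at hIk
      rw [hIk] at hIp
      exact hp.ne_top (top_le_iff.mp hIp)
    · rw [hIk, pow_one]
    · exfalso
      apply ht0'
      rw [← hIk]
      exact Ideal.mem_sup_left (Ideal.mem_span_singleton_self t0)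

variable (i : B →ₐ[K] S) (σ : S →ₐ[R] R)

/-- The kernel of an `R`-point is finitely generated when `B` is of finite type over `K`. -/
theorem ker_fg_of_finiteType [Algebra.FiniteType K B]
    (hgen : Algebra.adjoin R (Set.range i) = ⊤) : (RingHom.ker σ).FG := by
  classical
  obtain ⟨s, hs⟩ := (Algebra.FiniteType.out : (⊤ : Subalgebra K B).FG)
  have hsub : ∀ b : B, delta i σ b ∈ Ideal.span ((delta i σ) '' (s : Set B)) := by
    intro b
    have hb : b ∈ Algebra.adjoin K (s : Set B) := by rw [hs]; trivial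
    induction hb using Algebra.adjoin_induction with
    | mem x hx => exact Ideal.subset_span ⟨x, hx, rfl⟩
    | algebraMap c => rw [delta_algebraMap]; exact Ideal.zero_mem _
    | add x y _ _ hx hy => rw [delta_add]; exact Ideal.add_mem _ hx hy
    | mul x y _ _ hx hy =>
      rw [delta_mul]
      exact Ideal.add_mem _ (Ideal.add_mem _ (Ideal.mul_mem_left _ _ hy)
        (Ideal.mul_mem_left _ _ hy)) (Ideal.mul_mem_left _ _ hx)
  rw [ker_eq_span_delta i σ hgen]
  refine ⟨s.image (delta i σ), ?_⟩
  apply le_antisymm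
  · refine Ideal.span_mono ?_
    rw [Finset.coe_image]
    exact Set.image_subset_range _ _
  · rw [Ideal.span_le]
    rintro _ ⟨b, rfl⟩
    simpa using hsub b

/-- The reduced point of the `R`-point `σ` at the ideal `m` of `R`. -/
def redPoint (m : Ideal R) : Ideal B := Ideal.comap ((σ : S →+* R).comp (i : B →+* S)) m

theorem mem_redPoint (m : Ideal R) (b : B) : b ∈ redPoint i σ m ↔ σ (i b) ∈ m := Iff.rfl

/-- The reduced point is a maximal ideal when `m` is maximal with residue field `K`. -/
theorem redPoint_isMaximal (m : Ideal R) [m.IsMaximal]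
    (hres : ∀ r : R, ∃ c : K, r - algebraMap K R c ∈ m) : (redPoint i σ m).IsMaximal := by
  let _ : Field (R ⧸ m) := Ideal.Quotient.field m
  let φ : B →+* R ⧸ m := (Ideal.Quotient.mk m).comp ((σ : S →+* R).comp (i : B →+* S))
  have hsurj : Function.Surjective φ := by
    intro x
    obtain ⟨r, rfl⟩ := Ideal.Quotient.mk_surjective x
    obtain ⟨c, hc⟩ := hres r
    refine ⟨algebraMap K B c, ?_⟩
    have h1 : σ (i (algebraMap K B c)) = algebraMap K R c := by
      rw [AlgHom.commutes, IsScalarTower.algebraMap_apply K R S, AlgHom.commutes]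
      simp
    show Ideal.Quotient.mk m (σ (i (algebraMap K B c))) = Ideal.Quotient.mk m r
    rw [h1]
    exact (Ideal.Quotient.eq.mpr hc).symm
  have hker : RingHom.ker φ = redPoint i σ m := by
    ext b
    rw [RingHom.mem_ker, mem_redPoint]
    exact Ideal.Quotient.eq_zero_iff_mem
  rw [← hker]
  exact RingHom.ker_isMaximal_of_surjective φ hsurj

/-- Two `R`-points with the same reduced point agree modulo `m`. -/
theorem sub_mem_of_redPoint_eq (τ : S →ₐ[R] R) (hgen : Algebra.adjoin R (Set.range i) = ⊤)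
    (m : Ideal R) (hres : ∀ r : R, ∃ c : K, r - algebraMap K R c ∈ m)
    (h : redPoint i σ m = redPoint i τ m) (x : S) : σ x - τ x ∈ m := by
  have hx : x ∈ Algebra.adjoin R (Set.range i) := by rw [hgen]; trivial
  induction hx using Algebra.adjoin_induction with
  | mem x hx =>
    obtain ⟨b, rfl⟩ := hx
    obtain ⟨c, hc⟩ := hres (σ (i b))
    have hval : ∀ ρ : S →ₐ[R] R, ρ (i (b - algebraMap K B c)) = ρ (i b) - algebraMap K R c := by
      intro ρ
      rw [map_sub, map_sub, AlgHom.commutes, IsScalarTower.algebraMap_apply K R S,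
        AlgHom.commutes]
      simp
    have h1 : b - algebraMap K B c ∈ redPoint i σ m := by
      rw [mem_redPoint, hval]; exact hc
    rw [h, mem_redPoint, hval] at h1
    have := Ideal.sub_mem m hc h1
    simpa using this
  | algebraMap r => simp
  | add x y _ _ hx hy =>
    have : σ (x + y) - τ (x + y) = (σ x - τ x) + (σ y - τ y) := by
      simp only [map_add]; ring
    rw [this]
    exact Ideal.add_mem _ hx hy
  | mul x y _ _ hx hy =>
    have : σ (x * y) - τ (x * y) = σ x * (σ y - τ y) + τ y * (σ x - τ x) := by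
      simp only [map_mul]; ring
    rw [this]
    exact Ideal.add_mem _ (Ideal.mul_mem_left _ _ hy) (Ideal.mul_mem_left _ _ hx)

/-- **One-point local principality of `ker σ` at the point of `S` defined by a second section
`τ` over `m`** (the shape `PrincipalAt σ (comap τ m)` of helper1253's (T4)), from: residue field
`K` at `m`, a uniformizer at the reduced point of `σ`, and finite generation of `ker σ`. -/
theorem principalAt_comap (τ : S →ₐ[R] R) (hgen : Algebra.adjoin R (Set.range i) = ⊤)
    (hfg : (RingHom.ker σ).FG) (m : Ideal R) [hm : m.IsMaximal]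
    (hres : ∀ r : R, ∃ c : K, r - algebraMap K R c ∈ m)
    (hunif : ∃ t0 ∈ redPoint i σ m, redPoint i σ m ≤ Ideal.span {t0} ⊔ redPoint i σ m ^ 2) :
    ∃ f : S, f ∉ Ideal.comap (τ : S →+* R) m ∧
      ∃ t : S, σ t = 0 ∧ ∀ a : S, σ a = 0 → ∃ c : S, f * a = t * c := by
  by_cases h : redPoint i σ m = redPoint i τ m
  · obtain ⟨t0, ht0, hle⟩ := hunif
    obtain ⟨w, hw, hdiv⟩ := exists_local_generator i σ hgen hfg m hres (redPoint i σ m)
      (fun b => mem_redPoint i σ m b) t0 ht0 hle
    refine ⟨w, ?_, delta i σ t0, sigma_delta i σ t0, hdiv⟩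
    intro hwτ
    have hwτ' : τ w ∈ m := hwτ
    apply hw
    have := Ideal.add_mem m (sub_mem_of_redPoint_eq i σ τ hgen m hres h w) hwτ'
    simpa using this
  · have hσmax := redPoint_isMaximal i σ m hres
    have hτmax := redPoint_isMaximal i τ m hres
    have hnle : ¬ redPoint i σ m ≤ redPoint i τ m := fun hle =>
      h (hσmax.eq_of_le hτmax.ne_top hle)
    obtain ⟨b, hb, hb'⟩ := SetLike.not_le_iff_exists.mp hnle
    refine ⟨delta i σ b, ?_, delta i σ b, sigma_delta i σ b, fun a _ => ⟨a, rfl⟩⟩
    intro hmem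
    have hmem' : τ (delta i σ b) ∈ m := hmem
    apply hb'
    rw [mem_redPoint] at hb ⊢
    have h1 : τ (delta i σ b) = τ (i b) - σ (i b) := by
      simp [delta]
    rw [h1] at hmem'
    have := Ideal.add_mem m hmem' hb
    simpa using this

/-- **Simultaneous one-point local principality for a family of sections of a Dedekind
`K`-algebra of finite type**: the hypothesis of helper1253's `locPrincipal_of_principalAt`
(hence `LocPrincipal σ`), for any family `σ` of `R`-points of `S`, provided every maximal ideal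
of `R` has residue field `K`. -/
theorem principalAt_family [IsDedekindDomain B] [Algebra.FiniteType K B] {d : ℕ}
    (σ : Fin d → S →ₐ[R] R) (hgen : Algebra.adjoin R (Set.range i) = ⊤)
    (hres : ∀ m : Ideal R, m.IsMaximal → ∀ r : R, ∃ c : K, r - algebraMap K R c ∈ m) :
    ∀ m : Ideal R, m.IsMaximal → ∀ j k : Fin d,
      ∃ f : S, f ∉ Ideal.comap (σ k : S →+* R) m ∧
        ∃ t : S, σ j t = 0 ∧ ∀ a : S, σ j a = 0 → ∃ c : S, f * a = t * c := by
  intro m hm j k
  have := hm
  have := redPoint_isMaximal i (σ j) m (hres m hm)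
  exact principalAt_comap i (σ j) (σ k) hgen (ker_fg_of_finiteType i (σ j) hgen) m (hres m hm)
    (exists_uniformizer_of_isDedekindDomain (redPoint i (σ j) m))

end Adapters

section Tensor

open TensorProduct

variable {K B R : Type*} [Field K] [CommRing B] [Algebra K B] [CommRing R] [Algebra K R]

/-- `R ⊗[K] B` is generated over `R` by the image of `B`. -/
theorem adjoin_range_includeRight :
    Algebra.adjoin R (Set.range (Algebra.TensorProduct.includeRight : B →ₐ[K] R ⊗[K] B)) = ⊤ := by
  rw [eq_top_iff]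
  rintro x -
  induction x using TensorProduct.induction_on with
  | zero => exact Subalgebra.zero_mem _
  | tmul r b =>
    have h1 : r ⊗ₜ[K] b = r • ((1 : R) ⊗ₜ[K] b) := by
      rw [TensorProduct.smul_tmul', smul_eq_mul, mul_one]
    rw [h1]
    have h2 : (1 : R) ⊗ₜ[K] b ∈
        Algebra.adjoin R (Set.range (Algebra.TensorProduct.includeRight : B →ₐ[K] R ⊗[K] B)) :=
      Algebra.subset_adjoin ⟨b, rfl⟩
    exact Subalgebra.smul_mem _ h2 r
  | add x y hx hy => exact Subalgebra.add_mem _ hx hy

/-- **Tensor form.** For a Dedekind `K`-algebra `B` of finite type and any `K`-algebra `R` all of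
whose maximal ideals have residue field `K`, every family of `R`-points of `R ⊗[K] B` satisfies
the hypothesis of helper1253's `locPrincipal_of_principalAt`. -/
theorem principalAt_family_tensor [IsDedekindDomain B] [Algebra.FiniteType K B] {d : ℕ}
    (σ : Fin d → R ⊗[K] B →ₐ[R] R)
    (hres : ∀ m : Ideal R, m.IsMaximal → ∀ r : R, ∃ c : K, r - algebraMap K R c ∈ m) :
    ∀ m : Ideal R, m.IsMaximal → ∀ j k : Fin d,
      ∃ f : R ⊗[K] B, f ∉ Ideal.comap (σ k : R ⊗[K] B →+* R) m ∧
        ∃ t : R ⊗[K] B, σ j t = 0 ∧ ∀ a : R ⊗[K] B, σ j a = 0 → ∃ c : R ⊗[K] B, f * a = t * c :=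
  principalAt_family (Algebra.TensorProduct.includeRight : B →ₐ[K] R ⊗[K] B) σ
    adjoin_range_includeRight hres

/-- **Tensor form over an algebraically closed field**, `R` of finite type (e.g. a tensor power
of a chart ring). -/
theorem principalAt_family_tensor_of_finiteType [IsAlgClosed K] [Algebra.FiniteType K R]
    [IsDedekindDomain B] [Algebra.FiniteType K B] {d : ℕ} (σ : Fin d → R ⊗[K] B →ₐ[R] R) :
    ∀ m : Ideal R, m.IsMaximal → ∀ j k : Fin d,
      ∃ f : R ⊗[K] B, f ∉ Ideal.comap (σ k : R ⊗[K] B →+* R) m ∧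
        ∃ t : R ⊗[K] B, σ j t = 0 ∧ ∀ a : R ⊗[K] B, σ j a = 0 → ∃ c : R ⊗[K] B, f * a = t * c :=
  principalAt_family_tensor σ fun m hm r =>
    haveI := hm
    exists_sub_algebraMap_mem_of_finiteType m r

end Tensor

end Fermat.Agent.S17.helper1695
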