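import Mathlib
import Fermat.Agent.S17.helper1253_DiagMinors
import Fermat.Agent.S17.helper1695_LocPrincipal

/-!
# S17-G2-UNIV: the universal `n`-point ring of a curve algebra

Abstract, Prelude-free half of the chart leaf of the Pluecker height route for S17
(captain ruling R10 (b)+(c)).

Setting: `K` a field, `B` a commutative `K`-algebra (the coordinate ring of an affine chart of
the curve).

* `PRing K B n` is the `n`-fold tensor power of `B` over `K` (coordinate ring of the `n`-fold
  product of the chart), `pt i : B →ₐ[K] PRing K B n` the `i`-th coordinate;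
* `evalPts χ : PRing K B n →ₐ[K] L` is the point of the product given by an `n`-tuple of
  points `χ i : B →ₐ[K] L`;
* `SRing K B n = PRing K B n ⊗[K] B` is the coordinate ring of (product) × (chart), and
  `sec K B i : SRing K B n →ₐ[PRing K B n] PRing K B n` is the `i`-th tautological section.

Main results:

* `finiteType_pRing`, `isNoetherianRing_pRing` : finiteness;
* `exists_pts_of_isMaximal` : over an algebraically closed field every maximal ideal of the
  universal ring is the kernel of `evalPts χ` for an `n`-tuple of `K`-points of `B`;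
* `diag_sec` : the diagonal ideals are generated by the differences `pt i b - pt j b`;
* `fibrewise_of_bspan` : the fibrewise spanning hypothesis of (V-alg) from a statement about
  `B` alone (`BSpan`);
* `isIntegral_pRing` : integrality over the subalgebra generated by chart coordinates;
* `minors_sec_eq_diagProd` : **(V-alg) in the universal ring**: the ideal of `d × d` minors of
  the evaluation matrix `(pt (e i) (ψ s))` is the product of the diagonal ideals.
-/

set_option autoImplicit false

open scoped TensorProduct

namespace Fermat.Agent.S17.helper2760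

open Fermat.Agent.S17.helper1253

noncomputable section

section Defs

variable (K B : Type*) [Field K] [CommRing B] [Algebra K B] (n : ℕ)

/-- The universal `n`-point ring: the `n`-fold tensor power of `B` over `K`. -/
abbrev PRing : Type _ := PiTensorProduct K (fun _ : Fin n => B)

variable {K B n}

/-- The `i`-th coordinate `B → B^{⊗ n}`. -/
def pt (i : Fin n) : B →ₐ[K] PRing K B n :=
  PiTensorProduct.singleAlgHom (R := K) (A := fun _ : Fin n => B) i

/-- A pure tensor is the product of its coordinates. -/
theorem tprod_eq_prod_pt (x : Fin n → B) :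
    PiTensorProduct.tprod K x = ∏ i, pt (K := K) i (x i) := by
  classical
  have h1 : x = ∏ i, Pi.mulSingle i (x i) := (Finset.univ_prod_mulSingle x).symm
  conv_lhs => rw [h1]
  rw [PiTensorProduct.tprod_prod]
  rfl

/-- The point of the `n`-fold product given by an `n`-tuple of points of `B`. -/
def evalPts {L : Type*} [CommRing L] [Algebra K L] (χ : Fin n → B →ₐ[K] L) :
    PRing K B n →ₐ[K] L :=
  PiTensorProduct.liftAlgHom
    ((MultilinearMap.mkPiAlgebra K (Fin n) L).compLinearMap fun i => (χ i).toLinearMap)
    (by simp) (by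
      intro x y
      simp [Finset.prod_mul_distrib])

theorem evalPts_tprod {L : Type*} [CommRing L] [Algebra K L] (χ : Fin n → B →ₐ[K] L)
    (x : Fin n → B) : evalPts χ (PiTensorProduct.tprod K x) = ∏ i, χ i (x i) := by
  simp [evalPts]

@[simp]
theorem evalPts_pt {L : Type*} [CommRing L] [Algebra K L] (χ : Fin n → B →ₐ[K] L)
    (i : Fin n) (b : B) : evalPts χ (pt i b) = χ i b := by
  classical
  show evalPts χ (PiTensorProduct.tprod K (Pi.mulSingle i b)) = χ i b
  rw [evalPts_tprod, Finset.prod_eq_single i]
  · simp
  · intro j _ hj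
    simp [Pi.mulSingle_eq_of_ne hj]
  · intro h
    exact absurd (Finset.mem_univ i) h

/-- An algebra map out of the universal ring is determined by its `n` coordinates. -/
theorem algHom_ext_pt {L : Type*} [CommRing L] [Algebra K L] {f g : PRing K B n →ₐ[K] L}
    (h : ∀ i b, f (pt i b) = g (pt i b)) : f = g := by
  classical
  apply PiTensorProduct.algHom_ext
  intro i
  ext b
  exact h i b

theorem eq_evalPts {L : Type*} [CommRing L] [Algebra K L] (f : PRing K B n →ₐ[K] L) :
    f = evalPts fun i => f.comp (pt i) :=
  algHom_ext_pt fun i b => by simp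

end Defs

section Finiteness

variable {K B : Type*} [Field K] [CommRing B] [Algebra K B] {n : ℕ}

/-- The universal ring is generated by the coordinates of algebra generators of `B`. -/
theorem adjoin_pt_eq_top (s : Set B) (hs : Algebra.adjoin K s = ⊤) :
    Algebra.adjoin K (⋃ i : Fin n, pt (K := K) (n := n) i '' s) = ⊤ := by
  rw [eq_top_iff]
  have key : ∀ x : PRing K B n,
      x ∈ Algebra.adjoin K (⋃ i : Fin n, pt (K := K) (n := n) i '' s) := by
    intro x
    induction x using PiTensorProduct.induction_on with
    | smul_tprod r f =>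
      refine Subalgebra.smul_mem _ ?_ r
      rw [tprod_eq_prod_pt]
      refine Subalgebra.prod_mem _ fun i _ => ?_
      have h1 : pt (K := K) i (f i) ∈ (Algebra.adjoin K s).map (pt i) :=
        (Subalgebra.mem_map).mpr ⟨f i, hs ▸ Algebra.mem_top, rfl⟩
      rw [AlgHom.map_adjoin] at h1
      exact Algebra.adjoin_mono (Set.subset_iUnion (fun i : Fin n => pt (K := K) i '' s) i) h1
    | add x y hx hy => exact Subalgebra.add_mem _ hx hy
  exact fun x _ => key x

instance finiteType_pRing [Algebra.FiniteType K B] : Algebra.FiniteType K (PRing K B n) := by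
  classical
  obtain ⟨s, hs⟩ := (Algebra.FiniteType.out : (⊤ : Subalgebra K B).FG)
  refine ⟨⟨Finset.univ.biUnion fun i : Fin n => s.image (pt i), ?_⟩⟩
  have h := adjoin_pt_eq_top (K := K) (n := n) (s : Set B) hs
  rw [← h]
  congr 1
  ext x
  simp

instance isNoetherianRing_pRing [Algebra.FiniteType K B] : IsNoetherianRing (PRing K B n) :=
  Algebra.FiniteType.isNoetherianRing K (PRing K B n)

/-- Over an algebraically closed field, every maximal ideal of the universal ring is the
kernel of a `K`-point. -/
theorem exists_algHom_ker_eq [IsAlgClosed K] [Algebra.FiniteType K B]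
    (m : Ideal (PRing K B n)) (hm : m.IsMaximal) :
    ∃ φ : PRing K B n →ₐ[K] K, RingHom.ker φ = m := by
  let _ := Ideal.Quotient.field m
  have hfin : Module.Finite K (PRing K B n ⧸ m) :=
    finite_of_finite_type_of_isJacobsonRing K (PRing K B n ⧸ m)
  have hbij : Function.Bijective (algebraMap K (PRing K B n ⧸ m)) :=
    IsAlgClosed.algebraMap_bijective_of_isIntegral
  let e : K ≃ₐ[K] (PRing K B n ⧸ m) := AlgEquiv.ofBijective (Algebra.ofId K _) hbij
  refine ⟨(e.symm : (PRing K B n ⧸ m) →ₐ[K] K).comp (Ideal.Quotient.mkₐ K m), ?_⟩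
  ext x
  rw [RingHom.mem_ker]
  show e.symm (Ideal.Quotient.mk m x) = 0 ↔ x ∈ m
  rw [map_eq_zero_iff _ e.symm.injective, Ideal.Quotient.eq_zero_iff_mem]

/-- Over an algebraically closed field, every maximal ideal of the universal ring is the
ideal of an `n`-tuple of `K`-points of `B`. -/
theorem exists_pts_of_isMaximal [IsAlgClosed K] [Algebra.FiniteType K B]
    (m : Ideal (PRing K B n)) (hm : m.IsMaximal) :
    ∃ χ : Fin n → B →ₐ[K] K, RingHom.ker (evalPts χ) = m := by
  obtain ⟨φ, hφ⟩ := exists_algHom_ker_eq m hm
  exact ⟨fun i => φ.comp (pt i), by rw [← eq_evalPts φ]; exact hφ⟩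

end Finiteness

section Sections

variable (K B : Type*) [Field K] [CommRing B] [Algebra K B] (n : ℕ)

/-- The coordinate ring of (`n`-fold product of the chart) × (chart). -/
abbrev SRing : Type _ := PRing K B n ⊗[K] B

/-- Pull-back of a function on the chart to the product. -/
def inc : B →ₐ[K] SRing K B n := Algebra.TensorProduct.includeRight

variable {n} in
/-- The `i`-th tautological section of (product) × (chart) → (product). -/
def sec (i : Fin n) : SRing K B n →ₐ[PRing K B n] PRing K B n :=
  Algebra.TensorProduct.lift (AlgHom.id (PRing K B n) (PRing K B n)) (pt i)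
    (fun _ _ => Commute.all _ _)

variable {K B n}

@[simp]
theorem sec_tmul (i : Fin n) (r : PRing K B n) (b : B) :
    sec K B i (r ⊗ₜ[K] b) = r * pt i b := by
  simp [sec]

@[simp]
theorem sec_inc (i : Fin n) (b : B) :
    sec K B i (inc K B n b) = pt i b := by
  simp [sec, inc]

theorem inc_apply (b : B) : inc K B n b = (1 : PRing K B n) ⊗ₜ[K] b := rfl

/-- `SRing` is generated over the universal ring by the functions on the chart. -/
theorem adjoin_range_inc :
    Algebra.adjoin (PRing K B n) (Set.range (inc K B n)) = ⊤ := by
  rw [eq_top_iff]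
  rintro x -
  induction x using TensorProduct.induction_on with
  | zero => exact Subalgebra.zero_mem _
  | tmul r b =>
    have h1 : r ⊗ₜ[K] b = r • ((1 : PRing K B n) ⊗ₜ[K] b) := by
      rw [TensorProduct.smul_tmul', smul_eq_mul, mul_one]
    rw [h1]
    have h2 : (1 : PRing K B n) ⊗ₜ[K] b ∈
        Algebra.adjoin (PRing K B n) (Set.range (inc K B n)) :=
      Algebra.subset_adjoin ⟨b, rfl⟩
    exact Subalgebra.smul_mem _ h2 r
  | add x y hx hy => exact Subalgebra.add_mem _ hx hy

/-- **(U3)** The diagonal ideal of two slots is generated by the differences of the two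
coordinates of the functions on the chart. -/
theorem diag_sec {d : ℕ} (e : Fin d → Fin n) (i j : Fin d) :
    diag (fun k => sec K B (e k)) i j =
      Ideal.span (Set.range fun b : B => pt (K := K) (e i) b - pt (e j) b) := by
  rw [diag_eq_span_of_adjoin _ i j _ adjoin_range_inc]
  congr 1
  ext x
  constructor
  · rintro ⟨_, ⟨b, rfl⟩, rfl⟩
    exact ⟨b, by simp⟩
  · rintro ⟨b, rfl⟩
    exact ⟨inc K B n b, ⟨b, rfl⟩, by simp⟩

/-- The ideal of minors of the evaluation matrix of a family of functions on the chart. -/
theorem minors_sec {d : ℕ} (e : Fin d → Fin n) {ι : Type*} (ψ : ι → B) :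
    minors (fun i => sec K B (e i)) (fun s => inc K B n (ψ s)) =
      Ideal.span (Set.range fun c : Fin d → ι =>
        Matrix.det (Matrix.of fun i k => pt (K := K) (e i) (ψ (c k)))) := by
  unfold minors
  simp only [sec_inc]

end Sections

section Fibre

variable {K B : Type*} [Field K] [CommRing B] [Algebra K B] {n : ℕ}

/-- **(B-SPAN)** at level `d`: the family `ψ` spans `B` over `K` modulo the product of the
ideals of any `d` `K`-points of `B` (repetitions allowed). For a chart of a curve and
`ψ` a basis of a Riemann-Roch space this is Riemann's theorem. -/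
def BSpan (K : Type*) {B : Type*} [Field K] [CommRing B] [Algebra K B] {ι : Type*}
    (ψ : ι → B) (d : ℕ) : Prop :=
  ∀ χ : Fin d → B →ₐ[K] K, ∀ b : B, ∃ c ∈ Submodule.span K (Set.range ψ),
    b - c ∈ ∏ i, RingHom.ker (χ i)

/-- (B-SPAN) in quotient form. -/
theorem bspan_iff_span_quotient {ι : Type*} (ψ : ι → B) (d : ℕ) :
    BSpan K ψ d ↔ ∀ χ : Fin d → B →ₐ[K] K,
      Submodule.span K (Set.range fun s =>
        Ideal.Quotient.mk (∏ i, RingHom.ker (χ i)) (ψ s)) = ⊤ := by
  have key : ∀ I : Ideal B, Submodule.span K (Set.range fun s => Ideal.Quotient.mk I (ψ s)) =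
      Submodule.map (Ideal.Quotient.mkₐ K I).toLinearMap (Submodule.span K (Set.range ψ)) := by
    intro I
    rw [Submodule.map_span, ← Set.range_comp]
    rfl
  constructor
  · intro h χ
    rw [key, eq_top_iff]
    rintro x -
    obtain ⟨b, rfl⟩ := Ideal.Quotient.mk_surjective x
    obtain ⟨c, hc, hbc⟩ := h χ b
    refine ⟨c, hc, ?_⟩
    exact (Ideal.Quotient.eq.mpr hbc).symm
  · intro h χ b
    have h1 : Ideal.Quotient.mk (∏ i, RingHom.ker (χ i)) b ∈
        Submodule.span K (Set.range fun s =>
          Ideal.Quotient.mk (∏ i, RingHom.ker (χ i)) (ψ s)) := by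
      rw [h χ]
      exact Submodule.mem_top
    rw [key] at h1
    obtain ⟨c, hc, hcb⟩ := h1
    exact ⟨c, hc, Ideal.Quotient.eq.mp hcb.symm⟩

/-- (B-SPAN) is inherited by larger families. -/
theorem BSpan.mono {ι κ : Type*} {ψ : ι → B} {ψ' : κ → B} {d : ℕ} (h : BSpan K ψ d)
    (hsub : Set.range ψ ⊆ Set.range ψ') : BSpan K ψ' d := by
  intro χ b
  obtain ⟨c, hc, hbc⟩ := h χ b
  exact ⟨c, Submodule.span_mono hsub hc, hbc⟩

/-- Restriction of a function on (product) × (chart) to the fibre over a `K`-point `φ` of
the product. -/
def red (φ : PRing K B n →ₐ[K] K) : SRing K B n →ₐ[K] B :=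
  Algebra.TensorProduct.lift ((Algebra.ofId K B).comp φ) (AlgHom.id K B)
    (fun _ _ => Commute.all _ _)

theorem red_tmul (φ : PRing K B n →ₐ[K] K) (r : PRing K B n) (b : B) :
    red φ (r ⊗ₜ[K] b) = algebraMap K B (φ r) * b := by
  simp [red, Algebra.ofId_apply]

/-- A function on (product) × (chart) agrees with its restriction to the fibre modulo the
ideal of the point. -/
theorem sub_inc_red_mem (φ : PRing K B n →ₐ[K] K) (F : SRing K B n) :
    F - inc K B n (red φ F) ∈
      Ideal.map (algebraMap (PRing K B n) (SRing K B n)) (RingHom.ker φ) := by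
  induction F using TensorProduct.induction_on with
  | zero => simp
  | tmul r b =>
    have h1 : r ⊗ₜ[K] b - inc K B n (red φ (r ⊗ₜ[K] b)) =
        algebraMap (PRing K B n) (SRing K B n) (r - algebraMap K (PRing K B n) (φ r)) *
          inc K B n b := by
      rw [red_tmul, Algebra.TensorProduct.algebraMap_apply, inc_apply, inc_apply,
        Algebra.TensorProduct.tmul_mul_tmul, mul_one, one_mul, Algebra.algebraMap_self,
        RingHom.id_apply, TensorProduct.sub_tmul, Algebra.algebraMap_eq_smul_one,
        Algebra.algebraMap_eq_smul_one, TensorProduct.smul_tmul, smul_mul_assoc, one_mul]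
    rw [h1]
    refine Ideal.mul_mem_right _ _ (Ideal.mem_map_of_mem _ ?_)
    rw [RingHom.mem_ker, map_sub, AlgHom.commutes]
    simp
  | add x y hx hy =>
    have h1 : x + y - inc K B n (red φ (x + y)) =
        (x - inc K B n (red φ x)) + (y - inc K B n (red φ y)) := by
      rw [map_add, map_add]
      ring
    rw [h1]
    exact add_mem hx hy

/-- A function on the chart vanishing (with multiplicities) at the points of the fibre lifts,
modulo the ideal of the point, to a function vanishing along the corresponding sections. -/
theorem exists_lift_of_mem_prod {ι' : Type*} (e : ι' → Fin n) (φ : PRing K B n →ₐ[K] K)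
    (s : Finset ι') :
    ∀ β : B, β ∈ ∏ i ∈ s, RingHom.ker (φ.comp (pt (e i))) →
      ∃ T : SRing K B n, (∀ i ∈ s, sec K B (e i) T = 0) ∧
        inc K B n β - T ∈
          Ideal.map (algebraMap (PRing K B n) (SRing K B n)) (RingHom.ker φ) := by
  classical
  induction s using Finset.induction_on with
  | empty =>
    intro β _
    exact ⟨inc K B n β, by simp, by simp⟩
  | insert a s ha ih =>
    intro β hβ
    rw [Finset.prod_insert ha] at hβ
    refine Submodule.mul_induction_on hβ ?_ ?_
    · intro x hx y hy
      obtain ⟨T, hT0, hT⟩ := ih y hy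
      refine ⟨(inc K B n x - algebraMap (PRing K B n) (SRing K B n) (pt (e a) x)) * T, ?_, ?_⟩
      · intro i hi
        rw [Finset.mem_insert] at hi
        rcases hi with rfl | hi
        · rw [map_mul, map_sub, sec_inc, AlgHom.commutes]
          simp
        · rw [map_mul, hT0 i hi, mul_zero]
      · have h1 : inc K B n (x * y) -
            (inc K B n x - algebraMap (PRing K B n) (SRing K B n) (pt (e a) x)) * T =
            inc K B n x * (inc K B n y - T) +
              algebraMap (PRing K B n) (SRing K B n) (pt (e a) x) * T := by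
          rw [map_mul]
          ring
        rw [h1]
        refine add_mem (Ideal.mul_mem_left _ _ hT)
          (Ideal.mul_mem_right _ _ (Ideal.mem_map_of_mem _ ?_))
        exact hx
    · rintro x y ⟨T1, h10, h1⟩ ⟨T2, h20, h2⟩
      refine ⟨T1 + T2, fun i hi => by rw [map_add, h10 i hi, h20 i hi, add_zero], ?_⟩
      have h3 : inc K B n (x + y) - (T1 + T2) = (inc K B n x - T1) + (inc K B n y - T2) := by
        rw [map_add]
        ring
      rw [h3]
      exact add_mem h1 h2

/-- **(U4), consumer form of the fibre lemma**: (B-SPAN) gives the fibrewise spanning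
hypothesis of (V-alg) (T3) at every `K`-point of the universal ring. -/
theorem fibrewise_of_bspan {d : ℕ} (e : Fin d → Fin n) {ι : Type*} (ψ : ι → B)
    (h : BSpan K ψ d) (φ : PRing K B n →ₐ[K] K) (F : SRing K B n) :
    ∃ G ∈ Submodule.span (PRing K B n) (Set.range fun s => inc K B n (ψ s)),
      ∃ L ∈ Ideal.map (algebraMap (PRing K B n) (SRing K B n)) (RingHom.ker φ),
        ∀ i, sec K B (e i) F = sec K B (e i) G + sec K B (e i) L := by
  obtain ⟨c, hc, hbc⟩ := h (fun i => φ.comp (pt (e i))) (red φ F)
  obtain ⟨T, hT0, hT⟩ := exists_lift_of_mem_prod e φ Finset.univ _ hbc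
  refine ⟨inc K B n c, ?_, (F - inc K B n (red φ F)) + (inc K B n (red φ F - c) - T),
    add_mem (sub_inc_red_mem φ F) hT, ?_⟩
  · have h1 : inc K B n c ∈
        Submodule.map (inc K B n).toLinearMap (Submodule.span K (Set.range ψ)) :=
      Submodule.mem_map_of_mem hc
    rw [Submodule.map_span, ← Set.range_comp] at h1
    exact Submodule.span_subset_span K (PRing K B n) _ h1
  · intro i
    have hF : F = inc K B n c +
        ((F - inc K B n (red φ F)) + (inc K B n (red φ F - c) - T)) + T := by
      rw [map_sub]
      ring
    conv_lhs => rw [hF]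
    rw [map_add, map_add, hT0 i (Finset.mem_univ i), add_zero]

/-- The spanning hypothesis of (V-alg) (T2) in the universal ring, from (B-SPAN). -/
theorem evalVec_mem_span_sec [IsAlgClosed K] [Algebra.FiniteType K B] {d : ℕ}
    (e : Fin d → Fin n) {ι : Type*} (ψ : ι → B) (h : BSpan K ψ d) (F : SRing K B n) :
    evalVec (fun i => sec K B (e i)) F ∈
      Submodule.span (PRing K B n) (Set.range fun s =>
        evalVec (fun i => sec K B (e i)) (inc K B n (ψ s))) := by
  refine evalVec_mem_span_of_fibrewise' (fun i => sec K B (e i)) (fun s => inc K B n (ψ s)) ?_ F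
  intro m hm F
  obtain ⟨φ, rfl⟩ := exists_algHom_ker_eq m hm
  exact fibrewise_of_bspan e ψ h φ F

end Fibre

section Assembly

variable {K B : Type*} [Field K] [CommRing B] [Algebra K B] {n : ℕ}

/-- **(LP)** in the universal ring of a Dedekind chart: the sections are simultaneously
locally principal. -/
theorem locPrincipal_sec [IsAlgClosed K] [IsDedekindDomain B] [Algebra.FiniteType K B]
    {d : ℕ} (e : Fin d → Fin n) :
    LocPrincipal fun i => sec K B (e i) :=
  locPrincipal_of_principalAt _
    (Fermat.Agent.S17.helper1695.principalAt_family_tensor_of_finiteType _)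

/-- (V-alg) in the universal ring, with (LP) as a hypothesis. -/
theorem minors_sec_eq_diagProd_of_locPrincipal [IsAlgClosed K] [Algebra.FiniteType K B]
    {d : ℕ} (e : Fin d → Fin n) {ι : Type*} (ψ : ι → B) (h : BSpan K ψ d)
    (hLP : LocPrincipal fun i => sec K B (e i)) :
    minors (fun i => sec K B (e i)) (fun s => inc K B n (ψ s)) =
      diagProd (fun i => sec K B (e i)) :=
  minors_eq_diagProd _ hLP _ (evalVec_mem_span_sec e ψ h)

/-- **(U6) = (V-alg) in the universal ring of a Dedekind chart**: the ideal of `d × d` minors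
of the evaluation matrix of a family with (B-SPAN) at the slots `e` is the product of the
diagonal ideals. -/
theorem minors_sec_eq_diagProd [IsAlgClosed K] [IsDedekindDomain B] [Algebra.FiniteType K B]
    {d : ℕ} (e : Fin d → Fin n) {ι : Type*} (ψ : ι → B) (h : BSpan K ψ d) :
    minors (fun i => sec K B (e i)) (fun s => inc K B n (ψ s)) =
      diagProd (fun i => sec K B (e i)) :=
  minors_sec_eq_diagProd_of_locPrincipal e ψ h (locPrincipal_sec e)

/-- (U6), explicit form: no reference to `SRing`. -/
theorem span_det_pt_eq_prod [IsAlgClosed K] [IsDedekindDomain B] [Algebra.FiniteType K B]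
    {d : ℕ} (e : Fin d → Fin n) {ι : Type*} (ψ : ι → B) (h : BSpan K ψ d) :
    Ideal.span (Set.range fun c : Fin d → ι =>
        Matrix.det (Matrix.of fun i k => pt (K := K) (e i) (ψ (c k)))) =
      ∏ p : Fin d × Fin d, if p.1 < p.2 then
        Ideal.span (Set.range fun b : B => pt (K := K) (e p.1) b - pt (e p.2) b) else 1 := by
  rw [← minors_sec, minors_sec_eq_diagProd e ψ h]
  unfold diagProd
  refine Finset.prod_congr rfl fun p _ => ?_
  split_ifs
  · exact diag_sec e p.1 p.2
  · rfl

end Assembly

end

end Fermat.Agent.S17.helper2760
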