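import Mathlib
import Fermat.Agent.S17.helper1585_ChartSpan
import Fermat.Agent.S17.helper1585_ChartEval
import Fermat.Agent.S17.helper2760_UnivPoints

/-!
# S17-G2-CHART-INST, part 3: the ideal of evaluation minors on a chart (helper1585)

Output (c) of ruling R10 on the Prelude carriers: `K` algebraically closed of characteristic
zero, `F` finite over `K(x)`, `P0` a place, `u : F` transcendental with a zero of exact order `n0`
at `P0` and no other zero, `B = helper3723.chartRing u`, `helper2760.PRing K B n` the universal
`n`-point ring, `helper2760.pt i : B →ₐ[K] PRing K B n`.  For a family `e` spanning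
`L(k n0 P0)` and `ψ s = e s * u ^ k ∈ B`, and `d` slots `sl : Fin d → Fin n` with
`k n0 - d` at least the Riemann constant:

* `exists_chart_bspan`: `helper2760.BSpan K ψ d` (**(B-SPAN)** in the vocabulary of S17-G2-UNIV);
* `exists_chart_minors`: the ideal of `PRing K B n` generated by the `d × d` minors of the matrix
  `(pt (sl i) (ψ s))` is the product over `i < j` of the diagonal ideals
  `span {pt (sl i) b - pt (sl j) b}`;
* `chart_det_mem_prod`: the one-sided form (no spanning, no Riemann);
* `chart_locPrincipal`, `chart_evalVec_mem_span`: the two hypotheses of S17-VALG on the chart;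
* `chartPts`: the `K`-point of `PRing K B n` at an `n`-tuple of places of the chart, and the
  values of the evaluation minors there.
-/

set_option autoImplicit false
set_option linter.style.haveILetI false
set_option linter.unusedSectionVars false

open AlgebraicCurve IsDedekindDomain IntermediateField

namespace Fermat.Agent.S17.helper1585

open Fermat.Agent.S17.helper3723 Fermat.Agent.S27.helper4586 Fermat.Agent.S27.helper6247
open Fermat.Agent.S17.helper2760 (PRing SRing pt inc sec evalPts BSpan)
open scoped TensorProduct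

noncomputable section

universe u v

variable {K : Type u} {F : Type v} [Field K] [Field F] [Algebra K F] [IsAlgClosed K] [CharZero K]

/-- **(B-SPAN)** on the chart, in the vocabulary of S17-G2-UNIV: `helper2760.BSpan K ψ d` for the
normalised sections `ψ s = e s * u ^ k`, as soon as `k n0 - d` is at least the Riemann
constant. -/
theorem exists_chart_bspan (x : F) (hx : Transcendental K x) [FiniteDimensional K⟮x⟯ F] :
    ∃ c : ℤ, ∀ (P0 : Place K F) (u : F) (n0 : ℤ), Transcendental K u → P0.ord u = n0 →
      (∀ Q : Place K F, Q ≠ P0 → Q.ord u ≤ 0) → ∀ k d : ℕ, c ≤ (k : ℤ) * n0 - d →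
      ∀ {σ : Type*} (e : σ → F),
      riemannRochSpace (Finsupp.single P0 ((k : ℤ) * n0)) ≤ Submodule.span K (Set.range e) →
      ∀ ψ : σ → chartRing (K := K) u, (∀ s, (ψ s : F) = e s * u ^ k) → BSpan K ψ d := by
  obtain ⟨c, hc⟩ := exists_chart_span_congr x hx
  refine ⟨c, ?_⟩
  intro P0 u n0 hu hord hoff k d hcd σ e hspan ψ hψ χ b
  exact hc P0 u n0 hu hord hoff k d hcd χ e hspan ψ hψ b

/-- **(B-SPAN)** with the kernels spelled through the coercion to ring homomorphisms (the shape
of the hypothesis `hspan` of the twin UNIV file `helper3330_UnivMinors`). -/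
theorem exists_chart_hspan (x : F) (hx : Transcendental K x) [FiniteDimensional K⟮x⟯ F] :
    ∃ c : ℤ, ∀ (P0 : Place K F) (u : F) (n0 : ℤ), Transcendental K u → P0.ord u = n0 →
      (∀ Q : Place K F, Q ≠ P0 → Q.ord u ≤ 0) → ∀ k d : ℕ, c ≤ (k : ℤ) * n0 - d →
      ∀ {σ : Type*} (e : σ → F),
      riemannRochSpace (Finsupp.single P0 ((k : ℤ) * n0)) ≤ Submodule.span K (Set.range e) →
      ∀ ψ : σ → chartRing (K := K) u, (∀ s, (ψ s : F) = e s * u ^ k) →
      ∀ (χ : Fin d → chartRing (K := K) u →ₐ[K] K) (b : chartRing (K := K) u),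
        ∃ g ∈ Submodule.span K (Set.range ψ),
          b - g ∈ ∏ i : Fin d, RingHom.ker (χ i : chartRing (K := K) u →+* K) := by
  obtain ⟨c, hc⟩ := exists_chart_span_congr x hx
  refine ⟨c, ?_⟩
  intro P0 u n0 hu hord hoff k d hcd σ e hspan ψ hψ χ b
  exact hc P0 u n0 hu hord hoff k d hcd χ e hspan ψ hψ b

/-- **(LP) on the chart**: the tautological sections of the universal `n`-point ring of the chart
ring are simultaneously locally principal. -/
theorem chart_locPrincipal {u : F} (hu : Transcendental K u) [FiniteDimensional K⟮u⟯ F]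
    {d n : ℕ} (sl : Fin d → Fin n) :
    Fermat.Agent.S17.helper1253.LocPrincipal fun i => sec K (chartRing (K := K) u) (sl i) := by
  haveI := isDedekindDomain_chartRing hu
  haveI := finiteType_chartRing hu
  exact Fermat.Agent.S17.helper2760.locPrincipal_sec sl

/-- **The spanning hypothesis (T2) of S17-VALG on the chart.** -/
theorem exists_chart_evalVec_mem_span (x : F) (hx : Transcendental K x)
    [FiniteDimensional K⟮x⟯ F] :
    ∃ c : ℤ, ∀ (P0 : Place K F) (u : F) (n0 : ℤ), Transcendental K u → P0.ord u = n0 →
      (∀ Q : Place K F, Q ≠ P0 → Q.ord u ≤ 0) → ∀ k d : ℕ, c ≤ (k : ℤ) * n0 - d →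
      ∀ {σ : Type*} (e : σ → F),
      riemannRochSpace (Finsupp.single P0 ((k : ℤ) * n0)) ≤ Submodule.span K (Set.range e) →
      ∀ ψ : σ → chartRing (K := K) u, (∀ s, (ψ s : F) = e s * u ^ k) →
      ∀ {n : ℕ} (sl : Fin d → Fin n) (G : SRing K (chartRing (K := K) u) n),
        Fermat.Agent.S17.helper1253.evalVec
            (fun i => sec K (chartRing (K := K) u) (sl i)) G ∈
          Submodule.span (PRing K (chartRing (K := K) u) n) (Set.range fun s =>
            Fermat.Agent.S17.helper1253.evalVec
              (fun i => sec K (chartRing (K := K) u) (sl i))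
              (inc K (chartRing (K := K) u) n (ψ s))) := by
  obtain ⟨c, hc⟩ := exists_chart_bspan x hx
  refine ⟨c, ?_⟩
  intro P0 u n0 hu hord hoff k d hcd σ e hspan ψ hψ n sl G
  haveI : FiniteDimensional K⟮u⟯ F :=
    Fermat.Agent.S24.helper204.finiteDimensional_adjoin_of_transcendental (x := x) hu
  haveI := finiteType_chartRing hu
  exact Fermat.Agent.S17.helper2760.evalVec_mem_span_sec sl ψ
    (hc P0 u n0 hu hord hoff k d hcd e hspan ψ hψ) G

/-- **(C4) = R10 (c) on the chart.** The ideal generated by the `d × d` evaluation minors of the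
normalised sections `ψ s = e s * u ^ k` at `d` slots of the universal `n`-point ring of the chart
ring is the product of the diagonal ideals. -/
theorem exists_chart_minors (x : F) (hx : Transcendental K x) [FiniteDimensional K⟮x⟯ F] :
    ∃ c : ℤ, ∀ (P0 : Place K F) (u : F) (n0 : ℤ), Transcendental K u → P0.ord u = n0 →
      (∀ Q : Place K F, Q ≠ P0 → Q.ord u ≤ 0) → ∀ k d : ℕ, c ≤ (k : ℤ) * n0 - d →
      ∀ {σ : Type*} (e : σ → F),
      riemannRochSpace (Finsupp.single P0 ((k : ℤ) * n0)) ≤ Submodule.span K (Set.range e) →
      ∀ ψ : σ → chartRing (K := K) u, (∀ s, (ψ s : F) = e s * u ^ k) →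
      ∀ {n : ℕ} (sl : Fin d → Fin n),
        Ideal.span (Set.range fun s : Fin d → σ => Matrix.det (Matrix.of fun i j =>
            pt (K := K) (B := chartRing (K := K) u) (sl i) (ψ (s j)))) =
          ∏ p : Fin d × Fin d, if p.1 < p.2 then
            Ideal.span (Set.range fun b : chartRing (K := K) u =>
              pt (K := K) (sl p.1) b - pt (K := K) (sl p.2) b)
            else 1 := by
  obtain ⟨c, hc⟩ := exists_chart_bspan x hx
  refine ⟨c, ?_⟩
  intro P0 u n0 hu hord hoff k d hcd σ e hspan ψ hψ n sl
  haveI : FiniteDimensional K⟮u⟯ F :=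
    Fermat.Agent.S24.helper204.finiteDimensional_adjoin_of_transcendental (x := x) hu
  haveI := isDedekindDomain_chartRing hu
  haveI := finiteType_chartRing hu
  exact Fermat.Agent.S17.helper2760.span_det_pt_eq_prod sl ψ
    (hc P0 u n0 hu hord hoff k d hcd e hspan ψ hψ)

/-- One-sided form (no spanning, no Riemann constant): every `d × d` evaluation determinant of
functions of the chart ring lies in the product of the diagonal ideals. -/
theorem chart_det_mem_prod {u : F} (hu : Transcendental K u) [FiniteDimensional K⟮u⟯ F]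
    {d n : ℕ} (sl : Fin d → Fin n) (f : Fin d → chartRing (K := K) u) :
    Matrix.det (Matrix.of fun i j =>
        pt (K := K) (B := chartRing (K := K) u) (sl i) (f j)) ∈
      ∏ p : Fin d × Fin d, if p.1 < p.2 then
        Ideal.span (Set.range fun b : chartRing (K := K) u =>
          pt (K := K) (sl p.1) b - pt (K := K) (sl p.2) b)
        else 1 := by
  have h := Fermat.Agent.S17.helper1253.det_mem_diagProd
    (fun i => sec K (chartRing (K := K) u) (sl i)) (chart_locPrincipal hu sl)
    (fun j => inc K (chartRing (K := K) u) n (f j))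
  unfold Fermat.Agent.S17.helper1253.diagProd at h
  simp only [Fermat.Agent.S17.helper2760.sec_inc, Fermat.Agent.S17.helper2760.diag_sec] at h
  exact h

omit [IsAlgClosed K] [CharZero K] in
/-- The `K`-point of the universal `n`-point ring of the chart ring at an `n`-tuple of places of
the chart. -/
def chartPts {u : F} {n : ℕ} (P : Fin n → Place K F) (hV : ∀ i, HasValues (P i))
    (hP : ∀ i, u ∈ (P i).toValuationSubring) : PRing K (chartRing (K := K) u) n →ₐ[K] K :=
  evalPts fun i => chartPt (hV i) (hP i)

omit [IsAlgClosed K] [CharZero K] in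
@[simp] theorem chartPts_pt {u : F} {n : ℕ} (P : Fin n → Place K F)
    (hV : ∀ i, HasValues (P i)) (hP : ∀ i, u ∈ (P i).toValuationSubring) (i : Fin n)
    (b : chartRing (K := K) u) :
    chartPts P hV hP (pt (K := K) i b) = ev (P i) (b : F) := by
  rw [chartPts, Fermat.Agent.S17.helper2760.evalPts_pt, chartPt_apply]

omit [IsAlgClosed K] [CharZero K] in
/-- Evaluation of an evaluation minor at a tuple of places of the chart. -/
theorem chartPts_det {u : F} {n d : ℕ} (P : Fin n → Place K F) (hV : ∀ i, HasValues (P i))
    (hP : ∀ i, u ∈ (P i).toValuationSubring) (sl : Fin d → Fin n)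
    (f : Fin d → chartRing (K := K) u) :
    chartPts P hV hP (Matrix.det (Matrix.of fun i j =>
        pt (K := K) (B := chartRing (K := K) u) (sl i) (f j)))
      = Matrix.det (Matrix.of fun i j => ev (P (sl i)) ((f j : chartRing (K := K) u) : F)) := by
  rw [AlgHom.map_det]
  congr 1
  ext i j
  rw [AlgHom.mapMatrix_apply, Matrix.map_apply, Matrix.of_apply, Matrix.of_apply,
    chartPts_pt]

/-- Every `K`-point of the universal `n`-point ring of the chart ring is the point of an
`n`-tuple of places of the chart. -/
theorem exists_chartPts_eq {u : F} (hu : Transcendental K u) [FiniteDimensional K⟮u⟯ F]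
    {n : ℕ} (φ : PRing K (chartRing (K := K) u) n →ₐ[K] K) :
    ∃ (P : Fin n → Place K F) (hP : ∀ i, u ∈ (P i).toValuationSubring),
      φ = chartPts P (fun i => hasValues_of_finite u (P i)) hP := by
  choose P hP hχ using fun i : Fin n => exists_chartPt_eq hu (φ.comp (pt (K := K) i))
  refine ⟨P, hP, ?_⟩
  rw [Fermat.Agent.S17.helper2760.eq_evalPts φ, chartPts]
  congr 1
  funext i
  exact hχ i

end

end Fermat.Agent.S17.helper1585
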