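/-
S17 (Mordell–Weil for `JZero N`), Plücker track, leaf L7-PHIEV: the carrier identification
`Φ_m(D) = [L : ℚ]⁻¹ · h_L(minors of the evaluation matrix E_m(D))` on the carriers of
`helper3197_PlueckerSpec`.

Part A (any function field with values, degree-one places and Riemann's equality in large
degree): the evaluation map `L(m P₀) → K^k` at `k` distinct places `≠ P₀` is linear, its kernel
is `L(m P₀ - ∑ P_i)`, and it is onto for `m - k ≥ c₁`.

Part B (Spec carriers): the evaluation matrix of the `ℚ`-basis of `A_m` at the points of a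
rational multiplicity-free divisor `D` (over any number field containing the values) and the
coordinate frame of `W_m(D)` form an evaluation pair (`helper3588.IsEvalPair`); hence
`logHeight (minors E) = [L : ℚ] * Phi fr m D`.

Part C (absolute form): `Phi fr m D` is the absolute logarithmic height (`helper927.absLogHeight`)
of the minors of the `ℚ̄`-valued evaluation matrix; row independence over `ℚ̄`.
-/
import Fermat.Agent.S17.helper3197_PlueckerSpec
import Fermat.Agent.S17.helper3588_MinorsHeight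
import Fermat.Agent.S27.helper4586_Ev
import Fermat.Agent.S24.helper204_Places
import Fermat.Agent.Lib.helper927_AbsHeight

set_option autoImplicit false

open ModularCurve AlgebraicCurve IntermediateField
open Fermat.Agent.S27.helper6247 Fermat.Agent.S27.helper4586

namespace Fermat.Agent.S17.helper3588

noncomputable section

/-! ## Part A: evaluation at distinct places on `L(m P₀)` -/

section General

variable {K : Type*} {F : Type*} [Field K] [Field F] [Algebra K F]

theorem pt_apply_self (P : Place K F) : (pt P : Divisor K F) P = 1 := by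
  unfold pt
  simp

theorem pt_apply_of_ne {P v : Place K F} (h : P ≠ v) : (pt P : Divisor K F) v = 0 := by
  classical
  unfold pt
  rw [Finsupp.single_apply, if_neg h]

theorem sumDiv_apply {k : ℕ} (P : Fin k → Place K F) (v : Place K F) :
    (sumDiv P : Divisor K F) v = ∑ i, (pt (P i) : Divisor K F) v := by
  unfold sumDiv
  rw [Finsupp.finsetSum_apply]

theorem sumDiv_apply_nonneg {k : ℕ} (P : Fin k → Place K F) (v : Place K F) :
    0 ≤ (sumDiv P : Divisor K F) v := by
  classical
  rw [sumDiv_apply]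
  refine Finset.sum_nonneg fun i _ => ?_
  unfold pt
  rw [Finsupp.single_apply]
  split_ifs <;> norm_num

theorem sumDiv_apply_of_injective {k : ℕ} {P : Fin k → Place K F} (hP : Function.Injective P)
    (j : Fin k) : (sumDiv P : Divisor K F) (P j) = 1 := by
  rw [sumDiv_apply, Finset.sum_eq_single j]
  · exact pt_apply_self _
  · intro i _ hij
    exact pt_apply_of_ne fun h => hij (hP h)
  · intro h
    exact absurd (Finset.mem_univ j) h

theorem sumDiv_apply_of_forall_ne {k : ℕ} {P : Fin k → Place K F} {v : Place K F}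
    (h : ∀ i, P i ≠ v) : (sumDiv P : Divisor K F) v = 0 := by
  rw [sumDiv_apply]
  exact Finset.sum_eq_zero fun i _ => pt_apply_of_ne (h i)

theorem degree_sumDiv (hdeg : ∀ v : Place K F, v.deg = 1) {k : ℕ} (P : Fin k → Place K F) :
    Divisor.degree (sumDiv P : Divisor K F) = k := by
  unfold sumDiv pt
  rw [map_sum]
  simp [hdeg]

theorem degree_smul_pt (hdeg : ∀ v : Place K F, v.deg = 1) (P0 : Place K F) (m : ℤ) :
    Divisor.degree (m • pt P0 : Divisor K F) = m := by
  unfold pt
  rw [map_zsmul, Divisor.degree_single, hdeg]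
  simp

theorem smul_pt_apply_of_ne {P0 v : Place K F} (h : v ≠ P0) (m : ℤ) :
    (m • pt P0 : Divisor K F) v = 0 := by
  rw [Finsupp.smul_apply, pt_apply_of_ne (Ne.symm h), smul_zero]

/-- The divisor of a subfamily enumerated by the sorted enumeration of a finset of slots. -/
theorem sumDiv_comp_orderEmbOfFin {n k : ℕ} (P : Fin n → Place K F) (T : Finset (Fin n))
    (h : T.card = k) :
    (sumDiv (fun i : Fin k => P (T.orderEmbOfFin h i)) : Divisor K F) = ∑ j ∈ T, pt (P j) := by
  unfold sumDiv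
  have hinj : Function.Injective (T.orderEmbOfFin h : Fin k → Fin n) :=
    (T.orderEmbOfFin h).injective
  rw [← Finset.sum_image (s := Finset.univ) (g := (T.orderEmbOfFin h : Fin k → Fin n))
    (f := fun j => (pt (P j) : Divisor K F)) (fun a _ b _ hab => hinj hab)]
  congr 1
  ext j
  simp only [Finset.mem_image, Finset.mem_univ, true_and]
  rw [← Finset.mem_coe, ← Finset.range_orderEmbOfFin T h]
  rfl

/-- An effective multiplicity-free divisor avoiding `P₀` is `sumDiv P` for an injective
enumeration `P` of its support. -/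
theorem exists_enum_of_reduced (P0 : Place K F) (D : Divisor K F) (hD : 0 ≤ D)
    (hred : ∀ v, D v ≤ 1) (hoff : D P0 = 0) :
    ∃ (k : ℕ) (P : Fin k → Place K F), Function.Injective P ∧ (∀ i, P i ≠ P0) ∧
      D = sumDiv P := by
  classical
  let e := D.support.equivFin
  refine ⟨D.support.card, fun i => ((e.symm i : D.support) : Place K F), ?_, ?_, ?_⟩
  · intro i j hij
    exact e.symm.injective (Subtype.ext hij)
  · intro i hi
    have hmem := (e.symm i).2
    rw [Finsupp.mem_support_iff] at hmem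
    have hi' : ((e.symm i : D.support) : Place K F) = P0 := hi
    rw [hi'] at hmem
    exact hmem hoff
  · have hone : ∀ v ∈ D.support, D v = 1 := by
      intro v hv
      have h1 : D v ≠ 0 := Finsupp.mem_support_iff.mp hv
      have h2 : 0 ≤ D v := hD v
      have h3 := hred v
      omega
    unfold sumDiv pt
    rw [Equiv.sum_comp e.symm (fun v : D.support => Finsupp.single (v : Place K F) (1 : ℤ)),
      Finset.sum_coe_sort D.support (fun v => Finsupp.single v (1 : ℤ))]
    conv_lhs => rw [← Finsupp.sum_single D]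
    rw [Finsupp.sum]
    exact Finset.sum_congr rfl fun v hv => by rw [hone v hv]

/-- Elements of `L(m P₀)` are regular away from `P₀`. -/
theorem ord_nonneg_of_mem_rr {P0 v : Place K F} {m : ℤ} {f : F}
    (hf : f ∈ riemannRochSpace (m • pt P0 : Divisor K F)) (hv : v ≠ P0) : 0 ≤ v.ord f := by
  rcases mem_riemannRochSpace_iff.mp hf v with rfl | h
  · rw [Place.ord_zero]
  · rwa [smul_pt_apply_of_ne hv, neg_zero] at h

end General

section EvalMap

variable {K : Type*} {F : Type*} [Field K] [Field F] [Algebra K F]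
variable {P0 : Place K F} {k : ℕ} {P : Fin k → Place K F}

/-- `L(m P₀ - ∑ P_i)` consists of the functions of `L(m P₀)` vanishing at all the `P_i`
(distinct places different from `P₀`). -/
theorem mem_rr_sub_sumDiv_iff (hval : ∀ v : Place K F, HasValues v)
    (hP : Function.Injective P) (hP0 : ∀ i, P i ≠ P0) (m : ℤ) (f : F) :
    f ∈ riemannRochSpace (m • pt P0 - sumDiv P : Divisor K F) ↔
      f ∈ riemannRochSpace (m • pt P0 : Divisor K F) ∧ ∀ i, ev (P i) f = 0 := by
  constructor
  · intro hf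
    have hf' := mem_riemannRochSpace_iff.mp hf
    refine ⟨mem_riemannRochSpace_iff.mpr fun v => ?_, fun i => ?_⟩
    · rcases hf' v with h | h
      · exact Or.inl h
      · right
        have h0 := sumDiv_apply_nonneg P v
        rw [Finsupp.sub_apply] at h
        linarith
    · rcases hf' (P i) with rfl | h
      · exact ev_zero _
      · rw [Finsupp.sub_apply, smul_pt_apply_of_ne (hP0 i), sumDiv_apply_of_injective hP] at h
        exact ev_eq_zero_of_ord_pos (by linarith)
  · rintro ⟨hf, hev⟩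
    refine mem_riemannRochSpace_iff.mpr fun v => ?_
    by_cases hv : ∃ i, P i = v
    · obtain ⟨i, rfl⟩ := hv
      have hreg := ord_nonneg_of_mem_rr hf (hP0 i)
      rcases (ev_eq_zero_iff (hval _) hreg).mp (hev i) with h | h
      · exact Or.inl h
      · right
        rw [Finsupp.sub_apply, smul_pt_apply_of_ne (hP0 i), sumDiv_apply_of_injective hP]
        linarith
    · push Not at hv
      rcases mem_riemannRochSpace_iff.mp hf v with h | h
      · exact Or.inl h
      · right
        rw [Finsupp.sub_apply, sumDiv_apply_of_forall_ne hv, sub_zero]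
        exact h

/-- The evaluation map `L(m P₀) → K^k` at places `P_i ≠ P₀` (all with residue field `K`). -/
def evalMap (hval : ∀ v : Place K F, HasValues v) (hP0 : ∀ i, P i ≠ P0) (m : ℤ) :
    ↥(riemannRochSpace (m • pt P0 : Divisor K F)) →ₗ[K] (Fin k → K) where
  toFun f := fun i => ev (P i) (f : F)
  map_add' f g := by
    funext i
    exact ev_add (hval _) (ord_nonneg_of_mem_rr f.2 (hP0 i)) (ord_nonneg_of_mem_rr g.2 (hP0 i))
  map_smul' c f := by
    funext i
    simp only [RingHom.id_apply, Pi.smul_apply, smul_eq_mul]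
    exact ev_smul (hval _) c (ord_nonneg_of_mem_rr f.2 (hP0 i))

@[simp]
theorem evalMap_apply (hval : ∀ v : Place K F, HasValues v) (hP0 : ∀ i, P i ≠ P0) (m : ℤ)
    (f : ↥(riemannRochSpace (m • pt P0 : Divisor K F))) (i : Fin k) :
    evalMap hval hP0 m f i = ev (P i) (f : F) := rfl

theorem ker_evalMap (hval : ∀ v : Place K F, HasValues v) (hP : Function.Injective P)
    (hP0 : ∀ i, P i ≠ P0) (m : ℤ) :
    LinearMap.ker (evalMap hval hP0 m) =
      (riemannRochSpace (m • pt P0 - sumDiv P : Divisor K F)).comap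
        (riemannRochSpace (m • pt P0 : Divisor K F)).subtype := by
  ext f
  rw [LinearMap.mem_ker, Submodule.mem_comap, Submodule.subtype_apply,
    mem_rr_sub_sumDiv_iff hval hP hP0]
  constructor
  · intro h
    exact ⟨f.2, fun i => congrFun h i⟩
  · rintro ⟨-, h⟩
    funext i
    exact h i

theorem rr_sub_sumDiv_le (hval : ∀ v : Place K F, HasValues v) (hP : Function.Injective P)
    (hP0 : ∀ i, P i ≠ P0) (m : ℤ) :
    riemannRochSpace (m • pt P0 - sumDiv P : Divisor K F) ≤
      riemannRochSpace (m • pt P0 : Divisor K F) :=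
  fun f hf => ((mem_rr_sub_sumDiv_iff hval hP hP0 m f).mp hf).1

/-- **(IND).** For `m - k ≥ c₁` (Riemann's equality holds from degree `c₁` on) the evaluation
map `L(m P₀) → K^k` at `k` distinct places `≠ P₀` is onto. -/
theorem evalMap_surjective (hval : ∀ v : Place K F, HasValues v)
    (hdeg : ∀ v : Place K F, v.deg = 1)
    (hfin : ∀ E : Divisor K F, Module.Finite K (riemannRochSpace E)) {c₁ g : ℤ}
    (hRR : ∀ E : Divisor K F, c₁ ≤ Divisor.degree E →
      (Module.finrank K (riemannRochSpace E) : ℤ) = Divisor.degree E + 1 - g)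
    (hP : Function.Injective P) (hP0 : ∀ i, P i ≠ P0) {m : ℤ} (hm : (k : ℤ) + c₁ ≤ m) :
    Function.Surjective (evalMap (P := P) hval hP0 m) := by
  have := hfin (m • pt P0)
  rw [← LinearMap.range_eq_top]
  apply Submodule.eq_top_of_finrank_eq
  rw [Module.finrank_fin_fun]
  have h1 := LinearMap.finrank_range_add_finrank_ker (evalMap (P := P) hval hP0 m)
  have h2 : Module.finrank K (LinearMap.ker (evalMap (P := P) hval hP0 m)) =
      Module.finrank K (riemannRochSpace (m • pt P0 - sumDiv P : Divisor K F)) := by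
    rw [ker_evalMap hval hP hP0 m]
    exact (Submodule.comapSubtypeEquivOfLe (rr_sub_sumDiv_le hval hP hP0 m)).finrank_eq
  have hk : (0 : ℤ) ≤ k := Int.natCast_nonneg k
  have h3 := hRR (m • pt P0) (by rw [degree_smul_pt hdeg]; linarith)
  have h4 := hRR (m • pt P0 - sumDiv P)
    (by rw [map_sub, degree_smul_pt hdeg, degree_sumDiv hdeg]; linarith)
  rw [degree_smul_pt hdeg] at h3
  rw [map_sub, degree_smul_pt hdeg, degree_sumDiv hdeg] at h4
  rw [h2] at h1
  omega

/-- Row independence of evaluation matrices: a linear relation among the evaluations at the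
`P_i` which holds on a spanning set of `L(m P₀)` is trivial (for `m - k ≥ c₁`). -/
theorem eq_zero_of_forall_sum_mul_ev_eq_zero (hval : ∀ v : Place K F, HasValues v)
    (hdeg : ∀ v : Place K F, v.deg = 1)
    (hfin : ∀ E : Divisor K F, Module.Finite K (riemannRochSpace E)) {c₁ g : ℤ}
    (hRR : ∀ E : Divisor K F, c₁ ≤ Divisor.degree E →
      (Module.finrank K (riemannRochSpace E) : ℤ) = Divisor.degree E + 1 - g)
    (hP : Function.Injective P) (hP0 : ∀ i, P i ≠ P0) {m : ℤ} (hm : (k : ℤ) + c₁ ≤ m)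
    {S : Set F} (hS : Submodule.span K S = riemannRochSpace (m • pt P0 : Divisor K F))
    (a : Fin k → K) (ha : ∀ f ∈ S, ∑ i, a i * ev (P i) f = 0) : a = 0 := by
  have key : ∀ f ∈ Submodule.span K S,
      f ∈ riemannRochSpace (m • pt P0 : Divisor K F) ∧ ∑ i, a i * ev (P i) f = 0 := by
    intro f hf
    induction hf using Submodule.span_induction with
    | mem f hf => exact ⟨hS ▸ Submodule.subset_span hf, ha f hf⟩
    | zero => exact ⟨zero_mem _, by simp [ev_zero]⟩
    | add f g _ _ ihf ihg =>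
      refine ⟨add_mem ihf.1 ihg.1, ?_⟩
      have hadd : ∀ i, ev (P i) (f + g) = ev (P i) f + ev (P i) g := fun i =>
        ev_add (hval _) (ord_nonneg_of_mem_rr ihf.1 (hP0 i)) (ord_nonneg_of_mem_rr ihg.1 (hP0 i))
      simp only [hadd, mul_add, Finset.sum_add_distrib, ihf.2, ihg.2, add_zero]
    | smul c f _ ihf =>
      refine ⟨Submodule.smul_mem _ c ihf.1, ?_⟩
      have hsm : ∀ i, ev (P i) (c • f) = c * ev (P i) f := fun i =>
        ev_smul (hval _) c (ord_nonneg_of_mem_rr ihf.1 (hP0 i))
      simp only [hsm]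
      calc ∑ i, a i * (c * ev (P i) f) = c * ∑ i, a i * ev (P i) f := by
            rw [Finset.mul_sum]
            exact Finset.sum_congr rfl fun i _ => by ring
        _ = 0 := by rw [ihf.2, mul_zero]
  funext j
  obtain ⟨f, hf⟩ := evalMap_surjective hval hdeg hfin hRR hP hP0 hm (Pi.single j 1)
  have h := (key (f : F) (by rw [hS]; exact f.2)).2
  have hfi : ∀ i, ev (P i) (f : F) = (Pi.single j 1 : Fin k → K) i := fun i => congrFun hf i
  simp only [hfi, Pi.single_apply, mul_ite, mul_one, mul_zero, Finset.sum_ite_eq',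
    Finset.mem_univ, if_true] at h
  exact h

end EvalMap

/-! ## The Plücker height `plkHeight` of the Spec as the height of evaluation minors -/

section PlkHeight

open Fermat.Agent.S17.helper3197

variable {n : ℕ} {V : Type*} [AddCommGroup V] [Module ℚ V] (b : Module.Basis (Fin n) ℚ V)
  (W : Submodule ℚ V)

/-- `plkHeight` unfolded for a finite-dimensional subspace. -/
theorem plkHeight_eq_of_finite [hW : Module.Finite ℚ W] :
    plkHeight b W = Height.logHeight (fun s : Fin (Module.finrank ℚ W) → Fin n =>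
      ((Matrix.of fun i j => b.repr ((Module.finBasis ℚ W i : W) : V) j).submatrix id s).det) := by
  unfold plkHeight
  rw [dif_pos hW]
  rfl

/-- The coordinate frame of `Module.finBasis ℚ W` is linearly independent. -/
theorem linearIndependent_repr_finBasis [Module.Finite ℚ W] :
    LinearIndependent ℚ (fun (i : Fin (Module.finrank ℚ W)) (j : Fin n) =>
      b.repr ((Module.finBasis ℚ W i : W) : V) j) :=
  (Module.finBasis ℚ W).linearIndependent.map' (b.equivFun.toLinearMap ∘ₗ W.subtype)
    (LinearMap.ker_eq_bot.mpr (b.equivFun.injective.comp W.injective_subtype))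

/-- **Identification at the level of `plkHeight`.** `E` a matrix over a number field `L` with
`k` linearly independent rows which kills the coordinate vectors of all elements of the
`ℚ`-subspace `W` of dimension `n - k`: then `h_L(minors E) = [L : ℚ] * plkHeight b W`. -/
theorem logHeight_minors_eq_plkHeight {L : Type*} [Field L] [NumberField L] {k : ℕ}
    [Module.Finite ℚ W] (E : Matrix (Fin k) (Fin n) L) (hE : LinearIndependent L E.row)
    (hker : ∀ w : W, E.mulVec (fun j => algebraMap ℚ L (b.repr (w : V) j)) = 0)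
    (hcard : Fintype.card (Fin n) = Module.finrank ℚ W + k) :
    Height.logHeight (fun s : Fin k → Fin n => (E.submatrix id s).det) =
      Module.finrank ℚ L * plkHeight b W := by
  rw [plkHeight_eq_of_finite b W]
  exact logHeight_minors_eq_of_ker E _ hE (linearIndependent_repr_finBasis b W)
    (fun i => hker (Module.finBasis ℚ W i)) hcard

end PlkHeight

/-! ## Part B: the carriers of `helper3197_PlueckerSpec` -/

section Carriers

open Fermat.Agent.S17.helper3197

variable {F₀ : IntermediateField ℚ (LaurentSeries ℚ)} {P0 : Place Qb (FB F₀)}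

theorem ratEmb_smul (q : ℚ) (y : F₀) : ratEmb F₀ (q • y) = (q : Qb) • ratEmb F₀ y := by
  rw [Rat.smul_def, map_mul, map_ratCast, Algebra.smul_def, map_ratCast]

/-- `m • P₀` is a rational divisor if `P₀` is a rational place. -/
theorem isRat_smul_pt (hP0 : IsRatPlace F₀ P0) (m : ℤ) : IsRat F₀ (m • pt P0) := by
  intro σ
  have h : (m • pt P0 : Divisor Qb (FB F₀)) = Finsupp.single P0 m := by
    unfold pt
    rw [Finsupp.smul_single, smul_eq_mul, mul_one]
  rw [h, SemilinearAut.smul_single, hP0 σ]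

theorem isRat_sub {D E : Divisor Qb (FB F₀)} (hD : IsRat F₀ D) (hE : IsRat F₀ E) :
    IsRat F₀ (D - E) := by
  intro σ
  rw [smul_sub, hD σ, hE σ]

/-- The image under `ratEmb` of an element of `A_m`, expanded in the frame. -/
theorem ratEmb_eq_sum (fr : Frame F₀ P0) (m : ℤ) (y : ↥(Alev F₀ P0 m)) :
    ratEmb F₀ (y : F₀) = ∑ s, (((fr.b m).repr y s : ℚ) : Qb) •
      ratEmb F₀ ((fr.b m s : ↥(Alev F₀ P0 m)) : F₀) := by
  have h := congrArg (fun z : ↥(Alev F₀ P0 m) => ratEmb F₀ (z : F₀)) ((fr.b m).sum_repr y)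
  simp only [Submodule.coe_sum, Submodule.coe_smul, map_sum, ratEmb_smul] at h
  exact h.symm

theorem ratEmb_mem_rr (m : ℤ) (y : ↥(Alev F₀ P0 m)) :
    ratEmb F₀ (y : F₀) ∈ riemannRochSpace (m • pt P0 : Divisor Qb (FB F₀)) := y.2

/-- The frame of `A_m` spans `L(m P₀)` over `ℚ̄` (Galois descent). -/
theorem span_ratEmb_frame (hP0 : IsRatPlace F₀ P0) (hQ : RatDescSpec F₀) (fr : Frame F₀ P0)
    (m : ℤ) :
    Submodule.span Qb (Set.range fun s => ratEmb F₀ ((fr.b m s : ↥(Alev F₀ P0 m)) : F₀)) =
      riemannRochSpace (m • pt P0 : Divisor Qb (FB F₀)) := by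
  rw [← (hQ (m • pt P0) (isRat_smul_pt hP0 m)).2.2]
  apply le_antisymm
  · refine Submodule.span_mono ?_
    rintro _ ⟨s, rfl⟩
    exact ⟨_, (fr.b m s).2, rfl⟩
  · refine Submodule.span_le.mpr ?_
    rintro _ ⟨y, hy, rfl⟩
    have h := ratEmb_eq_sum fr m ⟨y, hy⟩
    rw [show ratEmb F₀ y = ratEmb F₀ ((⟨y, hy⟩ : ↥(Alev F₀ P0 m)) : F₀) from rfl, h]
    exact Submodule.sum_mem _ fun s _ =>
      Submodule.smul_mem _ _ (Submodule.subset_span ⟨s, rfl⟩)

/-- Evaluation at a place `≠ P₀` of an element of `A_m`, expanded in the frame. -/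
theorem ev_ratEmb_eq_sum (hval : ∀ v : Place Qb (FB F₀), HasValues v) (fr : Frame F₀ P0) (m : ℤ)
    {v : Place Qb (FB F₀)} (hv : v ≠ P0) (y : ↥(Alev F₀ P0 m)) :
    ev v (ratEmb F₀ (y : F₀)) = ∑ s, (((fr.b m).repr y s : ℚ) : Qb) *
      ev v (ratEmb F₀ ((fr.b m s : ↥(Alev F₀ P0 m)) : F₀)) := by
  rw [ratEmb_eq_sum fr m y, ev_sum (hval v)]
  · refine Finset.sum_congr rfl fun s _ => ?_
    exact ev_smul (hval v) _ (ord_nonneg_of_mem_rr (ratEmb_mem_rr m (fr.b m s)) hv)
  · intro s _
    exact ord_nonneg_of_mem_rr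
      (Submodule.smul_mem _ _ (ratEmb_mem_rr m (fr.b m s))) hv

/-- `W_m(D) ≃ ratRR (m P₀ - D)` for `D = ∑ P_i` (distinct places `≠ P₀`). -/
def wlevEquiv (hval : ∀ v : Place Qb (FB F₀), HasValues v) {k : ℕ}
    {P : Fin k → Place Qb (FB F₀)} (hP : Function.Injective P) (hPne : ∀ i, P i ≠ P0) (m : ℤ) :
    ↥(Wlev F₀ P0 m (sumDiv P)) ≃ₗ[ℚ] ↥(ratRR F₀ (m • pt P0 - sumDiv P)) :=
  Submodule.comapSubtypeEquivOfLe (p := ratRR F₀ (m • pt P0 - sumDiv P))
    (q := Alev F₀ P0 m) fun _ hy => rr_sub_sumDiv_le hval hP hPne m hy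

section Main

variable (x : FB F₀) (hx : Transcendental Qb x) [FiniteDimensional Qb⟮x⟯ (FB F₀)]
  (hP0 : IsRatPlace F₀ P0) (hQ : RatDescSpec F₀)
  (hfin : ∀ E : Divisor Qb (FB F₀), Module.Finite Qb (riemannRochSpace E)) {c₁ : ℤ}
  (hRR : ∀ E : Divisor Qb (FB F₀), c₁ ≤ Divisor.degree E →
    (Module.finrank Qb (riemannRochSpace E) : ℤ)
      = Divisor.degree E + 1 - (genusFF Qb (FB F₀) : ℤ))
  (fr : Frame F₀ P0) {m : ℤ} {k : ℕ} {P : Fin k → Place Qb (FB F₀)}
  (hP : Function.Injective P) (hPne : ∀ i, P i ≠ P0) (hrat : IsRat F₀ (sumDiv P))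
  (hm : (k : ℤ) + c₁ ≤ m)
  {L : Type*} [Field L] [NumberField L] (ι : L →+* Qb) (E : Matrix (Fin k) (Fin (fr.n m)) L)
  (hE : ∀ i s, ι (E i s) = ev (P i) (ratEmb F₀ ((fr.b m s : ↥(Alev F₀ P0 m)) : F₀)))

include x hx hP0 hQ hfin hRR hP hPne hm ι hE in
/-- **Row independence of the evaluation matrix** `E_m(P_1, …, P_k)` (entries in any number
field `L` mapping to `ℚ̄`): distinct places `≠ P₀`, `m - k ≥ c₁`. -/
theorem linearIndependent_evalRows : LinearIndependent L E.row := by
  have hval : ∀ v : Place Qb (FB F₀), HasValues v := fun v => hasValues_of_finite x v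
  have hdeg : ∀ v : Place Qb (FB F₀), v.deg = 1 :=
    fun v => Fermat.Agent.S24.helper204.place_deg_eq_one x hx v
  rw [Fintype.linearIndependent_iff]
  intro g hg i
  have ha : (fun i => ι (g i)) = 0 := by
    refine eq_zero_of_forall_sum_mul_ev_eq_zero hval hdeg hfin hRR hP hPne hm
      (span_ratEmb_frame hP0 hQ fr m) (fun i => ι (g i)) ?_
    rintro _ ⟨s, rfl⟩
    have h1 := congrFun hg s
    simp only [Finset.sum_apply, Pi.smul_apply, Matrix.row_apply, smul_eq_mul,
      Pi.zero_apply] at h1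
    have h2 := congrArg ι h1
    rw [map_sum, map_zero] at h2
    simp only [map_mul, hE] at h2
    exact h2
  have := congrFun ha i
  exact (map_eq_zero ι).mp this

include x hx hP0 hQ hRR hP hPne hrat hm in
/-- The dimension count `dim A_m = dim W_m(D) + k`. -/
theorem card_frame_eq :
    Module.Finite ℚ ↥(Wlev F₀ P0 m (sumDiv P)) ∧
      Fintype.card (Fin (fr.n m)) = Module.finrank ℚ ↥(Wlev F₀ P0 m (sumDiv P)) + k := by
  have hval : ∀ v : Place Qb (FB F₀), HasValues v := fun v => hasValues_of_finite x v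
  have hdeg : ∀ v : Place Qb (FB F₀), v.deg = 1 :=
    fun v => Fermat.Agent.S24.helper204.place_deg_eq_one x hx v
  obtain ⟨-, hA, -⟩ := hQ (m • pt P0) (isRat_smul_pt hP0 m)
  obtain ⟨hWf, hW, -⟩ := hQ (m • pt P0 - sumDiv P) (isRat_sub (isRat_smul_pt hP0 m) hrat)
  have e := wlevEquiv hval hP hPne m
  have hfinW : Module.Finite ℚ ↥(Wlev F₀ P0 m (sumDiv P)) := Module.Finite.equiv e.symm
  refine ⟨hfinW, ?_⟩
  have hk : (0 : ℤ) ≤ k := Int.natCast_nonneg k
  have h3 := hRR (m • pt P0) (by rw [degree_smul_pt hdeg]; linarith)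
  have h4 := hRR (m • pt P0 - sumDiv P)
    (by rw [map_sub, degree_smul_pt hdeg, degree_sumDiv hdeg]; linarith)
  rw [degree_smul_pt hdeg] at h3
  rw [map_sub, degree_smul_pt hdeg, degree_sumDiv hdeg] at h4
  have h5 : Module.finrank ℚ ↥(Alev F₀ P0 m) = fr.n m := by
    rw [Module.finrank_eq_card_basis (fr.b m), Fintype.card_fin]
  rw [Fintype.card_fin, e.finrank_eq, hW, ← h5, hA]
  omega

include x hP hPne hE in
/-- The coordinate vector of an element of `W_m(D)` lies in the kernel of the evaluation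
matrix. -/
theorem evalMatrix_mulVec_repr_eq_zero (w : ↥(Wlev F₀ P0 m (sumDiv P))) :
    E.mulVec (fun j => algebraMap ℚ L ((fr.b m).repr (w : ↥(Alev F₀ P0 m)) j)) = 0 := by
  have hval : ∀ v : Place Qb (FB F₀), HasValues v := fun v => hasValues_of_finite x v
  funext i
  simp only [Matrix.mulVec, dotProduct, Pi.zero_apply]
  apply ι.injective
  rw [map_sum, map_zero]
  simp only [map_mul, hE, eq_ratCast, map_ratCast]
  have h1 := ev_ratEmb_eq_sum hval fr m (hPne i) (w : ↥(Alev F₀ P0 m))
  have h2 : ev (P i) (ratEmb F₀ ((w : ↥(Alev F₀ P0 m)) : F₀)) = 0 :=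
    ((mem_rr_sub_sumDiv_iff hval hP hPne m _).mp w.2).2 i
  rw [← h2, h1]
  exact Finset.sum_congr rfl fun s _ => mul_comm _ _

include x hx hP0 hQ hfin hRR hP hPne hrat hm ι hE in
/-- **(L7-PHIEV) Carrier identification.** For `k` distinct places `P_i ≠ P₀` whose sum is a
rational divisor and `m - k ≥ c₁`, the all-maps minors of the evaluation matrix
`E i s = (b_s)(P_i)` (entries in any number field `L` with `ι : L →+* ℚ̄`) have height
`[L : ℚ] * Φ_m(∑ P_i)`. -/
theorem logHeight_evalMinors_eq_Phi :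
    Height.logHeight (fun s : Fin k → Fin (fr.n m) => (E.submatrix id s).det) =
      Module.finrank ℚ L * Phi fr m (sumDiv P) := by
  obtain ⟨hWfin, hcard⟩ := card_frame_eq x hx hP0 hQ hRR fr hP hPne hrat hm
  have hErow := linearIndependent_evalRows x hx hP0 hQ hfin hRR fr hP hPne hm ι E hE
  have := hWfin
  exact logHeight_minors_eq_plkHeight (fr.b m) (Wlev F₀ P0 m (sumDiv P)) E hErow
    (fun w => evalMatrix_mulVec_repr_eq_zero x fr hP hPne ι E hE w) hcard

include x hx hP0 hQ hfin hRR hP hPne hm ι hE in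
/-- The vector of all-maps minors of the evaluation matrix is nonzero. -/
theorem evalMinors_ne_zero :
    (fun s : Fin k → Fin (fr.n m) => (E.submatrix id s).det) ≠ 0 :=
  minors_ne_zero_of_linearIndependent E
    (linearIndependent_evalRows x hx hP0 hQ hfin hRR fr hP hPne hm ι E hE)

end Main

/-- **(L7-PHIEV), packaged form on the Spec leaves.** Under the standing hypotheses of the
Spec, `RiemannSpec` and `RatDescSpec` give a threshold `c₁` such that for every frame, every
level `m` and every injective tuple of `k ≤ m - c₁` places `P_i ≠ P₀` with rational sum, the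
evaluation matrix `E i s = (b_s)(P_i)` (entries in any number field `L` with `ι : L →+* ℚ̄`) has
linearly independent rows and `h_L(minors E) = [L : ℚ] * Φ_m(∑ P_i)`. -/
theorem exists_logHeight_evalMinors_eq_Phi (F₀ : IntermediateField ℚ (LaurentSeries ℚ))
    (P0 : Place Qb (FB F₀)) (x : FB F₀) (hx : Transcendental Qb x)
    [FiniteDimensional Qb⟮x⟯ (FB F₀)] (hP0 : IsRatPlace F₀ P0) (hR : RiemannSpec F₀)
    (hQ : RatDescSpec F₀) :
    ∃ c₁ : ℤ, ∀ (fr : Frame F₀ P0) (m : ℤ) (k : ℕ) (P : Fin k → Place Qb (FB F₀)),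
      Function.Injective P → (∀ i, P i ≠ P0) → IsRat F₀ (sumDiv P) → (k : ℤ) + c₁ ≤ m →
      ∀ (L : Type) [Field L] [NumberField L] (ι : L →+* Qb)
        (E : Matrix (Fin k) (Fin (fr.n m)) L),
        (∀ i s, ι (E i s) = ev (P i) (ratEmb F₀ ((fr.b m s : ↥(Alev F₀ P0 m)) : F₀))) →
        LinearIndependent L E.row ∧
        Height.logHeight (fun s : Fin k → Fin (fr.n m) => (E.submatrix id s).det) =
          Module.finrank ℚ L * Phi fr m (sumDiv P) := by
  obtain ⟨hfin, c₁, hRR⟩ := hR
  refine ⟨c₁, fun fr m k P hP hPne hrat hm L _ _ ι E hE => ⟨?_, ?_⟩⟩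
  · exact linearIndependent_evalRows x hx hP0 hQ hfin hRR fr hP hPne hm ι E hE
  · exact logHeight_evalMinors_eq_Phi x hx hP0 hQ hfin hRR fr hP hPne hrat hm ι E hE

end Carriers

/-! ## Absolute form: `Phi` as the absolute height of the `ℚ̄`-valued evaluation minors -/

section Absolute

open Fermat.Agent.S17.helper3197
open Fermat.Agent.Lib

variable {F₀ : IntermediateField ℚ (LaurentSeries ℚ)} {P0 : Place Qb (FB F₀)}

/-- The `ℚ̄`-valued evaluation matrix of the level-`m` frame at the places `P_1, …, P_k`. -/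
def evMatQb (fr : Frame F₀ P0) (m : ℤ) {k : ℕ} (P : Fin k → Place Qb (FB F₀)) :
    Matrix (Fin k) (Fin (fr.n m)) Qb :=
  Matrix.of fun i a => ev (P i) (ratEmb F₀ ((fr.b m a : ↥(Alev F₀ P0 m)) : F₀))

theorem evMatQb_apply (fr : Frame F₀ P0) (m : ℤ) {k : ℕ} (P : Fin k → Place Qb (FB F₀))
    (i : Fin k) (a : Fin (fr.n m)) :
    evMatQb fr m P i a = ev (P i) (ratEmb F₀ ((fr.b m a : ↥(Alev F₀ P0 m)) : F₀)) := rfl

/-- A matrix over `ℚ̄` (any algebraic extension of `ℚ`) has its entries in a number field: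
the absolute height of its all-maps minors is the normalised height of the minors of a
model over a number field. -/
theorem absLogHeight_minors_eq_of_model {Ω : Type*} [Field Ω] [CharZero Ω] {L : Type*} [Field L]
    [NumberField L] (ι : L →+* Ω) {k n : ℕ} (M : Matrix (Fin k) (Fin n) Ω)
    (E : Matrix (Fin k) (Fin n) L) (hE : ∀ i s, ι (E i s) = M i s) :
    helper927.absLogHeight (fun s : Fin k → Fin n => (M.submatrix id s).det) =
      Height.logHeight (fun s : Fin k → Fin n => (E.submatrix id s).det) / Module.finrank ℚ L := by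
  have h2 : (fun s : Fin k → Fin n => (M.submatrix id s).det) =
      fun s => ι ((E.submatrix id s).det) := by
    funext s
    rw [RingHom.map_det]
    congr 1
    ext i j
    simp [hE]
  rw [h2, helper927.absLogHeight_ringHom ι (fun s => (E.submatrix id s).det)]

/-- Every matrix over an algebraic extension of `ℚ` has a model over a number field
(an intermediate field, as a type). -/
theorem exists_model_numberField {Ω : Type*} [Field Ω] [CharZero Ω] [Algebra.IsAlgebraic ℚ Ω]
    {k n : ℕ} (M : Matrix (Fin k) (Fin n) Ω) :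
    ∃ (L : IntermediateField ℚ Ω) (_ : NumberField L) (E : Matrix (Fin k) (Fin n) L),
      ∀ i s, algebraMap L Ω (E i s) = M i s := by
  obtain ⟨L, hL, hmem⟩ :=
    helper927.exists_numberField_range (fun p : Fin k × Fin n => M p.1 p.2)
  exact ⟨L, hL, Matrix.of fun i a => ⟨M i a, hmem (i, a)⟩, fun i s => rfl⟩

section Main

variable (x : FB F₀) (hx : Transcendental Qb x) [FiniteDimensional Qb⟮x⟯ (FB F₀)]
  (hP0 : IsRatPlace F₀ P0) (hQ : RatDescSpec F₀)
  (hfin : ∀ E : Divisor Qb (FB F₀), Module.Finite Qb (riemannRochSpace E)) {c₁ : ℤ}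
  (hRR : ∀ E : Divisor Qb (FB F₀), c₁ ≤ Divisor.degree E →
    (Module.finrank Qb (riemannRochSpace E) : ℤ)
      = Divisor.degree E + 1 - (genusFF Qb (FB F₀) : ℤ))
  (fr : Frame F₀ P0) {m : ℤ} {k : ℕ} {P : Fin k → Place Qb (FB F₀)}
  (hP : Function.Injective P) (hPne : ∀ i, P i ≠ P0) (hrat : IsRat F₀ (sumDiv P))
  (hm : (k : ℤ) + c₁ ≤ m)

include x hx hP0 hQ hfin hRR hP hPne hrat hm in
/-- **(PHIEV), absolute form.** `Phi fr m (∑ P_i)` is the absolute logarithmic height of the
all-maps `k × k` minors of the `ℚ̄`-valued evaluation matrix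
`(i, a) ↦ ev (P i) (ratEmb (fr.b m a))`. -/
theorem Phi_eq_absLogHeight_evalMinors :
    Phi fr m (sumDiv P) = helper927.absLogHeight (fun s : Fin k → Fin (fr.n m) =>
      ((evMatQb fr m P).submatrix id s).det) := by
  classical
  have : Algebra.IsAlgebraic ℚ Qb := AlgebraicClosure.isAlgebraic ℚ
  obtain ⟨L, hL, E, hE⟩ := exists_model_numberField (evMatQb fr m P)
  have h1 := logHeight_evalMinors_eq_Phi x hx hP0 hQ hfin hRR fr hP hPne hrat hm
    (algebraMap L Qb) E hE
  rw [absLogHeight_minors_eq_of_model (algebraMap L Qb) (evMatQb fr m P) E hE, h1]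
  have hpos : (0 : ℝ) < Module.finrank ℚ L := by exact_mod_cast Module.finrank_pos
  field_simp

include x hx hP0 hQ hfin hRR hP hPne hm in
/-- The rows of the `ℚ̄`-valued evaluation matrix are linearly independent. -/
theorem linearIndependent_evMatQb_row : LinearIndependent Qb (evMatQb fr m P).row := by
  have hval : ∀ v : Place Qb (FB F₀), HasValues v := fun v => hasValues_of_finite x v
  have hdeg : ∀ v : Place Qb (FB F₀), v.deg = 1 :=
    fun v => Fermat.Agent.S24.helper204.place_deg_eq_one x hx v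
  rw [Fintype.linearIndependent_iff]
  intro g hg
  have ha : g = 0 := by
    refine eq_zero_of_forall_sum_mul_ev_eq_zero hval hdeg hfin hRR hP hPne hm
      (span_ratEmb_frame hP0 hQ fr m) g ?_
    rintro _ ⟨s, rfl⟩
    have h1 := congrFun hg s
    simpa only [Finset.sum_apply, Pi.smul_apply, Matrix.row_apply, smul_eq_mul,
      Pi.zero_apply, evMatQb_apply] using h1
  intro i
  exact congrFun ha i

end Main

/-- **(PHIEV), absolute form, packaged** for the consumers of `helper3197_PlueckerSpec`. -/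
theorem exists_Phi_eq_absLogHeight_evalMinors (F₀ : IntermediateField ℚ (LaurentSeries ℚ))
    (P0 : Place Qb (FB F₀)) (x : FB F₀) (hx : Transcendental Qb x)
    [FiniteDimensional Qb⟮x⟯ (FB F₀)] (hP0 : IsRatPlace F₀ P0) (hR : RiemannSpec F₀)
    (hQ : RatDescSpec F₀) :
    ∃ c₁ : ℤ, ∀ (fr : Frame F₀ P0) (m : ℤ) (k : ℕ) (P : Fin k → Place Qb (FB F₀)),
      Function.Injective P → (∀ i, P i ≠ P0) → IsRat F₀ (sumDiv P) → (k : ℤ) + c₁ ≤ m →
        Phi fr m (sumDiv P) = helper927.absLogHeight (fun s : Fin k → Fin (fr.n m) =>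
          ((Matrix.of fun (i : Fin k) (a : Fin (fr.n m)) =>
            ev (P i) (ratEmb F₀ ((fr.b m a : ↥(Alev F₀ P0 m)) : F₀))).submatrix id s).det) := by
  obtain ⟨hfin, c₁, hRR⟩ := hR
  exact ⟨c₁, fun fr m k P hP hPne hrat hm =>
    Phi_eq_absLogHeight_evalMinors x hx hP0 hQ hfin hRR fr hP hPne hrat hm⟩

/-- **Row independence, packaged** (the `(IND)` input in the shape of a sub-family of a fixed
injective family of places): for `f` injective, the evaluation vectors of the places
`P (f i)` at level `m ≥ k + c₁` are `ℚ̄`-linearly independent. -/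
theorem exists_linearIndependent_evalRows_Qb (F₀ : IntermediateField ℚ (LaurentSeries ℚ))
    (P0 : Place Qb (FB F₀)) (x : FB F₀) (hx : Transcendental Qb x)
    [FiniteDimensional Qb⟮x⟯ (FB F₀)] (hP0 : IsRatPlace F₀ P0) (hR : RiemannSpec F₀)
    (hQ : RatDescSpec F₀) :
    ∃ c₁ : ℤ, ∀ (fr : Frame F₀ P0) (m : ℤ) (k : ℕ) (P : Fin k → Place Qb (FB F₀)),
      Function.Injective P → (∀ i, P i ≠ P0) → (k : ℤ) + c₁ ≤ m →
        LinearIndependent Qb (fun (i : Fin k) (a : Fin (fr.n m)) =>
          ev (P i) (ratEmb F₀ ((fr.b m a : ↥(Alev F₀ P0 m)) : F₀))) := by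
  obtain ⟨hfin, c₁, hRR⟩ := hR
  exact ⟨c₁, fun fr m k P hP hPne hm =>
    linearIndependent_evMatQb_row x hx hP0 hQ hfin hRR fr hP hPne hm⟩

/-- **(IND) + (PHIEV), absolute form, with one constant.** -/
theorem exists_evalQb_indep_and_Phi (F₀ : IntermediateField ℚ (LaurentSeries ℚ))
    (P0 : Place Qb (FB F₀)) (x : FB F₀) (hx : Transcendental Qb x)
    [FiniteDimensional Qb⟮x⟯ (FB F₀)] (hP0 : IsRatPlace F₀ P0) (hR : RiemannSpec F₀)
    (hQ : RatDescSpec F₀) :
    ∃ c₁ : ℤ, ∀ (fr : Frame F₀ P0) (m : ℤ) (k : ℕ) (P : Fin k → Place Qb (FB F₀)),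
      Function.Injective P → (∀ i, P i ≠ P0) → (k : ℤ) + c₁ ≤ m →
        LinearIndependent Qb (fun (i : Fin k) (a : Fin (fr.n m)) =>
          ev (P i) (ratEmb F₀ ((fr.b m a : ↥(Alev F₀ P0 m)) : F₀))) ∧
        (IsRat F₀ (sumDiv P) →
          Phi fr m (sumDiv P) = helper927.absLogHeight (fun s : Fin k → Fin (fr.n m) =>
            ((Matrix.of fun (i : Fin k) (a : Fin (fr.n m)) =>
              ev (P i) (ratEmb F₀ ((fr.b m a : ↥(Alev F₀ P0 m)) : F₀))).submatrix id s).det)) := by
  obtain ⟨hfin, c₁, hRR⟩ := hR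
  exact ⟨c₁, fun fr m k P hP hPne hm =>
    ⟨linearIndependent_evMatQb_row x hx hP0 hQ hfin hRR fr hP hPne hm, fun hrat =>
      Phi_eq_absLogHeight_evalMinors x hx hP0 hQ hfin hRR fr hP hPne hrat hm⟩⟩

end Absolute


section Absolute2

open Fermat.Agent.S17.helper3197
open Fermat.Agent.Lib

/-- **(PHIEV), absolute form with nonvanishing** (shape (P4) of the chart track): the all-maps
minor vector of the `ℚ̄`-valued evaluation matrix, written with `Matrix.of`, is nonzero and its
absolute height is `Phi fr m (∑ P_i)`. -/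
theorem exists_absLogHeight_evalMinors_eq_Phi (F₀ : IntermediateField ℚ (LaurentSeries ℚ))
    (P0 : Place Qb (FB F₀)) (x : FB F₀) (hx : Transcendental Qb x)
    [FiniteDimensional Qb⟮x⟯ (FB F₀)] (hP0 : IsRatPlace F₀ P0) (hR : RiemannSpec F₀)
    (hQ : RatDescSpec F₀) :
    ∃ c₁ : ℤ, ∀ (fr : Frame F₀ P0) (m : ℤ) (k : ℕ) (P : Fin k → Place Qb (FB F₀)),
      Function.Injective P → (∀ i, P i ≠ P0) → IsRat F₀ (sumDiv P) → (k : ℤ) + c₁ ≤ m →
        (fun s : Fin k → Fin (fr.n m) => Matrix.det (Matrix.of fun i j =>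
          ev (P i) (ratEmb F₀ ((fr.b m (s j) : ↥(Alev F₀ P0 m)) : F₀)))) ≠ 0 ∧
        helper927.absLogHeight (fun s : Fin k → Fin (fr.n m) => Matrix.det (Matrix.of fun i j =>
          ev (P i) (ratEmb F₀ ((fr.b m (s j) : ↥(Alev F₀ P0 m)) : F₀)))) =
          Phi fr m (sumDiv P) := by
  obtain ⟨hfin, c₁, hRR⟩ := hR
  refine ⟨c₁, fun fr m k P hP hPne hrat hm => ⟨?_, ?_⟩⟩
  · exact minors_ne_zero_of_linearIndependent (evMatQb fr m P)
      (linearIndependent_evMatQb_row x hx hP0 hQ hfin hRR fr hP hPne hm)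
  · exact (Phi_eq_absLogHeight_evalMinors x hx hP0 hQ hfin hRR fr hP hPne hrat hm).symm

end Absolute2

end

end Fermat.Agent.S17.helper3588
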