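/-
S17 (Mordell–Weil for `JZero N`), Plücker track, leaf L7 track (A), piece (P5) "A-inst"
(helper1614; shapes fixed by the track owner helper9651, team_s17_chat #316).

An admissible triple `(D₁, D₂, D₃)` of degree `d` is enumerated by ONE injective family of
`n = 3 d` places different from `P0`, together with three pairwise disjoint sets of slots
`T₁, T₂, T₃` of cardinality `d` such that `D_i = ∑ j ∈ T_i, pt (P j)`.

* `exists_enum_of_isAdmTriple` : the enumeration;
* `sumDiv_orderEmb`            : the divisor of a sub-family enumerated by a finset of slots.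
-/
import Fermat.Agent.S17.helper3197_PlueckerSpec
import Fermat.Agent.S17.helper3588_PhiEval
import Fermat.Agent.S24.helper204_Places

set_option autoImplicit false

open ModularCurve AlgebraicCurve IntermediateField
open Fermat.Agent.S27.helper6247
open Fermat.Agent.S17.helper3197

namespace Fermat.Agent.S17.helper1614

noncomputable section

section General

variable {K : Type*} {F : Type*} [Field K] [Field F] [Algebra K F]

/-- The divisor of a sub-family enumerated by the sorted enumeration of a finset of slots. -/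
theorem sumDiv_orderEmb {n : ℕ} (P : Fin n → Place K F) (T : Finset (Fin n)) :
    (sumDiv (fun i : Fin T.card => P (T.orderEmbOfFin rfl i)) : Divisor K F)
      = ∑ j ∈ T, pt (P j) :=
  helper3588.sumDiv_comp_orderEmbOfFin P T rfl

/-- Value of a sum of point divisors over a set of slots of an injective family, at a member. -/
theorem sum_pt_apply_of_injective {n : ℕ} {P : Fin n → Place K F} (hP : Function.Injective P)
    (T : Finset (Fin n)) (j : Fin n) [Decidable (j ∈ T)] :
    (∑ i ∈ T, pt (P i) : Divisor K F) (P j) = if j ∈ T then 1 else 0 := by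
  classical
  rw [Finsupp.finsetSum_apply]
  split_ifs with hj
  · rw [Finset.sum_eq_single_of_mem j hj]
    · exact helper3588.pt_apply_self _
    · intro i _ hij
      exact helper3588.pt_apply_of_ne fun h => hij (hP h)
  · refine Finset.sum_eq_zero fun i hi => helper3588.pt_apply_of_ne fun h => hj ?_
    rw [← hP h]
    exact hi

/-- Value of a sum of point divisors over a set of slots at a place outside the family. -/
theorem sum_pt_apply_of_forall_ne {n : ℕ} {P : Fin n → Place K F} {v : Place K F}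
    (h : ∀ i, P i ≠ v) (T : Finset (Fin n)) :
    (∑ i ∈ T, pt (P i) : Divisor K F) v = 0 := by
  rw [Finsupp.finsetSum_apply]
  exact Finset.sum_eq_zero fun i _ => helper3588.pt_apply_of_ne (h i)

/-- Degree of a sum of point divisors over a set of slots (all places of degree one). -/
theorem degree_sum_pt (hdeg : ∀ v : Place K F, v.deg = 1) {n : ℕ} (P : Fin n → Place K F)
    (T : Finset (Fin n)) :
    Divisor.degree (∑ j ∈ T, pt (P j) : Divisor K F) = T.card := by
  unfold pt
  rw [map_sum]
  simp [hdeg]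

/-- **Enumeration of a reduced triple** (any function field with all places of degree one):
three effective divisors of degree `d` whose sum is multiplicity free and avoids `P0` are the
sums of point divisors over three pairwise disjoint sets of `d` slots of one injective family of
`3 d` places different from `P0`. -/
theorem exists_enum_of_reduced_triple (hdeg : ∀ v : Place K F, v.deg = 1) (P0 : Place K F)
    {d : ℤ} {D₁ D₂ D₃ : Divisor K F} (h₁ : 0 ≤ D₁) (h₂ : 0 ≤ D₂) (h₃ : 0 ≤ D₃)
    (hd₁ : Divisor.degree D₁ = d) (hd₂ : Divisor.degree D₂ = d) (hd₃ : Divisor.degree D₃ = d)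
    (hoff : (D₁ + D₂ + D₃) P0 = 0) (hred : ∀ v : Place K F, (D₁ + D₂ + D₃) v ≤ 1)
    (n : ℕ) (hn : (n : ℤ) = 3 * d) :
    ∃ (P : Fin n → Place K F) (T₁ T₂ T₃ : Finset (Fin n)),
      Function.Injective P ∧ (∀ j, P j ≠ P0) ∧
      Disjoint T₁ T₂ ∧ Disjoint T₁ T₃ ∧ Disjoint T₂ T₃ ∧
      (∑ j ∈ T₁, pt (P j) = D₁) ∧ (∑ j ∈ T₂, pt (P j) = D₂) ∧ (∑ j ∈ T₃, pt (P j) = D₃) ∧
      (T₁.card : ℤ) = d ∧ (T₂.card : ℤ) = d ∧ (T₃.card : ℤ) = d := by
  classical
  have hD : (0 : Divisor K F) ≤ D₁ + D₂ + D₃ := add_nonneg (add_nonneg h₁ h₂) h₃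
  obtain ⟨k, P, hPinj, hP0, hDP⟩ :=
    helper3588.exists_enum_of_reduced P0 (D₁ + D₂ + D₃) hD hred hoff
  -- the number of slots is `n`
  have hk : k = n := by
    have h1 : Divisor.degree (D₁ + D₂ + D₃) = (k : ℤ) := by
      rw [hDP]
      exact helper3588.degree_sumDiv hdeg P
    rw [map_add, map_add, hd₁, hd₂, hd₃] at h1
    have h2 : (k : ℤ) = (n : ℤ) := by rw [hn, ← h1]; ring
    exact_mod_cast h2
  subst hk
  -- pointwise facts
  have hn₁ : ∀ v, 0 ≤ D₁ v := fun v => h₁ v
  have hn₂ : ∀ v, 0 ≤ D₂ v := fun v => h₂ v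
  have hn₃ : ∀ v, 0 ≤ D₃ v := fun v => h₃ v
  have hsum : ∀ v, D₁ v + D₂ v + D₃ v ≤ 1 := fun v => by
    have := hred v
    rwa [Finsupp.add_apply, Finsupp.add_apply] at this
  have hout : ∀ v, (∀ i, P i ≠ v) → D₁ v + D₂ v + D₃ v = 0 := fun v hv => by
    have h0 : (D₁ + D₂ + D₃) v = 0 := by
      rw [hDP]
      exact helper3588.sumDiv_apply_of_forall_ne hv
    rwa [Finsupp.add_apply, Finsupp.add_apply] at h0
  -- the key: a nonnegative divisor with values `≤ 1`, zero off the family, is a sum of points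
  have key : ∀ E : Divisor K F, (∀ v, 0 ≤ E v) → (∀ v, E v ≤ 1) →
      (∀ v, (∀ i, P i ≠ v) → E v = 0) →
      ∑ j ∈ Finset.univ.filter (fun j => E (P j) = 1), pt (P j) = E := by
    intro E hE0 hE1 hEout
    ext v
    by_cases hv : ∃ j, P j = v
    · obtain ⟨j, rfl⟩ := hv
      rw [sum_pt_apply_of_injective hPinj]
      have a := hE0 (P j)
      have b := hE1 (P j)
      split_ifs with hj
      · exact ((Finset.mem_filter.mp hj).2).symm
      · have hne : E (P j) ≠ 1 := fun h => hj (Finset.mem_filter.mpr ⟨Finset.mem_univ _, h⟩)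
        omega
    · have hv' : ∀ i, P i ≠ v := fun i hi => hv ⟨i, hi⟩
      rw [sum_pt_apply_of_forall_ne hv', hEout v hv']
  have hcard : ∀ (E : Divisor K F) (T : Finset (Fin k)), ∑ j ∈ T, pt (P j) = E →
      Divisor.degree E = d → (T.card : ℤ) = d := by
    intro E T hT hE
    rw [← hE, ← hT, degree_sum_pt hdeg]
  have e₁ := key D₁ hn₁ (fun v => by have := hsum v; have := hn₂ v; have := hn₃ v; omega)
    (fun v hv => by have := hout v hv; have := hn₁ v; have := hn₂ v; have := hn₃ v; omega)
  have e₂ := key D₂ hn₂ (fun v => by have := hsum v; have := hn₁ v; have := hn₃ v; omega)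
    (fun v hv => by have := hout v hv; have := hn₁ v; have := hn₂ v; have := hn₃ v; omega)
  have e₃ := key D₃ hn₃ (fun v => by have := hsum v; have := hn₁ v; have := hn₂ v; omega)
    (fun v hv => by have := hout v hv; have := hn₁ v; have := hn₂ v; have := hn₃ v; omega)
  refine ⟨P, Finset.univ.filter (fun j => D₁ (P j) = 1),
    Finset.univ.filter (fun j => D₂ (P j) = 1), Finset.univ.filter (fun j => D₃ (P j) = 1),
    hPinj, hP0, ?_, ?_, ?_, e₁, e₂, e₃, hcard _ _ e₁ hd₁, hcard _ _ e₂ hd₂, hcard _ _ e₃ hd₃⟩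
  · rw [Finset.disjoint_left]
    intro j hj₁ hj₂
    have a := (Finset.mem_filter.mp hj₁).2
    have b := (Finset.mem_filter.mp hj₂).2
    have := hsum (P j); have := hn₃ (P j)
    omega
  · rw [Finset.disjoint_left]
    intro j hj₁ hj₂
    have a := (Finset.mem_filter.mp hj₁).2
    have b := (Finset.mem_filter.mp hj₂).2
    have := hsum (P j); have := hn₂ (P j)
    omega
  · rw [Finset.disjoint_left]
    intro j hj₁ hj₂
    have a := (Finset.mem_filter.mp hj₁).2
    have b := (Finset.mem_filter.mp hj₂).2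
    have := hsum (P j); have := hn₁ (P j)
    omega

end General

section Carrier

variable {F₀ : IntermediateField ℚ (LaurentSeries ℚ)} {P0 : Place Qb (FB F₀)}

/-- **(P5) A-inst.** An admissible triple of degree `d` is enumerated by one injective family of
`n = 3 d` places different from `P0` and three pairwise disjoint sets of `d` slots. -/
theorem exists_enum_of_isAdmTriple (x : FB F₀) (hx : Transcendental Qb x)
    [FiniteDimensional Qb⟮x⟯ (FB F₀)] {d : ℤ} {D₁ D₂ D₃ : Divisor Qb (FB F₀)}
    (h : IsAdmTriple F₀ P0 d D₁ D₂ D₃) (n : ℕ) (hn : (n : ℤ) = 3 * d) :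
    ∃ (P : Fin n → Place Qb (FB F₀)) (T₁ T₂ T₃ : Finset (Fin n)),
      Function.Injective P ∧ (∀ j, P j ≠ P0) ∧
      Disjoint T₁ T₂ ∧ Disjoint T₁ T₃ ∧ Disjoint T₂ T₃ ∧
      (∑ j ∈ T₁, pt (P j) = D₁) ∧ (∑ j ∈ T₂, pt (P j) = D₂) ∧ (∑ j ∈ T₃, pt (P j) = D₃) ∧
      (T₁.card : ℤ) = d ∧ (T₂.card : ℤ) = d ∧ (T₃.card : ℤ) = d :=
  exists_enum_of_reduced_triple (Fermat.Agent.S24.helper204.place_deg_eq_one x hx) P0
    h.eff₁ h.eff₂ h.eff₃ h.deg₁ h.deg₂ h.deg₃ h.off h.red n hn

/-- In an admissible triple the degree is nonnegative. -/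
theorem nonneg_of_isAdmTriple (x : FB F₀) (hx : Transcendental Qb x)
    [FiniteDimensional Qb⟮x⟯ (FB F₀)] {d : ℤ} {D₁ D₂ D₃ : Divisor Qb (FB F₀)}
    (h : IsAdmTriple F₀ P0 d D₁ D₂ D₃) : 0 ≤ d := by
  have hdeg := Fermat.Agent.S24.helper204.place_deg_eq_one x hx
  obtain ⟨k, P, -, -, hDP⟩ := helper3588.exists_enum_of_reduced P0 D₁ h.eff₁
    (fun v => by
      have h1 := h.red v
      have h2 : 0 ≤ D₂ v := h.eff₂ v
      have h3 : 0 ≤ D₃ v := h.eff₃ v
      rw [Finsupp.add_apply, Finsupp.add_apply] at h1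
      omega)
    (by
      have h1 := h.off
      have h0 : 0 ≤ D₁ P0 := h.eff₁ P0
      have h2 : 0 ≤ D₂ P0 := h.eff₂ P0
      have h3 : 0 ≤ D₃ P0 := h.eff₃ P0
      rw [Finsupp.add_apply, Finsupp.add_apply] at h1
      omega)
  have := helper3588.degree_sumDiv hdeg P
  rw [← hDP, h.deg₁] at this
  rw [this]
  exact Nat.cast_nonneg k

end Carrier

end

end Fermat.Agent.S17.helper1614
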