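/-
S17-M0-KRR (helper1665), part 1: the EXACT tame different in the place vocabulary.

* `mem_traceDual_of_valuation_le` (Mathlib-only, any characteristic): if `v_w(y) ≥ -(e_w - 1)` at
  every prime `w` of `B` (with `w ^ e_w ∣ pB`), then `y` lies in the trace dual of `B` over `A`
  (from Mathlib's `pow_sub_one_dvd_differentIdeal`).
* `mem_traceDual_iff_ord`: for `K` algebraically closed of characteristic zero, `u`
  transcendental, `F` finite over `K(u)`, `B` the integral closure of `K[u]`:
  `z ∈ B^∨  ↔  ∀ v c, 0 < ord_v (u - c) → z = 0 ∨ -(ord_v (u - c) - 1) ≤ ord_v z`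
  (the reverse inclusion is the tame bound of S18 `helper6082_TameDifferent`).
* `isChartDual_iff_ord`: the chart-dual condition `Tr(y B) ⊆ u K[u]` (`y du/u` regular on the
  chart `u ≠ ∞`) in terms of `Place.ord`.
-/
import Mathlib
import Fermat.Agent.S24.helper204_Places
import Fermat.Agent.S18.helper6082_TameDifferent

set_option autoImplicit false
set_option linter.unusedSectionVars false

namespace Fermat.Agent.S17.helper1665

open Module nonZeroDivisors IsDedekindDomain AlgebraicCurve IntermediateField Polynomial
open Fermat.Agent.S24.helper204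
open scoped IntermediateField.algebraAdjoinAdjoin

attribute [local instance] FractionRing.liftAlgebra FractionRing.isScalarTower_liftAlgebra

section Elementwise

variable (A K : Type*) {L : Type*} {B : Type*} [CommRing A] [Field K] [CommRing B] [Field L]
variable [Algebra A K] [Algebra B L] [Algebra A B] [Algebra K L] [Algebra A L]
variable [IsScalarTower A K L] [IsScalarTower A B L]
variable [IsFractionRing A K] [IsFractionRing B L]
variable [IsDedekindDomain A] [IsDedekindDomain B] [IsTorsionFree A B] [Module.Finite A B]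
variable [FiniteDimensional K L] [Algebra.IsSeparable K L]

/-- **Elementwise lower bound of the different (any characteristic).**  If at every prime `w`
of `B` the element `y` has `v_w(y) ≥ -(e_w - 1)`, where `w ^ e_w` divides `pB` for some nonzero
maximal ideal `p` of `A`, then `y` lies in the trace dual of `B`. -/
theorem mem_traceDual_of_valuation_le
    (e : HeightOneSpectrum B → ℕ)
    (he : ∀ w : HeightOneSpectrum B, ∃ p : Ideal A, p.IsMaximal ∧ p ≠ ⊥ ∧
      w.asIdeal ^ e w ∣ p.map (algebraMap A B))
    {y : L} (hy : ∀ w : HeightOneSpectrum B, w.valuation L y ≤ WithZero.exp ((e w : ℤ) - 1)) :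
    y ∈ Submodule.traceDual A K (1 : Submodule B L) := by
  have H : RingHom.comp (algebraMap (FractionRing A) (FractionRing B))
      ↑(FractionRing.algEquiv A K).symm.toRingEquiv =
        RingHom.comp ↑(FractionRing.algEquiv B L).symm.toRingEquiv (algebraMap K L) := by
    apply IsLocalization.ringHom_ext A⁰
    ext
    simp only [RingHom.coe_comp, RingHom.coe_coe,
      AlgEquiv.coe_ringEquiv, Function.comp_apply, AlgEquiv.commutes,
      ← IsScalarTower.algebraMap_apply]
    rw [IsScalarTower.algebraMap_apply A B L, AlgEquiv.commutes, ← IsScalarTower.algebraMap_apply]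
  have : Algebra.IsSeparable (FractionRing A) (FractionRing B) :=
    Algebra.IsSeparable.of_equiv_equiv _ _ H
  -- every element of the different times `y` is integral
  have key : ∀ δ ∈ differentIdeal A B, ∃ b : B, algebraMap B L b = y * algebraMap B L δ := by
    intro δ hδ
    have hval : ∀ w : HeightOneSpectrum B, w.valuation L (y * algebraMap B L δ) ≤ 1 := by
      intro w
      obtain ⟨p, hpmax, hp0, hdvd⟩ := he w
      have hdiv : w.asIdeal ^ (e w - 1) ∣ differentIdeal A B :=
        pow_sub_one_dvd_differentIdeal A w.asIdeal (e w) hp0 hdvd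
      have hδw : δ ∈ w.asIdeal ^ (e w - 1) := Ideal.dvd_iff_le.mp hdiv hδ
      have h1 : w.valuation L (algebraMap B L δ) ≤ WithZero.exp (-((e w - 1 : ℕ) : ℤ)) := by
        rw [w.valuation_of_algebraMap]
        exact (w.intValuation_le_pow_iff_mem δ (e w - 1)).mpr hδw
      rw [map_mul]
      calc w.valuation L y * w.valuation L (algebraMap B L δ)
          ≤ WithZero.exp ((e w : ℤ) - 1) * WithZero.exp (-((e w - 1 : ℕ) : ℤ)) :=
            mul_le_mul' (hy w) h1
        _ = WithZero.exp ((e w : ℤ) - 1 + -((e w - 1 : ℕ) : ℤ)) := by rw [WithZero.exp_add]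
        _ ≤ 1 := by
            rw [← WithZero.exp_zero, WithZero.exp_le_exp]
            omega
    obtain ⟨b, hb⟩ := HeightOneSpectrum.mem_integers_of_valuation_le_one L _ hval
    exact ⟨b, hb⟩
  have hD0 : ((differentIdeal A B : Ideal B) : FractionalIdeal B⁰ L) ≠ 0 := by
    rw [Ne, FractionalIdeal.coeIdeal_eq_zero]
    exact differentIdeal_ne_bot
  have hmem : y ∈ ((differentIdeal A B : Ideal B) : FractionalIdeal B⁰ L)⁻¹ := by
    rw [FractionalIdeal.mem_inv_iff hD0]
    intro z hz
    obtain ⟨δ, hδ, rfl⟩ := (FractionalIdeal.mem_coeIdeal _).mp hz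
    obtain ⟨b, hb⟩ := key δ hδ
    rw [FractionalIdeal.mem_one_iff]
    exact ⟨b, hb⟩
  rw [coeIdeal_differentIdeal A K L B, inv_inv] at hmem
  have := (FractionalIdeal.mem_coe).mpr hmem
  rwa [FractionalIdeal.coe_dual_one] at this

end Elementwise

section PlaceForm

variable {K F : Type*} [Field K] [Field F] [Algebra K F]

/-- The chart-dual condition: `Tr_{F/K(u)}(y B) ⊆ u K[u]` for `B` the integral closure of
`K[u]` (equivalently: `y du/u` is regular at every place where `u` is finite). -/
def IsChartDual (K : Type*) {F : Type*} [Field K] [Field F] [Algebra K F] (u y : F) : Prop :=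
  ∀ b : F, IsIntegral (Algebra.adjoin K {u}) b →
    ∃ p : K[X], ((Algebra.trace K⟮u⟯ F (y * b) : K⟮u⟯) : F) = u * aeval u p

variable [IsAlgClosed K] [CharZero K] {u : F} [FiniteDimensional K⟮u⟯ F]

/-- A nonzero prime of the integral closure of `K[u]` lies over a point `u = c`. -/
theorem exists_center (hu : Transcendental K u)
    (w : HeightOneSpectrum (integralClosure (Algebra.adjoin K {u}) F)) :
    ∃ c : K, w.asIdeal.LiesOver (pc K u c) ∧
      0 < (Place.ofHeightOneSpectrum (K := K) (F := F) w).ord (u - algebraMap K F c) := by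
  set v : Place K F := Place.ofHeightOneSpectrum (K := K) (F := F) w with hv
  have huB : IsIntegral (Algebra.adjoin K {u}) u :=
    isIntegral_algebraMap (R := Algebra.adjoin K {u}) (A := F) (x := gen K u)
  have hval : w.valuation F u ≤ 1 :=
    w.valuation_le_one (K := F) (⟨u, huB⟩ : integralClosure (Algebra.adjoin K {u}) F)
  have huv : 0 ≤ v.ord u := by
    rw [hv, ord_ofHeightOneSpectrum]
    rcases eq_or_ne (w.valuation F u) 0 with h0 | h0
    · rw [h0]; simp
    · rw [neg_nonneg]
      have := (WithZero.log_le_log h0 one_ne_zero).mpr hval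
      simpa using this
  rcases place_center u hu v with hneg | ⟨c, hc, -⟩
  · exact absurd hneg (not_lt.mpr huv)
  · obtain ⟨w', hw'over, hw'v⟩ := exists_heightOneSpectrum_of_ord_pos hu c v hc
    have hww : w' = w := ofHeightOneSpectrum_injective (K := K) (F := F) hw'v
    refine ⟨c, ?_, hc⟩
    rw [hww] at hw'over
    exact hw'over

open UniqueFactorizationMonoid in
/-- In a Dedekind domain, `Q ^ e ∣ D` iff `e` is at most the multiplicity of `Q` in `D`. -/
theorem pow_dvd_iff_le_count_factors {T : Type*} [CommRing T] [IsDedekindDomain T] {Q D : Ideal T}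
    (hQ : Prime Q) (hD : D ≠ ⊥) (e : ℕ) :
    Q ^ e ∣ D ↔ e ≤ Multiset.count Q (normalizedFactors D) := by
  rw [dvd_iff_normalizedFactors_le_normalizedFactors (pow_ne_zero e hQ.ne_zero) hD,
    normalizedFactors_pow, normalizedFactors_irreducible hQ.irreducible, normalize_eq,
    Multiset.nsmul_singleton, ← Multiset.le_count_iff_replicate_le]

theorem algebraMap_adjoin_integralClosure_injective (u : F) :
    Function.Injective (algebraMap (Algebra.adjoin K {u})
      (integralClosure (Algebra.adjoin K {u}) F)) := by
  intro a b h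
  have h2 : ((algebraMap (Algebra.adjoin K {u}) (integralClosure (Algebra.adjoin K {u}) F) a :
      integralClosure (Algebra.adjoin K {u}) F) : F) =
      ((algebraMap (Algebra.adjoin K {u}) (integralClosure (Algebra.adjoin K {u}) F) b :
      integralClosure (Algebra.adjoin K {u}) F) : F) := by rw [h]
  exact Subtype.ext h2

/-- The exact exponent of a prime `w` in the fibre over `u = c`. -/
theorem pow_ramificationIdx_dvd (hu : Transcendental K u) (c : K)
    (w : HeightOneSpectrum (integralClosure (Algebra.adjoin K {u}) F)) :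
    w.asIdeal ^ (pc K u c).ramificationIdx' w.asIdeal ∣
        (pc K u c).map (algebraMap (Algebra.adjoin K {u})
          (integralClosure (Algebra.adjoin K {u}) F)) ∧
      ¬ w.asIdeal ^ ((pc K u c).ramificationIdx' w.asIdeal + 1) ∣
        (pc K u c).map (algebraMap (Algebra.adjoin K {u})
          (integralClosure (Algebra.adjoin K {u}) F)) := by
  have hp0 : Ideal.map (algebraMap (Algebra.adjoin K {u})
      (integralClosure (Algebra.adjoin K {u}) F)) (pc K u c) ≠ ⊥ :=
    (Ideal.map_eq_bot_iff_of_injective (algebraMap_adjoin_integralClosure_injective u)).not.mpr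
      (pc_ne_bot hu c)
  have hcount := Ideal.IsDedekindDomain.ramificationIdx'_eq_normalizedFactors_count hp0
    w.isPrime w.ne_bot
  have hprime : Prime w.asIdeal := Ideal.prime_of_isPrime w.ne_bot w.isPrime
  constructor
  · rw [pow_dvd_iff_le_count_factors hprime hp0, hcount]
  · rw [pow_dvd_iff_le_count_factors hprime hp0, hcount]
    omega

/-- valuation bound ⟷ order bound at the place of a prime -/
theorem valuation_le_exp_iff_ord
    (w : HeightOneSpectrum (integralClosure (Algebra.adjoin K {u}) F)) (z : F) (n : ℤ) :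
    w.valuation F z ≤ WithZero.exp n ↔
      z = 0 ∨ -n ≤ (Place.ofHeightOneSpectrum (K := K) (F := F) w).ord z := by
  rcases eq_or_ne z 0 with rfl | hz
  · simp
  · have h0 : w.valuation F z ≠ 0 := (Valuation.ne_zero_iff _).mpr hz
    rw [ord_ofHeightOneSpectrum, ← WithZero.log_le_iff_le_exp h0, or_iff_right hz, neg_le_neg_iff]

/-- **Exact tame different, place form.**  `z` lies in the trace dual of the integral closure
of `K[u]` iff `ord_v z ≥ -(e_v - 1)` at every place `v` over a finite point `u = c`, `e_v` the
ramification index `ord_v (u - c)`. -/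
theorem mem_traceDual_iff_ord (hu : Transcendental K u) (z : F) :
    z ∈ Submodule.traceDual (Algebra.adjoin K {u}) K⟮u⟯
        (1 : Submodule (integralClosure (Algebra.adjoin K {u}) F) F) ↔
      ∀ (v : Place K F) (c : K), 0 < v.ord (u - algebraMap K F c) →
        z = 0 ∨ -(v.ord (u - algebraMap K F c) - 1) ≤ v.ord z := by
  constructor
  · intro hz v c hv
    obtain ⟨w, hw1, hw2⟩ := exists_heightOneSpectrum_of_ord_pos hu c v hv
    have hmax := pc_isMaximal hu c
    have hnt : Nontrivial (Algebra.adjoin K {u} ⧸ pc K u c) :=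
      Ideal.Quotient.nontrivial_iff.mpr hmax.ne_top
    have hcz : CharZero (Algebra.adjoin K {u} ⧸ pc K u c) :=
      charZero_of_injective_algebraMap (RingHom.injective (algebraMap K _))
    have he := ord_ofHeightOneSpectrum_eq_ramificationIdx hu c w
    rw [hw2] at he
    have he0 : (pc K u c).ramificationIdx' w.asIdeal ≠ 0 := by
      intro h0
      rw [h0] at he
      simp at he
      omega
    obtain ⟨hdvd, hndvd⟩ := pow_ramificationIdx_dvd hu c w
    have hval := Fermat.Agent.S18.helper6082.valuation_le_of_mem_traceDual (Algebra.adjoin K {u}) K⟮u⟯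
      (p := pc K u c) w _ he0 hdvd hndvd hz
    rw [valuation_le_exp_iff_ord, hw2] at hval
    rw [he]
    rcases hval with h | h
    · exact Or.inl h
    · exact Or.inr (by omega)
  · intro h
    choose cw hcw1 hcw2 using fun w => exists_center (K := K) (F := F) hu w
    refine mem_traceDual_of_valuation_le (Algebra.adjoin K {u}) K⟮u⟯
      (fun w => (pc K u (cw w)).ramificationIdx' w.asIdeal) (fun w => ?_) (fun w => ?_)
    · exact ⟨pc K u (cw w), pc_isMaximal hu (cw w), pc_ne_bot hu (cw w),
        (pow_ramificationIdx_dvd hu (cw w) w).1⟩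
    · rw [valuation_le_exp_iff_ord]
      have he := ord_ofHeightOneSpectrum_eq_ramificationIdx hu (cw w) w
      rcases h _ (cw w) (hcw2 w) with h0 | h1
      · exact Or.inl h0
      · exact Or.inr (by omega)

/-- trace is `K(u)`-linear, written with coercions to `F`. -/
theorem coe_trace_gen_inv_mul (u z : F) :
    ((Algebra.trace K⟮u⟯ F (u⁻¹ * z) : K⟮u⟯) : F) =
      u⁻¹ * ((Algebra.trace K⟮u⟯ F z : K⟮u⟯) : F) := by
  have h1 : u⁻¹ * z = (AdjoinSimple.gen K u)⁻¹ • z := by
    rw [Algebra.smul_def]
    rfl
  rw [h1, map_smul, smul_eq_mul]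
  rfl

/-- The chart-dual condition is membership of `u⁻¹ y` in the trace dual of the integral closure
of `K[u]`. -/
theorem isChartDual_iff_mem_traceDual (hu : Transcendental K u) (y : F) :
    IsChartDual K u y ↔
      u⁻¹ * y ∈ Submodule.traceDual (Algebra.adjoin K {u}) K⟮u⟯
        (1 : Submodule (integralClosure (Algebra.adjoin K {u}) F) F) := by
  have hu0 : u ≠ 0 := by
    have := sub_ne_zero_of_transcendental hu 0
    rwa [map_zero, sub_zero] at this
  rw [Submodule.mem_traceDual]
  constructor
  · intro h a ha
    obtain ⟨b, rfl⟩ := Submodule.mem_one.mp ha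
    obtain ⟨p, hp⟩ := h (b : F) b.2
    refine ⟨aeval (gen K u) p, Subtype.ext ?_⟩
    rw [Algebra.traceForm_apply, mul_assoc, coe_trace_gen_inv_mul]
    have hb : algebraMap (integralClosure (Algebra.adjoin K {u}) F) F b = (b : F) := rfl
    rw [hb, hp, ← mul_assoc, inv_mul_cancel₀ hu0, one_mul]
    show ((aeval (gen K u) p : Algebra.adjoin K {u}) : F) = aeval u p
    rw [Polynomial.aeval_subalgebra_coe, coe_gen]
  · intro h b hb
    have hmem : algebraMap (integralClosure (Algebra.adjoin K {u}) F) F ⟨b, hb⟩ ∈
        (1 : Submodule (integralClosure (Algebra.adjoin K {u}) F) F) :=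
      Submodule.mem_one.mpr ⟨_, rfl⟩
    obtain ⟨a, ha⟩ := h _ hmem
    obtain ⟨p, rfl⟩ := aeval_gen_surjective K u a
    refine ⟨p, ?_⟩
    rw [Algebra.traceForm_apply, mul_assoc] at ha
    have h2 : ((algebraMap (Algebra.adjoin K {u}) K⟮u⟯ (aeval (gen K u) p) : K⟮u⟯) : F) = _ :=
      congrArg (fun r : K⟮u⟯ => (r : F)) ha
    rw [coe_trace_gen_inv_mul] at h2
    have hb' : algebraMap (integralClosure (Algebra.adjoin K {u}) F) F ⟨b, hb⟩ = b := rfl
    rw [hb'] at h2
    have h3 : ((algebraMap (Algebra.adjoin K {u}) K⟮u⟯ (aeval (gen K u) p) : K⟮u⟯) : F)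
        = aeval u p := by
      show ((aeval (gen K u) p : Algebra.adjoin K {u}) : F) = aeval u p
      rw [Polynomial.aeval_subalgebra_coe, coe_gen]
    rw [h3] at h2
    rw [h2, ← mul_assoc, mul_inv_cancel₀ hu0, one_mul]

/-- **Exact tame different on the chart `K[u]`, place form.**  `Tr(y B) ⊆ u K[u]` iff
`ord_v y ≥ ord_v u - (e_v - 1)` at every place `v` over a finite point `u = c`. -/
theorem isChartDual_iff_ord (hu : Transcendental K u) (y : F) :
    IsChartDual K u y ↔
      ∀ (v : Place K F) (c : K), 0 < v.ord (u - algebraMap K F c) →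
        y = 0 ∨ v.ord u - (v.ord (u - algebraMap K F c) - 1) ≤ v.ord y := by
  have hu0 : u ≠ 0 := by
    have := sub_ne_zero_of_transcendental hu 0
    rwa [map_zero, sub_zero] at this
  rw [isChartDual_iff_mem_traceDual hu, mem_traceDual_iff_ord hu]
  refine forall_congr' fun v => forall_congr' fun c => imp_congr_right fun _ => ?_
  rcases eq_or_ne y 0 with rfl | hy
  · simp
  · have hne : u⁻¹ * y ≠ 0 := mul_ne_zero (inv_ne_zero hu0) hy
    rw [or_iff_right hne, or_iff_right hy, v.ord_mul (inv_ne_zero hu0) hy, v.ord_inv]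
    constructor <;> intro h <;> omega

end PlaceForm

end Fermat.Agent.S17.helper1665
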