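/-
S17-CUBE-HT (backup, board 1713; owner row 1692 helper1395) — helper1925.

From ideal memberships / identities in chart rings to height inequalities with
constants that do not depend on the field (Mathlib only).

Design: everything is place-uniform.  For an absolute value `v` on a field `L` and natural
constants `C N`, the local constant is `locConst v C N = archWeight v C * (v N)⁻¹`, where
`archWeight v C` is `1` when `v` is nonarchimedean and `C` otherwise.  Over a field with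
`Height.AdmissibleAbsValues`, the product of the local constants over all places is
`C ^ totalWeight` (product formula for `N`), which gives the local-to-global principle
`mulHeight_le_of_locConst`.
-/
import Mathlib

set_option autoImplicit false

namespace Fermat.Agent.S17.helper1925

open Height

universe u

section Local

variable {L : Type*} [Field L]

/-- The archimedean weight of a natural constant `C` at the absolute value `v`:
`1` if `v` is nonarchimedean, `C` otherwise. -/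
noncomputable def archWeight (v : AbsoluteValue L ℝ) (C : ℕ) : ℝ :=
  haveI := Classical.propDecidable (IsNonarchimedean v)
  if IsNonarchimedean v then 1 else (C : ℝ)

theorem archWeight_of_nonarch {v : AbsoluteValue L ℝ} (hv : IsNonarchimedean v) (C : ℕ) :
    archWeight v C = 1 := by
  simp [archWeight, hv]

theorem archWeight_of_not {v : AbsoluteValue L ℝ} (hv : ¬ IsNonarchimedean v) (C : ℕ) :
    archWeight v C = C := by
  simp [archWeight, hv]

theorem archWeight_nonneg (v : AbsoluteValue L ℝ) (C : ℕ) : 0 ≤ archWeight v C := by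
  by_cases hv : IsNonarchimedean v
  · rw [archWeight_of_nonarch hv]; exact zero_le_one
  · rw [archWeight_of_not hv]; exact Nat.cast_nonneg C

theorem one_le_archWeight (v : AbsoluteValue L ℝ) {C : ℕ} (hC : 0 < C) : 1 ≤ archWeight v C := by
  by_cases hv : IsNonarchimedean v
  · rw [archWeight_of_nonarch hv]
  · rw [archWeight_of_not hv]; exact_mod_cast hC

theorem archWeight_pos (v : AbsoluteValue L ℝ) {C : ℕ} (hC : 0 < C) : 0 < archWeight v C :=
  lt_of_lt_of_le zero_lt_one (one_le_archWeight v hC)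

theorem archWeight_le_natCast (v : AbsoluteValue L ℝ) {C : ℕ} (hC : 0 < C) :
    archWeight v C ≤ C := by
  by_cases hv : IsNonarchimedean v
  · rw [archWeight_of_nonarch hv]; exact_mod_cast hC
  · rw [archWeight_of_not hv]

@[simp] theorem archWeight_one (v : AbsoluteValue L ℝ) : archWeight v 1 = 1 := by
  by_cases hv : IsNonarchimedean v
  · rw [archWeight_of_nonarch hv]
  · rw [archWeight_of_not hv]; simp

theorem archWeight_mul (v : AbsoluteValue L ℝ) (C D : ℕ) :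
    archWeight v (C * D) = archWeight v C * archWeight v D := by
  by_cases hv : IsNonarchimedean v
  · simp [archWeight_of_nonarch hv]
  · simp [archWeight_of_not hv]

theorem archWeight_pow (v : AbsoluteValue L ℝ) (C k : ℕ) :
    archWeight v (C ^ k) = archWeight v C ^ k := by
  by_cases hv : IsNonarchimedean v
  · simp [archWeight_of_nonarch hv]
  · simp [archWeight_of_not hv]

theorem archWeight_mono (v : AbsoluteValue L ℝ) {C D : ℕ} (h : C ≤ D) :
    archWeight v C ≤ archWeight v D := by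
  by_cases hv : IsNonarchimedean v
  · simp [archWeight_of_nonarch hv]
  · simp only [archWeight_of_not hv]; exact_mod_cast h

/-- Every absolute value is at most `archWeight` on natural numbers. -/
theorem abv_natCast_le (v : AbsoluteValue L ℝ) (n : ℕ) : v (n : L) ≤ archWeight v n := by
  by_cases hv : IsNonarchimedean v
  · rw [archWeight_of_nonarch hv]; exact hv.apply_natCast_le_one
  · rw [archWeight_of_not hv]; exact v.apply_nat_le_self n

/-- Every absolute value is at most `archWeight` of the absolute value on integers. -/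
theorem abv_intCast_le (v : AbsoluteValue L ℝ) (z : ℤ) : v (z : L) ≤ archWeight v z.natAbs := by
  rcases Int.natAbs_eq z with h | h
  · calc v (z : L) = v ((z.natAbs : ℕ) : L) := by
          conv_lhs => rw [h]
          simp
      _ ≤ _ := abv_natCast_le v _
  · calc v (z : L) = v ((z.natAbs : ℕ) : L) := by
          conv_lhs => rw [h]
          simp
      _ ≤ _ := abv_natCast_le v _

/-- The sum rule: archimedean weights add. -/
theorem abv_add_le_archWeight (v : AbsoluteValue L ℝ) {x y : L} {C₁ C₂ : ℕ} {B : ℝ}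
    (hx : v x ≤ archWeight v C₁ * B) (hy : v y ≤ archWeight v C₂ * B) :
    v (x + y) ≤ archWeight v (C₁ + C₂) * B := by
  by_cases hv : IsNonarchimedean v
  · rw [archWeight_of_nonarch hv] at hx hy ⊢
    exact (hv x y).trans (max_le hx hy)
  · rw [archWeight_of_not hv] at hx hy ⊢
    calc v (x + y) ≤ v x + v y := v.add_le x y
      _ ≤ C₁ * B + C₂ * B := add_le_add hx hy
      _ = ((C₁ + C₂ : ℕ) : ℝ) * B := by push_cast; ring

/-- The sum rule for finite sums. -/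
theorem abv_sum_le_archWeight (v : AbsoluteValue L ℝ) {ι : Type*} (s : Finset ι) (f : ι → L)
    (c : ι → ℕ) {B : ℝ} (hB : 0 ≤ B) (h : ∀ i ∈ s, v (f i) ≤ archWeight v (c i) * B) :
    v (∑ i ∈ s, f i) ≤ archWeight v (∑ i ∈ s, c i) * B := by
  classical
  induction s using Finset.induction_on with
  | empty => simpa using mul_nonneg (archWeight_nonneg v 0) hB
  | insert a s ha ih =>
    rw [Finset.sum_insert ha, Finset.sum_insert ha]
    exact abv_add_le_archWeight v (h a (Finset.mem_insert_self a s))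
      (ih fun i hi => h i (Finset.mem_insert_of_mem hi))

/-- The local constant `archWeight v C / v N`. -/
noncomputable def locConst (v : AbsoluteValue L ℝ) (C N : ℕ) : ℝ :=
  archWeight v C * (v (N : L))⁻¹

theorem locConst_nonneg (v : AbsoluteValue L ℝ) (C N : ℕ) : 0 ≤ locConst v C N :=
  mul_nonneg (archWeight_nonneg v C) (inv_nonneg.mpr (v.nonneg _))

@[simp] theorem locConst_one_one (v : AbsoluteValue L ℝ) : locConst v 1 1 = 1 := by
  simp [locConst]

theorem locConst_mul (v : AbsoluteValue L ℝ) (C N C' N' : ℕ) :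
    locConst v C N * locConst v C' N' = locConst v (C * C') (N * N') := by
  simp only [locConst, archWeight_mul, Nat.cast_mul, map_mul, mul_inv]
  ring

theorem locConst_pow (v : AbsoluteValue L ℝ) (C N k : ℕ) :
    locConst v C N ^ k = locConst v (C ^ k) (N ^ k) := by
  simp only [locConst, archWeight_pow, Nat.cast_pow, map_pow, mul_pow, inv_pow]

theorem locConst_mono_left (v : AbsoluteValue L ℝ) {C C' : ℕ} (h : C ≤ C') (N : ℕ) :
    locConst v C N ≤ locConst v C' N :=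
  mul_le_mul_of_nonneg_right (archWeight_mono v h) (inv_nonneg.mpr (v.nonneg _))

variable [CharZero L]

theorem abv_natCast_pos (v : AbsoluteValue L ℝ) {N : ℕ} (hN : 0 < N) : 0 < v (N : L) :=
  v.pos (Nat.cast_ne_zero.mpr hN.ne')

theorem locConst_pos (v : AbsoluteValue L ℝ) {C N : ℕ} (hC : 0 < C) (hN : 0 < N) :
    0 < locConst v C N :=
  mul_pos (archWeight_pos v hC) (inv_pos.mpr (abv_natCast_pos v hN))

/-- Enlarging numerator and denominator by the same positive integer enlarges `locConst`. -/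
theorem locConst_le_mul_right (v : AbsoluteValue L ℝ) (C : ℕ) {N M : ℕ} (hN : 0 < N)
    (hM : 0 < M) : locConst v C N ≤ locConst v (C * M) (N * M) := by
  have hvM : 0 < v (M : L) := abv_natCast_pos v hM
  have hvN : 0 < v (N : L) := abv_natCast_pos v hN
  have h1 : 1 ≤ archWeight v M * (v (M : L))⁻¹ := by
    rw [le_mul_inv_iff₀ hvM, one_mul]
    exact abv_natCast_le v M
  calc locConst v C N = locConst v C N * 1 := (mul_one _).symm
    _ ≤ locConst v C N * (archWeight v M * (v (M : L))⁻¹) :=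
        mul_le_mul_of_nonneg_left h1 (locConst_nonneg v C N)
    _ = locConst v (C * M) (N * M) := by rw [← locConst_mul]; rfl

theorem locConst_le_mul_left (v : AbsoluteValue L ℝ) (C : ℕ) {N M : ℕ} (hN : 0 < N)
    (hM : 0 < M) : locConst v C N ≤ locConst v (M * C) (M * N) := by
  rw [mul_comm M C, mul_comm M N]
  exact locConst_le_mul_right v C hN hM

theorem one_le_locConst (v : AbsoluteValue L ℝ) {C N : ℕ} (hN : 0 < N) (hCN : N ≤ C) :
    1 ≤ locConst v C N := by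
  have hvN : 0 < v (N : L) := abv_natCast_pos v hN
  rw [locConst, le_mul_inv_iff₀ hvN, one_mul]
  exact (abv_natCast_le v N).trans (archWeight_mono v hCN)

/-- Addition rule for bounds of the shape `locConst v C N * ρ ^ D * S`. -/
theorem abv_add_le_locConst (v : AbsoluteValue L ℝ) {x y : L} {C₁ N₁ D₁ C₂ N₂ D₂ : ℕ} {ρ S : ℝ}
    (hρ : 1 ≤ ρ) (hS : 0 ≤ S) (hN₁ : 0 < N₁) (hN₂ : 0 < N₂)
    (hx : v x ≤ locConst v C₁ N₁ * ρ ^ D₁ * S) (hy : v y ≤ locConst v C₂ N₂ * ρ ^ D₂ * S) :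
    v (x + y) ≤ locConst v (C₁ * N₂ + C₂ * N₁) (N₁ * N₂) * ρ ^ max D₁ D₂ * S := by
  have hvN : 0 < v ((N₁ * N₂ : ℕ) : L) := abv_natCast_pos v (Nat.mul_pos hN₁ hN₂)
  set B : ℝ := (v ((N₁ * N₂ : ℕ) : L))⁻¹ * ρ ^ max D₁ D₂ * S with hB
  have hB0 : 0 ≤ (v ((N₁ * N₂ : ℕ) : L))⁻¹ := inv_nonneg.mpr hvN.le
  have hρ0 : 0 ≤ ρ := zero_le_one.trans hρ
  have hpow₁ : ρ ^ D₁ ≤ ρ ^ max D₁ D₂ := pow_le_pow_right₀ hρ (le_max_left _ _)
  have hpow₂ : ρ ^ D₂ ≤ ρ ^ max D₁ D₂ := pow_le_pow_right₀ hρ (le_max_right _ _)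
  have hx' : v x ≤ archWeight v (C₁ * N₂) * B := by
    refine hx.trans ?_
    have h1 := locConst_le_mul_right v C₁ hN₁ hN₂
    calc locConst v C₁ N₁ * ρ ^ D₁ * S ≤ locConst v (C₁ * N₂) (N₁ * N₂) * ρ ^ max D₁ D₂ * S := by
          gcongr
          exact locConst_nonneg _ _ _
      _ = archWeight v (C₁ * N₂) * B := by rw [hB, locConst]; ring
  have hy' : v y ≤ archWeight v (C₂ * N₁) * B := by
    refine hy.trans ?_
    have h1 := locConst_le_mul_right v C₂ hN₂ hN₁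
    rw [mul_comm N₂ N₁] at h1
    calc locConst v C₂ N₂ * ρ ^ D₂ * S ≤ locConst v (C₂ * N₁) (N₁ * N₂) * ρ ^ max D₁ D₂ * S := by
          gcongr
          exact locConst_nonneg _ _ _
      _ = archWeight v (C₂ * N₁) * B := by rw [hB, locConst]; ring
  have := abv_add_le_archWeight v hx' hy'
  calc v (x + y) ≤ archWeight v (C₁ * N₂ + C₂ * N₁) * B := this
    _ = locConst v (C₁ * N₂ + C₂ * N₁) (N₁ * N₂) * ρ ^ max D₁ D₂ * S := by
        rw [hB, locConst]; ring

end Local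

section Global

open Height.AdmissibleAbsValues

variable {K : Type*} [Field K] [AdmissibleAbsValues K]
variable {ι κ : Type*} [Finite ι] [Finite κ]

/-- Local-to-global, basic form: a bound by `C` at the archimedean places and by `1` at the
nonarchimedean places gives `mulHeight x ≤ C ^ totalWeight K * mulHeight y`. -/
theorem mulHeight_le_of_archWeight (C : ℕ) (hC : 0 < C) (x : ι → K) (y : κ → K) (hy : y ≠ 0)
    (ha : ∀ v ∈ archAbsVal (K := K), ∀ i, v (x i) ≤ C * ⨆ j, v (y j))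
    (hn : ∀ v ∈ nonarchAbsVal (K := K), ∀ i, v (x i) ≤ ⨆ j, v (y j)) :
    mulHeight x ≤ (C : ℝ) ^ totalWeight K * mulHeight y := by
  have hC1 : (1 : ℝ) ≤ C := by exact_mod_cast hC
  rcases eq_or_ne x 0 with rfl | hx
  · rw [mulHeight_zero]
    exact one_le_mul_of_one_le_of_one_le (one_le_pow₀ hC1) (one_le_mulHeight y)
  have hι : Nonempty ι := (Function.ne_iff.mp hx).nonempty
  rw [mulHeight_eq hx, mulHeight_eq hy, ← mul_assoc]
  gcongr
  · exact finprod_nonneg fun v ↦ Real.iSup_nonneg_of_nonnegHomClass v.val _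
  · exact mul_nonneg (pow_nonneg (Nat.cast_nonneg C) _)
      (Multiset.prod_map_nonneg fun v _ ↦ Real.iSup_nonneg_of_nonnegHomClass v _)
  · rw [totalWeight, ← Multiset.prod_replicate, ← Multiset.map_const', ← Multiset.prod_map_mul]
    refine Multiset.prod_map_le_prod_map₀ _ _
      (fun v _ ↦ Real.iSup_nonneg_of_nonnegHomClass v _) fun v hv ↦ ?_
    exact ciSup_le fun i ↦ ha v hv i
  · refine finprod_le_finprod (by fun_prop (disch := assumption))
      (fun v ↦ Real.iSup_nonneg_of_nonnegHomClass v.val _) (by fun_prop (disch := assumption))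
      fun v ↦ ?_
    exact ciSup_le fun i ↦ hn v.val v.prop i

variable [CharZero K]

/-- **Local-to-global principle.**  If at every absolute value `v` of the admissible family
`sup_i v (x i) ≤ locConst v C N * sup_j v (y j)`, then `mulHeight x ≤ C ^ totalWeight K * mulHeight y`
(the factors `v N` cancel by the product formula). -/
theorem mulHeight_le_of_locConst (C N : ℕ) (hC : 0 < C) (hN : 0 < N) (x : ι → K) (y : κ → K)
    (hy : y ≠ 0)
    (h : ∀ v : AbsoluteValue K ℝ, v ∈ archAbsVal (K := K) ∨ v ∈ nonarchAbsVal (K := K) →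
      ∀ i, v (x i) ≤ locConst v C N * ⨆ j, v (y j)) :
    mulHeight x ≤ (C : ℝ) ^ totalWeight K * mulHeight y := by
  have hN0 : (N : K) ≠ 0 := Nat.cast_ne_zero.mpr hN.ne'
  have hN0' : ((N : K))⁻¹ ≠ 0 := inv_ne_zero hN0
  have hy' : ((N : K))⁻¹ • y ≠ 0 := smul_ne_zero hN0' hy
  rw [← mulHeight_smul_eq_mulHeight y hN0']
  have key : ∀ v : AbsoluteValue K ℝ, ⨆ j, v ((((N : K))⁻¹ • y) j) = (v (N : K))⁻¹ * ⨆ j, v (y j) := by
    intro v
    simp only [Pi.smul_apply, smul_eq_mul, map_mul, map_inv₀]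
    rw [Real.mul_iSup_of_nonneg (inv_nonneg.mpr (v.nonneg _))]
  refine mulHeight_le_of_archWeight C hC x _ hy' (fun v hv i ↦ ?_) (fun v hv i ↦ ?_)
  · rw [key, ← mul_assoc]
    refine (h v (Or.inl hv) i).trans ?_
    have hsup : 0 ≤ ⨆ j, v (y j) := Real.iSup_nonneg_of_nonnegHomClass v _
    have : locConst v C N ≤ C * (v (N : K))⁻¹ :=
      mul_le_mul_of_nonneg_right (archWeight_le_natCast v hC) (inv_nonneg.mpr (v.nonneg _))
    exact mul_le_mul_of_nonneg_right this hsup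
  · rw [key]
    refine (h v (Or.inr hv) i).trans (le_of_eq ?_)
    rw [locConst, archWeight_of_nonarch (isNonarchimedean v hv), one_mul]

end Global

section RootBound

variable {L : Type*} [Field L]

/-- Root bound, uniform in the kind of absolute value: a root `z` of a monic polynomial whose
lower coefficients are bounded by `archWeight v (a i) * X` satisfies
`v z ≤ archWeight v (∑ a i + A₀) * X` as soon as `1 ≤ archWeight v A₀ * X`. -/
theorem abv_root_le (v : AbsoluteValue L ℝ) {q : Polynomial L} (hq : q.Monic) {z : L}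
    (hz : q.eval z = 0) (a : ℕ → ℕ) {X : ℝ} (hX : 0 ≤ X) (A₀ : ℕ)
    (hA₀ : 1 ≤ archWeight v A₀ * X)
    (hc : ∀ i < q.natDegree, v (q.coeff i) ≤ archWeight v (a i) * X) :
    v z ≤ archWeight v ((∑ i ∈ Finset.range q.natDegree, a i) + A₀) * X := by
  set n := q.natDegree with hn
  set A := ∑ i ∈ Finset.range n, a i with hA
  by_contra hcon
  rw [not_le] at hcon
  have hB1 : 1 ≤ archWeight v (A + A₀) * X :=
    hA₀.trans (mul_le_mul_of_nonneg_right (archWeight_mono v (Nat.le_add_left _ _)) hX)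
  have hz1 : 1 < v z := lt_of_le_of_lt hB1 hcon
  have hz0 : 0 < v z := zero_lt_one.trans hz1
  -- the equation
  have heq : z ^ n = -∑ i ∈ Finset.range n, q.coeff i * z ^ i := by
    have h1 := Polynomial.eval_eq_sum_range (p := q) z
    rw [hz, ← hn, Finset.sum_range_succ, hn, hq.coeff_natDegree, one_mul, ← hn] at h1
    exact eq_neg_of_add_eq_zero_right h1.symm
  rcases Nat.eq_zero_or_pos n with hn0 | hnpos
  · -- degree zero: impossible
    rw [hn0] at heq
    simp at heq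
  have hle : v z ^ n ≤ archWeight v A * (X * v z ^ (n - 1)) := by
    have : v z ^ n = v (∑ i ∈ Finset.range n, q.coeff i * z ^ i) := by
      rw [← map_pow, heq, v.map_neg]
    rw [this]
    refine abv_sum_le_archWeight v _ _ a (mul_nonneg hX (pow_nonneg hz0.le _)) fun i hi ↦ ?_
    have hi' : i < n := Finset.mem_range.mp hi
    rw [map_mul, map_pow, ← mul_assoc]
    refine mul_le_mul (hc i hi') (pow_le_pow_right₀ hz1.le (by omega)) (pow_nonneg hz0.le _)
      (mul_nonneg (archWeight_nonneg v _) hX)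
  have hpow : 0 < v z ^ (n - 1) := pow_pos hz0 _
  have hsplit : v z ^ n = v z * v z ^ (n - 1) := by
    rw [← pow_succ']
    congr 1
    omega
  rw [hsplit, ← mul_assoc] at hle
  have hfin : v z ≤ archWeight v A * X := le_of_mul_le_mul_right hle hpow
  have : archWeight v A * X ≤ archWeight v (A + A₀) * X :=
    mul_le_mul_of_nonneg_right (archWeight_mono v (Nat.le_add_right _ _)) hX
  exact absurd (hfin.trans this) (not_le.mpr hcon)

end RootBound

section Bounded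

variable {R : Type*} [CommRing R] {γ : Type*}

/-- `BddBy g r D C N`: at every field point `φ : R →+* L` (characteristic zero) and every absolute
value `v` of `L`, on the region `∀ k, v (φ (g k)) ≤ ρ` (`1 ≤ ρ`) one has
`v (φ r) ≤ locConst v C N * ρ ^ D`. The constants do not depend on `L`, `φ`, `v`. -/
def BddBy (g : γ → R) (r : R) (D C N : ℕ) : Prop :=
  ∀ (L : Type u) [Field L] [CharZero L] (φ : R →+* L) (v : AbsoluteValue L ℝ) (ρ : ℝ),
    1 ≤ ρ → (∀ k, v (φ (g k)) ≤ ρ) → v (φ r) ≤ locConst v C N * ρ ^ D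

/-- An element of `R` is *bounded* with respect to the coordinates `g`. -/
def IsBdd (g : γ → R) (r : R) : Prop :=
  ∃ D C N : ℕ, 0 < C ∧ 0 < N ∧ BddBy.{u} g r D C N

theorem BddBy.mono {g : γ → R} {r : R} {D C N D' C' : ℕ} (h : BddBy.{u} g r D C N)
    (hD : D ≤ D') (hC : C ≤ C') : BddBy.{u} g r D' C' N := by
  intro L _ _ φ v ρ hρ hreg
  refine (h L φ v ρ hρ hreg).trans ?_
  have h0 : (0 : ℝ) ≤ ρ := zero_le_one.trans hρ
  exact mul_le_mul (locConst_mono_left v hC N) (pow_le_pow_right₀ hρ hD) (pow_nonneg h0 _)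
    (locConst_nonneg _ _ _)

theorem BddBy.scale {g : γ → R} {r : R} {D C N : ℕ} (h : BddBy.{u} g r D C N) (hN : 0 < N)
    {M : ℕ} (hM : 0 < M) : BddBy.{u} g r D (C * M) (N * M) := by
  intro L _ _ φ v ρ hρ hreg
  refine (h L φ v ρ hρ hreg).trans ?_
  have h0 : (0 : ℝ) ≤ ρ := zero_le_one.trans hρ
  exact mul_le_mul_of_nonneg_right (locConst_le_mul_right v C hN hM) (pow_nonneg h0 _)

theorem isBdd_gen (g : γ → R) (k : γ) : IsBdd.{u} g (g k) :=
  ⟨1, 1, 1, Nat.one_pos, Nat.one_pos, fun L _ _ φ v ρ _ hreg ↦ by simpa using hreg k⟩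

theorem isBdd_zero (g : γ → R) : IsBdd.{u} g 0 :=
  ⟨0, 1, 1, Nat.one_pos, Nat.one_pos, fun L _ _ φ v ρ _ _ ↦ by simp⟩

theorem isBdd_one (g : γ → R) : IsBdd.{u} g 1 :=
  ⟨0, 1, 1, Nat.one_pos, Nat.one_pos, fun L _ _ φ v ρ _ _ ↦ by simp⟩

theorem IsBdd.add {g : γ → R} {r s : R} (hr : IsBdd.{u} g r) (hs : IsBdd.{u} g s) :
    IsBdd.{u} g (r + s) := by
  obtain ⟨D₁, C₁, N₁, hC₁, hN₁, h₁⟩ := hr
  obtain ⟨D₂, C₂, N₂, hC₂, hN₂, h₂⟩ := hs
  refine ⟨max D₁ D₂, C₁ * N₂ + C₂ * N₁, N₁ * N₂, ?_, Nat.mul_pos hN₁ hN₂, ?_⟩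
  · exact Nat.add_pos_left (Nat.mul_pos hC₁ hN₂) _
  · intro L _ _ φ v ρ hρ hreg
    have hx := h₁ L φ v ρ hρ hreg
    have hy := h₂ L φ v ρ hρ hreg
    rw [← mul_one (locConst v C₁ N₁ * ρ ^ D₁)] at hx
    rw [← mul_one (locConst v C₂ N₂ * ρ ^ D₂)] at hy
    have := abv_add_le_locConst v hρ zero_le_one hN₁ hN₂ hx hy
    rwa [mul_one, ← map_add] at this

theorem IsBdd.mul {g : γ → R} {r s : R} (hr : IsBdd.{u} g r) (hs : IsBdd.{u} g s) :
    IsBdd.{u} g (r * s) := by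
  obtain ⟨D₁, C₁, N₁, hC₁, hN₁, h₁⟩ := hr
  obtain ⟨D₂, C₂, N₂, hC₂, hN₂, h₂⟩ := hs
  refine ⟨D₁ + D₂, C₁ * C₂, N₁ * N₂, Nat.mul_pos hC₁ hC₂, Nat.mul_pos hN₁ hN₂, ?_⟩
  intro L _ _ φ v ρ hρ hreg
  have hx := h₁ L φ v ρ hρ hreg
  have hy := h₂ L φ v ρ hρ hreg
  rw [map_mul, map_mul, ← locConst_mul, pow_add]
  calc v (φ r) * v (φ s) ≤ (locConst v C₁ N₁ * ρ ^ D₁) * (locConst v C₂ N₂ * ρ ^ D₂) :=
        mul_le_mul hx hy (v.nonneg _)
          (mul_nonneg (locConst_nonneg _ _ _) (pow_nonneg (zero_le_one.trans hρ) _))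
    _ = _ := by ring

variable [Algebra ℚ R]

theorem isBdd_algebraMap (g : γ → R) (c : ℚ) : IsBdd.{u} g (algebraMap ℚ R c) := by
  refine ⟨0, c.num.natAbs + 1, c.den, Nat.succ_pos _, c.den_pos, ?_⟩
  intro L _ _ φ v ρ _ _
  rw [RingHom.map_rat_algebraMap, eq_ratCast, pow_zero, mul_one, Rat.cast_def, map_div₀,
    div_eq_mul_inv, locConst]
  refine mul_le_mul_of_nonneg_right ?_ (inv_nonneg.mpr (v.nonneg _))
  exact (abv_intCast_le v c.num).trans (archWeight_mono v (Nat.le_succ _))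

/-- The bounded elements form a `ℚ`-subalgebra. -/
def bddSubalgebra (g : γ → R) : Subalgebra ℚ R where
  carrier := {r | IsBdd.{u} g r}
  mul_mem' := fun hr hs ↦ IsBdd.mul hr hs
  add_mem' := fun hr hs ↦ IsBdd.add hr hs
  algebraMap_mem' := fun c ↦ isBdd_algebraMap g c

theorem mem_bddSubalgebra {g : γ → R} {r : R} : r ∈ bddSubalgebra.{u} g ↔ IsBdd.{u} g r :=
  Iff.rfl

theorem adjoin_le_bddSubalgebra (g : γ → R) :
    Algebra.adjoin ℚ (Set.range g) ≤ bddSubalgebra.{u} g :=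
  Algebra.adjoin_le fun _ ⟨k, hk⟩ ↦ hk ▸ isBdd_gen g k

/-- Elements integral over bounded elements are bounded. -/
theorem IsBdd.of_isIntegral {g : γ → R} {r : R} (h : IsIntegral (bddSubalgebra.{u} g) r) :
    IsBdd.{u} g r := by
  classical
  obtain ⟨p, hp, hroot⟩ := h
  have hb : ∀ i : ℕ, IsBdd.{u} g ((p.coeff i : bddSubalgebra.{u} g) : R) := fun i ↦ (p.coeff i).2
  choose Dc Cc Nc hCc hNc hbd using hb
  set n := p.natDegree with hn
  set N₀ := ∏ i ∈ Finset.range n, Nc i with hN₀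
  set D₀ := ∑ i ∈ Finset.range n, Dc i with hD₀
  set a : ℕ → ℕ := fun i ↦ Cc i * ∏ j ∈ (Finset.range n).erase i, Nc j with ha
  have hN₀pos : 0 < N₀ := Finset.prod_pos fun i _ ↦ hNc i
  refine ⟨D₀, (∑ i ∈ Finset.range n, a i) + N₀, N₀, Nat.add_pos_right _ hN₀pos, hN₀pos, ?_⟩
  intro L _ _ φ v ρ hρ hreg
  have hρ0 : (0 : ℝ) ≤ ρ := zero_le_one.trans hρ
  set q : Polynomial L := (p.map (algebraMap (bddSubalgebra.{u} g) R)).map φ with hq
  have hqm : q.Monic := (hp.map _).map _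
  have : Nontrivial R := φ.domain_nontrivial
  have hqdeg : q.natDegree = n := by
    rw [hq, (hp.map _).natDegree_map, hp.natDegree_map]
  have hqroot : q.eval (φ r) = 0 := by
    rw [hq, Polynomial.eval_map, Polynomial.eval₂_hom, Polynomial.eval_map, hroot, map_zero]
  set X : ℝ := (v (N₀ : L))⁻¹ * ρ ^ D₀ with hX
  have hX0 : 0 ≤ X := mul_nonneg (inv_nonneg.mpr (v.nonneg _)) (pow_nonneg hρ0 _)
  have hA₀ : 1 ≤ archWeight v N₀ * X := by
    have h1 : 1 ≤ locConst v N₀ N₀ := one_le_locConst v hN₀pos le_rfl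
    have h2 : (1 : ℝ) ≤ ρ ^ D₀ := one_le_pow₀ hρ
    calc (1 : ℝ) = 1 * 1 := (one_mul 1).symm
      _ ≤ locConst v N₀ N₀ * ρ ^ D₀ := mul_le_mul h1 h2 zero_le_one (locConst_nonneg _ _ _)
      _ = archWeight v N₀ * X := by rw [hX, locConst]; ring
  have hcoef : ∀ i < q.natDegree, v (q.coeff i) ≤ archWeight v (a i) * X := by
    intro i hi
    rw [hqdeg] at hi
    have hmem : i ∈ Finset.range n := Finset.mem_range.mpr hi
    have h1 := hbd i L φ v ρ hρ hreg
    have hcoeff : q.coeff i = φ ((p.coeff i : bddSubalgebra.{u} g) : R) := by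
      rw [hq, Polynomial.coeff_map, Polynomial.coeff_map]
      rfl
    rw [hcoeff]
    refine h1.trans ?_
    have hMpos : 0 < ∏ j ∈ (Finset.range n).erase i, Nc j := Finset.prod_pos fun j _ ↦ hNc j
    have h2 := locConst_le_mul_right v (Cc i) (hNc i) hMpos
    rw [Finset.mul_prod_erase _ _ hmem] at h2
    have h3 : ρ ^ Dc i ≤ ρ ^ D₀ :=
      pow_le_pow_right₀ hρ (Finset.single_le_sum (f := Dc) (fun _ _ ↦ Nat.zero_le _) hmem)
    calc locConst v (Cc i) (Nc i) * ρ ^ Dc i ≤ locConst v (a i) N₀ * ρ ^ D₀ :=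
          mul_le_mul h2 h3 (pow_nonneg hρ0 _) (locConst_nonneg _ _ _)
      _ = archWeight v (a i) * X := by rw [hX, locConst]; ring
  have hfinal := abv_root_le v hqm hqroot a hX0 N₀ hA₀ hcoef
  rw [hqdeg] at hfinal
  calc v (φ r) ≤ archWeight v ((∑ i ∈ Finset.range n, a i) + N₀) * X := hfinal
    _ = locConst v ((∑ i ∈ Finset.range n, a i) + N₀) N₀ * ρ ^ D₀ := by rw [hX, locConst]; ring

/-- If `R` is integral over `ℚ[g]`, every element of `R` is bounded. -/
theorem isBdd_of_isIntegral_adjoin {g : γ → R}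
    (hint : ∀ r : R, IsIntegral (Algebra.adjoin ℚ (Set.range g)) r) (r : R) : IsBdd.{u} g r := by
  refine IsBdd.of_isIntegral ?_
  obtain ⟨p, hp, hroot⟩ := hint r
  refine ⟨p.map (Subalgebra.inclusion (adjoin_le_bddSubalgebra.{u} g)).toRingHom, hp.map _, ?_⟩
  rw [Polynomial.eval₂_map]
  exact hroot

omit [Algebra ℚ R] in
/-- **Coefficient bound (H1).**  If every element of `R` is bounded with respect to the
coordinates `g` (e.g. `R` integral over `ℚ[g]`) and `a ∈ Ideal.span (Set.range b)`, then on the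
region `v (φ (g k)) ≤ ρ` one has `v (φ a) ≤ locConst v C N * ρ ^ D * sup_j v (φ (b j))`, with
`D C N` independent of the field, the point and the absolute value. -/
theorem exists_bound_of_mem_span {κ : Type*} [Finite κ] {g : γ → R}
    (hR : ∀ r : R, IsBdd.{u} g r) (b : κ → R) {a : R} (ha : a ∈ Ideal.span (Set.range b)) :
    ∃ D C N : ℕ, 0 < C ∧ 0 < N ∧
      ∀ (L : Type u) [Field L] [CharZero L] (φ : R →+* L) (v : AbsoluteValue L ℝ) (ρ : ℝ),
        1 ≤ ρ → (∀ k, v (φ (g k)) ≤ ρ) →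
          v (φ a) ≤ locConst v C N * ρ ^ D * ⨆ j, v (φ (b j)) := by
  induction ha using Submodule.span_induction with
  | mem x hx =>
    obtain ⟨j, rfl⟩ := hx
    refine ⟨0, 1, 1, Nat.one_pos, Nat.one_pos, fun L _ _ φ v ρ _ _ ↦ ?_⟩
    simp only [locConst_one_one, pow_zero, mul_one, one_mul]
    exact Finite.le_ciSup (fun j ↦ v (φ (b j))) j
  | zero =>
    refine ⟨0, 1, 1, Nat.one_pos, Nat.one_pos, fun L _ _ φ v ρ _ _ ↦ ?_⟩
    simp only [map_zero, locConst_one_one, pow_zero, mul_one, one_mul]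
    exact Real.iSup_nonneg_of_nonnegHomClass v _
  | add x y _ _ hx hy =>
    obtain ⟨D₁, C₁, N₁, hC₁, hN₁, h₁⟩ := hx
    obtain ⟨D₂, C₂, N₂, hC₂, hN₂, h₂⟩ := hy
    refine ⟨max D₁ D₂, C₁ * N₂ + C₂ * N₁, N₁ * N₂, Nat.add_pos_left (Nat.mul_pos hC₁ hN₂) _,
      Nat.mul_pos hN₁ hN₂, fun L _ _ φ v ρ hρ hreg ↦ ?_⟩
    rw [map_add]
    exact abv_add_le_locConst v hρ (Real.iSup_nonneg_of_nonnegHomClass v _) hN₁ hN₂
      (h₁ L φ v ρ hρ hreg) (h₂ L φ v ρ hρ hreg)
  | smul r x _ hx =>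
    obtain ⟨D₁, C₁, N₁, hC₁, hN₁, h₁⟩ := hR r
    obtain ⟨D₂, C₂, N₂, hC₂, hN₂, h₂⟩ := hx
    refine ⟨D₁ + D₂, C₁ * C₂, N₁ * N₂, Nat.mul_pos hC₁ hC₂, Nat.mul_pos hN₁ hN₂,
      fun L _ _ φ v ρ hρ hreg ↦ ?_⟩
    have hx := h₁ L φ v ρ hρ hreg
    have hy := h₂ L φ v ρ hρ hreg
    have hρ0 : (0 : ℝ) ≤ ρ := zero_le_one.trans hρ
    have hS : 0 ≤ ⨆ j, v (φ (b j)) := Real.iSup_nonneg_of_nonnegHomClass v _
    rw [smul_eq_mul, map_mul, map_mul, ← locConst_mul, pow_add]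
    calc v (φ r) * v (φ x)
        ≤ (locConst v C₁ N₁ * ρ ^ D₁) * (locConst v C₂ N₂ * ρ ^ D₂ * ⨆ j, v (φ (b j))) :=
          mul_le_mul hx hy (v.nonneg _) (mul_nonneg (locConst_nonneg _ _ _) (pow_nonneg hρ0 _))
      _ = _ := by ring

end Bounded

section Pigeonhole

/-- A finite family of local constants is dominated by a single one. -/
theorem exists_locConst_dominating {τ : Type*} [Finite τ] (A Δ : τ → ℕ) (hΔ : ∀ t, 0 < Δ t) :
    ∃ C N : ℕ, 0 < C ∧ 0 < N ∧ ∀ (t : τ) (L : Type u) [Field L] [CharZero L]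
      (v : AbsoluteValue L ℝ), locConst v (A t) (Δ t) ≤ locConst v C N := by
  classical
  cases nonempty_fintype τ
  refine ⟨(∑ t, A t * ∏ s ∈ Finset.univ.erase t, Δ s) + 1, ∏ t, Δ t, Nat.succ_pos _,
    Finset.prod_pos fun t _ ↦ hΔ t, fun t L _ _ v ↦ ?_⟩
  have hM : 0 < ∏ s ∈ Finset.univ.erase t, Δ s := Finset.prod_pos fun s _ ↦ hΔ s
  have h1 := locConst_le_mul_right v (A t) (hΔ t) hM
  rw [Finset.mul_prod_erase _ _ (Finset.mem_univ t)] at h1
  refine h1.trans (locConst_mono_left v ?_ _)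
  exact (Finset.single_le_sum (f := fun t ↦ A t * ∏ s ∈ Finset.univ.erase t, Δ s)
    (fun _ _ ↦ Nat.zero_le _) (Finset.mem_univ t)).trans (Nat.le_succ _)

/-- Vandermonde interpolation: the coefficients of a polynomial of degree `≤ M` are bounded by
its values at `M + 1` distinct natural nodes, with a local constant depending only on the nodes. -/
theorem exists_abv_coeff_le_of_nodes {M : ℕ} (l : Fin (M + 1) → ℕ) (hl : Function.Injective l) :
    ∃ A Δ : ℕ, 0 < Δ ∧ ∀ (L : Type u) [Field L] [CharZero L] (v : AbsoluteValue L ℝ)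
      (e : Fin (M + 1) → L) (s : Fin (M + 1)),
      v (e s) ≤ locConst v A Δ * ⨆ a, v (∑ t : Fin (M + 1), (l a : L) ^ (t : ℕ) * e t) := by
  classical
  set V : Matrix (Fin (M + 1)) (Fin (M + 1)) ℤ := Matrix.vandermonde fun a ↦ (l a : ℤ) with hV
  set d : ℤ := V.det with hd
  have hd0 : d ≠ 0 := by
    rw [hd, hV, Matrix.det_vandermonde_ne_zero_iff]
    exact Nat.cast_injective.comp hl
  set W : Matrix (Fin (M + 1)) (Fin (M + 1)) ℤ := V.adjugate with hW
  have hWV : W * V = d • (1 : Matrix (Fin (M + 1)) (Fin (M + 1)) ℤ) := Matrix.adjugate_mul V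
  refine ⟨∑ s, ∑ a, (W s a).natAbs, d.natAbs, Int.natAbs_pos.mpr hd0, ?_⟩
  intro L _ _ v e s
  set F : Fin (M + 1) → L := fun a ↦ ∑ t : Fin (M + 1), (l a : L) ^ (t : ℕ) * e t with hF
  set B : ℝ := ⨆ a, v (F a) with hB
  have hB0 : 0 ≤ B := Real.iSup_nonneg_of_nonnegHomClass v _
  -- the interpolation identity
  have hentry : ∀ t : Fin (M + 1),
      ∑ a, (W s a : L) * (l a : L) ^ (t : ℕ) = (d : L) * (if s = t then 1 else 0) := by
    intro t
    have h1 := congrFun (congrFun hWV s) t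
    rw [Matrix.mul_apply] at h1
    simp only [Matrix.smul_apply, Matrix.one_apply, smul_eq_mul, hV,
      Matrix.vandermonde_apply] at h1
    have h2 := congrArg (Int.cast : ℤ → L) h1
    push_cast at h2
    exact h2
  have hid : (d : L) * e s = ∑ a, (W s a : L) * F a := by
    symm
    calc ∑ a, (W s a : L) * F a
        = ∑ a, ∑ t : Fin (M + 1), ((W s a : L) * (l a : L) ^ (t : ℕ)) * e t := by
          refine Finset.sum_congr rfl fun a _ ↦ ?_
          rw [hF, Finset.mul_sum]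
          exact Finset.sum_congr rfl fun t _ ↦ (mul_assoc _ _ _).symm
      _ = ∑ t : Fin (M + 1), (∑ a, (W s a : L) * (l a : L) ^ (t : ℕ)) * e t := by
          rw [Finset.sum_comm]
          exact Finset.sum_congr rfl fun t _ ↦ (Finset.sum_mul _ _ _).symm
      _ = ∑ t : Fin (M + 1), ((d : L) * (if s = t then 1 else 0)) * e t :=
          Finset.sum_congr rfl fun t _ ↦ by rw [hentry t]
      _ = (d : L) * e s := by simp
  have hvd : v (d : L) = v ((d.natAbs : ℕ) : L) := by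
    rcases Int.natAbs_eq d with h | h
    · conv_lhs => rw [h]
      simp
    · conv_lhs => rw [h]
      simp
  have hvdpos : 0 < v ((d.natAbs : ℕ) : L) := abv_natCast_pos v (Int.natAbs_pos.mpr hd0)
  have hsum : v (∑ a, (W s a : L) * F a) ≤ archWeight v (∑ a, (W s a).natAbs) * B := by
    refine abv_sum_le_archWeight v _ _ _ hB0 fun a _ ↦ ?_
    rw [map_mul]
    exact mul_le_mul (abv_intCast_le v _) (Finite.le_ciSup (fun a ↦ v (F a)) a) (v.nonneg _)
      (archWeight_nonneg _ _)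
  have hle : archWeight v (∑ a, (W s a).natAbs) ≤ archWeight v (∑ s, ∑ a, (W s a).natAbs) :=
    archWeight_mono v (Finset.single_le_sum (f := fun s ↦ ∑ a, (W s a).natAbs)
      (fun _ _ ↦ Nat.zero_le _) (Finset.mem_univ s))
  have hmain : v ((d.natAbs : ℕ) : L) * v (e s) ≤ archWeight v (∑ s, ∑ a, (W s a).natAbs) * B := by
    rw [← hvd, ← map_mul, hid]
    exact hsum.trans (mul_le_mul_of_nonneg_right hle hB0)
  rw [locConst, mul_assoc, mul_comm _ B, ← mul_assoc, ← div_eq_mul_inv, le_div_iff₀ hvdpos,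
    mul_comm]
  exact hmain

/-- **Chart choice by pigeonhole (H3).**  Given finitely many points `e i ∈ L ^ (M + 1)`, one of
the sections `f_l = ∑ t, l ^ t * e_t`, `l = 0, …, #P * M`, is simultaneously good at all the
points for the absolute value `v`: `v (e i s) ≤ locConst v C N * v (f_l (i))`, with `C N`
depending only on the number of points and on `M`. -/
theorem exists_good_section (P : Type*) [Finite P] (M : ℕ) :
    ∃ C N : ℕ, 0 < C ∧ 0 < N ∧
      ∀ (L : Type u) [Field L] [CharZero L] (v : AbsoluteValue L ℝ) (e : P → Fin (M + 1) → L),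
        ∃ l : ℕ, l ≤ Nat.card P * M ∧ ∀ i s,
          v (e i s) ≤ locConst v C N * v (∑ t : Fin (M + 1), (l : L) ^ (t : ℕ) * e i t) := by
  classical
  cases nonempty_fintype P
  set n := Fintype.card P with hn
  -- the finite type of node systems
  let T := {l : Fin (M + 1) → Fin (n * M + 1) // Function.Injective l}
  have hT : ∀ t : T, Function.Injective fun a ↦ ((t.1 a : Fin (n * M + 1)) : ℕ) :=
    fun t ↦ Fin.val_injective.comp t.2
  choose A Δ hΔ hAΔ using fun t : T ↦ exists_abv_coeff_le_of_nodes.{u} _ (hT t)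
  obtain ⟨C, N, hC, hN, hdom⟩ := exists_locConst_dominating.{u} A Δ hΔ
  refine ⟨C, N, hC, hN, fun L _ _ v e ↦ ?_⟩
  rw [Nat.card_eq_fintype_card, ← hn]
  by_contra hcon
  push Not at hcon
  -- choose a bad point for every `l`
  have hbad : ∀ l₀ : Fin (n * M + 1), ∃ i s,
      locConst v C N * v (∑ t : Fin (M + 1), ((l₀ : ℕ) : L) ^ (t : ℕ) * e i t) < v (e i s) :=
    fun l₀ ↦ hcon l₀ (Nat.lt_succ_iff.mp l₀.2)
  choose f sf hf using hbad
  obtain ⟨i, hi⟩ := Fintype.exists_lt_card_fiber_of_mul_lt_card (n := M) f (by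
    rw [Fintype.card_fin, ← hn]; exact Nat.lt_succ_self _)
  set S : Finset (Fin (n * M + 1)) := {x | f x = i} with hS
  have hcard : M + 1 ≤ S.card := hi
  set l : Fin (M + 1) → Fin (n * M + 1) := fun a ↦ S.orderEmbOfCardLe hcard a with hl
  have hlinj : Function.Injective l := (S.orderEmbOfCardLe hcard).injective
  have hlmem : ∀ a, f (l a) = i := fun a ↦ by
    have := S.orderEmbOfCardLe_mem hcard a
    exact (Finset.mem_filter.mp this).2
  set t : T := ⟨l, hlinj⟩ with ht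
  obtain ⟨s₁, hs₁⟩ := exists_eq_ciSup_of_finite (f := fun s ↦ v (e i s))
  obtain ⟨a₁, ha₁⟩ := exists_eq_ciSup_of_finite
    (f := fun a ↦ v (∑ t : Fin (M + 1), (((l a : Fin (n * M + 1)) : ℕ) : L) ^ (t : ℕ) * e i t))
  have h1 := hAΔ t L v (e i) s₁
  have h2 := hdom t L v
  have h3 := hf (l a₁)
  rw [hlmem a₁] at h3
  have h4 : v (e i (sf (l a₁))) ≤ v (e i s₁) := by
    rw [hs₁]
    exact Finite.le_ciSup (fun s ↦ v (e i s)) _
  have hB0 : 0 ≤ ⨆ a, v (∑ t : Fin (M + 1), (((l a : Fin (n * M + 1)) : ℕ) : L) ^ (t : ℕ) * e i t) :=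
    Real.iSup_nonneg_of_nonnegHomClass v _
  have h5 : v (e i s₁) ≤ locConst v C N *
      ⨆ a, v (∑ t : Fin (M + 1), (((l a : Fin (n * M + 1)) : ℕ) : L) ^ (t : ℕ) * e i t) :=
    h1.trans (mul_le_mul_of_nonneg_right h2 hB0)
  rw [← ha₁] at h5
  exact absurd (lt_of_lt_of_le h3 h4) (not_lt.mpr h5)

/-- Chart choice, ratio form: for nonzero points the good section does not vanish at any of
them and all the chart coordinates `e_s / f_l` are bounded by the local constant.  This is the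
region condition consumed by the multi-chart theorems. -/
theorem exists_good_section_div (P : Type*) [Finite P] (M : ℕ) :
    ∃ C N : ℕ, 0 < C ∧ 0 < N ∧
      ∀ (L : Type u) [Field L] [CharZero L] (v : AbsoluteValue L ℝ) (e : P → Fin (M + 1) → L),
        (∀ i, e i ≠ 0) → ∃ l : ℕ, l ≤ Nat.card P * M ∧ ∀ i,
          (∑ t : Fin (M + 1), (l : L) ^ (t : ℕ) * e i t) ≠ 0 ∧
          ∀ s, v (e i s / ∑ t : Fin (M + 1), (l : L) ^ (t : ℕ) * e i t) ≤ locConst v C N := by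
  obtain ⟨C, N, hC, hN, h⟩ := exists_good_section.{u} P M
  refine ⟨C, N, hC, hN, fun L _ _ v e he ↦ ?_⟩
  obtain ⟨l, hl, hgood⟩ := h L v e
  refine ⟨l, hl, fun i ↦ ?_⟩
  have hne : (∑ t : Fin (M + 1), (l : L) ^ (t : ℕ) * e i t) ≠ 0 := by
    intro h0
    obtain ⟨s, hs⟩ := Function.ne_iff.mp (he i)
    have := hgood i s
    rw [h0, map_zero, mul_zero] at this
    exact hs (v.eq_zero.mp (le_antisymm this (v.nonneg _)))
  refine ⟨hne, fun s ↦ ?_⟩
  rw [map_div₀, div_le_iff₀ (v.pos hne)]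
  exact hgood i s

end Pigeonhole

section Charts

open Height.AdmissibleAbsValues

variable {Λ : Type*} [Finite Λ] {R : Λ → Type*} [∀ l, CommRing (R l)] {γ : Λ → Type*}
variable {ι κ : Type*} [Finite ι] [Finite κ]

/-- **Multi-chart theorem (H4), one-sided.**  Finitely many charts `l` with rings `R l`,
coordinates `g l` for which every element of `R l` is bounded, and families `a l`, `b l` with
`span (a l) ≤ span (b l)`.  Then there is a constant `C`, independent of the field, such that: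
whenever at every place `v` of `K` SOME chart `l`, point `φ : R l →+* K` in the region
`v (φ (g l k)) ≤ locConst v C₁ N₁` and scalar `ν` realise `x = ν • φ ∘ a l`, `y = ν • φ ∘ b l`,
then `mulHeight x ≤ C ^ totalWeight K * mulHeight y`. -/
theorem exists_mulHeight_le_of_charts (g : ∀ l, γ l → R l)
    (hR : ∀ l (r : R l), IsBdd.{u} (g l) r) (a : ∀ l, ι → R l) (b : ∀ l, κ → R l)
    (hab : ∀ l i, a l i ∈ Ideal.span (Set.range (b l))) (C₁ N₁ : ℕ) (hN₁ : 0 < N₁) :
    ∃ C : ℕ, 0 < C ∧ ∀ (K : Type u) [Field K] [CharZero K] [AdmissibleAbsValues K]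
      (x : ι → K) (y : κ → K), y ≠ 0 →
      (∀ v : AbsoluteValue K ℝ, v ∈ archAbsVal (K := K) ∨ v ∈ nonarchAbsVal (K := K) →
        ∃ (l : Λ) (φ : R l →+* K) (ν : K), (∀ i, x i = ν * φ (a l i)) ∧
          (∀ j, y j = ν * φ (b l j)) ∧ ∀ k, v (φ (g l k)) ≤ locConst v C₁ N₁) →
      mulHeight x ≤ (C : ℝ) ^ totalWeight K * mulHeight y := by
  choose D Cc Nc hCc hNc hbd using fun p : Λ × ι ↦
    exists_bound_of_mem_span.{u} (hR p.1) (b p.1) (hab p.1 p.2)
  obtain ⟨C, N, hC, hN, hdom⟩ := exists_locConst_dominating.{u}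
    (fun t : Λ × ι ↦ Cc t * (C₁ + N₁) ^ D t) (fun t : Λ × ι ↦ Nc t * N₁ ^ D t)
    (fun t ↦ Nat.mul_pos (hNc t) (pow_pos hN₁ _))
  refine ⟨C, hC, fun K _ _ _ x y hy hloc ↦ ?_⟩
  refine mulHeight_le_of_locConst C N hC hN x y hy fun v hv i ↦ ?_
  obtain ⟨l, φ, ν, hx, hy', hreg⟩ := hloc v hv
  set ρ : ℝ := locConst v (C₁ + N₁) N₁ with hρdef
  have hρ : 1 ≤ ρ := one_le_locConst v hN₁ (Nat.le_add_left _ _)
  have hreg' : ∀ k, v (φ (g l k)) ≤ ρ := fun k ↦
    (hreg k).trans (locConst_mono_left v (Nat.le_add_right _ _) _)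
  have h1 := hbd (l, i) K φ v ρ hρ hreg'
  have hS0 : 0 ≤ ⨆ j, v (φ (b l j)) := Real.iSup_nonneg_of_nonnegHomClass v _
  have h2 : locConst v (Cc (l, i)) (Nc (l, i)) * ρ ^ D (l, i) ≤ locConst v C N := by
    rw [hρdef, locConst_pow, locConst_mul]
    exact hdom (l, i) K v
  have h3 : v (φ (a l i)) ≤ locConst v C N * ⨆ j, v (φ (b l j)) :=
    h1.trans (mul_le_mul_of_nonneg_right h2 hS0)
  have hsup : ⨆ j, v (y j) = v ν * ⨆ j, v (φ (b l j)) := by
    rw [Real.mul_iSup_of_nonneg (v.nonneg _)]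
    exact iSup_congr fun j ↦ by rw [hy' j, map_mul]
  rw [hx i, map_mul, hsup, mul_left_comm]
  exact mul_le_mul_of_nonneg_left h3 (v.nonneg _)

/-- **Multi-chart theorem (H4), two-sided logarithmic form.** -/
theorem exists_abs_logHeight_sub_le_of_charts (g : ∀ l, γ l → R l)
    (hR : ∀ l (r : R l), IsBdd.{u} (g l) r) (a : ∀ l, ι → R l) (b : ∀ l, κ → R l)
    (hab : ∀ l, Ideal.span (Set.range (a l)) = Ideal.span (Set.range (b l)))
    (C₁ N₁ : ℕ) (hN₁ : 0 < N₁) :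
    ∃ C : ℕ, 0 < C ∧ ∀ (K : Type u) [Field K] [CharZero K] [AdmissibleAbsValues K]
      (x : ι → K) (y : κ → K), x ≠ 0 → y ≠ 0 →
      (∀ v : AbsoluteValue K ℝ, v ∈ archAbsVal (K := K) ∨ v ∈ nonarchAbsVal (K := K) →
        ∃ (l : Λ) (φ : R l →+* K) (ν : K), (∀ i, x i = ν * φ (a l i)) ∧
          (∀ j, y j = ν * φ (b l j)) ∧ ∀ k, v (φ (g l k)) ≤ locConst v C₁ N₁) →
      |logHeight x - logHeight y| ≤ totalWeight K * Real.log C := by
  obtain ⟨Ca, hCa, ha⟩ := exists_mulHeight_le_of_charts.{u} g hR a b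
    (fun l i ↦ hab l ▸ Ideal.subset_span (Set.mem_range_self i)) C₁ N₁ hN₁
  obtain ⟨Cb, hCb, hb⟩ := exists_mulHeight_le_of_charts.{u} g hR b a
    (fun l j ↦ (hab l).symm ▸ Ideal.subset_span (Set.mem_range_self j)) C₁ N₁ hN₁
  refine ⟨Ca * Cb, Nat.mul_pos hCa hCb, fun K _ _ _ x y hx hy hloc ↦ ?_⟩
  have hCa1 : (1 : ℝ) ≤ Ca := by exact_mod_cast hCa
  have hCb1 : (1 : ℝ) ≤ Cb := by exact_mod_cast hCb
  have h1 := ha K x y hy hloc
  have h2 := hb K y x hx fun v hv ↦ by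
    obtain ⟨l, φ, ν, hx', hy', hreg⟩ := hloc v hv
    exact ⟨l, φ, ν, hy', hx', hreg⟩
  have hxpos := mulHeight_pos x
  have hypos := mulHeight_pos y
  have hlogCa : 0 ≤ Real.log Ca := Real.log_nonneg hCa1
  have hlogCb : 0 ≤ Real.log Cb := Real.log_nonneg hCb1
  have hw : (0 : ℝ) ≤ totalWeight K := Nat.cast_nonneg _
  have e1 : logHeight x ≤ totalWeight K * Real.log Ca + logHeight y := by
    have := Real.log_le_log hxpos h1
    rwa [Real.log_mul (pow_pos (zero_lt_one.trans_le hCa1) _).ne' hypos.ne', Real.log_pow] at this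
  have e2 : logHeight y ≤ totalWeight K * Real.log Cb + logHeight x := by
    have := Real.log_le_log hypos h2
    rwa [Real.log_mul (pow_pos (zero_lt_one.trans_le hCb1) _).ne' hxpos.ne', Real.log_pow] at this
  have hlog : Real.log ((Ca * Cb : ℕ) : ℝ) = Real.log Ca + Real.log Cb := by
    rw [Nat.cast_mul, Real.log_mul (zero_lt_one.trans_le hCa1).ne' (zero_lt_one.trans_le hCb1).ne']
  rw [hlog, abs_le]
  constructor
  · nlinarith [mul_nonneg hw hlogCa, mul_nonneg hw hlogCb]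
  · nlinarith [mul_nonneg hw hlogCa, mul_nonneg hw hlogCb]

end Charts

section Cube

open Height.AdmissibleAbsValues

/-- The product (Segre) family of two families. -/
def tmul {A : Type*} [Mul A] {ι κ : Type*} (a : ι → A) (b : κ → A) : ι × κ → A :=
  fun p ↦ a p.1 * b p.2

@[simp] theorem tmul_apply {A : Type*} [Mul A] {ι κ : Type*} (a : ι → A) (b : κ → A)
    (p : ι × κ) : tmul a b p = a p.1 * b p.2 := rfl

/-- The ideal generated by a product family is the product of the ideals. -/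
theorem span_range_tmul {A : Type*} [CommRing A] {ι κ : Type*} (a : ι → A) (b : κ → A) :
    Ideal.span (Set.range (tmul a b)) = Ideal.span (Set.range a) * Ideal.span (Set.range b) := by
  rw [Ideal.span_mul_span']
  congr 1
  ext z
  constructor
  · rintro ⟨⟨i, j⟩, rfl⟩
    exact Set.mul_mem_mul (Set.mem_range_self i) (Set.mem_range_self j)
  · rintro ⟨_, ⟨i, rfl⟩, _, ⟨j, rfl⟩, rfl⟩
    exact ⟨(i, j), rfl⟩

theorem tmul_ne_zero {K : Type*} [Field K] {ι κ : Type*} {x : ι → K} {y : κ → K} (hx : x ≠ 0)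
    (hy : y ≠ 0) : tmul x y ≠ 0 := by
  obtain ⟨i, hi⟩ := Function.ne_iff.mp hx
  obtain ⟨j, hj⟩ := Function.ne_iff.mp hy
  exact Function.ne_iff.mpr ⟨(i, j), mul_ne_zero hi hj⟩

theorem logHeight_tmul {K : Type*} [Field K] [AdmissibleAbsValues K] {ι κ : Type*} [Finite ι]
    [Finite κ] {x : ι → K} {y : κ → K} (hx : x ≠ 0) (hy : y ≠ 0) :
    logHeight (tmul x y) = logHeight x + logHeight y :=
  logHeight_fun_mul_eq hx hy

variable {Λ : Type*} [Finite Λ] {R : Λ → Type*} [∀ l, CommRing (R l)] {γ : Λ → Type*}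
variable {ι₀ ι₁ ι₂ ι₃ κ₁ κ₂ κ₃ : Type*} [Finite ι₀] [Finite ι₁] [Finite ι₂] [Finite ι₃]
  [Finite κ₁] [Finite κ₂] [Finite κ₃]

/-- **Cube form (H5).**  Seven families in each chart ring with
`Alt₀ * Alt₁ * Alt₂ * Alt₃ = Alt₁₂ * Alt₁₃ * Alt₂₃` (as ideals, `Alt = Ideal.span (Set.range _)`).
If at every place the seven vectors are, up to scalars whose products on the two sides agree, the
images of the chart families at a point of the region, then the alternating sum of the seven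
logarithmic heights is bounded by `totalWeight K * log C`, `C` independent of the field. -/
theorem exists_cube_logHeight_le (g : ∀ l, γ l → R l) (hR : ∀ l (r : R l), IsBdd.{u} (g l) r)
    (a₀ : ∀ l, ι₀ → R l) (a₁ : ∀ l, ι₁ → R l) (a₂ : ∀ l, ι₂ → R l) (a₃ : ∀ l, ι₃ → R l)
    (b₁ : ∀ l, κ₁ → R l) (b₂ : ∀ l, κ₂ → R l) (b₃ : ∀ l, κ₃ → R l)
    (hcube : ∀ l, Ideal.span (Set.range (a₀ l)) * Ideal.span (Set.range (a₁ l)) *
        Ideal.span (Set.range (a₂ l)) * Ideal.span (Set.range (a₃ l)) =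
      Ideal.span (Set.range (b₁ l)) * Ideal.span (Set.range (b₂ l)) *
        Ideal.span (Set.range (b₃ l)))
    (C₁ N₁ : ℕ) (hN₁ : 0 < N₁) :
    ∃ C : ℕ, 0 < C ∧ ∀ (K : Type u) [Field K] [CharZero K] [AdmissibleAbsValues K]
      (x₀ : ι₀ → K) (x₁ : ι₁ → K) (x₂ : ι₂ → K) (x₃ : ι₃ → K)
      (y₁ : κ₁ → K) (y₂ : κ₂ → K) (y₃ : κ₃ → K),
      x₀ ≠ 0 → x₁ ≠ 0 → x₂ ≠ 0 → x₃ ≠ 0 → y₁ ≠ 0 → y₂ ≠ 0 → y₃ ≠ 0 →
      (∀ v : AbsoluteValue K ℝ, v ∈ archAbsVal (K := K) ∨ v ∈ nonarchAbsVal (K := K) →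
        ∃ (l : Λ) (φ : R l →+* K) (ν₀ ν₁ ν₂ ν₃ μ₁ μ₂ μ₃ : K),
          ν₀ * ν₁ * ν₂ * ν₃ = μ₁ * μ₂ * μ₃ ∧
          (∀ i, x₀ i = ν₀ * φ (a₀ l i)) ∧ (∀ i, x₁ i = ν₁ * φ (a₁ l i)) ∧
          (∀ i, x₂ i = ν₂ * φ (a₂ l i)) ∧ (∀ i, x₃ i = ν₃ * φ (a₃ l i)) ∧
          (∀ j, y₁ j = μ₁ * φ (b₁ l j)) ∧ (∀ j, y₂ j = μ₂ * φ (b₂ l j)) ∧
          (∀ j, y₃ j = μ₃ * φ (b₃ l j)) ∧
          ∀ k, v (φ (g l k)) ≤ locConst v C₁ N₁) →
      |logHeight x₀ + logHeight x₁ + logHeight x₂ + logHeight x₃ -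
          (logHeight y₁ + logHeight y₂ + logHeight y₃)| ≤ totalWeight K * Real.log C := by
  obtain ⟨C, hC, h⟩ := exists_abs_logHeight_sub_le_of_charts.{u} g hR
    (fun l ↦ tmul (a₀ l) (tmul (a₁ l) (tmul (a₂ l) (a₃ l))))
    (fun l ↦ tmul (b₁ l) (tmul (b₂ l) (b₃ l)))
    (fun l ↦ by
      simp only [span_range_tmul]
      rw [← mul_assoc, ← mul_assoc, ← mul_assoc, hcube l]) C₁ N₁ hN₁
  refine ⟨C, hC, fun K _ _ _ x₀ x₁ x₂ x₃ y₁ y₂ y₃ hx₀ hx₁ hx₂ hx₃ hy₁ hy₂ hy₃ hloc ↦ ?_⟩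
  have hX : logHeight (tmul x₀ (tmul x₁ (tmul x₂ x₃))) =
      logHeight x₀ + logHeight x₁ + logHeight x₂ + logHeight x₃ := by
    rw [logHeight_tmul hx₀ (tmul_ne_zero hx₁ (tmul_ne_zero hx₂ hx₃)),
      logHeight_tmul hx₁ (tmul_ne_zero hx₂ hx₃), logHeight_tmul hx₂ hx₃]
    ring
  have hY : logHeight (tmul y₁ (tmul y₂ y₃)) = logHeight y₁ + logHeight y₂ + logHeight y₃ := by
    rw [logHeight_tmul hy₁ (tmul_ne_zero hy₂ hy₃), logHeight_tmul hy₂ hy₃]
    ring
  rw [← hX, ← hY]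
  refine h K _ _ (tmul_ne_zero hx₀ (tmul_ne_zero hx₁ (tmul_ne_zero hx₂ hx₃)))
    (tmul_ne_zero hy₁ (tmul_ne_zero hy₂ hy₃)) fun v hv ↦ ?_
  obtain ⟨l, φ, ν₀, ν₁, ν₂, ν₃, μ₁, μ₂, μ₃, hνμ, h₀, h₁, h₂, h₃, k₁, k₂, k₃, hreg⟩ := hloc v hv
  refine ⟨l, φ, ν₀ * ν₁ * ν₂ * ν₃, fun p ↦ ?_, fun p ↦ ?_, hreg⟩
  · simp only [tmul_apply, map_mul, h₀ p.1, h₁ p.2.1, h₂ p.2.2.1, h₃ p.2.2.2]
    ring
  · rw [hνμ]
    simp only [tmul_apply, map_mul, k₁ p.1, k₂ p.2.1, k₃ p.2.2]
    ring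

/-- **One-sided cube form.**  As `exists_cube_logHeight_le`, but only the ideal INCLUSION
`Alt₀ * Alt₁ * Alt₂ * Alt₃ ≤ Alt₁₂ * Alt₁₃ * Alt₂₃` is assumed; the conclusion is the upper bound
`∑ logHeight x ≤ ∑ logHeight y + totalWeight K * log C`. -/
theorem exists_cube_logHeight_upper (g : ∀ l, γ l → R l) (hR : ∀ l (r : R l), IsBdd.{u} (g l) r)
    (a₀ : ∀ l, ι₀ → R l) (a₁ : ∀ l, ι₁ → R l) (a₂ : ∀ l, ι₂ → R l) (a₃ : ∀ l, ι₃ → R l)
    (b₁ : ∀ l, κ₁ → R l) (b₂ : ∀ l, κ₂ → R l) (b₃ : ∀ l, κ₃ → R l)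
    (hcube : ∀ l, Ideal.span (Set.range (a₀ l)) * Ideal.span (Set.range (a₁ l)) *
        Ideal.span (Set.range (a₂ l)) * Ideal.span (Set.range (a₃ l)) ≤
      Ideal.span (Set.range (b₁ l)) * Ideal.span (Set.range (b₂ l)) *
        Ideal.span (Set.range (b₃ l)))
    (C₁ N₁ : ℕ) (hN₁ : 0 < N₁) :
    ∃ C : ℕ, 0 < C ∧ ∀ (K : Type u) [Field K] [CharZero K] [AdmissibleAbsValues K]
      (x₀ : ι₀ → K) (x₁ : ι₁ → K) (x₂ : ι₂ → K) (x₃ : ι₃ → K)
      (y₁ : κ₁ → K) (y₂ : κ₂ → K) (y₃ : κ₃ → K),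
      x₀ ≠ 0 → x₁ ≠ 0 → x₂ ≠ 0 → x₃ ≠ 0 → y₁ ≠ 0 → y₂ ≠ 0 → y₃ ≠ 0 →
      (∀ v : AbsoluteValue K ℝ, v ∈ archAbsVal (K := K) ∨ v ∈ nonarchAbsVal (K := K) →
        ∃ (l : Λ) (φ : R l →+* K) (ν₀ ν₁ ν₂ ν₃ μ₁ μ₂ μ₃ : K),
          ν₀ * ν₁ * ν₂ * ν₃ = μ₁ * μ₂ * μ₃ ∧
          (∀ i, x₀ i = ν₀ * φ (a₀ l i)) ∧ (∀ i, x₁ i = ν₁ * φ (a₁ l i)) ∧
          (∀ i, x₂ i = ν₂ * φ (a₂ l i)) ∧ (∀ i, x₃ i = ν₃ * φ (a₃ l i)) ∧
          (∀ j, y₁ j = μ₁ * φ (b₁ l j)) ∧ (∀ j, y₂ j = μ₂ * φ (b₂ l j)) ∧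
          (∀ j, y₃ j = μ₃ * φ (b₃ l j)) ∧
          ∀ k, v (φ (g l k)) ≤ locConst v C₁ N₁) →
      logHeight x₀ + logHeight x₁ + logHeight x₂ + logHeight x₃ ≤
        logHeight y₁ + logHeight y₂ + logHeight y₃ + totalWeight K * Real.log C := by
  obtain ⟨C, hC, h⟩ := exists_mulHeight_le_of_charts.{u} g hR
    (fun l ↦ tmul (a₀ l) (tmul (a₁ l) (tmul (a₂ l) (a₃ l))))
    (fun l ↦ tmul (b₁ l) (tmul (b₂ l) (b₃ l)))
    (fun l i ↦ by
      have h1 : tmul (a₀ l) (tmul (a₁ l) (tmul (a₂ l) (a₃ l))) i ∈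
          Ideal.span (Set.range (tmul (a₀ l) (tmul (a₁ l) (tmul (a₂ l) (a₃ l))))) :=
        Ideal.subset_span (Set.mem_range_self i)
      simp only [span_range_tmul] at h1 ⊢
      rw [← mul_assoc, ← mul_assoc] at h1
      rw [← mul_assoc]
      exact hcube l h1) C₁ N₁ hN₁
  refine ⟨C, hC, fun K _ _ _ x₀ x₁ x₂ x₃ y₁ y₂ y₃ hx₀ hx₁ hx₂ hx₃ hy₁ hy₂ hy₃ hloc ↦ ?_⟩
  have hX : logHeight (tmul x₀ (tmul x₁ (tmul x₂ x₃))) =
      logHeight x₀ + logHeight x₁ + logHeight x₂ + logHeight x₃ := by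
    rw [logHeight_tmul hx₀ (tmul_ne_zero hx₁ (tmul_ne_zero hx₂ hx₃)),
      logHeight_tmul hx₁ (tmul_ne_zero hx₂ hx₃), logHeight_tmul hx₂ hx₃]
    ring
  have hY : logHeight (tmul y₁ (tmul y₂ y₃)) = logHeight y₁ + logHeight y₂ + logHeight y₃ := by
    rw [logHeight_tmul hy₁ (tmul_ne_zero hy₂ hy₃), logHeight_tmul hy₂ hy₃]
    ring
  rw [← hX, ← hY]
  have hC1 : (1 : ℝ) ≤ C := by exact_mod_cast hC
  have key := h K (tmul x₀ (tmul x₁ (tmul x₂ x₃))) (tmul y₁ (tmul y₂ y₃))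
    (tmul_ne_zero hy₁ (tmul_ne_zero hy₂ hy₃)) fun v hv ↦ by
      obtain ⟨l, φ, ν₀, ν₁, ν₂, ν₃, μ₁, μ₂, μ₃, hνμ, h₀, h₁, h₂, h₃, k₁, k₂, k₃, hreg⟩ :=
        hloc v hv
      refine ⟨l, φ, ν₀ * ν₁ * ν₂ * ν₃, fun p ↦ ?_, fun p ↦ ?_, hreg⟩
      · simp only [tmul_apply, map_mul, h₀ p.1, h₁ p.2.1, h₂ p.2.2.1, h₃ p.2.2.2]
        ring
      · rw [hνμ]
        simp only [tmul_apply, map_mul, k₁ p.1, k₂ p.2.1, k₃ p.2.2]
        ring
  have hlog := Real.log_le_log (mulHeight_pos _) key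
  rw [Real.log_mul (pow_pos (zero_lt_one.trans_le hC1) _).ne' (mulHeight_pos _).ne',
    Real.log_pow] at hlog
  simp only [logHeight_eq_log_mulHeight] at *
  linarith

end Cube

end Fermat.Agent.S17.helper1925
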