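/-
S17-CUBE-HT (backup, board 1713) — helper1925: number-field / `ℚ`-rational corollaries of
`helper1925_CubeHeight` through the landed extension formula `Lib/helper3588_AbsHeight`.
-/
import Fermat.Agent.S17.helper1925_CubeHeight
import Fermat.Agent.Lib.helper3588_AbsHeight

set_option autoImplicit false

namespace Fermat.Agent.S17.helper1925

open Height Height.AdmissibleAbsValues

section Rational

variable {K : Type*} [Field K] [NumberField K] {ι : Type*} [Finite ι]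

/-- The height over a number field `K` of a vector proportional to a rational vector `X` is
`[K : ℚ]` times the height of `X` over `ℚ`. -/
theorem logHeight_eq_finrank_mul_of_rational (X : ι → ℚ) (x : ι → K) (c : K) (hc : c ≠ 0)
    (hx : ∀ i, c * x i = algebraMap ℚ K (X i)) :
    logHeight x = Module.finrank ℚ K * logHeight X := by
  rw [← Fermat.Agent.Lib.helper3588.logHeight_algebraMap ℚ K X, ← logHeight_smul_eq_logHeight x hc]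
  congr 1
  funext i
  rw [Pi.smul_apply, smul_eq_mul, hx i]

omit [Finite ι] in
/-- A vector over `K` proportional to a nonzero rational vector is nonzero. -/
theorem ne_zero_of_rational (X : ι → ℚ) (x : ι → K) (c : K) (hX : X ≠ 0)
    (hx : ∀ i, c * x i = algebraMap ℚ K (X i)) : x ≠ 0 := by
  intro hx0
  apply hX
  funext i
  have := hx i
  rw [hx0, Pi.zero_apply, mul_zero] at this
  exact (map_eq_zero (algebraMap ℚ K)).mp this.symm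

end Rational

section NumberFieldCharts

universe u

variable {Λ : Type*} [Finite Λ] {R : Λ → Type*} [∀ l, CommRing (R l)] [∀ l, Algebra ℚ (R l)]
  {γ : Λ → Type*} {α β : Type*} [Finite α] [Finite β]

/-- **Multi-chart theorem (H4) for number fields, consumer shape.**  Charts `l : Λ`, `ℚ`-algebras
`R l` integral over `ℚ[g l]`, families `a l`, `b l` with `a l i ∈ Ideal.span (Set.range (b l))`.
For all `C₁ N₁` there is `C > 0` such that for every number field `L` and vectors `x`, `y ≠ 0`: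
if at every place `v` of `L` some chart `l`, point `φ : R l →ₐ[ℚ] L` and scalar `ν` satisfy
`x = ν • φ ∘ a l`, `y = ν • φ ∘ b l` and `v (φ (g l k)) ≤ locConst v C₁ N₁` for all `k`, then
`mulHeight x ≤ C ^ [L : ℚ] * mulHeight y`. -/
theorem exists_mulHeight_le_of_charts_numberField (g : ∀ l, γ l → R l)
    (hint : ∀ l (r : R l), IsIntegral (Algebra.adjoin ℚ (Set.range (g l))) r)
    (a : ∀ l, α → R l) (b : ∀ l, β → R l)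
    (hab : ∀ l i, a l i ∈ Ideal.span (Set.range (b l))) (C₁ N₁ : ℕ) (hN₁ : 0 < N₁) :
    ∃ C : ℕ, 0 < C ∧ ∀ (L : Type u) [Field L] [NumberField L] (x : α → L) (y : β → L), y ≠ 0 →
      (∀ v : AbsoluteValue L ℝ, v ∈ archAbsVal (K := L) ∨ v ∈ nonarchAbsVal (K := L) →
        ∃ (l : Λ) (φ : R l →ₐ[ℚ] L) (ν : L), (∀ i, x i = ν * φ (a l i)) ∧
          (∀ j, y j = ν * φ (b l j)) ∧ ∀ k, v (φ (g l k)) ≤ locConst v C₁ N₁) →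
      mulHeight x ≤ (C : ℝ) ^ Module.finrank ℚ L * mulHeight y := by
  obtain ⟨C, hC, h⟩ := exists_mulHeight_le_of_charts.{u} g
    (fun l ↦ isBdd_of_isIntegral_adjoin (hint l)) a b hab C₁ N₁ hN₁
  refine ⟨C, hC, fun L _ _ x y hy hloc ↦ ?_⟩
  rw [← NumberField.totalWeight_eq_finrank]
  refine h L x y hy fun v hv ↦ ?_
  obtain ⟨l, φ, ν, hx, hy', hreg⟩ := hloc v hv
  exact ⟨l, φ.toRingHom, ν, hx, hy', hreg⟩

/-- Two-sided logarithmic form of `exists_mulHeight_le_of_charts_numberField`. -/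
theorem exists_abs_logHeight_sub_le_of_charts_numberField (g : ∀ l, γ l → R l)
    (hint : ∀ l (r : R l), IsIntegral (Algebra.adjoin ℚ (Set.range (g l))) r)
    (a : ∀ l, α → R l) (b : ∀ l, β → R l)
    (hab : ∀ l, Ideal.span (Set.range (a l)) = Ideal.span (Set.range (b l)))
    (C₁ N₁ : ℕ) (hN₁ : 0 < N₁) :
    ∃ C : ℕ, 0 < C ∧ ∀ (L : Type u) [Field L] [NumberField L] (x : α → L) (y : β → L),
      x ≠ 0 → y ≠ 0 →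
      (∀ v : AbsoluteValue L ℝ, v ∈ archAbsVal (K := L) ∨ v ∈ nonarchAbsVal (K := L) →
        ∃ (l : Λ) (φ : R l →ₐ[ℚ] L) (ν : L), (∀ i, x i = ν * φ (a l i)) ∧
          (∀ j, y j = ν * φ (b l j)) ∧ ∀ k, v (φ (g l k)) ≤ locConst v C₁ N₁) →
      |logHeight x - logHeight y| ≤ Module.finrank ℚ L * Real.log C := by
  obtain ⟨C, hC, h⟩ := exists_abs_logHeight_sub_le_of_charts.{u} g
    (fun l ↦ isBdd_of_isIntegral_adjoin (hint l)) a b hab C₁ N₁ hN₁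
  refine ⟨C, hC, fun L _ _ x y hx hy hloc ↦ ?_⟩
  rw [← NumberField.totalWeight_eq_finrank]
  refine h L x y hx hy fun v hv ↦ ?_
  obtain ⟨l, φ, ν, hx', hy', hreg⟩ := hloc v hv
  exact ⟨l, φ.toRingHom, ν, hx', hy', hreg⟩

end NumberFieldCharts

section CubeRational

variable {Λ : Type*} [Finite Λ] {R : Λ → Type*} [∀ l, CommRing (R l)] {γ : Λ → Type*}
variable {ι₀ ι₁ ι₂ ι₃ κ₁ κ₂ κ₃ : Type*} [Finite ι₀] [Finite ι₁] [Finite ι₂] [Finite ι₃]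
  [Finite κ₁] [Finite κ₂] [Finite κ₃]

/-- **Cube form for `ℚ`-rational vectors.**  Same chart hypotheses as
`exists_cube_logHeight_le`.  If `X₀, …, Y₃` are nonzero RATIONAL vectors which, over some number
field `K`, are proportional (global constants `c`) to vectors that at every place of `K` are images
of the chart families at a point of the region (up to scalars whose products on both sides
agree), then the alternating sum of the seven heights over `ℚ` is bounded by `log C`, with `C`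
independent of `K`. -/
theorem exists_cube_logHeight_rat_le (g : ∀ l, γ l → R l)
    (hR : ∀ l (r : R l), IsBdd.{0} (g l) r)
    (a₀ : ∀ l, ι₀ → R l) (a₁ : ∀ l, ι₁ → R l) (a₂ : ∀ l, ι₂ → R l) (a₃ : ∀ l, ι₃ → R l)
    (b₁ : ∀ l, κ₁ → R l) (b₂ : ∀ l, κ₂ → R l) (b₃ : ∀ l, κ₃ → R l)
    (hcube : ∀ l, Ideal.span (Set.range (a₀ l)) * Ideal.span (Set.range (a₁ l)) *
        Ideal.span (Set.range (a₂ l)) * Ideal.span (Set.range (a₃ l)) =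
      Ideal.span (Set.range (b₁ l)) * Ideal.span (Set.range (b₂ l)) *
        Ideal.span (Set.range (b₃ l)))
    (C₁ N₁ : ℕ) (hN₁ : 0 < N₁) :
    ∃ C : ℕ, 0 < C ∧ ∀ (K : Type) [Field K] [NumberField K]
      (X₀ : ι₀ → ℚ) (X₁ : ι₁ → ℚ) (X₂ : ι₂ → ℚ) (X₃ : ι₃ → ℚ)
      (Y₁ : κ₁ → ℚ) (Y₂ : κ₂ → ℚ) (Y₃ : κ₃ → ℚ),
      X₀ ≠ 0 → X₁ ≠ 0 → X₂ ≠ 0 → X₃ ≠ 0 → Y₁ ≠ 0 → Y₂ ≠ 0 → Y₃ ≠ 0 →
      ∀ (x₀ : ι₀ → K) (x₁ : ι₁ → K) (x₂ : ι₂ → K) (x₃ : ι₃ → K)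
        (y₁ : κ₁ → K) (y₂ : κ₂ → K) (y₃ : κ₃ → K) (c₀ c₁ c₂ c₃ d₁ d₂ d₃ : K),
      c₀ ≠ 0 → c₁ ≠ 0 → c₂ ≠ 0 → c₃ ≠ 0 → d₁ ≠ 0 → d₂ ≠ 0 → d₃ ≠ 0 →
      (∀ i, c₀ * x₀ i = algebraMap ℚ K (X₀ i)) → (∀ i, c₁ * x₁ i = algebraMap ℚ K (X₁ i)) →
      (∀ i, c₂ * x₂ i = algebraMap ℚ K (X₂ i)) → (∀ i, c₃ * x₃ i = algebraMap ℚ K (X₃ i)) →
      (∀ j, d₁ * y₁ j = algebraMap ℚ K (Y₁ j)) → (∀ j, d₂ * y₂ j = algebraMap ℚ K (Y₂ j)) →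
      (∀ j, d₃ * y₃ j = algebraMap ℚ K (Y₃ j)) →
      (∀ v : AbsoluteValue K ℝ, v ∈ archAbsVal (K := K) ∨ v ∈ nonarchAbsVal (K := K) →
        ∃ (l : Λ) (φ : R l →+* K) (ν₀ ν₁ ν₂ ν₃ μ₁ μ₂ μ₃ : K),
          ν₀ * ν₁ * ν₂ * ν₃ = μ₁ * μ₂ * μ₃ ∧
          (∀ i, x₀ i = ν₀ * φ (a₀ l i)) ∧ (∀ i, x₁ i = ν₁ * φ (a₁ l i)) ∧
          (∀ i, x₂ i = ν₂ * φ (a₂ l i)) ∧ (∀ i, x₃ i = ν₃ * φ (a₃ l i)) ∧
          (∀ j, y₁ j = μ₁ * φ (b₁ l j)) ∧ (∀ j, y₂ j = μ₂ * φ (b₂ l j)) ∧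
          (∀ j, y₃ j = μ₃ * φ (b₃ l j)) ∧
          ∀ k, v (φ (g l k)) ≤ locConst v C₁ N₁) →
      |logHeight X₀ + logHeight X₁ + logHeight X₂ + logHeight X₃ -
          (logHeight Y₁ + logHeight Y₂ + logHeight Y₃)| ≤ Real.log C := by
  obtain ⟨C, hC, h⟩ := exists_cube_logHeight_le.{0} g hR a₀ a₁ a₂ a₃ b₁ b₂ b₃ hcube C₁ N₁ hN₁
  refine ⟨C, hC, ?_⟩
  intro K _ _ X₀ X₁ X₂ X₃ Y₁ Y₂ Y₃ hX₀ hX₁ hX₂ hX₃ hY₁ hY₂ hY₃ x₀ x₁ x₂ x₃ y₁ y₂ y₃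
    c₀ c₁ c₂ c₃ d₁ d₂ d₃ hc₀ hc₁ hc₂ hc₃ hd₁ hd₂ hd₃ e₀ e₁ e₂ e₃ f₁ f₂ f₃ hloc
  have key := h K x₀ x₁ x₂ x₃ y₁ y₂ y₃ (ne_zero_of_rational X₀ x₀ c₀ hX₀ e₀)
    (ne_zero_of_rational X₁ x₁ c₁ hX₁ e₁) (ne_zero_of_rational X₂ x₂ c₂ hX₂ e₂)
    (ne_zero_of_rational X₃ x₃ c₃ hX₃ e₃) (ne_zero_of_rational Y₁ y₁ d₁ hY₁ f₁)
    (ne_zero_of_rational Y₂ y₂ d₂ hY₂ f₂) (ne_zero_of_rational Y₃ y₃ d₃ hY₃ f₃) hloc
  rw [logHeight_eq_finrank_mul_of_rational X₀ x₀ c₀ hc₀ e₀,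
    logHeight_eq_finrank_mul_of_rational X₁ x₁ c₁ hc₁ e₁,
    logHeight_eq_finrank_mul_of_rational X₂ x₂ c₂ hc₂ e₂,
    logHeight_eq_finrank_mul_of_rational X₃ x₃ c₃ hc₃ e₃,
    logHeight_eq_finrank_mul_of_rational Y₁ y₁ d₁ hd₁ f₁,
    logHeight_eq_finrank_mul_of_rational Y₂ y₂ d₂ hd₂ f₂,
    logHeight_eq_finrank_mul_of_rational Y₃ y₃ d₃ hd₃ f₃,
    NumberField.totalWeight_eq_finrank] at key
  have hd : (0 : ℝ) < Module.finrank ℚ K := by exact_mod_cast Module.finrank_pos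
  have hfac : (Module.finrank ℚ K : ℝ) * logHeight X₀ + Module.finrank ℚ K * logHeight X₁ +
      Module.finrank ℚ K * logHeight X₂ + Module.finrank ℚ K * logHeight X₃ -
      (Module.finrank ℚ K * logHeight Y₁ + Module.finrank ℚ K * logHeight Y₂ +
        Module.finrank ℚ K * logHeight Y₃) =
      Module.finrank ℚ K * (logHeight X₀ + logHeight X₁ + logHeight X₂ + logHeight X₃ -
        (logHeight Y₁ + logHeight Y₂ + logHeight Y₃)) := by ring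
  rw [hfac, abs_mul, abs_of_pos hd] at key
  exact le_of_mul_le_mul_left key hd

/-- **One-sided cube form for `ℚ`-rational vectors** (the shape of the one-sided Plücker endgame):
from the ideal inclusion `Alt₀ * Alt₁ * Alt₂ * Alt₃ ≤ Alt₁₂ * Alt₁₃ * Alt₂₃` in every chart,
`∑ logHeight X ≤ ∑ logHeight Y + log C` for rational vectors realised over any number field. -/
theorem exists_cube_logHeight_rat_upper (g : ∀ l, γ l → R l)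
    (hR : ∀ l (r : R l), IsBdd.{0} (g l) r)
    (a₀ : ∀ l, ι₀ → R l) (a₁ : ∀ l, ι₁ → R l) (a₂ : ∀ l, ι₂ → R l) (a₃ : ∀ l, ι₃ → R l)
    (b₁ : ∀ l, κ₁ → R l) (b₂ : ∀ l, κ₂ → R l) (b₃ : ∀ l, κ₃ → R l)
    (hcube : ∀ l, Ideal.span (Set.range (a₀ l)) * Ideal.span (Set.range (a₁ l)) *
        Ideal.span (Set.range (a₂ l)) * Ideal.span (Set.range (a₃ l)) ≤
      Ideal.span (Set.range (b₁ l)) * Ideal.span (Set.range (b₂ l)) *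
        Ideal.span (Set.range (b₃ l)))
    (C₁ N₁ : ℕ) (hN₁ : 0 < N₁) :
    ∃ C : ℕ, 0 < C ∧ ∀ (K : Type) [Field K] [NumberField K]
      (X₀ : ι₀ → ℚ) (X₁ : ι₁ → ℚ) (X₂ : ι₂ → ℚ) (X₃ : ι₃ → ℚ)
      (Y₁ : κ₁ → ℚ) (Y₂ : κ₂ → ℚ) (Y₃ : κ₃ → ℚ),
      X₀ ≠ 0 → X₁ ≠ 0 → X₂ ≠ 0 → X₃ ≠ 0 → Y₁ ≠ 0 → Y₂ ≠ 0 → Y₃ ≠ 0 →
      ∀ (x₀ : ι₀ → K) (x₁ : ι₁ → K) (x₂ : ι₂ → K) (x₃ : ι₃ → K)
        (y₁ : κ₁ → K) (y₂ : κ₂ → K) (y₃ : κ₃ → K) (c₀ c₁ c₂ c₃ d₁ d₂ d₃ : K),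
      c₀ ≠ 0 → c₁ ≠ 0 → c₂ ≠ 0 → c₃ ≠ 0 → d₁ ≠ 0 → d₂ ≠ 0 → d₃ ≠ 0 →
      (∀ i, c₀ * x₀ i = algebraMap ℚ K (X₀ i)) → (∀ i, c₁ * x₁ i = algebraMap ℚ K (X₁ i)) →
      (∀ i, c₂ * x₂ i = algebraMap ℚ K (X₂ i)) → (∀ i, c₃ * x₃ i = algebraMap ℚ K (X₃ i)) →
      (∀ j, d₁ * y₁ j = algebraMap ℚ K (Y₁ j)) → (∀ j, d₂ * y₂ j = algebraMap ℚ K (Y₂ j)) →
      (∀ j, d₃ * y₃ j = algebraMap ℚ K (Y₃ j)) →
      (∀ v : AbsoluteValue K ℝ, v ∈ archAbsVal (K := K) ∨ v ∈ nonarchAbsVal (K := K) →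
        ∃ (l : Λ) (φ : R l →+* K) (ν₀ ν₁ ν₂ ν₃ μ₁ μ₂ μ₃ : K),
          ν₀ * ν₁ * ν₂ * ν₃ = μ₁ * μ₂ * μ₃ ∧
          (∀ i, x₀ i = ν₀ * φ (a₀ l i)) ∧ (∀ i, x₁ i = ν₁ * φ (a₁ l i)) ∧
          (∀ i, x₂ i = ν₂ * φ (a₂ l i)) ∧ (∀ i, x₃ i = ν₃ * φ (a₃ l i)) ∧
          (∀ j, y₁ j = μ₁ * φ (b₁ l j)) ∧ (∀ j, y₂ j = μ₂ * φ (b₂ l j)) ∧
          (∀ j, y₃ j = μ₃ * φ (b₃ l j)) ∧
          ∀ k, v (φ (g l k)) ≤ locConst v C₁ N₁) →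
      logHeight X₀ + logHeight X₁ + logHeight X₂ + logHeight X₃ ≤
        logHeight Y₁ + logHeight Y₂ + logHeight Y₃ + Real.log C := by
  obtain ⟨C, hC, h⟩ := exists_cube_logHeight_upper.{0} g hR a₀ a₁ a₂ a₃ b₁ b₂ b₃ hcube C₁ N₁ hN₁
  refine ⟨C, hC, ?_⟩
  intro K _ _ X₀ X₁ X₂ X₃ Y₁ Y₂ Y₃ hX₀ hX₁ hX₂ hX₃ hY₁ hY₂ hY₃ x₀ x₁ x₂ x₃ y₁ y₂ y₃
    c₀ c₁ c₂ c₃ d₁ d₂ d₃ hc₀ hc₁ hc₂ hc₃ hd₁ hd₂ hd₃ e₀ e₁ e₂ e₃ f₁ f₂ f₃ hloc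
  have key := h K x₀ x₁ x₂ x₃ y₁ y₂ y₃ (ne_zero_of_rational X₀ x₀ c₀ hX₀ e₀)
    (ne_zero_of_rational X₁ x₁ c₁ hX₁ e₁) (ne_zero_of_rational X₂ x₂ c₂ hX₂ e₂)
    (ne_zero_of_rational X₃ x₃ c₃ hX₃ e₃) (ne_zero_of_rational Y₁ y₁ d₁ hY₁ f₁)
    (ne_zero_of_rational Y₂ y₂ d₂ hY₂ f₂) (ne_zero_of_rational Y₃ y₃ d₃ hY₃ f₃) hloc
  rw [logHeight_eq_finrank_mul_of_rational X₀ x₀ c₀ hc₀ e₀,
    logHeight_eq_finrank_mul_of_rational X₁ x₁ c₁ hc₁ e₁,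
    logHeight_eq_finrank_mul_of_rational X₂ x₂ c₂ hc₂ e₂,
    logHeight_eq_finrank_mul_of_rational X₃ x₃ c₃ hc₃ e₃,
    logHeight_eq_finrank_mul_of_rational Y₁ y₁ d₁ hd₁ f₁,
    logHeight_eq_finrank_mul_of_rational Y₂ y₂ d₂ hd₂ f₂,
    logHeight_eq_finrank_mul_of_rational Y₃ y₃ d₃ hd₃ f₃,
    NumberField.totalWeight_eq_finrank] at key
  have hd : (0 : ℝ) < Module.finrank ℚ K := by exact_mod_cast Module.finrank_pos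
  have hfac : (Module.finrank ℚ K : ℝ) * (logHeight X₀ + logHeight X₁ + logHeight X₂ +
      logHeight X₃) ≤ Module.finrank ℚ K * (logHeight Y₁ + logHeight Y₂ + logHeight Y₃ +
        Real.log C) := by linarith
  exact le_of_mul_le_mul_left hfac hd

end CubeRational

end Fermat.Agent.S17.helper1925
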