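import Mathlib
import Fermat.Prelude.Def_ModularCurve_X0
import Fermat.Prelude.Def_ModularCurve_LaurentCoeff
import Fermat.Prelude.Def_FLTPrelim_Ramification

/-!
# Almost-everywhere integrality of q-coefficients

Every element of `laurentBaseChange Qbar (modularFunctionFieldFull N)` has all its
q-coefficients in `A`, for every valuation subring `A` of `Qbar` lying over every prime
`ℓ` outside a finite set (depending on the element).

Abstract core (any field `k`): the Laurent series all of whose coefficients lie in a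
valuation subring `A` form a subring `coeffSubring A`, stable under inversion of series whose
leading coefficient is a unit of `A`.
-/

set_option autoImplicit false

noncomputable section

namespace Fermat.Agent.S17.helper2133

open ModularCurve

section Core

variable {k : Type*} [Field k]

/-- The subring of Laurent series over `k` with all coefficients in the valuation subring `A`,
as the range of the coefficientwise inclusion. -/
def coeffSubring (A : ValuationSubring k) : Subring (LaurentSeries k) :=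
  (coeffMap A.subtype).range

/-- Coefficientwise lift of a Laurent series with coefficients in `A`. -/
def liftSeries (A : ValuationSubring k) (x : LaurentSeries k) (h : ∀ n : ℤ, x.coeff n ∈ A) :
    LaurentSeries A where
  coeff n := ⟨x.coeff n, h n⟩
  isPWO_support' := by
    have hs : Function.support (fun n : ℤ => (⟨x.coeff n, h n⟩ : A)) = x.support := by
      ext n
      simp [Subtype.ext_iff]
    rw [hs]
    exact x.isPWO_support

@[simp]
theorem liftSeries_coeff (A : ValuationSubring k) (x : LaurentSeries k)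
    (h : ∀ n : ℤ, x.coeff n ∈ A) (n : ℤ) :
    ((liftSeries A x h).coeff n : k) = x.coeff n := rfl

theorem coeffMap_liftSeries (A : ValuationSubring k) (x : LaurentSeries k)
    (h : ∀ n : ℤ, x.coeff n ∈ A) : coeffMap A.subtype (liftSeries A x h) = x := by
  ext n
  simp

theorem mem_coeffSubring_iff (A : ValuationSubring k) (x : LaurentSeries k) :
    x ∈ coeffSubring A ↔ ∀ n : ℤ, x.coeff n ∈ A := by
  constructor
  · rintro ⟨y, rfl⟩ n
    rw [coeffMap_coeff]
    exact (y.coeff n).2
  · intro h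
    exact ⟨liftSeries A x h, coeffMap_liftSeries A x h⟩

theorem coeffMap_subtype_injective (A : ValuationSubring k) :
    Function.Injective (coeffMap A.subtype : LaurentSeries A → LaurentSeries k) := by
  intro y z hyz
  ext n
  have := congrArg (fun s : LaurentSeries k => s.coeff n) hyz
  simpa using this

theorem algebraMap_mem_coeffSubring (A : ValuationSubring k) {c : k} (hc : c ∈ A) :
    algebraMap k (LaurentSeries k) c ∈ coeffSubring A := by
  rw [mem_coeffSubring_iff]
  intro n
  rw [algebraMap_laurentSeries_eq_single]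
  by_cases hn : n = 0
  · subst hn
    simpa using hc
  · rw [HahnSeries.coeff_single_of_ne hn]
    exact A.zero_mem

/-- Inversion: if all coefficients of `x` lie in `A` and the leading coefficient of `x` is a
unit of `A`, then all coefficients of `x⁻¹` lie in `A`. -/
theorem inv_mem_coeffSubring (A : ValuationSubring k) {x : LaurentSeries k}
    (hx : x ∈ coeffSubring A) (hlead : (x.leadingCoeff)⁻¹ ∈ A) : x⁻¹ ∈ coeffSubring A := by
  by_cases hx0 : x = 0
  · subst hx0
    rw [inv_zero]
    exact (coeffSubring A).zero_mem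
  obtain ⟨y, rfl⟩ := hx
  have hy0 : y ≠ 0 := by
    rintro rfl
    exact hx0 (map_zero _)
  -- the order of `y` is the order of its image
  have hcoeff : ∀ n : ℤ, y.coeff n = 0 ↔ (coeffMap A.subtype y).coeff n = 0 := by
    intro n
    rw [coeffMap_coeff]
    exact (map_eq_zero_iff A.subtype Subtype.val_injective).symm
  have hord : y.order = (coeffMap A.subtype y).order := by
    apply le_antisymm
    · apply HahnSeries.order_le_of_coeff_ne_zero
      rw [Ne, hcoeff]
      exact HahnSeries.coeff_order_eq_zero.not.mpr hx0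
    · apply HahnSeries.order_le_of_coeff_ne_zero
      rw [Ne, ← hcoeff]
      exact HahnSeries.coeff_order_eq_zero.not.mpr hy0
  have hlc : ((y.leadingCoeff : A) : k) = (coeffMap A.subtype y).leadingCoeff := by
    rw [HahnSeries.leadingCoeff_eq, HahnSeries.leadingCoeff_eq, hord, coeffMap_coeff]
    rfl
  have hunit : IsUnit y.leadingCoeff := by
    have hne : (y.leadingCoeff : A) ≠ 0 := HahnSeries.leadingCoeff_ne_zero.mpr hy0
    refine IsUnit.of_mul_eq_one (⟨_, hlead⟩ : A) ?_
    apply Subtype.ext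
    show ((y.leadingCoeff : A) : k) * ((coeffMap A.subtype y).leadingCoeff)⁻¹ = 1
    rw [hlc]
    exact mul_inv_cancel₀ (HahnSeries.leadingCoeff_ne_zero.mpr hx0)
  have hyu : IsUnit y := HahnSeries.isUnit_iff.mpr hunit
  obtain ⟨u, hu⟩ := hyu
  refine ⟨((u⁻¹ : (LaurentSeries A)ˣ) : LaurentSeries A), ?_⟩
  symm
  apply inv_eq_of_mul_eq_one_right
  rw [← hu, ← map_mul, Units.mul_inv, map_one]

end Core

section AE

variable {k : Type*} [Field k]

/-- `AEInt x`: all coefficients of the Laurent series `x` lie in `A`, for every valuation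
subring `A` of `k` lying over every prime `ℓ` not dividing some `M ≠ 0`. -/
def AEInt (x : LaurentSeries k) : Prop :=
  ∃ M : ℕ, M ≠ 0 ∧ ∀ ℓ : ℕ, ℓ.Prime → ¬ ℓ ∣ M →
    ∀ A : ValuationSubring k, A.LiesOverPrime ℓ → x ∈ coeffSubring A

/-- `AEConst c`: the constant `c` lies in `A` for every valuation subring `A` of `k` lying over
every prime `ℓ` not dividing some `M ≠ 0`. -/
def AEConst (c : k) : Prop :=
  ∃ M : ℕ, M ≠ 0 ∧ ∀ ℓ : ℕ, ℓ.Prime → ¬ ℓ ∣ M →
    ∀ A : ValuationSubring k, A.LiesOverPrime ℓ → c ∈ A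

theorem aeInt_iff (x : LaurentSeries k) :
    AEInt x ↔ ∃ M : ℕ, M ≠ 0 ∧ ∀ ℓ : ℕ, ℓ.Prime → ¬ ℓ ∣ M →
      ∀ A : ValuationSubring k, A.LiesOverPrime ℓ → ∀ n : ℤ, x.coeff n ∈ A := by
  simp only [AEInt, mem_coeffSubring_iff]

theorem aeInt_zero : AEInt (0 : LaurentSeries k) :=
  ⟨1, one_ne_zero, fun _ _ _ A _ => (coeffSubring A).zero_mem⟩

theorem aeInt_one : AEInt (1 : LaurentSeries k) :=
  ⟨1, one_ne_zero, fun _ _ _ A _ => (coeffSubring A).one_mem⟩

theorem AEInt.add {x y : LaurentSeries k} (hx : AEInt x) (hy : AEInt y) : AEInt (x + y) := by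
  obtain ⟨M₁, h₁, H₁⟩ := hx
  obtain ⟨M₂, h₂, H₂⟩ := hy
  refine ⟨M₁ * M₂, mul_ne_zero h₁ h₂, fun ℓ hℓ hd A hA => ?_⟩
  exact (coeffSubring A).add_mem
    (H₁ ℓ hℓ (fun h => hd (Dvd.dvd.mul_right h M₂)) A hA)
    (H₂ ℓ hℓ (fun h => hd (Dvd.dvd.mul_left h M₁)) A hA)

theorem AEInt.mul {x y : LaurentSeries k} (hx : AEInt x) (hy : AEInt y) : AEInt (x * y) := by
  obtain ⟨M₁, h₁, H₁⟩ := hx
  obtain ⟨M₂, h₂, H₂⟩ := hy
  refine ⟨M₁ * M₂, mul_ne_zero h₁ h₂, fun ℓ hℓ hd A hA => ?_⟩
  exact (coeffSubring A).mul_mem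
    (H₁ ℓ hℓ (fun h => hd (Dvd.dvd.mul_right h M₂)) A hA)
    (H₂ ℓ hℓ (fun h => hd (Dvd.dvd.mul_left h M₁)) A hA)

theorem AEInt.neg {x : LaurentSeries k} (hx : AEInt x) : AEInt (-x) := by
  obtain ⟨M₁, h₁, H₁⟩ := hx
  exact ⟨M₁, h₁, fun ℓ hℓ hd A hA => (coeffSubring A).neg_mem (H₁ ℓ hℓ hd A hA)⟩

theorem AEConst.aeInt {c : k} (hc : AEConst c) : AEInt (algebraMap k (LaurentSeries k) c) := by
  obtain ⟨M, hM, H⟩ := hc
  exact ⟨M, hM, fun ℓ hℓ hd A hA => algebraMap_mem_coeffSubring A (H ℓ hℓ hd A hA)⟩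

theorem AEInt.inv {x : LaurentSeries k} (hx : AEInt x) (hc : AEConst (x.leadingCoeff)⁻¹) :
    AEInt x⁻¹ := by
  obtain ⟨M₁, h₁, H₁⟩ := hx
  obtain ⟨M₂, h₂, H₂⟩ := hc
  refine ⟨M₁ * M₂, mul_ne_zero h₁ h₂, fun ℓ hℓ hd A hA => ?_⟩
  exact inv_mem_coeffSubring A
    (H₁ ℓ hℓ (fun h => hd (Dvd.dvd.mul_right h M₂)) A hA)
    (H₂ ℓ hℓ (fun h => hd (Dvd.dvd.mul_left h M₁)) A hA)

/-- Closure induction: if every constant is a.e. integral, the a.e. integral Laurent series
contain the subfield generated by the constants and any set of a.e. integral series. -/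
theorem aeInt_of_mem_closure (hconst : ∀ c : k, AEConst c) (S : Set (LaurentSeries k))
    (hS : ∀ s ∈ S, AEInt s) {x : LaurentSeries k}
    (hx : x ∈ Subfield.closure (Set.range (algebraMap k (LaurentSeries k)) ∪ S)) :
    AEInt x := by
  induction hx using Subfield.closure_induction with
  | mem y hy =>
      rcases hy with ⟨c, rfl⟩ | hy
      · exact (hconst c).aeInt
      · exact hS y hy
  | one => exact aeInt_one
  | add x y _ _ hx hy => exact hx.add hy
  | neg x _ hx => exact hx.neg
  | inv x _ hx => exact hx.inv (hconst _)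
  | mul x y _ _ hx hy => exact hx.mul hy

end AE

section Algebraic

variable {k : Type*} [Field k]

/-- Integers lie in every valuation subring. -/
theorem intCast_mem_valuationSubring (A : ValuationSubring k) (z : ℤ) : (z : k) ∈ A :=
  intCast_mem A.toSubring z

/-- An integer prime to `ℓ` is a unit of every valuation subring over `ℓ`. -/
theorem inv_intCast_mem_of_not_dvd (A : ValuationSubring k) {ℓ : ℕ} (hℓ : ℓ.Prime)
    (hA : A.LiesOverPrime ℓ) {M : ℤ} (hM : ¬ (ℓ : ℤ) ∣ M) : ((M : k))⁻¹ ∈ A := by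
  have hcop : IsCoprime (ℓ : ℤ) M :=
    (Nat.prime_iff_prime_int.mp hℓ).coprime_iff_not_dvd.mpr hM
  obtain ⟨a, b, hab⟩ := hcop
  have habk : (a : k) * (ℓ : k) + (b : k) * (M : k) = 1 := by
    have := congrArg (fun z : ℤ => (z : k)) hab
    simpa using this
  have hℓlt : A.valuation (ℓ : k) < 1 := (ValuationSubring.mem_nonunits_iff (A := A)).mp hA
  have hale : A.valuation (a : k) ≤ 1 :=
    (A.valuation_le_one_iff _).mpr (intCast_mem_valuationSubring A a)
  have hble : A.valuation (b : k) ≤ 1 :=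
    (A.valuation_le_one_iff _).mpr (intCast_mem_valuationSubring A b)
  have hMle : A.valuation (M : k) ≤ 1 :=
    (A.valuation_le_one_iff _).mpr (intCast_mem_valuationSubring A M)
  have h1 : A.valuation ((a : k) * (ℓ : k)) < 1 := by
    rw [map_mul]
    calc A.valuation (a : k) * A.valuation (ℓ : k) ≤ 1 * A.valuation (ℓ : k) :=
          mul_le_mul_left hale _
      _ = A.valuation (ℓ : k) := one_mul _
      _ < 1 := hℓlt
  have h2 : A.valuation ((b : k) * (M : k)) = 1 := by
    have : (b : k) * (M : k) = 1 - (a : k) * (ℓ : k) := by rw [← habk]; ring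
    rw [this]
    exact Valuation.map_one_sub_of_lt _ h1
  rw [map_mul] at h2
  have hM1 : A.valuation (M : k) = 1 := by
    refine le_antisymm hMle ?_
    calc (1 : _) = A.valuation (b : k) * A.valuation (M : k) := h2.symm
      _ ≤ 1 * A.valuation (M : k) := mul_le_mul_left hble _
      _ = A.valuation (M : k) := one_mul _
  rw [← A.valuation_le_one_iff, map_inv₀, hM1, inv_one]

/-- Elements integral over `ℤ` lie in every valuation subring. -/
theorem mem_valuationSubring_of_isIntegral (A : ValuationSubring k) {x : k}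
    (hx : IsIntegral ℤ x) : x ∈ A := by
  have hxA : IsIntegral A x := hx.tower_top
  obtain ⟨y, rfl⟩ := (IsIntegrallyClosed.isIntegral_iff (R := A) (K := k)).mp hxA
  exact y.2

/-- In a characteristic-zero field, every element algebraic over `ℚ` lies in `A` for all
valuation subrings `A` over all primes outside a finite set. -/
theorem aeConst_of_isAlgebraic [CharZero k] [Algebra ℚ k] {c : k} (hc : IsAlgebraic ℚ c) :
    AEConst c := by
  have hcZ : IsAlgebraic ℤ c := (IsFractionRing.isAlgebraic_iff ℤ ℚ k).mpr hc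
  obtain ⟨y, hy0, hy⟩ := hcZ.exists_integral_multiple
  refine ⟨y.natAbs, Int.natAbs_ne_zero.mpr hy0, fun ℓ hℓ hd A hA => ?_⟩
  have hyd : ¬ (ℓ : ℤ) ∣ y := fun h => hd (Int.natCast_dvd.mp h)
  have h1 : ((y : k))⁻¹ ∈ A := inv_intCast_mem_of_not_dvd A hℓ hA hyd
  have h2 : y • c ∈ A := mem_valuationSubring_of_isIntegral A hy
  have hyk : (y : k) ≠ 0 := Int.cast_ne_zero.mpr hy0
  have : c = ((y : k))⁻¹ * (y • c) := by
    rw [zsmul_eq_mul, ← mul_assoc, inv_mul_cancel₀ hyk, one_mul]
  rw [this]
  exact A.mul_mem _ _ h1 h2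

theorem aeConst_of_algebraic [CharZero k] [Algebra ℚ k] [Algebra.IsAlgebraic ℚ k] (c : k) :
    AEConst c :=
  aeConst_of_isAlgebraic (Algebra.IsAlgebraic.isAlgebraic c)

end Algebraic

section Modular

/-- A rational Laurent series with integer coefficients. -/
def IntCoeff (x : LaurentSeries ℚ) : Prop := ∀ n : ℤ, ∃ z : ℤ, x.coeff n = z

theorem intCoeff_jq : IntCoeff jq := by
  intro n
  rw [jq, HahnSeries.coeff_single_mul, one_mul]
  rcases lt_or_ge (n - (-1)) 0 with h | h
  · exact ⟨0, by rw [ofPowerSeries_coeff_of_neg _ h]; simp⟩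
  · obtain ⟨m, hm⟩ := Int.eq_ofNat_of_zero_le h
    refine ⟨PowerSeries.coeff m jNum, ?_⟩
    rw [hm, HahnSeries.ofPowerSeries_apply_coeff, jNumQ, PowerSeries.coeff_map]
    rfl

theorem intCoeff_qExpand (d : ℕ) [NeZero d] {x : LaurentSeries ℚ} (hx : IntCoeff x) :
    IntCoeff (qExpand ℚ d x) := by
  intro n
  by_cases hn : (d : ℤ) ∣ n
  · obtain ⟨m, rfl⟩ := hn
    rw [qExpand_coeff_mul]
    exact hx m
  · exact ⟨0, by rw [qExpand_coeff_of_not_dvd d x hn]; simp⟩

theorem intCoeff_of_mem_divisorExpansions (N : ℕ) {x : LaurentSeries ℚ}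
    (hx : x ∈ divisorExpansions N) : IntCoeff x := by
  obtain ⟨d, hd, _, rfl⟩ := hx
  exact @intCoeff_qExpand d hd _ intCoeff_jq

variable (L : Type*) [Field L] [Algebra ℚ L]

theorem aeInt_coeffEmb_of_intCoeff {x : LaurentSeries ℚ} (hx : IntCoeff x) :
    AEInt (coeffEmb L x) := by
  refine ⟨1, one_ne_zero, fun ℓ _ _ A _ => (mem_coeffSubring_iff A _).mpr fun n => ?_⟩
  obtain ⟨z, hz⟩ := hx n
  rw [coeffEmb_coeff, hz, map_intCast]
  exact intCast_mem_valuationSubring A z

theorem coeffEmb_algebraMap (r : ℚ) :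
    coeffEmb L (algebraMap ℚ (LaurentSeries ℚ) r)
      = algebraMap L (LaurentSeries L) (algebraMap ℚ L r) := by
  rw [algebraMap_laurentSeries_eq_single, algebraMap_laurentSeries_eq_single, coeffEmb,
    coeffMap_single]

variable [CharZero L] [Algebra.IsAlgebraic ℚ L]

/-- The image under `coeffEmb` of the field generated over `ℚ` by a set of series with a.e.
integral images consists of a.e. integral series. -/
theorem aeInt_coeffEmb_of_mem_adjoin (S : Set (LaurentSeries ℚ))
    (hS : ∀ s ∈ S, AEInt (coeffEmb L s)) {z : LaurentSeries ℚ}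
    (hz : z ∈ IntermediateField.adjoin ℚ S) : AEInt (coeffEmb L z) := by
  have hz' : z ∈ Subfield.closure (Set.range (algebraMap ℚ (LaurentSeries ℚ)) ∪ S) := hz
  induction hz' using Subfield.closure_induction with
  | mem y hy =>
      rcases hy with ⟨c, rfl⟩ | hy
      · rw [coeffEmb_algebraMap]
        exact (aeConst_of_algebraic _).aeInt
      · exact hS y hy
  | one => rw [map_one]; exact aeInt_one
  | add x y hx hy ihx ihy => rw [map_add]; exact (ihx hx).add (ihy hy)
  | neg x hx ihx => rw [map_neg]; exact (ihx hx).neg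
  | inv x hx ihx => rw [map_inv₀]; exact (ihx hx).inv (aeConst_of_algebraic _)
  | mul x y hx hy ihx ihy => rw [map_mul]; exact (ihx hx).mul (ihy hy)

/-- **A.e. integrality**: every element of `laurentBaseChange L F₀`, for `F₀` generated over
`ℚ` by a set of series with integer coefficients and `L` algebraic over `ℚ`, has all its
coefficients in `A` for all valuation subrings `A` of `L` over all primes outside a finite
set. -/
theorem aeInt_of_mem_laurentBaseChange_adjoin (S : Set (LaurentSeries ℚ))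
    (hS : ∀ s ∈ S, IntCoeff s) {x : LaurentSeries L}
    (hx : x ∈ laurentBaseChange L (IntermediateField.adjoin ℚ S)) : AEInt x := by
  rw [mem_laurentBaseChange_iff] at hx
  refine aeInt_of_mem_closure (fun c => aeConst_of_algebraic c) _ ?_ hx
  rintro s ⟨z, hz, rfl⟩
  exact aeInt_coeffEmb_of_mem_adjoin L S (fun s hs => aeInt_coeffEmb_of_intCoeff L (hS s hs)) hz

theorem aeInt_of_mem_laurentBaseChange (N : ℕ) {x : LaurentSeries L}
    (hx : x ∈ laurentBaseChange L (modularFunctionFieldFull N)) : AEInt x :=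
  aeInt_of_mem_laurentBaseChange_adjoin L (divisorExpansions N)
    (fun _ hs => intCoeff_of_mem_divisorExpansions N hs) hx

end Modular

section Consumer

/-- `Qbar` is algebraic over `ℚ` for the `ℚ`-algebra structure coming from the division ring
structure (the one instance resolution picks). -/
theorem isAlgebraic_rat_algebraicClosure :
    @Algebra.IsAlgebraic ℚ (AlgebraicClosure ℚ) _ _ DivisionRing.toRatAlgebra :=
  AlgebraicClosure.isAlgebraic ℚ

/-- **A.e. integrality of q-coefficients on `Qbar(X₀(N))`** (consumer form): every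
`f : laurentBaseChange Qbar (modularFunctionFieldFull N)` has all its q-coefficients in `A`
for every valuation subring `A` of `Qbar` over every prime `ℓ` not dividing some `M ≠ 0`. -/
theorem exists_coeff_mem (N : ℕ)
    (f : laurentBaseChange (AlgebraicClosure ℚ) (modularFunctionFieldFull N)) :
    ∃ M : ℕ, M ≠ 0 ∧ ∀ ℓ : ℕ, ℓ.Prime → ¬ ℓ ∣ M →
      ∀ A : ValuationSubring (AlgebraicClosure ℚ), A.LiesOverPrime ℓ →
        ∀ n : ℤ, (f : LaurentSeries (AlgebraicClosure ℚ)).coeff n ∈ A := by
  have := isAlgebraic_rat_algebraicClosure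
  exact (aeInt_iff _).mp (aeInt_of_mem_laurentBaseChange (AlgebraicClosure ℚ) N f.2)

/-- Same, with in addition the leading coefficient a unit of `A` (for `f ≠ 0`). -/
theorem exists_coeff_mem_and_leadingCoeff_unit (N : ℕ)
    (f : laurentBaseChange (AlgebraicClosure ℚ) (modularFunctionFieldFull N)) :
    ∃ M : ℕ, M ≠ 0 ∧ ∀ ℓ : ℕ, ℓ.Prime → ¬ ℓ ∣ M →
      ∀ A : ValuationSubring (AlgebraicClosure ℚ), A.LiesOverPrime ℓ →
        (∀ n : ℤ, (f : LaurentSeries (AlgebraicClosure ℚ)).coeff n ∈ A) ∧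
        ((f : LaurentSeries (AlgebraicClosure ℚ)).leadingCoeff)⁻¹ ∈ A := by
  have := isAlgebraic_rat_algebraicClosure
  obtain ⟨M₁, h₁, H₁⟩ := exists_coeff_mem N f
  obtain ⟨M₂, h₂, H₂⟩ := aeConst_of_algebraic
    ((f : LaurentSeries (AlgebraicClosure ℚ)).leadingCoeff)⁻¹
  refine ⟨M₁ * M₂, mul_ne_zero h₁ h₂, fun ℓ hℓ hd A hA => ⟨?_, ?_⟩⟩
  · exact H₁ ℓ hℓ (fun h => hd (Dvd.dvd.mul_right h M₂)) A hA
  · exact H₂ ℓ hℓ (fun h => hd (Dvd.dvd.mul_left h M₁)) A hA

/-- Finite families: a common modulus. -/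
theorem exists_coeff_mem_finset (N : ℕ)
    (s : Finset (laurentBaseChange (AlgebraicClosure ℚ) (modularFunctionFieldFull N))) :
    ∃ M : ℕ, M ≠ 0 ∧ ∀ ℓ : ℕ, ℓ.Prime → ¬ ℓ ∣ M →
      ∀ A : ValuationSubring (AlgebraicClosure ℚ), A.LiesOverPrime ℓ →
        ∀ f ∈ s, ∀ n : ℤ, (f : LaurentSeries (AlgebraicClosure ℚ)).coeff n ∈ A := by
  classical
  induction s using Finset.induction_on with
  | empty => exact ⟨1, one_ne_zero, fun _ _ _ _ _ f hf => absurd hf (Finset.notMem_empty f)⟩
  | insert a s _ ih =>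
      obtain ⟨M₁, h₁, H₁⟩ := exists_coeff_mem N a
      obtain ⟨M₂, h₂, H₂⟩ := ih
      refine ⟨M₁ * M₂, mul_ne_zero h₁ h₂, fun ℓ hℓ hd A hA f hf => ?_⟩
      rcases Finset.mem_insert.mp hf with rfl | hf
      · exact H₁ ℓ hℓ (fun h => hd (Dvd.dvd.mul_right h M₂)) A hA
      · exact H₂ ℓ hℓ (fun h => hd (Dvd.dvd.mul_left h M₁)) A hA f hf

end Consumer

end Fermat.Agent.S17.helper2133
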