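import Mathlib
import Fermat.Agent.Lib.helper1080_HeightCramer

/-!
# S17-G2-UB, part 1 (helper2139): local theory at one absolute value

Chart-free route to the cube law: this file contains the purely local statements at one absolute
value `v` of a field `L`.

* `Ctl v n₁ Λ` : `v` of a sum of at most `n₁` terms is at most `Λ` times the maximum
  (`Λ = n₁` at archimedean absolute values, `Λ = 1` at nonarchimedean ones).
* `maxMinor v E` : the maximum of `v` on the maximal minors of `E` (all-maps indexing).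
* `exists_frame` : a normalised frame of `ker E` at a maximal minor.
* `dlower`, `cramer_*` : the matrix lemma
  `maxMinor [E; ε] ≍ maxMinor E * ‖ε|_{ker E}‖`.
* `mult_easy`, `mult_hard` : multiplicativity of the ratios `maxMinor [E; ε] / maxMinor E`
  under a bilinear multiplication, given a minor witness for the product family.
-/

set_option autoImplicit false
set_option linter.unusedSectionVars false

namespace Fermat.Agent.S17.helper2139

open Matrix Function Fermat.Agent.Lib.helper1080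

noncomputable section

section Basic

variable {L : Type*} [Field L]

/-- The sup norm of a vector with respect to an absolute value. -/
def vnorm (v : AbsoluteValue L ℝ) {ι : Type*} (x : ι → L) : ℝ := ⨆ i, v (x i)

theorem vnorm_nonneg (v : AbsoluteValue L ℝ) {ι : Type*} (x : ι → L) : 0 ≤ vnorm v x :=
  Real.iSup_nonneg fun _ => v.nonneg _

theorem le_vnorm (v : AbsoluteValue L ℝ) {ι : Type*} [Finite ι] (x : ι → L) (i : ι) :
    v (x i) ≤ vnorm v x :=
  le_ciSup (f := fun i => v (x i)) (Finite.bddAbove_range _) i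

theorem vnorm_le (v : AbsoluteValue L ℝ) {ι : Type*} (x : ι → L) {B : ℝ} (hB : 0 ≤ B)
    (h : ∀ i, v (x i) ≤ B) : vnorm v x ≤ B :=
  Real.iSup_le h hB

/-- The maximum of `v` over all maximal minors of `E` (indexed by all maps). -/
def maxMinor (v : AbsoluteValue L ℝ) {ι κ : Type*} [Fintype ι] [DecidableEq ι]
    (E : Matrix ι κ L) : ℝ :=
  ⨆ f : ι → κ, v ((E.submatrix id f).det)

section MaxMinor

variable (v : AbsoluteValue L ℝ) {ι κ : Type*} [Fintype ι] [DecidableEq ι]

theorem maxMinor_nonneg (E : Matrix ι κ L) : 0 ≤ maxMinor v E :=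
  Real.iSup_nonneg fun _ => v.nonneg _

theorem le_maxMinor [Finite κ] (E : Matrix ι κ L) (f : ι → κ) :
    v ((E.submatrix id f).det) ≤ maxMinor v E :=
  le_ciSup (f := fun f : ι → κ => v ((E.submatrix id f).det)) (Finite.bddAbove_range _) f

theorem maxMinor_le (E : Matrix ι κ L) {B : ℝ} (hB : 0 ≤ B)
    (h : ∀ f : ι → κ, v ((E.submatrix id f).det) ≤ B) : maxMinor v E ≤ B :=
  Real.iSup_le h hB

theorem maxMinor_eq_zero_or_exists [Finite κ] (E : Matrix ι κ L) :
    maxMinor v E = 0 ∨ ∃ f : ι → κ, maxMinor v E = v ((E.submatrix id f).det) := by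
  by_cases hne : Nonempty (ι → κ)
  · right
    obtain ⟨f, hf⟩ := exists_eq_ciSup_of_finite (f := fun f : ι → κ => v ((E.submatrix id f).det))
    exact ⟨f, hf.symm⟩
  · left
    rw [not_nonempty_iff] at hne
    exact Real.iSup_of_isEmpty _

theorem exists_of_maxMinor_pos [Finite κ] (E : Matrix ι κ L) (h : 0 < maxMinor v E) :
    ∃ f : ι → κ, maxMinor v E = v ((E.submatrix id f).det) := by
  rcases maxMinor_eq_zero_or_exists v E with h0 | h1
  · exact absurd h0 h.ne'
  · exact h1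

end MaxMinor

/-- `v` of a sum of at most `n₁` terms is at most `Λ` times a common bound of the terms. -/
structure Ctl (v : AbsoluteValue L ℝ) (n₁ : ℕ) (Λ : ℝ) : Prop where
  one_le : 1 ≤ Λ
  sum_le : ∀ {α : Type} (s : Finset α) (f : α → L) (B : ℝ), s.card ≤ n₁ → 0 ≤ B →
    (∀ i ∈ s, v (f i) ≤ B) → v (∑ i ∈ s, f i) ≤ Λ * B

namespace Ctl

variable {v : AbsoluteValue L ℝ} {n₁ : ℕ} {Λ : ℝ}

theorem pos (h : Ctl v n₁ Λ) : 0 < Λ := lt_of_lt_of_le one_pos h.one_le

theorem nonneg (h : Ctl v n₁ Λ) : 0 ≤ Λ := h.pos.le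

theorem mono (h : Ctl v n₁ Λ) {n₂ : ℕ} (hn : n₂ ≤ n₁) : Ctl v n₂ Λ :=
  ⟨h.one_le, fun s f B hs hB hf => h.sum_le s f B (hs.trans hn) hB hf⟩

theorem one_le_pow (h : Ctl v n₁ Λ) (p : ℕ) : 1 ≤ Λ ^ p := one_le_pow₀ h.one_le

theorem pow_le_pow (h : Ctl v n₁ Λ) {p q : ℕ} (hpq : p ≤ q) : Λ ^ p ≤ Λ ^ q :=
  pow_le_pow_right₀ h.one_le hpq

theorem fsum_le (h : Ctl v n₁ Λ) {α : Type} [Fintype α] (f : α → L) (B : ℝ)
    (hc : Fintype.card α ≤ n₁) (hB : 0 ≤ B) (hf : ∀ i, v (f i) ≤ B) :
    v (∑ i, f i) ≤ Λ * B :=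
  h.sum_le Finset.univ f B (by rwa [Finset.card_univ]) hB fun i _ => hf i

theorem det_le (h : Ctl v n₁ Λ) {k : Type} [Fintype k] [DecidableEq k]
    (hk : (Fintype.card k).factorial ≤ n₁) (A : Matrix k k L) (B : ℝ) (hB : 0 ≤ B)
    (hA : ∀ i j, v (A i j) ≤ B) : v A.det ≤ Λ * B ^ Fintype.card k := by
  rw [det_apply]
  refine h.fsum_le _ _ (by rwa [Fintype.card_perm]) (pow_nonneg hB _) fun σ => ?_
  have hs : v (Equiv.Perm.sign σ • ∏ i, A (σ i) i) = v (∏ i, A (σ i) i) := by
    rcases Int.units_eq_one_or (Equiv.Perm.sign σ) with h1 | h1 <;> rw [h1]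
    · rw [one_smul]
    · rw [Units.neg_smul, one_smul, v.map_neg]
  rw [hs, v.map_prod]
  calc ∏ i, v (A (σ i) i) ≤ ∏ _i : k, B :=
        Finset.prod_le_prod (fun i _ => v.nonneg _) fun i _ => hA _ _
    _ = B ^ Fintype.card k := by rw [Finset.prod_const, Finset.card_univ]

end Ctl

end Basic

section Cramer

variable {L : Type*} [Field L]

/-- The matrix `E` with the extra row `ε` put on top. -/
def bord {k : ℕ} {n : Type*} (E : Matrix (Fin k) n L) (ε : n → L) : Matrix (Fin (k + 1)) n L :=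
  Matrix.of (Fin.cons ε (fun i => E i) : Fin (k + 1) → n → L)

@[simp] theorem bord_zero {k : ℕ} {n : Type*} (E : Matrix (Fin k) n L) (ε : n → L) (a : n) :
    bord E ε 0 a = ε a := rfl

@[simp] theorem bord_succ {k : ℕ} {n : Type*} (E : Matrix (Fin k) n L) (ε : n → L) (i : Fin k)
    (a : n) : bord E ε i.succ a = E i a := rfl

variable {k : ℕ} {n : Type} [Fintype n] [DecidableEq n]

theorem cramer_ker (E : Matrix (Fin k) n L) (c : Fin (k + 1) → n) :
    E *ᵥ cramerVec E id c = 0 := by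
  funext i
  rw [mulVec_cramerVec]
  refine det_zero_of_row_eq (i := 0) (j := i.succ) (Fin.succ_ne_zero i).symm ?_
  ext j
  simp

theorem cramer_dot (E : Matrix (Fin k) n L) (ε : n → L) (c : Fin (k + 1) → n) :
    ∑ x, ε x * cramerVec E id c x = ((bord E ε).submatrix id c).det := by
  rw [sum_mul_cramerVec]
  congr 1
  ext i j
  refine Fin.cases ?_ (fun i' => ?_) i <;> simp [bord]

theorem cramer_abv_le {v : AbsoluteValue L ℝ} {n₁ : ℕ} {Λ : ℝ} (h : Ctl v n₁ Λ)
    (hk : k + 1 ≤ n₁) (E : Matrix (Fin k) n L) (c : Fin (k + 1) → n) (x : n) :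
    v (cramerVec E id c x) ≤ Λ * maxMinor v E := by
  unfold cramerVec
  refine h.fsum_le _ _ (by simpa using hk) (maxMinor_nonneg v E) fun j => ?_
  split_ifs
  · rw [v.map_mul, v.map_pow, v.map_neg, v.map_one, one_pow, one_mul]
    exact le_maxMinor v E _
  · rw [v.map_zero]
    exact maxMinor_nonneg v E

/-- A normalised frame of `ker E` at a maximal minor: entries of absolute value `≤ 1`, identity
block at the non-pivot columns, expansion of every kernel vector, and the comparison of the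
values of a functional on the frame with the bordered minors. -/
theorem exists_frame (v : AbsoluteValue L ℝ) (E : Matrix (Fin k) n L) (hE : 0 < maxMinor v E)
    (r : ℕ) (hr : r + k = Fintype.card n) :
    ∃ (x : Fin r → n → L) (I : Fin r → n),
      (∀ i, E *ᵥ x i = 0) ∧ (∀ i a, v (x i a) ≤ 1) ∧
      (∀ i j, x i (I j) = if i = j then 1 else 0) ∧
      (∀ u : n → L, E *ᵥ u = 0 → u = ∑ i, u (I i) • x i) ∧
      (∀ (ε : n → L) (i : Fin r),
        v (∑ a, ε a * x i a) * maxMinor v E ≤ maxMinor v (bord E ε)) := by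
  classical
  obtain ⟨f₀, hf₀⟩ := exists_of_maxMinor_pos v E hE
  have hΔ0 : (E.submatrix id f₀).det ≠ 0 := by
    intro h0
    rw [hf₀, h0, v.map_zero] at hE
    exact lt_irrefl _ hE
  have hvΔ : 0 < v (E.submatrix id f₀).det := v.pos hΔ0
  have hinj : Injective f₀ := by
    intro i j hij
    by_contra hne
    exact hΔ0 (det_zero_of_column_eq hne (fun l => by simp [hij]))
  have hcard : Fintype.card {a : n // a ∉ Set.range f₀} = r := by
    have h1 := Fintype.card_subtype_compl (fun a : n => a ∈ Set.range f₀)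
    have h2 : Fintype.card {a : n // a ∈ Set.range f₀} = k := by
      have := Set.card_range_of_injective hinj
      rw [Fintype.card_fin] at this
      convert this
    have h3 : Fintype.card {a : n // a ∉ Set.range f₀} =
        Fintype.card n - Fintype.card {a : n // a ∈ Set.range f₀} := by
      rw [← h1]
    omega
  let e : Fin r ≃ {a : n // a ∉ Set.range f₀} := (Fintype.equivFinOfCardEq hcard).symm
  let c : Fin r → Fin (k + 1) → n := fun i => Fin.cons (e i).1 f₀
  have hc0 : ∀ i, c i 0 = (e i).1 := fun i => rfl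
  have hcs : ∀ i (j : Fin k), c i j.succ = f₀ j := fun i j => rfl
  have hc_inj : ∀ i, Injective (c i) := by
    intro i
    refine Fin.cons_injective_iff.mpr ⟨?_, hinj⟩
    exact (e i).2
  have hcomp : ∀ i, c i ∘ (0 : Fin (k + 1)).succAbove = f₀ := by
    intro i
    funext j
    simp [c]
  have hrange : ∀ i a, a ∈ Set.range (c i) → a = (e i).1 ∨ a ∈ Set.range f₀ := by
    rintro i a ⟨j, rfl⟩
    refine Fin.cases ?_ (fun j' => ?_) j
    · exact Or.inl rfl
    · exact Or.inr ⟨j', rfl⟩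
  let x : Fin r → n → L := fun i => (E.submatrix id f₀).det⁻¹ • cramerVec E id (c i)
  have hx3 : ∀ i j, x i (e j).1 = if i = j then 1 else 0 := by
    intro i j
    by_cases hij : i = j
    · subst hij
      rw [if_pos rfl]
      show (E.submatrix id f₀).det⁻¹ * cramerVec E id (c i) (e i).1 = 1
      rw [← hc0 i, cramerVec_apply_of_injective E id (hc_inj i) 0, hcomp i]
      simp [hΔ0]
    · rw [if_neg hij]
      show (E.submatrix id f₀).det⁻¹ * cramerVec E id (c i) (e j).1 = 0
      rw [cramerVec_apply_of_notMem, mul_zero]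
      intro hmem
      rcases hrange i _ hmem with h1 | h1
      · exact hij (e.injective (Subtype.ext h1)).symm
      · exact (e j).2 h1
  refine ⟨x, fun i => (e i).1, ?_, ?_, hx3, ?_, ?_⟩
  · intro i
    show E *ᵥ ((E.submatrix id f₀).det⁻¹ • cramerVec E id (c i)) = 0
    rw [mulVec_smul, cramer_ker, smul_zero]
  · intro i a
    show v ((E.submatrix id f₀).det⁻¹ * cramerVec E id (c i) a) ≤ 1
    rw [v.map_mul, map_inv₀]
    by_cases ha : a ∈ Set.range (c i)
    · obtain ⟨j, rfl⟩ := ha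
      rw [cramerVec_apply_of_injective E id (hc_inj i) j, v.map_mul, v.map_pow, v.map_neg,
        v.map_one, one_pow, one_mul, inv_mul_le_one₀ hvΔ, ← hf₀]
      exact le_maxMinor v E _
    · rw [cramerVec_apply_of_notMem E id ha, v.map_zero, mul_zero]
      exact zero_le_one
  · intro u hu
    have hz : E *ᵥ (u - ∑ i, u (e i).1 • x i) = 0 := by
      have h1 : ∀ i, E *ᵥ x i = 0 := by
        intro i
        show E *ᵥ ((E.submatrix id f₀).det⁻¹ • cramerVec E id (c i)) = 0
        rw [mulVec_smul, cramer_ker, smul_zero]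
      rw [mulVec_sub, hu, zero_sub, neg_eq_zero]
      have : E *ᵥ (∑ i, u (e i).1 • x i) = ∑ i, u (e i).1 • (E *ᵥ x i) := by
        rw [← Matrix.mulVecLin_apply, map_sum]
        refine Finset.sum_congr rfl fun i _ => ?_
        rw [Matrix.mulVecLin_apply, mulVec_smul]
      rw [this]
      refine Finset.sum_eq_zero fun i _ => ?_
      rw [h1 i, smul_zero]
    set z : n → L := u - ∑ i, u (e i).1 • x i with hzdef
    have hz1 : ∀ a, a ∉ Set.range f₀ → z a = 0 := by
      intro a ha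
      have hsum : (∑ i, u (e i).1 • x i) a = u a := by
        rw [Finset.sum_apply]
        have : ∀ i, (u (e i).1 • x i) a = if i = e.symm ⟨a, ha⟩ then u a else 0 := by
          intro i
          have h2 := hx3 i (e.symm ⟨a, ha⟩)
          rw [Equiv.apply_symm_apply] at h2
          show u (e i).1 * x i a = _
          rw [h2]
          by_cases hi : i = e.symm ⟨a, ha⟩
          · rw [if_pos hi, if_pos hi, mul_one, hi, Equiv.apply_symm_apply]
          · rw [if_neg hi, if_neg hi, mul_zero]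
        rw [Finset.sum_congr rfl fun i _ => this i]
        simp
      rw [hzdef, Pi.sub_apply, hsum, sub_self]
    have hz2 : (E.submatrix id f₀) *ᵥ (z ∘ f₀) = 0 := by
      funext i
      have h3 : (E *ᵥ z) i = 0 := by rw [hz]; rfl
      have h4 : ∑ j, E i (f₀ j) * z (f₀ j) = ∑ a, E i a * z a :=
        Fintype.sum_of_injective f₀ hinj _ (fun a => E i a * z a)
          (fun a ha => by rw [hz1 a ha, mul_zero]) (fun j => rfl)
      show ∑ j, E i (f₀ j) * z (f₀ j) = 0
      rw [h4]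
      exact h3
    have hz3 := Matrix.eq_zero_of_mulVec_eq_zero hΔ0 hz2
    have hz4 : z = 0 := by
      funext a
      by_cases ha : a ∈ Set.range f₀
      · obtain ⟨j, rfl⟩ := ha
        exact congrFun hz3 j
      · exact hz1 a ha
    have := sub_eq_zero.mp hz4
    exact this
  · intro ε i
    have h1 : ∑ a, ε a * x i a =
        (E.submatrix id f₀).det⁻¹ * ((bord E ε).submatrix id (c i)).det := by
      rw [← cramer_dot, Finset.mul_sum]
      refine Finset.sum_congr rfl fun a _ => ?_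
      show ε a * ((E.submatrix id f₀).det⁻¹ * cramerVec E id (c i) a) = _
      ring
    rw [h1, v.map_mul, map_inv₀, hf₀, mul_assoc, mul_comm (v _) (v (E.submatrix id f₀).det),
      ← mul_assoc, inv_mul_cancel₀ hvΔ.ne', one_mul]
    exact le_maxMinor v (bord E ε) _

theorem le_card_of_maxMinor_pos (v : AbsoluteValue L ℝ) (E : Matrix (Fin k) n L)
    (hE : 0 < maxMinor v E) : k ≤ Fintype.card n := by
  obtain ⟨f₀, hf₀⟩ := exists_of_maxMinor_pos v E hE
  have hΔ0 : (E.submatrix id f₀).det ≠ 0 := by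
    intro h0
    rw [hf₀, h0, v.map_zero] at hE
    exact lt_irrefl _ hE
  have hinj : Injective f₀ := by
    intro i j hij
    by_contra hne
    exact hΔ0 (det_zero_of_column_eq hne (fun l => by simp [hij]))
  simpa using Fintype.card_le_of_injective f₀ hinj

/-- The matrix lemma, lower half: a functional on `ker E` is controlled by the bordered
minors. -/
theorem dlower {v : AbsoluteValue L ℝ} {n₁ : ℕ} {Λ : ℝ} (h : Ctl v n₁ Λ)
    (hn : Fintype.card n ≤ n₁) (E : Matrix (Fin k) n L) (ε : n → L) (u : n → L)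
    (hu : E *ᵥ u = 0) :
    v (∑ a, ε a * u a) * maxMinor v E ≤ Λ * vnorm v u * maxMinor v (bord E ε) := by
  rcases (maxMinor_nonneg v E).eq_or_lt with h0 | hpos
  · rw [← h0, mul_zero]
    exact mul_nonneg (mul_nonneg h.nonneg (vnorm_nonneg v u)) (maxMinor_nonneg v _)
  have hk := le_card_of_maxMinor_pos v E hpos
  obtain ⟨x, I, -, -, -, hx4, hx5⟩ := exists_frame v E hpos (Fintype.card n - k) (by omega)
  have hexp : ∑ a, ε a * u a = ∑ i, u (I i) * ∑ a, ε a * x i a := by
    conv_lhs => rw [hx4 u hu]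
    simp only [Finset.sum_apply, Pi.smul_apply, smul_eq_mul, Finset.mul_sum]
    rw [Finset.sum_comm]
    refine Finset.sum_congr rfl fun i _ => Finset.sum_congr rfl fun a _ => ?_
    ring
  rw [hexp]
  have hb : v (∑ i, u (I i) * ∑ a, ε a * x i a) ≤
      Λ * (vnorm v u * (maxMinor v (bord E ε) / maxMinor v E)) := by
    refine h.fsum_le _ _ (by simp; omega)
      (mul_nonneg (vnorm_nonneg v u) (div_nonneg (maxMinor_nonneg v _) hpos.le)) fun i => ?_
    rw [v.map_mul]
    refine mul_le_mul (le_vnorm v u _) ?_ (v.nonneg _) (vnorm_nonneg v u)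
    rw [le_div_iff₀ hpos]
    exact hx5 ε i
  calc v (∑ i, u (I i) * ∑ a, ε a * x i a) * maxMinor v E
      ≤ Λ * (vnorm v u * (maxMinor v (bord E ε) / maxMinor v E)) * maxMinor v E :=
        mul_le_mul_of_nonneg_right hb hpos.le
    _ = Λ * vnorm v u * maxMinor v (bord E ε) := by
        field_simp

end Cramer

section Mult

variable {L : Type*} [Field L] {n n' n'' : Type} [Fintype n] [DecidableEq n] [Fintype n']
  [DecidableEq n'] [Fintype n''] [DecidableEq n'']

/-- A bilinear multiplication in coordinates, with structure constants `μ`. -/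
def bmul (μ : n → n' → n'' → L) (x : n → L) (y : n' → L) : n'' → L :=
  fun c => ∑ a, ∑ b, μ a b c * x a * y b

theorem bmul_abv_le {v : AbsoluteValue L ℝ} {n₁ : ℕ} {Λ : ℝ} (h : Ctl v n₁ Λ)
    (hn : Fintype.card n ≤ n₁) (hn' : Fintype.card n' ≤ n₁) (μ : n → n' → n'' → L)
    (hμ : ∀ a b c, v (μ a b c) ≤ Λ) (x : n → L) (y : n' → L) (c : n'') :
    v (bmul μ x y c) ≤ Λ ^ 3 * (vnorm v x * vnorm v y) := by
  have hxy : 0 ≤ vnorm v x * vnorm v y := mul_nonneg (vnorm_nonneg v x) (vnorm_nonneg v y)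
  have h1 : ∀ a b, v (μ a b c * x a * y b) ≤ Λ * (vnorm v x * vnorm v y) := by
    intro a b
    rw [v.map_mul, v.map_mul, mul_assoc]
    exact mul_le_mul (hμ a b c)
      (mul_le_mul (le_vnorm v x a) (le_vnorm v y b) (v.nonneg _) (vnorm_nonneg v x))
      (mul_nonneg (v.nonneg _) (v.nonneg _)) h.nonneg
  have h2 : ∀ a, v (∑ b, μ a b c * x a * y b) ≤ Λ * (Λ * (vnorm v x * vnorm v y)) :=
    fun a => h.fsum_le _ _ hn' (mul_nonneg h.nonneg hxy) (h1 a)
  have h3 := h.fsum_le (fun a => ∑ b, μ a b c * x a * y b) _ hn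
    (mul_nonneg h.nonneg (mul_nonneg h.nonneg hxy)) h2
  calc v (bmul μ x y c) ≤ Λ * (Λ * (Λ * (vnorm v x * vnorm v y))) := h3
    _ = Λ ^ 3 * (vnorm v x * vnorm v y) := by ring

theorem vnorm_bmul_le {v : AbsoluteValue L ℝ} {n₁ : ℕ} {Λ : ℝ} (h : Ctl v n₁ Λ)
    (hn : Fintype.card n ≤ n₁) (hn' : Fintype.card n' ≤ n₁) (μ : n → n' → n'' → L)
    (hμ : ∀ a b c, v (μ a b c) ≤ Λ) (x : n → L) (y : n' → L) :
    vnorm v (bmul μ x y) ≤ Λ ^ 3 * (vnorm v x * vnorm v y) :=
  vnorm_le v _ (mul_nonneg (pow_nonneg h.nonneg 3)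
    (mul_nonneg (vnorm_nonneg v x) (vnorm_nonneg v y))) fun c => bmul_abv_le h hn hn' μ hμ x y c

/-- Multiplicativity of the ratios of bordered minors, easy half (products of kernel vectors). -/
theorem mult_easy {v : AbsoluteValue L ℝ} {n₁ : ℕ} {Λ : ℝ} (h : Ctl v n₁ Λ)
    (hn : Fintype.card n ≤ n₁) (hn' : Fintype.card n' ≤ n₁) (hn'' : Fintype.card n'' ≤ n₁)
    {k k' k'' : ℕ} (hk : k + 1 ≤ n₁) (hk' : k' + 1 ≤ n₁)
    (μ : n → n' → n'' → L) (hμ : ∀ a b c, v (μ a b c) ≤ Λ)
    (E : Matrix (Fin k) n L) (E' : Matrix (Fin k') n' L) (E'' : Matrix (Fin k'') n'' L)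
    (ε : n → L) (ε' : n' → L) (ε'' : n'' → L)
    (hker : ∀ u u', E *ᵥ u = 0 → E' *ᵥ u' = 0 → E'' *ᵥ bmul μ u u' = 0)
    (hε : ∀ u u', ∑ c, ε'' c * bmul μ u u' c = (∑ a, ε a * u a) * ∑ b, ε' b * u' b) :
    maxMinor v (bord E ε) * maxMinor v (bord E' ε') * maxMinor v E'' ≤
      Λ ^ 6 * (maxMinor v E * maxMinor v E' * maxMinor v (bord E'' ε'')) := by
  have hR : 0 ≤ Λ ^ 6 * (maxMinor v E * maxMinor v E' * maxMinor v (bord E'' ε'')) :=
    mul_nonneg (pow_nonneg h.nonneg 6) (mul_nonneg (mul_nonneg (maxMinor_nonneg v _)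
      (maxMinor_nonneg v _)) (maxMinor_nonneg v _))
  rcases maxMinor_eq_zero_or_exists v (bord E ε) with h0 | ⟨c, hc⟩
  · rw [h0, zero_mul, zero_mul]; exact hR
  rcases maxMinor_eq_zero_or_exists v (bord E' ε') with h0 | ⟨c', hc'⟩
  · rw [h0, mul_zero, zero_mul]; exact hR
  set u := cramerVec E id c with hu
  set u' := cramerVec E' id c' with hu'
  have h1 : maxMinor v (bord E ε) * maxMinor v (bord E' ε') =
      v (∑ c, ε'' c * bmul μ u u' c) := by
    rw [hε, v.map_mul, cramer_dot, cramer_dot, hc, hc']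
  have h2 := dlower h hn'' E'' ε'' (bmul μ u u') (hker u u' (cramer_ker E c) (cramer_ker E' c'))
  have h3 : vnorm v (bmul μ u u') ≤ Λ ^ 3 * ((Λ * maxMinor v E) * (Λ * maxMinor v E')) := by
    refine (vnorm_bmul_le h hn hn' μ hμ u u').trans ?_
    refine mul_le_mul_of_nonneg_left ?_ (pow_nonneg h.nonneg 3)
    exact mul_le_mul
      (vnorm_le v _ (mul_nonneg h.nonneg (maxMinor_nonneg v _)) fun a => cramer_abv_le h hk E c a)
      (vnorm_le v _ (mul_nonneg h.nonneg (maxMinor_nonneg v _))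
        fun a => cramer_abv_le h hk' E' c' a)
      (vnorm_nonneg v _) (mul_nonneg h.nonneg (maxMinor_nonneg v _))
  rw [h1]
  calc v (∑ c, ε'' c * bmul μ u u' c) * maxMinor v E''
      ≤ Λ * vnorm v (bmul μ u u') * maxMinor v (bord E'' ε'') := h2
    _ ≤ Λ * (Λ ^ 3 * ((Λ * maxMinor v E) * (Λ * maxMinor v E'))) * maxMinor v (bord E'' ε'') :=
        mul_le_mul_of_nonneg_right (mul_le_mul_of_nonneg_left h3 h.nonneg) (maxMinor_nonneg v _)
    _ = Λ ^ 6 * (maxMinor v E * maxMinor v E' * maxMinor v (bord E'' ε'')) := by ring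

/-- Multiplicativity of the ratios of bordered minors, hard half: it needs a *minor witness*
for the product family of normalised frames (supplied by the Nullstellensatz in part 2). -/
theorem mult_hard {v : AbsoluteValue L ℝ} {n₁ : ℕ} {Λ : ℝ} (h : Ctl v n₁ Λ)
    (hn : Fintype.card n ≤ n₁) (hn' : Fintype.card n' ≤ n₁)
    {k k' k'' r r' r'' : ℕ} (hk'' : k'' + 1 ≤ n₁) (hr''f : r''.factorial ≤ n₁)
    (hr''n : r'' ≤ n₁)
    (hr : r + k = Fintype.card n) (hr' : r' + k' = Fintype.card n')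
    (hr'' : r'' + k'' = Fintype.card n'')
    (μ : n → n' → n'' → L) (hμ : ∀ a b c, v (μ a b c) ≤ Λ)
    (E : Matrix (Fin k) n L) (E' : Matrix (Fin k') n' L) (E'' : Matrix (Fin k'') n'' L)
    (ε : n → L) (ε' : n' → L) (ε'' : n'' → L)
    (hE'' : 0 < maxMinor v E'')
    (hker : ∀ u u', E *ᵥ u = 0 → E' *ᵥ u' = 0 → E'' *ᵥ bmul μ u u' = 0)
    (hε : ∀ u u', ∑ c, ε'' c * bmul μ u u' c = (∑ a, ε a * u a) * ∑ b, ε' b * u' b)
    (c₀ : ℝ) (hc₀ : 0 < c₀)
    (hUD : ∀ (x : Fin r → n → L) (y : Fin r' → n' → L) (I : Fin r → n) (J : Fin r' → n'),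
      (∀ i a, v (x i a) ≤ 1) → (∀ j b, v (y j b) ≤ 1) →
      (∀ i j, x i (I j) = if i = j then 1 else 0) →
      (∀ i j, y i (J j) = if i = j then 1 else 0) →
      ∃ (s : Fin r'' → Fin r × Fin r') (t : Fin r'' → n''),
        c₀ ≤ v (Matrix.det (Matrix.of fun q q' => bmul μ (x (s q).1) (y (s q).2) (t q')))) :
    maxMinor v (bord E'' ε'') * maxMinor v E * maxMinor v E' ≤
      Λ ^ (3 * r'' + 4) * c₀⁻¹ *
        (maxMinor v E'' * maxMinor v (bord E ε) * maxMinor v (bord E' ε')) := by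
  classical
  have hR : 0 ≤ Λ ^ (3 * r'' + 4) * c₀⁻¹ *
      (maxMinor v E'' * maxMinor v (bord E ε) * maxMinor v (bord E' ε')) :=
    mul_nonneg (mul_nonneg (pow_nonneg h.nonneg _) (inv_nonneg.mpr hc₀.le))
      (mul_nonneg (mul_nonneg (maxMinor_nonneg v _) (maxMinor_nonneg v _)) (maxMinor_nonneg v _))
  rcases (maxMinor_nonneg v E).eq_or_lt with h0 | hEpos
  · rw [← h0, mul_zero, zero_mul]; exact hR
  rcases (maxMinor_nonneg v E').eq_or_lt with h0 | hE'pos
  · rw [← h0, mul_zero]; exact hR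
  rcases maxMinor_eq_zero_or_exists v (bord E'' ε'') with h0 | ⟨c'', hc''⟩
  · rw [h0, zero_mul, zero_mul]; exact hR
  obtain ⟨x, I, hx1, hx2, hx3, -, hx5⟩ := exists_frame v E hEpos r hr
  obtain ⟨y, J, hy1, hy2, hy3, -, hy5⟩ := exists_frame v E' hE'pos r' hr'
  obtain ⟨s, t, hst⟩ := hUD x y I J hx2 hy2 hx3 hy3
  set Pm : Matrix (Fin r'') (Fin r'') L :=
    Matrix.of fun q q' => bmul μ (x (s q).1) (y (s q).2) (t q') with hPm
  have hdet : Pm.det ≠ 0 := by
    intro h0
    rw [h0, v.map_zero] at hst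
    linarith
  have hvdet : 0 < v Pm.det := v.pos hdet
  set p : Fin r'' → n'' → L := fun q => bmul μ (x (s q).1) (y (s q).2) with hpdef
  have hp : ∀ q, E'' *ᵥ p q = 0 := fun q => hker _ _ (hx1 _) (hy1 _)
  have hPp : ∀ q q', Pm q q' = p q (t q') := fun q q' => rfl
  -- the products span the kernel of `E''`
  have hspan : ∀ F : n'' → L, E'' *ᵥ F = 0 → ∃ a : Fin r'' → L, F = ∑ q, a q • p q := by
    obtain ⟨x'', I'', -, -, -, hx''4, -⟩ := exists_frame v E'' hE'' r'' hr''
    set W : Submodule L (n'' → L) := LinearMap.ker (Matrix.mulVecLin E'') with hW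
    have hmem : ∀ F : n'' → L, F ∈ W ↔ E'' *ᵥ F = 0 := by
      intro F
      rw [hW, LinearMap.mem_ker, Matrix.mulVecLin_apply]
    have hWle : W ≤ Submodule.span L (Set.range x'') := by
      intro F hF
      rw [hx''4 F ((hmem F).mp hF)]
      exact Submodule.sum_mem _ fun i _ =>
        Submodule.smul_mem _ _ (Submodule.subset_span ⟨i, rfl⟩)
    have hfin : Module.finrank L W ≤ r'' := by
      have h1 := Submodule.finrank_mono hWle
      have h2 := finrank_range_le_card (R := L) x''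
      rw [Fintype.card_fin] at h2
      exact h1.trans h2
    let p' : Fin r'' → W := fun q => ⟨p q, (hmem _).mpr (hp q)⟩
    have hli : LinearIndependent L p' := by
      rw [Fintype.linearIndependent_iff]
      intro a ha q
      have h1 : Matrix.vecMul a Pm = 0 := by
        funext q'
        have h2 := congrArg (fun w : W => (w : n'' → L) (t q')) ha
        simp only [Submodule.coe_sum, Submodule.coe_smul, Finset.sum_apply, Pi.smul_apply,
          smul_eq_mul, ZeroMemClass.coe_zero, Pi.zero_apply] at h2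
        rw [Pi.zero_apply, ← h2]
        rfl
      exact congrFun (Matrix.eq_zero_of_vecMul_eq_zero hdet h1) q
    have hcardW : Fintype.card (Fin r'') = Module.finrank L W := by
      have := hli.fintype_card_le_finrank
      rw [Fintype.card_fin] at this ⊢
      omega
    have htop := hli.span_eq_top_of_card_eq_finrank' hcardW
    intro F hF
    have hFmem : (⟨F, (hmem F).mpr hF⟩ : W) ∈ Submodule.span L (Set.range p') := by
      rw [htop]; exact Submodule.mem_top
    obtain ⟨a, ha⟩ := (Submodule.mem_span_range_iff_exists_fun L).mp hFmem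
    refine ⟨a, ?_⟩
    have := congrArg (fun w : W => (w : n'' → L)) ha
    simp only [Submodule.coe_sum, Submodule.coe_smul] at this
    exact this.symm
  -- bounds for `Pm` and its inverse
  have hx2' : ∀ i, vnorm v (x i) ≤ 1 := fun i => vnorm_le v _ zero_le_one (hx2 i)
  have hy2' : ∀ j, vnorm v (y j) ≤ 1 := fun j => vnorm_le v _ zero_le_one (hy2 j)
  have hΛ3 : (1 : ℝ) ≤ Λ ^ 3 := h.one_le_pow 3
  have hPmb : ∀ q q', v (Pm q q') ≤ Λ ^ 3 := by
    intro q q'
    refine (bmul_abv_le h hn hn' μ hμ _ _ _).trans ?_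
    have : vnorm v (x (s q).1) * vnorm v (y (s q).2) ≤ 1 * 1 :=
      mul_le_mul (hx2' _) (hy2' _) (vnorm_nonneg v _) zero_le_one
    calc Λ ^ 3 * (vnorm v (x (s q).1) * vnorm v (y (s q).2)) ≤ Λ ^ 3 * (1 * 1) :=
          mul_le_mul_of_nonneg_left this (pow_nonneg h.nonneg 3)
      _ = Λ ^ 3 := by ring
  have hinv : ∀ q q', v (Pm⁻¹ q q') ≤ c₀⁻¹ * Λ ^ (3 * r'' + 1) := by
    intro q q'
    rw [Matrix.inv_def, Ring.inverse_eq_inv', Matrix.smul_apply, smul_eq_mul, v.map_mul,
      map_inv₀, Matrix.adjugate_apply]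
    have h1 : v (Pm.updateRow q' (Pi.single q 1)).det ≤ Λ * (Λ ^ 3) ^ Fintype.card (Fin r'') := by
      refine h.det_le (by rwa [Fintype.card_fin]) _ _ (pow_nonneg h.nonneg 3) fun i j => ?_
      rw [Matrix.updateRow_apply]
      split_ifs
      · rw [Pi.single_apply]
        split_ifs
        · rw [v.map_one]; exact hΛ3
        · rw [v.map_zero]; exact pow_nonneg h.nonneg 3
      · exact hPmb i j
    rw [Fintype.card_fin] at h1
    have h2 : (v Pm.det)⁻¹ ≤ c₀⁻¹ := inv_anti₀ hc₀ hst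
    calc (v Pm.det)⁻¹ * v (Pm.updateRow q' (Pi.single q 1)).det
        ≤ c₀⁻¹ * (Λ * (Λ ^ 3) ^ r'') :=
          mul_le_mul h2 h1 (v.nonneg _) (inv_nonneg.mpr hc₀.le)
      _ = c₀⁻¹ * Λ ^ (3 * r'' + 1) := by rw [← pow_mul]; ring
  -- the main estimate
  set F := cramerVec E'' id c'' with hFdef
  have hF : E'' *ᵥ F = 0 := cramer_ker E'' c''
  obtain ⟨a, ha⟩ := hspan F hF
  have hFn : vnorm v F ≤ Λ * maxMinor v E'' :=
    vnorm_le v _ (mul_nonneg h.nonneg (maxMinor_nonneg v _))
      fun b => cramer_abv_le h hk'' E'' c'' b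
  have haeq : a = Matrix.vecMul (fun q' => F (t q')) Pm⁻¹ := by
    have h1 : Matrix.vecMul a Pm = fun q' => F (t q') := by
      funext q'
      conv_rhs => rw [ha]
      simp only [Finset.sum_apply, Pi.smul_apply, smul_eq_mul]
      rfl
    rw [← h1, Matrix.vecMul_vecMul, Matrix.mul_nonsing_inv _ (isUnit_iff_ne_zero.mpr hdet),
      Matrix.vecMul_one]
  have hab : ∀ q, v (a q) ≤ Λ * ((Λ * maxMinor v E'') * (c₀⁻¹ * Λ ^ (3 * r'' + 1))) := by
    intro q
    rw [haeq]
    show v (∑ q', F (t q') * Pm⁻¹ q' q) ≤ _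
    refine h.fsum_le _ _ (by rwa [Fintype.card_fin])
      (mul_nonneg (mul_nonneg h.nonneg (maxMinor_nonneg v _))
        (mul_nonneg (inv_nonneg.mpr hc₀.le) (pow_nonneg h.nonneg _))) fun q' => ?_
    rw [v.map_mul]
    exact mul_le_mul ((le_vnorm v F _).trans hFn) (hinv q' q) (v.nonneg _)
      (mul_nonneg h.nonneg (maxMinor_nonneg v _))
  have hval : ∑ c, ε'' c * F c =
      ∑ q, a q * ((∑ b, ε b * x (s q).1 b) * ∑ b, ε' b * y (s q).2 b) := by
    have h1 : ∀ q, (∑ b, ε b * x (s q).1 b) * ∑ b, ε' b * y (s q).2 b =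
        ∑ c, ε'' c * p q c := fun q => (hε _ _).symm
    simp only [h1]
    conv_lhs => rw [ha]
    simp only [Finset.sum_apply, Pi.smul_apply, smul_eq_mul, Finset.mul_sum]
    rw [Finset.sum_comm]
    refine Finset.sum_congr rfl fun q _ => Finset.sum_congr rfl fun c _ => ?_
    ring
  have hA : 0 ≤ Λ * ((Λ * maxMinor v E'') * (c₀⁻¹ * Λ ^ (3 * r'' + 1))) :=
    mul_nonneg h.nonneg (mul_nonneg (mul_nonneg h.nonneg (maxMinor_nonneg v _))
      (mul_nonneg (inv_nonneg.mpr hc₀.le) (pow_nonneg h.nonneg _)))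
  have hterm : ∀ q, v (a q * ((∑ b, ε b * x (s q).1 b) * ∑ b, ε' b * y (s q).2 b)) ≤
      Λ * ((Λ * maxMinor v E'') * (c₀⁻¹ * Λ ^ (3 * r'' + 1))) *
        ((maxMinor v (bord E ε) / maxMinor v E) * (maxMinor v (bord E' ε') / maxMinor v E')) := by
    intro q
    rw [v.map_mul, v.map_mul]
    refine mul_le_mul (hab q) ?_ (mul_nonneg (v.nonneg _) (v.nonneg _)) hA
    refine mul_le_mul ?_ ?_ (v.nonneg _) (div_nonneg (maxMinor_nonneg v _) hEpos.le)
    · rw [le_div_iff₀ hEpos]; exact hx5 ε _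
    · rw [le_div_iff₀ hE'pos]; exact hy5 ε' _
  have hsum : v (∑ c, ε'' c * F c) ≤
      Λ * (Λ * ((Λ * maxMinor v E'') * (c₀⁻¹ * Λ ^ (3 * r'' + 1))) *
        ((maxMinor v (bord E ε) / maxMinor v E) *
          (maxMinor v (bord E' ε') / maxMinor v E'))) := by
    rw [hval]
    refine h.fsum_le _ _ (by rwa [Fintype.card_fin]) ?_ hterm
    exact mul_nonneg hA (mul_nonneg (div_nonneg (maxMinor_nonneg v _) hEpos.le)
      (div_nonneg (maxMinor_nonneg v _) hE'pos.le))
  rw [hc'', ← cramer_dot]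
  calc v (∑ c, ε'' c * F c) * maxMinor v E * maxMinor v E'
      ≤ Λ * (Λ * ((Λ * maxMinor v E'') * (c₀⁻¹ * Λ ^ (3 * r'' + 1))) *
        ((maxMinor v (bord E ε) / maxMinor v E) *
          (maxMinor v (bord E' ε') / maxMinor v E'))) * maxMinor v E * maxMinor v E' :=
        mul_le_mul_of_nonneg_right (mul_le_mul_of_nonneg_right hsum hEpos.le) hE'pos.le
    _ = Λ ^ (3 * r'' + 4) * c₀⁻¹ *
        (maxMinor v E'' * maxMinor v (bord E ε) * maxMinor v (bord E' ε')) := by
        field_simp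
        ring

end Mult

end

end Fermat.Agent.S17.helper2139
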