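import Mathlib
import Fermat.Agent.Lib.helper927_AbsHeight

/-!
# S17-G2-UB (helper2139): the INTERFACE of the chart-free cube law

Abstract, Mathlib-only setting (no curve, no places):

* `GrMul`            rational structure constants `μ` of a graded multiplication
                     `A_n × A_n' → A_{n+n'}` in fixed bases (`N n = dim A_n`), levels `n : ℤ`.
* `GrMul.mul`        the multiplication in coordinates over any `ℚ`-algebra.
* `GrMul.Fam R`      a "point" with values in `R`: one evaluation vector `P n : Fin (N n) → R`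
                     for every level.
* `GrMul.MulAt P n n'`  multiplicativity of the point `P` at the levels `(n, n')`.
* `GrMul.evMat n P`  the evaluation matrix of a tuple of points at level `n`.
* `GrMul.htMin n P`  the absolute logarithmic height (`helper927.absLogHeight`) of the vector of
                     ALL-MAPS maximal minors of `evMat n P`.
* `GrMul.ZL Ω n n' d d'`  the geometric input (ZL): subspaces `V ≤ Ω^(N n)`, `V' ≤ Ω^(N n')` of
                     codimensions `d`, `d'` have a product of codimension `≤ d + d'`.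
* `GrMul.Indep a₀ P` the geometric input (IND): every sub-tuple of `k` points has linearly
                     independent evaluation vectors at every level `n ≥ k + a₀`.
* `CubeAbsStmt`      the theorem of the abstract core (proved in `helper2139_UBMain.lean`):
                     (ZL) for `d' ≤ 1` in the range `d + a₀ ≤ n`, `2 n + a₀ ≤ n'` implies the
                     TWO-SIDED seven-term bound for `htMin` on triples of `d`-tuples of points
                     satisfying (IND), at the levels `d + c`, `2 d + c`, `3 d + c`, `c ≥ a₀`.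
-/

set_option autoImplicit false

namespace Fermat.Agent.S17.helper2139

open Fermat.Agent.Lib.helper927

/-- Rational structure constants of a graded multiplication `A_n × A_n' → A_{n+n'}` in fixed
bases; `N n` is the dimension of `A_n`. -/
structure GrMul where
  /-- the dimension of the level `n` -/
  N : ℤ → ℕ
  /-- the structure constants: `e_a * e'_b = ∑ c, μ n n' a b c • e''_c` -/
  μ : (n n' : ℤ) → Fin (N n) → Fin (N n') → Fin (N (n + n')) → ℚ

namespace GrMul

variable (G : GrMul)

/-- The multiplication in coordinates, over any `ℚ`-algebra. -/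
def mul {R : Type*} [CommRing R] [Algebra ℚ R] (n n' : ℤ) (x : Fin (G.N n) → R)
    (y : Fin (G.N n') → R) : Fin (G.N (n + n')) → R :=
  fun c => ∑ a, ∑ b, algebraMap ℚ R (G.μ n n' a b c) * x a * y b

/-- A point with values in `R`: an evaluation vector for every level. -/
abbrev Fam (R : Type*) : Type _ := (n : ℤ) → Fin (G.N n) → R

variable {G}

/-- Multiplicativity of the point `P` at the levels `(n, n')`:
`e_a(P) * e'_b(P) = ∑ c, μ a b c * e''_c(P)`. -/
def MulAt {R : Type*} [CommRing R] [Algebra ℚ R] (P : G.Fam R) (n n' : ℤ) : Prop :=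
  ∀ (a : Fin (G.N n)) (b : Fin (G.N n')),
    P n a * P n' b = ∑ c, algebraMap ℚ R (G.μ n n' a b c) * P (n + n') c

variable (G)

/-- The evaluation matrix of a tuple of points at level `n` (rows = points). -/
def evMat {R : Type*} (n : ℤ) {k : ℕ} (P : Fin k → G.Fam R) : Matrix (Fin k) (Fin (G.N n)) R :=
  Matrix.of fun i a => P i n a

/-- The absolute logarithmic height of the vector of all-maps maximal minors of the evaluation
matrix of a tuple of points at level `n`. -/
noncomputable def htMin {Ω : Type*} [Field Ω] [CharZero Ω] (n : ℤ) {k : ℕ}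
    (P : Fin k → G.Fam Ω) : ℝ :=
  absLogHeight (fun s : Fin k → Fin (G.N n) => ((G.evMat n P).submatrix id s).det)

/-- **(ZL)** in coordinates: subspaces of codimension `d` and `d'` at the levels `n`, `n'` have a
product (span of all products) of codimension at most `d + d'` at the level `n + n'`. -/
def ZL (Ω : Type*) [Field Ω] [Algebra ℚ Ω] (n n' : ℤ) (d d' : ℕ) : Prop :=
  ∀ (V : Submodule Ω (Fin (G.N n) → Ω)) (V' : Submodule Ω (Fin (G.N n') → Ω)),
    Module.finrank Ω V + d = G.N n → Module.finrank Ω V' + d' = G.N n' →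
    G.N (n + n') ≤
      Module.finrank Ω (Submodule.span Ω {z | ∃ u ∈ V, ∃ u' ∈ V', z = G.mul n n' u u'}) + d + d'

/-- **(IND)** for a tuple of points: every sub-tuple of `k` points has linearly independent
evaluation vectors at every level `n ≥ k + a₀`. -/
def Indep {Ω : Type*} [Field Ω] (a₀ : ℤ) {K : ℕ} (P : Fin K → G.Fam Ω) : Prop :=
  ∀ (k : ℕ) (f : Fin k → Fin K), StrictMono f → ∀ n : ℤ, (k : ℤ) + a₀ ≤ n →
    LinearIndependent Ω (fun i : Fin k => P (f i) n)

end GrMul

/-- **The abstract chart-free cube law** (two-sided seven-term bound for the absolute heights of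
evaluation minors). -/
def CubeAbsStmt : Prop :=
  ∀ (G : GrMul) (Ω : Type) [Field Ω] [CharZero Ω] [IsAlgClosed Ω] [Algebra.IsAlgebraic ℚ Ω]
    (a₀ : ℤ), 0 ≤ a₀ →
    (∀ (n n' : ℤ) (d d' : ℕ), (d : ℤ) + a₀ ≤ n → 2 * n + a₀ ≤ n' → d' ≤ 1 → G.ZL Ω n n' d d') →
    ∀ (d : ℕ) (c : ℤ), a₀ ≤ c →
    ∃ C : ℝ, ∀ P₁ P₂ P₃ : Fin d → G.Fam Ω,
      (∀ i n n', GrMul.MulAt (P₁ i) n n') → (∀ i n n', GrMul.MulAt (P₂ i) n n') →
      (∀ i n n', GrMul.MulAt (P₃ i) n n') →
      G.Indep a₀ (Fin.append (Fin.append P₁ P₂) P₃) →
      |G.htMin (3 * d + c) (Fin.append (Fin.append P₁ P₂) P₃)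
          - G.htMin (2 * d + c) (Fin.append P₁ P₂) - G.htMin (2 * d + c) (Fin.append P₁ P₃)
          - G.htMin (2 * d + c) (Fin.append P₂ P₃)
          + G.htMin (d + c) P₁ + G.htMin (d + c) P₂ + G.htMin (d + c) P₃| ≤ C

end Fermat.Agent.S17.helper2139
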