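import Mathlib
import Fermat.Agent.S17.helper2139_UBSpec
import Fermat.Agent.S17.helper2139_UBLocal

/-!
# S17-G2-UB, part 2 (helper2139): the Nullstellensatz witness

From the geometric input `(ZL)` (codimension of products of subspaces) we get, by the
Nullstellensatz on the affine space of pairs of frames, an identity
`∑ c_{s,t} * F_{s,t} = g_{I,J} ^ M` over `ℚ`, where `F_{s,t}` are the maximal minors of the
family of products of the two frames and `g_{I,J}` is a product of maximal minors of the two
frames.  Evaluated at frames normalised at `(I, J)` it produces a minor of the product family of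
absolute value `≥ Λ⁻³` at every controlled absolute value: the *minor witness* required by
`mult_hard`.
-/

set_option autoImplicit false
set_option linter.unusedSectionVars false

namespace Fermat.Agent.S17.helper2139

open Matrix

section LinAlg

variable {K : Type*} [Field K]

/-- A frame with a nonzero maximal minor is linearly independent. -/
theorem linearIndependent_of_det_ne_zero {r : ℕ} {n : Type*} (x : Fin r → n → K) (I : Fin r → n)
    (h : (Matrix.of fun i j => x i (I j)).det ≠ 0) : LinearIndependent K x := by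
  rw [Fintype.linearIndependent_iff]
  intro c hc
  have h1 : Matrix.vecMul c (Matrix.of fun i j => x i (I j)) = 0 := by
    funext j
    have := congrFun hc (I j)
    simp only [Finset.sum_apply, Pi.smul_apply, smul_eq_mul, Pi.zero_apply] at this
    rw [Pi.zero_apply, ← this]
    rfl
  exact congrFun (Matrix.eq_zero_of_vecMul_eq_zero h h1)

/-- A linearly independent frame has a nonzero maximal minor. -/
theorem exists_det_ne_zero_of_linearIndependent {n : Type*} :
    ∀ (r : ℕ) (x : Fin r → n → K), LinearIndependent K x →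
      ∃ I : Fin r → n, (Matrix.of fun i j => x i (I j)).det ≠ 0
  | 0, _, _ => ⟨Fin.elim0, by simp⟩
  | r + 1, x, hx => by
    obtain ⟨I', hI'⟩ := exists_det_ne_zero_of_linearIndependent r (fun i => x i.succ)
      (hx.comp Fin.succ (Fin.succ_injective r))
    by_contra hcon
    push Not at hcon
    let lam : Fin (r + 1) → K := fun i =>
      (-1) ^ (i : ℕ) * (Matrix.of fun (i' : Fin r) (j' : Fin r) => x (i.succAbove i') (I' j')).det
    have hsum : ∑ i, lam i • x i = 0 := by
      funext a
      have h := hcon (Fin.cons a I')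
      rw [Matrix.det_succ_column_zero] at h
      simp only [Finset.sum_apply, Pi.smul_apply, smul_eq_mul, Pi.zero_apply]
      rw [← h]
      refine Finset.sum_congr rfl fun i _ => ?_
      have e1 : (Matrix.of fun (i : Fin (r + 1)) (j : Fin (r + 1)) =>
          x i ((Fin.cons a I' : Fin (r + 1) → n) j)).submatrix i.succAbove Fin.succ =
          Matrix.of fun (i' : Fin r) (j' : Fin r) => x (i.succAbove i') (I' j') := by
        ext i' j'
        simp
      rw [e1]
      simp only [Matrix.of_apply, Fin.cons_zero, lam]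
      ring
    have h0 := (Fintype.linearIndependent_iff.mp hx) lam hsum 0
    apply hI'
    have e2 : (Matrix.of fun (i' : Fin r) (j' : Fin r) => x ((0 : Fin (r + 1)).succAbove i') (I' j'))
        = Matrix.of fun (i : Fin r) (j : Fin r) => x i.succ (I' j) := by
      ext i' j'
      simp
    simpa [lam, e2] using h0

end LinAlg

namespace GrMul

variable (G : GrMul) (n n' : ℤ)

theorem map_mul_apply {R R' : Type*} [CommRing R] [Algebra ℚ R] [CommRing R'] [Algebra ℚ R']
    (φ : R →ₐ[ℚ] R') (x : Fin (G.N n) → R) (y : Fin (G.N n') → R) (c : Fin (G.N (n + n'))) :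
    φ (G.mul n n' x y c) = G.mul n n' (fun a => φ (x a)) (fun b => φ (y b)) c := by
  simp only [mul, map_sum, map_mul, AlgHom.commutes]

/-- The multiplication in coordinates as a bilinear map. -/
def mulBil (Ω : Type*) [Field Ω] [Algebra ℚ Ω] :
    (Fin (G.N n) → Ω) →ₗ[Ω] (Fin (G.N n') → Ω) →ₗ[Ω] (Fin (G.N (n + n')) → Ω) :=
  LinearMap.mk₂ Ω (G.mul n n')
    (fun x₁ x₂ y => by
      funext c
      simp only [mul, Pi.add_apply, mul_add, add_mul, Finset.sum_add_distrib])
    (fun k x y => by
      funext c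
      simp only [mul, Pi.smul_apply, smul_eq_mul, Finset.mul_sum]
      refine Finset.sum_congr rfl fun a _ => Finset.sum_congr rfl fun b _ => ?_
      ring)
    (fun x y₁ y₂ => by
      funext c
      simp only [mul, Pi.add_apply, mul_add, Finset.sum_add_distrib])
    (fun k x y => by
      funext c
      simp only [mul, Pi.smul_apply, smul_eq_mul, Finset.mul_sum]
      refine Finset.sum_congr rfl fun a _ => Finset.sum_congr rfl fun b _ => ?_
      ring)

@[simp] theorem mulBil_apply (Ω : Type*) [Field Ω] [Algebra ℚ Ω] (x : Fin (G.N n) → Ω)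
    (y : Fin (G.N n') → Ω) : G.mulBil n n' Ω x y = G.mul n n' x y := rfl

/-- The variables of the affine space of pairs of frames. -/
abbrev Var (r r' : ℕ) : Type := (Fin r × Fin (G.N n)) ⊕ (Fin r' × Fin (G.N n'))

/-- The maximal minors of the family of products of two generic frames. -/
noncomputable def polyF (r r' r'' : ℕ)
    (st : (Fin r'' → Fin r × Fin r') × (Fin r'' → Fin (G.N (n + n')))) :
    MvPolynomial (G.Var n n' r r') ℚ :=
  Matrix.det (Matrix.of fun q q' =>
    G.mul n n' (fun a => (MvPolynomial.X (Sum.inl ((st.1 q).1, a)) : MvPolynomial (G.Var n n' r r') ℚ))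
      (fun b => MvPolynomial.X (Sum.inr ((st.1 q).2, b))) (st.2 q'))

/-- The products of maximal minors of the two generic frames. -/
noncomputable def polyG (r r' : ℕ) (IJ : (Fin r → Fin (G.N n)) × (Fin r' → Fin (G.N n'))) :
    MvPolynomial (G.Var n n' r r') ℚ :=
  Matrix.det (Matrix.of fun i i' =>
      (MvPolynomial.X (Sum.inl (i, IJ.1 i')) : MvPolynomial (G.Var n n' r r') ℚ)) *
    Matrix.det (Matrix.of fun j j' =>
      (MvPolynomial.X (Sum.inr (j, IJ.2 j')) : MvPolynomial (G.Var n n' r r') ℚ))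

/-- The point of the affine space attached to a pair of frames. -/
def frameVal {R : Type*} {r r' : ℕ} (x : Fin r → Fin (G.N n) → R) (y : Fin r' → Fin (G.N n') → R) :
    G.Var n n' r r' → R :=
  Sum.elim (fun p => x p.1 p.2) (fun p => y p.1 p.2)

theorem aeval_polyF {R : Type*} [CommRing R] [Algebra ℚ R] {r r' r'' : ℕ}
    (x : Fin r → Fin (G.N n) → R) (y : Fin r' → Fin (G.N n') → R)
    (st : (Fin r'' → Fin r × Fin r') × (Fin r'' → Fin (G.N (n + n')))) :
    MvPolynomial.aeval (G.frameVal n n' x y) (G.polyF n n' r r' r'' st) =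
      Matrix.det (Matrix.of fun q q' => G.mul n n' (x (st.1 q).1) (y (st.1 q).2) (st.2 q')) := by
  rw [polyF, AlgHom.map_det]
  congr 1
  ext q q'
  simp only [AlgHom.mapMatrix_apply, Matrix.map_apply, Matrix.of_apply, map_mul_apply,
    MvPolynomial.aeval_X, frameVal, Sum.elim_inl, Sum.elim_inr]

theorem aeval_polyG {R : Type*} [CommRing R] [Algebra ℚ R] {r r' : ℕ}
    (x : Fin r → Fin (G.N n) → R) (y : Fin r' → Fin (G.N n') → R)
    (IJ : (Fin r → Fin (G.N n)) × (Fin r' → Fin (G.N n'))) :
    MvPolynomial.aeval (G.frameVal n n' x y) (G.polyG n n' r r' IJ) =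
      Matrix.det (Matrix.of fun i i' => x i (IJ.1 i')) *
        Matrix.det (Matrix.of fun j j' => y j (IJ.2 j')) := by
  rw [polyG, map_mul, AlgHom.map_det, AlgHom.map_det]
  congr 2
  · ext i i'
    simp only [AlgHom.mapMatrix_apply, Matrix.map_apply, Matrix.of_apply,
      MvPolynomial.aeval_X, frameVal, Sum.elim_inl]
  · ext j j'
    simp only [AlgHom.mapMatrix_apply, Matrix.map_apply, Matrix.of_apply,
      MvPolynomial.aeval_X, frameVal, Sum.elim_inr]

theorem eq_frameVal {R : Type*} {r r' : ℕ} (z : G.Var n n' r r' → R) :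
    z = G.frameVal n n' (fun i a => z (Sum.inl (i, a))) (fun j b => z (Sum.inr (j, b))) := by
  funext p
  rcases p with p | p <;> rfl

/-- **(ZL) ⇒ a nonzero minor of the product family** of two frames with nonzero maximal
minors. -/
theorem exists_minor_of_ZL (Ω : Type*) [Field Ω] [Algebra ℚ Ω] {d d' r r' r'' : ℕ}
    (hZL : G.ZL Ω n n' d d') (hr : r + d = G.N n) (hr' : r' + d' = G.N n')
    (hr'' : r'' + d + d' = G.N (n + n'))
    (x : Fin r → Fin (G.N n) → Ω) (y : Fin r' → Fin (G.N n') → Ω)
    (I : Fin r → Fin (G.N n)) (J : Fin r' → Fin (G.N n'))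
    (hx : (Matrix.of fun i i' => x i (I i')).det ≠ 0)
    (hy : (Matrix.of fun j j' => y j (J j')).det ≠ 0) :
    ∃ (s : Fin r'' → Fin r × Fin r') (t : Fin r'' → Fin (G.N (n + n'))),
      (Matrix.of fun q q' => G.mul n n' (x (s q).1) (y (s q).2) (t q')).det ≠ 0 := by
  classical
  have hxli := linearIndependent_of_det_ne_zero x I hx
  have hyli := linearIndependent_of_det_ne_zero y J hy
  have hV : Module.finrank Ω (Submodule.span Ω (Set.range x)) = r := by
    rw [finrank_span_eq_card hxli, Fintype.card_fin]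
  have hV' : Module.finrank Ω (Submodule.span Ω (Set.range y)) = r' := by
    rw [finrank_span_eq_card hyli, Fintype.card_fin]
  have h := hZL (Submodule.span Ω (Set.range x)) (Submodule.span Ω (Set.range y))
    (by rw [hV]; exact hr) (by rw [hV']; exact hr')
  set T : Set (Fin (G.N (n + n')) → Ω) :=
    Set.range (fun p : Fin r × Fin r' => G.mul n n' (x p.1) (y p.2)) with hT
  have hST : Submodule.span Ω {z | ∃ u ∈ Submodule.span Ω (Set.range x),
      ∃ u' ∈ Submodule.span Ω (Set.range y), z = G.mul n n' u u'} ≤ Submodule.span Ω T := by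
    rw [Submodule.span_le]
    rintro z ⟨u, hu, u', hu', rfl⟩
    have h1 := Submodule.apply_mem_map₂ (G.mulBil n n' Ω) hu hu'
    rw [Submodule.map₂_span_span, Set.image2_range] at h1
    exact h1
  have h2 := Submodule.finrank_mono hST
  have h3 : r'' ≤ Module.finrank Ω (Submodule.span Ω T) := by omega
  obtain ⟨f, hfT, -, hfli⟩ := Submodule.exists_fun_fin_finrank_span_eq Ω T
  have hf'li := hfli.comp (Fin.castLE h3) (Fin.castLE_injective h3)
  have hex : ∀ q : Fin r'', ∃ p : Fin r × Fin r', G.mul n n' (x p.1) (y p.2) = f (Fin.castLE h3 q) :=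
    fun q => hfT (Fin.castLE h3 q)
  choose s hs using hex
  have hli : LinearIndependent Ω (fun q : Fin r'' => G.mul n n' (x (s q).1) (y (s q).2)) := by
    have : (fun q : Fin r'' => G.mul n n' (x (s q).1) (y (s q).2)) = f ∘ Fin.castLE h3 :=
      funext hs
    rw [this]
    exact hf'li
  obtain ⟨t, ht⟩ := exists_det_ne_zero_of_linearIndependent r'' _ hli
  exact ⟨s, t, ht⟩

/-- **The Nullstellensatz identity.** -/
theorem exists_identity (Ω : Type) [Field Ω] [IsAlgClosed Ω] [Algebra ℚ Ω] {d d' r r' r'' : ℕ}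
    (hZL : G.ZL Ω n n' d d') (hr : r + d = G.N n) (hr' : r' + d' = G.N n')
    (hr'' : r'' + d + d' = G.N (n + n'))
    (IJ : (Fin r → Fin (G.N n)) × (Fin r' → Fin (G.N n'))) :
    ∃ (M : ℕ) (c : (Fin r'' → Fin r × Fin r') × (Fin r'' → Fin (G.N (n + n'))) →
        MvPolynomial (G.Var n n' r r') ℚ),
      ∑ st, c st * G.polyF n n' r r' r'' st = G.polyG n n' r r' IJ ^ M := by
  classical
  have key : ∀ z : G.Var n n' r r' → Ω,
      (∀ st, MvPolynomial.aeval z (G.polyF n n' r r' r'' st) = 0) →
      MvPolynomial.aeval z (G.polyG n n' r r' IJ) = 0 := by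
    intro z hz
    by_contra hne
    rw [G.eq_frameVal n n' z, aeval_polyG] at hne
    have hne' := mul_ne_zero_iff.mp hne
    obtain ⟨s, t, hst⟩ := G.exists_minor_of_ZL n n' Ω hZL hr hr' hr''
      (fun i a => z (Sum.inl (i, a))) (fun j b => z (Sum.inr (j, b))) IJ.1 IJ.2
      hne'.1 hne'.2
    apply hst
    have := hz (s, t)
    rw [G.eq_frameVal n n' z, aeval_polyF] at this
    exact this
  have hf : G.polyG n n' r r' IJ ∈ MvPolynomial.vanishingIdeal ℚ
      (MvPolynomial.zeroLocus Ω (Ideal.span (Set.range (G.polyF n n' r r' r'')))) := by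
    rw [MvPolynomial.mem_vanishingIdeal_iff]
    intro z hz
    rw [MvPolynomial.zeroLocus_span] at hz
    exact key z fun st => hz _ (Set.mem_range_self st)
  rw [MvPolynomial.vanishingIdeal_zeroLocus_eq_radical] at hf
  obtain ⟨M, hM⟩ := hf
  obtain ⟨c, hc⟩ := Ideal.mem_span_range_iff_exists_fun.mp hM
  exact ⟨M, c, hc⟩

end GrMul

/-- A polynomial with controlled coefficients is bounded on the unit polydisc. -/
theorem abv_aeval_le {L : Type} [Field L] [CharZero L] {σ : Type} (v : AbsoluteValue L ℝ)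
    {n₁ : ℕ} {Λ : ℝ} (h : Ctl v n₁ Λ) (c : MvPolynomial σ ℚ) (hc : c.support.card ≤ n₁)
    (hQ : ∀ m ∈ c.support, v (algebraMap ℚ L (c.coeff m)) ≤ Λ) (z : σ → L)
    (hz : ∀ i, v (z i) ≤ 1) :
    v (MvPolynomial.aeval z c) ≤ Λ ^ 2 := by
  rw [MvPolynomial.aeval_def, MvPolynomial.eval₂_eq]
  refine (h.sum_le _ _ Λ hc h.nonneg fun m hm => ?_).trans (by rw [sq])
  rw [v.map_mul, v.map_prod]
  have h1 : ∏ i ∈ m.support, v (z i ^ m i) ≤ 1 := by
    refine Finset.prod_le_one (fun i _ => v.nonneg _) fun i _ => ?_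
    rw [v.map_pow]
    exact pow_le_one₀ (v.nonneg _) (hz i)
  calc v (algebraMap ℚ L (c.coeff m)) * ∏ i ∈ m.support, v (z i ^ m i) ≤ Λ * 1 :=
        mul_le_mul (hQ m hm) h1 (Finset.prod_nonneg fun i _ => v.nonneg _) h.nonneg
    _ = Λ := mul_one Λ

namespace GrMul

variable (G : GrMul) (n n' : ℤ)

/-- **The minor witness**, uniform in the field and the absolute value: at frames normalised
at `(I, J)` some maximal minor of the product family has absolute value `≥ Λ⁻³`. -/
theorem exists_witness (Ω : Type) [Field Ω] [IsAlgClosed Ω] [Algebra ℚ Ω] {d d' r r' r'' : ℕ}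
    (hZL : G.ZL Ω n n' d d') (hr : r + d = G.N n) (hr' : r' + d' = G.N n')
    (hr'' : r'' + d + d' = G.N (n + n')) :
    ∃ (n₁ : ℕ) (Q : Finset ℚ), ∀ (L : Type) [Field L] [CharZero L] (v : AbsoluteValue L ℝ)
      (Λ : ℝ), Ctl v n₁ Λ → (∀ q ∈ Q, v (algebraMap ℚ L q) ≤ Λ) →
      ∀ (x : Fin r → Fin (G.N n) → L) (y : Fin r' → Fin (G.N n') → L)
        (I : Fin r → Fin (G.N n)) (J : Fin r' → Fin (G.N n')),
        (∀ i a, v (x i a) ≤ 1) → (∀ j b, v (y j b) ≤ 1) →
        (∀ i j, x i (I j) = if i = j then 1 else 0) →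
        (∀ i j, y i (J j) = if i = j then 1 else 0) →
        ∃ (s : Fin r'' → Fin r × Fin r') (t : Fin r'' → Fin (G.N (n + n'))),
          (Λ ^ 3)⁻¹ ≤ v (Matrix.det (Matrix.of fun q q' =>
            G.mul n n' (x (s q).1) (y (s q).2) (t q'))) := by
  classical
  have hid := fun IJ => G.exists_identity n n' Ω hZL hr hr' hr'' IJ
  choose M c hc using hid
  refine ⟨Fintype.card ((Fin r'' → Fin r × Fin r') × (Fin r'' → Fin (G.N (n + n')))) +
      ∑ IJ, ∑ st, (c IJ st).support.card,
    Finset.univ.biUnion fun IJ => Finset.univ.biUnion fun st =>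
      (c IJ st).support.image fun m => (c IJ st).coeff m, ?_⟩
  intro L _ _ v Λ h hQ x y I J hx hy hxI hyJ
  have hzle : ∀ p, v (G.frameVal n n' x y p) ≤ 1 := by
    rintro (p | p)
    · exact hx _ _
    · exact hy _ _
  have hev := congrArg (MvPolynomial.aeval (G.frameVal n n' x y)) (hc (I, J))
  rw [map_sum, map_pow, aeval_polyG] at hev
  have hdx : (Matrix.of fun i i' => x i (I i')).det = 1 := by
    have : (Matrix.of fun i i' => x i (I i')) = (1 : Matrix (Fin r) (Fin r) L) := by
      ext i j
      rw [Matrix.of_apply, hxI, Matrix.one_apply]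
    rw [this, Matrix.det_one]
  have hdy : (Matrix.of fun j j' => y j (J j')).det = 1 := by
    have : (Matrix.of fun j j' => y j (J j')) = (1 : Matrix (Fin r') (Fin r') L) := by
      ext i j
      rw [Matrix.of_apply, hyJ, Matrix.one_apply]
    rw [this, Matrix.det_one]
  rw [hdx, hdy, one_mul, one_pow] at hev
  simp only [map_mul, aeval_polyF] at hev
  have hca : ∀ st, v (MvPolynomial.aeval (G.frameVal n n' x y) (c (I, J) st)) ≤ Λ ^ 2 := by
    intro st
    refine abv_aeval_le v (h.mono ?_) _ le_rfl (fun m hm => hQ _ ?_) _ hzle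
    · refine le_add_left ?_
      exact (Finset.single_le_sum (f := fun st => (c (I, J) st).support.card)
        (fun _ _ => Nat.zero_le _) (Finset.mem_univ st)).trans
        (Finset.single_le_sum (f := fun IJ => ∑ st, (c IJ st).support.card)
        (fun _ _ => Nat.zero_le _) (Finset.mem_univ (I, J)))
    · simp only [Finset.mem_biUnion, Finset.mem_univ, true_and, Finset.mem_image]
      exact ⟨(I, J), st, m, hm, rfl⟩
  by_cases hne : Nonempty ((Fin r'' → Fin r × Fin r') × (Fin r'' → Fin (G.N (n + n'))))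
  · obtain ⟨st₀, hst₀⟩ := exists_eq_ciSup_of_finite
      (f := fun st : (Fin r'' → Fin r × Fin r') × (Fin r'' → Fin (G.N (n + n'))) =>
        v (Matrix.det (Matrix.of fun q q' => G.mul n n' (x (st.1 q).1) (y (st.1 q).2) (st.2 q'))))
    have hle : ∀ st : (Fin r'' → Fin r × Fin r') × (Fin r'' → Fin (G.N (n + n'))),
        v (Matrix.det (Matrix.of fun q q' =>
          G.mul n n' (x (st.1 q).1) (y (st.1 q).2) (st.2 q'))) ≤
        v (Matrix.det (Matrix.of fun q q' =>
          G.mul n n' (x (st₀.1 q).1) (y (st₀.1 q).2) (st₀.2 q'))) := by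
      intro st
      rw [hst₀]
      exact le_ciSup (f := fun st : (Fin r'' → Fin r × Fin r') × (Fin r'' → Fin (G.N (n + n'))) =>
        v (Matrix.det (Matrix.of fun q q' =>
          G.mul n n' (x (st.1 q).1) (y (st.1 q).2) (st.2 q')))) (Finite.bddAbove_range _) st
    set B := v (Matrix.det (Matrix.of fun q q' =>
          G.mul n n' (x (st₀.1 q).1) (y (st₀.1 q).2) (st₀.2 q'))) with hB
    have hB0 : 0 ≤ B := v.nonneg _
    have h1 : v (1 : L) ≤ Λ * (Λ ^ 2 * B) := by
      rw [← hev]
      refine h.fsum_le _ _ (le_add_right le_rfl) (mul_nonneg (pow_nonneg h.nonneg 2) hB0)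
        fun st => ?_
      rw [v.map_mul]
      exact mul_le_mul (hca st) (hle st) (v.nonneg _) (pow_nonneg h.nonneg 2)
    rw [v.map_one] at h1
    refine ⟨st₀.1, st₀.2, ?_⟩
    rw [inv_le_iff_one_le_mul₀ (pow_pos h.pos 3)]
    calc (1 : ℝ) ≤ Λ * (Λ ^ 2 * B) := h1
      _ = B * Λ ^ 3 := by ring
  · rw [not_nonempty_iff] at hne
    rw [Finset.univ_eq_empty, Finset.sum_empty] at hev
    exact absurd hev zero_ne_one

end GrMul

end Fermat.Agent.S17.helper2139
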