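import Mathlib
import Fermat.Agent.S17.helper2139_UBSpec
import Fermat.Agent.S17.helper2139_UBLocal

/-!
# S17-G2-UB, part 3 (helper2139): the plan of the proof of `CubeAbsStmt` (definitions only)

`CubeAbsStmt` is split into four independent pieces:

* `FormalStmt`  : the formal (real-number) half: level raising `(A)` + one-point peeling `(B)`
  for a function `ℓ : ℤ → List Pt → ℝ` give the seven-term bound;
* `LocStmt`     : the local seven-term bound for `ℓ = log maxMinor` at one absolute value,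
  uniform in the field and the absolute value (constants `Λ ^ p`);
* `GlobStmt`    : the seven-term bound for heights over number fields;
* `LocStmt → GlobStmt` (local-to-global) and `GlobStmt → CubeAbsStmt` (absolute wrapper).
-/

set_option autoImplicit false

namespace Fermat.Agent.S17.helper2139

/-- **The formal half.** -/
def FormalStmt : Prop :=
  ∀ (Pt : Type) (ℓ : ℤ → List Pt → ℝ) (Gd : List Pt → Prop) (t : ℝ) (a₀ : ℤ) (d : ℕ) (c : ℤ),
    0 ≤ a₀ → 0 ≤ t → a₀ ≤ c →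
    (∀ l l' : List Pt, l'.Sublist l → Gd l → Gd l') →
    (∀ n : ℤ, ℓ n [] = 0) →
    (∀ (m K : ℤ) (Q : Pt) (D : List Pt), Gd (Q :: D) → (D.length : ℤ) + 1 + a₀ ≤ m →
      m ≤ 3 * d + c → 2 * m + a₀ ≤ K → K ≤ 2 * (3 * d + c) + a₀ + d →
      |ℓ (m + K) (Q :: D) - ℓ (m + K) D - (ℓ m (Q :: D) - ℓ m D) - ℓ K [Q]| ≤ t) →
    (∀ (m K : ℤ) (Q P : Pt) (D : List Pt), Gd (Q :: P :: D) → (D.length : ℤ) + 1 + a₀ ≤ m →
      m ≤ 3 * d + c → 2 * m + a₀ ≤ K → K ≤ 2 * (3 * d + c) + a₀ + d →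
      |ℓ (m + K) (Q :: P :: D) - ℓ (m + K) (P :: D) - (ℓ m (Q :: D) - ℓ m D) -
        (ℓ K [Q, P] - ℓ K [P])| ≤ t) →
    ∀ l₁ l₂ l₃ : List Pt, l₁.length = d → l₂.length = d → l₃.length = d →
      Gd (l₁ ++ l₂ ++ l₃) →
      |ℓ (3 * d + c) (l₁ ++ l₂ ++ l₃) - ℓ (2 * d + c) (l₁ ++ l₂) - ℓ (2 * d + c) (l₁ ++ l₃) -
        ℓ (2 * d + c) (l₂ ++ l₃) + ℓ (d + c) l₁ + ℓ (d + c) l₂ + ℓ (d + c) l₃| ≤
        40 * ((d : ℝ) + 1) ^ 2 * t

namespace GrMul

variable (G : GrMul)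

/-- The evaluation matrix of a list of points at level `n`. -/
def evL {R : Type*} (n : ℤ) (l : List (G.Fam R)) : Matrix (Fin l.length) (Fin (G.N n)) R :=
  Matrix.of fun i a => l.get i n a

/-- Every sublist has a nonzero maximal minor at the levels `length + a₀ ≤ n ≤ Lmax`. -/
def GoodL {R : Type*} [CommRing R] (a₀ Lmax : ℤ) (l : List (G.Fam R)) : Prop :=
  ∀ l' : List (G.Fam R), l'.Sublist l → ∀ n : ℤ, (l'.length : ℤ) + a₀ ≤ n → n ≤ Lmax →
    ∃ s : Fin l'.length → Fin (G.N n), ((G.evL n l').submatrix id s).det ≠ 0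

/-- The points of the list are multiplicative at the levels `0 ≤ n, n'`, `n + n' ≤ Lmax`. -/
def MulL {R : Type*} [CommRing R] [Algebra ℚ R] (Lmax : ℤ) (l : List (G.Fam R)) : Prop :=
  ∀ P ∈ l, ∀ n n' : ℤ, 0 ≤ n → 0 ≤ n' → n + n' ≤ Lmax → G.MulAt P n n'

/-- The logarithm of the maximal minor of the evaluation matrix. -/
noncomputable def logMM {L : Type*} [Field L] (v : AbsoluteValue L ℝ) (n : ℤ)
    (l : List (G.Fam L)) : ℝ :=
  Real.log (maxMinor v (G.evL n l))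

/-- The height of the vector of maximal minors of the evaluation matrix, over a number field. -/
noncomputable def htL {F : Type*} [Field F] [NumberField F] (n : ℤ) (l : List (G.Fam F)) : ℝ :=
  Height.logHeight (fun s : Fin l.length → Fin (G.N n) => ((G.evL n l).submatrix id s).det)

end GrMul

/-- The highest level used by the proof. -/
def lmax (a₀ : ℤ) (d : ℕ) (c : ℤ) : ℤ := 10 * d + 3 * c + a₀

/-- **The local seven-term bound**, uniform in the field and the absolute value. -/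
def LocStmt : Prop :=
  ∀ (G : GrMul) (Ω : Type) [Field Ω] [CharZero Ω] [IsAlgClosed Ω] (a₀ : ℤ), 0 ≤ a₀ →
    (∀ (n n' : ℤ) (d d' : ℕ), (d : ℤ) + a₀ ≤ n → 2 * n + a₀ ≤ n' → d' ≤ 1 → G.ZL Ω n n' d d') →
    ∀ (d : ℕ) (c : ℤ), a₀ ≤ c → ∃ (n₁ : ℕ) (Q : Finset ℚ) (p : ℕ),
      ∀ (L : Type) [Field L] [CharZero L] (v : AbsoluteValue L ℝ) (Λ : ℝ), Ctl v n₁ Λ →
        (∀ q ∈ Q, v (algebraMap ℚ L q) ≤ Λ) →
        ∀ l₁ l₂ l₃ : List (G.Fam L), l₁.length = d → l₂.length = d → l₃.length = d →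
          G.MulL (lmax a₀ d c) (l₁ ++ l₂ ++ l₃) → G.GoodL a₀ (lmax a₀ d c) (l₁ ++ l₂ ++ l₃) →
          |G.logMM v (3 * d + c) (l₁ ++ l₂ ++ l₃) - G.logMM v (2 * d + c) (l₁ ++ l₂) -
            G.logMM v (2 * d + c) (l₁ ++ l₃) - G.logMM v (2 * d + c) (l₂ ++ l₃) +
            G.logMM v (d + c) l₁ + G.logMM v (d + c) l₂ + G.logMM v (d + c) l₃| ≤
            p * Real.log Λ

/-- **The seven-term bound over number fields.** -/
def GlobStmt : Prop :=
  ∀ (G : GrMul) (Ω : Type) [Field Ω] [CharZero Ω] [IsAlgClosed Ω] (a₀ : ℤ), 0 ≤ a₀ →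
    (∀ (n n' : ℤ) (d d' : ℕ), (d : ℤ) + a₀ ≤ n → 2 * n + a₀ ≤ n' → d' ≤ 1 → G.ZL Ω n n' d d') →
    ∀ (d : ℕ) (c : ℤ), a₀ ≤ c → ∃ C : ℝ,
      ∀ (F : Type) [Field F] [NumberField F] (l₁ l₂ l₃ : List (G.Fam F)),
        l₁.length = d → l₂.length = d → l₃.length = d →
        G.MulL (lmax a₀ d c) (l₁ ++ l₂ ++ l₃) → G.GoodL a₀ (lmax a₀ d c) (l₁ ++ l₂ ++ l₃) →
        |G.htL (3 * d + c) (l₁ ++ l₂ ++ l₃) - G.htL (2 * d + c) (l₁ ++ l₂) -
          G.htL (2 * d + c) (l₁ ++ l₃) - G.htL (2 * d + c) (l₂ ++ l₃) +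
          G.htL (d + c) l₁ + G.htL (d + c) l₂ + G.htL (d + c) l₃| ≤
          Module.finrank ℚ F * C

end Fermat.Agent.S17.helper2139
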