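import Mathlib
import Fermat.Agent.S17.helper2139_UBSpec
import Fermat.Agent.S17.helper2139_UBLocal
import Fermat.Agent.S17.helper2139_UBNull
import Fermat.Agent.S17.helper2139_UBPlan

/-!
# S17-G2-UB, part 4 (helper2139): the local seven-term bound

`locStmt : FormalStmt → LocStmt`: the two relations `(A)` (level raising) and `(B)` (one-point
peeling) for `ℓ = log maxMinor` of evaluation matrices of lists of points, from `mult_easy`,
`mult_hard` and the Nullstellensatz witness, with constants uniform in the field and the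
absolute value.
-/

set_option autoImplicit false
set_option linter.unusedSectionVars false

namespace Fermat.Agent.S17.helper2139

open Matrix

theorem log_le_of_le_pow_mul {x y Λ : ℝ} {p : ℕ} (hx : 0 < x) (hy : 0 < y) (hΛ : 1 ≤ Λ)
    (h : x ≤ Λ ^ p * y) : Real.log x ≤ p * Real.log Λ + Real.log y := by
  have hΛ0 : 0 < Λ := lt_of_lt_of_le one_pos hΛ
  have := Real.log_le_log hx h
  rwa [Real.log_mul (pow_pos hΛ0 p).ne' hy.ne', Real.log_pow] at this

namespace GrMul

variable (G : GrMul)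

section Pts

variable {L : Type} [Field L] [CharZero L]

theorem bord_evL (n : ℤ) (Q : G.Fam L) (l : List (G.Fam L)) :
    bord (G.evL n l) (Q n) = G.evL n (Q :: l) := by
  ext i a
  refine Fin.cases ?_ (fun i' => ?_) i
  · rfl
  · rfl

theorem bmul_eq_mul (m K : ℤ) (u : Fin (G.N m) → L) (u' : Fin (G.N K) → L) :
    bmul (fun a b c => algebraMap ℚ L (G.μ m K a b c)) u u' = G.mul m K u u' := rfl

/-- Multiplicativity of the evaluation functional of a multiplicative point. -/
theorem pt_mul {m K : ℤ} {P : G.Fam L} (hP : MulAt P m K) (u : Fin (G.N m) → L)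
    (u' : Fin (G.N K) → L) :
    ∑ c, P (m + K) c * G.mul m K u u' c = (∑ a, P m a * u a) * ∑ b, P K b * u' b := by
  have hP' : ∀ a b, (∑ c, algebraMap ℚ L (G.μ m K a b c) * P (m + K) c) = P m a * P K b :=
    fun a b => (hP a b).symm
  calc ∑ c, P (m + K) c * G.mul m K u u' c
      = ∑ a, ∑ b, (∑ c, algebraMap ℚ L (G.μ m K a b c) * P (m + K) c) * (u a * u' b) := by
        simp only [mul, Finset.mul_sum, Finset.sum_mul]
        rw [Finset.sum_comm]
        refine Finset.sum_congr rfl fun a _ => ?_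
        rw [Finset.sum_comm]
        refine Finset.sum_congr rfl fun b _ => Finset.sum_congr rfl fun c _ => ?_
        ring
    _ = ∑ a, ∑ b, (P m a * P K b) * (u a * u' b) := by simp only [hP']
    _ = (∑ a, P m a * u a) * ∑ b, P K b * u' b := by
        rw [Finset.sum_mul_sum]
        refine Finset.sum_congr rfl fun a _ => Finset.sum_congr rfl fun b _ => ?_
        ring

theorem evL_mulVec (n : ℤ) (l : List (G.Fam L)) (u : Fin (G.N n) → L) (i : Fin l.length) :
    (G.evL n l *ᵥ u) i = ∑ a, l.get i n a * u a := rfl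

theorem logMM_nil (v : AbsoluteValue L ℝ) (n : ℤ) : G.logMM v n [] = 0 := by
  have h1 : maxMinor v (G.evL n ([] : List (G.Fam L))) = 1 := by
    unfold maxMinor
    have : ∀ f : Fin ([] : List (G.Fam L)).length → Fin (G.N n),
        v ((G.evL n ([] : List (G.Fam L))).submatrix id f).det = 1 := by
      intro f
      have : IsEmpty (Fin ([] : List (G.Fam L)).length) := by
        show IsEmpty (Fin 0)
        infer_instance
      rw [Matrix.det_isEmpty, v.map_one]
    simp only [this]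
    have : Nonempty (Fin ([] : List (G.Fam L)).length → Fin (G.N n)) :=
      ⟨fun i => (Fin.elim0 (show Fin 0 from i))⟩
    exact ciSup_const
  rw [logMM, h1, Real.log_one]

theorem pos_of_goodL {a₀ Lmax : ℤ} {l : List (G.Fam L)} (hl : G.GoodL a₀ Lmax l)
    (v : AbsoluteValue L ℝ) {l' : List (G.Fam L)} (hs : l'.Sublist l) {n : ℤ}
    (hn : (l'.length : ℤ) + a₀ ≤ n) (hn' : n ≤ Lmax) : 0 < maxMinor v (G.evL n l') := by
  obtain ⟨s, hs⟩ := hl l' hs n hn hn'
  exact lt_of_lt_of_le (v.pos hs) (le_maxMinor v _ s)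

end Pts

/-- **The two-sided multiplicativity for points**: relations `(A)` (`D' = []`) and `(B)`
(`D' = [P']`) at the levels `(m, K)`, uniform in the field and the absolute value. -/
theorem mult_pts (Ω : Type) [Field Ω] [IsAlgClosed Ω] [Algebra ℚ Ω] (m K : ℤ) (j j' : ℕ)
    (hZL : G.ZL Ω m K j j') :
    ∃ (n₁ : ℕ) (Q : Finset ℚ), ∀ (L : Type) [Field L] [CharZero L] (v : AbsoluteValue L ℝ)
      (Λ : ℝ), Ctl v n₁ Λ → (∀ q ∈ Q, v (algebraMap ℚ L q) ≤ Λ) →
      ∀ (P : G.Fam L) (D D' : List (G.Fam L)), D.length = j → D'.length = j' →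
        MulAt P m K → (∀ R ∈ D, MulAt R m K) → (∀ R ∈ D', MulAt R m K) →
        0 < maxMinor v (G.evL m D) → 0 < maxMinor v (G.evL K D') →
        0 < maxMinor v (G.evL (m + K) (D' ++ D)) →
        0 < maxMinor v (G.evL m (P :: D)) → 0 < maxMinor v (G.evL K (P :: D')) →
        0 < maxMinor v (G.evL (m + K) (P :: (D' ++ D))) →
        |G.logMM v (m + K) (P :: (D' ++ D)) - G.logMM v (m + K) (D' ++ D) -
          (G.logMM v m (P :: D) - G.logMM v m D) -
          (G.logMM v K (P :: D') - G.logMM v K D')| ≤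
          ((3 * G.N (m + K) + 7 : ℕ) : ℝ) * Real.log Λ := by
  classical
  by_cases hdim : j ≤ G.N m ∧ j' ≤ G.N K ∧ j + j' ≤ G.N (m + K)
  · obtain ⟨hj, hj', hjj⟩ := hdim
    obtain ⟨n₁w, Qw, hw⟩ := G.exists_witness m K Ω hZL (r := G.N m - j) (r' := G.N K - j')
      (r'' := G.N (m + K) - j - j') (by omega) (by omega) (by omega)
    refine ⟨n₁w + G.N m + G.N K + G.N (m + K) + (j + j' + 2) + (G.N (m + K)).factorial,
      Qw ∪ (Finset.univ.image fun abc : Fin (G.N m) × Fin (G.N K) × Fin (G.N (m + K)) =>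
        G.μ m K abc.1 abc.2.1 abc.2.2), ?_⟩
    intro L _ _ v Λ h hQ P D D' hD hD' hP hDm hD'm h1 h2 h3 h4 h5 h6
    have hΛ1 : 1 ≤ Λ := h.one_le
    have hΛ0 : 0 < Λ := h.pos
    have hlogΛ : 0 ≤ Real.log Λ := Real.log_nonneg hΛ1
    have hμ : ∀ a b c, v ((fun a b c => algebraMap ℚ L (G.μ m K a b c)) a b c) ≤ Λ := by
      intro a b c
      refine hQ _ (Finset.mem_union_right _ ?_)
      exact Finset.mem_image.mpr ⟨(a, b, c), Finset.mem_univ _, rfl⟩
    have hker : ∀ (u : Fin (G.N m) → L) (u' : Fin (G.N K) → L), G.evL m D *ᵥ u = 0 →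
        G.evL K D' *ᵥ u' = 0 →
        G.evL (m + K) (D' ++ D) *ᵥ bmul (fun a b c => algebraMap ℚ L (G.μ m K a b c)) u u' = 0 := by
      intro u u' hu hu'
      funext i
      rw [bmul_eq_mul, evL_mulVec, Pi.zero_apply]
      have hmem : (D' ++ D).get i ∈ D' ++ D := List.get_mem _ _
      rcases List.mem_append.mp hmem with hm' | hm'
      · rw [G.pt_mul (hD'm _ hm')]
        obtain ⟨i', hi'⟩ := List.mem_iff_get.mp hm'
        have := congrFun hu' i'
        rw [evL_mulVec, hi', Pi.zero_apply] at this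
        rw [this, mul_zero]
      · rw [G.pt_mul (hDm _ hm')]
        obtain ⟨i', hi'⟩ := List.mem_iff_get.mp hm'
        have := congrFun hu i'
        rw [evL_mulVec, hi', Pi.zero_apply] at this
        rw [this, zero_mul]
    have hε : ∀ (u : Fin (G.N m) → L) (u' : Fin (G.N K) → L),
        ∑ c, P (m + K) c * bmul (fun a b c => algebraMap ℚ L (G.μ m K a b c)) u u' c =
          (∑ a, P m a * u a) * ∑ b, P K b * u' b := by
      intro u u'
      rw [bmul_eq_mul]
      exact G.pt_mul hP u u'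
    have hlen : (D' ++ D).length = j' + j := by rw [List.length_append, hD, hD']
    have hfac : (G.N (m + K) - j - j').factorial ≤ (G.N (m + K)).factorial :=
      Nat.factorial_le (by omega)
    have hfpos : 0 < (G.N (m + K)).factorial := Nat.factorial_pos _
    have easy := mult_easy (h.mono (n₂ := G.N m + G.N K + G.N (m + K) + (j + j' + 2)) (by omega))
      (n := Fin (G.N m)) (n' := Fin (G.N K)) (n'' := Fin (G.N (m + K)))
      (by rw [Fintype.card_fin]; omega) (by rw [Fintype.card_fin]; omega)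
      (by rw [Fintype.card_fin]; omega) (k := D.length) (k' := D'.length) (k'' := (D' ++ D).length)
      (by omega) (by omega) (fun a b c => algebraMap ℚ L (G.μ m K a b c)) hμ
      (G.evL m D) (G.evL K D') (G.evL (m + K) (D' ++ D)) (P m) (P K) (P (m + K)) hker hε
    have hard := mult_hard h
      (n := Fin (G.N m)) (n' := Fin (G.N K)) (n'' := Fin (G.N (m + K)))
      (by rw [Fintype.card_fin]; omega) (by rw [Fintype.card_fin]; omega)
      (k := D.length) (k' := D'.length) (k'' := (D' ++ D).length)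
      (r := G.N m - j) (r' := G.N K - j') (r'' := G.N (m + K) - j - j')
      (by omega) (by omega) (by omega)
      (by rw [Fintype.card_fin]; omega) (by rw [Fintype.card_fin]; omega)
      (by rw [Fintype.card_fin]; omega)
      (fun a b c => algebraMap ℚ L (G.μ m K a b c)) hμ
      (G.evL m D) (G.evL K D') (G.evL (m + K) (D' ++ D)) (P m) (P K) (P (m + K)) h3 hker hε
      (Λ ^ 3)⁻¹ (inv_pos.mpr (pow_pos hΛ0 3))
      (hw L v Λ (h.mono (by omega)) (fun q hq => hQ q (Finset.mem_union_left _ hq)))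
    rw [bord_evL, bord_evL, bord_evL] at easy hard
    rw [inv_inv, ← pow_add] at hard
    set A := maxMinor v (G.evL m D) with hA
    set A₁ := maxMinor v (G.evL m (P :: D)) with hA₁
    set B := maxMinor v (G.evL K D') with hB
    set B₁ := maxMinor v (G.evL K (P :: D')) with hB₁
    set C := maxMinor v (G.evL (m + K) (D' ++ D)) with hC
    set C₁ := maxMinor v (G.evL (m + K) (P :: (D' ++ D))) with hC₁
    have e1 := log_le_of_le_pow_mul (mul_pos (mul_pos h4 h5) h3)
      (mul_pos (mul_pos h1 h2) h6) hΛ1 easy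
    have e2 := log_le_of_le_pow_mul (mul_pos (mul_pos h6 h1) h2)
      (mul_pos (mul_pos h3 h4) h5) hΛ1 hard
    rw [Real.log_mul (mul_pos h4 h5).ne' h3.ne', Real.log_mul h4.ne' h5.ne',
      Real.log_mul (mul_pos h1 h2).ne' h6.ne', Real.log_mul h1.ne' h2.ne'] at e1
    rw [Real.log_mul (mul_pos h6 h1).ne' h2.ne', Real.log_mul h6.ne' h1.ne',
      Real.log_mul (mul_pos h3 h4).ne' h5.ne', Real.log_mul h3.ne' h4.ne'] at e2
    have hr''le : ((3 * (G.N (m + K) - j - j') + 4 + 3 : ℕ) : ℝ) ≤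
        ((3 * G.N (m + K) + 7 : ℕ) : ℝ) := by
      exact_mod_cast (by omega : 3 * (G.N (m + K) - j - j') + 4 + 3 ≤ 3 * G.N (m + K) + 7)
    have h6le : ((6 : ℕ) : ℝ) ≤ ((3 * G.N (m + K) + 7 : ℕ) : ℝ) := by
      exact_mod_cast (by omega : 6 ≤ 3 * G.N (m + K) + 7)
    have b1 := mul_le_mul_of_nonneg_right hr''le hlogΛ
    have b2 := mul_le_mul_of_nonneg_right h6le hlogΛ
    simp only [logMM]
    rw [abs_le]
    constructor <;> linarith
  · refine ⟨0, ∅, ?_⟩
    intro L _ _ v Λ h hQ P D D' hD hD' hP hDm hD'm h1 h2 h3 h4 h5 h6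
    exfalso
    apply hdim
    have e1 := le_card_of_maxMinor_pos v _ h1
    have e2 := le_card_of_maxMinor_pos v _ h2
    have e3 := le_card_of_maxMinor_pos v _ h3
    rw [Fintype.card_fin] at e1 e2 e3
    rw [List.length_append] at e3
    exact ⟨by omega, by omega, by omega⟩

/-- The conclusion of `mult_pts`, as a predicate of the field, the absolute value and `Λ`. -/
def MultAt (m K : ℤ) (j j' : ℕ) {L : Type} [Field L] [CharZero L] (v : AbsoluteValue L ℝ)
    (Λ : ℝ) : Prop :=
  ∀ (P : G.Fam L) (D D' : List (G.Fam L)), D.length = j → D'.length = j' →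
    MulAt P m K → (∀ R ∈ D, MulAt R m K) → (∀ R ∈ D', MulAt R m K) →
    0 < maxMinor v (G.evL m D) → 0 < maxMinor v (G.evL K D') →
    0 < maxMinor v (G.evL (m + K) (D' ++ D)) →
    0 < maxMinor v (G.evL m (P :: D)) → 0 < maxMinor v (G.evL K (P :: D')) →
    0 < maxMinor v (G.evL (m + K) (P :: (D' ++ D))) →
    |G.logMM v (m + K) (P :: (D' ++ D)) - G.logMM v (m + K) (D' ++ D) -
      (G.logMM v m (P :: D) - G.logMM v m D) -
      (G.logMM v K (P :: D') - G.logMM v K D')| ≤
      ((3 * G.N (m + K) + 7 : ℕ) : ℝ) * Real.log Λ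

theorem exists_multAt (Ω : Type) [Field Ω] [IsAlgClosed Ω] [Algebra ℚ Ω] (m K : ℤ) (j j' : ℕ)
    (hZL : G.ZL Ω m K j j') :
    ∃ (n₁ : ℕ) (Q : Finset ℚ), ∀ (L : Type) [Field L] [CharZero L] (v : AbsoluteValue L ℝ)
      (Λ : ℝ), Ctl v n₁ Λ → (∀ q ∈ Q, v (algebraMap ℚ L q) ≤ Λ) → G.MultAt m K j j' v Λ :=
  G.mult_pts Ω m K j j' hZL

end GrMul

/-- **The local seven-term bound** from the formal half. -/
theorem locStmt (hF : FormalStmt) : LocStmt := by
  classical
  intro G Ω _ _ _ a₀ ha₀ hZL d c hc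
  have hLmax : lmax a₀ d c = 10 * d + 3 * c + a₀ := rfl
  have hinst : ∀ i : ℤ × ℤ × ℕ × ℕ, ∃ (n₁ : ℕ) (Q : Finset ℚ),
      ((i.2.2.1 : ℤ) + a₀ ≤ i.1 → 2 * i.1 + a₀ ≤ i.2.1 → i.2.2.2 ≤ 1 →
      ∀ (L : Type) [Field L] [CharZero L] (v : AbsoluteValue L ℝ) (Λ : ℝ), Ctl v n₁ Λ →
        (∀ q ∈ Q, v (algebraMap ℚ L q) ≤ Λ) → G.MultAt i.1 i.2.1 i.2.2.1 i.2.2.2 v Λ) := by
    rintro ⟨m, K, j, j'⟩
    by_cases hreg : (j : ℤ) + a₀ ≤ m ∧ 2 * m + a₀ ≤ K ∧ j' ≤ 1
    · obtain ⟨n₁, Q, h⟩ := G.exists_multAt Ω m K j j' (hZL m K j j' hreg.1 hreg.2.1 hreg.2.2)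
      exact ⟨n₁, Q, fun _ _ _ => h⟩
    · exact ⟨0, ∅, fun h1 h2 h3 => absurd ⟨h1, h2, h3⟩ hreg⟩
  choose n₁f Qf hf using hinst
  set box : Finset (ℤ × ℤ × ℕ × ℕ) :=
    Finset.Icc 0 (3 * d + c) ×ˢ Finset.Icc 0 (2 * (3 * d + c) + a₀ + d) ×ˢ
      Finset.range ((3 * (d : ℤ) + c).toNat + 1) ×ˢ Finset.range 2 with hbox
  set p₀ : ℕ := 3 * (∑ n ∈ Finset.Icc 0 (lmax a₀ d c), G.N n) + 7 with hp₀
  refine ⟨∑ i ∈ box, n₁f i, box.biUnion Qf, 40 * (d + 1) ^ 2 * p₀, ?_⟩
  intro L _ _ v Λ h hQ l₁ l₂ l₃ h₁ h₂ h₃ hMul hGood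
  have hlogΛ : 0 ≤ Real.log Λ := Real.log_nonneg h.one_le
  have key : ∀ (m K : ℤ) (j j' : ℕ), (j : ℤ) + a₀ ≤ m → m ≤ 3 * d + c → 2 * m + a₀ ≤ K →
      K ≤ 2 * (3 * d + c) + a₀ + d → j' ≤ 1 → G.MultAt m K j j' v Λ := by
    intro m K j j' e1 e2 e3 e4 e5
    have hmem : (m, K, j, j') ∈ box := by
      simp only [hbox, Finset.mem_product, Finset.mem_Icc, Finset.mem_range]
      refine ⟨⟨by omega, e2⟩, ⟨by omega, e4⟩, ?_, by omega⟩
      omega
    exact hf (m, K, j, j') e1 e3 e5 L v Λ
      (h.mono (Finset.single_le_sum (f := n₁f) (fun _ _ => Nat.zero_le _) hmem))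
      (fun q hq => hQ q (Finset.mem_biUnion.mpr ⟨_, hmem, hq⟩))
  have hNle : ∀ n : ℤ, 0 ≤ n → n ≤ lmax a₀ d c →
      ((3 * G.N n + 7 : ℕ) : ℝ) * Real.log Λ ≤ (p₀ : ℝ) * Real.log Λ := by
    intro n h0 h1
    refine mul_le_mul_of_nonneg_right ?_ hlogΛ
    have := Finset.single_le_sum (f := G.N) (fun _ _ => Nat.zero_le _)
      (Finset.mem_Icc.mpr ⟨h0, h1⟩)
    exact_mod_cast (by omega : 3 * G.N n + 7 ≤ p₀)
  have main := hF (G.Fam L) (G.logMM v)
    (fun l => G.MulL (lmax a₀ d c) l ∧ G.GoodL a₀ (lmax a₀ d c) l) ((p₀ : ℝ) * Real.log Λ) a₀ d c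
    ha₀ (mul_nonneg (Nat.cast_nonneg _) hlogΛ) hc ?_ (fun n => G.logMM_nil v n) ?_ ?_
    l₁ l₂ l₃ h₁ h₂ h₃ ⟨hMul, hGood⟩
  · refine main.trans (le_of_eq ?_)
    push_cast
    ring
  · rintro l l' hs ⟨hM, hG⟩
    exact ⟨fun P hP => hM P (hs.subset hP), fun l'' hs' => hG l'' (hs'.trans hs)⟩
  · rintro m K Q D ⟨hM, hG⟩ hm hmM hK hKK
    have hD0 : (0 : ℤ) ≤ D.length := Int.natCast_nonneg _
    have hmk := key m K D.length 0 (by omega) hmM hK hKK (by omega)
    have hQD : (Q :: D).length = D.length + 1 := List.length_cons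
    have := hmk Q D [] rfl rfl
      (hM Q List.mem_cons_self m K (by omega) (by omega) (by omega))
      (fun R hR => hM R (List.mem_cons_of_mem _ hR) m K (by omega) (by omega) (by omega))
      (fun R hR => absurd hR List.not_mem_nil)
      (G.pos_of_goodL hG v (List.sublist_cons_self Q D) (by omega) (by omega))
      (G.pos_of_goodL hG v (List.nil_sublist _) (by simp only [List.length_nil]; omega) (by omega))
      (G.pos_of_goodL hG v (List.sublist_cons_self Q D) (by omega) (by omega))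
      (G.pos_of_goodL hG v (List.Sublist.refl _) (by rw [hQD]; push_cast; omega) (by omega))
      (G.pos_of_goodL hG v ((List.nil_sublist D).cons_cons Q)
        (by simp only [List.length_cons, List.length_nil]; omega) (by omega))
      (G.pos_of_goodL hG v (List.Sublist.refl _) (by rw [hQD]; push_cast; omega) (by omega))
    simp only [List.nil_append, GrMul.logMM_nil, sub_zero] at this
    exact this.trans (hNle (m + K) (by omega) (by omega))
  · rintro m K Q P D ⟨hM, hG⟩ hm hmM hK hKK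
    have hD0 : (0 : ℤ) ≤ D.length := Int.natCast_nonneg _
    have hmk := key m K D.length 1 (by omega) hmM hK hKK (by omega)
    have hPD : (P :: D).length = D.length + 1 := List.length_cons
    have hQD : (Q :: D).length = D.length + 1 := List.length_cons
    have hQPD : (Q :: P :: D).length = D.length + 2 := by simp
    have sD : D.Sublist (Q :: P :: D) := (List.sublist_cons_self P D).cons Q
    have sPD : (P :: D).Sublist (Q :: P :: D) := List.sublist_cons_self Q _
    have sQD : (Q :: D).Sublist (Q :: P :: D) := (List.sublist_cons_self P D).cons_cons Q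
    have sP : [P].Sublist (Q :: P :: D) := ((List.nil_sublist D).cons_cons P).cons Q
    have sQP : [Q, P].Sublist (Q :: P :: D) := ((List.nil_sublist D).cons_cons P).cons_cons Q
    have := hmk Q D [P] rfl rfl
      (hM Q List.mem_cons_self m K (by omega) (by omega) (by omega))
      (fun R hR => hM R (List.mem_cons_of_mem _ (List.mem_cons_of_mem _ hR)) m K (by omega)
        (by omega) (by omega))
      (fun R hR => by
        rw [List.mem_singleton] at hR
        rw [hR]
        exact hM P (List.mem_cons_of_mem _ List.mem_cons_self) m K (by omega) (by omega)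
          (by omega))
      (G.pos_of_goodL hG v sD (by omega) (by omega))
      (G.pos_of_goodL hG v sP (by simp only [List.length_cons, List.length_nil]; omega)
        (by omega))
      (G.pos_of_goodL hG v sPD (by rw [hPD]; push_cast; omega) (by omega))
      (G.pos_of_goodL hG v sQD (by rw [hQD]; push_cast; omega) (by omega))
      (G.pos_of_goodL hG v sQP (by simp only [List.length_cons, List.length_nil]; omega)
        (by omega))
      (G.pos_of_goodL hG v (List.Sublist.refl _) (by rw [hQPD]; push_cast; omega) (by omega))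
    simp only [List.cons_append, List.nil_append] at this
    exact this.trans (hNle (m + K) (by omega) (by omega))

end Fermat.Agent.S17.helper2139
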