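import Mathlib
import Fermat.Agent.S17.helper2139_UBPlan
import Fermat.Agent.S17.helper2139_UBMain
import Fermat.Agent.S17.helper1925_CubeHeight

/-!
# S17-G2-UB, part 5 (helper2139): local-to-global

`globStmt_of_locStmt : LocStmt → GlobStmt`: the local seven-term bounds with constants
`Λ_v ^ p`, `Λ_v = locConst v C N`, give the seven-term bound for the heights of the vectors of
maximal minors over every number field, by the product formula
(`helper1925.mulHeight_le_of_locConst`).
-/

set_option autoImplicit false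
set_option linter.unusedSectionVars false

namespace Fermat.Agent.S17.helper2139

open Matrix Height Height.AdmissibleAbsValues Fermat.Agent.S17.helper1925

/-- The constants `locConst v C N` control finite sums and finitely many rational numbers,
uniformly in the field and the absolute value. -/
theorem exists_ctl (n₁ : ℕ) (Q : Finset ℚ) :
    ∃ C N : ℕ, 0 < N ∧ N ≤ C ∧ ∀ (L : Type) [Field L] [CharZero L] (v : AbsoluteValue L ℝ),
      Ctl v n₁ (locConst v C N) ∧ ∀ q ∈ Q, v (algebraMap ℚ L q) ≤ locConst v C N := by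
  classical
  set N : ℕ := ∏ q ∈ Q, q.den with hN
  set C₁ : ℕ := n₁ + 1 + ∑ q ∈ Q, q.num.natAbs with hC₁
  have hNpos : 0 < N := Finset.prod_pos fun q _ => q.den_pos
  have hNC : N ≤ C₁ * N := Nat.le_mul_of_pos_left N (by omega)
  refine ⟨C₁ * N, N, hNpos, hNC, ?_⟩
  intro L _ _ v
  have hbase : ∀ k : ℕ, k ≤ C₁ → archWeight v k ≤ locConst v (C₁ * N) N := by
    intro k hk
    calc archWeight v k ≤ archWeight v C₁ := archWeight_mono v hk
      _ = locConst v C₁ 1 := by simp [locConst]
      _ ≤ locConst v (C₁ * N) (1 * N) := locConst_le_mul_right v C₁ one_pos hNpos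
      _ = locConst v (C₁ * N) N := by rw [one_mul]
  refine ⟨⟨one_le_locConst v hNpos hNC, ?_⟩, ?_⟩
  · intro α s f B hs hB hf
    have h1 := abv_sum_le_archWeight v s f (fun _ => 1) hB (fun i hi => by
      rw [archWeight_one, one_mul]; exact hf i hi)
    refine h1.trans (mul_le_mul_of_nonneg_right (hbase _ ?_) hB)
    rw [Finset.sum_const, smul_eq_mul, mul_one]
    omega
  · intro q hq
    have hden : 0 < q.den := q.den_pos
    set M : ℕ := ∏ x ∈ Q.erase q, x.den with hM
    have hMpos : 0 < M := Finset.prod_pos fun x _ => x.den_pos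
    have hMN : q.den * M = N := Finset.mul_prod_erase Q (fun x => x.den) hq
    have hnum : q.num.natAbs ≤ C₁ := by
      have := Finset.single_le_sum (f := fun x : ℚ => x.num.natAbs) (fun _ _ => Nat.zero_le _) hq
      omega
    have hvden : 0 < v ((q.den : ℕ) : L) := abv_natCast_pos v hden
    have h1 : v (algebraMap ℚ L q) ≤ locConst v q.num.natAbs q.den := by
      have e : algebraMap ℚ L q = (q.num : L) / (q.den : L) := by
        rw [eq_ratCast, Rat.cast_def]
      rw [e, map_div₀, locConst, div_eq_mul_inv]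
      exact mul_le_mul_of_nonneg_right (abv_intCast_le v q.num) (inv_nonneg.mpr hvden.le)
    calc v (algebraMap ℚ L q) ≤ locConst v q.num.natAbs q.den := h1
      _ ≤ locConst v (q.num.natAbs * M) (q.den * M) := locConst_le_mul_right v _ hden hMpos
      _ = locConst v (q.num.natAbs * M) N := by rw [hMN]
      _ ≤ locConst v (C₁ * N) N := by
          refine locConst_mono_left v ?_ N
          have hMle : M ≤ N := by
            rw [← hMN]
            exact Nat.le_mul_of_pos_left M hden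
          exact Nat.mul_le_mul hnum hMle

theorem le_pow_mul_of_log_le {x y Λ : ℝ} {p : ℕ} (hx : 0 < x) (hy : 0 < y) (hΛ : 0 < Λ)
    (h : Real.log x ≤ p * Real.log Λ + Real.log y) : x ≤ Λ ^ p * y := by
  rw [← Real.log_le_log_iff hx (mul_pos (pow_pos hΛ p) hy), Real.log_mul (pow_pos hΛ p).ne' hy.ne',
    Real.log_pow]
  exact h

/-- The sup of an absolute value over a product family is the product of the sups. -/
theorem iSup_abv_tmul {F : Type*} [Field F] (v : AbsoluteValue F ℝ) {ι κ : Type*} [Finite ι]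
    [Finite κ] (x : ι → F) (y : κ → F) :
    (⨆ p, v (tmul x y p)) = (⨆ i, v (x i)) * ⨆ j, v (y j) := by
  rcases isEmpty_or_nonempty ι with hι | hι
  · rw [Real.iSup_of_isEmpty, Real.iSup_of_isEmpty, zero_mul]
  rcases isEmpty_or_nonempty κ with hκ | hκ
  · rw [Real.iSup_of_isEmpty, Real.iSup_of_isEmpty (f := fun j => v (y j)), mul_zero]
  obtain ⟨i₀, hi₀⟩ := exists_eq_ciSup_of_finite (f := fun i => v (x i))
  obtain ⟨j₀, hj₀⟩ := exists_eq_ciSup_of_finite (f := fun j => v (y j))
  apply le_antisymm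
  · refine ciSup_le fun p => ?_
    rw [tmul_apply, v.map_mul]
    exact mul_le_mul (le_ciSup (f := fun i => v (x i)) (Finite.bddAbove_range _) p.1)
      (le_ciSup (f := fun j => v (y j)) (Finite.bddAbove_range _) p.2) (v.nonneg _)
      (Real.iSup_nonneg fun _ => v.nonneg _)
  · rw [← hi₀, ← hj₀, ← v.map_mul]
    exact le_ciSup (f := fun p => v (tmul x y p)) (Finite.bddAbove_range _) (i₀, j₀)

/-- One-sided local bounds with constants `locConst v C N ^ p` give a bound for the
logarithmic heights over a number field. -/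
theorem logHeight_le_of_local {F : Type*} [Field F] [NumberField F] {ι κ : Type*}
    [Finite ι] [Finite κ] (X : ι → F) (Y : κ → F) (hY : Y ≠ 0) (C N p : ℕ)
    (hC : 0 < C) (hN : 0 < N)
    (hloc : ∀ v : AbsoluteValue F ℝ, v ∈ archAbsVal (K := F) ∨ v ∈ nonarchAbsVal (K := F) →
      (⨆ i, v (X i)) ≤ locConst v C N ^ p * (⨆ j, v (Y j))) :
    logHeight X ≤ Module.finrank ℚ F * (p * Real.log C) + logHeight Y := by
  have hCp : 0 < C ^ p := pow_pos hC p
  have hNp : 0 < N ^ p := pow_pos hN p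
  have h1 := mulHeight_le_of_locConst (C ^ p) (N ^ p) hCp hNp X Y hY (fun v hv i => by
    rw [← locConst_pow]
    exact (le_ciSup (f := fun i => v (X i)) (Finite.bddAbove_range _) i).trans (hloc v hv))
  rw [NumberField.totalWeight_eq_finrank] at h1
  have hmX : 0 < mulHeight X := lt_of_lt_of_le one_pos (one_le_mulHeight X)
  have hmY : 0 < mulHeight Y := lt_of_lt_of_le one_pos (one_le_mulHeight Y)
  have hpos : (0 : ℝ) < ((C ^ p : ℕ) : ℝ) ^ Module.finrank ℚ F := by positivity
  have h2 := Real.log_le_log hmX h1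
  rw [Real.log_mul hpos.ne' hmY.ne', Real.log_pow, Nat.cast_pow, Real.log_pow] at h2
  simpa [logHeight] using h2

/-- Two-sided local bounds with constants `locConst v C N ^ p` give a two-sided bound for the
logarithmic heights over a number field. -/
theorem abs_logHeight_sub_le_of_local {F : Type*} [Field F] [NumberField F] {ι κ : Type*}
    [Finite ι] [Finite κ] (X : ι → F) (Y : κ → F) (hX : X ≠ 0) (hY : Y ≠ 0) (C N p : ℕ)
    (hC : 0 < C) (hN : 0 < N)
    (h : ∀ v : AbsoluteValue F ℝ, v ∈ archAbsVal (K := F) ∨ v ∈ nonarchAbsVal (K := F) →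
      (⨆ i, v (X i)) ≤ locConst v C N ^ p * (⨆ j, v (Y j)) ∧
      (⨆ j, v (Y j)) ≤ locConst v C N ^ p * ⨆ i, v (X i)) :
    |logHeight X - logHeight Y| ≤ Module.finrank ℚ F * (p * Real.log C) := by
  have k1 := logHeight_le_of_local X Y hY C N p hC hN fun v hv => (h v hv).1
  have k2 := logHeight_le_of_local Y X hX C N p hC hN fun v hv => (h v hv).2
  rw [abs_le]
  constructor <;> linarith

theorem log_mul₄ {a b c d : ℝ} (ha : 0 < a) (hb : 0 < b) (hc : 0 < c) (hd : 0 < d) :
    Real.log (a * b * c * d) = Real.log a + Real.log b + Real.log c + Real.log d := by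
  rw [Real.log_mul (mul_pos (mul_pos ha hb) hc).ne' hd.ne', Real.log_mul (mul_pos ha hb).ne' hc.ne',
    Real.log_mul ha.ne' hb.ne']

theorem log_mul₃ {a b c : ℝ} (ha : 0 < a) (hb : 0 < b) (hc : 0 < c) :
    Real.log (a * b * c) = Real.log a + Real.log b + Real.log c := by
  rw [Real.log_mul (mul_pos ha hb).ne' hc.ne', Real.log_mul ha.ne' hb.ne']

/-- **Local-to-global**: the local seven-term bound gives the seven-term bound for heights over
number fields. -/
theorem globStmt_of_locStmt (h : LocStmt) : GlobStmt := by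
  intro G Ω _ _ _ a₀ ha₀ hZL d c hc
  obtain ⟨n₁, Q, p, hloc⟩ := h G Ω a₀ ha₀ hZL d c hc
  obtain ⟨C, N, hN, hNC, hctl⟩ := exists_ctl n₁ Q
  have hC : 0 < C := lt_of_lt_of_le hN hNC
  refine ⟨p * Real.log C, ?_⟩
  intro F _ _ l₁ l₂ l₃ h₁ h₂ h₃ hMul hGood
  have hLmax : lmax a₀ d c = 10 * d + 3 * c + a₀ := rfl
  have s12 : (l₁ ++ l₂).Sublist (l₁ ++ l₂ ++ l₃) := List.sublist_append_left _ _
  have s13 : (l₁ ++ l₃).Sublist (l₁ ++ l₂ ++ l₃) :=
    (List.sublist_append_left l₁ l₂).append (List.Sublist.refl l₃)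
  have s23 : (l₂ ++ l₃).Sublist (l₁ ++ l₂ ++ l₃) :=
    (List.sublist_append_right l₁ l₂).append (List.Sublist.refl l₃)
  have s1 : l₁.Sublist (l₁ ++ l₂ ++ l₃) := (List.sublist_append_left l₁ l₂).trans s12
  have s2 : l₂.Sublist (l₁ ++ l₂ ++ l₃) := (List.sublist_append_right l₁ l₂).trans s12
  have s3 : l₃.Sublist (l₁ ++ l₂ ++ l₃) := List.sublist_append_right _ _
  have e123 : ((l₁ ++ l₂ ++ l₃).length : ℤ) = 3 * d := by
    rw [List.length_append, List.length_append, h₁, h₂, h₃]; push_cast; ring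
  have e12 : ((l₁ ++ l₂).length : ℤ) = 2 * d := by
    rw [List.length_append, h₁, h₂]; push_cast; ring
  have e13 : ((l₁ ++ l₃).length : ℤ) = 2 * d := by
    rw [List.length_append, h₁, h₃]; push_cast; ring
  have e23 : ((l₂ ++ l₃).length : ℤ) = 2 * d := by
    rw [List.length_append, h₂, h₃]; push_cast; ring
  have e1 : (l₁.length : ℤ) = d := by rw [h₁]
  have e2 : (l₂.length : ℤ) = d := by rw [h₂]
  have e3 : (l₃.length : ℤ) = d := by rw [h₃]
  have hd0 : (0 : ℤ) ≤ d := Int.natCast_nonneg d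
  have g123 := hGood _ (List.Sublist.refl _) (3 * d + c) (by omega) (by omega)
  have g12 := hGood _ s12 (2 * d + c) (by omega) (by omega)
  have g13 := hGood _ s13 (2 * d + c) (by omega) (by omega)
  have g23 := hGood _ s23 (2 * d + c) (by omega) (by omega)
  have g1 := hGood _ s1 (d + c) (by omega) (by omega)
  have g2 := hGood _ s2 (d + c) (by omega) (by omega)
  have g3 := hGood _ s3 (d + c) (by omega) (by omega)
  obtain ⟨t123, ht123⟩ := g123
  obtain ⟨t12, ht12⟩ := g12
  obtain ⟨t13, ht13⟩ := g13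
  obtain ⟨t23, ht23⟩ := g23
  obtain ⟨t1, ht1⟩ := g1
  obtain ⟨t2, ht2⟩ := g2
  obtain ⟨t3, ht3⟩ := g3
  set x123 : (Fin (l₁ ++ l₂ ++ l₃).length → Fin (G.N (3 * d + c))) → F :=
    fun s => ((G.evL (3 * d + c) (l₁ ++ l₂ ++ l₃)).submatrix id s).det with hx123
  set x12 : (Fin (l₁ ++ l₂).length → Fin (G.N (2 * d + c))) → F :=
    fun s => ((G.evL (2 * d + c) (l₁ ++ l₂)).submatrix id s).det with hx12
  set x13 : (Fin (l₁ ++ l₃).length → Fin (G.N (2 * d + c))) → F :=
    fun s => ((G.evL (2 * d + c) (l₁ ++ l₃)).submatrix id s).det with hx13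
  set x23 : (Fin (l₂ ++ l₃).length → Fin (G.N (2 * d + c))) → F :=
    fun s => ((G.evL (2 * d + c) (l₂ ++ l₃)).submatrix id s).det with hx23
  set x1 : (Fin l₁.length → Fin (G.N (d + c))) → F :=
    fun s => ((G.evL (d + c) l₁).submatrix id s).det with hx1
  set x2 : (Fin l₂.length → Fin (G.N (d + c))) → F :=
    fun s => ((G.evL (d + c) l₂).submatrix id s).det with hx2
  set x3 : (Fin l₃.length → Fin (G.N (d + c))) → F :=
    fun s => ((G.evL (d + c) l₃).submatrix id s).det with hx3
  have n123 : x123 ≠ 0 := Function.ne_iff.mpr ⟨t123, ht123⟩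
  have n12 : x12 ≠ 0 := Function.ne_iff.mpr ⟨t12, ht12⟩
  have n13 : x13 ≠ 0 := Function.ne_iff.mpr ⟨t13, ht13⟩
  have n23 : x23 ≠ 0 := Function.ne_iff.mpr ⟨t23, ht23⟩
  have n1 : x1 ≠ 0 := Function.ne_iff.mpr ⟨t1, ht1⟩
  have n2 : x2 ≠ 0 := Function.ne_iff.mpr ⟨t2, ht2⟩
  have n3 : x3 ≠ 0 := Function.ne_iff.mpr ⟨t3, ht3⟩
  have main := abs_logHeight_sub_le_of_local (tmul (tmul (tmul x123 x1) x2) x3)
    (tmul (tmul x12 x13) x23)
    (tmul_ne_zero (tmul_ne_zero (tmul_ne_zero n123 n1) n2) n3)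
    (tmul_ne_zero (tmul_ne_zero n12 n13) n23) C N p hC hN ?_
  · rw [logHeight_tmul (tmul_ne_zero (tmul_ne_zero n123 n1) n2) n3,
      logHeight_tmul (tmul_ne_zero n123 n1) n2, logHeight_tmul n123 n1,
      logHeight_tmul (tmul_ne_zero n12 n13) n23, logHeight_tmul n12 n13] at main
    have e : G.htL (3 * d + c) (l₁ ++ l₂ ++ l₃) - G.htL (2 * d + c) (l₁ ++ l₂) -
        G.htL (2 * d + c) (l₁ ++ l₃) - G.htL (2 * d + c) (l₂ ++ l₃) +
        G.htL (d + c) l₁ + G.htL (d + c) l₂ + G.htL (d + c) l₃ =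
        logHeight x123 + logHeight x1 + logHeight x2 + logHeight x3 -
          (logHeight x12 + logHeight x13 + logHeight x23) := by
      simp only [GrMul.htL]
      ring
    rw [e]
    exact main
  · intro v hv
    have hl := hloc F v (locConst v C N) (hctl F v).1 (hctl F v).2 l₁ l₂ l₃ h₁ h₂ h₃ hMul hGood
    have hΛ : 0 < locConst v C N := locConst_pos v hC hN
    rw [iSup_abv_tmul, iSup_abv_tmul, iSup_abv_tmul, iSup_abv_tmul, iSup_abv_tmul]
    have p123 : 0 < maxMinor v (G.evL (3 * d + c) (l₁ ++ l₂ ++ l₃)) :=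
      G.pos_of_goodL hGood v (List.Sublist.refl _) (by omega) (by omega)
    have p12 : 0 < maxMinor v (G.evL (2 * d + c) (l₁ ++ l₂)) :=
      G.pos_of_goodL hGood v s12 (by omega) (by omega)
    have p13 : 0 < maxMinor v (G.evL (2 * d + c) (l₁ ++ l₃)) :=
      G.pos_of_goodL hGood v s13 (by omega) (by omega)
    have p23 : 0 < maxMinor v (G.evL (2 * d + c) (l₂ ++ l₃)) :=
      G.pos_of_goodL hGood v s23 (by omega) (by omega)
    have p1 : 0 < maxMinor v (G.evL (d + c) l₁) :=
      G.pos_of_goodL hGood v s1 (by omega) (by omega)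
    have p2 : 0 < maxMinor v (G.evL (d + c) l₂) :=
      G.pos_of_goodL hGood v s2 (by omega) (by omega)
    have p3 : 0 < maxMinor v (G.evL (d + c) l₃) :=
      G.pos_of_goodL hGood v s3 (by omega) (by omega)
    simp only [GrMul.logMM] at hl
    rw [abs_le] at hl
    change maxMinor v (G.evL (3 * d + c) (l₁ ++ l₂ ++ l₃)) * maxMinor v (G.evL (d + c) l₁) *
        maxMinor v (G.evL (d + c) l₂) * maxMinor v (G.evL (d + c) l₃) ≤
        locConst v C N ^ p * (maxMinor v (G.evL (2 * d + c) (l₁ ++ l₂)) *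
          maxMinor v (G.evL (2 * d + c) (l₁ ++ l₃)) * maxMinor v (G.evL (2 * d + c) (l₂ ++ l₃))) ∧
      maxMinor v (G.evL (2 * d + c) (l₁ ++ l₂)) *
          maxMinor v (G.evL (2 * d + c) (l₁ ++ l₃)) * maxMinor v (G.evL (2 * d + c) (l₂ ++ l₃)) ≤
        locConst v C N ^ p * (maxMinor v (G.evL (3 * d + c) (l₁ ++ l₂ ++ l₃)) *
          maxMinor v (G.evL (d + c) l₁) * maxMinor v (G.evL (d + c) l₂) *
          maxMinor v (G.evL (d + c) l₃))
    constructor
    · apply le_pow_mul_of_log_le (mul_pos (mul_pos (mul_pos p123 p1) p2) p3)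
        (mul_pos (mul_pos p12 p13) p23) hΛ
      rw [log_mul₄ p123 p1 p2 p3, log_mul₃ p12 p13 p23]
      linarith [hl.2]
    · apply le_pow_mul_of_log_le (mul_pos (mul_pos p12 p13) p23)
        (mul_pos (mul_pos (mul_pos p123 p1) p2) p3) hΛ
      rw [log_mul₄ p123 p1 p2 p3, log_mul₃ p12 p13 p23]
      linarith [hl.1]

end Fermat.Agent.S17.helper2139
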