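import Fermat.Agent.S27.helper4996_Riemann
import Fermat.Agent.S27.helper4586_EvKit
import Fermat.Agent.Lib.helper927_AbsHeight

/-!
# S17-CURVEHT (helper2209): quasi-equivalence of heights on a curve

`F` is a function field in one variable over an algebraically closed field `K` of
characteristic zero (Prelude vocabulary: `Place`, `ord`, `Divisor`, `riemannRochSpace`; S27 Spec:
`ev`).  For a non-constant `u : F` with pole divisor `D∞` and functions `c k` whose poles are
bounded by `Pol`:

  if `b * deg Pol + c0 ≤ a * deg D∞` then `b * h([1 : c(Q)]) ≤ a * h(u(Q)) + O(1)`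

for all places `Q` at which `u` is regular and `Pol Q = 0` (`curve_absLogHeight_le`; absolute
heights of `helper927_AbsHeight`, `K` algebraic over `ℚ`).

## Contents

* Absolute heights: `absLogHeight_powers_le`, `absLogHeight_le_of_table` (height bound from a
  multiplication table: Segre + two applications of the linear-map bound).
* Function fields (from the S27 Riemann theorem `helper4996.stmt_Riemann` only):
  `exists_riemann_const` (dimension formula `ℓ(D) = deg D + 1 - g` for `deg D ≥ c`),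
  `exists_mem_rr_ord_eq` (base point freeness for `deg D ≥ c + 1`),
  `degree_dinf` (`deg (u)_∞ = [F : K(u)]`), `rr_succ_eq`
  (`L((m+1) D∞) = u L(m D∞) + L((n+1) D∞)`), `exists_poly_rep`, `exists_table`
  (multiplication table of `L(A (u)_∞)` over `K[u]` with degree bounds: finite generation of
  `⨁ L(A (u)_∞)` over `K[u]`, i.e. integrality with weights, without monic equations).
* Assembly: `curve_table_of_const` (the multiplication table at points, purely algebraic) and
  `curve_absLogHeight_le`.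
-/

set_option autoImplicit false

namespace Fermat.Agent.S17.helper2209

open AlgebraicCurve IntermediateField Polynomial
open Fermat.Agent.S27.helper6247 (ev IsNonspecial)

section AbsHeights

open Fermat.Agent.Lib.helper927

variable {Ω : Type*} [Field Ω] [CharZero Ω] [Algebra.IsAlgebraic ℚ Ω]

/-- The absolute height of the vector of powers `(1, y, …, y^A)` is at most `A h(y)`. -/
theorem absLogHeight_powers_le (y : Ω) (A : ℕ) :
    absLogHeight (fun k : Fin (A + 1) => y ^ (k : ℕ)) ≤ A * affLogHeight y := by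
  induction A with
  | zero =>
    have h1 : (fun k : Fin (0 + 1) => y ^ (k : ℕ)) = 1 := by
      funext k
      have hk : k = 0 := Fin.ext (by have := k.2; omega)
      rw [hk]
      simp
    rw [h1, absLogHeight_one]
    simp
  | succ A ih =>
    have h1 : (fun k : Fin (A + 1) => y ^ (k : ℕ)) ≠ 0 := by
      intro h
      have := congrFun h 0
      simp at this
    have h2 : (![1, y] : Fin 2 → Ω) ≠ 0 := by
      intro h
      have := congrFun h 0
      simp at this
    have hS := absLogHeight_fun_mul_eq h1 h2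
    let f : Fin (A + 1 + 1) → Fin (A + 1) × Fin 2 := fun k =>
      if h : (k : ℕ) < A + 1 then (⟨k, h⟩, 0) else (Fin.last A, 1)
    have hf : (fun k : Fin (A + 1 + 1) => y ^ (k : ℕ)) =
        (fun a : Fin (A + 1) × Fin 2 => y ^ (a.1 : ℕ) * (![1, y] : Fin 2 → Ω) a.2) ∘ f := by
      funext k
      simp only [Function.comp_apply, f]
      split_ifs with h
      · simp
      · have hk : (k : ℕ) = A + 1 := by have := k.2; omega
        simp [hk, pow_succ]
    rw [hf]
    refine (absLogHeight_comp_le f _).trans ?_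
    rw [hS]
    have h3 : absLogHeight (![1, y] : Fin 2 → Ω) = affLogHeight y := by
      rw [affLogHeight_def, ← absLogHeight_comp_equiv (Equiv.swap (0 : Fin 2) 1) ![y, 1]]
      congr 1
      funext i
      fin_cases i <;> simp
    rw [h3]
    push_cast
    linarith

/-- **Height bound from a multiplication table** (absolute heights).  If a nonzero vector `W`
satisfies `x e * W i = ∑ l, (∑ k ≤ A, B e i l k * y^k) * W l`, then
`h(x) ≤ A h(y) + log (s (A+1)) + h(B)`. -/
theorem absLogHeight_le_of_table {ιe : Type*} [Finite ιe] {s A : ℕ}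
    (B : ((ιe × Fin s) × Fin s) × Fin (A + 1) → Ω)
    (y : Ω) (x : ιe → Ω) (W : Fin s → Ω) (hW : W ≠ 0)
    (h : ∀ e i, x e * W i = ∑ l, (∑ k : Fin (A + 1), B (((e, i), l), k) * y ^ (k : ℕ)) * W l) :
    absLogHeight x ≤ A * affLogHeight y + Real.log (s * (A + 1)) + absLogHeight B := by
  have hs : 0 < s := by
    rcases Nat.eq_zero_or_pos s with hs | hs
    · subst hs
      exact absurd (Subsingleton.elim W 0) hW
    · exact hs
  have hs' : (0 : ℝ) < s := by exact_mod_cast hs
  have hA' : (0 : ℝ) < (A : ℝ) + 1 := by positivity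
  have h5 : Real.log ((s : ℝ) * (A + 1)) = Real.log s + Real.log (A + 1) :=
    Real.log_mul hs'.ne' hA'.ne'
  rcases eq_or_ne x 0 with rfl | hx
  · rw [absLogHeight_zero]
    have h1 := absLogHeight_nonneg B
    have h2 := affLogHeight_nonneg y
    have h3 : 0 ≤ Real.log ((s : ℝ) * (A + 1)) := by
      apply Real.log_nonneg
      have : (1 : ℝ) ≤ s := by exact_mod_cast hs
      have : (0 : ℝ) ≤ A := Nat.cast_nonneg A
      nlinarith
    positivity
  set M : (ιe × Fin s) × Fin s → Ω := fun p => ∑ k : Fin (A + 1), B (p, k) * y ^ (k : ℕ) with hM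
  have hSeg : (fun a : ιe × Fin s => x a.1 * W a.2) = fun j => ∑ i, M (j, i) * W i := by
    funext a
    exact h a.1 a.2
  have h1 := absLogHeight_fun_mul_eq hx hW
  have h2 := absLogHeight_linearMap_apply_le M W
  rw [← hSeg, h1] at h2
  have h3 : absLogHeight M ≤ Real.log (Nat.card (Fin (A + 1))) + absLogHeight B +
      absLogHeight (fun k : Fin (A + 1) => y ^ (k : ℕ)) :=
    absLogHeight_linearMap_apply_le B (fun k : Fin (A + 1) => y ^ (k : ℕ))
  have h4 := absLogHeight_powers_le y A
  have h6 : (Nat.card (Fin s) : ℝ) = s := by simp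
  have h7 : (Nat.card (Fin (A + 1)) : ℝ) = (A : ℝ) + 1 := by simp
  rw [h6] at h2
  rw [h7] at h3
  rw [h5]
  linarith

end AbsHeights

section FF

universe u v

variable {K : Type u} {F : Type v} [Field K] [Field F] [Algebra K F]

/-! ### Generalities on `L(D)` (no hypothesis on the field) -/

theorem rr_mul_mem {D E : Divisor K F} {f g : F} (hf : f ∈ riemannRochSpace D)
    (hg : g ∈ riemannRochSpace E) : f * g ∈ riemannRochSpace (D + E) := by
  rw [mem_riemannRochSpace_iff] at hf hg ⊢
  intro v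
  rcases eq_or_ne f 0 with rfl | hf0
  · left; simp
  rcases eq_or_ne g 0 with rfl | hg0
  · left; simp
  right
  have h1 := (hf v).resolve_left hf0
  have h2 := (hg v).resolve_left hg0
  rw [v.ord_mul hf0 hg0, Finsupp.add_apply]
  omega

theorem rr_pow_mem {D : Divisor K F} {f : F} (hf : f ∈ riemannRochSpace D) (n : ℕ) :
    f ^ n ∈ riemannRochSpace (n • D) := by
  induction n with
  | zero =>
    rw [pow_zero, zero_smul, mem_riemannRochSpace_iff]
    intro v
    right
    simp
  | succ n ih =>
    rw [pow_succ, succ_nsmul]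
    exact rr_mul_mem ih hf

theorem rr_one_mem {D : Divisor K F} (hD : 0 ≤ D) : (1 : F) ∈ riemannRochSpace D := by
  rw [mem_riemannRochSpace_iff]
  intro v
  right
  have := Finsupp.le_def.mp hD v
  simp only [Finsupp.coe_zero, Pi.zero_apply] at this
  rw [Place.ord_one]
  omega

theorem ord_nonneg_of_mem_rr {D : Divisor K F} {f : F} (hf : f ∈ riemannRochSpace D)
    {v : Place K F} (hv : D v ≤ 0) : 0 ≤ v.ord f := by
  rw [mem_riemannRochSpace_iff] at hf
  rcases hf v with rfl | h
  · simp
  · omega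

theorem ord_mul_nonneg (v : Place K F) {f g : F} (hf : 0 ≤ v.ord f) (hg : 0 ≤ v.ord g) :
    0 ≤ v.ord (f * g) := by
  rcases eq_or_ne f 0 with rfl | hf0
  · simp
  rcases eq_or_ne g 0 with rfl | hg0
  · simp
  rw [v.ord_mul hf0 hg0]
  omega

/-! ### Consequences of Riemann's theorem -/

section Riemann

variable [IsAlgClosed K] [CharZero K]

/-- Riemann's theorem as a dimension formula: `ℓ(D) = deg D + 1 - g` for `deg D ≥ c`. -/
theorem exists_riemann_const (x : F) (hx : Transcendental K x) [FiniteDimensional K⟮x⟯ F] :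
    ∃ c : ℤ, ∀ D : Divisor K F, c ≤ Divisor.degree D →
      (Module.finrank K (riemannRochSpace D) : ℤ) = Divisor.degree D + 1 - genusFF K F := by
  obtain ⟨-, hRR, c, hc⟩ := Fermat.Agent.S27.helper4996.stmt_Riemann K F x hx
  refine ⟨c, fun D hD => ?_⟩
  have h1 := hRR D
  have h2 : Module.finrank K (H1 D) = 0 := by
    have h3 : repartitionsOf D ⊔ principalRepartitions K F = ⊤ := hc D hD
    have : Subsingleton (H1 D) := Submodule.Quotient.subsingleton_iff.mpr h3
    exact Module.finrank_zero_of_subsingleton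
  rw [h2] at h1
  simpa using h1

theorem finite_rr (x : F) (hx : Transcendental K x) [FiniteDimensional K⟮x⟯ F]
    (D : Divisor K F) : Module.Finite K (riemannRochSpace D) :=
  ((Fermat.Agent.S27.helper4996.stmt_Riemann K F x hx).1 D).2

theorem degree_sub_single (x : F) (hx : Transcendental K x) [FiniteDimensional K⟮x⟯ F]
    (D : Divisor K F) (Q : Place K F) :
    Divisor.degree (D - Finsupp.single Q 1) = Divisor.degree D - 1 := by
  rw [map_sub, Divisor.degree_single, Fermat.Agent.S24.helper204.place_deg_eq_one x hx Q]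
  simp

/-- **Base point freeness** above the Riemann bound: if `deg D ≥ c + 1`, then for every place
`Q` some `ψ ∈ L(D)` has exact order `-D(Q)` at `Q`. -/
theorem exists_mem_rr_ord_eq (x : F) (hx : Transcendental K x) [FiniteDimensional K⟮x⟯ F]
    {c : ℤ} (hc : ∀ D : Divisor K F, c ≤ Divisor.degree D →
      (Module.finrank K (riemannRochSpace D) : ℤ) = Divisor.degree D + 1 - genusFF K F)
    (D : Divisor K F) (hD : c + 1 ≤ Divisor.degree D) (Q : Place K F) :
    ∃ ψ ∈ riemannRochSpace D, ψ ≠ 0 ∧ Q.ord ψ = -D Q := by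
  classical
  set D' : Divisor K F := D - Finsupp.single Q 1 with hD'
  have hdeg : Divisor.degree D' = Divisor.degree D - 1 := degree_sub_single x hx D Q
  have hle : D' ≤ D := by
    rw [Finsupp.le_def]
    intro v
    rw [hD', Finsupp.sub_apply]
    have : 0 ≤ (Finsupp.single Q (1 : ℤ)) v := by
      rw [Finsupp.single_apply]
      split_ifs <;> simp
    omega
  have hmono : riemannRochSpace D' ≤ riemannRochSpace D :=
    Fermat.Agent.S27.helper3372.riemannRochSpace_mono hle
  have h1 := hc D (by omega)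
  have h2 := hc D' (by omega)
  have := finite_rr x hx D
  have hne : riemannRochSpace D' ≠ riemannRochSpace D := by
    intro h
    rw [h] at h2
    omega
  obtain ⟨ψ, hψ, hψ'⟩ := SetLike.exists_of_lt (lt_of_le_of_ne hmono hne)
  have hψ0 : ψ ≠ 0 := fun h => hψ' (h ▸ Submodule.zero_mem _)
  refine ⟨ψ, hψ, hψ0, ?_⟩
  rw [mem_riemannRochSpace_iff] at hψ hψ'
  push Not at hψ'
  obtain ⟨v, -, hv⟩ := hψ'
  have hvD := (hψ v).resolve_left hψ0
  have hvQ : v = Q := by
    by_contra hne'
    rw [hD', Finsupp.sub_apply, Finsupp.single_apply, if_neg (Ne.symm hne')] at hv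
    omega
  subst hvQ
  rw [hD', Finsupp.sub_apply, Finsupp.single_apply, if_pos rfl] at hv
  omega

end Riemann

/-! ### The pole divisor of a function and the spaces `L(m (u)_∞)` -/

section Pole

variable [IsAlgClosed K] [CharZero K]

theorem degree_eq_sum (x : F) (hx : Transcendental K x) [FiniteDimensional K⟮x⟯ F]
    (D : Divisor K F) : Divisor.degree D = D.sum fun _ n => n := by
  simp [Divisor.degree, Finsupp.liftAddHom_apply,
    Fermat.Agent.S24.helper204.place_deg_eq_one x hx]

variable {u : F} {Dinf : Divisor K F}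

omit [IsAlgClosed K] [CharZero K] in
theorem dinf_nonneg (hDinf : ∀ v, Dinf v = max 0 (-(v.ord u))) : 0 ≤ Dinf := by
  rw [Finsupp.le_def]
  intro v
  rw [hDinf v]
  simp

omit [IsAlgClosed K] [CharZero K] in
theorem u_mem_rr (hDinf : ∀ v, Dinf v = max 0 (-(v.ord u))) : u ∈ riemannRochSpace Dinf := by
  rw [mem_riemannRochSpace_iff]
  intro v
  right
  rw [hDinf v]
  have := le_max_right 0 (-(v.ord u))
  omega

omit [IsAlgClosed K] [CharZero K] in
theorem u_mul_mem (hDinf : ∀ v, Dinf v = max 0 (-(v.ord u))) {m : ℕ} {f : F}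
    (hf : f ∈ riemannRochSpace (m • Dinf)) : u * f ∈ riemannRochSpace ((m + 1) • Dinf) := by
  have := rr_mul_mem (u_mem_rr hDinf) hf
  rwa [← succ_nsmul'] at this

omit [IsAlgClosed K] [CharZero K] in
theorem mem_of_u_mul_mem (hu0 : u ≠ 0) (hDinf : ∀ v, Dinf v = max 0 (-(v.ord u))) {m n : ℕ}
    {f : F} (hf : f ∈ riemannRochSpace (m • Dinf))
    (huf : u * f ∈ riemannRochSpace ((n + 1) • Dinf)) : f ∈ riemannRochSpace (n • Dinf) := by
  rw [mem_riemannRochSpace_iff] at hf huf ⊢
  intro v
  rcases eq_or_ne f 0 with rfl | hf0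
  · left; rfl
  right
  have h1 := (hf v).resolve_left hf0
  have h2 := (huf v).resolve_left (mul_ne_zero hu0 hf0)
  rw [v.ord_mul hu0 hf0] at h2
  simp only [Finsupp.smul_apply, nsmul_eq_mul, hDinf v] at h1 h2 ⊢
  rcases le_or_gt 0 (v.ord u) with h | h
  · rw [max_eq_left (by omega)] at h1 h2 ⊢
    simp only [mul_zero, neg_zero] at h1 h2 ⊢
    exact h1
  · rw [max_eq_right (by omega)] at h1 h2 ⊢
    push_cast at h2
    nlinarith

end Pole

section Pole2

variable [IsAlgClosed K] [CharZero K]
variable {u : F} {Dinf : Divisor K F}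

/-- The pole divisor of a non-constant function has degree `[F : K(u)]`. -/
theorem degree_dinf (x : F) (hx : Transcendental K x) [FiniteDimensional K⟮x⟯ F]
    (hu : Transcendental K u) (hDinf : ∀ v, Dinf v = max 0 (-(v.ord u))) :
    Divisor.degree Dinf = Module.finrank K⟮u⟯ F := by
  have : FiniteDimensional K⟮u⟯ F :=
    Fermat.Agent.S24.helper204.finiteDimensional_adjoin_of_transcendental (x := x) hu
  obtain ⟨s, hs1, hs2⟩ := Fermat.Agent.S24.helper204.exists_finset_poles u hu
  rw [degree_eq_sum x hx, ← hs2, Finsupp.sum]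
  have hsupp : Dinf.support = s := by
    ext v
    rw [Finsupp.mem_support_iff, hs1 v, hDinf v]
    constructor
    · intro h
      by_contra h'
      exact h (max_eq_left (by omega))
    · intro h h'
      have := le_max_right 0 (-(v.ord u))
      omega
  rw [hsupp]
  refine Finset.sum_congr rfl fun v hv => ?_
  rw [hDinf v]
  exact max_eq_right (by have := (hs1 v).mp hv; omega)

theorem degree_dinf_pos (x : F) (hx : Transcendental K x) [FiniteDimensional K⟮x⟯ F]
    (hu : Transcendental K u) (hDinf : ∀ v, Dinf v = max 0 (-(v.ord u))) :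
    0 < Divisor.degree Dinf := by
  have : FiniteDimensional K⟮u⟯ F :=
    Fermat.Agent.S24.helper204.finiteDimensional_adjoin_of_transcendental (x := x) hu
  rw [degree_dinf x hx hu hDinf]
  exact_mod_cast Module.finrank_pos

/-- **Generation step.**  With `c` a Riemann constant and `c ≤ n d`, `n ≤ m`:
`L((m+1) D∞) = u L(m D∞) + L((n+1) D∞)`. -/
theorem rr_succ_eq (x : F) (hx : Transcendental K x) [FiniteDimensional K⟮x⟯ F]
    (hu : Transcendental K u) (hDinf : ∀ v, Dinf v = max 0 (-(v.ord u)))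
    {c : ℤ} (hc : ∀ D : Divisor K F, c ≤ Divisor.degree D →
      (Module.finrank K (riemannRochSpace D) : ℤ) = Divisor.degree D + 1 - genusFF K F)
    {n m : ℕ} (hn : c ≤ n * Divisor.degree Dinf) (hnm : n ≤ m) :
    riemannRochSpace ((m + 1) • Dinf) =
      (riemannRochSpace (m • Dinf)).map (LinearMap.mulLeft K u) ⊔
        riemannRochSpace ((n + 1) • Dinf) := by
  have hu0 : u ≠ 0 := fun h => hu (h ▸ isAlgebraic_zero)
  have hd := degree_dinf_pos x hx hu hDinf
  have h0 := dinf_nonneg hDinf
  set d := Divisor.degree Dinf with hd_def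
  have hdeg : ∀ k : ℕ, Divisor.degree (k • Dinf) = k * d := fun k => by
    rw [map_nsmul, nsmul_eq_mul]
  have hdim : ∀ k : ℕ, n ≤ k →
      (Module.finrank K (riemannRochSpace (k • Dinf)) : ℤ) = k * d + 1 - genusFF K F := by
    intro k hk
    rw [← hdeg k]
    apply hc
    rw [hdeg k]
    have : (n : ℤ) * d ≤ k * d := mul_le_mul_of_nonneg_right (by exact_mod_cast hk) hd.le
    omega
  have hfin : ∀ k : ℕ, Module.Finite K (riemannRochSpace (k • Dinf)) :=
    fun k => finite_rr x hx _
  set U := (riemannRochSpace (m • Dinf)).map (LinearMap.mulLeft K u) with hU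
  set T := riemannRochSpace ((n + 1) • Dinf) with hT
  have hinj : Function.Injective (LinearMap.mulLeft K u) := by
    intro a b hab
    simpa [hu0] using hab
  have hU_le : U ≤ riemannRochSpace ((m + 1) • Dinf) := by
    rintro _ ⟨f, hf, rfl⟩
    exact u_mul_mem hDinf hf
  have hT_le : T ≤ riemannRochSpace ((m + 1) • Dinf) :=
    Fermat.Agent.S27.helper3372.riemannRochSpace_mono
      (nsmul_le_nsmul_left h0 (by omega))
  have hinf : U ⊓ T = (riemannRochSpace (n • Dinf)).map (LinearMap.mulLeft K u) := by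
    ext g
    constructor
    · rintro ⟨⟨f, hf, rfl⟩, hg⟩
      exact ⟨f, mem_of_u_mul_mem hu0 hDinf hf hg, rfl⟩
    · rintro ⟨f, hf, rfl⟩
      refine ⟨⟨f, ?_, rfl⟩, u_mul_mem hDinf hf⟩
      exact Fermat.Agent.S27.helper3372.riemannRochSpace_mono
        (nsmul_le_nsmul_left h0 hnm) hf
  have hmapdim : ∀ S : Submodule K F,
      Module.finrank K (S.map (LinearMap.mulLeft K u)) = Module.finrank K S :=
    fun S => (Submodule.equivMapOfInjective _ hinj S).finrank_eq.symm
  have hsum := Submodule.finrank_sup_add_finrank_inf_eq U T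
  rw [hinf, hmapdim, hU, hmapdim] at hsum
  have e1 := hdim (m + 1) (by omega)
  have e2 := hdim m hnm
  have e3 := hdim (n + 1) (by omega)
  have e4 := hdim n le_rfl
  symm
  apply Submodule.eq_of_le_of_finrank_eq (sup_le hU_le hT_le)
  have : (Module.finrank K ↥(U ⊔ T) : ℤ) =
      Module.finrank K (riemannRochSpace ((m + 1) • Dinf)) := by
    have hsum' : (Module.finrank K ↥(U ⊔ T) : ℤ) + Module.finrank K (riemannRochSpace (n • Dinf))
        = Module.finrank K (riemannRochSpace (m • Dinf)) + Module.finrank K T := by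
      rw [hU]
      exact_mod_cast hsum
    rw [hT] at hsum'
    push_cast at e1 e3
    linarith
  exact_mod_cast this

end Pole2

section Table

variable [IsAlgClosed K] [CharZero K]
variable {u : F} {Dinf : Divisor K F}

/-- `L((n+1+A) D∞) = ∑_{k ≤ A} u^k L((n+1) D∞)`, in coordinates. -/
theorem exists_poly_rep (x : F) (hx : Transcendental K x) [FiniteDimensional K⟮x⟯ F]
    (hu : Transcendental K u) (hDinf : ∀ v, Dinf v = max 0 (-(v.ord u)))
    {c : ℤ} (hc : ∀ D : Divisor K F, c ≤ Divisor.degree D →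
      (Module.finrank K (riemannRochSpace D) : ℤ) = Divisor.degree D + 1 - genusFF K F)
    {n : ℕ} (hn : c ≤ n * Divisor.degree Dinf) {s : ℕ} (w : Fin s → F)
    (hw : ∀ f ∈ riemannRochSpace ((n + 1) • Dinf), ∃ a : Fin s → K, f = ∑ l, a l • w l) :
    ∀ (A : ℕ) (f : F), f ∈ riemannRochSpace ((n + 1 + A) • Dinf) →
      ∃ p : Fin s → K[X], (∀ l, (p l).natDegree ≤ A) ∧ f = ∑ l, aeval u (p l) * w l := by
  intro A
  induction A with
  | zero =>
    intro f hf
    obtain ⟨a, ha⟩ := hw f hf
    refine ⟨fun l => C (a l), fun l => by simp, ?_⟩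
    rw [ha]
    refine Finset.sum_congr rfl fun l _ => ?_
    rw [aeval_C, Algebra.smul_def]
  | succ A ih =>
    intro f hf
    rw [show n + 1 + (A + 1) = (n + 1 + A) + 1 by ring,
      rr_succ_eq x hx hu hDinf hc hn (show n ≤ n + 1 + A by omega)] at hf
    obtain ⟨y, hy, z, hz, rfl⟩ := Submodule.mem_sup.mp hf
    obtain ⟨f', hf', rfl⟩ := hy
    obtain ⟨p', hp', hf'eq⟩ := ih f' hf'
    obtain ⟨a, ha⟩ := hw z hz
    refine ⟨fun l => X * p' l + C (a l), fun l => ?_, ?_⟩
    · refine (natDegree_add_le _ _).trans (max_le ?_ (by simp))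
      refine (natDegree_mul_le).trans ?_
      rw [natDegree_X]
      have := hp' l
      omega
    · rw [LinearMap.mulLeft_apply, ha, hf'eq, Finset.mul_sum, ← Finset.sum_add_distrib]
      refine Finset.sum_congr rfl fun l _ => ?_
      rw [map_add, map_mul, aeval_X, aeval_C, Algebra.smul_def]
      ring

/-- **The multiplication table of `L(A (u)_∞)`.**  There are finitely many functions `w l`,
regular wherever `u` is, with `∑ a l • w l = 1`, such that multiplication by any
`f ∈ L(A (u)_∞)` is given on the `w l` by a matrix of polynomials in `u` of degree `≤ A`. -/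
theorem exists_table (x : F) (hx : Transcendental K x) [FiniteDimensional K⟮x⟯ F]
    (hu : Transcendental K u) (hDinf : ∀ v, Dinf v = max 0 (-(v.ord u))) :
    ∃ (s : ℕ) (w : Fin s → F) (a : Fin s → K),
      (∀ l (v : Place K F), 0 ≤ v.ord u → 0 ≤ v.ord (w l)) ∧ ∑ l, a l • w l = 1 ∧
      ∀ (A : ℕ) (f : F), f ∈ riemannRochSpace (A • Dinf) →
        ∃ q : Fin s → Fin s → K[X], (∀ i l, (q i l).natDegree ≤ A) ∧
          ∀ i, f * w i = ∑ l, aeval u (q i l) * w l := by
  obtain ⟨c, hc⟩ := exists_riemann_const (K := K) (F := F) x hx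
  have hd := degree_dinf_pos x hx hu hDinf
  have h0 := dinf_nonneg hDinf
  set n : ℕ := c.toNat with hn_def
  have hn : c ≤ n * Divisor.degree Dinf := by
    have h1 : c ≤ (n : ℤ) := Int.self_le_toNat c
    have h2 : (n : ℤ) * 1 ≤ n * Divisor.degree Dinf :=
      mul_le_mul_of_nonneg_left (by omega) (by positivity)
    omega
  have : Module.Finite K (riemannRochSpace ((n + 1) • Dinf)) := finite_rr x hx _
  set b := Module.finBasis K (riemannRochSpace ((n + 1) • Dinf)) with hb
  set s := Module.finrank K (riemannRochSpace ((n + 1) • Dinf)) with hs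
  set w : Fin s → F := fun l => (b l : F) with hw_def
  have hw : ∀ f ∈ riemannRochSpace ((n + 1) • Dinf), ∃ a : Fin s → K, f = ∑ l, a l • w l := by
    intro f hf
    refine ⟨fun l => b.repr ⟨f, hf⟩ l, ?_⟩
    have := congrArg Subtype.val (b.sum_repr ⟨f, hf⟩)
    rw [Submodule.coe_sum] at this
    simpa [hw_def] using this.symm
  have hwmem : ∀ l, w l ∈ riemannRochSpace ((n + 1) • Dinf) := fun l => (b l).2
  obtain ⟨a, ha⟩ := hw 1 (rr_one_mem (nsmul_nonneg h0 _))
  refine ⟨s, w, a, fun l v hv => ?_, ha.symm, fun A f hf => ?_⟩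
  · apply ord_nonneg_of_mem_rr (hwmem l)
    rw [Finsupp.smul_apply, hDinf v, max_eq_left (by omega)]
    simp
  · have hrep := exists_poly_rep x hx hu hDinf hc hn w hw A
    have hmem : ∀ i, f * w i ∈ riemannRochSpace ((n + 1 + A) • Dinf) := by
      intro i
      have := rr_mul_mem (hwmem i) hf
      rwa [← add_nsmul, mul_comm] at this
    choose q hq1 hq2 using fun i => hrep (f * w i) (hmem i)
    exact ⟨q, hq1, hq2⟩

end Table

/-! ### Assembly: the multiplication table at points, and the height inequality -/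

section Assembly

variable [IsAlgClosed K] [CharZero K]

open Fermat.Agent.S27.helper4586 in
/-- **The multiplication table at points** (purely algebraic).  Let `D∞` be the pole divisor
of the non-constant `u`, let the poles of the `c k` be bounded by `Pol`, and
`b deg Pol + c0 + 1 ≤ a deg D∞` (`c0` a Riemann constant).  Then there are `s`, `t` and a fixed
coefficient tuple `Bc` such that at every place `Q` with `u` regular and `Pol Q = 0` there are
nonzero vectors `W ∈ K^s`, `ψ ∈ K^t` with
`(1, c(Q))_j^b ψ_i W_m = ∑_l (∑_{k ≤ a} Bc_{j,i,m,l,k} u(Q)^k) W_l`. -/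
theorem curve_table_of_const (x : F) (hx : Transcendental K x) [FiniteDimensional K⟮x⟯ F]
    {c0 : ℤ} (hc : ∀ D : Divisor K F, c0 ≤ Divisor.degree D →
      (Module.finrank K (riemannRochSpace D) : ℤ) = Divisor.degree D + 1 - genusFF K F)
    {u : F} (hu : Transcendental K u) {Dinf : Divisor K F}
    (hDinf : ∀ v, Dinf v = max 0 (-(v.ord u)))
    {r : ℕ} (c : Fin r → F) (Pol : Divisor K F) (hPol0 : 0 ≤ Pol)
    (hPol : ∀ k v, -Pol v ≤ v.ord (c k)) (a b : ℕ)
    (hab : (b : ℤ) * Divisor.degree Pol + c0 + 1 ≤ a * Divisor.degree Dinf) :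
    ∃ (s t : ℕ) (Bc : (((Fin (r + 1) × Fin t) × Fin s) × Fin s) × Fin (a + 1) → K),
      ∀ Q : Place K F, 0 ≤ Q.ord u → Pol Q = 0 →
        ∃ (W : Fin s → K) (ψv : Fin t → K), W ≠ 0 ∧ ψv ≠ 0 ∧
          ∀ (e : Fin (r + 1) × Fin t) (i : Fin s),
            ((Fin.cons 1 (fun k => ev Q (c k)) : Fin (r + 1) → K) e.1 ^ b * ψv e.2) * W i =
              ∑ l, (∑ k : Fin (a + 1), Bc (((e, i), l), k) * ev Q u ^ (k : ℕ)) * W l := by
  classical
  obtain ⟨s, w, α, hwreg, hone, htab⟩ := exists_table x hx hu hDinf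
  have h0 := dinf_nonneg hDinf
  -- the divisor `D = a D∞ - b Pol`
  set D : Divisor K F := a • Dinf - b • Pol with hD_def
  have hDdeg : c0 + 1 ≤ Divisor.degree D := by
    rw [hD_def, map_sub, map_nsmul, map_nsmul, nsmul_eq_mul, nsmul_eq_mul]
    omega
  have : Module.Finite K (riemannRochSpace D) := finite_rr x hx D
  set bas := Module.finBasis K (riemannRochSpace D) with hbas
  set t := Module.finrank K (riemannRochSpace D) with ht
  set ψ : Fin t → F := fun i => (bas i : F) with hψ_def
  have hψmem : ∀ i, ψ i ∈ riemannRochSpace D := fun i => (bas i).2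
  have hψspan : ∀ f ∈ riemannRochSpace D, ∃ lam : Fin t → K, f = ∑ i, lam i • ψ i := by
    intro f hf
    refine ⟨fun i => bas.repr ⟨f, hf⟩ i, ?_⟩
    have := congrArg Subtype.val (bas.sum_repr ⟨f, hf⟩)
    rw [Submodule.coe_sum] at this
    simpa [hψ_def] using this.symm
  -- the functions `g = (1, c)` and `fe = g^b ψ`
  set g : Fin (r + 1) → F := Fin.cons 1 c with hg_def
  have hg : ∀ k v, -Pol v ≤ v.ord (g k) := by
    intro k v
    refine Fin.cases ?_ (fun j => ?_) k
    · have := Finsupp.le_def.mp hPol0 v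
      simp only [Finsupp.coe_zero, Pi.zero_apply] at this
      simp only [hg_def, Fin.cons_zero, Place.ord_one]
      omega
    · simpa [hg_def] using hPol j v
  have hgmem : ∀ k, g k ∈ riemannRochSpace Pol := by
    intro k
    rw [mem_riemannRochSpace_iff]
    exact fun v => Or.inr (hg k v)
  set fe : Fin (r + 1) × Fin t → F := fun e => g e.1 ^ b * ψ e.2 with hfe_def
  have hfe : ∀ e, fe e ∈ riemannRochSpace (a • Dinf) := by
    intro e
    have := rr_mul_mem (rr_pow_mem (hgmem e.1) b) (hψmem e.2)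
    rwa [hD_def, add_sub_cancel] at this
  choose q hq1 hq2 using fun e => htab a (fe e) (hfe e)
  refine ⟨s, t, fun p => (q p.1.1.1 p.1.1.2 p.1.2).coeff (p.2 : ℕ), fun Q hQu hQP => ?_⟩
  have HQ : HasValues Q := hasValues_of_finite x Q
  have hDinfQ : Dinf Q = 0 := by rw [hDinf Q, max_eq_left (by omega)]
  have hDQ : D Q = 0 := by
    rw [hD_def, Finsupp.sub_apply, Finsupp.smul_apply, Finsupp.smul_apply, hDinfQ, hQP]
    simp
  have hwQ : ∀ l, 0 ≤ Q.ord (w l) := fun l => hwreg l Q hQu
  have hψQ : ∀ i, 0 ≤ Q.ord (ψ i) := fun i => ord_nonneg_of_mem_rr (hψmem i) hDQ.le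
  have hgQ : ∀ k, 0 ≤ Q.ord (g k) := fun k => by
    have := hg k Q
    omega
  have hgbQ : ∀ k, 0 ≤ Q.ord (g k ^ b) := fun k => by
    rw [Fermat.Agent.S27.helper4996.ord_pow]
    exact mul_nonneg (by positivity) (hgQ k)
  have hfeQ : ∀ e, 0 ≤ Q.ord (fe e) := fun e => ord_mul_nonneg Q (hgbQ e.1) (hψQ e.2)
  have hξ1 : ∀ k, (Fin.cons 1 (fun k => ev Q (c k)) : Fin (r + 1) → K) k = ev Q (g k) := by
    intro k
    refine Fin.cases ?_ (fun j => ?_) k
    · simp [hg_def, ev_one]
    · simp [hg_def]
  refine ⟨fun l => ev Q (w l), fun i => ev Q (ψ i), ?_, ?_, fun e i => ?_⟩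
  · -- `W ≠ 0`
    intro h
    have h1 : ev Q (∑ l, α l • w l) = ∑ l, α l * ev Q (w l) := by
      rw [ev_sum HQ _ (fun l _ => ?_)]
      · exact Finset.sum_congr rfl fun l _ => ev_smul HQ (α l) (hwQ l)
      · rw [Algebra.smul_def]
        exact ord_mul_nonneg Q
          (by rw [Fermat.Agent.S24.helper204.ord_algebraMap_eq_zero]) (hwQ l)
    rw [hone, ev_one] at h1
    have h2 : ∀ l, ev Q (w l) = 0 := fun l => congrFun h l
    simp [h2] at h1
  · -- `ψ(Q) ≠ 0`: base point freeness
    intro h
    obtain ⟨ψ₀, hψ₀mem, hψ₀ne, hψ₀ord⟩ := exists_mem_rr_ord_eq x hx hc D hDdeg Q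
    rw [hDQ, neg_zero] at hψ₀ord
    have h1 : ev Q ψ₀ ≠ 0 := (ev_ne_zero_iff HQ hψ₀ord.ge).mpr ⟨hψ₀ne, hψ₀ord⟩
    obtain ⟨lam, hlam⟩ := hψspan ψ₀ hψ₀mem
    apply h1
    rw [hlam, ev_sum HQ _ (fun i _ => ?_)]
    · refine Finset.sum_eq_zero fun i _ => ?_
      rw [ev_smul HQ (lam i) (hψQ i), show ev Q (ψ i) = 0 from congrFun h i]
      simp
    · rw [Algebra.smul_def]
      exact ord_mul_nonneg Q
        (by rw [Fermat.Agent.S24.helper204.ord_algebraMap_eq_zero]) (hψQ i)
  · -- the table relation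
    simp only
    rw [hξ1 e.1, ← ev_pow HQ (hgQ e.1), ← ev_mul HQ (hgbQ e.1) (hψQ e.2),
      ← ev_mul HQ (hfeQ e) (hwQ i), hq2 e i,
      ev_sum HQ _ (fun l _ => ord_mul_nonneg Q (ord_aeval_nonneg Q hQu _) (hwQ l))]
    refine Finset.sum_congr rfl fun l _ => ?_
    rw [ev_mul HQ (ord_aeval_nonneg Q hQu _) (hwQ l), ev_aeval HQ hQu,
      Polynomial.eval_eq_sum_range' (Nat.lt_succ_of_le (hq1 e i l)), Finset.sum_range]

open Fermat.Agent.Lib.helper927 in
/-- **Quasi-equivalence of heights on a curve** (absolute logarithmic heights of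
`helper927_AbsHeight`).  There is a constant `c0` (Riemann constant `+ 1`) such that: if `D∞` is
the pole divisor of the non-constant `u`, the poles of the `c k` are bounded by `Pol ≥ 0` and
`b deg Pol + c0 ≤ a deg D∞`, then

  `b * h([1 : c_0(Q) : … : c_{r-1}(Q)]) ≤ a * h(u(Q)) + C`

for all places `Q` at which `u` is regular and `Pol Q = 0`. -/
theorem curve_absLogHeight_le [Algebra.IsAlgebraic ℚ K] (x : F) (hx : Transcendental K x)
    [FiniteDimensional K⟮x⟯ F] :
    ∃ c0 : ℤ, ∀ (u : F), Transcendental K u → ∀ (Dinf : Divisor K F),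
      (∀ v, Dinf v = max 0 (-(v.ord u))) →
      ∀ (r : ℕ) (c : Fin r → F) (Pol : Divisor K F), 0 ≤ Pol →
      (∀ k v, -Pol v ≤ v.ord (c k)) →
      ∀ a b : ℕ, (b : ℤ) * Divisor.degree Pol + c0 ≤ a * Divisor.degree Dinf →
      ∃ C : ℝ, ∀ Q : Place K F, 0 ≤ Q.ord u → Pol Q = 0 →
        b * absLogHeight (Fin.cons 1 (fun k => ev Q (c k)) : Fin (r + 1) → K) ≤
          a * affLogHeight (ev Q u) + C := by
  obtain ⟨c1, hc1⟩ := exists_riemann_const (K := K) (F := F) x hx
  refine ⟨c1 + 1, fun u hu Dinf hDinf r c Pol hPol0 hPol a b hab => ?_⟩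
  obtain ⟨s, t, Bc, hBc⟩ := curve_table_of_const x hx hc1 hu hDinf c Pol hPol0 hPol a b
    (by omega)
  refine ⟨Real.log (s * (a + 1)) + absLogHeight Bc, fun Q hQu hQP => ?_⟩
  obtain ⟨W, ψv, hW, hψv, hrel⟩ := hBc Q hQu hQP
  set ξ : Fin (r + 1) → K := (Fin.cons 1 (fun k => ev Q (c k)) : Fin (r + 1) → K) ^ b with hξ
  have hξ0 : ξ ≠ 0 := by
    intro h
    have := congrFun h 0
    simp [hξ] at this
  have h1 := absLogHeight_fun_mul_eq hξ0 hψv
  have h2 : absLogHeight ξ =
      b * absLogHeight (Fin.cons 1 (fun k => ev Q (c k)) : Fin (r + 1) → K) :=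
    absLogHeight_pow _ b
  have h3 := absLogHeight_nonneg ψv
  have h4 := absLogHeight_le_of_table Bc (ev Q u) (fun e : Fin (r + 1) × Fin t => ξ e.1 * ψv e.2)
    W hW (fun e i => by simpa [hξ] using hrel e i)
  linarith

end Assembly

end FF

end Fermat.Agent.S17.helper2209
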