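import Mathlib
import Fermat.Agent.S24.helper1370_PlaceBasics
import Fermat.Agent.S24.helper204_Places
import Fermat.Agent.S27.helper4586_Ev
import Fermat.Agent.S17.helper3197_PlueckerSpec
import Fermat.Agent.S17.helper1935_RatDesc

/-!
# S17, L7 track (A): the chart family `u_l = 1 / (1 + l t)` (helper2264)

Far end of the carrier instance of the chart proof of the cube law (piece (P1) of the final
wiring plan of track (A)).

* generic part (`K`, `F` fields, `P0` a place, `t : F` with a pole of exact order `n₀ > 0` at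
  `P0` and no other pole): the chart functions `chartFn t l = 1 + l * t` and the chart
  coordinates `chartCo t l = (chartFn t l)⁻¹` — orders at all places, transcendence, values;
* `exists_rat_pole`: on the Spec carriers, a RATIONAL function `t : F₀` with a pole of exact
  order `n₀ > 0` at the rational place `P0` and no other pole (from `RiemannSpec` and
  `RatDescSpec`);
* `chart_package`: for such `t` and `l ≠ 0`, everything the wiring needs about the chart
  coordinate `u = (1 + l * ratEmb t)⁻¹`.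
-/

set_option autoImplicit false

namespace Fermat.Agent.S17.helper2264

open AlgebraicCurve
open Fermat.Agent.S27.helper6247 (ev)
open Fermat.Agent.S27.helper4586 (HasValues)

section Generic

variable {K F : Type*} [Field K] [Field F] [Algebra K F]

/-- The chart function `f_l = 1 + l * t`. -/
def chartFn (t : F) (l : ℕ) : F := 1 + (l : F) * t

/-- The chart coordinate `u_l = 1 / f_l`. -/
def chartCo (t : F) (l : ℕ) : F := (chartFn t l)⁻¹

theorem chartFn_def (t : F) (l : ℕ) : chartFn t l = 1 + (l : F) * t := rfl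

theorem chartCo_def (t : F) (l : ℕ) : chartCo t l = (chartFn t l)⁻¹ := rfl

theorem natCast_eq_algebraMap (l : ℕ) : ((l : ℕ) : F) = algebraMap K F (l : K) := by
  simp

theorem ord_natCast_mul (v : Place K F) {l : ℕ} (hl : (l : F) ≠ 0) {t : F} (ht : t ≠ 0) :
    v.ord ((l : F) * t) = v.ord t := by
  rw [v.ord_mul hl ht, Fermat.Agent.S24.helper1370.ord_natCast, zero_add]

/-- At a pole of `t` the chart function has the same order as `t`. -/
theorem ord_chartFn_of_neg (v : Place K F) {t : F} {l : ℕ} (hl : (l : F) ≠ 0)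
    (ht : v.ord t < 0) : v.ord (chartFn t l) = v.ord t := by
  have ht0 : t ≠ 0 := by
    rintro rfl
    simp at ht
  have h1 : v.ord ((l : F) * t) = v.ord t := ord_natCast_mul v hl ht0
  unfold chartFn
  rw [Fermat.Agent.S24.helper1370.ord_add_eq_of_lt' v (mul_ne_zero hl ht0)
    (by rw [h1, Place.ord_one]; exact ht), h1]

/-- The chart function is nonzero as soon as `t` has a pole. -/
theorem chartFn_ne_zero (v : Place K F) {t : F} {l : ℕ} (hl : (l : F) ≠ 0)
    (ht : v.ord t < 0) : chartFn t l ≠ 0 := by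
  intro h0
  have h := ord_chartFn_of_neg v hl ht
  rw [h0, Place.ord_zero] at h
  omega

/-- Where `t` is regular, the chart function is regular. -/
theorem ord_chartFn_nonneg (v : Place K F) {t : F} (l : ℕ) (ht : 0 ≤ v.ord t) :
    0 ≤ v.ord (chartFn t l) := by
  rcases eq_or_ne (chartFn t l) 0 with h0 | h0
  · rw [h0, Place.ord_zero]
  rcases eq_or_ne ((l : F) * t) 0 with h1 | h1
  · unfold chartFn
    rw [h1, add_zero, Place.ord_one]
  have hl : (l : F) ≠ 0 := left_ne_zero_of_mul h1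
  have ht0 : t ≠ 0 := right_ne_zero_of_mul h1
  have h2 := Fermat.Agent.S24.helper1370.ord_add_ge v (f := 1) (g := (l : F) * t) h0
  rw [Place.ord_one, ord_natCast_mul v hl ht0] at h2
  exact le_trans (le_min le_rfl ht) h2

theorem chartCo_ne_zero (v : Place K F) {t : F} {l : ℕ} (hl : (l : F) ≠ 0)
    (ht : v.ord t < 0) : chartCo t l ≠ 0 :=
  inv_ne_zero (chartFn_ne_zero v hl ht)

/-- At a pole of `t` of order `n₀` the chart coordinate has a zero of order `n₀`. -/
theorem ord_chartCo_of_neg (v : Place K F) {t : F} {l : ℕ} (hl : (l : F) ≠ 0)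
    (ht : v.ord t < 0) : v.ord (chartCo t l) = -v.ord t := by
  unfold chartCo
  rw [Place.ord_inv, ord_chartFn_of_neg v hl ht]

/-- Where `t` is regular the chart coordinate has no zero. -/
theorem ord_chartCo_le (v : Place K F) {t : F} (l : ℕ) (ht : 0 ≤ v.ord t) :
    v.ord (chartCo t l) ≤ 0 := by
  unfold chartCo
  rw [Place.ord_inv]
  have := ord_chartFn_nonneg v l ht
  omega

/-- The chart coordinate is transcendental over the constants. -/
theorem transcendental_chartCo (v : Place K F) {t : F} {l : ℕ} (hl : (l : F) ≠ 0)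
    (ht : v.ord t < 0) : Transcendental K (chartCo t l) := by
  refine Fermat.Agent.S24.helper1370.transcendental_of_ord_ne_zero v ?_
  rw [ord_chartCo_of_neg v hl ht]
  omega

/-- **Package**: `t` with a pole of exact order `n₀ > 0` at `P0` and no other pole; then
`u = chartCo t l` (`l ≠ 0`) is nonzero, transcendental, has a zero of exact order `n₀` at `P0`
and no other zero.  (The hypotheses `hu0 hord hoff` of `helper1585.mul_pow_mem_chartRing` and of
`helper1585.exists_chart_span_congr`.) -/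
theorem chartCo_package (P0 : Place K F) {t : F} {n₀ : ℤ} (hn₀ : 0 < n₀)
    (hord : P0.ord t = -n₀) (hoff : ∀ Q : Place K F, Q ≠ P0 → 0 ≤ Q.ord t) {l : ℕ}
    (hl : (l : F) ≠ 0) :
    chartCo t l ≠ 0 ∧ Transcendental K (chartCo t l) ∧ P0.ord (chartCo t l) = n₀ ∧
      ∀ Q : Place K F, Q ≠ P0 → Q.ord (chartCo t l) ≤ 0 := by
  have ht : P0.ord t < 0 := by rw [hord]; omega
  refine ⟨chartCo_ne_zero P0 hl ht, transcendental_chartCo P0 hl ht, ?_, fun Q hQ =>
    ord_chartCo_le Q l (hoff Q hQ)⟩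
  rw [ord_chartCo_of_neg P0 hl ht, hord, neg_neg]

/-! ### Values -/

/-- The value of the chart function at a place where `t` is regular. -/
theorem ev_chartFn {Q : Place K F} (hQ : HasValues Q) {t : F} (l : ℕ) (ht : 0 ≤ Q.ord t) :
    ev Q (chartFn t l) = 1 + (l : K) * ev Q t := by
  unfold chartFn
  have h1 : 0 ≤ Q.ord ((l : F) * t) := by
    rcases eq_or_ne ((l : F) * t) 0 with h0 | h0
    · rw [h0, Place.ord_zero]
    · rw [ord_natCast_mul Q (left_ne_zero_of_mul h0) (right_ne_zero_of_mul h0)]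
      exact ht
  rw [Fermat.Agent.S27.helper4586.ev_add hQ (by rw [Place.ord_one]) h1,
    Fermat.Agent.S27.helper4586.ev_one, natCast_eq_algebraMap (K := K) l,
    Fermat.Agent.S27.helper4586.ev_const_mul hQ (l : K) ht]

/-- The chart `l` contains the point `Q` (i.e. `u_l` is regular at `Q`) iff `f_l (Q) ≠ 0`. -/
theorem chartCo_mem_iff {Q : Place K F} (hQ : HasValues Q) {t : F} (l : ℕ)
    (ht : 0 ≤ Q.ord t) (hf0 : chartFn t l ≠ 0) :
    chartCo t l ∈ Q.toValuationSubring ↔ ev Q (chartFn t l) ≠ 0 := by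
  have hf := ord_chartFn_nonneg Q l ht
  rw [← Fermat.Agent.S27.helper4586.ord_nonneg_iff_mem,
    Fermat.Agent.S27.helper4586.ev_ne_zero_iff hQ hf]
  unfold chartCo
  rw [Place.ord_inv]
  constructor
  · intro h
    exact ⟨hf0, by omega⟩
  · rintro ⟨-, h0⟩
    rw [h0]
    simp

/-- The value of the chart coordinate at a point of the chart. -/
theorem ev_chartCo {Q : Place K F} (hQ : HasValues Q) {t : F} (l : ℕ) (ht : 0 ≤ Q.ord t)
    (h : ev Q (chartFn t l) ≠ 0) : ev Q (chartCo t l) = (ev Q (chartFn t l))⁻¹ := by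
  have hf := ord_chartFn_nonneg Q l ht
  have h0 := ((Fermat.Agent.S27.helper4586.ev_ne_zero_iff hQ hf).mp h).2
  unfold chartCo
  exact Fermat.Agent.S27.helper4586.ev_inv hQ h0

/-- The value of the chart coordinate in terms of the value of `t`. -/
theorem ev_chartCo_eq {Q : Place K F} (hQ : HasValues Q) {t : F} (l : ℕ) (ht : 0 ≤ Q.ord t)
    (h : 1 + (l : K) * ev Q t ≠ 0) : ev Q (chartCo t l) = (1 + (l : K) * ev Q t)⁻¹ := by
  rw [← ev_chartFn hQ l ht] at h ⊢
  exact ev_chartCo hQ l ht h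

/-- The order of the chart coordinate at a point of the chart other than the pole of `t`. -/
theorem ord_chartCo_eq_zero {Q : Place K F} (hQ : HasValues Q) {t : F} (l : ℕ)
    (ht : 0 ≤ Q.ord t) (h : ev Q (chartFn t l) ≠ 0) : Q.ord (chartCo t l) = 0 := by
  have hf := ord_chartFn_nonneg Q l ht
  have h0 := ((Fermat.Agent.S27.helper4586.ev_ne_zero_iff hQ hf).mp h).2
  unfold chartCo
  rw [Place.ord_inv, h0, neg_zero]

end Generic


/-! ## The Spec carriers -/

section Spec

open ModularCurve IntermediateField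
open Fermat.Agent.S17.helper3197
open Fermat.Agent.S27.helper6247 (pt)

theorem level_apply_self {K F : Type*} [Field K] [Field F] [Algebra K F] (P0 : Place K F)
    (m : ℤ) : (m • pt P0) P0 = m := by
  rw [Finsupp.smul_apply, pt, Finsupp.single_eq_same]
  simp

theorem level_apply_of_ne {K F : Type*} [Field K] [Field F] [Algebra K F] {P0 v : Place K F}
    (h : v ≠ P0) (m : ℤ) : (m • pt P0) v = 0 := by
  rw [Finsupp.smul_apply, pt, Finsupp.single_eq_of_ne h]
  simp

/-- An element of `L(m P0)` is regular away from `P0`. -/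
theorem ord_nonneg_of_mem_level {K F : Type*} [Field K] [Field F] [Algebra K F]
    {P0 v : Place K F} (h : v ≠ P0) {m : ℤ} {e : F} (he : e ∈ riemannRochSpace (m • pt P0)) :
    0 ≤ v.ord e := by
  rcases (mem_riemannRochSpace_iff.mp he) v with h0 | h1
  · rw [h0, Place.ord_zero]
  · rwa [level_apply_of_ne h, neg_zero] at h1

variable {F₀ : IntermediateField ℚ (LaurentSeries ℚ)} {P0 : Place Qb (FB F₀)}

/-- A rational function of level `n₀` is regular away from `P0`. -/
theorem ord_ratEmb_nonneg_of_mem_Alev {v : Place Qb (FB F₀)} (h : v ≠ P0) {m : ℤ} {t : F₀}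
    (ht : t ∈ Alev F₀ P0 m) : 0 ≤ v.ord (ratEmb F₀ t) :=
  ord_nonneg_of_mem_level h ((mem_ratRR F₀).mp ht)

/-- **(CF1)** A rational function with a pole of exact order `n₀ > 0` at `P0` and no other
pole. -/
theorem exists_rat_pole (F₀ : IntermediateField ℚ (LaurentSeries ℚ)) (P0 : Place Qb (FB F₀))
    (x : FB F₀) (hx : Transcendental Qb x) [FiniteDimensional Qb⟮x⟯ (FB F₀)]
    (hP0 : IsRatPlace F₀ P0) (hR : RiemannSpec F₀) (hQ : RatDescSpec F₀) :
    ∃ (n₀ : ℕ) (t : F₀), 0 < n₀ ∧ t ∈ Alev F₀ P0 n₀ ∧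
      P0.ord (ratEmb F₀ t) = -(n₀ : ℤ) := by
  obtain ⟨-, c₁, hc₁⟩ := hR
  have hdeg : ∀ v : Place Qb (FB F₀), v.deg = 1 :=
    Fermat.Agent.S24.helper204.place_deg_eq_one x hx
  set n : ℕ := c₁.toNat with hn
  have hnc : c₁ ≤ (n : ℤ) := Int.self_le_toNat c₁
  have hdegE : ∀ m : ℤ, Divisor.degree (m • pt P0) = m := fun m => by
    rw [map_zsmul, pt, Divisor.degree_single, hdeg]
    simp
  have h1 := hc₁ ((n : ℤ) • pt P0) (by rw [hdegE]; exact hnc)
  have h2 := hc₁ (((n + 1 : ℕ) : ℤ) • pt P0) (by rw [hdegE]; push_cast; omega)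
  rw [hdegE] at h1 h2
  have hr1 := Fermat.Agent.S17.helper1935.finrank_Alev hQ hP0 (n : ℤ)
  have hr2 := Fermat.Agent.S17.helper1935.finrank_Alev hQ hP0 ((n + 1 : ℕ) : ℤ)
  have hlt : Module.finrank ℚ ↥(Alev F₀ P0 (n : ℤ))
      < Module.finrank ℚ ↥(Alev F₀ P0 ((n + 1 : ℕ) : ℤ)) := by
    rw [hr1, hr2]
    omega
  have hex : ∃ t ∈ Alev F₀ P0 ((n + 1 : ℕ) : ℤ), t ∉ Alev F₀ P0 (n : ℤ) := by
    by_contra hcon
    push Not at hcon
    have hle : Alev F₀ P0 ((n + 1 : ℕ) : ℤ) ≤ Alev F₀ P0 (n : ℤ) := hcon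
    have : Module.Finite ℚ ↥(Alev F₀ P0 (n : ℤ)) :=
      (hQ _ (Fermat.Agent.S17.helper1935.isRat_level hP0 _)).1
    have := Submodule.finrank_mono hle
    omega
  obtain ⟨t, ht1, ht2⟩ := hex
  refine ⟨n + 1, t, Nat.succ_pos n, ht1, ?_⟩
  have hm1 := mem_riemannRochSpace_iff.mp ((mem_ratRR F₀).mp ht1)
  have hm2 : ¬ ∀ v : Place Qb (FB F₀), ratEmb F₀ t = 0 ∨
      -(((n : ℤ) • pt P0) v) ≤ v.ord (ratEmb F₀ t) := fun h =>
    ht2 ((mem_ratRR F₀).mpr (mem_riemannRochSpace_iff.mpr h))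
  push Not at hm2
  obtain ⟨v, hv0, hv⟩ := hm2
  have hvP : v = P0 := by
    by_contra hne
    rcases hm1 v with h0 | h0
    · exact hv0 h0
    · rw [level_apply_of_ne hne] at h0 hv
      omega
  subst hvP
  rcases hm1 v with h0 | h0
  · exact absurd h0 hv0
  · rw [level_apply_self] at h0 hv
    omega

/-- **(CF2)** The chart coordinate `u = (1 + l * ratEmb t)⁻¹`, `l ≠ 0`, for a rational `t` with
a pole of exact order `n₀ > 0` at `P0` and no other pole: `u` is nonzero, transcendental, `F` is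
finite over `ℚ̄(u)`, `u` has a zero of exact order `n₀` at `P0` and no other zero; and at every
place `P ≠ P0` with `1 + l * t(P) ≠ 0`: `u` is regular, `u(P) = (1 + l * t(P))⁻¹`, and
`(e * u ^ k)(P) = e(P) * u(P) ^ k` for every `e ∈ L(m P0)`. -/
theorem chart_package (F₀ : IntermediateField ℚ (LaurentSeries ℚ)) (P0 : Place Qb (FB F₀))
    (x : FB F₀) [FiniteDimensional Qb⟮x⟯ (FB F₀)]
    {n₀ : ℕ} {t : F₀} (hn₀ : 0 < n₀) (ht : t ∈ Alev F₀ P0 n₀)
    (hord : P0.ord (ratEmb F₀ t) = -(n₀ : ℤ)) {l : ℕ} (hl : l ≠ 0) :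
    (1 + (l : FB F₀) * ratEmb F₀ t)⁻¹ ≠ 0 ∧
    Transcendental Qb ((1 + (l : FB F₀) * ratEmb F₀ t)⁻¹) ∧
    FiniteDimensional Qb⟮(1 + (l : FB F₀) * ratEmb F₀ t)⁻¹⟯ (FB F₀) ∧
    P0.ord ((1 + (l : FB F₀) * ratEmb F₀ t)⁻¹) = n₀ ∧
    (∀ Q : Place Qb (FB F₀), Q ≠ P0 → Q.ord ((1 + (l : FB F₀) * ratEmb F₀ t)⁻¹) ≤ 0) ∧
    ∀ P : Place Qb (FB F₀), P ≠ P0 → 1 + (l : Qb) * ev P (ratEmb F₀ t) ≠ 0 →
      ((1 + (l : FB F₀) * ratEmb F₀ t)⁻¹ ∈ P.toValuationSubring ∧
        ev P ((1 + (l : FB F₀) * ratEmb F₀ t)⁻¹) = (1 + (l : Qb) * ev P (ratEmb F₀ t))⁻¹ ∧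
        ∀ (m : ℤ) (e : FB F₀), e ∈ riemannRochSpace (m • pt P0) → ∀ k : ℕ,
          ev P (e * ((1 + (l : FB F₀) * ratEmb F₀ t)⁻¹) ^ k)
            = ev P e * ((1 + (l : Qb) * ev P (ratEmb F₀ t))⁻¹) ^ k) := by
  have hlF : ((l : ℕ) : FB F₀) ≠ 0 := Nat.cast_ne_zero.mpr hl
  have hn₀' : (0 : ℤ) < (n₀ : ℤ) := by exact_mod_cast hn₀
  have hoff : ∀ Q : Place Qb (FB F₀), Q ≠ P0 → 0 ≤ Q.ord (ratEmb F₀ t) := fun Q hQ =>
    ord_ratEmb_nonneg_of_mem_Alev hQ ht
  obtain ⟨h1, h2, h3, h4⟩ := chartCo_package (K := Qb) P0 hn₀' hord hoff hlF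
  have hV : ∀ P : Place Qb (FB F₀), HasValues P := fun P =>
    Fermat.Agent.S27.helper4586.hasValues_of_finite x P
  refine ⟨h1, h2, Fermat.Agent.S24.helper204.finiteDimensional_adjoin_of_transcendental
    (x := x) h2, h3, h4, ?_⟩
  intro P hP hne
  have htP := hoff P hP
  have hf : ev P (chartFn (ratEmb F₀ t) l) ≠ 0 := by
    rw [ev_chartFn (hV P) l htP]
    exact hne
  have hf0 : chartFn (ratEmb F₀ t) l ≠ 0 := chartFn_ne_zero P0 hlF (by rw [hord]; omega)
  have hmem : chartCo (ratEmb F₀ t) l ∈ P.toValuationSubring :=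
    (chartCo_mem_iff (hV P) l htP hf0).mpr hf
  have hval : ev P (chartCo (ratEmb F₀ t) l) = (1 + (l : Qb) * ev P (ratEmb F₀ t))⁻¹ :=
    ev_chartCo_eq (hV P) l htP hne
  refine ⟨hmem, hval, ?_⟩
  intro m e he k
  have heP : 0 ≤ P.ord e := ord_nonneg_of_mem_level hP he
  have huP : 0 ≤ P.ord (chartCo (ratEmb F₀ t) l) :=
    (Fermat.Agent.S27.helper4586.ord_nonneg_iff_mem P).mpr hmem
  have hpow : 0 ≤ P.ord (chartCo (ratEmb F₀ t) l ^ k) := by
    rw [Fermat.Agent.S24.helper1370.ord_pow]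
    positivity
  show ev P (e * chartCo (ratEmb F₀ t) l ^ k) = _
  rw [Fermat.Agent.S27.helper4586.ev_mul (hV P) heP hpow,
    Fermat.Agent.S27.helper4586.ev_pow (hV P) huP, hval]

end Spec

end Fermat.Agent.S17.helper2264
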