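import Fermat.Agent.S17.helper2273_OnePointSpec
import Fermat.Agent.S17.helper3588_PhiEval
import Fermat.Agent.S17.helper2853_BaseDiv

/-!
# S17, track (B) = G2-ALT, leaf INST (helper2273): the one-point law on the Spec carriers

`onePointSpec : CurveOnePoint Qb (FB F₀) → (∀ μ ν ν' d d', CoordOnePoint Qb μ ν ν' d d') →
  OnePointSpec F₀ P0`
under the standing hypotheses of the Spec (`x`, `hx`, finiteness, `IsRatPlace F₀ P0`,
`RatDescSpec F₀`, `LinDisjSpec F₀`).  No geometry here: the generic curve leaf `CurveOnePoint` is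
applied to the frames `ratEmb ∘ fr.b m` at the levels
`k₁, k₂, k₁ + k₂, k₁ + m₁, (k₁ + m₁) + k₁, k₂ + m₁, (k₂ + m₁) + k₂`, whose structure constants
are rational because `A_m * A_m' ⊆ A_{m + m'}`.
-/

set_option autoImplicit false

open ModularCurve AlgebraicCurve
open Fermat.Agent.S27.helper6247
open Fermat.Agent.S17.helper3197

namespace Fermat.Agent.S17.helper2273

noncomputable section

variable {F₀ : IntermediateField ℚ (LaurentSeries ℚ)} {P0 : Place Qb (FB F₀)}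

/-- The frame of `L(m P0)` over `ℚ̄` given by the `ℚ`-basis `fr.b m` of `A_m`. -/
def frameVec (fr : Frame F₀ P0) (m : ℤ) : Fin (fr.n m) → ↥(FB F₀) :=
  fun i => ratEmb F₀ ((fr.b m i : ↥(Alev F₀ P0 m)) : F₀)

theorem coordSub_eq_coordOf_frameVec (fr : Frame F₀ P0) (m : ℤ) (D : Divisor Qb (FB F₀)) :
    coordSub fr m D = coordOf (frameVec fr m) (riemannRochSpace (m • pt P0 - D)) := rfl

/-- The frame of level `m` is a `ℚ̄`-basis of `L(m P0)` (Galois descent + linear disjointness). -/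
theorem isBasisOf_frameVec (hP0 : IsRatPlace F₀ P0) (hQ : RatDescSpec F₀) (hL : LinDisjSpec F₀)
    (fr : Frame F₀ P0) (m : ℤ) : IsBasisOf (frameVec fr m) (m • pt P0) := by
  refine ⟨?_, Fermat.Agent.S17.helper3588.span_ratEmb_frame hP0 hQ fr m⟩
  have hli : LinearIndependent ℚ (fun i => ((fr.b m i : ↥(Alev F₀ P0 m)) : F₀)) :=
    (fr.b m).linearIndependent.map' (Submodule.subtype _) (Submodule.ker_subtype _)
  exact hL (fr.n m) _ hli

/-- The structure constants of the frames are rational: `A_m * A_m' ⊆ A_{m + m'}`. -/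
theorem exists_structure_constants (fr : Frame F₀ P0) (m m' : ℤ) :
    ∃ μ : Fin (fr.n m) → Fin (fr.n m') → Fin (fr.n (m + m')) → ℚ,
      ∀ i j, frameVec fr m i * frameVec fr m' j
        = ∑ t, (μ i j t : Qb) • frameVec fr (m + m') t := by
  have hmem : ∀ i j, ((fr.b m i : ↥(Alev F₀ P0 m)) : F₀) * ((fr.b m' j : ↥(Alev F₀ P0 m')) : F₀)
      ∈ Alev F₀ P0 (m + m') := by
    intro i j
    show ratEmb F₀ (_ * _) ∈ riemannRochSpace ((m + m') • pt P0)
    rw [map_mul, add_smul]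
    exact Fermat.Agent.S17.helper2853.mul_mem_rr (fr.b m i).2 (fr.b m' j).2
  refine ⟨fun i j t => (fr.b (m + m')).repr ⟨_, hmem i j⟩ t, fun i j => ?_⟩
  have h := Fermat.Agent.S17.helper3588.ratEmb_eq_sum fr (m + m') ⟨_, hmem i j⟩
  simp only [frameVec]
  rw [← map_mul]
  exact h

/-- **Leaf INST.** The one-point law for `PhiAbs` on the Spec carriers, from the generic curve
leaf `CurveOnePoint` and the abstract leaf `CoordOnePoint`. -/
theorem onePointSpec (F₀ : IntermediateField ℚ (LaurentSeries ℚ)) (P0 : Place Qb (FB F₀))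
    (x : FB F₀) (hx : Transcendental Qb x) [FiniteDimensional (IntermediateField.adjoin Qb {x}) (FB F₀)]
    (hP0 : IsRatPlace F₀ P0) (hQ : RatDescSpec F₀) (hL : LinDisjSpec F₀)
    (hcurve : CurveOnePoint Qb (FB F₀))
    (habs : ∀ {n₁ n₂ n₃ n₄ n₅ n₆ n₇ : ℕ} (μ : Fin n₁ → Fin n₂ → Fin n₃ → ℚ)
      (ν : Fin n₄ → Fin n₁ → Fin n₅ → ℚ) (ν' : Fin n₆ → Fin n₂ → Fin n₇ → ℚ) (d d' : ℕ),
      CoordOnePoint Qb μ ν ν' d d') :
    OnePointSpec F₀ P0 := by
  have hdeg : ∀ v : Place Qb (FB F₀), v.deg = 1 :=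
    fun v => Fermat.Agent.S24.helper204.place_deg_eq_one x hx v
  have hdegX : ∀ m : ℤ, Divisor.degree (m • pt P0 : Divisor Qb (FB F₀)) = m :=
    Fermat.Agent.S17.helper3588.degree_smul_pt hdeg P0
  obtain ⟨m₁, hcurve⟩ := hcurve
  refine ⟨m₁, fun fr k₁ k₂ => ?_⟩
  obtain ⟨μ, hμ⟩ := exists_structure_constants fr (k₁ : ℤ) (k₂ : ℤ)
  obtain ⟨ν, hν⟩ := exists_structure_constants fr ((k₁ : ℤ) + m₁) (k₁ : ℤ)
  obtain ⟨ν', hν'⟩ := exists_structure_constants fr ((k₂ : ℤ) + m₁) (k₂ : ℤ)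
  have b₁ := isBasisOf_frameVec hP0 hQ hL fr (k₁ : ℤ)
  have b₂ := isBasisOf_frameVec hP0 hQ hL fr (k₂ : ℤ)
  have b₃ : IsBasisOf (frameVec fr ((k₁ : ℤ) + k₂)) ((k₁ : ℤ) • pt P0 + (k₂ : ℤ) • pt P0) := by
    rw [← add_smul]; exact isBasisOf_frameVec hP0 hQ hL fr _
  have b₄ := isBasisOf_frameVec hP0 hQ hL fr ((k₁ : ℤ) + m₁)
  have b₅ : IsBasisOf (frameVec fr ((k₁ : ℤ) + m₁ + k₁))
      (((k₁ : ℤ) + m₁) • pt P0 + (k₁ : ℤ) • pt P0) := by
    rw [← add_smul]; exact isBasisOf_frameVec hP0 hQ hL fr _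
  have b₆ := isBasisOf_frameVec hP0 hQ hL fr ((k₂ : ℤ) + m₁)
  have b₇ : IsBasisOf (frameVec fr ((k₂ : ℤ) + m₁ + k₂))
      (((k₂ : ℤ) + m₁) • pt P0 + (k₂ : ℤ) • pt P0) := by
    rw [← add_smul]; exact isBasisOf_frameVec hP0 hQ hL fr _
  -- the constant for each pair of degrees
  have H : ∀ d d' : ℕ, ∃ C : ℝ, (d : ℤ) + 1 + m₁ ≤ k₁ → (d' : ℤ) + 1 + m₁ ≤ k₂ →
      ∀ (G G' : Divisor Qb (FB F₀)) (P : Place Qb (FB F₀)), 0 ≤ G → 0 ≤ G' →
        Divisor.degree G = d → Divisor.degree G' = d' →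
        |subHeight (coordOf (frameVec fr ((k₁ : ℤ) + k₂))
              (riemannRochSpace ((k₁ : ℤ) • pt P0 + (k₂ : ℤ) • pt P0 - (G + G' + pt P))))
            + subHeight (coordOf (frameVec fr (k₁ : ℤ))
                (riemannRochSpace ((k₁ : ℤ) • pt P0 - G)))
            + subHeight (coordOf (frameVec fr (k₂ : ℤ))
                (riemannRochSpace ((k₂ : ℤ) • pt P0 - G')))
            - subHeight (coordOf (frameVec fr ((k₁ : ℤ) + k₂))
                (riemannRochSpace ((k₁ : ℤ) • pt P0 + (k₂ : ℤ) • pt P0 - (G + G'))))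
            - subHeight (coordOf (frameVec fr (k₁ : ℤ))
                (riemannRochSpace ((k₁ : ℤ) • pt P0 - (G + pt P))))
            - subHeight (coordOf (frameVec fr (k₂ : ℤ))
                (riemannRochSpace ((k₂ : ℤ) • pt P0 - (G' + pt P))))| ≤ C := by
    intro d d'
    by_cases h : (d : ℤ) + 1 + m₁ ≤ k₁ ∧ (d' : ℤ) + 1 + m₁ ≤ k₂
    · obtain ⟨C, hC⟩ := hcurve ((k₁ : ℤ) • pt P0) ((k₂ : ℤ) • pt P0) (((k₁ : ℤ) + m₁) • pt P0)
        (((k₂ : ℤ) + m₁) • pt P0) (by rw [hdegX, hdegX]) (by rw [hdegX, hdegX])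
        (frameVec fr (k₁ : ℤ)) (frameVec fr (k₂ : ℤ)) (frameVec fr ((k₁ : ℤ) + k₂))
        (frameVec fr ((k₁ : ℤ) + m₁)) (frameVec fr ((k₁ : ℤ) + m₁ + k₁))
        (frameVec fr ((k₂ : ℤ) + m₁)) (frameVec fr ((k₂ : ℤ) + m₁ + k₂)) μ ν ν'
        b₁ b₂ b₃ b₄ b₅ b₆ b₇ hμ hν hν' d d' (by rw [hdegX]; exact h.1) (by rw [hdegX]; exact h.2)
        (habs μ ν ν' d d')
      exact ⟨C, fun _ _ => hC⟩
    · exact ⟨0, fun h1 h2 => absurd ⟨h1, h2⟩ h⟩
  choose Cf hCf using H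
  refine ⟨∑ d ∈ Finset.range (k₁ + 1), ∑ d' ∈ Finset.range (k₂ + 1), |Cf d d'|, ?_⟩
  intro G G' P hG hG' h₁ h₂
  obtain ⟨d, hd⟩ := Int.eq_ofNat_of_zero_le (Fermat.Agent.S17.helper2853.degree_nonneg_of_nonneg hG)
  obtain ⟨d', hd'⟩ :=
    Int.eq_ofNat_of_zero_le (Fermat.Agent.S17.helper2853.degree_nonneg_of_nonneg hG')
  have key := hCf d d' (by rw [← hd]; exact h₁) (by rw [← hd']; exact h₂) G G' P hG hG' hd hd'
  have e : ∀ D : Divisor Qb (FB F₀), PhiAbs fr ((k₁ : ℤ) + k₂) D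
      = subHeight (coordOf (frameVec fr ((k₁ : ℤ) + k₂))
          (riemannRochSpace ((k₁ : ℤ) • pt P0 + (k₂ : ℤ) • pt P0 - D))) := by
    intro D
    rw [← add_smul]
    rfl
  rw [e, e]
  refine le_trans key (le_trans (le_abs_self _) ?_)
  have hd₁ : d ∈ Finset.range (k₁ + 1) := Finset.mem_range.mpr (by omega)
  have hd₂ : d' ∈ Finset.range (k₂ + 1) := Finset.mem_range.mpr (by omega)
  have s2 : |Cf d d'| ≤ ∑ d' ∈ Finset.range (k₂ + 1), |Cf d d'| :=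
    Finset.single_le_sum (f := fun d' => |Cf d d'|) (fun _ _ => abs_nonneg _) hd₂
  have s1 : (∑ d' ∈ Finset.range (k₂ + 1), |Cf d d'|)
      ≤ ∑ d ∈ Finset.range (k₁ + 1), ∑ d' ∈ Finset.range (k₂ + 1), |Cf d d'| :=
    Finset.single_le_sum (f := fun d => ∑ d' ∈ Finset.range (k₂ + 1), |Cf d d'|)
      (fun _ _ => Finset.sum_nonneg fun _ _ => abs_nonneg _) hd₁
  exact s2.trans s1

end

end Fermat.Agent.S17.helper2273
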