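import Mathlib

/-!
# S17 endgame: abstract descent glue (helper2516)

Mathlib-only, specification independent.  This is the formal half of the height argument of
route #2615 (a)+(b) for Mordell-Weil on `J₀(N)`:

* `J` is the big group (`J₀(N)(ℚ̄)`), `G` the subgroup of rational points;
* `H : J → ℝ` is the naive height of the reduced divisor, `j : Pt → J` the Abel-Jacobi map
  `P ↦ [P - ∞]` on geometric points and `ht : Pt → ℝ` the height of the coordinate of a point;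
* (U) soft upper bound `H (∑ yᵢ) ≤ A₁ * ∑ H yᵢ + c₁` for at most `g + 2` summands;
* decomposition of `x ∈ G` as `∑_{i<e} j (Pᵢ)`, `e ≤ g`, with `∑ ht (Pᵢ) ≤ H x`;
* one-point division bound (✶): `m • y = j P → H y ≤ κ * ht P + c_m`;
* `J[m]` finite, the points `j P` are `m`-divisible in `J`;
* Northcott for `H` on `G`, weak Mordell-Weil `G / m G` finite;
* the numerical condition `A₁ ^ 2 * κ < 1`.

Then `G` is finitely generated (`Mathlib`'s `AddCommGroup.fg_of_descent` with `a = A₁`,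
`b = 1 / (A₁ κ)`).
-/

set_option autoImplicit false

namespace Fermat.Agent.S17.helper2516

open scoped BigOperators

variable {J : Type*} [AddCommGroup J] {Pt : Type*}

/-- **Division bound.**  From the soft upper bound (U), divisibility of the points `j P`,
finiteness of the `m`-torsion and the one-point division bound (✶), every `y` with
`m • y = ∑_{i<e} j (Pᵢ)`, `e ≤ g`, satisfies `H y ≤ A₁ κ ∑ ht (Pᵢ) + C`, with `C` independent
of `y`. -/
theorem exists_division_bound (j : Pt → J) (ht : Pt → ℝ) (H : J → ℝ) (g m : ℕ)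
    (A1 c1 κ cm : ℝ) (hA : 0 ≤ A1)
    (hU : ∀ (k : ℕ) (y : Fin k → J), k ≤ g + 2 → H (∑ i, y i) ≤ A1 * ∑ i, H (y i) + c1)
    (htors : {t : J | m • t = 0}.Finite)
    (hdiv : ∀ P : Pt, ∃ y : J, m • y = j P)
    (hstar : ∀ (P : Pt) (y : J), m • y = j P → H y ≤ κ * ht P + cm) :
    ∃ C : ℝ, ∀ (y : J) (e : ℕ) (P : Fin e → Pt), e ≤ g → m • y = ∑ i, j (P i) →
      H y ≤ A1 * κ * (∑ i, ht (P i)) + C := by
  obtain ⟨B, hB⟩ := (htors.image H).bddAbove
  have hB' : ∀ t : J, m • t = 0 → H t ≤ B := fun t ht0 => hB ⟨t, ht0, rfl⟩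
  refine ⟨A1 * ((g : ℝ) * max cm 0 + B) + c1, ?_⟩
  intro y e P he hy
  choose yi hyi using fun i : Fin e => hdiv (P i)
  set τ : J := y - ∑ i, yi i with hτ
  have hτ0 : m • τ = 0 := by
    rw [hτ, smul_sub, Finset.smul_sum, hy]
    simp [hyi]
  have hsum : y = ∑ i : Fin (e + 1), (Fin.cons τ yi : Fin (e + 1) → J) i := by
    rw [Fin.sum_univ_succ]
    simp [hτ]
  have h1 := hU (e + 1) (Fin.cons τ yi) (by omega)
  rw [← hsum] at h1
  have h2 : ∑ i : Fin (e + 1), H ((Fin.cons τ yi : Fin (e + 1) → J) i)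
      = H τ + ∑ i : Fin e, H (yi i) := by
    rw [Fin.sum_univ_succ]
    simp
  rw [h2] at h1
  have h3 : ∑ i : Fin e, H (yi i) ≤ ∑ i : Fin e, (κ * ht (P i) + cm) :=
    Finset.sum_le_sum fun i _ => hstar (P i) (yi i) (hyi i)
  have h4 : ∑ i : Fin e, (κ * ht (P i) + cm) = κ * (∑ i, ht (P i)) + (e : ℝ) * cm := by
    rw [Finset.sum_add_distrib, ← Finset.mul_sum]
    simp
  have h5 : (e : ℝ) * cm ≤ (g : ℝ) * max cm 0 := by
    have he' : (e : ℝ) ≤ (g : ℝ) := by exact_mod_cast he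
    have h0 : (0 : ℝ) ≤ max cm 0 := le_max_right _ _
    have h6 : (e : ℝ) * cm ≤ (e : ℝ) * max cm 0 :=
      mul_le_mul_of_nonneg_left (le_max_left _ _) (by positivity)
    have h7 : (e : ℝ) * max cm 0 ≤ (g : ℝ) * max cm 0 :=
      mul_le_mul_of_nonneg_right he' h0
    linarith
  have h8 : H τ + ∑ i : Fin e, H (yi i)
      ≤ κ * (∑ i, ht (P i)) + ((g : ℝ) * max cm 0 + B) := by
    have := hB' τ hτ0
    linarith
  have h9 := mul_le_mul_of_nonneg_left h8 hA
  nlinarith [h9, h1]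

/-- **Abstract Mordell-Weil endgame.**  See the module docstring.  `G` is finitely generated as
soon as the soft upper bound (U), the reduced decomposition, the one-point division bound (✶)
with `A₁ ^ 2 * κ < 1`, finiteness of `J[m]`, divisibility of the points, Northcott and weak
Mordell-Weil for `m` hold. -/
theorem fg_of_division_bound (G : AddSubgroup J) (j : Pt → J) (ht : Pt → ℝ) (H : J → ℝ)
    (g m : ℕ) (A1 c1 κ cm : ℝ) (hA : 0 ≤ A1) (hκ : 0 ≤ κ) (hlt : A1 * A1 * κ < 1)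
    (hdec : ∀ x ∈ G, ∃ (e : ℕ) (P : Fin e → Pt), e ≤ g ∧ x = ∑ i, j (P i) ∧
      ∑ i, ht (P i) ≤ H x)
    (hU : ∀ (k : ℕ) (y : Fin k → J), k ≤ g + 2 → H (∑ i, y i) ≤ A1 * ∑ i, H (y i) + c1)
    (htors : {t : J | m • t = 0}.Finite)
    (hdiv : ∀ P : Pt, ∃ y : J, m • y = j P)
    (hstar : ∀ (P : Pt) (y : J), m • y = j P → H y ≤ κ * ht P + cm)
    (hN : ∀ B : ℝ, {x : G | H x ≤ B}.Finite)
    (hW : (nsmulAddMonoidHom (α := G) m).range.FiniteIndex) :
    AddGroup.FG G := by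
  obtain ⟨C, hC⟩ := exists_division_bound j ht H g m A1 c1 κ cm hA hU htors hdiv hstar
  -- the key inequality on `G`
  have key : ∀ y : G, H y ≤ A1 * κ * H (m • (y : J)) + C := by
    intro y
    obtain ⟨e, P, he, hx, hle⟩ := hdec (m • (y : J)) (G.nsmul_mem y.2 m)
    have h1 := hC (y : J) e P he hx
    have h2 : A1 * κ * (∑ i, ht (P i)) ≤ A1 * κ * H (m • (y : J)) :=
      mul_le_mul_of_nonneg_left hle (mul_nonneg hA hκ)
    linarith
  have : Northcott (fun x : G => H (x : J)) := ⟨hN⟩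
  rcases (mul_nonneg hA hκ).eq_or_lt with h0 | hpos
  · -- degenerate case: `H` is bounded on `G`, so `G` is finite
    have hfin : (Set.univ : Set G).Finite := by
      refine (hN C).subset fun y _ => ?_
      have := key y
      rw [← h0] at this
      simpa using this
    have : Finite G := Set.finite_univ_iff.mp hfin
    infer_instance
  · -- main case
    have hb : A1 < 1 / (A1 * κ) := by
      rw [lt_div_iff₀ hpos]
      nlinarith
    refine AddCommGroup.fg_of_descent (n := m) (h := fun x : G => H (x : J)) (a := A1)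
      (b := 1 / (A1 * κ)) (c₀ := C / (A1 * κ)) (c := fun g' : G => A1 * H (-(g' : J)) + c1)
      hA hb hW ?_ ?_
    · intro g' x
      have h2 := hU 2 ![((g' : J) + (x : J)), -(g' : J)] (by omega)
      simp only [Fin.sum_univ_two, Matrix.cons_val_zero, Matrix.cons_val_one] at h2
      have h3 : (g' : J) + (x : J) + -(g' : J) = (x : J) := by abel
      rw [h3] at h2
      show H (x : J) ≤ A1 * H (((g' + x : G) : J)) + (A1 * H (-(g' : J)) + c1)
      rw [AddSubgroup.coe_add]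
      linarith
    · intro x
      have h1 := key x
      show 1 / (A1 * κ) * H (x : J) - C / (A1 * κ) ≤ H (((m • x : G) : J))
      rw [AddSubgroup.coe_nsmul]
      rw [one_div, inv_mul_eq_div, ← sub_div, div_le_iff₀ hpos]
      linarith

/-- **Sequence form.**  The division bound (✶) is available with `κ = c_g / m ^ 2 + ε` for every
`ε > 0` and arbitrarily large `m` (with `c_g` independent of `m`), as in route #2615 (b)-(d):
then `G` is finitely generated. -/
theorem fg_of_division_bounds (G : AddSubgroup J) (j : Pt → J) (ht : Pt → ℝ) (H : J → ℝ)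
    (g : ℕ) (A1 c1 cg : ℝ) (hA : 0 ≤ A1) (hcg : 0 ≤ cg)
    (hdec : ∀ x ∈ G, ∃ (e : ℕ) (P : Fin e → Pt), e ≤ g ∧ x = ∑ i, j (P i) ∧
      ∑ i, ht (P i) ≤ H x)
    (hU : ∀ (k : ℕ) (y : Fin k → J), k ≤ g + 2 → H (∑ i, y i) ≤ A1 * ∑ i, H (y i) + c1)
    (hN : ∀ B : ℝ, {x : G | H x ≤ B}.Finite)
    (hex : ∀ ε : ℝ, 0 < ε → ∀ m₀ : ℕ, ∃ m : ℕ, m₀ ≤ m ∧ 0 < m ∧
      {t : J | m • t = 0}.Finite ∧ (∀ P : Pt, ∃ y : J, m • y = j P) ∧
      (∃ cm : ℝ, ∀ (P : Pt) (y : J), m • y = j P → H y ≤ (cg / (m : ℝ) ^ 2 + ε) * ht P + cm) ∧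
      (nsmulAddMonoidHom (α := G) m).range.FiniteIndex) :
    AddGroup.FG G := by
  -- choose `ε` and `m₀`
  set ε : ℝ := 1 / (2 * (A1 * A1 + 1)) with hε
  have hεpos : 0 < ε := by rw [hε]; positivity
  obtain ⟨m, hm0, hmpos, htors, hdiv, ⟨cm, hstar⟩, hW⟩ :=
    hex ε hεpos (⌈2 * (A1 * A1) * cg⌉₊ + 1)
  have hmR : (0 : ℝ) < (m : ℝ) := by exact_mod_cast hmpos
  have hm1 : (1 : ℝ) ≤ (m : ℝ) := by exact_mod_cast hmpos
  have hm2 : 2 * (A1 * A1) * cg < (m : ℝ) := by
    have h1 : 2 * (A1 * A1) * cg ≤ (⌈2 * (A1 * A1) * cg⌉₊ : ℝ) := Nat.le_ceil _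
    have h2 : ((⌈2 * (A1 * A1) * cg⌉₊ + 1 : ℕ) : ℝ) ≤ (m : ℝ) := by exact_mod_cast hm0
    push_cast at h2
    linarith
  have hm3 : (m : ℝ) ≤ (m : ℝ) ^ 2 := by nlinarith
  have hκ : 0 ≤ cg / (m : ℝ) ^ 2 + ε := by positivity
  have hlt : A1 * A1 * (cg / (m : ℝ) ^ 2 + ε) < 1 := by
    have h1 : A1 * A1 * (cg / (m : ℝ) ^ 2) < 1 / 2 := by
      rw [← mul_div_assoc, div_lt_iff₀ (by positivity)]
      nlinarith
    have h2 : A1 * A1 * ε ≤ 1 / 2 := by
      rw [hε, mul_one_div, div_le_iff₀ (by positivity)]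
      nlinarith [mul_self_nonneg A1]
    rw [mul_add]
    linarith
  exact fg_of_division_bound G j ht H g m A1 c1 _ cm hA hκ hlt hdec hU htors hdiv hstar hN hW

end Fermat.Agent.S17.helper2516
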