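import Fermat.Agent.S17.helper3197_PlueckerSpec
import Fermat.Agent.S17.helper1643_AffIdeal
import Fermat.Agent.Lib.helper1102_HeightBPF

/-!
# S17, Pluecker track: DEFINITIONS for leaf L6 (`HinfSpec`) of `helper3197_PlueckerSpec` (helper2801)

The naive height of an effective rational divisor,
`Hinf(D) = h(P_D) / n`, `P_D = ∏_{P ≠ P0} (X - τ(P))^{D(P)}`,
for a rational function `τ` whose only pole is `P0`, of exact order `n ≥ 1`.

* `PD P0 τ D`      : the polynomial `P_D ∈ ℚ̄[X]` (`helper1643.normPoly` of `D` with `P0` erased);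
* `ratPD P0 τ D`   : its `ℚ`-form (junk `1` when `P_D` is not rational);
* `HinfOf P0 τ n D`: `polyLogHeight (ratPD P0 τ D) / n`.
-/

set_option autoImplicit false

open ModularCurve AlgebraicCurve Polynomial
open Fermat.Agent.S27.helper6247
open Fermat.Agent.S17.helper3197

namespace Fermat.Agent.S17.helper2801

noncomputable section

variable {F₀ : IntermediateField ℚ (LaurentSeries ℚ)}

/-! ## Definitions -/

/-- `P_D(X) = ∏_{P ≠ P0} (X - τ(P))^{D(P)}` (negative multiplicities ignored). -/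
def PD (P0 : Place Qb (FB F₀)) (τ : FB F₀) (D : Divisor Qb (FB F₀)) : Qb[X] :=
  Fermat.Agent.S17.helper1643.normPoly τ (Finsupp.erase P0 D)

open Classical in
/-- The `ℚ`-form of `P_D` (junk `1` if `P_D` is not rational). -/
def ratPD (P0 : Place Qb (FB F₀)) (τ : FB F₀) (D : Divisor Qb (FB F₀)) : ℚ[X] :=
  if h : ∃ Q : ℚ[X], Q.map (algebraMap ℚ Qb) = PD P0 τ D then h.choose else 1

theorem map_ratPD {P0 : Place Qb (FB F₀)} {τ : FB F₀} {D : Divisor Qb (FB F₀)}
    (h : ∃ Q : ℚ[X], Q.map (algebraMap ℚ Qb) = PD P0 τ D) :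
    (ratPD P0 τ D).map (algebraMap ℚ Qb) = PD P0 τ D := by
  unfold ratPD
  rw [dif_pos h]
  exact h.choose_spec

/-- The naive height `Hinf(D) = h(P_D) / n`. -/
def HinfOf (P0 : Place Qb (FB F₀)) (τ : FB F₀) (n : ℕ) (D : Divisor Qb (FB F₀)) : ℝ :=
  Fermat.Agent.Lib.helper1102.polyLogHeight (ratPD P0 τ D) / n

/-! ## Basic properties of `P_D` -/

theorem PD_monic (P0 : Place Qb (FB F₀)) (τ : FB F₀) (D : Divisor Qb (FB F₀)) :
    (PD P0 τ D).Monic :=
  Fermat.Agent.S17.helper1643.normPoly_monic τ _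

theorem erase_nonneg {P0 : Place Qb (FB F₀)} {D : Divisor Qb (FB F₀)} (hD : 0 ≤ D) :
    0 ≤ Finsupp.erase P0 D := by
  classical
  intro v
  rw [Finsupp.erase_apply]
  split_ifs
  · exact le_rfl
  · exact hD v

theorem erase_add' (P0 : Place Qb (FB F₀)) (D E : Divisor Qb (FB F₀)) :
    Finsupp.erase P0 (D + E) = Finsupp.erase P0 D + Finsupp.erase P0 E :=
  Finsupp.erase_add P0 D E

theorem PD_add (P0 : Place Qb (FB F₀)) (τ : FB F₀) {D E : Divisor Qb (FB F₀)}
    (hD : 0 ≤ D) (hE : 0 ≤ E) : PD P0 τ (D + E) = PD P0 τ D * PD P0 τ E := by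
  unfold PD
  rw [erase_add', Fermat.Agent.S17.helper1643.normPoly_add τ (erase_nonneg hD) (erase_nonneg hE)]

end

end Fermat.Agent.S17.helper2801
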