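import Fermat.Agent.S17.helper3197_PlueckerSpec
import Fermat.Agent.S17.helper3723_AffRing
import Fermat.Agent.S17.helper1643_AffInst
import Fermat.Agent.S17.helper2801_HinfDefs
import Fermat.Agent.S17.helper2681_NormDictAbs

/-!
# S17, leaf L6 clause (b): the norm dictionary on the Spec carriers (helper2681)

For a transcendental `t` in the affine ring at `P0`, a frame `fr` and a level `k`:
`h(Q) = n_t * h(α) + O(1)` for `0 ≠ α ∈ A_k` with zero divisor `Z`, where `Q` is any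
`ℚ`-form of `P_Z = ∏_{P ≠ P0} (X - t(P))^{Z(P)}` and `n_t = -ord_{P0} t`.
-/

set_option autoImplicit false
set_option linter.style.haveILetI false

open ModularCurve AlgebraicCurve Polynomial IntermediateField
open Fermat.Agent.S27.helper6247
open Fermat.Agent.S17.helper3197
open Fermat.Agent.S17.helper3723
open Fermat.Agent.S17.helper2801
open Fermat.Agent.Lib.helper1102

namespace Fermat.Agent.S17.helper2681

noncomputable section

variable {F₀ : IntermediateField ℚ (LaurentSeries ℚ)}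

/-- `ratEmb` is `ℚ`-semilinear. -/
theorem ratEmb_smul (c : ℚ) (y : F₀) :
    ratEmb F₀ (c • y) = algebraMap ℚ Qb c • ratEmb F₀ y := by
  rw [Rat.smul_def, map_mul, map_ratCast, Algebra.smul_def, eq_ratCast, map_ratCast]

/-- Elements of `A_k` lie in the affine ring at `P0`. -/
theorem ratEmb_mem_affRing (P0 : Place Qb (FB F₀)) (k : ℤ) {y : F₀} (hy : y ∈ Alev F₀ P0 k) :
    ratEmb F₀ y ∈ affRing P0 := by
  have h1 : ratEmb F₀ y ∈ riemannRochSpace (k • pt P0) := hy
  have h2 : k • pt P0 = (Finsupp.single P0 k : Divisor Qb (FB F₀)) := by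
    rw [pt, Finsupp.smul_single, smul_eq_mul, mul_one]
  rw [h2] at h1
  exact ((mem_riemannRochSpace_single_iff P0 k _).mp h1).1

/-- `ℚ̄` is algebraic over `ℚ` for the canonical `ℚ`-algebra structure of a field of
characteristic zero (the instance found for `Algebra ℚ Qb`). -/
theorem isAlgebraic_rat_Qb : Algebra.IsAlgebraic ℚ Qb := by
  have key : ∀ (i1 i2 : Algebra ℚ Qb), @Algebra.IsAlgebraic ℚ Qb _ _ i1 →
      @Algebra.IsAlgebraic ℚ Qb _ _ i2 := by
    intro i1 i2 h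
    obtain rfl : i1 = i2 := Subsingleton.elim _ _
    exact h
  exact key _ _ (AlgebraicClosure.isAlgebraic ℚ)

set_option maxHeartbeats 1000000 in
/-- **Leaf L6 (b), polynomial form.** -/
theorem normDict_carrier (P0 : Place Qb (FB F₀))
    (x : FB F₀) (hx : Transcendental Qb x) [FiniteDimensional Qb⟮x⟯ (FB F₀)]
    (hL : LinDisjSpec F₀) (t : affRing P0) (ht : Transcendental Qb (t : FB F₀))
    (fr : Frame F₀ P0) (k : ℤ) :
    ∃ C : ℝ, ∀ (α : ↥(Alev F₀ P0 k)) (Z : Divisor Qb (FB F₀)) (Q : ℚ[X]), α ≠ 0 →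
      IsZeroDiv F₀ P0 k (α : F₀) Z → Q.map (algebraMap ℚ Qb) = PD P0 (t : FB F₀) Z →
      |polyLogHeight Q - ((-P0.ord (t : FB F₀)).toNat : ℝ) * htA fr k α| ≤ C := by
  classical
  haveI : Algebra.IsAlgebraic ℚ Qb := isAlgebraic_rat_Qb
  obtain ⟨m, ρ, ω, hm, -, -, hbij, -⟩ := exists_weierstrassBasis x hx t ht
  let e : Fin (fr.n k) → affRing P0 := fun s =>
    ⟨ratEmb F₀ (fr.b k s : F₀), ratEmb_mem_affRing P0 k (fr.b k s).2⟩
  have he : LinearIndependent Qb e := by
    have h1 : LinearIndependent ℚ (fun s => (fr.b k s : F₀)) :=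
      (fr.b k).linearIndependent.map' (Alev F₀ P0 k).subtype (Submodule.ker_subtype _)
    have h2 := hL (fr.n k) _ h1
    exact LinearIndependent.of_comp (affRing P0).val.toLinearMap h2
  obtain ⟨C, hC⟩ := abs_polyLogHeight_sub_le_of_charpoly t ω hbij e he
  refine ⟨C, fun α Z Q hα hZ hQ => ?_⟩
  set xv : Fin (fr.n k) → ℚ := fun s => (fr.b k).repr α s with hxv
  have hx0 : xv ≠ 0 := by
    intro h
    apply hα
    apply (fr.b k).repr.injective
    ext s
    simpa [hxv] using congrFun h s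
  have hαF : ratEmb F₀ (α : F₀) = ∑ s, algebraMap ℚ Qb (xv s) • ratEmb F₀ (fr.b k s : F₀) := by
    have h1 : (α : F₀) = ∑ s, xv s • (fr.b k s : F₀) := by
      conv_lhs => rw [← (fr.b k).sum_repr α]
      rw [Submodule.coe_sum]
      rfl
    conv_lhs => rw [h1]
    rw [map_sum]
    exact Finset.sum_congr rfl fun s _ => ratEmb_smul _ _
  set ψ : affRing P0 := ⟨ratEmb F₀ (α : F₀), ratEmb_mem_affRing P0 k α.2⟩ with hψdef
  have hψ : ψ = ∑ s, algebraMap ℚ Qb (xv s) • e s := by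
    apply Subtype.ext
    rw [hψdef]
    simp only [e]
    rw [AddSubmonoidClass.coe_finsetSum]
    exact hαF
  have hψ0 : ψ ≠ 0 := by
    intro h
    apply hα
    have h1 : ratEmb F₀ (α : F₀) = 0 := congrArg Subtype.val h
    have h2 : (α : F₀) = 0 := (map_eq_zero (ratEmb F₀)).mp h1
    exact Subtype.ext h2
  haveI := Fermat.Agent.S17.helper1643.finite_quotient_span_singleton_aff x hx P0 hψ0
  haveI : Module.Free Qb (↥(affRing P0) ⧸ Ideal.span ({ψ} : Set (affRing P0))) :=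
    Module.Free.of_divisionRing Qb _
  have hinf : (Finsupp.erase P0 Z) P0 = 0 := Finsupp.erase_same
  have hZ' : ∀ P : Place Qb (FB F₀), P ≠ P0 →
      (Finsupp.erase P0 Z) P = P.ord ((ψ : affRing P0) : FB F₀) := by
    intro P hP
    rw [Finsupp.erase_ne hP, hZ P, Finsupp.smul_apply, pt, Finsupp.single_eq_of_ne hP,
      smul_zero, add_zero]
  have hch : (LinearMap.mulLeft Qb (Ideal.Quotient.mk (Ideal.span ({ψ} : Set (affRing P0))) t)).charpoly
      = Fermat.Agent.S17.helper1643.normPoly (t : FB F₀) (Finsupp.erase P0 Z) :=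
    Fermat.Agent.S17.helper1643.charpoly_mulQ_span_singleton_aff x hx P0 hψ0 hinf hZ' t
  have hQ' : Q.map (algebraMap ℚ Qb) =
      (LinearMap.mulLeft Qb (Ideal.Quotient.mk (Ideal.span ({ψ} : Set (affRing P0))) t)).charpoly := by
    rw [hch, hQ, PD]
  have hfin := hC xv ψ Q hx0 hψ hQ'
  have hcard : ((-P0.ord (t : FB F₀)).toNat : ℝ) = (Fintype.card (Fin m) : ℝ) := by
    rw [Fintype.card_fin, ← hm, Int.toNat_natCast]
  rw [hcard]
  exact hfin

/-- **Leaf L6 (b)** in the vocabulary of `helper2801_HinfDefs`: for `τ` in the affine ring at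
`P0`, transcendental, with `ord_{P0} τ = -n`, `n ≥ 1`, and as soon as `P_Z` has a `ℚ`-form for
the zero divisors `Z` of the nonzero elements of `A_k`:
`|HinfOf P0 τ n Z - htA fr k α| ≤ C`. -/
theorem hinfOf_normDict (P0 : Place Qb (FB F₀))
    (x : FB F₀) (hx : Transcendental Qb x) [FiniteDimensional Qb⟮x⟯ (FB F₀)]
    (hL : LinDisjSpec F₀) (τ : FB F₀) (hτ : τ ∈ affRing P0) (htr : Transcendental Qb τ)
    (n : ℕ) (hn : P0.ord τ = -(n : ℤ)) (hn0 : 0 < n)
    (fr : Frame F₀ P0) (k : ℤ)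
    (hrat : ∀ (α : ↥(Alev F₀ P0 k)) (Z : Divisor Qb (FB F₀)), α ≠ 0 →
      IsZeroDiv F₀ P0 k (α : F₀) Z → ∃ Q : ℚ[X], Q.map (algebraMap ℚ Qb) = PD P0 τ Z) :
    ∃ C : ℝ, ∀ (α : ↥(Alev F₀ P0 k)) (Z : Divisor Qb (FB F₀)), α ≠ 0 →
      IsZeroDiv F₀ P0 k (α : F₀) Z → |HinfOf P0 τ n Z - htA fr k α| ≤ C := by
  obtain ⟨C, hC⟩ := normDict_carrier P0 x hx hL ⟨τ, hτ⟩ htr fr k
  refine ⟨C / n, fun α Z hα hZ => ?_⟩
  have h1 := hC α Z (ratPD P0 τ Z) hα hZ (map_ratPD (hrat α Z hα hZ))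
  have h2 : ((-P0.ord τ).toNat : ℝ) = (n : ℝ) := by
    rw [hn, neg_neg, Int.toNat_natCast]
  simp only [h2] at h1
  have hnpos : (0 : ℝ) < n := by exact_mod_cast hn0
  have h3 : HinfOf P0 τ n Z - htA fr k α =
      (polyLogHeight (ratPD P0 τ Z) - (n : ℝ) * htA fr k α) / n := by
    unfold HinfOf
    field_simp
  rw [h3, abs_div, abs_of_pos hnpos]
  exact div_le_div_of_nonneg_right h1 hnpos.le

end

end Fermat.Agent.S17.helper2681
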