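import Mathlib
import Fermat.Prelude.Def_AlgebraicCurve_Repartitions

/-!
# S17-PENCIL (helper2853): the base-point-free pencil trick

Route-independent brick in the Prelude vocabulary (`Place`, `Divisor`, `riemannRochSpace`).
Everything is hypothesis-passing: the only input is Riemann's theorem in the weak form
`ℓ(X) = deg X + 1 - g` for `deg X ≥ c₀` (no duality, no differentials, no genus theory; `g` is
any integer with this property).

* `mul_mem_rr`               : `L(E) · L(D) ⊆ L(E + D)`.
* `IsPencil D s t`           : `s, t ∈ L(D)` are nonzero and have no common base point, i.e.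
                               at every place one of them has order exactly `-D v`.
* `IsPencil.kernel`          : if `a s = b t` with `a, b ∈ L(E)` then `a = c t`, `b = c s` with
                               `c ∈ L(E - D)` (the kernel of the pencil map is `L(E - D)`).
* `IsPencil.inf_eq`          : `L(E) s ∩ L(E) t = L(E - D) t s`.
* `IsPencil.sup_eq`          : `L(E) s + L(E) t = L(E + D)` as soon as `deg (E - D) ≥ c₀` and
                               `deg D ≥ 0` (dimension count).
* `IsPencil.exists_eq_add`   : element form of the same.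
* `IsPencil.mul_eq`          : `L(E) * L(D) = L(E + D)` (product of `K`-subspaces of `F`).
* `exists_isPencil`          : a base-point-free pencil exists in `L(D)` once
                               `deg D ≥ c₀ + 1` (infinite constant field, places of degree one,
                               functions with finitely many zeros and poles).
* `rr_mul_eq`                : `L(E) * L(D) = L(E + D)` for `deg D ≥ c₀ + 1`,
                               `deg E ≥ c₀ + deg D`.
* `rr_mul_pow_eq`            : `L(E) * L(D) ^ k = L(E + k • D)` under the same hypotheses.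
* `rr_mul_eq_symm`           : `L(D₁) * L(D₂) = L(D₁ + D₂)` for `deg D₁ ≥ 2 c₀ + 1`,
                               `deg D₂ ≥ 2 c₀ + 2` (symmetric range, e.g. `D₁ = D₂`).
-/

set_option autoImplicit false

open AlgebraicCurve

namespace Fermat.Agent.S17.helper2853

noncomputable section

section Core

variable {K : Type*} {F : Type*} [Field K] [Field F] [Algebra K F]

/-- Monotonicity of `L(D)` in `D`. -/
theorem rr_mono {D D' : Divisor K F} (h : D ≤ D') :
    riemannRochSpace D ≤ riemannRochSpace D' := by
  intro f hf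
  rw [mem_riemannRochSpace_iff] at hf ⊢
  intro v
  rcases hf v with h0 | h1
  · exact Or.inl h0
  · right
    have := Finsupp.le_def.mp h v
    omega

/-- (P0) `L(E) · L(D) ⊆ L(E + D)`. -/
theorem mul_mem_rr {E D : Divisor K F} {a s : F} (ha : a ∈ riemannRochSpace E)
    (hs : s ∈ riemannRochSpace D) : a * s ∈ riemannRochSpace (E + D) := by
  rw [mem_riemannRochSpace_iff] at ha hs ⊢
  intro v
  by_cases ha0 : a = 0
  · left
    rw [ha0, zero_mul]
  by_cases hs0 : s = 0
  · left
    rw [hs0, mul_zero]
  right
  rw [v.ord_mul ha0 hs0, Finsupp.add_apply]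
  have h1 := (ha v).resolve_left ha0
  have h2 := (hs v).resolve_left hs0
  omega

/-- `s, t` span a base-point-free pencil of `L(D)`: both are nonzero elements of `L(D)` and at
every place one of them has order exactly `-D v`. -/
structure IsPencil (D : Divisor K F) (s t : F) : Prop where
  mem_left : s ∈ riemannRochSpace D
  mem_right : t ∈ riemannRochSpace D
  left_ne : s ≠ 0
  right_ne : t ≠ 0
  bpf : ∀ v : Place K F, v.ord s = -D v ∨ v.ord t = -D v

theorem IsPencil.symm {D : Divisor K F} {s t : F} (h : IsPencil D s t) : IsPencil D t s :=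
  ⟨h.mem_right, h.mem_left, h.right_ne, h.left_ne, fun v => (h.bpf v).symm⟩

/-- (P1) The kernel of the pencil map `(a, b) ↦ a s - b t` on `L(E) × L(E)` is `L(E - D)`. -/
theorem IsPencil.kernel {D E : Divisor K F} {s t : F} (h : IsPencil D s t) {a b : F}
    (ha : a ∈ riemannRochSpace E) (hb : b ∈ riemannRochSpace E) (hab : a * s = b * t) :
    ∃ c ∈ riemannRochSpace (E - D), a = c * t ∧ b = c * s := by
  have hs := h.left_ne
  have ht := h.right_ne
  have e2 : a / t = b / s := by
    rw [div_eq_div_iff ht hs]
    exact hab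
  refine ⟨a / t, ?_, ?_, ?_⟩
  · rw [mem_riemannRochSpace_iff] at ha hb ⊢
    intro v
    by_cases hc : a / t = 0
    · exact Or.inl hc
    right
    have ha0 : a ≠ 0 := fun h0 => hc (by rw [h0, zero_div])
    have hb0 : b ≠ 0 := fun h0 => hc (by rw [e2, h0, zero_div])
    have h1 := (ha v).resolve_left ha0
    have h2 := (hb v).resolve_left hb0
    have e1 : v.ord (a / t) = v.ord a - v.ord t := by
      rw [div_eq_mul_inv, v.ord_mul ha0 (inv_ne_zero ht), v.ord_inv]
      ring
    have e3 : v.ord (a / t) = v.ord b - v.ord s := by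
      rw [e2, div_eq_mul_inv, v.ord_mul hb0 (inv_ne_zero hs), v.ord_inv]
      ring
    rw [Finsupp.sub_apply]
    rcases h.bpf v with hv | hv
    · omega
    · omega
  · rw [div_mul_cancel₀ a ht]
  · rw [e2, div_mul_cancel₀ b hs]

/-- `L(E) · s` as a `K`-subspace of `F`. -/
abbrev mulImage (E : Divisor K F) (s : F) : Submodule K F :=
  (riemannRochSpace E).map (LinearMap.mulRight K s)

theorem mem_mulImage {E : Divisor K F} {s x : F} :
    x ∈ mulImage E s ↔ ∃ a ∈ riemannRochSpace E, a * s = x := by
  simp only [mulImage, Submodule.mem_map, LinearMap.mulRight_apply]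

theorem finrank_mulImage (E : Divisor K F) {s : F} (hs : s ≠ 0) :
    Module.finrank K (mulImage E s) = Module.finrank K (riemannRochSpace E) :=
  (LinearEquiv.finrank_eq (Submodule.equivMapOfInjective (LinearMap.mulRight K s)
    (fun _ _ hxy => mul_right_cancel₀ hs hxy) (riemannRochSpace E))).symm

theorem mulImage_le {E D : Divisor K F} {s : F} (hs : s ∈ riemannRochSpace D) :
    mulImage E s ≤ riemannRochSpace (E + D) := by
  intro x hx
  obtain ⟨a, ha, rfl⟩ := mem_mulImage.mp hx
  exact mul_mem_rr ha hs

/-- (P1') `L(E) s ∩ L(E) t = L(E - D) t s` for a base-point-free pencil `s, t` of `L(D)`. -/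
theorem IsPencil.inf_eq {D : Divisor K F} {s t : F} (h : IsPencil D s t) (E : Divisor K F) :
    mulImage E s ⊓ mulImage E t = mulImage (E - D) (t * s) := by
  ext x
  rw [Submodule.mem_inf, mem_mulImage, mem_mulImage, mem_mulImage]
  constructor
  · rintro ⟨⟨a, ha, rfl⟩, ⟨b, hb, hab⟩⟩
    obtain ⟨c, hc, rfl, rfl⟩ := h.kernel ha hb hab.symm
    exact ⟨c, hc, by ring⟩
  · rintro ⟨c, hc, rfl⟩
    have h1 : c * t ∈ riemannRochSpace E := by
      have := mul_mem_rr hc h.mem_right
      rwa [sub_add_cancel] at this
    have h2 : c * s ∈ riemannRochSpace E := by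
      have := mul_mem_rr hc h.mem_left
      rwa [sub_add_cancel] at this
    exact ⟨⟨c * t, h1, by ring⟩, ⟨c * s, h2, by ring⟩⟩

/-- (P2) **Base-point-free pencil trick.** If `s, t` is a base-point-free pencil of `L(D)`,
`deg D ≥ 0` and `deg (E - D) ≥ c₀` (the range where Riemann's theorem is an equality), then
`L(E) s + L(E) t = L(E + D)`. -/
theorem IsPencil.sup_eq {D E : Divisor K F} {s t : F} (h : IsPencil D s t) {c₀ g : ℤ}
    (hfin : ∀ X : Divisor K F, Module.Finite K (riemannRochSpace X))
    (hR : ∀ X : Divisor K F, c₀ ≤ Divisor.degree X →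
      (Module.finrank K (riemannRochSpace X) : ℤ) = Divisor.degree X + 1 - g)
    (hD : 0 ≤ Divisor.degree D) (hE : c₀ ≤ Divisor.degree (E - D)) :
    mulImage E s ⊔ mulImage E t = riemannRochSpace (E + D) := by
  have hle : mulImage E s ⊔ mulImage E t ≤ riemannRochSpace (E + D) :=
    sup_le (mulImage_le h.mem_left) (mulImage_le h.mem_right)
  have := hfin E
  have := hfin (E + D)
  have := hfin (E - D)
  have hsub : Divisor.degree (E - D) = Divisor.degree E - Divisor.degree D := map_sub _ _ _
  have hadd : Divisor.degree (E + D) = Divisor.degree E + Divisor.degree D := map_add _ _ _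
  have h1 := hR (E - D) hE
  have h2 := hR E (by omega)
  have h3 := hR (E + D) (by omega)
  have hdim := Submodule.finrank_sup_add_finrank_inf_eq (mulImage E s) (mulImage E t)
  rw [h.inf_eq E, finrank_mulImage E h.left_ne, finrank_mulImage E h.right_ne,
    finrank_mulImage (E - D) (mul_ne_zero h.right_ne h.left_ne)] at hdim
  refine Submodule.eq_of_le_of_finrank_eq hle ?_
  omega

/-- (P2, element form) Every `f ∈ L(E + D)` is `a s + b t` with `a, b ∈ L(E)`. -/
theorem IsPencil.exists_eq_add {D E : Divisor K F} {s t : F} (h : IsPencil D s t) {c₀ g : ℤ}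
    (hfin : ∀ X : Divisor K F, Module.Finite K (riemannRochSpace X))
    (hR : ∀ X : Divisor K F, c₀ ≤ Divisor.degree X →
      (Module.finrank K (riemannRochSpace X) : ℤ) = Divisor.degree X + 1 - g)
    (hD : 0 ≤ Divisor.degree D) (hE : c₀ ≤ Divisor.degree (E - D)) {f : F}
    (hf : f ∈ riemannRochSpace (E + D)) :
    ∃ a ∈ riemannRochSpace E, ∃ b ∈ riemannRochSpace E, f = a * s + b * t := by
  rw [← h.sup_eq hfin hR hD hE, Submodule.mem_sup] at hf
  obtain ⟨y, hy, z, hz, rfl⟩ := hf
  obtain ⟨a, ha, rfl⟩ := mem_mulImage.mp hy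
  obtain ⟨b, hb, rfl⟩ := mem_mulImage.mp hz
  exact ⟨a, ha, b, hb, rfl⟩

/-- (P4) Multiplication `L(E) ⊗ L(D) → L(E + D)` is onto: `L(E) * L(D) = L(E + D)` as
`K`-subspaces of `F`, given a base-point-free pencil of `L(D)`. -/
theorem IsPencil.mul_eq {D E : Divisor K F} {s t : F} (h : IsPencil D s t) {c₀ g : ℤ}
    (hfin : ∀ X : Divisor K F, Module.Finite K (riemannRochSpace X))
    (hR : ∀ X : Divisor K F, c₀ ≤ Divisor.degree X →
      (Module.finrank K (riemannRochSpace X) : ℤ) = Divisor.degree X + 1 - g)
    (hD : 0 ≤ Divisor.degree D) (hE : c₀ ≤ Divisor.degree (E - D)) :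
    riemannRochSpace E * riemannRochSpace D = riemannRochSpace (E + D) := by
  apply le_antisymm
  · rw [Submodule.mul_le]
    intro a ha b hb
    exact mul_mem_rr ha hb
  · intro f hf
    obtain ⟨a, ha, b, hb, rfl⟩ := h.exists_eq_add hfin hR hD hE hf
    exact add_mem (Submodule.mul_mem_mul ha h.mem_left) (Submodule.mul_mem_mul hb h.mem_right)

/-! ## Existence of a base-point-free pencil -/

/-- Removing one point of degree one from `D` makes `L(D)` strictly smaller in the Riemann
range. -/
theorem rr_sub_single_lt {c₀ g : ℤ}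
    (hR : ∀ X : Divisor K F, c₀ ≤ Divisor.degree X →
      (Module.finrank K (riemannRochSpace X) : ℤ) = Divisor.degree X + 1 - g)
    {D : Divisor K F} (hD : c₀ + 1 ≤ Divisor.degree D) (v : Place K F) (hv : v.deg = 1) :
    riemannRochSpace (D - Finsupp.single v 1) < riemannRochSpace D := by
  have hle : D - Finsupp.single v 1 ≤ D := by
    rw [sub_le_self_iff]
    intro w
    rw [Finsupp.coe_zero, Pi.zero_apply]
    classical
    rw [Finsupp.single_apply]
    split_ifs <;> norm_num
  refine lt_of_le_of_ne (rr_mono hle) fun heq => ?_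
  have hdeg : Divisor.degree (D - Finsupp.single v 1) = Divisor.degree D - 1 := by
    rw [map_sub, Divisor.degree_single, hv]
    norm_num
  have h1 := hR (D - Finsupp.single v 1) (by omega)
  have h2 := hR D (by omega)
  rw [heq] at h1
  omega

/-- An element of `L(D)` outside `L(D - v)` is nonzero and has order exactly `-D v` at `v`. -/
theorem ord_eq_of_not_mem {D : Divisor K F} {v : Place K F} {f : F}
    (hf : f ∈ riemannRochSpace D) (hnot : f ∉ riemannRochSpace (D - Finsupp.single v 1)) :
    f ≠ 0 ∧ v.ord f = -D v := by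
  have hf0 : f ≠ 0 := by
    rintro rfl
    exact hnot (Submodule.zero_mem _)
  refine ⟨hf0, ?_⟩
  by_contra hne
  apply hnot
  rw [mem_riemannRochSpace_iff] at hf ⊢
  intro w
  right
  have hw := (hf w).resolve_left hf0
  rw [Finsupp.sub_apply]
  classical
  rw [Finsupp.single_apply]
  split_ifs with hvw
  · subst hvw
    omega
  · omega

/-- (P3) **Existence of a base-point-free pencil** in `L(D)` for `deg D ≥ c₀ + 1`: infinite
constant field, all places of degree one, every nonzero function has finitely many zeros and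
poles. -/
theorem exists_isPencil [Infinite K] {c₀ g : ℤ}
    (hR : ∀ X : Divisor K F, c₀ ≤ Divisor.degree X →
      (Module.finrank K (riemannRochSpace X) : ℤ) = Divisor.degree X + 1 - g)
    (hdeg : ∀ v : Place K F, v.deg = 1)
    (hzp : ∀ f : F, f ≠ 0 → {v : Place K F | v.ord f ≠ 0}.Finite)
    {D : Divisor K F} (hD : c₀ + 1 ≤ Divisor.degree D) : ∃ s t : F, IsPencil D s t := by
  classical
  by_cases hne : Nonempty (Place K F)
  · obtain ⟨v₀⟩ := hne
    have hlt := fun v : Place K F => rr_sub_single_lt hR hD v (hdeg v)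
    obtain ⟨s, hs, hs'⟩ := SetLike.exists_of_lt (hlt v₀)
    obtain ⟨hs0, -⟩ := ord_eq_of_not_mem hs hs'
    have hZ : {v : Place K F | v.ord s ≠ -D v}.Finite := by
      refine ((hzp s hs0).union D.support.finite_toSet).subset ?_
      intro v hv
      by_contra hcon
      rw [Set.mem_union, not_or] at hcon
      obtain ⟨h1, h2⟩ := hcon
      have h1' : v.ord s = 0 := by
        by_contra h
        exact h1 h
      have h2' : D v = 0 := by
        by_contra h
        exact h2 (Finset.mem_coe.mpr (Finsupp.mem_support_iff.mpr h))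
      apply hv
      rw [h1', h2', neg_zero]
    let Z : Finset (Place K F) := insert v₀ hZ.toFinset
    let p : Z → Submodule K (riemannRochSpace D) := fun v =>
      (riemannRochSpace (D - Finsupp.single (v : Place K F) 1)).comap (riemannRochSpace D).subtype
    have hex : ∃ t : riemannRochSpace D, ∀ v : Z, t ∉ p v := by
      by_contra hcon
      push Not at hcon
      have hcov : ⋃ v : Z, (p v : Set (riemannRochSpace D)) = Set.univ := by
        rw [Set.eq_univ_iff_forall]
        intro t
        obtain ⟨v, hv⟩ := hcon t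
        exact Set.mem_iUnion.mpr ⟨v, hv⟩
      obtain ⟨v, hv⟩ := Subspace.exists_eq_top_of_iUnion_eq_univ hcov
      have hle : riemannRochSpace D ≤ riemannRochSpace (D - Finsupp.single (v : Place K F) 1) := by
        intro f hf
        have : (⟨f, hf⟩ : riemannRochSpace D) ∈ p v := by
          rw [hv]
          exact Submodule.mem_top
        exact this
      exact absurd (hlt v) (not_lt_of_ge hle)
    obtain ⟨t, ht⟩ := hex
    have ht' : ∀ v ∈ Z, (t : F) ∉ riemannRochSpace (D - Finsupp.single v 1) := by
      intro v hv hmem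
      exact ht ⟨v, hv⟩ hmem
    have ht0 : (t : F) ≠ 0 :=
      (ord_eq_of_not_mem t.2 (ht' v₀ (Finset.mem_insert_self _ _))).1
    refine ⟨s, t, hs, t.2, hs0, ht0, fun v => ?_⟩
    by_cases hv : v.ord s = -D v
    · exact Or.inl hv
    · right
      have hvZ : v ∈ Z := Finset.mem_insert_of_mem (hZ.mem_toFinset.mpr hv)
      exact (ord_eq_of_not_mem t.2 (ht' v hvZ)).2
  · have h1 : (1 : F) ∈ riemannRochSpace D :=
      mem_riemannRochSpace_iff.mpr fun v => (hne ⟨v⟩).elim
    exact ⟨1, 1, h1, h1, one_ne_zero, one_ne_zero, fun v => (hne ⟨v⟩).elim⟩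

/-- (P4) **Surjectivity of multiplication** from Riemann's theorem alone:
`L(E) * L(D) = L(E + D)` for `deg D ≥ c₀ + 1` and `deg E ≥ c₀ + deg D`. -/
theorem rr_mul_eq [Infinite K] {c₀ g : ℤ}
    (hfin : ∀ X : Divisor K F, Module.Finite K (riemannRochSpace X))
    (hR : ∀ X : Divisor K F, c₀ ≤ Divisor.degree X →
      (Module.finrank K (riemannRochSpace X) : ℤ) = Divisor.degree X + 1 - g)
    (hdeg : ∀ v : Place K F, v.deg = 1)
    (hzp : ∀ f : F, f ≠ 0 → {v : Place K F | v.ord f ≠ 0}.Finite)
    {D E : Divisor K F} (hD : c₀ + 1 ≤ Divisor.degree D) (hD0 : 0 ≤ Divisor.degree D)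
    (hE : c₀ + Divisor.degree D ≤ Divisor.degree E) :
    riemannRochSpace E * riemannRochSpace D = riemannRochSpace (E + D) := by
  obtain ⟨s, t, h⟩ := exists_isPencil hR hdeg hzp hD
  refine h.mul_eq hfin hR hD0 ?_
  rw [map_sub]
  omega

/-- (P4, iterated) `L(E) * L(D) ^ k = L(E + k • D)` for `deg D ≥ c₀ + 1`, `deg D ≥ 0` and
`deg E ≥ c₀ + deg D`. -/
theorem rr_mul_pow_eq [Infinite K] {c₀ g : ℤ}
    (hfin : ∀ X : Divisor K F, Module.Finite K (riemannRochSpace X))
    (hR : ∀ X : Divisor K F, c₀ ≤ Divisor.degree X →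
      (Module.finrank K (riemannRochSpace X) : ℤ) = Divisor.degree X + 1 - g)
    (hdeg : ∀ v : Place K F, v.deg = 1)
    (hzp : ∀ f : F, f ≠ 0 → {v : Place K F | v.ord f ≠ 0}.Finite)
    {D E : Divisor K F} (hD : c₀ + 1 ≤ Divisor.degree D) (hD0 : 0 ≤ Divisor.degree D)
    (hE : c₀ + Divisor.degree D ≤ Divisor.degree E) (k : ℕ) :
    riemannRochSpace E * riemannRochSpace D ^ k = riemannRochSpace (E + k • D) := by
  induction k with
  | zero => rw [pow_zero, mul_one, zero_smul, add_zero]
  | succ k ih =>
    rw [pow_succ, ← mul_assoc, ih, succ_nsmul, ← add_assoc]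
    refine rr_mul_eq hfin hR hdeg hzp hD hD0 ?_
    rw [map_add, map_nsmul]
    have : (0 : ℤ) ≤ k • Divisor.degree D := nsmul_nonneg hD0 k
    omega

/-- (P4, symmetric) **Symmetric product theorem** from Riemann's theorem alone: no condition
relating `deg D₁` and `deg D₂`.  For `deg D₁ ≥ 2 c₀ + 1` and `deg D₂ ≥ 2 c₀ + 2`,
`L(D₁) * L(D₂) = L(D₁ + D₂)`.  (Two applications of `rr_mul_eq` through an auxiliary divisor of
degree `c₀ + 1`.) -/
theorem rr_mul_eq_symm [Infinite K] {c₀ g : ℤ} (hc₀ : 0 ≤ c₀)
    (hfin : ∀ X : Divisor K F, Module.Finite K (riemannRochSpace X))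
    (hR : ∀ X : Divisor K F, c₀ ≤ Divisor.degree X →
      (Module.finrank K (riemannRochSpace X) : ℤ) = Divisor.degree X + 1 - g)
    (hdeg : ∀ v : Place K F, v.deg = 1)
    (hzp : ∀ f : F, f ≠ 0 → {v : Place K F | v.ord f ≠ 0}.Finite)
    (P₀ : Place K F) {D₁ D₂ : Divisor K F} (h₁ : 2 * c₀ + 1 ≤ Divisor.degree D₁)
    (h₂ : 2 * c₀ + 2 ≤ Divisor.degree D₂) :
    riemannRochSpace D₁ * riemannRochSpace D₂ = riemannRochSpace (D₁ + D₂) := by
  by_cases hcase : Divisor.degree D₂ ≤ Divisor.degree D₁ + c₀ + 2
  · have hdegD : Divisor.degree (Finsupp.single P₀ (c₀ + 1) : Divisor K F) = c₀ + 1 := by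
      rw [Divisor.degree_single, hdeg P₀]
      norm_num
    generalize (Finsupp.single P₀ (c₀ + 1) : Divisor K F) = D at hdegD
    apply le_antisymm
    · rw [Submodule.mul_le]
      intro a ha b hb
      exact mul_mem_rr ha hb
    · have e1 : riemannRochSpace D₁ * riemannRochSpace D = riemannRochSpace (D₁ + D) :=
        rr_mul_eq hfin hR hdeg hzp (by omega) (by omega) (by omega)
      have e2 : riemannRochSpace (D₁ + D) * riemannRochSpace (D₂ - D)
          = riemannRochSpace (D₁ + D + (D₂ - D)) :=
        rr_mul_eq hfin hR hdeg hzp (by rw [map_sub]; omega) (by rw [map_sub]; omega)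
          (by rw [map_add, map_sub]; omega)
      have e3 : D₁ + D + (D₂ - D) = D₁ + D₂ := by abel
      have e4 : riemannRochSpace D * riemannRochSpace (D₂ - D) ≤ riemannRochSpace D₂ := by
        rw [Submodule.mul_le]
        intro a ha b hb
        have := mul_mem_rr ha hb
        rwa [add_sub_cancel] at this
      rw [← e3, ← e2, ← e1, mul_assoc]
      exact mul_le_mul' le_rfl e4
  · rw [mul_comm, add_comm]
    exact rr_mul_eq hfin hR hdeg hzp (by omega) (by omega) (by omega)

end Core

end

end Fermat.Agent.S17.helper2853
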