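import Mathlib
import Fermat.Agent.S17.helper2853_Pencil

/-!
# S17-G2-UB-ZL (helper2744): products of subspaces of Riemann--Roch spaces

Partner leaf of the chart-free cube law (design G2-UB): two one-variable statements in the
Prelude vocabulary, hypothesis-passing in exactly the style of `helper2853_Pencil` (the only
input is Riemann's theorem as an equality `ℓ(X) = deg X + 1 - g` for `deg X ≥ c₀`).

* `exists_base`        : a subspace `V ≤ L(X)` of codimension `≤ d` (`deg X ≥ c₀ + d + 1`) lies in
                         `L(X - B)` for an effective `B` of degree `≤ d` and has no base point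
                         relative to `X - B`.
* `exists_pencil_in`   : such a `V` contains, for every `0 ≠ s ∈ V`, a `t ∈ V` with
                         `IsPencil (X - B) s t`.
* `finrank_rr_add_le_finrank_mul` : **(ZL)**.  For `V ≤ L(X)` of codimension `≤ d` and
                         `V' ≤ L(X')` of codimension `≤ d' ≤ 1`, `deg X ≥ c₀ + d + 1`,
                         `deg X' ≥ 2 deg X + c₀`: the product `V * V'` has codimension `≤ d + d'`
                         in `L(X + X')`.
* `exists_lagrange`    : **(IND)**, interpolation form.  For `k` distinct places `P i` and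
                         `deg X ≥ c₀ + k` there are `f i ∈ L(X)` with `ord_{P i} (f i) = -X (P i)`
                         and `ord_{P j} (f i) > -X (P j)` for `j ≠ i`.
-/

set_option autoImplicit false

open AlgebraicCurve Module

namespace Fermat.Agent.S17.helper2744

open Fermat.Agent.S17.helper2853

noncomputable section

section Core

variable {K : Type*} {F : Type*} [Field K] [Field F] [Algebra K F]

/-- `V · s` as a `K`-subspace of `F`. -/
abbrev mulSub (V : Submodule K F) (s : F) : Submodule K F :=
  V.map (LinearMap.mulRight K s)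

theorem mem_mulSub {V : Submodule K F} {s x : F} :
    x ∈ mulSub V s ↔ ∃ a ∈ V, a * s = x := by
  simp only [mulSub, Submodule.mem_map, LinearMap.mulRight_apply]

theorem mulSub_le_mul {V V' : Submodule K F} {s : F} (hs : s ∈ V) :
    mulSub V' s ≤ V * V' := by
  intro x hx
  obtain ⟨a, ha, rfl⟩ := mem_mulSub.mp hx
  have h := Submodule.mul_mem_mul hs ha
  rwa [mul_comm s a] at h

theorem mul_le_rr {X X' : Divisor K F} {V V' : Submodule K F}
    (hV : V ≤ riemannRochSpace X) (hV' : V' ≤ riemannRochSpace X') :
    V * V' ≤ riemannRochSpace (X + X') := by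
  rw [Submodule.mul_le]
  intro a ha b hb
  exact mul_mem_rr (hV ha) (hV' hb)

/-- Degree of `B + v` for a place of degree one. -/
theorem degree_add_single {B : Divisor K F} {v : Place K F} (hv : v.deg = 1) :
    Divisor.degree (B + Finsupp.single v 1) = Divisor.degree B + 1 := by
  rw [map_add, Divisor.degree_single, hv]
  norm_num

theorem degree_sub_single {B : Divisor K F} {v : Place K F} (hv : v.deg = 1) :
    Divisor.degree (B - Finsupp.single v 1) = Divisor.degree B - 1 := by
  rw [map_sub, Divisor.degree_single, hv]
  norm_num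

/-- Auxiliary descending induction for `exists_base`. -/
theorem exists_base_aux {c₀ g : ℤ}
    (hfin : ∀ X : Divisor K F, Module.Finite K (riemannRochSpace X))
    (hR : ∀ X : Divisor K F, c₀ ≤ Divisor.degree X →
      (Module.finrank K (riemannRochSpace X) : ℤ) = Divisor.degree X + 1 - g)
    (hdeg : ∀ v : Place K F, v.deg = 1)
    {X : Divisor K F} {V : Submodule K F} {d : ℕ}
    (hd : Module.finrank K (riemannRochSpace X) ≤ Module.finrank K V + d)
    (hX : c₀ + d + 1 ≤ Divisor.degree X) :
    ∀ (k : ℕ) (B : Divisor K F), 0 ≤ B → Divisor.degree B + k = d →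
      V ≤ riemannRochSpace (X - B) →
      ∃ B' : Divisor K F, 0 ≤ B' ∧ 0 ≤ Divisor.degree B' ∧ Divisor.degree B' ≤ d ∧
        V ≤ riemannRochSpace (X - B') ∧
        ∀ v : Place K F, ¬ V ≤ riemannRochSpace (X - B' - Finsupp.single v 1) := by
  intro k
  induction k with
  | zero =>
    intro B hB0 hBd hVB
    have hBd' : Divisor.degree B = d := by simpa using hBd
    refine ⟨B, hB0, by rw [hBd']; exact Int.natCast_nonneg d, le_of_eq hBd', hVB, fun v hle => ?_⟩
    have := hfin (X - B - Finsupp.single v 1)
    have h1 := Submodule.finrank_mono hle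
    have hdeg1 : Divisor.degree (X - B - Finsupp.single v 1) = Divisor.degree X - d - 1 := by
      rw [degree_sub_single (hdeg v), map_sub, hBd']
    have h2 := hR (X - B - Finsupp.single v 1) (by rw [hdeg1]; omega)
    have h3 := hR X (by omega)
    rw [hdeg1] at h2
    omega
  | succ k ih =>
    intro B hB0 hBd hVB
    by_cases hex : ∃ v : Place K F, V ≤ riemannRochSpace (X - B - Finsupp.single v 1)
    · obtain ⟨v, hv⟩ := hex
      refine ih (B + Finsupp.single v 1) ?_ ?_ ?_
      · refine add_nonneg hB0 ?_
        intro w
        classical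
        rw [Finsupp.coe_zero, Pi.zero_apply, Finsupp.single_apply]
        split_ifs <;> norm_num
      · rw [degree_add_single (hdeg v)]
        push_cast at hBd ⊢
        omega
      · rwa [← sub_sub]
    · push Not at hex
      refine ⟨B, hB0, ?_, ?_, hVB, hex⟩
      · have : (0 : ℤ) ≤ Divisor.degree B := by
          have h0 : (Divisor.degree (0 : Divisor K F)) = 0 := map_zero _
          -- degree is monotone on effective divisors of degree-one places
          classical
          have hsum : Divisor.degree B = B.sum fun v n => n * (v.deg : ℤ) := by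
            simp [Divisor.degree, Finsupp.liftAddHom_apply]
          rw [hsum]
          refine Finset.sum_nonneg fun v _ => ?_
          have hv : 0 ≤ B v := hB0 v
          have : (0 : ℤ) ≤ (v.deg : ℤ) := Int.natCast_nonneg _
          positivity
        exact this
      · push_cast at hBd
        omega

/-- **Base divisor.** A subspace `V ≤ L(X)` of codimension `≤ d`, `deg X ≥ c₀ + d + 1`, lies in
`L(X - B)` for an effective divisor `B` of degree `≤ d` such that `V` has no base point relative
to `X - B`; if `deg B = d` then `V = L(X - B)`. -/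
theorem exists_base {c₀ g : ℤ}
    (hfin : ∀ X : Divisor K F, Module.Finite K (riemannRochSpace X))
    (hR : ∀ X : Divisor K F, c₀ ≤ Divisor.degree X →
      (Module.finrank K (riemannRochSpace X) : ℤ) = Divisor.degree X + 1 - g)
    (hdeg : ∀ v : Place K F, v.deg = 1)
    {X : Divisor K F} {V : Submodule K F} (hV : V ≤ riemannRochSpace X) {d : ℕ}
    (hd : Module.finrank K (riemannRochSpace X) ≤ Module.finrank K V + d)
    (hX : c₀ + d + 1 ≤ Divisor.degree X) :
    ∃ B : Divisor K F, 0 ≤ B ∧ 0 ≤ Divisor.degree B ∧ Divisor.degree B ≤ d ∧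
      V ≤ riemannRochSpace (X - B) ∧
      (∀ v : Place K F, ¬ V ≤ riemannRochSpace (X - B - Finsupp.single v 1)) ∧
      (Divisor.degree B = d → V = riemannRochSpace (X - B)) := by
  obtain ⟨B, hB0, hBdeg0, hBd, hVB, hnb⟩ :=
    exists_base_aux hfin hR hdeg hd hX d 0 le_rfl (by simp) (by simpa using hV)
  refine ⟨B, hB0, hBdeg0, hBd, hVB, hnb, fun hBeq => ?_⟩
  have := hfin (X - B)
  refine Submodule.eq_of_le_of_finrank_le hVB ?_
  have hdeg1 : Divisor.degree (X - B) = Divisor.degree X - d := by rw [map_sub, hBeq]
  have h2 := hR (X - B) (by rw [hdeg1]; omega)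
  have h3 := hR X (by omega)
  rw [hdeg1] at h2
  omega

/-- **Pencil inside a subspace without base points.** -/
theorem exists_pencil_in [Infinite K]
    (hzp : ∀ f : F, f ≠ 0 → {v : Place K F | v.ord f ≠ 0}.Finite)
    {E : Divisor K F} {V : Submodule K F} (hVE : V ≤ riemannRochSpace E)
    (hnb : ∀ v : Place K F, ¬ V ≤ riemannRochSpace (E - Finsupp.single v 1))
    {s : F} (hs : s ∈ V) (hs0 : s ≠ 0) : ∃ t ∈ V, IsPencil E s t := by
  classical
  have hZ : {v : Place K F | v.ord s ≠ -E v}.Finite := by
    refine ((hzp s hs0).union E.support.finite_toSet).subset ?_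
    intro v hv
    by_contra hcon
    rw [Set.mem_union, not_or] at hcon
    obtain ⟨h1, h2⟩ := hcon
    have h1' : v.ord s = 0 := by
      by_contra h
      exact h1 h
    have h2' : E v = 0 := by
      by_contra h
      exact h2 (Finset.mem_coe.mpr (Finsupp.mem_support_iff.mpr h))
    apply hv
    rw [h1', h2', neg_zero]
  let Z : Finset (Place K F) := hZ.toFinset
  let p : Z → Submodule K V := fun v =>
    (riemannRochSpace (E - Finsupp.single (v : Place K F) 1)).comap V.subtype
  have hex : ∃ t : V, ∀ v : Z, t ∉ p v := by
    by_contra hcon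
    push Not at hcon
    have hcov : ⋃ v : Z, (p v : Set V) = Set.univ := by
      rw [Set.eq_univ_iff_forall]
      intro t
      obtain ⟨v, hv⟩ := hcon t
      exact Set.mem_iUnion.mpr ⟨v, hv⟩
    obtain ⟨v, hv⟩ := Subspace.exists_eq_top_of_iUnion_eq_univ hcov
    apply hnb v
    intro f hf
    have : (⟨f, hf⟩ : V) ∈ p v := by
      rw [hv]
      exact Submodule.mem_top
    exact this
  obtain ⟨t, ht⟩ := hex
  have ht' : ∀ v ∈ Z, (t : F) ∉ riemannRochSpace (E - Finsupp.single v 1) := by
    intro v hv hmem
    exact ht ⟨v, hv⟩ hmem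
  by_cases hZe : Z = ∅
  · refine ⟨s, hs, hVE hs, hVE hs, hs0, hs0, fun v => Or.inl ?_⟩
    by_contra hv
    have : v ∈ Z := hZ.mem_toFinset.mpr hv
    rw [hZe] at this
    exact absurd this (Finset.notMem_empty v)
  · obtain ⟨v₀, hv₀⟩ := Finset.nonempty_iff_ne_empty.mpr hZe
    have ht0 : (t : F) ≠ 0 := (ord_eq_of_not_mem (hVE t.2) (ht' v₀ hv₀)).1
    refine ⟨t, t.2, hVE hs, hVE t.2, hs0, ht0, fun v => ?_⟩
    by_cases hv : v.ord s = -E v
    · exact Or.inl hv
    · right
      have hvZ : v ∈ Z := hZ.mem_toFinset.mpr hv
      exact (ord_eq_of_not_mem (hVE t.2) (ht' v hvZ)).2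

/-- Adding one vector raises the dimension by at most one. -/
theorem finrank_sup_span_singleton_le (U : Submodule K F) [FiniteDimensional K U] (x : F) :
    Module.finrank K ↥(U ⊔ Submodule.span K {x}) ≤ Module.finrank K U + 1 := by
  have h := Submodule.finrank_add_le_finrank_add_finrank U (Submodule.span K {x})
  by_cases hx : x = 0
  · subst hx
    rw [Submodule.span_zero_singleton, sup_bot_eq]
    omega
  · rw [finrank_span_singleton hx] at h
    exact h

/-- A subspace of codimension `≤ 1` together with any vector outside it spans. -/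
theorem exists_eq_add_smul {U V' : Submodule K F} [FiniteDimensional K U] (hV'U : V' ≤ U)
    (hcodim : Module.finrank K U ≤ Module.finrank K V' + 1) {w : F} (hwU : w ∈ U)
    (hw : w ∉ V') {a : F} (ha : a ∈ U) : ∃ v' ∈ V', ∃ c : K, a = v' + c • w := by
  have hle : V' ⊔ Submodule.span K {w} ≤ U :=
    sup_le hV'U (by rw [Submodule.span_singleton_le_iff_mem]; exact hwU)
  have hsup : V' ⊔ Submodule.span K {w} = U := by
    refine Submodule.eq_of_le_of_finrank_le hle ?_
    have hlt : V' < V' ⊔ Submodule.span K {w} := by
      refine lt_of_le_of_ne le_sup_left fun heq => hw ?_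
      rw [heq]
      exact Submodule.mem_sup_right (Submodule.mem_span_singleton_self w)
    have : FiniteDimensional K ↥(V' ⊔ Submodule.span K {w}) :=
      Submodule.finiteDimensional_of_le hle
    have := Submodule.finrank_lt_finrank_of_lt hlt
    omega
  rw [← hsup, Submodule.mem_sup] at ha
  obtain ⟨v', hv', z, hz, rfl⟩ := ha
  obtain ⟨c, rfl⟩ := Submodule.mem_span_singleton.mp hz
  exact ⟨v', hv', c, rfl⟩

/-- **(ZL) Product-codimension bound.**  Let `V ≤ L(X)` have codimension `≤ d` and `V' ≤ L(X')`
codimension `≤ d' ≤ 1`, with `deg X ≥ c₀ + d + 1` and `deg X' ≥ 2 deg X + c₀` (`c₀ ≥ 0` a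
threshold from which Riemann's theorem is an equality).  Then the product `V * V'` (the span of
all products) has codimension `≤ d + d'` in `L(X + X')`. -/
theorem finrank_rr_add_le_finrank_mul [Infinite K] {c₀ g : ℤ} (hc₀ : 0 ≤ c₀)
    (hfin : ∀ X : Divisor K F, Module.Finite K (riemannRochSpace X))
    (hR : ∀ X : Divisor K F, c₀ ≤ Divisor.degree X →
      (Module.finrank K (riemannRochSpace X) : ℤ) = Divisor.degree X + 1 - g)
    (hdeg : ∀ v : Place K F, v.deg = 1)
    (hzp : ∀ f : F, f ≠ 0 → {v : Place K F | v.ord f ≠ 0}.Finite)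
    {X X' : Divisor K F} {V V' : Submodule K F}
    (hV : V ≤ riemannRochSpace X) (hV' : V' ≤ riemannRochSpace X') {d d' : ℕ}
    (hd : Module.finrank K (riemannRochSpace X) ≤ Module.finrank K V + d)
    (hd' : Module.finrank K (riemannRochSpace X') ≤ Module.finrank K V' + d') (hd'1 : d' ≤ 1)
    (hX : c₀ + d + 1 ≤ Divisor.degree X)
    (hX' : 2 * Divisor.degree X + c₀ ≤ Divisor.degree X') :
    Module.finrank K (riemannRochSpace (X + X'))
      ≤ Module.finrank K ↥(V * V' : Submodule K F) + d + d' := by
  classical
  obtain ⟨B, hB0, hBdeg0, hBd, hVB, hnb, hBeq⟩ := exists_base hfin hR hdeg hV hd hX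
  set E : Divisor K F := X - B with hE
  have hdegE : Divisor.degree E = Divisor.degree X - Divisor.degree B := map_sub _ _ _
  have hdegE1 : c₀ + 1 ≤ Divisor.degree E := by rw [hdegE]; omega
  have hdegE0 : 0 ≤ Divisor.degree E := by omega
  have hdegX'E' : Divisor.degree (X' - E) = Divisor.degree X' - Divisor.degree E :=
    map_sub _ _ _
  have hdegX'E : c₀ ≤ Divisor.degree (X' - E) := by
    rw [hdegX'E']; omega
  -- finite dimensionality
  have hfinX' := hfin X'
  have hfinXX' := hfin (X + X')
  have hfinX'E := hfin (X' + E)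
  have hVV'le : V * V' ≤ riemannRochSpace (X + X') := mul_le_rr hV hV'
  have hfinVV' : FiniteDimensional K ↥(V * V' : Submodule K F) :=
    Submodule.finiteDimensional_of_le hVV'le
  -- dimensions
  have hdegXX' : Divisor.degree (X + X') = Divisor.degree X + Divisor.degree X' :=
    map_add _ _ _
  have hdegX'E'' : Divisor.degree (X' + E) = Divisor.degree X' + Divisor.degree E :=
    map_add _ _ _
  have hdim1 := hR (X + X') (by rw [hdegXX']; omega)
  have hdim2 := hR (X' + E) (by rw [hdegX'E'']; omega)
  rw [hdegXX'] at hdim1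
  rw [hdegX'E''] at hdim2
  -- places exist
  have hne : Nonempty (Place K F) := by
    by_contra hemp
    rw [not_nonempty_iff] at hemp
    have hX0 : X = 0 := Subsingleton.elim _ _
    rw [hX0, map_zero] at hX
    omega
  obtain ⟨v₀⟩ := hne
  -- the key: a pencil `s, t ∈ V` gives `L(X') s + L(X') t = L(X' + E)`
  have key : ∀ s ∈ V, s ≠ 0 → ∃ t ∈ V,
      mulImage X' s ⊔ mulImage X' t = riemannRochSpace (X' + E) := by
    intro s hs hs0
    obtain ⟨t, ht, hpen⟩ := exists_pencil_in hzp hVB hnb hs hs0
    exact ⟨t, ht, hpen.sup_eq hfin hR hdegE0 hdegX'E⟩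
  by_cases hV'eq : V' = riemannRochSpace X'
  · -- `d' = 0`-type case: `V' = L(X')`
    obtain ⟨s, hs, hs'⟩ := SetLike.not_le_iff_exists.mp (hnb v₀)
    have hs0 : s ≠ 0 := by
      rintro rfl
      exact hs' (Submodule.zero_mem _)
    obtain ⟨t, ht, hsup⟩ := key s hs hs0
    have hle : riemannRochSpace (X' + E) ≤ V * V' := by
      rw [← hsup, hV'eq]
      refine sup_le ?_ ?_
      · exact mulSub_le_mul hs
      · exact mulSub_le_mul ht
    have h1 := Submodule.finrank_mono hle
    omega
  · -- `V'` is a hyperplane of `L(X')`
    have hlt : V' < riemannRochSpace X' := lt_of_le_of_ne hV' hV'eq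
    have hd'eq : d' = 1 := by
      have := Submodule.finrank_lt_finrank_of_lt hlt
      omega
    have hcodim : Module.finrank K (riemannRochSpace X') ≤ Module.finrank K V' + 1 := by
      omega
    by_cases hBlt : Divisor.degree B < d
    · -- base divisor of degree `< d`: lose at most two dimensions
      obtain ⟨s, hs, hs'⟩ := SetLike.not_le_iff_exists.mp (hnb v₀)
      have hs0 : s ≠ 0 := by
        rintro rfl
        exact hs' (Submodule.zero_mem _)
      obtain ⟨t, ht, hsup⟩ := key s hs hs0
      obtain ⟨w, hwX', hwV'⟩ := SetLike.exists_of_lt hlt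
      have hle : riemannRochSpace (X' + E)
          ≤ ((V * V' : Submodule K F) ⊔ Submodule.span K {w * s}) ⊔ Submodule.span K {w * t} := by
        rw [← hsup]
        refine sup_le ?_ ?_
        · intro x hx
          obtain ⟨a, ha, rfl⟩ := mem_mulImage.mp hx
          obtain ⟨v', hv', c, rfl⟩ := exists_eq_add_smul hV' hcodim hwX' hwV' ha
          rw [add_mul, smul_mul_assoc]
          refine Submodule.mem_sup_left (Submodule.add_mem _ (Submodule.mem_sup_left ?_)
            (Submodule.mem_sup_right ?_))
          · exact mulSub_le_mul hs (mem_mulSub.mpr ⟨v', hv', rfl⟩)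
          · exact Submodule.smul_mem _ _ (Submodule.mem_span_singleton_self _)
        · intro x hx
          obtain ⟨a, ha, rfl⟩ := mem_mulImage.mp hx
          obtain ⟨v', hv', c, rfl⟩ := exists_eq_add_smul hV' hcodim hwX' hwV' ha
          rw [add_mul, smul_mul_assoc]
          refine Submodule.add_mem _ (Submodule.mem_sup_left (Submodule.mem_sup_left ?_))
            (Submodule.mem_sup_right ?_)
          · exact mulSub_le_mul ht (mem_mulSub.mpr ⟨v', hv', rfl⟩)
          · exact Submodule.smul_mem _ _ (Submodule.mem_span_singleton_self _)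
      have hf1 : FiniteDimensional K
          ↥((V * V' : Submodule K F) ⊔ Submodule.span K {w * s}) := by
        infer_instance
      have hf2 : FiniteDimensional K
          ↥(((V * V' : Submodule K F) ⊔ Submodule.span K {w * s}) ⊔ Submodule.span K {w * t}) := by
        infer_instance
      have h1 := Submodule.finrank_mono hle
      have h2 := finrank_sup_span_singleton_le
        ((V * V' : Submodule K F) ⊔ Submodule.span K {w * s}) (w * t)
      have h3 := finrank_sup_span_singleton_le (V * V' : Submodule K F) (w * s)
      omega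
    · -- base divisor of degree exactly `d`: `V = L(E)`, lose at most one dimension
      have hBeq' : Divisor.degree B = d := le_antisymm hBd (not_lt.mp hBlt)
      have hVE : V = riemannRochSpace E := hBeq hBeq'
      have hmul : riemannRochSpace (X' - E) * riemannRochSpace E = riemannRochSpace X' := by
        have := rr_mul_eq hfin hR hdeg hzp (D := E) (E := X' - E) hdegE1 hdegE0
          (by rw [hdegX'E']; omega)
        rwa [sub_add_cancel] at this
      -- a product `u * s ∉ V'`
      have hex : ∃ u ∈ riemannRochSpace (X' - E), ∃ s ∈ riemannRochSpace E, u * s ∉ V' := by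
        by_contra hcon
        push Not at hcon
        have : riemannRochSpace (X' - E) * riemannRochSpace E ≤ V' := by
          rw [Submodule.mul_le]
          exact fun u hu s hs => hcon u hu s hs
        rw [hmul] at this
        exact hV'eq (le_antisymm hV' this)
      obtain ⟨u, hu, s, hsE, hus⟩ := hex
      have hs : s ∈ V := by rw [hVE]; exact hsE
      have hs0 : s ≠ 0 := by
        rintro rfl
        apply hus
        rw [mul_zero]
        exact Submodule.zero_mem _
      obtain ⟨t, ht, hsup⟩ := key s hs hs0
      have htE : t ∈ riemannRochSpace E := by rw [← hVE]; exact ht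
      have hmem : ∀ y ∈ riemannRochSpace E, u * y ∈ riemannRochSpace X' := by
        intro y hy
        have := mul_mem_rr hu hy
        rwa [sub_add_cancel] at this
      have husX' := hmem s hsE
      have hutX' := hmem t htE
      have hle : riemannRochSpace (X' + E)
          ≤ (V * V' : Submodule K F) ⊔ Submodule.span K {u * s * s} := by
        rw [← hsup]
        refine sup_le ?_ ?_
        · intro x hx
          obtain ⟨a, ha, rfl⟩ := mem_mulImage.mp hx
          obtain ⟨v', hv', c, rfl⟩ := exists_eq_add_smul hV' hcodim husX' hus ha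
          rw [add_mul, smul_mul_assoc]
          refine Submodule.add_mem _ (Submodule.mem_sup_left ?_) (Submodule.mem_sup_right ?_)
          · exact mulSub_le_mul hs (mem_mulSub.mpr ⟨v', hv', rfl⟩)
          · exact Submodule.smul_mem _ _ (Submodule.mem_span_singleton_self _)
        · intro x hx
          obtain ⟨a, ha, rfl⟩ := mem_mulImage.mp hx
          obtain ⟨v', hv', c, rfl⟩ := exists_eq_add_smul hV' hcodim husX' hus ha
          obtain ⟨v'', hv'', c', hut⟩ := exists_eq_add_smul hV' hcodim husX' hus hutX'
          have hcalc : (v' + c • (u * s)) * t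
              = v' * t + (c • (v'' * s) + (c * c') • (u * s * s)) := by
            have h1 : u * s * t = u * t * s := by ring
            rw [add_mul, smul_mul_assoc, h1, hut, add_mul, smul_mul_assoc, smul_add, smul_smul]
          rw [hcalc]
          refine Submodule.add_mem _ (Submodule.mem_sup_left ?_)
            (Submodule.add_mem _ (Submodule.mem_sup_left ?_) (Submodule.mem_sup_right ?_))
          · exact mulSub_le_mul ht (mem_mulSub.mpr ⟨v', hv', rfl⟩)
          · exact Submodule.smul_mem _ _ (mulSub_le_mul hs (mem_mulSub.mpr ⟨v'', hv'', rfl⟩))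
          · exact Submodule.smul_mem _ _ (Submodule.mem_span_singleton_self _)
      have hf1 : FiniteDimensional K
          ↥((V * V' : Submodule K F) ⊔ Submodule.span K {u * s * s}) := by
        infer_instance
      have h1 := Submodule.finrank_mono hle
      have h3 := finrank_sup_span_singleton_le (V * V' : Submodule K F) (u * s * s)
      omega

/-- **(ZL) at a base place**: the special case `X = n • P0`, `X' = n' • P0` of
`finrank_rr_add_le_finrank_mul`. -/
theorem finrank_rr_smul_single_le_finrank_mul [Infinite K] {c₀ g : ℤ} (hc₀ : 0 ≤ c₀)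
    (hfin : ∀ X : Divisor K F, Module.Finite K (riemannRochSpace X))
    (hR : ∀ X : Divisor K F, c₀ ≤ Divisor.degree X →
      (Module.finrank K (riemannRochSpace X) : ℤ) = Divisor.degree X + 1 - g)
    (hdeg : ∀ v : Place K F, v.deg = 1)
    (hzp : ∀ f : F, f ≠ 0 → {v : Place K F | v.ord f ≠ 0}.Finite)
    (P0 : Place K F) {n n' : ℤ} {V V' : Submodule K F}
    (hV : V ≤ riemannRochSpace (Finsupp.single P0 n))
    (hV' : V' ≤ riemannRochSpace (Finsupp.single P0 n')) {d d' : ℕ}
    (hd : Module.finrank K (riemannRochSpace (Finsupp.single P0 n)) ≤ Module.finrank K V + d)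
    (hd' : Module.finrank K (riemannRochSpace (Finsupp.single P0 n'))
      ≤ Module.finrank K V' + d') (hd'1 : d' ≤ 1)
    (hn : c₀ + d + 1 ≤ n) (hn' : 2 * n + c₀ ≤ n') :
    Module.finrank K (riemannRochSpace (Finsupp.single P0 (n + n')))
      ≤ Module.finrank K ↥(V * V' : Submodule K F) + d + d' := by
  have h1 : Divisor.degree (Finsupp.single P0 n) = n := by
    rw [Divisor.degree_single, hdeg P0]; simp
  have h2 : Divisor.degree (Finsupp.single P0 n') = n' := by
    rw [Divisor.degree_single, hdeg P0]; simp
  have := finrank_rr_add_le_finrank_mul hc₀ hfin hR hdeg hzp hV hV' hd hd' hd'1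
    (by rw [h1]; exact hn) (by rw [h1, h2]; exact hn')
  rwa [← Finsupp.single_add] at this

/-- **(IND), interpolation form.**  For `k` distinct places `P i` and `deg X ≥ c₀ + k` there is,
for every `i`, a function `f ∈ L(X)` of exact order `-X (P i)` at `P i` and of order
`> -X (P j)` at the other `P j`.  (With `X (P j) = 0`: `f` is a unit at `P i` and vanishes at
the other `P j`, so the evaluations at the `P i` are linearly independent on `L(X)`.) -/
theorem exists_lagrange {c₀ g : ℤ}
    (hR : ∀ X : Divisor K F, c₀ ≤ Divisor.degree X →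
      (Module.finrank K (riemannRochSpace X) : ℤ) = Divisor.degree X + 1 - g)
    (hdeg : ∀ v : Place K F, v.deg = 1)
    {X : Divisor K F} {k : ℕ} (P : Fin k → Place K F) (hP : Function.Injective P)
    (hX : c₀ + k ≤ Divisor.degree X) (i : Fin k) :
    ∃ f ∈ riemannRochSpace X, f ≠ 0 ∧ (P i).ord f = -X (P i) ∧
      ∀ j, j ≠ i → -X (P j) + 1 ≤ (P j).ord f := by
  classical
  set T : Divisor K F := ∑ j ∈ Finset.univ.erase i, Finsupp.single (P j) (1 : ℤ) with hT
  have hval : ∀ l : Fin k, T (P l) = if l = i then 0 else 1 := by
    intro l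
    rw [hT, Finsupp.finsetSum_apply]
    simp only [Finsupp.single_apply, hP.eq_iff]
    rw [Finset.sum_ite_eq' (Finset.univ.erase i) l (fun _ => (1 : ℤ))]
    simp [Finset.mem_erase]
  have hdegT : Divisor.degree T = (k : ℤ) - 1 := by
    rw [hT, map_sum]
    simp only [Divisor.degree_single, hdeg, Nat.cast_one, mul_one]
    rw [Finset.sum_const, Finset.card_erase_of_mem (Finset.mem_univ i), Finset.card_univ,
      Fintype.card_fin]
    have hk : 1 ≤ k := Nat.one_le_iff_ne_zero.mpr (fun h => by subst h; exact i.elim0)
    simp [Nat.cast_sub hk]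
  have hT0 : 0 ≤ T := by
    rw [hT]
    refine Finset.sum_nonneg fun j _ => ?_
    intro w
    rw [Finsupp.coe_zero, Pi.zero_apply, Finsupp.single_apply]
    split_ifs <;> norm_num
  have hdegD : Divisor.degree (X - T) = Divisor.degree X - ((k : ℤ) - 1) := by
    rw [map_sub, hdegT]
  have hlt := rr_sub_single_lt hR (D := X - T) (by rw [hdegD]; omega) (P i) (hdeg (P i))
  obtain ⟨f, hf, hf'⟩ := SetLike.exists_of_lt hlt
  obtain ⟨hf0, hord⟩ := ord_eq_of_not_mem hf hf'
  refine ⟨f, rr_mono (sub_le_self X hT0) hf, hf0, ?_, fun j hj => ?_⟩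
  · rw [hord, Finsupp.sub_apply, hval i, if_pos rfl, sub_zero]
  · have h := (mem_riemannRochSpace_iff.mp hf (P j)).resolve_left hf0
    rw [Finsupp.sub_apply, hval j, if_neg hj] at h
    omega

end Core

/-! ## (ZL) in coordinates: frames and structure constants -/

section Coordinates

variable {K : Type*} {F : Type*} [Field K] [Field F] [Algebra K F]
variable {ι ι' ι'' κ κ' : Type*} [Fintype ι] [Fintype ι'] [Fintype ι'']

/-- Coordinates (in the third basis) of the product of the vectors with coordinates `u`, `v`,
for structure constants `μ`: `prodVec μ u v c = ∑ a b, u a * v b * μ a b c`. -/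
def prodVec (μ : ι → ι' → ι'' → K) (u : ι → K) (v : ι' → K) : ι'' → K :=
  fun c => ∑ a, ∑ b, u a * v b * μ a b c

omit [Fintype ι''] in
theorem prodVec_apply (μ : ι → ι' → ι'' → K) (u : ι → K) (v : ι' → K) (c : ι'') :
    prodVec μ u v c = ∑ a, ∑ b, u a * v b * μ a b c := rfl

/-- Multiplication in coordinates. -/
theorem linearCombination_mul_linearCombination {e : ι → F} {e' : ι' → F} {e'' : ι'' → F}
    {μ : ι → ι' → ι'' → K} (hμ : ∀ a b, e a * e' b = ∑ c, μ a b c • e'' c)
    (u : ι → K) (v : ι' → K) :
    Fintype.linearCombination K e u * Fintype.linearCombination K e' v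
      = Fintype.linearCombination K e'' (prodVec μ u v) := by
  simp only [Fintype.linearCombination_apply, prodVec_apply]
  rw [Finset.sum_mul_sum]
  simp only [smul_mul_smul_comm, hμ, Finset.smul_sum, Finset.sum_smul, smul_smul]
  rw [Finset.sum_comm (s := (Finset.univ : Finset ι''))]
  refine Finset.sum_congr rfl fun a _ => ?_
  rw [Finset.sum_comm]

/-- **(ZL) in coordinates.**  Let `e`, `e'`, `e''` be bases of `L(X)`, `L(X')`, `L(X + X')` with
structure constants `μ` (`e a * e' b = ∑ c, μ a b c • e'' c`).  For linearly independent frames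
`x : κ → ι → K` (codimension `≤ d`) and `y : κ' → ι' → K` (codimension `≤ d' ≤ 1`), the family of
coordinate vectors of all products, `prodVec μ (x i) (y j)`, spans a subspace of `K^ι''` of
codimension `≤ d + d'`. -/
theorem card_le_finrank_span_prodVec [Infinite K] [Fintype κ] [Fintype κ'] {c₀ g : ℤ}
    (hc₀ : 0 ≤ c₀)
    (hfin : ∀ X : Divisor K F, Module.Finite K (riemannRochSpace X))
    (hR : ∀ X : Divisor K F, c₀ ≤ Divisor.degree X →
      (Module.finrank K (riemannRochSpace X) : ℤ) = Divisor.degree X + 1 - g)
    (hdeg : ∀ v : Place K F, v.deg = 1)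
    (hzp : ∀ f : F, f ≠ 0 → {v : Place K F | v.ord f ≠ 0}.Finite)
    {X X' : Divisor K F} {e : ι → F} {e' : ι' → F} {e'' : ι'' → F}
    (he : LinearIndependent K e) (he' : LinearIndependent K e') (he'' : LinearIndependent K e'')
    (hspan : Submodule.span K (Set.range e) = riemannRochSpace X)
    (hspan' : Submodule.span K (Set.range e') = riemannRochSpace X')
    (hspan'' : Submodule.span K (Set.range e'') = riemannRochSpace (X + X'))
    {μ : ι → ι' → ι'' → K} (hμ : ∀ a b, e a * e' b = ∑ c, μ a b c • e'' c)
    {x : κ → ι → K} {y : κ' → ι' → K} (hx : LinearIndependent K x) (hy : LinearIndependent K y)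
    {d d' : ℕ} (hd : Fintype.card ι ≤ Fintype.card κ + d)
    (hd' : Fintype.card ι' ≤ Fintype.card κ' + d') (hd'1 : d' ≤ 1)
    (hX : c₀ + d + 1 ≤ Divisor.degree X)
    (hX' : 2 * Divisor.degree X + c₀ ≤ Divisor.degree X') :
    Fintype.card ι'' ≤ Module.finrank K
      ↥(Submodule.span K (Set.range fun p : κ × κ' => prodVec μ (x p.1) (y p.2))) + d + d' := by
  classical
  have hinj : Function.Injective (Fintype.linearCombination K e) :=
    linearIndependent_iff_injective_fintypeLinearCombination.mp he
  have hinj' : Function.Injective (Fintype.linearCombination K e') :=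
    linearIndependent_iff_injective_fintypeLinearCombination.mp he'
  have hinj'' : Function.Injective (Fintype.linearCombination K e'') :=
    linearIndependent_iff_injective_fintypeLinearCombination.mp he''
  -- the two subspaces
  set V : Submodule K F :=
    (Submodule.span K (Set.range x)).map (Fintype.linearCombination K e) with hVdef
  set V' : Submodule K F :=
    (Submodule.span K (Set.range y)).map (Fintype.linearCombination K e') with hV'def
  have hV : V ≤ riemannRochSpace X := by
    rw [← hspan, ← Fintype.range_linearCombination]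
    exact LinearMap.map_le_range
  have hV' : V' ≤ riemannRochSpace X' := by
    rw [← hspan', ← Fintype.range_linearCombination]
    exact LinearMap.map_le_range
  have hfV : Module.finrank K V = Fintype.card κ := by
    rw [hVdef, (Submodule.equivMapOfInjective _ hinj _).finrank_eq.symm,
      finrank_span_eq_card hx]
  have hfV' : Module.finrank K V' = Fintype.card κ' := by
    rw [hV'def, (Submodule.equivMapOfInjective _ hinj' _).finrank_eq.symm,
      finrank_span_eq_card hy]
  have hfX : Module.finrank K (riemannRochSpace X) = Fintype.card ι := by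
    rw [← hspan, finrank_span_eq_card he]
  have hfX' : Module.finrank K (riemannRochSpace X') = Fintype.card ι' := by
    rw [← hspan', finrank_span_eq_card he']
  have hfX'' : Module.finrank K (riemannRochSpace (X + X')) = Fintype.card ι'' := by
    rw [← hspan'', finrank_span_eq_card he'']
  -- the product in coordinates
  have hprod : V * V' = (Submodule.span K
      (Set.range fun p : κ × κ' => prodVec μ (x p.1) (y p.2))).map
        (Fintype.linearCombination K e'') := by
    rw [hVdef, hV'def, Submodule.map_span, Submodule.map_span, Submodule.map_span,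
      Submodule.span_mul_span]
    congr 1
    ext z
    constructor
    · rintro ⟨_, ⟨_, ⟨i, rfl⟩, rfl⟩, _, ⟨_, ⟨j, rfl⟩, rfl⟩, rfl⟩
      exact ⟨_, ⟨(i, j), rfl⟩, (linearCombination_mul_linearCombination hμ _ _).symm⟩
    · rintro ⟨_, ⟨p, rfl⟩, rfl⟩
      exact ⟨_, ⟨_, ⟨p.1, rfl⟩, rfl⟩, _, ⟨_, ⟨p.2, rfl⟩, rfl⟩,
        linearCombination_mul_linearCombination hμ _ _⟩
  have hfprod : Module.finrank K ↥(V * V' : Submodule K F) = Module.finrank K
      ↥(Submodule.span K (Set.range fun p : κ × κ' => prodVec μ (x p.1) (y p.2))) := by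
    rw [hprod]
    exact (Submodule.equivMapOfInjective _ hinj'' _).finrank_eq.symm
  have hZL := finrank_rr_add_le_finrank_mul hc₀ hfin hR hdeg hzp hV hV'
    (d := d) (d' := d') (by rw [hfX, hfV]; exact hd) (by rw [hfX', hfV']; exact hd') hd'1 hX hX'
  rw [hfX'', hfprod] at hZL
  exact hZL

end Coordinates

end

end Fermat.Agent.S17.helper2744
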