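import Fermat.Agent.S17.helper2139_UBSpec
import Fermat.Agent.S17.helper3436_MulSpec
import Fermat.Agent.S17.helper1935_RatDesc
import Fermat.Agent.S27.helper4586_Ev

/-!
# S17, track (C) "G2-UB": the carrier side of the chart-free cube law — definitions

Carrier adapter between the Pluecker Spec (`helper3197_PlueckerSpec`) and the abstract core
`helper2139.CubeAbsStmt` (`helper2139_UBSpec`):

* `frEl fr n a`   the `a`-th basis element of `A_n` of the frame, as an element of `F₀`;
* `frB fr n a`    its image in `FB F₀` (`= ratEmb (frEl fr n a)`);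
* `grMul fr`      **(a)** the graded multiplication `helper2139.GrMul` of a frame:
                  `N := fr.n`, `μ n n' a b c := ` the `c`-th coordinate of `b_n a * b_n' b`
                  in the basis of `A_{n+n'}`;
* `fam fr Pl`     **(b)** the point family of a place `Pl`:
                  `fam fr Pl n a := ev Pl (ratEmb (fr.b n a))`;
* `fam_mulAt`     multiplicativity `GrMul.MulAt (fam fr Pl) n n'` for every place `Pl ≠ P0`
                  (all of whose regular functions have values);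
* `linearIndependent_frB`, `span_frB`  the vectors `frB fr n a` form a `ℚ̄`-basis of `L(n P0)`
                  (from `RatDescSpec` and linear disjointness);
* `frB_mul`       the structure constants over `ℚ̄`.
-/

set_option autoImplicit false

open ModularCurve AlgebraicCurve
open Fermat.Agent.S27.helper6247 (ev pt)
open Fermat.Agent.S27.helper4586 (HasValues)
open Fermat.Agent.S17.helper3197
open Fermat.Agent.S17.helper2139

namespace Fermat.Agent.S17.helper2744

noncomputable section

variable {F₀ : IntermediateField ℚ (LaurentSeries ℚ)} {P0 : Place Qb (FB F₀)}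

/-- The `a`-th basis element of `A_n` of a frame, as an element of `F₀`. -/
def frEl (fr : Frame F₀ P0) (n : ℤ) (a : Fin (fr.n n)) : F₀ :=
  ((fr.b n a : ↥(Alev F₀ P0 n)) : F₀)

theorem frEl_mem (fr : Frame F₀ P0) (n : ℤ) (a : Fin (fr.n n)) : frEl fr n a ∈ Alev F₀ P0 n :=
  (fr.b n a).2

theorem frEl_mul_mem (fr : Frame F₀ P0) (n n' : ℤ) (a : Fin (fr.n n)) (b : Fin (fr.n n')) :
    frEl fr n a * frEl fr n' b ∈ Alev F₀ P0 (n + n') := by
  have h := helper3436.mul_mem_Alev F₀ P0 (frEl_mem fr n' b) (frEl_mem fr n a)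
  rwa [mul_comm] at h

/-- The `ℚ`-linear independence of the basis elements inside `F₀`. -/
theorem linearIndependent_frEl (fr : Frame F₀ P0) (n : ℤ) :
    LinearIndependent ℚ (frEl fr n) :=
  (fr.b n).linearIndependent.map' (Alev F₀ P0 n).subtype (Submodule.ker_subtype _)

/-- **(a)** The graded multiplication of a frame: `N := fr.n`, and `μ n n' a b c` is the `c`-th
coordinate of the product `b_n a * b_n' b ∈ A_{n+n'}` in the basis of `A_{n+n'}`. -/
@[reducible] def grMul (fr : Frame F₀ P0) : GrMul where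
  N := fr.n
  μ n n' a b c := (fr.b (n + n')).repr ⟨frEl fr n a * frEl fr n' b, frEl_mul_mem fr n n' a b⟩ c

theorem grMul_N (fr : Frame F₀ P0) (n : ℤ) : (grMul fr).N n = fr.n n := rfl

theorem grMul_μ (fr : Frame F₀ P0) (n n' : ℤ) (a : Fin (fr.n n)) (b : Fin (fr.n n'))
    (c : Fin (fr.n (n + n'))) :
    (grMul fr).μ n n' a b c
      = (fr.b (n + n')).repr ⟨frEl fr n a * frEl fr n' b, frEl_mul_mem fr n n' a b⟩ c := rfl

/-- The structure constants over `ℚ`: `b_n a * b_n' b = ∑ c, μ n n' a b c • b_{n+n'} c`. -/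
theorem frEl_mul (fr : Frame F₀ P0) (n n' : ℤ) (a : Fin (fr.n n)) (b : Fin (fr.n n')) :
    frEl fr n a * frEl fr n' b = ∑ c, (grMul fr).μ n n' a b c • frEl fr (n + n') c := by
  have h := (fr.b (n + n')).sum_repr ⟨frEl fr n a * frEl fr n' b, frEl_mul_mem fr n n' a b⟩
  have h2 := congrArg (Alev F₀ P0 (n + n')).subtype h
  rw [map_sum] at h2
  simp only [map_smul, Submodule.subtype_apply] at h2
  exact h2.symm

/-- The `a`-th basis element of `A_n` inside the function field `FB F₀` over `ℚ̄`. -/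
def frB (fr : Frame F₀ P0) (n : ℤ) (a : Fin (fr.n n)) : FB F₀ := ratEmb F₀ (frEl fr n a)

theorem frB_mem (fr : Frame F₀ P0) (n : ℤ) (a : Fin (fr.n n)) :
    frB fr n a ∈ riemannRochSpace (n • pt P0) := frEl_mem fr n a

/-- The structure constants over `ℚ̄`. -/
theorem frB_mul (fr : Frame F₀ P0) (n n' : ℤ) (a : Fin (fr.n n)) (b : Fin (fr.n n')) :
    frB fr n a * frB fr n' b
      = ∑ c, algebraMap ℚ Qb ((grMul fr).μ n n' a b c) • frB fr (n + n') c := by
  unfold frB
  rw [← map_mul, frEl_mul, map_sum]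
  refine Finset.sum_congr rfl fun c _ => ?_
  rw [helper3436.ratEmb_smul]
  rfl

/-- The vectors `frB fr n a` are linearly independent over `ℚ̄` (linear disjointness). -/
theorem linearIndependent_frB (fr : Frame F₀ P0) (n : ℤ) :
    LinearIndependent Qb (frB fr n) :=
  helper1935.linDisjSpec F₀ (fr.n n) (frEl fr n) (linearIndependent_frEl fr n)

/-- The vectors `frB fr n a` span `L(n P0)` over `ℚ̄` (Galois descent). -/
theorem span_frB (hQ : RatDescSpec F₀) (hP0 : IsRatPlace F₀ P0) (fr : Frame F₀ P0) (n : ℤ)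
    [Module.Finite Qb (riemannRochSpace (n • pt P0 : Divisor Qb (FB F₀)))] :
    Submodule.span Qb (Set.range (frB fr n)) = riemannRochSpace (n • pt P0) := by
  have hle : Submodule.span Qb (Set.range (frB fr n)) ≤ riemannRochSpace (n • pt P0) := by
    rw [Submodule.span_le]
    rintro _ ⟨a, rfl⟩
    exact frB_mem fr n a
  refine Submodule.eq_of_le_of_finrank_eq hle ?_
  rw [finrank_span_eq_card (linearIndependent_frB fr n), Fintype.card_fin]
  exact helper1935.Frame.n_eq fr hQ hP0 n

/-- Elements of `L(n P0)` are regular at every place `Pl ≠ P0`. -/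
theorem ord_nonneg_of_mem_level {Pl : Place Qb (FB F₀)} (hPl : Pl ≠ P0) {n : ℤ} {f : FB F₀}
    (hf : f ∈ riemannRochSpace (n • pt P0)) : 0 ≤ Pl.ord f := by
  classical
  rcases (mem_riemannRochSpace_iff.mp hf) Pl with h | h
  · rw [h, Place.ord_zero]
  · have h0 : (n • pt P0 : Divisor Qb (FB F₀)) Pl = 0 := by
      rw [Finsupp.smul_apply]
      unfold pt
      rw [Finsupp.single_apply, if_neg (Ne.symm hPl), smul_zero]
    rw [h0, neg_zero] at h
    exact h

theorem ord_frB_nonneg (fr : Frame F₀ P0) {Pl : Place Qb (FB F₀)} (hPl : Pl ≠ P0) (n : ℤ)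
    (a : Fin (fr.n n)) : 0 ≤ Pl.ord (frB fr n a) :=
  ord_nonneg_of_mem_level hPl (frB_mem fr n a)

/-- **(b)** The point family of a place `Pl`: its evaluation vector at every level,
`fam fr Pl n a = ev Pl (ratEmb (fr.b n a))`. -/
def fam (fr : Frame F₀ P0) (Pl : Place Qb (FB F₀)) : (grMul fr).Fam Qb :=
  fun n a => ev Pl (frB fr n a)

theorem fam_apply (fr : Frame F₀ P0) (Pl : Place Qb (FB F₀)) (n : ℤ) (a : Fin (fr.n n)) :
    fam fr Pl n a = ev Pl (ratEmb F₀ ((fr.b n a : ↥(Alev F₀ P0 n)) : F₀)) := rfl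

/-- **(b)** Multiplicativity of the point family of a place `Pl ≠ P0`. -/
theorem fam_mulAt (fr : Frame F₀ P0) {Pl : Place Qb (FB F₀)} (hPl : Pl ≠ P0)
    (hval : HasValues Pl) (n n' : ℤ) : GrMul.MulAt (fam fr Pl) n n' := by
  intro a b
  show ev Pl (frB fr n a) * ev Pl (frB fr n' b)
    = ∑ c, algebraMap ℚ Qb ((grMul fr).μ n n' a b c) * ev Pl (frB fr (n + n') c)
  rw [← Fermat.Agent.S27.helper4586.ev_mul hval (ord_frB_nonneg fr hPl n a)
    (ord_frB_nonneg fr hPl n' b), frB_mul,
    Fermat.Agent.S27.helper4586.ev_sum hval]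
  · refine Finset.sum_congr rfl fun c _ => ?_
    exact Fermat.Agent.S27.helper4586.ev_smul hval _ (ord_frB_nonneg fr hPl (n + n') c)
  · intro c _
    exact ord_nonneg_of_mem_level hPl
      (Submodule.smul_mem _ _ (frB_mem fr (n + n') c))

/-- Evaluation at `Pl ≠ P0` of a `ℚ̄`-combination of the basis of `L(n P0)`. -/
theorem ev_sum_smul_frB (fr : Frame F₀ P0) {Pl : Place Qb (FB F₀)} (hPl : Pl ≠ P0)
    (hval : HasValues Pl) (n : ℤ) (u : Fin (fr.n n) → Qb) :
    ev Pl (∑ a, u a • frB fr n a) = ∑ a, u a * fam fr Pl n a := by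
  rw [Fermat.Agent.S27.helper4586.ev_sum hval]
  · refine Finset.sum_congr rfl fun a _ => ?_
    exact Fermat.Agent.S27.helper4586.ev_smul hval _ (ord_frB_nonneg fr hPl n a)
  · intro a _
    exact ord_nonneg_of_mem_level hPl (Submodule.smul_mem _ _ (frB_mem fr n a))

end

end Fermat.Agent.S17.helper2744
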