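import Fermat.Agent.S17.helper2744_UBCarrier
import Fermat.Agent.S17.helper2744_ProdCodim
import Fermat.Agent.S17.helper2853_PencilInst

/-!
# S17, track (C) "G2-UB": the carrier side of the chart-free cube law — wiring

* `exists_ZL_bound`        **(c)** the geometric input (ZL) of `helper2139.CubeAbsStmt` for the
                           graded multiplication `grMul fr` of a frame, in the range
                           `d + a₀ ≤ n`, `2 n + a₀ ≤ n'`, `d' ≤ 1`;
* `exists_tuple_of_reduced` **(f)** an effective multiplicity-free divisor of degree `d` is the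
                           sum of an injective `d`-tuple of places;
* `exists_tuples_of_admTriple` **(f)** an admissible triple gives three injective tuples of
                           places off `P0`, jointly injective;
* `cubeSpec_of_core`       the leaf `helper3197.CubeSpec F₀ P0` from the abstract core
                           `helper2139.CubeAbsStmt`, (IND) in the `Indep` shape and the
                           identification `Phi = htMin` (PHIEV), with `n₀ = 1`.
-/

set_option autoImplicit false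

open ModularCurve AlgebraicCurve IntermediateField
open Fermat.Agent.S27.helper6247 (ev pt sumDiv)
open Fermat.Agent.S27.helper4586 (HasValues)
open Fermat.Agent.S17.helper3197
open Fermat.Agent.S17.helper2139

namespace Fermat.Agent.S17.helper2744

noncomputable section

/-! ## (f) Reduced effective divisors are sums of injective tuples of places -/

section Tuples

variable {K : Type*} {F : Type*} [Field K] [Field F] [Algebra K F]

theorem sumDiv_append {m n : ℕ} (a : Fin m → Place K F) (b : Fin n → Place K F) :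
    sumDiv (Fin.append a b) = sumDiv a + sumDiv b := by
  unfold sumDiv
  rw [Fin.sum_univ_add]
  simp only [Fin.append_left, Fin.append_right]

/-- An effective, multiplicity-free divisor of degree `d` (all places of degree one) is the sum
of an injective `d`-tuple of places, whose range is the support. -/
theorem exists_tuple_of_reduced (hdeg : ∀ v : Place K F, v.deg = 1) {D : Divisor K F}
    (h0 : 0 ≤ D) (h1 : ∀ v, D v ≤ 1) {d : ℕ} (hd : Divisor.degree D = d) :
    ∃ Pl : Fin d → Place K F, Function.Injective Pl ∧ D = sumDiv Pl ∧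
      ∀ v, v ∈ Set.range Pl ↔ D v ≠ 0 := by
  classical
  have hval : ∀ v ∈ D.support, D v = 1 := by
    intro v hv
    have h2 : 0 ≤ D v := Finsupp.le_def.mp h0 v
    have h3 : D v ≠ 0 := Finsupp.mem_support_iff.mp hv
    have h4 := h1 v
    omega
  have hcard : D.support.card = d := by
    have h2 : Divisor.degree D = ∑ v ∈ D.support, D v := by
      simp [Divisor.degree, Finsupp.sum, hdeg]
    rw [hd, Finset.sum_congr rfl hval, Finset.sum_const, nsmul_eq_mul, mul_one] at h2
    exact_mod_cast h2.symm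
  let ε : Fin d ≃ D.support := (finCongr hcard.symm).trans D.support.equivFin.symm
  refine ⟨fun i => (ε i : Place K F), ?_, ?_, ?_⟩
  · intro i j hij
    exact ε.injective (Subtype.ext hij)
  · unfold sumDiv
    rw [Equiv.sum_comp ε (fun w : D.support => pt (w : Place K F)),
      Finset.sum_coe_sort D.support (fun v => pt v)]
    have h2 : ∑ v ∈ D.support, (pt v : Divisor K F) = ∑ v ∈ D.support, Finsupp.single v (D v) := by
      refine Finset.sum_congr rfl fun v hv => ?_
      rw [hval v hv]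
      rfl
    rw [h2]
    exact (Finsupp.sum_single D).symm
  · intro v
    constructor
    · rintro ⟨i, rfl⟩
      exact Finsupp.mem_support_iff.mp (ε i).2
    · intro hv
      exact ⟨ε.symm ⟨v, Finsupp.mem_support_iff.mpr hv⟩, by simp⟩

end Tuples

section Carrier

variable {F₀ : IntermediateField ℚ (LaurentSeries ℚ)} {P0 : Place Qb (FB F₀)}

/-- **(f)** An admissible triple of degree `d` gives three injective `d`-tuples of places off
`P0`, jointly injective, with `D_s = sumDiv Pl_s`. -/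
theorem exists_tuples_of_admTriple (hdeg : ∀ v : Place Qb (FB F₀), v.deg = 1) {d : ℕ}
    {D₁ D₂ D₃ : Divisor Qb (FB F₀)} (h : IsAdmTriple F₀ P0 (d : ℤ) D₁ D₂ D₃) :
    ∃ Pl₁ Pl₂ Pl₃ : Fin d → Place Qb (FB F₀),
      D₁ = sumDiv Pl₁ ∧ D₂ = sumDiv Pl₂ ∧ D₃ = sumDiv Pl₃ ∧
      Function.Injective (Fin.append (Fin.append Pl₁ Pl₂) Pl₃) ∧
      (∀ i, Pl₁ i ≠ P0) ∧ (∀ i, Pl₂ i ≠ P0) ∧ (∀ i, Pl₃ i ≠ P0) := by
  have e1 : ∀ v, 0 ≤ D₁ v := fun v => Finsupp.le_def.mp h.eff₁ v
  have e2 : ∀ v, 0 ≤ D₂ v := fun v => Finsupp.le_def.mp h.eff₂ v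
  have e3 : ∀ v, 0 ≤ D₃ v := fun v => Finsupp.le_def.mp h.eff₃ v
  have hsum : ∀ v, (D₁ + D₂ + D₃) v = D₁ v + D₂ v + D₃ v := fun v => by
    rw [Finsupp.add_apply, Finsupp.add_apply]
  have hred : ∀ v, D₁ v + D₂ v + D₃ v ≤ 1 := fun v => by
    rw [← hsum]
    exact h.red v
  have hoff : D₁ P0 + D₂ P0 + D₃ P0 = 0 := by
    rw [← hsum]
    exact h.off
  obtain ⟨Pl₁, hi₁, hs₁, hr₁⟩ := exists_tuple_of_reduced hdeg h.eff₁
    (fun v => by have := hred v; have := e2 v; have := e3 v; omega) h.deg₁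
  obtain ⟨Pl₂, hi₂, hs₂, hr₂⟩ := exists_tuple_of_reduced hdeg h.eff₂
    (fun v => by have := hred v; have := e1 v; have := e3 v; omega) h.deg₂
  obtain ⟨Pl₃, hi₃, hs₃, hr₃⟩ := exists_tuple_of_reduced hdeg h.eff₃
    (fun v => by have := hred v; have := e1 v; have := e2 v; omega) h.deg₃
  have n1 : ∀ i, D₁ (Pl₁ i) ≠ 0 := fun i => (hr₁ _).mp ⟨i, rfl⟩
  have n2 : ∀ i, D₂ (Pl₂ i) ≠ 0 := fun i => (hr₂ _).mp ⟨i, rfl⟩
  have n3 : ∀ i, D₃ (Pl₃ i) ≠ 0 := fun i => (hr₃ _).mp ⟨i, rfl⟩
  refine ⟨Pl₁, Pl₂, Pl₃, hs₁, hs₂, hs₃, ?_, ?_, ?_, ?_⟩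
  · rw [Fin.append_injective_iff, Fin.append_injective_iff]
    refine ⟨⟨hi₁, hi₂, fun i j hij => ?_⟩, hi₃, fun i j hij => ?_⟩
    · have a1 := n1 i
      have a2 := n2 j
      rw [← hij] at a2
      have := hred (Pl₁ i); have := e1 (Pl₁ i); have := e2 (Pl₁ i); have := e3 (Pl₁ i)
      omega
    · have a3 := n3 j
      rw [← hij] at a3
      have := hred (Fin.append Pl₁ Pl₂ i)
      have := e1 (Fin.append Pl₁ Pl₂ i)
      have := e2 (Fin.append Pl₁ Pl₂ i)
      have := e3 (Fin.append Pl₁ Pl₂ i)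
      have a12 : D₁ (Fin.append Pl₁ Pl₂ i) ≠ 0 ∨ D₂ (Fin.append Pl₁ Pl₂ i) ≠ 0 := by
        refine Fin.addCases (fun k => ?_) (fun k => ?_) i
        · left
          rw [Fin.append_left]
          exact n1 k
        · right
          rw [Fin.append_right]
          exact n2 k
      omega
  · intro i hi
    have := n1 i
    rw [hi] at this
    have := e1 P0; have := e2 P0; have := e3 P0
    omega
  · intro i hi
    have := n2 i
    rw [hi] at this
    have := e1 P0; have := e2 P0; have := e3 P0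
    omega
  · intro i hi
    have := n3 i
    rw [hi] at this
    have := e1 P0; have := e2 P0; have := e3 P0
    omega

/-! ## (c) The geometric input (ZL) for the graded multiplication of a frame -/

/-- **(c)** There is a threshold `a₀ ≥ 0` such that, for every frame, the graded multiplication
`grMul fr` satisfies (ZL) over `ℚ̄` in the range `d + a₀ ≤ n`, `2 n + a₀ ≤ n'`, `d' ≤ 1`. -/
theorem exists_ZL_bound (x : FB F₀) (hx : Transcendental Qb x) [FiniteDimensional Qb⟮x⟯ (FB F₀)]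
    (hP0 : IsRatPlace F₀ P0) (hQ : RatDescSpec F₀) :
    ∃ a₀ : ℤ, 0 ≤ a₀ ∧ ∀ (fr : Frame F₀ P0) (n n' : ℤ) (d d' : ℕ), (d : ℤ) + a₀ ≤ n →
      2 * n + a₀ ≤ n' → d' ≤ 1 → (grMul fr).ZL Qb n n' d d' := by
  obtain ⟨c₀, hc0, hR⟩ := helper2853.exists_riemann_bound (K := Qb) x hx
  have hfin := helper2853.finite_rr (K := Qb) x hx
  have hdeg : ∀ v : Place Qb (FB F₀), v.deg = 1 :=
    fun v => Fermat.Agent.S24.helper204.place_deg_eq_one x hx v
  have hzp := helper2853.finite_zeros_poles (K := Qb) x hx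
  have hdegn : ∀ m : ℤ, Divisor.degree (m • pt P0 : Divisor Qb (FB F₀)) = m := by
    intro m
    rw [map_zsmul, Fermat.Agent.S27.helper1423.degree_pt P0 (hdeg P0)]
    simp
  refine ⟨c₀ + 1, by omega, fun fr n n' d d' hn hn' hd' V V' hV hV' => ?_⟩
  classical
  have := hfin (n • pt P0)
  have := hfin (n' • pt P0)
  have := hfin ((n + n') • pt P0)
  have hV2 : Module.finrank Qb V + d = fr.n n := hV
  have hV2' : Module.finrank Qb V' + d' = fr.n n' := hV'
  -- bases of `V` and `V'`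
  let bV := Module.finBasis Qb V
  let bV' := Module.finBasis Qb V'
  have hxli : LinearIndependent Qb (fun i => (bV i : Fin (fr.n n) → Qb)) :=
    bV.linearIndependent.map' V.subtype (Submodule.ker_subtype _)
  have hyli : LinearIndependent Qb (fun i => (bV' i : Fin (fr.n n') → Qb)) :=
    bV'.linearIndependent.map' V'.subtype (Submodule.ker_subtype _)
  have hspan'' : Submodule.span Qb (Set.range (frB fr (n + n')))
      = riemannRochSpace (n • pt P0 + n' • pt P0 : Divisor Qb (FB F₀)) := by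
    rw [← add_smul]
    exact span_frB hQ hP0 fr (n + n')
  have key := card_le_finrank_span_prodVec (K := Qb) (F := FB F₀) hc0 hfin hR hdeg hzp
    (X := n • pt P0) (X' := n' • pt P0) (e := frB fr n) (e' := frB fr n')
    (e'' := frB fr (n + n'))
    (linearIndependent_frB fr n) (linearIndependent_frB fr n')
    (linearIndependent_frB fr (n + n'))
    (span_frB hQ hP0 fr n) (span_frB hQ hP0 fr n') hspan''
    (μ := fun a b c => algebraMap ℚ Qb ((grMul fr).μ n n' a b c)) (frB_mul fr n n')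
    hxli hyli (d := d) (d' := d')
    (by rw [Fintype.card_fin, Fintype.card_fin]; omega)
    (by rw [Fintype.card_fin, Fintype.card_fin]; omega) hd'
    (by rw [hdegn]; omega) (by rw [hdegn, hdegn]; omega)
  rw [Fintype.card_fin] at key
  have hle : Submodule.span Qb (Set.range fun p : Fin (Module.finrank Qb V) × Fin (Module.finrank Qb V') =>
        prodVec (fun a b c => algebraMap ℚ Qb ((grMul fr).μ n n' a b c))
          (bV p.1 : Fin (fr.n n) → Qb) (bV' p.2 : Fin (fr.n n') → Qb))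
      ≤ Submodule.span Qb {z | ∃ u ∈ V, ∃ u' ∈ V', z = (grMul fr).mul n n' u u'} := by
    refine Submodule.span_mono ?_
    rintro _ ⟨p, rfl⟩
    refine ⟨(bV p.1 : Fin (fr.n n) → Qb), (bV p.1).2, (bV' p.2 : Fin (fr.n n') → Qb),
      (bV' p.2).2, ?_⟩
    funext c
    show ∑ a, ∑ b, (bV p.1 : Fin (fr.n n) → Qb) a * (bV' p.2 : Fin (fr.n n') → Qb) b
        * algebraMap ℚ Qb ((grMul fr).μ n n' a b c)
      = ∑ a, ∑ b, algebraMap ℚ Qb ((grMul fr).μ n n' a b c) * (bV p.1 : Fin (fr.n n) → Qb) a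
        * (bV' p.2 : Fin (fr.n n') → Qb) b
    refine Finset.sum_congr rfl fun a _ => Finset.sum_congr rfl fun b _ => ?_
    ring
  have hmono := Submodule.finrank_mono hle
  exact key.trans (Nat.add_le_add_right (Nat.add_le_add_right hmono d) d')

/-! ## The final wiring -/

/-- Monotonicity of (IND) in the threshold. -/
theorem indep_mono {G : GrMul} {Ω : Type*} [Field Ω] {a₁ a₂ : ℤ} (h : a₁ ≤ a₂) {K : ℕ}
    {P : Fin K → G.Fam Ω} (hP : G.Indep a₁ P) : G.Indep a₂ P :=
  fun k f hf n hn => hP k f hf n (by omega)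

theorem append_fam {m n : ℕ} (fr : Frame F₀ P0) (a : Fin m → Place Qb (FB F₀))
    (b : Fin n → Place Qb (FB F₀)) :
    Fin.append (fun i => fam fr (a i)) (fun i => fam fr (b i))
      = fun i => fam fr (Fin.append a b i) := by
  funext i
  refine Fin.addCases (fun k => ?_) (fun k => ?_) i
  · rw [Fin.append_left, Fin.append_left]
  · rw [Fin.append_right, Fin.append_right]

/-- **Leaf L7 `CubeSpec` from the abstract chart-free core** (track (C), `n₀ = 1`):
hypotheses = the abstract cube law `helper2139.CubeAbsStmt`, (IND) in the `Indep` shape for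
injective tuples of places off `P0`, and the identification (PHIEV) of `Phi` with the absolute
height of the evaluation minors. -/
theorem cubeSpec_of_core (x : FB F₀) (hx : Transcendental Qb x)
    [FiniteDimensional Qb⟮x⟯ (FB F₀)] (hP0 : IsRatPlace F₀ P0) (hcore : CubeAbsStmt)
    (hInd : ∃ a₁ : ℤ, ∀ (fr : Frame F₀ P0) (K : ℕ) (Pl : Fin K → Place Qb (FB F₀)),
      Function.Injective Pl → (∀ i, Pl i ≠ P0) →
      (grMul fr).Indep a₁ (fun i => fam fr (Pl i)))
    (hPhi : ∃ c₁ : ℤ, ∀ (fr : Frame F₀ P0) (k : ℕ) (Pl : Fin k → Place Qb (FB F₀)) (m : ℤ),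
      Function.Injective Pl → (∀ i, Pl i ≠ P0) → IsRat F₀ (sumDiv Pl) → (k : ℤ) + c₁ ≤ m →
      Phi fr m (sumDiv Pl) = (grMul fr).htMin m (fun i => fam fr (Pl i))) :
    CubeSpec F₀ P0 := by
  have hdeg : ∀ v : Place Qb (FB F₀), v.deg = 1 :=
    fun v => Fermat.Agent.S24.helper204.place_deg_eq_one x hx v
  have hQ : RatDescSpec F₀ :=
    helper1935.ratDescSpec F₀ (fun E => helper2853.finite_rr (K := Qb) x hx E)
  obtain ⟨a₀, ha0, hZL⟩ := exists_ZL_bound x hx hP0 hQ
  obtain ⟨a₁, hInd⟩ := hInd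
  obtain ⟨c₁, hPhi⟩ := hPhi
  have hval : ∀ Pl : Place Qb (FB F₀), HasValues Pl :=
    fun Pl => Fermat.Agent.S27.helper4586.hasValues_of_finite x Pl
  refine ⟨1, one_pos, max a₀ (max a₁ c₁), fun fr c d hc _ hd _ => ?_⟩
  have hA0 : (0 : ℤ) ≤ max a₀ (max a₁ c₁) := le_max_of_le_left ha0
  have hca₀ : a₀ ≤ max a₀ (max a₁ c₁) := le_max_left _ _
  have hca₁ : a₁ ≤ max a₀ (max a₁ c₁) := le_max_of_le_right (le_max_left _ _)
  have hcc₁ : c₁ ≤ max a₀ (max a₁ c₁) := le_max_of_le_right (le_max_right _ _)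
  obtain ⟨dn, rfl⟩ : ∃ dn : ℕ, d = (dn : ℤ) := ⟨d.toNat, (Int.toNat_of_nonneg hd).symm⟩
  have : Algebra.IsAlgebraic ℚ Qb := AlgebraicClosure.isAlgebraic ℚ
  obtain ⟨C, hC⟩ := hcore (grMul fr) Qb (max a₀ (max a₁ c₁)) hA0
    (fun n n' e e' h1 h2 h3 => hZL fr n n' e e' (by omega) (by omega) h3) dn c hc
  refine ⟨C, fun D₁ D₂ D₃ hadm => ?_⟩
  obtain ⟨Pl₁, Pl₂, Pl₃, hs₁, hs₂, hs₃, hinj, hn₁, hn₂, hn₃⟩ :=
    exists_tuples_of_admTriple hdeg hadm
  have hinj' := hinj
  rw [Fin.append_injective_iff, Fin.append_injective_iff] at hinj'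
  obtain ⟨⟨hi₁, hi₂, h12⟩, hi₃, h123⟩ := hinj'
  have hne12 : ∀ i, Fin.append Pl₁ Pl₂ i ≠ P0 := fun i => by
    refine Fin.addCases (fun k => ?_) (fun k => ?_) i
    · rw [Fin.append_left]; exact hn₁ k
    · rw [Fin.append_right]; exact hn₂ k
  have hne13 : ∀ i, Fin.append Pl₁ Pl₃ i ≠ P0 := fun i => by
    refine Fin.addCases (fun k => ?_) (fun k => ?_) i
    · rw [Fin.append_left]; exact hn₁ k
    · rw [Fin.append_right]; exact hn₃ k
  have hne23 : ∀ i, Fin.append Pl₂ Pl₃ i ≠ P0 := fun i => by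
    refine Fin.addCases (fun k => ?_) (fun k => ?_) i
    · rw [Fin.append_left]; exact hn₂ k
    · rw [Fin.append_right]; exact hn₃ k
  have hne123 : ∀ i, Fin.append (Fin.append Pl₁ Pl₂) Pl₃ i ≠ P0 := fun i => by
    refine Fin.addCases (fun k => ?_) (fun k => ?_) i
    · rw [Fin.append_left]; exact hne12 k
    · rw [Fin.append_right]; exact hn₃ k
  have hi12 : Function.Injective (Fin.append Pl₁ Pl₂) :=
    Fin.append_injective_iff.mpr ⟨hi₁, hi₂, h12⟩
  have hi13 : Function.Injective (Fin.append Pl₁ Pl₃) :=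
    Fin.append_injective_iff.mpr ⟨hi₁, hi₃, fun i j hij =>
      h123 (Fin.castAdd dn i) j (by rw [Fin.append_left]; exact hij)⟩
  have hi23 : Function.Injective (Fin.append Pl₂ Pl₃) :=
    Fin.append_injective_iff.mpr ⟨hi₂, hi₃, fun i j hij =>
      h123 (Fin.natAdd dn i) j (by rw [Fin.append_right]; exact hij)⟩
  -- the seven identifications
  have r1 : IsRat F₀ (sumDiv Pl₁) := hs₁ ▸ hadm.rat₁
  have r2 : IsRat F₀ (sumDiv Pl₂) := hs₂ ▸ hadm.rat₂
  have r3 : IsRat F₀ (sumDiv Pl₃) := hs₃ ▸ hadm.rat₃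
  have e1 : Phi fr ((dn : ℤ) + c) D₁ = (grMul fr).htMin ((dn : ℤ) + c) (fun i => fam fr (Pl₁ i)) := by
    rw [hs₁]
    exact hPhi fr dn Pl₁ _ hi₁ hn₁ r1 (by omega)
  have e2 : Phi fr ((dn : ℤ) + c) D₂ = (grMul fr).htMin ((dn : ℤ) + c) (fun i => fam fr (Pl₂ i)) := by
    rw [hs₂]
    exact hPhi fr dn Pl₂ _ hi₂ hn₂ r2 (by omega)
  have e3 : Phi fr ((dn : ℤ) + c) D₃ = (grMul fr).htMin ((dn : ℤ) + c) (fun i => fam fr (Pl₃ i)) := by
    rw [hs₃]
    exact hPhi fr dn Pl₃ _ hi₃ hn₃ r3 (by omega)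
  have e12 : Phi fr (2 * (dn : ℤ) + c) (D₁ + D₂)
      = (grMul fr).htMin (2 * (dn : ℤ) + c) (fun i => fam fr (Fin.append Pl₁ Pl₂ i)) := by
    rw [hs₁, hs₂, ← sumDiv_append]
    refine hPhi fr (dn + dn) (Fin.append Pl₁ Pl₂) _ hi12 hne12 ?_ (by push_cast; omega)
    rw [sumDiv_append]
    exact helper1935.isRat_add r1 r2
  have e13 : Phi fr (2 * (dn : ℤ) + c) (D₁ + D₃)
      = (grMul fr).htMin (2 * (dn : ℤ) + c) (fun i => fam fr (Fin.append Pl₁ Pl₃ i)) := by
    rw [hs₁, hs₃, ← sumDiv_append]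
    refine hPhi fr (dn + dn) (Fin.append Pl₁ Pl₃) _ hi13 hne13 ?_ (by push_cast; omega)
    rw [sumDiv_append]
    exact helper1935.isRat_add r1 r3
  have e23 : Phi fr (2 * (dn : ℤ) + c) (D₂ + D₃)
      = (grMul fr).htMin (2 * (dn : ℤ) + c) (fun i => fam fr (Fin.append Pl₂ Pl₃ i)) := by
    rw [hs₂, hs₃, ← sumDiv_append]
    refine hPhi fr (dn + dn) (Fin.append Pl₂ Pl₃) _ hi23 hne23 ?_ (by push_cast; omega)
    rw [sumDiv_append]
    exact helper1935.isRat_add r2 r3
  have e123 : Phi fr (3 * (dn : ℤ) + c) (D₁ + D₂ + D₃)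
      = (grMul fr).htMin (3 * (dn : ℤ) + c)
          (fun i => fam fr (Fin.append (Fin.append Pl₁ Pl₂) Pl₃ i)) := by
    rw [hs₁, hs₂, hs₃, ← sumDiv_append, ← sumDiv_append]
    refine hPhi fr (dn + dn + dn) (Fin.append (Fin.append Pl₁ Pl₂) Pl₃) _ hinj hne123 ?_
      (by push_cast; omega)
    rw [sumDiv_append, sumDiv_append]
    exact helper1935.isRat_add (helper1935.isRat_add r1 r2) r3
  -- the abstract core
  have hcoreC := hC (fun i => fam fr (Pl₁ i)) (fun i => fam fr (Pl₂ i)) (fun i => fam fr (Pl₃ i))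
    (fun i n n' => fam_mulAt fr (hn₁ i) (hval _) n n')
    (fun i n n' => fam_mulAt fr (hn₂ i) (hval _) n n')
    (fun i n n' => fam_mulAt fr (hn₃ i) (hval _) n n')
    (by
      rw [append_fam, append_fam]
      exact indep_mono hca₁ (hInd fr _ _ hinj hne123))
  simp only [append_fam] at hcoreC
  rw [e1, e2, e3, e12, e13, e23, e123]
  exact (le_abs_self _).trans hcoreC

end Carrier

end

end Fermat.Agent.S17.helper2744
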