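/-
S17, L7 track (C) (chart-free, `helper2139_UBSpec`): the carrier inputs (e) = PHIEV and (d) = IND
in the exact `GrMul` shapes of `helper2744_UBCarrier` (`grMul fr`, `fam fr Pl`), from
`helper3588_PhiEval`.
-/
import Fermat.Agent.S17.helper3588_PhiEval
import Fermat.Agent.S17.helper2744_UBCarrier

set_option autoImplicit false

open ModularCurve AlgebraicCurve IntermediateField
open Fermat.Agent.S27.helper6247 Fermat.Agent.S27.helper4586

namespace Fermat.Agent.S17.helper3588

noncomputable section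

open Fermat.Agent.S17.helper3197
open Fermat.Agent.Lib
open Fermat.Agent.S17.helper2139 Fermat.Agent.S17.helper2744

/-- **(e) of the chart-free track, verbatim**: `Phi` on the Spec carriers is `GrMul.htMin` of the
point families of the places, for the graded multiplication `grMul fr` of the frame. -/
theorem exists_Phi_eq_htMin (F₀ : IntermediateField ℚ (LaurentSeries ℚ))
    (P0 : Place Qb (FB F₀)) (x : FB F₀) (hx : Transcendental Qb x)
    [FiniteDimensional Qb⟮x⟯ (FB F₀)] (hP0 : IsRatPlace F₀ P0) (hR : RiemannSpec F₀)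
    (hQ : RatDescSpec F₀) :
    ∃ c₁ : ℤ, ∀ (fr : Frame F₀ P0) (k : ℕ) (Pl : Fin k → Place Qb (FB F₀)) (m : ℤ),
      Function.Injective Pl → (∀ i, Pl i ≠ P0) → IsRat F₀ (sumDiv Pl) → (k : ℤ) + c₁ ≤ m →
        Phi fr m (sumDiv Pl) = (grMul fr).htMin m (fun i => fam fr (Pl i)) := by
  obtain ⟨c₁, h⟩ := exists_Phi_eq_absLogHeight_evalMinors F₀ P0 x hx hP0 hR hQ
  exact ⟨c₁, fun fr k Pl m hP hPne hrat hm => h fr m k Pl hP hPne hrat hm⟩

/-- **(d) of the chart-free track, verbatim** (`GrMul.Indep`), with the same constant shape. -/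
theorem exists_indep_fam (F₀ : IntermediateField ℚ (LaurentSeries ℚ))
    (P0 : Place Qb (FB F₀)) (x : FB F₀) (hx : Transcendental Qb x)
    [FiniteDimensional Qb⟮x⟯ (FB F₀)] (hP0 : IsRatPlace F₀ P0) (hR : RiemannSpec F₀)
    (hQ : RatDescSpec F₀) :
    ∃ a₁ : ℤ, ∀ (fr : Frame F₀ P0) (K : ℕ) (Pl : Fin K → Place Qb (FB F₀)),
      Function.Injective Pl → (∀ i, Pl i ≠ P0) → (grMul fr).Indep a₁ (fun i => fam fr (Pl i)) := by
  obtain ⟨c₁, h⟩ := exists_linearIndependent_evalRows_Qb F₀ P0 x hx hP0 hR hQ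
  refine ⟨c₁, fun fr K Pl hP hPne k f hf n hn => ?_⟩
  exact h fr n k (Pl ∘ f) (hP.comp hf.injective) (fun i => hPne (f i)) hn

end

end Fermat.Agent.S17.helper3588
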