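import Fermat.Agent.S17.helper2744_UBCarrierMain
import Fermat.Agent.S17.helper3588_PhiEvalUB
import Fermat.Agent.S17.helper2530_RiemannLeaf

/-!
# S17, track (C) "G2-UB": `CubeSpec` from the abstract chart-free core alone

`cubeSpec_of_cubeAbs` : the leaf L7 `helper3197.CubeSpec F₀ P0` (with `n₀ = 1`) from the abstract
cube law `helper2139.CubeAbsStmt` and the standing hypotheses only.  All carrier inputs are
theorems on main:

* (a), (b), (c), (f) and the wiring: `helper2744_UBCarrier`, `helper2744_UBCarrierMain`
  ((ZL) from `helper2744_ProdCodim`);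
* (d) (IND) in the `Indep` shape and (e) `Phi = htMin`: `helper3588_PhiEvalUB`
  (`exists_indep_fam`, `exists_Phi_eq_htMin`);
* `RiemannSpec` (`helper2530`), `RatDescSpec` (`helper1935`).
-/

set_option autoImplicit false

open ModularCurve AlgebraicCurve IntermediateField
open Fermat.Agent.S17.helper3197
open Fermat.Agent.S17.helper2139

namespace Fermat.Agent.S17.helper2744

/-- **Leaf L7 `CubeSpec` from the abstract chart-free cube law** (track (C)): no hypothesis
besides `helper2139.CubeAbsStmt` and the standing ones. -/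
theorem cubeSpec_of_cubeAbs {F₀ : IntermediateField ℚ (LaurentSeries ℚ)}
    {P0 : Place Qb (FB F₀)} (x : FB F₀) (hx : Transcendental Qb x)
    [FiniteDimensional Qb⟮x⟯ (FB F₀)] (hP0 : IsRatPlace F₀ P0) (hcore : CubeAbsStmt) :
    CubeSpec F₀ P0 := by
  have hR : RiemannSpec F₀ := helper2530.riemannSpec F₀ x hx
  have hQ : RatDescSpec F₀ := helper1935.ratDescSpec_of_riemannSpec F₀ hR
  exact cubeSpec_of_core x hx hP0 hcore
    (helper3588.exists_indep_fam F₀ P0 x hx hP0 hR hQ)
    (helper3588.exists_Phi_eq_htMin F₀ P0 x hx hP0 hR hQ)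

end Fermat.Agent.S17.helper2744
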