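import Fermat.Agent.S17.helper9651_CubeCharts
import Fermat.Agent.S17.helper2264_ChartFamily
import Fermat.Agent.S17.helper3588_PhiEval
import Fermat.Agent.S17.helper1614_AdmEnum

/-!
# S17, Pluecker track, leaf L7 (`CubeSpec`), track (A): the carrier wiring (helper2760)

`cubeSpec`: the leaf `CubeSpec F₀ P0` of `helper3197_PlueckerSpec` on the Spec carriers, from

* `helper9651.cube_charts`  — the cube law on a chart family of a curve (generic `K`, `F`);
* `helper2264.exists_rat_pole`, `helper2264.chart_package` — the chart family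
  `u_l = (1 + l t)⁻¹` of a rational function `t` with its only pole at `P0`;
* `helper3588.exists_absLogHeight_evalMinors_eq_Phi` — `Φ_m(∑ P_i)` is the absolute height of
  the minors of the evaluation matrix of the frame (and these do not all vanish);
* `helper1614.exists_enum_of_isAdmTriple` — an admissible triple of degree `d` is enumerated by
  one injective family of `3 d` places and three disjoint sets of `d` slots.
-/

set_option autoImplicit false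

open ModularCurve AlgebraicCurve IntermediateField

namespace Fermat.Agent.S17.helper2760

open Fermat.Agent.S17.helper3197
open Fermat.Agent.S27.helper6247 (ev sumDiv)
open Fermat.Agent.Lib.helper927 (absLogHeight)
open Fermat.Agent.S17.helper9651 (minorVal)

section CubeCarrier

variable {F₀ : IntermediateField ℚ (LaurentSeries ℚ)} {P0 : Place Qb (FB F₀)}

/-- The level divisor `m • P0` as a single. -/
theorem level_eq_single (P0 : Place Qb (FB F₀)) (m : ℤ) :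
    (m • Fermat.Agent.S27.helper6247.pt P0 : Divisor Qb (FB F₀)) = Finsupp.single P0 m := by
  unfold Fermat.Agent.S27.helper6247.pt
  rw [Finsupp.smul_single, smul_eq_mul, mul_one]

/-- A nonnegative integer multiple of a positive natural number is a natural multiple. -/
theorem exists_nat_mul_of_dvd {n₀ : ℕ} (hn₀ : 0 < n₀) {c : ℤ} (hc : 0 ≤ c)
    (h : (n₀ : ℤ) ∣ c) : ∃ k : ℕ, c = (k : ℤ) * n₀ := by
  obtain ⟨q, hq⟩ := h
  have hn₀' : (0 : ℤ) < n₀ := by exact_mod_cast hn₀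
  have hq0 : 0 ≤ q := by
    by_contra hneg
    push Not at hneg
    have : (n₀ : ℤ) * q < 0 := mul_neg_of_pos_of_neg hn₀' hneg
    omega
  exact ⟨q.toNat, by rw [Int.toNat_of_nonneg hq0, hq, mul_comm]⟩

/-- **(PHIEV) on a set of slots.** For an injective family `P` of places `≠ P0` and a set `T` of
slots whose point divisor `D = ∑_{j ∈ T} P_j` is rational, the minors (rows: the sorted
enumeration of `T`) of the evaluation matrix of the level-`m` frame do not all vanish and their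
absolute height is `Φ_m(D)` (`m - |T| ≥ c₁`). -/
theorem minorVal_frame {cP : ℤ}
    (hphi : ∀ (fr : Frame F₀ P0) (m : ℤ) (k : ℕ) (P : Fin k → Place Qb (FB F₀)),
      Function.Injective P → (∀ i, P i ≠ P0) → IsRat F₀ (sumDiv P) → (k : ℤ) + cP ≤ m →
        (fun s : Fin k → Fin (fr.n m) => Matrix.det (Matrix.of fun i j =>
          ev (P i) (ratEmb F₀ ((fr.b m (s j) : ↥(Alev F₀ P0 m)) : F₀)))) ≠ 0 ∧
        absLogHeight (fun s : Fin k → Fin (fr.n m) => Matrix.det (Matrix.of fun i j =>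
          ev (P i) (ratEmb F₀ ((fr.b m (s j) : ↥(Alev F₀ P0 m)) : F₀)))) =
          Phi fr m (sumDiv P))
    (fr : Frame F₀ P0) (m : ℤ) {n : ℕ} (P : Fin n → Place Qb (FB F₀))
    (hP : Function.Injective P) (hPne : ∀ j, P j ≠ P0) (T : Finset (Fin n))
    {D : Divisor Qb (FB F₀)} (hD : ∑ j ∈ T, Fermat.Agent.S27.helper6247.pt (P j) = D)
    (hrat : IsRat F₀ D) (hm : (T.card : ℤ) + cP ≤ m) :
    minorVal (fun j s => ev (P j) (ratEmb F₀ ((fr.b m s : ↥(Alev F₀ P0 m)) : F₀))) T ≠ 0 ∧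
    absLogHeight
        (minorVal (fun j s => ev (P j) (ratEmb F₀ ((fr.b m s : ↥(Alev F₀ P0 m)) : F₀))) T)
      = Phi fr m D := by
  have hsum : (sumDiv (fun i : Fin T.card => P (T.orderEmbOfFin rfl i)) : Divisor Qb (FB F₀))
      = D := by
    rw [helper1614.sumDiv_orderEmb, hD]
  have h := hphi fr m T.card (fun i => P (T.orderEmbOfFin rfl i))
    (hP.comp (T.orderEmbOfFin rfl).injective) (fun i => hPne _) (by rw [hsum]; exact hrat) hm
  rw [hsum] at h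
  exact h

set_option linter.unusedVariables false in
/-- **Leaf L7 (`CubeSpec`), track (A).** The one-sided seven-term inequality for the Pluecker
heights `Φ_{deg D + c}(D)` on admissible triples, on the Spec carriers. (`hL` is not used; it
is kept for the common shape of the leaf theorems.) -/
theorem cubeSpec (F₀ : IntermediateField ℚ (LaurentSeries ℚ)) (P0 : Place Qb (FB F₀))
    (x : FB F₀) (hx : Transcendental Qb x) [FiniteDimensional Qb⟮x⟯ (FB F₀)]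
    (hP0 : IsRatPlace F₀ P0) (hR : RiemannSpec F₀) (hQ : RatDescSpec F₀) (hL : LinDisjSpec F₀) :
    CubeSpec F₀ P0 := by
  have : Algebra.IsAlgebraic ℚ (AlgebraicClosure ℚ) := AlgebraicClosure.isAlgebraic ℚ
  obtain ⟨n₀, t, hn₀, ht, hord⟩ := helper2264.exists_rat_pole F₀ P0 x hx hP0 hR hQ
  obtain ⟨cC, hcharts⟩ := helper9651.cube_charts (K := Qb) (F := FB F₀) x hx
  obtain ⟨cP, hphi⟩ := helper3588.exists_absLogHeight_evalMinors_eq_Phi F₀ P0 x hx hP0 hR hQ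
  refine ⟨(n₀ : ℤ), by exact_mod_cast hn₀, max (max cC cP) 0, ?_⟩
  intro fr c d hc hnc hd hnd
  have hcC : cC ≤ c := le_trans (le_trans (le_max_left _ _) (le_max_left _ _)) hc
  have hcP : cP ≤ c := le_trans (le_trans (le_max_right _ _) (le_max_left _ _)) hc
  have hc0 : 0 ≤ c := le_trans (le_max_right _ _) hc
  -- the levels are natural multiples of `n₀`
  obtain ⟨kc, hkc⟩ := exists_nat_mul_of_dvd hn₀ hc0 hnc
  obtain ⟨kd, hkd⟩ := exists_nat_mul_of_dvd hn₀ hd hnd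
  have hm₁ : (((kd + kc : ℕ) : ℤ)) * n₀ = d + c := by push_cast; rw [hkc, hkd]; ring
  have hm₂ : (((2 * kd + kc : ℕ) : ℤ)) * n₀ = 2 * d + c := by push_cast; rw [hkc, hkd]; ring
  have hm₃ : (((3 * kd + kc : ℕ) : ℤ)) * n₀ = 3 * d + c := by push_cast; rw [hkc, hkd]; ring
  have hk : (3 * kd + kc) + (kd + kc) = (2 * kd + kc) + (2 * kd + kc) := by ring
  -- the number of slots
  obtain ⟨n, hn3⟩ : ∃ n : ℕ, (n : ℤ) = 3 * d :=
    ⟨(3 * d).toNat, Int.toNat_of_nonneg (by omega)⟩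
  -- the chart family
  have hu : ∀ l ∈ Finset.Icc 1 (n + 1),
      (1 + (l : FB F₀) * ratEmb F₀ t)⁻¹ ≠ 0 ∧
      Transcendental Qb ((1 + (l : FB F₀) * ratEmb F₀ t)⁻¹) ∧
      P0.ord ((1 + (l : FB F₀) * ratEmb F₀ t)⁻¹) = (n₀ : ℤ) ∧
      (∀ Q : Place Qb (FB F₀), Q ≠ P0 → Q.ord ((1 + (l : FB F₀) * ratEmb F₀ t)⁻¹) ≤ 0) ∧
      ∀ P : Place Qb (FB F₀), P ≠ P0 → 1 + (l : Qb) * ev P (ratEmb F₀ t) ≠ 0 →
        (1 + (l : FB F₀) * ratEmb F₀ t)⁻¹ ∈ P.toValuationSubring ∧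
        ev P ((1 + (l : FB F₀) * ratEmb F₀ t)⁻¹) = (1 + (l : Qb) * ev P (ratEmb F₀ t))⁻¹ := by
    intro l hl
    have hl0 : l ≠ 0 := by
      have := (Finset.mem_Icc.mp hl).1
      omega
    obtain ⟨h1, h2, -, h4, h5, h6⟩ := helper2264.chart_package F₀ P0 x hn₀ ht hord hl0
    exact ⟨h1, h2, h4, h5, fun P hP hne => ⟨(h6 P hP hne).1, (h6 P hP hne).2.1⟩⟩
  obtain ⟨C, hC⟩ := hcharts P0 n₀ (ratEmb F₀ t) n
    (fun l => (1 + (l : FB F₀) * ratEmb F₀ t)⁻¹) hu
    (kd + kc) (2 * kd + kc) (3 * kd + kc) hk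
    (fun s : Fin (fr.n (d + c)) =>
      ratEmb F₀ ((fr.b (d + c) s : ↥(Alev F₀ P0 (d + c))) : F₀))
    (fun s : Fin (fr.n (2 * d + c)) =>
      ratEmb F₀ ((fr.b (2 * d + c) s : ↥(Alev F₀ P0 (2 * d + c))) : F₀))
    (fun s : Fin (fr.n (3 * d + c)) =>
      ratEmb F₀ ((fr.b (3 * d + c) s : ↥(Alev F₀ P0 (3 * d + c))) : F₀))
    (fun s => by rw [hm₁, ← level_eq_single]; exact helper3588.ratEmb_mem_rr _ _)
    (fun s => by rw [hm₂, ← level_eq_single]; exact helper3588.ratEmb_mem_rr _ _)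
    (fun s => by rw [hm₃, ← level_eq_single]; exact helper3588.ratEmb_mem_rr _ _)
    (by rw [hm₂, ← level_eq_single, ← helper3588.span_ratEmb_frame hP0 hQ fr (2 * d + c)])
  refine ⟨C, fun D₁ D₂ D₃ hadm => ?_⟩
  -- enumerate the admissible triple
  obtain ⟨P, T₁, T₂, T₃, hPinj, hPne, h12, h13, h23, e₁, e₂, e₃, hc₁, hc₂, hc₃⟩ :=
    helper1614.exists_enum_of_isAdmTriple x hx hadm n hn3
  have e₁₂ : ∑ j ∈ T₁ ∪ T₂, Fermat.Agent.S27.helper6247.pt (P j) = D₁ + D₂ := by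
    rw [Finset.sum_union h12, e₁, e₂]
  have e₁₃ : ∑ j ∈ T₁ ∪ T₃, Fermat.Agent.S27.helper6247.pt (P j) = D₁ + D₃ := by
    rw [Finset.sum_union h13, e₁, e₃]
  have e₂₃ : ∑ j ∈ T₂ ∪ T₃, Fermat.Agent.S27.helper6247.pt (P j) = D₂ + D₃ := by
    rw [Finset.sum_union h23, e₂, e₃]
  have h123 : Disjoint (T₁ ∪ T₂) T₃ := Finset.disjoint_union_left.mpr ⟨h13, h23⟩
  have e₁₂₃ : ∑ j ∈ T₁ ∪ T₂ ∪ T₃, Fermat.Agent.S27.helper6247.pt (P j) = D₁ + D₂ + D₃ := by
    rw [Finset.sum_union h123, e₁₂, e₃]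
  have hcard₁₂ : ((T₁ ∪ T₂).card : ℤ) = 2 * d := by
    rw [Finset.card_union_of_disjoint h12]; push_cast; omega
  have hcard₁₃ : ((T₁ ∪ T₃).card : ℤ) = 2 * d := by
    rw [Finset.card_union_of_disjoint h13]; push_cast; omega
  have hcard₂₃ : ((T₂ ∪ T₃).card : ℤ) = 2 * d := by
    rw [Finset.card_union_of_disjoint h23]; push_cast; omega
  have hcard₁₂₃ : ((T₁ ∪ T₂ ∪ T₃).card : ℤ) = 3 * d := by
    rw [Finset.card_union_of_disjoint h123, Finset.card_union_of_disjoint h12]; push_cast; omega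
  -- (PHIEV) for the seven divisors
  obtain ⟨z₁, q₁⟩ := minorVal_frame hphi fr (d + c) P hPinj hPne T₁ e₁ hadm.rat₁ (by omega)
  obtain ⟨z₂, q₂⟩ := minorVal_frame hphi fr (d + c) P hPinj hPne T₂ e₂ hadm.rat₂ (by omega)
  obtain ⟨z₃, q₃⟩ := minorVal_frame hphi fr (d + c) P hPinj hPne T₃ e₃ hadm.rat₃ (by omega)
  obtain ⟨z₁₂, q₁₂⟩ := minorVal_frame hphi fr (2 * d + c) P hPinj hPne (T₁ ∪ T₂) e₁₂
    (helper1935.isRat_add hadm.rat₁ hadm.rat₂) (by omega)
  obtain ⟨z₁₃, q₁₃⟩ := minorVal_frame hphi fr (2 * d + c) P hPinj hPne (T₁ ∪ T₃) e₁₃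
    (helper1935.isRat_add hadm.rat₁ hadm.rat₃) (by omega)
  obtain ⟨z₂₃, q₂₃⟩ := minorVal_frame hphi fr (2 * d + c) P hPinj hPne (T₂ ∪ T₃) e₂₃
    (helper1935.isRat_add hadm.rat₂ hadm.rat₃) (by omega)
  obtain ⟨z₁₂₃, q₁₂₃⟩ := minorVal_frame hphi fr (3 * d + c) P hPinj hPne (T₁ ∪ T₂ ∪ T₃) e₁₂₃
    (helper1935.isRat_add (helper1935.isRat_add hadm.rat₁ hadm.rat₂) hadm.rat₃) (by omega)
  have key := hC T₁ T₂ T₃ h12 h13 h23 (by rw [hm₂, hcard₁₂]; omega) (by rw [hm₂, hcard₁₃]; omega)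
    (by rw [hm₂, hcard₂₃]; omega) P hPne z₁₂₃ z₁ z₂ z₃ z₁₂ z₁₃ z₂₃
  rw [q₁₂₃, q₁, q₂, q₃, q₁₂, q₁₃, q₂₃] at key
  exact key

end CubeCarrier

end Fermat.Agent.S17.helper2760
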