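import Fermat.Agent.S17.helper3197_PlueckerSpec
import Fermat.Agent.Lib.helper2817_Pluecker

/-!
# S17, Pluecker track: leaf (L3) `FrameIndepSpec` and the `plkHeight` bridge (helper2817)

* `plkVec b w` : the all-maps Pluecker vector of a frame `w : Fin r → V` in the coordinates of a
  basis `b` of the ambient space (this is the vector whose height is `plkHeight`).
* `plkHeight_eq_finBasis`, `plkHeight_eq_of_basis` : `plkHeight b W` is the logarithmic height of
  the all-maps Pluecker vector of ANY basis of `W`.
* `plkVec_change_basis`, `logHeight_plkVec_le` : change of the ambient basis.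
* `frameIndepSpec : helper3197.FrameIndepSpec`.
-/

set_option autoImplicit false

namespace Fermat.Agent.S17.helper2817

open Fermat.Agent.S17.helper3197

noncomputable section

section Vec

variable {ι ι' V : Type*} [AddCommGroup V] [Module ℚ V]

/-- All-maps Pluecker vector of the frame `w` in the coordinates of the basis `b`. -/
def plkVec (b : Module.Basis ι ℚ V) {r : ℕ} (w : Fin r → V) : (Fin r → ι) → ℚ :=
  fun s => Matrix.det (Matrix.of fun i j => b.repr (w i) (s j))

theorem plkVec_apply (b : Module.Basis ι ℚ V) {r : ℕ} (w : Fin r → V) (s : Fin r → ι) :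
    plkVec b w s = Matrix.det (Matrix.of fun i j => b.repr (w i) (s j)) := rfl

/-- Frame change inside the subspace: the Pluecker vector is multiplied by the determinant. -/
theorem plkVec_frame_change (b : Module.Basis ι ℚ V) {r : ℕ} (g : Matrix (Fin r) (Fin r) ℚ)
    (w w' : Fin r → V) (h : ∀ i, w' i = ∑ j, g i j • w j) :
    plkVec b w' = g.det • plkVec b w := by
  funext s
  rw [Pi.smul_apply, smul_eq_mul, plkVec_apply, plkVec_apply, ← Matrix.det_mul]
  congr 1
  ext i j
  simp only [Matrix.of_apply, Matrix.mul_apply, h i, map_sum, map_smul, Finsupp.coe_finsetSum,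
    Finsupp.coe_smul, Finset.sum_apply, Pi.smul_apply, smul_eq_mul]

/-- The coefficient family of the `r`-th Kronecker power of a matrix (uncurried, so that its
height makes sense). -/
def kronCoeff (M : Matrix ι' ι ℚ) (r : ℕ) : (Fin r → ι') × (Fin r → ι) → ℚ :=
  fun p => ∏ j, M (p.1 j) (p.2 j)

/-- Change of the ambient basis: the all-maps Pluecker vector transforms by the `r`-th
Kronecker power of the base change matrix. -/
theorem plkVec_change_basis [Fintype ι] [DecidableEq ι] (b : Module.Basis ι ℚ V)
    (b' : Module.Basis ι' ℚ V) {r : ℕ} (w : Fin r → V) (s : Fin r → ι') :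
    plkVec b' w s
      = ∑ t : Fin r → ι, kronCoeff (fun k l => b'.repr (b l) k) r (s, t) * plkVec b w t := by
  set X : Matrix (Fin r) ι ℚ := Matrix.of fun i l => b.repr (w i) l with hX
  set Y : Matrix ι (Fin r) ℚ := Matrix.of fun l j => b'.repr (b l) (s j) with hY
  have h1 : (Matrix.of fun i j => b'.repr (w i) (s j)) = X * Y := by
    ext i j
    simp only [Matrix.of_apply, Matrix.mul_apply, hX, hY]
    have e : w i = ∑ l, b.repr (w i) l • b l := (b.sum_repr (w i)).symm
    calc b'.repr (w i) (s j) = b'.repr (∑ l, b.repr (w i) l • b l) (s j) := by rw [← e]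
      _ = (∑ l, b.repr (w i) l • b'.repr (b l)) (s j) := by
          rw [map_sum]
          simp only [map_smul]
      _ = ∑ l, b.repr (w i) l * b'.repr (b l) (s j) := by
          rw [Finsupp.coe_finsetSum, Finset.sum_apply]
          simp only [Finsupp.coe_smul, Pi.smul_apply, smul_eq_mul]
  rw [plkVec_apply, h1, ← Matrix.det_transpose, Matrix.transpose_mul,
    Fermat.Agent.Lib.helper2817.det_mul_eq_sum_fun]
  refine Finset.sum_congr rfl fun t _ => ?_
  congr 1
  rw [plkVec_apply, ← Matrix.det_transpose]
  congr 1

/-- Height bound for the change of the ambient basis. -/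
theorem logHeight_plkVec_le [Fintype ι] [DecidableEq ι] [Finite ι'] (b : Module.Basis ι ℚ V)
    (b' : Module.Basis ι' ℚ V) {r : ℕ} (w : Fin r → V) :
    Height.logHeight (plkVec b' w)
      ≤ Height.totalWeight ℚ * Real.log (Nat.card (Fin r → ι))
        + Height.logHeight (kronCoeff (fun k l => b'.repr (b l) k) r)
        + Height.logHeight (plkVec b w) := by
  have h := Height.logHeight_linearMap_apply_le
    (kronCoeff (fun k l => b'.repr (b l) k) r) (plkVec b w)
  have h2 : plkVec b' w = fun s => ∑ t : Fin r → ι,
      kronCoeff (fun k l => b'.repr (b l) k) r (s, t) * plkVec b w t := by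
    funext s
    exact plkVec_change_basis b b' w s
  rw [h2]
  exact h

/-- Two frames of the same subspace have Pluecker vectors of the same height (all-maps
convention; no independence hypothesis is needed once the lengths agree). -/
theorem logHeight_plkVec_eq_of_span_eq [Finite ι] (b : Module.Basis ι ℚ V) {r : ℕ}
    (w w' : Fin r → V)
    (hspan : Submodule.span ℚ (Set.range w') = Submodule.span ℚ (Set.range w)) :
    Height.logHeight (plkVec b w') = Height.logHeight (plkVec b w) := by
  have hg : ∀ i, ∃ c : Fin r → ℚ, ∑ j, c j • w j = w' i := fun i =>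
    Submodule.mem_span_range_iff_exists_fun ℚ |>.mp
      (hspan ▸ Submodule.subset_span (Set.mem_range_self i))
  have hg' : ∀ i, ∃ c : Fin r → ℚ, ∑ j, c j • w' j = w i := fun i =>
    Submodule.mem_span_range_iff_exists_fun ℚ |>.mp
      (hspan ▸ Submodule.subset_span (Set.mem_range_self i))
  choose g hg using hg
  choose g' hg' using hg'
  have e1 : plkVec b w' = (Matrix.of g).det • plkVec b w :=
    plkVec_frame_change b (Matrix.of g) w w' fun i => (hg i).symm
  have e2 : plkVec b w = (Matrix.of g').det • plkVec b w' :=
    plkVec_frame_change b (Matrix.of g') w' w fun i => (hg' i).symm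
  by_cases hd : (Matrix.of g).det = 0
  · have z1 : plkVec b w' = 0 := by rw [e1, hd, zero_smul]
    have z2 : plkVec b w = 0 := by rw [e2, z1, smul_zero]
    rw [z1, z2]
  · rw [e1]
    exact Height.logHeight_smul_eq_logHeight _ hd

/-- The same for frames whose lengths are only propositionally equal. -/
theorem logHeight_plkVec_eq_of_span_eq' [Finite ι] (b : Module.Basis ι ℚ V) {r r' : ℕ}
    (hrr : r' = r) (w : Fin r → V) (w' : Fin r' → V)
    (hspan : Submodule.span ℚ (Set.range w') = Submodule.span ℚ (Set.range w)) :
    Height.logHeight (plkVec b w') = Height.logHeight (plkVec b w) := by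
  subst hrr
  exact logHeight_plkVec_eq_of_span_eq b w w' hspan

end Vec

section Bridge

variable {ι V : Type*} [AddCommGroup V] [Module ℚ V]

/-- Unfolding of the Spec's `plkHeight` for a finite-dimensional subspace. -/
theorem plkHeight_eq_finBasis (b : Module.Basis ι ℚ V) (W : Submodule ℚ V)
    [Module.Finite ℚ W] :
    plkHeight b W
      = Height.logHeight (plkVec b (fun i => ((Module.finBasis ℚ W i : W) : V))) := by
  unfold plkHeight
  rw [dif_pos (inferInstance : Module.Finite ℚ W)]
  rfl

/-- **Bridge.** `plkHeight b W` is the logarithmic height of the all-maps Pluecker vector of ANY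
basis `w` of `W` (given as an independent spanning family of vectors of `V`). -/
theorem plkHeight_eq_of_basis [Finite ι] (b : Module.Basis ι ℚ V) (W : Submodule ℚ V) {r : ℕ}
    (w : Fin r → V) (hw : LinearIndependent ℚ w)
    (hspan : Submodule.span ℚ (Set.range w) = W) :
    plkHeight b W
      = Height.logHeight (fun s : Fin r → ι =>
          Matrix.det (Matrix.of fun i j => b.repr (w i) (s j))) := by
  subst hspan
  have : Module.Finite ℚ (Submodule.span ℚ (Set.range w)) :=
    Module.Finite.span_of_finite ℚ (Set.finite_range w)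
  rw [plkHeight_eq_finBasis]
  have hr : Module.finrank ℚ (Submodule.span ℚ (Set.range w)) = r := by
    rw [finrank_span_eq_card hw, Fintype.card_fin]
  refine logHeight_plkVec_eq_of_span_eq' b hr w _ ?_
  have h1 : (fun i => ((Module.finBasis ℚ (Submodule.span ℚ (Set.range w)) i :
      Submodule.span ℚ (Set.range w)) : V))
      = (Submodule.span ℚ (Set.range w)).subtype
        ∘ (Module.finBasis ℚ (Submodule.span ℚ (Set.range w))) := rfl
  rw [h1, Set.range_comp, Submodule.span_image, Module.Basis.span_eq, Submodule.map_subtype_top]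

/-- The bridge in terms of `plkVec`. -/
theorem plkHeight_eq_logHeight_plkVec [Finite ι] (b : Module.Basis ι ℚ V) (W : Submodule ℚ V)
    {r : ℕ} (w : Fin r → V) (hw : LinearIndependent ℚ w)
    (hspan : Submodule.span ℚ (Set.range w) = W) :
    plkHeight b W = Height.logHeight (plkVec b w) :=
  plkHeight_eq_of_basis b W w hw hspan

/-- **Leaf (L3) FRAME.** Changing the basis of the ambient space changes the Pluecker height of
all subspaces by a bounded amount. -/
theorem frameIndepSpec : FrameIndepSpec := by
  intro n V _ _ b b'
  classical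
  set c : ℕ → ℝ := fun r => Height.totalWeight ℚ * Real.log (Nat.card (Fin r → Fin n))
    + Height.logHeight (kronCoeff (fun k l => b'.repr (b l) k) r) with hc
  set c' : ℕ → ℝ := fun r => Height.totalWeight ℚ * Real.log (Nat.card (Fin r → Fin n))
    + Height.logHeight (kronCoeff (fun k l => b.repr (b' l) k) r) with hc'
  have hc0 : ∀ r, 0 ≤ c r := fun r =>
    add_nonneg (mul_nonneg (Nat.cast_nonneg _) (Real.log_natCast_nonneg _))
      (Height.logHeight_nonneg _)
  have hc'0 : ∀ r, 0 ≤ c' r := fun r =>
    add_nonneg (mul_nonneg (Nat.cast_nonneg _) (Real.log_natCast_nonneg _))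
      (Height.logHeight_nonneg _)
  refine ⟨∑ r ∈ Finset.range (n + 1), (c r + c' r), fun W => ?_⟩
  have hV : Module.Finite ℚ V := Module.Finite.of_basis b
  have hW : Module.Finite ℚ W := inferInstance
  have hr : Module.finrank ℚ W ≤ n := by
    have h := Submodule.finrank_le W
    rwa [Module.finrank_eq_card_basis b, Fintype.card_fin] at h
  rw [plkHeight_eq_finBasis b W, plkHeight_eq_finBasis b' W]
  have h1 := logHeight_plkVec_le b b' (fun i => ((Module.finBasis ℚ W i : W) : V))
  have h2 := logHeight_plkVec_le b' b (fun i => ((Module.finBasis ℚ W i : W) : V))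
  have h3 : c (Module.finrank ℚ W) + c' (Module.finrank ℚ W)
      ≤ ∑ r ∈ Finset.range (n + 1), (c r + c' r) :=
    Finset.single_le_sum (f := fun r => c r + c' r)
      (fun r _ => add_nonneg (hc0 r) (hc'0 r)) (Finset.mem_range.mpr (Nat.lt_succ_of_le hr))
  have h4 := hc0 (Module.finrank ℚ W)
  have h5 := hc'0 (Module.finrank ℚ W)
  simp only [hc, hc'] at h3 h4 h5
  rw [abs_le]
  constructor <;> linarith

end Bridge

end

end Fermat.Agent.S17.helper2817
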