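import Fermat.Agent.S17.helper2760_UnivPoints
import Fermat.Agent.S17.helper1164_AdjoinAdapter

/-!
# S17-G2-UNIV (U5): integrality of the universal `n`-point ring (helper3330)

In the vocabulary of the landed `helper2760_UnivPoints` (`PRing K B n`, `pt i`):

* `isIntegral_adjoin_pt`: if every element of `B` is integral over `Algebra.adjoin K (range u)`,
  every element of `PRing K B n` is integral over the subalgebra generated by the `pt i (u a)`;
* `isIntegral_adjoin_rat_pt`: the same over `ℚ` when `K/ℚ` is algebraic (through
  `helper1164.isIntegral_adjoin_rat_of_isIntegral_adjoin`) — the hypothesis `hint` of the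
  CUBE-HT bridge (`helper1925.isBdd_of_isIntegral_adjoin`, (H4)) and of the adapter
  `helper1164.exists_fg_subalgebra…` for `R := PRing K B n`, `g (i, a) := pt i (u a)`;
* `isIntegral_adjoin_of_subalgebra'`: transfer of integrality to a subalgebra containing the
  family (any base ring);
* `isIntegral_adjoin_pt_of_subalgebra`, `isIntegral_adjoin_rat_pt_of_subalgebra`,
  `isIntegral_adjoin_rat_pt_singleton`: the forms for a chart ring `B' : Subalgebra K F` whose
  elements are integral, inside `F`, over `K[u]` (one chart coordinate `u`, the coordinates of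
  the universal ring being `g i := pt i u`).
-/

set_option autoImplicit false

namespace Fermat.Agent.S17.helper3330

open Fermat.Agent.S17.helper2760

section Transfer

variable {K S : Type*} [CommRing K] [CommRing S] [Algebra K S]

/-- Integrality over a subalgebra generated by a family descends to any subalgebra `S'`
containing the family and the element. -/
theorem isIntegral_adjoin_of_subalgebra' (S' : Subalgebra K S) {γ : Type*} (g : γ → S')
    (x : S') (hx : IsIntegral (Algebra.adjoin K (Set.range fun k => (g k : S))) (x : S)) :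
    IsIntegral (Algebra.adjoin K (Set.range g)) x := by
  have hmap : (Algebra.adjoin K (Set.range g)).map S'.val =
      Algebra.adjoin K (Set.range fun k => (g k : S)) := by
    rw [AlgHom.map_adjoin, ← Set.range_comp]
    rfl
  rw [← hmap] at hx
  let eqv := Subalgebra.equivMapOfInjective (Algebra.adjoin K (Set.range g)) S'.val
    Subtype.val_injective
  obtain ⟨p, hp, hpx⟩ := hx
  refine ⟨p.map (eqv.symm : (Algebra.adjoin K (Set.range g)).map S'.val →+*
    Algebra.adjoin K (Set.range g)), hp.map _, ?_⟩
  apply Subtype.val_injective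
  rw [Polynomial.eval₂_map]
  have h2 : ((algebraMap (Algebra.adjoin K (Set.range g)) S').comp
      (eqv.symm : (Algebra.adjoin K (Set.range g)).map S'.val →+*
        Algebra.adjoin K (Set.range g))) =
      ((algebraMap ((Algebra.adjoin K (Set.range g)).map S'.val) S).codRestrict S'.toSubring
        (fun y => by
          obtain ⟨y, ⟨a, _, rfl⟩⟩ := y
          exact a.2)) := by
    ext y
    show ((eqv.symm y : S') : S) = (y : S)
    conv_rhs => rw [← eqv.apply_symm_apply y]
    rfl
  have h3 : ((Polynomial.eval₂ ((algebraMap (Algebra.adjoin K (Set.range g)) S').comp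
      (eqv.symm : (Algebra.adjoin K (Set.range g)).map S'.val →+*
        Algebra.adjoin K (Set.range g))) x p : S') : S) =
      Polynomial.eval₂ (algebraMap ((Algebra.adjoin K (Set.range g)).map S'.val) S) (x : S) p := by
    rw [h2]
    exact Polynomial.hom_eval₂ p ((algebraMap ((Algebra.adjoin K (Set.range g)).map S'.val)
      S).codRestrict S'.toSubring (fun y => by
          obtain ⟨y, ⟨a, _, rfl⟩⟩ := y
          exact a.2)) (S'.toSubring.subtype) x
  rw [h3, hpx]
  rfl

end Transfer

section U5

variable {K B : Type*} [Field K] [CommRing B] [Algebra K B] {n : ℕ}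

/-- **(U5)** If `B` is integral over the subalgebra generated by a family `u`, the universal
`n`-point ring `PRing K B n` is integral over the subalgebra generated by the coordinates
`pt i (u a)`. -/
theorem isIntegral_adjoin_pt {α : Type*} (u : α → B)
    (hint : ∀ b : B, IsIntegral (Algebra.adjoin K (Set.range u)) b) (r : PRing K B n) :
    IsIntegral (Algebra.adjoin K (Set.range fun p : Fin n × α => pt (K := K) (n := n) p.1
      (u p.2))) r := by
  set A' : Subalgebra K (PRing K B n) := Algebra.adjoin K
    (Set.range fun p : Fin n × α => pt (K := K) (n := n) p.1 (u p.2)) with hA'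
  have hsingle : ∀ (i : Fin n) (b : B), IsIntegral A' (pt (K := K) (n := n) i b) := by
    intro i b
    have hmem : ∀ a : Algebra.adjoin K (Set.range u), pt (K := K) (n := n) i (a : B) ∈ A' := by
      rintro ⟨a, ha⟩
      have h1 : pt (K := K) (n := n) i a ∈
          (Algebra.adjoin K (Set.range u)).map (pt (K := K) (n := n) i) := ⟨a, ha, rfl⟩
      rw [AlgHom.map_adjoin] at h1
      refine Algebra.adjoin_mono ?_ h1
      rintro _ ⟨_, ⟨a, rfl⟩, rfl⟩
      exact ⟨(i, a), rfl⟩
    let φ : Algebra.adjoin K (Set.range u) →+* A' :=
      (((pt (K := K) (n := n) i).comp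
        (Algebra.adjoin K (Set.range u)).val).codRestrict A' hmem : _ →ₐ[K] A').toRingHom
    have hcomp : (algebraMap A' (PRing K B n)).comp φ =
        ((pt (K := K) (n := n) i : B →ₐ[K] PRing K B n) : B →+* PRing K B n).comp
          (algebraMap (Algebra.adjoin K (Set.range u)) B) := by
      ext a
      rfl
    exact IsIntegral.map_of_comp_eq φ
      ((pt (K := K) (n := n) i : B →ₐ[K] PRing K B n) : B →+* PRing K B n) hcomp (hint b)
  have htop : (⊤ : Subalgebra K (PRing K B n)) ≤
      (integralClosure A' (PRing K B n)).restrictScalars K := by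
    rw [← adjoin_pt_eq_top (K := K) (n := n) (Set.univ : Set B) (Algebra.adjoin_univ K B)]
    refine Algebra.adjoin_le ?_
    intro x hx
    simp only [Set.mem_iUnion, Set.mem_image, Set.mem_univ, true_and] at hx
    obtain ⟨i, b, rfl⟩ := hx
    exact hsingle i b
  exact htop Algebra.mem_top

/-- **(U5) over `ℚ`** (the `hint` of CUBE-HT (H1)/(H4) and of the ASM-C adapter): if `K/ℚ` is
algebraic and `B` is integral over `K[u]`, the universal `n`-point ring is integral over
`ℚ[pt i (u a)]`. -/
theorem isIntegral_adjoin_rat_pt [Algebra ℚ K] [Algebra.IsAlgebraic ℚ K]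
    [Algebra ℚ (PRing K B n)] {α : Type*} (u : α → B)
    (hint : ∀ b : B, IsIntegral (Algebra.adjoin K (Set.range u)) b) (r : PRing K B n) :
    IsIntegral (Algebra.adjoin ℚ (Set.range fun p : Fin n × α => pt (K := K) (n := n) p.1
      (u p.2))) r := by
  have hst : @IsScalarTower ℚ K (PRing K B n) Algebra.toSMul Algebra.toSMul Algebra.toSMul :=
    @IsScalarTower.rat K (PRing K B n) _ _ _ _ Algebra.toModule
  exact @helper1164.isIntegral_adjoin_rat_of_isIntegral_adjoin K _ _ _ (PRing K B n) _ _ _ hst
    _ _ (isIntegral_adjoin_pt u hint) r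

end U5

section U5sub

variable {K F : Type*} [Field K] [CommRing F] [Algebra K F] {n : ℕ}

/-- **(U5), subalgebra form**: `B'` a subalgebra of `F` (a chart ring inside the function
field) all of whose elements are integral, inside `F`, over the subalgebra generated by a family
`u` of elements of `B'`. -/
theorem isIntegral_adjoin_pt_of_subalgebra (B' : Subalgebra K F) {α : Type*} (u : α → B')
    (hint : ∀ b : B', IsIntegral (Algebra.adjoin K (Set.range fun a => (u a : F))) (b : F))
    (r : PRing K B' n) :
    IsIntegral (Algebra.adjoin K (Set.range fun p : Fin n × α => pt (K := K) (n := n) p.1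
      (u p.2))) r :=
  isIntegral_adjoin_pt u (fun b => isIntegral_adjoin_of_subalgebra' B' u b (hint b)) r

/-- **(U5), subalgebra form over `ℚ`.** -/
theorem isIntegral_adjoin_rat_pt_of_subalgebra [Algebra ℚ K] [Algebra.IsAlgebraic ℚ K]
    (B' : Subalgebra K F) [Algebra ℚ (PRing K B' n)] {α : Type*} (u : α → B')
    (hint : ∀ b : B', IsIntegral (Algebra.adjoin K (Set.range fun a => (u a : F))) (b : F))
    (r : PRing K B' n) :
    IsIntegral (Algebra.adjoin ℚ (Set.range fun p : Fin n × α => pt (K := K) (n := n) p.1
      (u p.2))) r := by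
  have hst : @IsScalarTower ℚ K (PRing K B' n) Algebra.toSMul Algebra.toSMul Algebra.toSMul :=
    @IsScalarTower.rat K (PRing K B' n) _ _ _ _ Algebra.toModule
  exact @helper1164.isIntegral_adjoin_rat_of_isIntegral_adjoin K _ _ _ (PRing K B' n) _ _ _ hst
    _ _ (isIntegral_adjoin_pt_of_subalgebra B' u hint) r

/-- **(U5), one chart coordinate, over `ℚ`** (R10(d)): if every element of the chart ring `B'`
is integral over `K[u]`, `u ∈ B'`, then the universal `n`-point ring of `B'` is integral over
`ℚ[g]`, `g i := pt i u`. -/
theorem isIntegral_adjoin_rat_pt_singleton [Algebra ℚ K] [Algebra.IsAlgebraic ℚ K]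
    (B' : Subalgebra K F) [Algebra ℚ (PRing K B' n)] (u : B')
    (hint : ∀ b : B', IsIntegral (Algebra.adjoin K {(u : F)}) (b : F))
    (r : PRing K B' n) :
    IsIntegral (Algebra.adjoin ℚ (Set.range fun i : Fin n => pt (K := K) (n := n) i u)) r := by
  have h1 := isIntegral_adjoin_rat_pt_of_subalgebra (n := n) B' (fun _ : Unit => u)
    (fun b => by
      have h2 : (Set.range fun _ : Unit => (u : F)) = {(u : F)} := Set.range_const
      rw [h2]
      exact hint b) r
  have h3 : (Set.range fun p : Fin n × Unit => pt (K := K) (n := n) p.1 u) =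
      Set.range fun i : Fin n => pt (K := K) (n := n) i u := by
    ext x
    constructor
    · rintro ⟨p, rfl⟩
      exact ⟨p.1, rfl⟩
    · rintro ⟨i, rfl⟩
      exact ⟨(i, ()), rfl⟩
  rw [h3] at h1
  exact h1

/-- **(U5), one chart coordinate, `K = ℚ̄`**: the form consumed by the height bridge of the
Pluecker track (no instance hypothesis on the algebraicity of `ℚ̄/ℚ` left). -/
theorem isIntegral_adjoin_rat_pt_singleton_algClosure {F : Type*} [CommRing F]
    [Algebra (AlgebraicClosure ℚ) F] {n : ℕ} (B' : Subalgebra (AlgebraicClosure ℚ) F)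
    [Algebra ℚ (PRing (AlgebraicClosure ℚ) B' n)] (u : B')
    (hint : ∀ b : B', IsIntegral (Algebra.adjoin (AlgebraicClosure ℚ) {(u : F)}) (b : F))
    (r : PRing (AlgebraicClosure ℚ) B' n) :
    IsIntegral (Algebra.adjoin ℚ (Set.range fun i : Fin n =>
      pt (K := AlgebraicClosure ℚ) (n := n) i u)) r :=
  haveI : Algebra.IsAlgebraic ℚ (AlgebraicClosure ℚ) := AlgebraicClosure.isAlgebraic ℚ
  isIntegral_adjoin_rat_pt_singleton B' u hint r

end U5sub

end Fermat.Agent.S17.helper3330
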