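import Fermat.Agent.S17.helper3436_MulSpec
import Fermat.Agent.S17.helper1935_RatDesc

/-!
# S17, Pluecker track: the leaf L5 `MulSpec`, unconditional (helper3436)

`mulLeaf F₀ P0 : MulSpec F₀ P0` for every rational model `F₀` and every place `P0`:
`helper3436.mulSpec` fed with the landed linear disjointness `helper1935.linDisjSpec`.
-/

set_option autoImplicit false

open ModularCurve AlgebraicCurve
open Fermat.Agent.S17.helper3197

namespace Fermat.Agent.S17.helper3436

/-- **Leaf MUL (L5), unconditional.** -/
theorem mulLeaf (F₀ : IntermediateField ℚ (LaurentSeries ℚ)) (P0 : Place Qb (FB F₀)) :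
    MulSpec F₀ P0 :=
  mulSpec F₀ P0 (Fermat.Agent.S17.helper1935.linDisjSpec F₀)

end Fermat.Agent.S17.helper3436
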