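/-
S17 (Mordell–Weil for `JZero N`), Plücker track: heights of the minors of evaluation matrices
over number fields versus `K`-rational Plücker heights (the "identification" step of the
cube-law assembly, captain ruling R10 (e)).

* `mulHeight_plk_rows_eq_pow` / `logHeight_plk_rows_eq` (+ all-maps forms): the vector of
  maximal minors of an evaluation matrix `E` over a number field `L` (rows = the points) has
  height `H_K(plk b) ^ [L : K]`, where `b` is a `K`-rational frame of `ker E`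
  (duality `helper1245` + extension formula `helper3588` (E1)).
* row scaling (`plk_row_smul`, `mulHeight_plk_row_smul`): the chart normalisation `ν` drops out.
* Segre bookkeeping for the seven tuples of the cube identity and the seven-term inequality for
  the normalised heights (`sevenTerm_le_of_segre`, `abs_sevenTerm_le_of_segre`).
-/
import Fermat.Agent.Lib.helper1245_PlueckerDualPS
import Fermat.Agent.Lib.helper3588_AbsHeight

set_option autoImplicit false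

namespace Fermat.Agent.S17.helper3588

open Height Fermat.Agent.Lib.helper2817

section PlkAlgebra

variable {R S : Type*} [CommRing R] [CommRing S] {r : ℕ} {n : Type*} [LinearOrder n]

/-- The Plücker vector commutes with ring homomorphisms. -/
theorem plk_map (f : R →+* S) (w : Fin r → n → R) :
    plk (fun i j => f (w i j)) = fun T => f (plk w T) := by
  funext T
  rw [plk_apply, plk_apply, RingHom.map_det]
  rfl

/-- Scaling the rows of a frame multiplies the Plücker vector by the product of the scalars. -/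
theorem plk_row_smul (c : Fin r → R) (w : Fin r → n → R) :
    plk (fun i => c i • w i) = (∏ i, c i) • plk w := by
  funext T
  rw [Pi.smul_apply, plk_apply, plk_apply, smul_eq_mul, ← Matrix.det_mul_column]
  rfl

end PlkAlgebra

section Identification

variable {K L : Type*} [Field K] [Field L] [NumberField K] [NumberField L] [Algebra K L]
variable {r : ℕ} {n : Type*} [Fintype n] [LinearOrder n]

omit [NumberField K] [NumberField L] in
/-- A `K`-linearly independent frame stays linearly independent after extension of scalars. -/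
theorem linearIndependent_algebraMap (b : Fin r → n → K) (hb : LinearIndependent K b) :
    LinearIndependent L (fun i j => algebraMap K L (b i j)) := by
  rw [linearIndependent_iff_plk_ne_zero] at hb ⊢
  obtain ⟨T, hT⟩ : ∃ T, plk b T ≠ 0 := by
    by_contra hcon
    push Not at hcon
    exact hb (funext hcon)
  intro h0
  have h1 := congrFun h0 T
  rw [plk_map (algebraMap K L) b] at h1
  exact hT ((map_eq_zero (algebraMap K L)).mp h1)

/-- Extension formula for Plücker heights: the height over `L` of the Plücker vector of a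
`K`-rational frame is the `[L : K]`-th power of its height over `K`. -/
theorem mulHeight_plk_algebraMap (b : Fin r → n → K) :
    mulHeight (plk (fun i j => algebraMap K L (b i j))) =
      mulHeight (plk b) ^ Module.finrank K L := by
  rw [plk_map (algebraMap K L) b]
  exact Fermat.Agent.Lib.helper3588.mulHeight_algebraMap K L (plk b)

/-- **(ASM1) Identification.** `E` is an evaluation matrix over the number field `L` with
linearly independent rows (`k` conditions on `n → L`), `b` a `K`-rational frame of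
`r = card n - k` vectors in its kernel. Then the vector of maximal minors of `E` has height
`H_K(plk b) ^ [L : K]` over `L`. -/
theorem mulHeight_plk_rows_eq_pow {k : ℕ} (E : Matrix (Fin k) n L) (b : Fin r → n → K)
    (hE : LinearIndependent L E.row) (hb : LinearIndependent K b)
    (hker : ∀ i, E.mulVec (fun j => algebraMap K L (b i j)) = 0)
    (hcard : Fintype.card n = r + k) :
    mulHeight (plk (fun j => E j)) = mulHeight (plk b) ^ Module.finrank K L := by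
  rw [← mulHeight_plk_algebraMap (L := L) b]
  exact (Fermat.Agent.Lib.helper1245.mulHeight_plk_ker_eq_plk_rows E
    (fun i j => algebraMap K L (b i j)) hE (linearIndependent_algebraMap b hb) hker hcard).symm

/-- (ASM1), logarithmic form: `logHeight_L (minors E) = [L : K] * logHeight_K (plk b)`. -/
theorem logHeight_plk_rows_eq {k : ℕ} (E : Matrix (Fin k) n L) (b : Fin r → n → K)
    (hE : LinearIndependent L E.row) (hb : LinearIndependent K b)
    (hker : ∀ i, E.mulVec (fun j => algebraMap K L (b i j)) = 0)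
    (hcard : Fintype.card n = r + k) :
    logHeight (plk (fun j => E j)) = Module.finrank K L * logHeight (plk b) := by
  rw [logHeight_eq_log_mulHeight, mulHeight_plk_rows_eq_pow E b hE hb hker hcard, Real.log_pow,
    logHeight_eq_log_mulHeight]

/-- (ASM1), all-maps indexing of the minors (the convention of SIEGEL / CUBE-HT). -/
theorem mulHeight_minors_fun_eq_pow {k : ℕ} (E : Matrix (Fin k) n L) (b : Fin r → n → K)
    (hE : LinearIndependent L E.row) (hb : LinearIndependent K b)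
    (hker : ∀ i, E.mulVec (fun j => algebraMap K L (b i j)) = 0)
    (hcard : Fintype.card n = r + k) :
    mulHeight (fun s : Fin k → n => (E.submatrix id s).det) =
      mulHeight (plk b) ^ Module.finrank K L := by
  rw [← mulHeight_plk_rows_eq_pow E b hE hb hker hcard]
  exact Fermat.Agent.Lib.helper1245.mulHeight_minors_fun_eq_plk (fun j => E j)

/-- (ASM1), all-maps indexing, logarithmic form. -/
theorem logHeight_minors_fun_eq {k : ℕ} (E : Matrix (Fin k) n L) (b : Fin r → n → K)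
    (hE : LinearIndependent L E.row) (hb : LinearIndependent K b)
    (hker : ∀ i, E.mulVec (fun j => algebraMap K L (b i j)) = 0)
    (hcard : Fintype.card n = r + k) :
    logHeight (fun s : Fin k → n => (E.submatrix id s).det) =
      Module.finrank K L * logHeight (plk b) := by
  rw [logHeight_eq_log_mulHeight, mulHeight_minors_fun_eq_pow E b hE hb hker hcard, Real.log_pow,
    logHeight_eq_log_mulHeight]

end Identification

section Scaling

variable {K : Type*} [Field K] [AdmissibleAbsValues K] {r : ℕ} {n : Type*} [Fintype n]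
  [LinearOrder n]

/-- Scaling the rows of a frame by nonzero scalars does not change the Plücker height
(the chart normalisation `ν` of the cube law drops out). -/
theorem mulHeight_plk_row_smul (c : Fin r → K) (hc : ∀ i, c i ≠ 0) (w : Fin r → n → K) :
    mulHeight (plk (fun i => c i • w i)) = mulHeight (plk w) := by
  rw [plk_row_smul]
  exact mulHeight_smul_eq_mulHeight _ (Finset.prod_ne_zero_iff.mpr fun i _ => hc i)

/-- Logarithmic form of `mulHeight_plk_row_smul`. -/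
theorem logHeight_plk_row_smul (c : Fin r → K) (hc : ∀ i, c i ≠ 0) (w : Fin r → n → K) :
    logHeight (plk (fun i => c i • w i)) = logHeight (plk w) := by
  rw [logHeight_eq_log_mulHeight, mulHeight_plk_row_smul c hc w, logHeight_eq_log_mulHeight]

end Scaling

section Segre

variable {K : Type*} [Field K] [AdmissibleAbsValues K]
variable {ι₁ ι₂ ι₃ ι₄ : Type*} [Finite ι₁] [Finite ι₂] [Finite ι₃] [Finite ι₄]

omit [AdmissibleAbsValues K] [Finite ι₁] [Finite ι₂] in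
theorem fun_mul_ne_zero {x : ι₁ → K} {y : ι₂ → K} (hx : x ≠ 0) (hy : y ≠ 0) :
    (fun a : ι₁ × ι₂ => x a.1 * y a.2) ≠ 0 := by
  obtain ⟨i, hi⟩ := Function.ne_iff.mp hx
  obtain ⟨j, hj⟩ := Function.ne_iff.mp hy
  exact Function.ne_iff.mpr ⟨⟨i, j⟩, mul_ne_zero hi hj⟩

/-- Segre for three factors. -/
theorem logHeight_segre₃ {x : ι₁ → K} {y : ι₂ → K} {z : ι₃ → K} (hx : x ≠ 0) (hy : y ≠ 0)
    (hz : z ≠ 0) :
    logHeight (fun a : ι₁ × ι₂ × ι₃ => x a.1 * y a.2.1 * z a.2.2) =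
      logHeight x + logHeight y + logHeight z := by
  have h := logHeight_fun_mul_eq hx (fun_mul_ne_zero hy hz)
  rw [logHeight_fun_mul_eq hy hz] at h
  rw [add_assoc, ← h]
  congr 1
  funext a
  ring

/-- Segre for four factors. -/
theorem logHeight_segre₄ {x : ι₁ → K} {y : ι₂ → K} {z : ι₃ → K} {w : ι₄ → K} (hx : x ≠ 0)
    (hy : y ≠ 0) (hz : z ≠ 0) (hw : w ≠ 0) :
    logHeight (fun a : ι₁ × ι₂ × ι₃ × ι₄ => x a.1 * y a.2.1 * z a.2.2.1 * w a.2.2.2) =
      logHeight x + logHeight y + logHeight z + logHeight w := by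
  have hyzw : (fun a : ι₂ × ι₃ × ι₄ => y a.1 * z a.2.1 * w a.2.2) ≠ 0 := by
    obtain ⟨i, hi⟩ := Function.ne_iff.mp hy
    obtain ⟨j, hj⟩ := Function.ne_iff.mp hz
    obtain ⟨k, hk⟩ := Function.ne_iff.mp hw
    exact Function.ne_iff.mpr ⟨⟨i, j, k⟩, mul_ne_zero (mul_ne_zero hi hj) hk⟩
  have h := logHeight_fun_mul_eq hx hyzw
  rw [logHeight_segre₃ hy hz hw] at h
  have e : logHeight x + logHeight y + logHeight z + logHeight w =
      logHeight x + (logHeight y + logHeight z + logHeight w) := by ring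
  rw [e, ← h]
  congr 1
  funext a
  ring

end Segre

section SevenTerm

variable {L : Type*} [Field L] [AdmissibleAbsValues L]
variable {ι₁₂₃ ι₁ ι₂ ι₃ ι₁₂ ι₁₃ ι₂₃ : Type*} [Finite ι₁₂₃] [Finite ι₁] [Finite ι₂] [Finite ι₃]
  [Finite ι₁₂] [Finite ι₁₃] [Finite ι₂₃]

/-- **Seven-term inequality from the Segre comparison (one-sided).** If the Segre products
`X = x₁₂₃ ⊗ x₁ ⊗ x₂ ⊗ x₃` and `Y = x₁₂ ⊗ x₁₃ ⊗ x₂₃` satisfy `h(X) ≤ h(Y) + δ * C` and each
`h(x_S) = δ * Φ_S` with `δ > 0` (the degree of the field of values), then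
`Φ₁₂₃ - Φ₁₂ - Φ₁₃ - Φ₂₃ + Φ₁ + Φ₂ + Φ₃ ≤ C`. -/
theorem sevenTerm_le_of_segre {x₁₂₃ : ι₁₂₃ → L} {x₁ : ι₁ → L} {x₂ : ι₂ → L} {x₃ : ι₃ → L}
    {x₁₂ : ι₁₂ → L} {x₁₃ : ι₁₃ → L} {x₂₃ : ι₂₃ → L}
    (h₁₂₃ : x₁₂₃ ≠ 0) (h₁ : x₁ ≠ 0) (h₂ : x₂ ≠ 0) (h₃ : x₃ ≠ 0)
    (h₁₂ : x₁₂ ≠ 0) (h₁₃ : x₁₃ ≠ 0) (h₂₃ : x₂₃ ≠ 0)
    {δ C Φ₁₂₃ Φ₁ Φ₂ Φ₃ Φ₁₂ Φ₁₃ Φ₂₃ : ℝ} (hδ : 0 < δ)
    (e₁₂₃ : logHeight x₁₂₃ = δ * Φ₁₂₃) (e₁ : logHeight x₁ = δ * Φ₁) (e₂ : logHeight x₂ = δ * Φ₂)
    (e₃ : logHeight x₃ = δ * Φ₃) (e₁₂ : logHeight x₁₂ = δ * Φ₁₂)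
    (e₁₃ : logHeight x₁₃ = δ * Φ₁₃) (e₂₃ : logHeight x₂₃ = δ * Φ₂₃)
    (hcmp : logHeight (fun a : ι₁₂₃ × ι₁ × ι₂ × ι₃ => x₁₂₃ a.1 * x₁ a.2.1 * x₂ a.2.2.1 * x₃ a.2.2.2)
      ≤ logHeight (fun a : ι₁₂ × ι₁₃ × ι₂₃ => x₁₂ a.1 * x₁₃ a.2.1 * x₂₃ a.2.2) + δ * C) :
    Φ₁₂₃ - Φ₁₂ - Φ₁₃ - Φ₂₃ + Φ₁ + Φ₂ + Φ₃ ≤ C := by
  rw [logHeight_segre₄ h₁₂₃ h₁ h₂ h₃, logHeight_segre₃ h₁₂ h₁₃ h₂₃, e₁₂₃, e₁, e₂, e₃, e₁₂, e₁₃,
    e₂₃] at hcmp
  have h : δ * (Φ₁₂₃ - Φ₁₂ - Φ₁₃ - Φ₂₃ + Φ₁ + Φ₂ + Φ₃) ≤ δ * C := by linarith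
  exact le_of_mul_le_mul_left h hδ

/-- **Seven-term identity from the Segre comparison (two-sided).** -/
theorem abs_sevenTerm_le_of_segre {x₁₂₃ : ι₁₂₃ → L} {x₁ : ι₁ → L} {x₂ : ι₂ → L} {x₃ : ι₃ → L}
    {x₁₂ : ι₁₂ → L} {x₁₃ : ι₁₃ → L} {x₂₃ : ι₂₃ → L}
    (h₁₂₃ : x₁₂₃ ≠ 0) (h₁ : x₁ ≠ 0) (h₂ : x₂ ≠ 0) (h₃ : x₃ ≠ 0)
    (h₁₂ : x₁₂ ≠ 0) (h₁₃ : x₁₃ ≠ 0) (h₂₃ : x₂₃ ≠ 0)
    {δ C Φ₁₂₃ Φ₁ Φ₂ Φ₃ Φ₁₂ Φ₁₃ Φ₂₃ : ℝ} (hδ : 0 < δ)
    (e₁₂₃ : logHeight x₁₂₃ = δ * Φ₁₂₃) (e₁ : logHeight x₁ = δ * Φ₁) (e₂ : logHeight x₂ = δ * Φ₂)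
    (e₃ : logHeight x₃ = δ * Φ₃) (e₁₂ : logHeight x₁₂ = δ * Φ₁₂)
    (e₁₃ : logHeight x₁₃ = δ * Φ₁₃) (e₂₃ : logHeight x₂₃ = δ * Φ₂₃)
    (hcmp : |logHeight (fun a : ι₁₂₃ × ι₁ × ι₂ × ι₃ =>
        x₁₂₃ a.1 * x₁ a.2.1 * x₂ a.2.2.1 * x₃ a.2.2.2)
      - logHeight (fun a : ι₁₂ × ι₁₃ × ι₂₃ => x₁₂ a.1 * x₁₃ a.2.1 * x₂₃ a.2.2)| ≤ δ * C) :
    |Φ₁₂₃ - Φ₁₂ - Φ₁₃ - Φ₂₃ + Φ₁ + Φ₂ + Φ₃| ≤ C := by
  rw [logHeight_segre₄ h₁₂₃ h₁ h₂ h₃, logHeight_segre₃ h₁₂ h₁₃ h₂₃, e₁₂₃, e₁, e₂, e₃, e₁₂, e₁₃,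
    e₂₃] at hcmp
  rw [abs_le] at hcmp ⊢
  constructor
  · have h : δ * (-C) ≤ δ * (Φ₁₂₃ - Φ₁₂ - Φ₁₃ - Φ₂₃ + Φ₁ + Φ₂ + Φ₃) := by linarith [hcmp.1]
    exact le_of_mul_le_mul_left h hδ
  · have h : δ * (Φ₁₂₃ - Φ₁₂ - Φ₁₃ - Φ₂₃ + Φ₁ + Φ₂ + Φ₃) ≤ δ * C := by linarith [hcmp.2]
    exact le_of_mul_le_mul_left h hδ

end SevenTerm

section EvalPair

variable {K L : Type*} [Field K] [Field L] [NumberField K] [NumberField L] [Algebra K L]

/-- `E` (over `L`, `k` independent rows = the points) and `b` (a `K`-rational frame of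
`r = card n - k` vectors) form an *evaluation pair*: `b` is a frame of `ker E`. -/
def IsEvalPair {n : Type*} [Fintype n] {k r : ℕ} (E : Matrix (Fin k) n L) (b : Fin r → n → K) :
    Prop :=
  LinearIndependent L E.row ∧ LinearIndependent K b ∧
    (∀ i, E.mulVec (fun j => algebraMap K L (b i j)) = 0) ∧ Fintype.card n = r + k

omit [NumberField K] [NumberField L] [Algebra K L] in
theorem plk_rows_ne_zero {n : Type*} [Fintype n] [LinearOrder n] {k : ℕ} (E : Matrix (Fin k) n L)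
    (hE : LinearIndependent L E.row) : plk (fun j => E j) ≠ 0 :=
  (linearIndependent_iff_plk_ne_zero _).mp hE

theorem IsEvalPair.logHeight_eq {n : Type*} [Fintype n] [LinearOrder n] {k r : ℕ}
    {E : Matrix (Fin k) n L} {b : Fin r → n → K} (h : IsEvalPair E b) :
    logHeight (plk (fun j => E j)) = Module.finrank K L * logHeight (plk b) :=
  logHeight_plk_rows_eq E b h.1 h.2.1 h.2.2.1 h.2.2.2

variable {n₁₂₃ n₁ n₂ n₃ n₁₂ n₁₃ n₂₃ : Type*}
  [Fintype n₁₂₃] [Fintype n₁] [Fintype n₂] [Fintype n₃] [Fintype n₁₂] [Fintype n₁₃] [Fintype n₂₃]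
  [LinearOrder n₁₂₃] [LinearOrder n₁] [LinearOrder n₂] [LinearOrder n₃] [LinearOrder n₁₂]
  [LinearOrder n₁₃] [LinearOrder n₂₃]
  {k₁₂₃ k₁ k₂ k₃ k₁₂ k₁₃ k₂₃ r₁₂₃ r₁ r₂ r₃ r₁₂ r₁₃ r₂₃ : ℕ}

/-- **Cube law for `K`-rational Plücker heights from the Segre comparison of the evaluation
minors (one-sided).** Seven evaluation pairs `(E_S, b_S)` over a number field `L ⊇ K`; if the
Segre products of the minor vectors satisfy `h_L(X) ≤ h_L(Y) + [L : K] * C`, then the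
`K`-rational Plücker heights `Φ_S = logHeight (plk b_S)` satisfy the seven-term inequality
with the constant `C` (independent of `L`). -/
theorem sevenTerm_le_of_evalPairs
    {E₁₂₃ : Matrix (Fin k₁₂₃) n₁₂₃ L} {b₁₂₃ : Fin r₁₂₃ → n₁₂₃ → K}
    {E₁ : Matrix (Fin k₁) n₁ L} {b₁ : Fin r₁ → n₁ → K}
    {E₂ : Matrix (Fin k₂) n₂ L} {b₂ : Fin r₂ → n₂ → K}
    {E₃ : Matrix (Fin k₃) n₃ L} {b₃ : Fin r₃ → n₃ → K}
    {E₁₂ : Matrix (Fin k₁₂) n₁₂ L} {b₁₂ : Fin r₁₂ → n₁₂ → K}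
    {E₁₃ : Matrix (Fin k₁₃) n₁₃ L} {b₁₃ : Fin r₁₃ → n₁₃ → K}
    {E₂₃ : Matrix (Fin k₂₃) n₂₃ L} {b₂₃ : Fin r₂₃ → n₂₃ → K}
    (p₁₂₃ : IsEvalPair E₁₂₃ b₁₂₃) (p₁ : IsEvalPair E₁ b₁) (p₂ : IsEvalPair E₂ b₂)
    (p₃ : IsEvalPair E₃ b₃) (p₁₂ : IsEvalPair E₁₂ b₁₂) (p₁₃ : IsEvalPair E₁₃ b₁₃)
    (p₂₃ : IsEvalPair E₂₃ b₂₃) {C : ℝ}
    (hcmp : logHeight (fun a : PS k₁₂₃ n₁₂₃ × PS k₁ n₁ × PS k₂ n₂ × PS k₃ n₃ =>
        plk (fun j => E₁₂₃ j) a.1 * plk (fun j => E₁ j) a.2.1 * plk (fun j => E₂ j) a.2.2.1 *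
          plk (fun j => E₃ j) a.2.2.2)
      ≤ logHeight (fun a : PS k₁₂ n₁₂ × PS k₁₃ n₁₃ × PS k₂₃ n₂₃ =>
        plk (fun j => E₁₂ j) a.1 * plk (fun j => E₁₃ j) a.2.1 * plk (fun j => E₂₃ j) a.2.2)
        + Module.finrank K L * C) :
    logHeight (plk b₁₂₃) - logHeight (plk b₁₂) - logHeight (plk b₁₃) - logHeight (plk b₂₃)
      + logHeight (plk b₁) + logHeight (plk b₂) + logHeight (plk b₃) ≤ C := by
  have hδ : (0 : ℝ) < Module.finrank K L := by exact_mod_cast Module.finrank_pos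
  exact sevenTerm_le_of_segre (plk_rows_ne_zero _ p₁₂₃.1) (plk_rows_ne_zero _ p₁.1)
    (plk_rows_ne_zero _ p₂.1) (plk_rows_ne_zero _ p₃.1) (plk_rows_ne_zero _ p₁₂.1)
    (plk_rows_ne_zero _ p₁₃.1) (plk_rows_ne_zero _ p₂₃.1) hδ p₁₂₃.logHeight_eq p₁.logHeight_eq
    p₂.logHeight_eq p₃.logHeight_eq p₁₂.logHeight_eq p₁₃.logHeight_eq p₂₃.logHeight_eq hcmp

end EvalPair

/-! ### All-maps indexing on both sides, no linear order on the index type -/

section AllMaps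

variable {K L : Type*} [Field K] [Field L] [NumberField K] [NumberField L] [Algebra K L]
variable {n : Type*} [Fintype n] {k r : ℕ}

/-- **(ASM-D) Identification, all-maps indexing on both sides.** `E` an evaluation matrix over
the number field `L` with linearly independent rows, `b` a `K`-rational frame of its kernel,
`card n = r + k`. Then the all-maps minors of `E` (over `L`) and of `b` (over `K`) satisfy
`H_L(minors E) = H_K(minors b) ^ [L : K]`. -/
theorem mulHeight_minors_eq_pow_of_ker (E : Matrix (Fin k) n L) (b : Fin r → n → K)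
    (hE : LinearIndependent L E.row) (hb : LinearIndependent K b)
    (hker : ∀ i, E.mulVec (fun j => algebraMap K L (b i j)) = 0)
    (hcard : Fintype.card n = r + k) :
    mulHeight (fun s : Fin k → n => (E.submatrix id s).det) =
      mulHeight (fun s : Fin r → n => ((Matrix.of b).submatrix id s).det) ^
        Module.finrank K L := by
  let _ : LinearOrder n := LinearOrder.lift' (Fintype.equivFin n) (Fintype.equivFin n).injective
  rw [mulHeight_minors_fun_eq_pow E b hE hb hker hcard,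
    Fermat.Agent.Lib.helper1245.mulHeight_minors_fun_eq_plk b]

/-- (ASM-D), logarithmic form:
`logHeight_L (minors E) = [L : K] * logHeight_K (minors b)`, all-maps indexing. -/
theorem logHeight_minors_eq_of_ker (E : Matrix (Fin k) n L) (b : Fin r → n → K)
    (hE : LinearIndependent L E.row) (hb : LinearIndependent K b)
    (hker : ∀ i, E.mulVec (fun j => algebraMap K L (b i j)) = 0)
    (hcard : Fintype.card n = r + k) :
    logHeight (fun s : Fin k → n => (E.submatrix id s).det) =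
      Module.finrank K L * logHeight (fun s : Fin r → n => ((Matrix.of b).submatrix id s).det) := by
  rw [logHeight_eq_log_mulHeight, mulHeight_minors_eq_pow_of_ker E b hE hb hker hcard,
    Real.log_pow, logHeight_eq_log_mulHeight]

omit [NumberField K] [NumberField L] [Algebra K L] in
/-- The all-maps minor vector of a matrix with linearly independent rows is nonzero. -/
theorem minors_ne_zero_of_linearIndependent (E : Matrix (Fin k) n L)
    (hE : LinearIndependent L E.row) : (fun s : Fin k → n => (E.submatrix id s).det) ≠ 0 := by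
  let _ : LinearOrder n := LinearOrder.lift' (Fintype.equivFin n) (Fintype.equivFin n).injective
  have h := plk_rows_ne_zero E hE
  obtain ⟨T, hT⟩ : ∃ T, plk (fun j => E j) T ≠ 0 := by
    by_contra hcon
    push Not at hcon
    exact h (funext hcon)
  intro h0
  exact hT (congrFun h0 (T.emb : Fin k → n))

omit [Fintype n] in
/-- Row scaling, all-maps indexing: `minors (c_i * E_i) = (∏ c_i) • minors E`. -/
theorem minors_row_smul {R : Type*} [CommRing R] (c : Fin k → R) (E : Matrix (Fin k) n R) :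
    (fun s : Fin k → n => ((Matrix.of fun i j => c i * E i j).submatrix id s).det) =
      (∏ i, c i) • fun s : Fin k → n => (E.submatrix id s).det := by
  funext s
  rw [Pi.smul_apply, smul_eq_mul, ← Matrix.det_mul_column]
  rfl

omit [NumberField L] in
/-- Row scaling by nonzero scalars does not change the height of the all-maps minors. -/
theorem mulHeight_minors_row_smul [AdmissibleAbsValues L] (c : Fin k → L) (hc : ∀ i, c i ≠ 0)
    (E : Matrix (Fin k) n L) :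
    mulHeight (fun s : Fin k → n => ((Matrix.of fun i j => c i * E i j).submatrix id s).det) =
      mulHeight (fun s : Fin k → n => (E.submatrix id s).det) := by
  rw [minors_row_smul]
  exact mulHeight_smul_eq_mulHeight _ (Finset.prod_ne_zero_iff.mpr fun i _ => hc i)

end AllMaps

/-! ### Right-nested Segre products -/

section SegreRight

variable {K : Type*} [Field K] [AdmissibleAbsValues K]
variable {ι₁ ι₂ ι₃ ι₄ : Type*} [Finite ι₁] [Finite ι₂] [Finite ι₃] [Finite ι₄]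

/-- Segre for three factors, right-nested product. -/
theorem logHeight_segre₃_right {x : ι₁ → K} {y : ι₂ → K} {z : ι₃ → K} (hx : x ≠ 0) (hy : y ≠ 0)
    (hz : z ≠ 0) :
    logHeight (fun a : ι₁ × ι₂ × ι₃ => x a.1 * (y a.2.1 * z a.2.2)) =
      logHeight x + logHeight y + logHeight z := by
  rw [← logHeight_segre₃ hx hy hz]
  congr 1
  funext a
  ring

/-- Segre for four factors, right-nested product. -/
theorem logHeight_segre₄_right {x : ι₁ → K} {y : ι₂ → K} {z : ι₃ → K} {w : ι₄ → K} (hx : x ≠ 0)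
    (hy : y ≠ 0) (hz : z ≠ 0) (hw : w ≠ 0) :
    logHeight (fun a : ι₁ × ι₂ × ι₃ × ι₄ => x a.1 * (y a.2.1 * (z a.2.2.1 * w a.2.2.2))) =
      logHeight x + logHeight y + logHeight z + logHeight w := by
  rw [← logHeight_segre₄ hx hy hz hw]
  congr 1
  funext a
  ring

/-- Multiplicative Segre for three factors, right-nested product. -/
theorem mulHeight_segre₃_right {x : ι₁ → K} {y : ι₂ → K} {z : ι₃ → K} (hx : x ≠ 0) (hy : y ≠ 0)
    (hz : z ≠ 0) :
    mulHeight (fun a : ι₁ × ι₂ × ι₃ => x a.1 * (y a.2.1 * z a.2.2)) =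
      mulHeight x * mulHeight y * mulHeight z := by
  rw [mulHeight_fun_mul_eq hx (fun_mul_ne_zero hy hz), mulHeight_fun_mul_eq hy hz, mul_assoc]

/-- Multiplicative Segre for four factors, right-nested product. -/
theorem mulHeight_segre₄_right {x : ι₁ → K} {y : ι₂ → K} {z : ι₃ → K} {w : ι₄ → K} (hx : x ≠ 0)
    (hy : y ≠ 0) (hz : z ≠ 0) (hw : w ≠ 0) :
    mulHeight (fun a : ι₁ × ι₂ × ι₃ × ι₄ => x a.1 * (y a.2.1 * (z a.2.2.1 * w a.2.2.2))) =
      mulHeight x * mulHeight y * mulHeight z * mulHeight w := by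
  have hzw := fun_mul_ne_zero hz hw
  have hyzw : (fun a : ι₂ × ι₃ × ι₄ => y a.1 * (z a.2.1 * w a.2.2)) ≠ 0 :=
    fun_mul_ne_zero hy hzw
  rw [mulHeight_fun_mul_eq hx hyzw, mulHeight_fun_mul_eq hy hzw, mulHeight_fun_mul_eq hz hw]
  ring

end SegreRight

/-! ### The seven-term inequality, all-maps minors and right-nested Segre products -/

section SevenTermMinors

variable {K L : Type*} [Field K] [Field L] [NumberField K] [NumberField L] [Algebra K L]
variable {n₁₂₃ n₁ n₂ n₃ n₁₂ n₁₃ n₂₃ : Type*}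
  [Fintype n₁₂₃] [Fintype n₁] [Fintype n₂] [Fintype n₃] [Fintype n₁₂] [Fintype n₁₃] [Fintype n₂₃]
  {k₁₂₃ k₁ k₂ k₃ k₁₂ k₁₃ k₂₃ r₁₂₃ r₁ r₂ r₃ r₁₂ r₁₃ r₂₃ : ℕ}

/-- **One-sided cube law for `K`-rational Plücker heights (all-maps minors, right-nested Segre
products).** Seven evaluation pairs `(E_S, b_S)` over a number field `L ⊇ K`. If the Segre
products `X = x₁₂₃ ⊗ x₁ ⊗ x₂ ⊗ x₃`, `Y = x₁₂ ⊗ x₁₃ ⊗ x₂₃` of the all-maps minor vectors
`x_S = minors E_S` satisfy `H_L(X) ≤ C ^ [L : K] * H_L(Y)` with `C > 0`, then the `K`-rational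
heights `Φ_S = logHeight (minors b_S)` satisfy
`Φ₁₂₃ - Φ₁₂ - Φ₁₃ - Φ₂₃ + Φ₁ + Φ₂ + Φ₃ ≤ log C`. -/
theorem sevenTerm_le_of_minors
    {E₁₂₃ : Matrix (Fin k₁₂₃) n₁₂₃ L} {b₁₂₃ : Fin r₁₂₃ → n₁₂₃ → K}
    {E₁ : Matrix (Fin k₁) n₁ L} {b₁ : Fin r₁ → n₁ → K}
    {E₂ : Matrix (Fin k₂) n₂ L} {b₂ : Fin r₂ → n₂ → K}
    {E₃ : Matrix (Fin k₃) n₃ L} {b₃ : Fin r₃ → n₃ → K}
    {E₁₂ : Matrix (Fin k₁₂) n₁₂ L} {b₁₂ : Fin r₁₂ → n₁₂ → K}
    {E₁₃ : Matrix (Fin k₁₃) n₁₃ L} {b₁₃ : Fin r₁₃ → n₁₃ → K}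
    {E₂₃ : Matrix (Fin k₂₃) n₂₃ L} {b₂₃ : Fin r₂₃ → n₂₃ → K}
    (p₁₂₃ : IsEvalPair E₁₂₃ b₁₂₃) (p₁ : IsEvalPair E₁ b₁) (p₂ : IsEvalPair E₂ b₂)
    (p₃ : IsEvalPair E₃ b₃) (p₁₂ : IsEvalPair E₁₂ b₁₂) (p₁₃ : IsEvalPair E₁₃ b₁₃)
    (p₂₃ : IsEvalPair E₂₃ b₂₃) {C : ℝ} (hC : 0 < C)
    (hcmp : mulHeight (fun q : (Fin k₁₂₃ → n₁₂₃) × (Fin k₁ → n₁) × (Fin k₂ → n₂) × (Fin k₃ → n₃) =>
        (E₁₂₃.submatrix id q.1).det * ((E₁.submatrix id q.2.1).det *
          ((E₂.submatrix id q.2.2.1).det * (E₃.submatrix id q.2.2.2).det)))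
      ≤ C ^ Module.finrank K L *
        mulHeight (fun q : (Fin k₁₂ → n₁₂) × (Fin k₁₃ → n₁₃) × (Fin k₂₃ → n₂₃) =>
          (E₁₂.submatrix id q.1).det * ((E₁₃.submatrix id q.2.1).det *
            (E₂₃.submatrix id q.2.2).det))) :
    logHeight (fun s : Fin r₁₂₃ → n₁₂₃ => ((Matrix.of b₁₂₃).submatrix id s).det)
      - logHeight (fun s : Fin r₁₂ → n₁₂ => ((Matrix.of b₁₂).submatrix id s).det)
      - logHeight (fun s : Fin r₁₃ → n₁₃ => ((Matrix.of b₁₃).submatrix id s).det)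
      - logHeight (fun s : Fin r₂₃ → n₂₃ => ((Matrix.of b₂₃).submatrix id s).det)
      + logHeight (fun s : Fin r₁ → n₁ => ((Matrix.of b₁).submatrix id s).det)
      + logHeight (fun s : Fin r₂ → n₂ => ((Matrix.of b₂).submatrix id s).det)
      + logHeight (fun s : Fin r₃ → n₃ => ((Matrix.of b₃).submatrix id s).det) ≤ Real.log C := by
  have hδ : (0 : ℝ) < Module.finrank K L := by exact_mod_cast Module.finrank_pos
  have z₁₂₃ := minors_ne_zero_of_linearIndependent E₁₂₃ p₁₂₃.1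
  have z₁ := minors_ne_zero_of_linearIndependent E₁ p₁.1
  have z₂ := minors_ne_zero_of_linearIndependent E₂ p₂.1
  have z₃ := minors_ne_zero_of_linearIndependent E₃ p₃.1
  have z₁₂ := minors_ne_zero_of_linearIndependent E₁₂ p₁₂.1
  have z₁₃ := minors_ne_zero_of_linearIndependent E₁₃ p₁₃.1
  have z₂₃ := minors_ne_zero_of_linearIndependent E₂₃ p₂₃.1
  have e₁₂₃ := logHeight_minors_eq_of_ker E₁₂₃ b₁₂₃ p₁₂₃.1 p₁₂₃.2.1 p₁₂₃.2.2.1 p₁₂₃.2.2.2
  have e₁ := logHeight_minors_eq_of_ker E₁ b₁ p₁.1 p₁.2.1 p₁.2.2.1 p₁.2.2.2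
  have e₂ := logHeight_minors_eq_of_ker E₂ b₂ p₂.1 p₂.2.1 p₂.2.2.1 p₂.2.2.2
  have e₃ := logHeight_minors_eq_of_ker E₃ b₃ p₃.1 p₃.2.1 p₃.2.2.1 p₃.2.2.2
  have e₁₂ := logHeight_minors_eq_of_ker E₁₂ b₁₂ p₁₂.1 p₁₂.2.1 p₁₂.2.2.1 p₁₂.2.2.2
  have e₁₃ := logHeight_minors_eq_of_ker E₁₃ b₁₃ p₁₃.1 p₁₃.2.1 p₁₃.2.2.1 p₁₃.2.2.2
  have e₂₃ := logHeight_minors_eq_of_ker E₂₃ b₂₃ p₂₃.1 p₂₃.2.1 p₂₃.2.2.1 p₂₃.2.2.2
  -- take logarithms in `hcmp`
  have hlog := Real.log_le_log (mulHeight_pos _) hcmp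
  rw [Real.log_mul (pow_pos hC _).ne' (mulHeight_pos _).ne', Real.log_pow,
    ← logHeight_eq_log_mulHeight, ← logHeight_eq_log_mulHeight,
    logHeight_segre₄_right z₁₂₃ z₁ z₂ z₃, logHeight_segre₃_right z₁₂ z₁₃ z₂₃,
    e₁₂₃, e₁, e₂, e₃, e₁₂, e₁₃, e₂₃] at hlog
  set δ : ℝ := (Module.finrank K L : ℝ) with hδdef
  have h : δ * (logHeight (fun s : Fin r₁₂₃ → n₁₂₃ => ((Matrix.of b₁₂₃).submatrix id s).det)
      - logHeight (fun s : Fin r₁₂ → n₁₂ => ((Matrix.of b₁₂).submatrix id s).det)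
      - logHeight (fun s : Fin r₁₃ → n₁₃ => ((Matrix.of b₁₃).submatrix id s).det)
      - logHeight (fun s : Fin r₂₃ → n₂₃ => ((Matrix.of b₂₃).submatrix id s).det)
      + logHeight (fun s : Fin r₁ → n₁ => ((Matrix.of b₁).submatrix id s).det)
      + logHeight (fun s : Fin r₂ → n₂ => ((Matrix.of b₂).submatrix id s).det)
      + logHeight (fun s : Fin r₃ → n₃ => ((Matrix.of b₃).submatrix id s).det))
      ≤ δ * Real.log C := by linarith
  exact le_of_mul_le_mul_left h hδ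

end SevenTermMinors

end Fermat.Agent.S17.helper3588
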