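/-
S17, weak Mordell–Weil input `hunr` without reduction theory (helper5065).

Abstract core: primitive Laurent series over a valuation subring `A` of a field `k`
(Gauss lemma through the reduction `A((q)) → κ((q))`), and the congruence/Nullstellensatz
contradiction used to show that inertia fixes division points.
-/
import Mathlib
import Fermat.Prelude.Def_ModularCurve_LaurentCoeff

set_option autoImplicit false

namespace Fermat.Agent.S17.helper5065

open ModularCurve IsLocalRing

section Prim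

variable {k : Type*} [Field k] (A : ValuationSubring k)

/-- Inclusion of Laurent series with coefficients in `A` into Laurent series over `k`. -/
noncomputable def incl : LaurentSeries A →+* LaurentSeries k := coeffMap A.subtype

/-- Coefficientwise reduction of Laurent series with coefficients in `A`. -/
noncomputable def red : LaurentSeries A →+* LaurentSeries (ResidueField A) :=
  coeffMap (residue A)

@[simp] theorem incl_coeff (f : LaurentSeries A) (m : ℤ) :
    (incl A f).coeff m = (f.coeff m : k) := rfl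

@[simp] theorem red_coeff (f : LaurentSeries A) (m : ℤ) :
    (red A f).coeff m = residue A (f.coeff m) := rfl

theorem incl_injective : Function.Injective (incl A) := by
  intro f g h
  ext m
  have h1 := congrArg (fun x : LaurentSeries k => x.coeff m) h
  simpa using h1

theorem exists_incl_eq {f : LaurentSeries k} (hf : ∀ m, f.coeff m ∈ A) :
    ∃ f' : LaurentSeries A, incl A f' = f := by
  refine ⟨⟨fun m => ⟨f.coeff m, hf m⟩, ?_⟩, ?_⟩
  · have h : Function.support (fun m => (⟨f.coeff m, hf m⟩ : A)) = f.support := by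
      ext m
      simp [Subtype.ext_iff]
    rw [h]
    exact f.isPWO_support
  · ext m
    rfl

theorem incl_smul (c : A) (f : LaurentSeries A) : incl A (c • f) = (c : k) • incl A f := by
  ext m
  simp [HahnSeries.coeff_smul]

theorem red_smul (c : A) (f : LaurentSeries A) : red A (c • f) = residue A c • red A f := by
  ext m
  simp [HahnSeries.coeff_smul]

/-- A Laurent series over `k` is *primitive* at `A` if its coefficients lie in `A` and its
reduction is nonzero. -/
def Prim (f : LaurentSeries k) : Prop :=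
  ∃ f' : LaurentSeries A, incl A f' = f ∧ red A f' ≠ 0

variable {A}

theorem Prim.mul {f g : LaurentSeries k} (hf : Prim A f) (hg : Prim A g) : Prim A (f * g) := by
  obtain ⟨f', rfl, hf'⟩ := hf
  obtain ⟨g', rfl, hg'⟩ := hg
  exact ⟨f' * g', map_mul _ _ _, by rw [map_mul]; exact mul_ne_zero hf' hg'⟩

theorem prim_one : Prim A (1 : LaurentSeries k) :=
  ⟨1, map_one _, by rw [map_one]; exact one_ne_zero⟩

theorem Prim.pow {f : LaurentSeries k} (hf : Prim A f) (n : ℕ) : Prim A (f ^ n) := by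
  obtain ⟨f', rfl, hf'⟩ := hf
  exact ⟨f' ^ n, map_pow _ _ _, by rw [map_pow]; exact pow_ne_zero n hf'⟩

theorem Prim.ne_zero {f : LaurentSeries k} (hf : Prim A f) : f ≠ 0 := by
  obtain ⟨f', rfl, hf'⟩ := hf
  intro h
  apply hf'
  have : f' = 0 := incl_injective A (by rw [h, map_zero])
  rw [this, map_zero]

/-- If two primitive series differ by a constant factor, the constant is a unit of `A`. -/
theorem mem_of_prim_smul {f g : LaurentSeries k} {c : k} (hf : Prim A f) (hg : Prim A g)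
    (h : f = c • g) : c ∈ A ∧ c⁻¹ ∈ A := by
  obtain ⟨f', rfl, hf'⟩ := hf
  obtain ⟨g', rfl, hg'⟩ := hg
  have hc0 : c ≠ 0 := by
    rintro rfl
    apply hf'
    have : f' = 0 := incl_injective A (by rw [h, zero_smul, map_zero])
    rw [this, map_zero]
  constructor
  · by_contra hc
    have hci : c⁻¹ ∈ A := (A.mem_or_inv_mem c).resolve_left hc
    have h2 : incl A g' = incl A ((⟨c⁻¹, hci⟩ : A) • f') := by
      rw [incl_smul, h, smul_smul, inv_mul_cancel₀ hc0, one_smul]
    have h3 : g' = (⟨c⁻¹, hci⟩ : A) • f' := incl_injective A h2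
    apply hg'
    rw [h3, red_smul]
    have h4 : residue A (⟨c⁻¹, hci⟩ : A) = 0 := by
      rw [residue_eq_zero_iff, ← ValuationSubring.coe_mem_nonunits_iff,
        ValuationSubring.mem_nonunits_iff]
      show A.valuation c⁻¹ < 1
      rw [map_inv₀]
      have h5 : 1 < A.valuation c := by
        rw [← not_le, ValuationSubring.valuation_le_one_iff]
        exact hc
      exact inv_lt_one_of_one_lt₀ h5
    rw [h4, zero_smul]
  · by_contra hc
    have hcA : c ∈ A := by
      have := (A.mem_or_inv_mem c⁻¹).resolve_left hc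
      rwa [inv_inv] at this
    have h3 : f' = (⟨c, hcA⟩ : A) • g' := incl_injective A (by rw [incl_smul, h])
    apply hf'
    rw [h3, red_smul]
    have h4 : residue A (⟨c, hcA⟩ : A) = 0 := by
      rw [residue_eq_zero_iff, ← ValuationSubring.coe_mem_nonunits_iff,
        ValuationSubring.mem_nonunits_iff]
      show A.valuation c < 1
      have h5 : 1 < A.valuation c⁻¹ := by
        rw [← not_le, ValuationSubring.valuation_le_one_iff]
        exact hc
      rw [map_inv₀] at h5
      by_contra h6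
      rw [not_lt] at h6
      exact absurd (inv_le_one_of_one_le₀ h6) (not_le.mpr h5)
    rw [h4, zero_smul]

end Prim

section DualBasis

variable {k : Type*} [Field k] (A : ValuationSubring k)

/-- Coordinates with respect to a family with dual coefficient positions. -/
theorem coeff_sum_smul {r : ℕ} (b : Fin r → LaurentSeries k) (n : Fin r → ℤ)
    (hdual : ∀ i j, (b i).coeff (n j) = if i = j then 1 else 0) (c : Fin r → k) (j : Fin r) :
    (∑ i, c i • b i).coeff (n j) = c j := by
  rw [HahnSeries.coeff_sum]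
  simp [HahnSeries.coeff_smul, hdual]

/-- In a valuation ring, a nonzero finite family can be scaled so that all its members are
integral and one of them is `1`. -/
theorem exists_scale {r : ℕ} (c : Fin r → k) (hc : c ≠ 0) :
    ∃ i₀ : Fin r, c i₀ ≠ 0 ∧ ∀ i, (c i₀)⁻¹ * c i ∈ A := by
  obtain ⟨j, hj⟩ : ∃ j, c j ≠ 0 := by
    by_contra h
    simp only [not_exists, not_not] at h
    exact hc (funext h)
  obtain ⟨i₀, -, hi₀⟩ := Finset.exists_max_image Finset.univ (fun i => A.valuation (c i))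
    ⟨j, Finset.mem_univ j⟩
  have h0 : c i₀ ≠ 0 := by
    intro h
    have h1 := hi₀ j (Finset.mem_univ j)
    rw [h, map_zero] at h1
    exact hj ((map_eq_zero (A.valuation)).mp (le_antisymm h1 zero_le))
  refine ⟨i₀, h0, fun i => ?_⟩
  rw [← ValuationSubring.valuation_le_one_iff, map_mul, map_inv₀]
  have hv0 : A.valuation (c i₀) ≠ 0 := (map_ne_zero (A.valuation)).mpr h0
  rw [inv_mul_le_iff₀ (zero_lt_iff.mpr hv0), mul_one]
  exact hi₀ i (Finset.mem_univ i)

/-- Every nonzero element of the span of an integral family with dual coefficient positions is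
a constant multiple of a primitive series. -/
theorem exists_smul_prim {r : ℕ} (b : Fin r → LaurentSeries k) (n : Fin r → ℤ)
    (hdual : ∀ i j, (b i).coeff (n j) = if i = j then 1 else 0)
    (hint : ∀ i m, (b i).coeff m ∈ A) (c : Fin r → k) (hc : c ≠ 0) :
    ∃ a : k, a ≠ 0 ∧ Prim A (a • ∑ i, c i • b i) := by
  obtain ⟨i₀, h0, hi⟩ := exists_scale A c hc
  choose b' hb' using fun i => exists_incl_eq A (hint i)
  refine ⟨(c i₀)⁻¹, inv_ne_zero h0, ∑ i, (⟨(c i₀)⁻¹ * c i, hi i⟩ : A) • b' i, ?_, ?_⟩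
  · rw [map_sum, Finset.smul_sum]
    refine Finset.sum_congr rfl fun i _ => ?_
    rw [incl_smul, hb', smul_smul]
  · intro h
    have h1 := congrArg (fun x : LaurentSeries (ResidueField A) => x.coeff (n i₀)) h
    simp only [red_coeff, HahnSeries.coeff_zero] at h1
    have h2 : ((∑ i, (⟨(c i₀)⁻¹ * c i, hi i⟩ : A) • b' i).coeff (n i₀) : k) = 1 := by
      have h3 : incl A (∑ i, (⟨(c i₀)⁻¹ * c i, hi i⟩ : A) • b' i)
          = ∑ i, ((c i₀)⁻¹ * c i) • b i := by
        rw [map_sum]
        refine Finset.sum_congr rfl fun i _ => ?_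
        rw [incl_smul, hb']
      have h4 := congrArg (fun x : LaurentSeries k => x.coeff (n i₀)) h3
      simp only [incl_coeff] at h4
      rw [h4, coeff_sum_smul b n hdual, inv_mul_cancel₀ h0]
    have h5 : (∑ i, (⟨(c i₀)⁻¹ * c i, hi i⟩ : A) • b' i).coeff (n i₀) = 1 :=
      Subtype.ext h2
    rw [h5, map_one] at h1
    exact one_ne_zero h1

end DualBasis

section Congruence

variable {k : Type*} [Field k] (A : ValuationSubring k)

theorem coeffMap_C {R S : Type*} [CommRing R] [CommRing S] (f : R →+* S) (a : R) :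
    coeffMap f (HahnSeries.C a : LaurentSeries R) = HahnSeries.C (f a) :=
  coeffMap_single f 0 a

theorem incl_C (c : A) : incl A (HahnSeries.C c) = HahnSeries.C (c : k) :=
  coeffMap_C A.subtype c

theorem red_C (c : A) : red A (HahnSeries.C c) = HahnSeries.C (residue A c) :=
  coeffMap_C (residue A) c

theorem coeffMap_smul {R S : Type*} [CommRing R] [CommRing S] (f : R →+* S) (a : R)
    (x : LaurentSeries R) : coeffMap f (a • x) = f a • coeffMap f x := by
  ext m
  simp [HahnSeries.coeff_smul]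

variable (σ : k →+* k) (hσA : ∀ a ∈ A, σ a ∈ A)

/-- Restriction of a ring endomorphism of `k` preserving `A`. -/
noncomputable def resHom : A →+* A :=
  (σ.comp A.subtype).codRestrict A (fun a => hσA a a.2)

theorem incl_coeffMap_resHom (f : LaurentSeries A) :
    incl A (coeffMap (resHom A σ hσA) f) = coeffMap σ (incl A f) := by
  ext m
  rfl

theorem red_coeffMap_resHom
    (hσI : ∀ (a : k) (ha : a ∈ A), residue A ⟨σ a, hσA a ha⟩ = residue A ⟨a, ha⟩)
    (f : LaurentSeries A) : red A (coeffMap (resHom A σ hσA) f) = red A f := by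
  ext m
  simp only [red_coeff, coeffMap_coeff]
  exact hσI _ (f.coeff m).2

theorem mem_of_pow_mem {x : k} {p : ℕ} (hp : 0 < p) (h : x ^ p ∈ A) : x ∈ A := by
  rw [← ValuationSubring.valuation_le_one_iff] at h ⊢
  by_contra hx
  rw [not_le] at hx
  rw [map_pow] at h
  exact absurd h (not_le.mpr (one_lt_pow₀ hx hp.ne'))

/-- **Key congruence.** From a relation `σ(h₁) h₂ P₂^p = h₁ σ(h₂) Q P₁^p` between (scalable)
primitive series, with `σ` acting trivially on the residue field, one gets integral models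
`P₁', P₂'` of constant multiples of `P₁, P₂`, with `P₁'` of nonzero reduction, such that
`P₂'^p - Q P₁'^p` reduces to zero. -/
theorem key_congruence [IsAlgClosed k]
    (hσI : ∀ (a : k) (ha : a ∈ A), residue A ⟨σ a, hσA a ha⟩ = residue A ⟨a, ha⟩)
    (p : ℕ) (hp : 0 < p) {h₁ h₂ P₁ P₂ Q : LaurentSeries k} {a₁ a₂ a₃ a₄ : k}
    (ha₁ : a₁ ≠ 0) (ha₂ : a₂ ≠ 0) (ha₃ : a₃ ≠ 0)
    (hh₁ : Prim A (a₁ • h₁)) (hh₂ : Prim A (a₂ • h₂)) (hP₁ : Prim A (a₃ • P₁))
    (hP₂ : Prim A (a₄ • P₂)) (hQ : Prim A Q)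
    (hrel : coeffMap σ h₁ * h₂ * P₂ ^ p = h₁ * coeffMap σ h₂ * Q * P₁ ^ p) :
    ∃ (μ : k) (P₁' P₂' Z' : LaurentSeries A),
      incl A P₁' = (μ * a₃) • P₁ ∧ incl A P₂' = a₄ • P₂ ∧ red A P₁' ≠ 0 ∧
      incl A Z' = (a₄ • P₂) ^ p - Q * ((μ * a₃) • P₁) ^ p ∧ red A Z' = 0 := by
  obtain ⟨h₁', e₁, r₁⟩ := hh₁
  obtain ⟨h₂', e₂, r₂⟩ := hh₂
  obtain ⟨P₁', e₃, r₃⟩ := hP₁
  obtain ⟨P₂', e₄, r₄⟩ := hP₂
  obtain ⟨Q', e₅, r₅⟩ := hQ
  set s₁ := coeffMap (resHom A σ hσA) h₁' with hs₁
  set s₂ := coeffMap (resHom A σ hσA) h₂' with hs₂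
  have hrs₁ : red A s₁ = red A h₁' := red_coeffMap_resHom A σ hσA hσI h₁'
  have hrs₂ : red A s₂ = red A h₂' := red_coeffMap_resHom A σ hσA hσI h₂'
  have his₁ : incl A s₁ = HahnSeries.C (σ a₁) * coeffMap σ h₁ := by
    rw [hs₁, incl_coeffMap_resHom, e₁, coeffMap_smul, HahnSeries.C_mul_eq_smul]
  have his₂ : incl A s₂ = HahnSeries.C (σ a₂) * coeffMap σ h₂ := by
    rw [hs₂, incl_coeffMap_resHom, e₂, coeffMap_smul, HahnSeries.C_mul_eq_smul]
  rw [← HahnSeries.C_mul_eq_smul] at e₁ e₂ e₃ e₄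
  -- the two sides
  set X := s₁ * h₂' * P₂' ^ p with hX
  set Y := h₁' * s₂ * Q' * P₁' ^ p with hY
  have hσa₂ : σ a₂ ≠ 0 := (map_ne_zero σ).mpr ha₂
  set den : k := a₁ * σ a₂ * a₃ ^ p with hden
  have hden0 : den ≠ 0 := mul_ne_zero (mul_ne_zero ha₁ hσa₂) (pow_ne_zero p ha₃)
  set lam : k := (σ a₁ * a₂ * a₄ ^ p) * den⁻¹ with hlam
  have hCden : (HahnSeries.C den : LaurentSeries k) * HahnSeries.C den⁻¹ = 1 := by
    rw [← map_mul, mul_inv_cancel₀ hden0, map_one]
  have hXY : incl A X = lam • incl A Y := by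
    rw [← HahnSeries.C_mul_eq_smul, hX, hY]
    simp only [map_mul, map_pow, his₁, his₂, e₁, e₂, e₃, e₄, e₅, hlam, hden]
    simp only [hden] at hCden
    simp only [map_mul, map_pow] at hCden ⊢
    linear_combination
      (HahnSeries.C (σ a₁) * HahnSeries.C a₂ * HahnSeries.C a₄ ^ p : LaurentSeries k) * hrel
      - (HahnSeries.C (σ a₁) * HahnSeries.C a₂ * HahnSeries.C a₄ ^ p
          * (h₁ * coeffMap σ h₂ * Q * P₁ ^ p) : LaurentSeries k) * hCden
  have hredX : red A X ≠ 0 := by
    rw [hX, map_mul, map_mul, map_pow, hrs₁]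
    exact mul_ne_zero (mul_ne_zero r₁ r₂) (pow_ne_zero p r₄)
  have hredY : red A Y ≠ 0 := by
    rw [hY, map_mul, map_mul, map_mul, map_pow, hrs₂]
    exact mul_ne_zero (mul_ne_zero (mul_ne_zero r₁ r₂) r₅) (pow_ne_zero p r₃)
  obtain ⟨hlamA, hlamA'⟩ := mem_of_prim_smul (A := A) ⟨X, rfl, hredX⟩ ⟨Y, rfl, hredY⟩ hXY
  obtain ⟨μ, hμ⟩ := IsAlgClosed.exists_pow_nat_eq lam hp
  have hμA : μ ∈ A := mem_of_pow_mem A hp (by rw [hμ]; exact hlamA)
  have hμA' : μ⁻¹ ∈ A := mem_of_pow_mem A hp (by rw [inv_pow, hμ]; exact hlamA')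
  have hμ0 : μ ≠ 0 := by
    rintro rfl
    rw [zero_pow hp.ne'] at hμ
    rw [← hμ, zero_smul] at hXY
    exact hredX (by rw [incl_injective A (hXY.trans (map_zero _).symm), map_zero])
  have hresμ : residue A (⟨μ, hμA⟩ : A) ≠ 0 := by
    intro h
    have h1 : residue A ((⟨μ, hμA⟩ : A) * ⟨μ⁻¹, hμA'⟩) = 0 := by rw [map_mul, h, zero_mul]
    have h2 : ((⟨μ, hμA⟩ : A) * ⟨μ⁻¹, hμA'⟩) = 1 := Subtype.ext (mul_inv_cancel₀ hμ0)
    rw [h2, map_one] at h1
    exact one_ne_zero h1
  have hXY' : X = HahnSeries.C (⟨lam, hlamA⟩ : A) * Y := by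
    apply incl_injective A
    rw [hXY, map_mul (incl A) (HahnSeries.C (⟨lam, hlamA⟩ : A)) Y, incl_C,
      HahnSeries.C_mul_eq_smul]
  have hlamμ : (⟨lam, hlamA⟩ : A) = (⟨μ, hμA⟩ : A) ^ p := Subtype.ext hμ.symm
  have hredXY : red A X = HahnSeries.C (residue A (⟨μ, hμA⟩ : A)) ^ p * red A Y := by
    rw [hXY', map_mul (red A) (HahnSeries.C (⟨lam, hlamA⟩ : A)) Y, red_C, hlamμ, map_pow,
      map_pow]
  refine ⟨μ, HahnSeries.C (⟨μ, hμA⟩ : A) * P₁', P₂', P₂' ^ p - Q' * (HahnSeries.C (⟨μ, hμA⟩ : A) * P₁') ^ p,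
    ?_, ?_, ?_, ?_, ?_⟩
  · rw [map_mul, incl_C, e₃, ← HahnSeries.C_mul_eq_smul, map_mul, mul_assoc]
  · rw [e₄, HahnSeries.C_mul_eq_smul]
  · rw [map_mul, red_C]
    refine mul_ne_zero ?_ r₃
    intro h
    exact hresμ (by simpa using congrArg (fun x : LaurentSeries (ResidueField A) => x.coeff 0) h)
  · rw [map_sub, map_mul, map_pow, map_pow, map_mul, incl_C, e₃, e₄, e₅,
      ← HahnSeries.C_mul_eq_smul, ← HahnSeries.C_mul_eq_smul, map_mul, mul_assoc]
  · have hcanc : red A h₁' * red A h₂' ≠ 0 := mul_ne_zero r₁ r₂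
    apply mul_left_cancel₀ hcanc
    rw [mul_zero]
    rw [hX, hY] at hredXY
    simp only [map_mul, map_pow, map_sub, hrs₁, hrs₂, red_C] at hredXY ⊢
    linear_combination hredXY

end Congruence

section Nullstellensatz

variable {k : Type*} [Field k]

/-- The universal series `(∑ Yᵢ bᵢ)^p - Q (∑ Xᵢ bᵢ)^p` with polynomial coefficients
(`Xᵢ = X (inl i)`, `Yᵢ = X (inr i)`). -/
noncomputable def univSeries {r : ℕ} (b : Fin r → LaurentSeries k) (Q : LaurentSeries k) (p : ℕ) :
    LaurentSeries (MvPolynomial (Fin r ⊕ Fin r) k) :=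
  (∑ i, HahnSeries.C (MvPolynomial.X (Sum.inr i) : MvPolynomial (Fin r ⊕ Fin r) k)
      * coeffMap MvPolynomial.C (b i)) ^ p
    - coeffMap MvPolynomial.C Q
      * (∑ i, HahnSeries.C (MvPolynomial.X (Sum.inl i) : MvPolynomial (Fin r ⊕ Fin r) k)
          * coeffMap MvPolynomial.C (b i)) ^ p

theorem coeffMap_eval_C {ι : Type*} (v : ι → k) (f : LaurentSeries k) :
    coeffMap (MvPolynomial.eval v) (coeffMap (MvPolynomial.C : k →+* MvPolynomial ι k) f) = f := by
  rw [coeffMap_coeffMap]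
  ext m
  simp

theorem coeffMap_eval_univSeries {r : ℕ} (b : Fin r → LaurentSeries k) (Q : LaurentSeries k)
    (p : ℕ) (v : Fin r ⊕ Fin r → k) :
    coeffMap (MvPolynomial.eval v) (univSeries b Q p)
      = (∑ i, v (Sum.inr i) • b i) ^ p - Q * (∑ i, v (Sum.inl i) • b i) ^ p := by
  simp only [univSeries, map_sub, map_mul, map_pow, map_sum, coeffMap_eval_C,
    HahnSeries.C_mul_eq_smul, coeffMap_smul, MvPolynomial.eval_X]

theorem eval_coeff_univSeries {r : ℕ} (b : Fin r → LaurentSeries k) (Q : LaurentSeries k)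
    (p : ℕ) (v : Fin r ⊕ Fin r → k) (m : ℤ) :
    MvPolynomial.eval v ((univSeries b Q p).coeff m)
      = ((∑ i, v (Sum.inr i) • b i) ^ p - Q * (∑ i, v (Sum.inl i) • b i) ^ p).coeff m := by
  rw [← coeffMap_eval_univSeries, coeffMap_coeff]

/-- Nullstellensatz witness: if the system has only solutions with `x = 0`, a power of each
`Xᵢ` is a polynomial combination of the coefficients of the universal series. -/
theorem exists_witness [IsAlgClosed k] {r : ℕ} (b : Fin r → LaurentSeries k)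
    (Q : LaurentSeries k) (p : ℕ)
    (hNS : ∀ x y : Fin r → k, (∑ i, y i • b i) ^ p = Q * (∑ i, x i • b i) ^ p → x = 0)
    (i : Fin r) :
    ∃ (N : ℕ) (c : ℤ →₀ MvPolynomial (Fin r ⊕ Fin r) k),
      (c.sum fun m a => a * (univSeries b Q p).coeff m)
        = (MvPolynomial.X (Sum.inl i) : MvPolynomial (Fin r ⊕ Fin r) k) ^ N := by
  set I : Ideal (MvPolynomial (Fin r ⊕ Fin r) k) :=
    Ideal.span (Set.range fun m : ℤ => (univSeries b Q p).coeff m) with hI
  have hmem : (MvPolynomial.X (Sum.inl i) : MvPolynomial (Fin r ⊕ Fin r) k)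
      ∈ MvPolynomial.vanishingIdeal k (MvPolynomial.zeroLocus k I) := by
    rw [MvPolynomial.mem_vanishingIdeal_iff]
    intro v hv
    rw [MvPolynomial.mem_zeroLocus_iff] at hv
    rw [MvPolynomial.aeval_X]
    have h1 : (∑ j, v (Sum.inr j) • b j) ^ p = Q * (∑ j, v (Sum.inl j) • b j) ^ p := by
      rw [← sub_eq_zero]
      ext m
      rw [← eval_coeff_univSeries, HahnSeries.coeff_zero]
      have h2 := hv ((univSeries b Q p).coeff m) (Ideal.subset_span ⟨m, rfl⟩)
      exact (RingHom.congr_fun (MvPolynomial.coe_aeval_eq_eval v) _).symm.trans h2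
    exact congrFun (hNS (fun j => v (Sum.inl j)) (fun j => v (Sum.inr j)) h1) i
  rw [MvPolynomial.vanishingIdeal_zeroLocus_eq_radical, Ideal.mem_radical_iff] at hmem
  obtain ⟨N, hN⟩ := hmem
  rw [hI, Finsupp.mem_ideal_span_range_iff_exists_finsupp] at hN
  obtain ⟨c, hc⟩ := hN
  exact ⟨N, c, hc⟩

theorem eval_mem_of_coeffs {ι : Type*} (A : ValuationSubring k) (q : MvPolynomial ι k)
    (hq : ∀ c ∈ q.coeffs, c ∈ A) (v : ι → k) (hv : ∀ j, v j ∈ A) :
    MvPolynomial.eval v q ∈ A := by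
  rw [MvPolynomial.eval_eq]
  refine sum_mem fun d hd => mul_mem (hq _ (MvPolynomial.coeff_mem_coeffs d ?_))
    (prod_mem fun j _ => pow_mem (hv j) _)
  exact MvPolynomial.mem_support_iff.mp hd

/-- **Abstract unramifiedness criterion.**  Let `b` be a finite family of Laurent series over an
algebraically closed field `k` with dual coefficient positions and `Q` a Laurent series such that
`P₂^p = Q P₁^p` has no solution with `P₁ ≠ 0` in the span of `b`.  Then there is a finite set
`T ⊆ k` such that for every valuation subring `A` containing `T` and the coefficients of the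
`b i`, at which `Q` is primitive, and every endomorphism `σ` preserving `A` and acting trivially
on its residue field, no relation `σ(h₁) h₂ P₂^p = h₁ σ(h₂) Q P₁^p` holds with nonzero
`h₁, h₂, P₁, P₂` in the span of `b`. -/
theorem abstract_unr [IsAlgClosed k] {r : ℕ} (b : Fin r → LaurentSeries k) (n : Fin r → ℤ)
    (hdual : ∀ i j, (b i).coeff (n j) = if i = j then 1 else 0)
    (Q : LaurentSeries k) (p : ℕ) (hp : 0 < p)
    (hNS : ∀ x y : Fin r → k, (∑ i, y i • b i) ^ p = Q * (∑ i, x i • b i) ^ p → x = 0) :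
    ∃ T : Finset k, ∀ A : ValuationSubring k, (∀ c ∈ T, c ∈ A) →
      (∀ i m, (b i).coeff m ∈ A) → Prim A Q →
      ∀ (σ : k →+* k) (hσA : ∀ a ∈ A, σ a ∈ A),
      (∀ (a : k) (ha : a ∈ A), residue A ⟨σ a, hσA a ha⟩ = residue A ⟨a, ha⟩) →
      ∀ c₁ c₂ x y : Fin r → k, c₁ ≠ 0 → c₂ ≠ 0 → x ≠ 0 → y ≠ 0 →
        coeffMap σ (∑ i, c₁ i • b i) * (∑ i, c₂ i • b i) * (∑ i, y i • b i) ^ p
          = (∑ i, c₁ i • b i) * coeffMap σ (∑ i, c₂ i • b i) * Q * (∑ i, x i • b i) ^ p →
        False := by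
  classical
  choose N cw hw using exists_witness b Q p hNS
  refine ⟨Finset.univ.biUnion fun i => (cw i).support.biUnion fun m => (cw i m).coeffs, ?_⟩
  intro A hT hint hQ σ hσA hσI c₁ c₂ x y hc₁ hc₂ hx hy hrel
  obtain ⟨a₁, ha₁, hh₁⟩ := exists_smul_prim A b n hdual hint c₁ hc₁
  obtain ⟨a₂, ha₂, hh₂⟩ := exists_smul_prim A b n hdual hint c₂ hc₂
  obtain ⟨a₃, ha₃, hP₁⟩ := exists_smul_prim A b n hdual hint x hx
  obtain ⟨a₄, ha₄, hP₂⟩ := exists_smul_prim A b n hdual hint y hy
  obtain ⟨μ, P₁', P₂', Z', e1, e2, r1, eZ, rZ⟩ :=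
    key_congruence A σ hσA hσI p hp ha₁ ha₂ ha₃ hh₁ hh₂ hP₁ hP₂ hQ hrel
  -- coordinates
  set X : Fin r → k := fun i => (μ * a₃) * x i with hXdef
  set Y : Fin r → k := fun i => a₄ * y i with hYdef
  have hXsum : (μ * a₃) • ∑ i, x i • b i = ∑ i, X i • b i := by
    rw [Finset.smul_sum]
    exact Finset.sum_congr rfl fun i _ => by rw [smul_smul]
  have hYsum : a₄ • ∑ i, y i • b i = ∑ i, Y i • b i := by
    rw [Finset.smul_sum]
    exact Finset.sum_congr rfl fun i _ => by rw [smul_smul]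
  rw [hXsum] at e1 eZ
  rw [hYsum] at e2 eZ
  have hXcoeff : ∀ i, X i = ((P₁'.coeff (n i) : A) : k) := by
    intro i
    rw [← incl_coeff, e1, coeff_sum_smul b n hdual]
  have hYcoeff : ∀ i, Y i = ((P₂'.coeff (n i) : A) : k) := by
    intro i
    rw [← incl_coeff, e2, coeff_sum_smul b n hdual]
  have hXA : ∀ i, X i ∈ A := fun i => by rw [hXcoeff]; exact (P₁'.coeff (n i)).2
  have hYA : ∀ i, Y i ∈ A := fun i => by rw [hYcoeff]; exact (P₂'.coeff (n i)).2
  set v : Fin r ⊕ Fin r → k := Sum.elim X Y with hv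
  have hvA : ∀ j, v j ∈ A := by
    rintro (j | j)
    · exact hXA j
    · exact hYA j
  -- the coefficients of the universal series evaluate into the maximal ideal
  have hsmall : ∀ m : ℤ, A.valuation (MvPolynomial.eval v ((univSeries b Q p).coeff m)) < 1 := by
    intro m
    rw [eval_coeff_univSeries]
    have h1 : ((∑ i, v (Sum.inr i) • b i) ^ p - Q * (∑ i, v (Sum.inl i) • b i) ^ p)
        = incl A Z' := by
      rw [eZ]
      rfl
    rw [h1, incl_coeff, ← ValuationSubring.mem_nonunits_iff,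
      ValuationSubring.coe_mem_nonunits_iff, ← residue_eq_zero_iff, ← red_coeff, rZ,
      HahnSeries.coeff_zero]
  -- hence all X i are nonunits
  have hXsmall : ∀ i, A.valuation (X i) < 1 := by
    intro i
    have h1 := congrArg (MvPolynomial.eval v) (hw i)
    rw [map_pow, MvPolynomial.eval_X, Finsupp.sum, map_sum] at h1
    have h2 : A.valuation (X i ^ N i) < 1 := by
      have h3 : v (Sum.inl i) = X i := rfl
      rw [← h3, ← h1]
      refine Valuation.map_sum_lt _ one_ne_zero fun m hm => ?_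
      rw [map_mul, map_mul]
      have h4 : A.valuation (MvPolynomial.eval v (cw i m)) ≤ 1 := by
        rw [ValuationSubring.valuation_le_one_iff]
        refine eval_mem_of_coeffs A _ (fun c hc => hT c ?_) v hvA
        exact Finset.mem_biUnion.mpr ⟨i, Finset.mem_univ i,
          Finset.mem_biUnion.mpr ⟨m, hm, hc⟩⟩
      exact lt_of_le_of_lt (mul_le_of_le_one_left' h4) (hsmall m)
    by_contra h5
    rw [not_lt] at h5
    rw [map_pow] at h2
    exact absurd (one_le_pow₀ h5) (not_le.mpr h2)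
  -- contradiction with the primitivity of `P₁'`
  choose b' hb' using fun i => exists_incl_eq A (hint i)
  have hP : P₁' = ∑ i, P₁'.coeff (n i) • b' i := by
    apply incl_injective A
    rw [e1, map_sum]
    refine Finset.sum_congr rfl fun i _ => ?_
    rw [incl_smul, hb', hXcoeff]
  apply r1
  rw [hP, map_sum]
  refine Finset.sum_eq_zero fun i _ => ?_
  rw [red_smul]
  have h6 : residue A (P₁'.coeff (n i)) = 0 := by
    rw [residue_eq_zero_iff, ← ValuationSubring.coe_mem_nonunits_iff,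
      ValuationSubring.mem_nonunits_iff, ← hXcoeff]
    exact hXsmall i
  rw [h6, zero_smul]

end Nullstellensatz

end Fermat.Agent.S17.helper5065
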