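/-
S17 (Mordell–Weil for `JZero N`), weak Mordell–Weil half: the function-field side (F1) of the
"q-expansion + Gauss lemma + Nullstellensatz" proof of unramifiedness of `p`-division points
(team_s17_chat #129, #210; board 1874/1888).

`exists_relation`: let `s` be a semilinear automorphism fixing the base place `P0` and the
class `p • y`, let `t = s • y - y = [E - deg E • P0]` with `E ≥ 0`, and let `f` have divisor
`p • (E - deg E • P0)`.  Then there are nonzero `h₁ h₂ P₁ P₂ ∈ L(n • P0)`,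
`n = (p + 2) * g + deg E`, with

  `(s • h₁) * h₂ * P₂ ^ p = h₁ * (s • h₂) * f * P₁ ^ p`.
-/
import Fermat.Agent.S17.helper3753_RedStab

set_option autoImplicit false

namespace Fermat.Agent.S17.helper7892

open AlgebraicCurve IntermediateField
open Fermat.Agent.S27.helper6247 (pt cls)
open Fermat.Agent.S17.helper1298

noncomputable section

section Relation

variable {K : Type*} {F : Type*} [Field K] [Field F] [Algebra K F]

/-- Two divisors of degree zero with the same class differ by the divisor of a function. -/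
theorem exists_ord_eq_of_cls_eq {D D' : Divisor K F} (h : Divisor.degree D = 0)
    (h' : Divisor.degree D' = 0) (hc : cls D = cls D') :
    ∃ f : F, f ≠ 0 ∧ ∀ v : Place K F, v.ord f = D v - D' v := by
  obtain ⟨f, hf, hfv⟩ := (cls_eq_cls_iff h h').1 hc
  exact ⟨f, hf, fun v => by rw [← hfv v, Finsupp.sub_apply]⟩

/-- Riemann's inequality: `L(D) ≠ 0` as soon as `deg D ≥ g`. -/
theorem exists_ne_zero_mem_rr (hp : RedPkg K F) {D : Divisor K F}
    (hD : (genusFF K F : ℤ) ≤ Divisor.degree D) :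
    ∃ f : F, f ≠ 0 ∧ f ∈ riemannRochSpace D := by
  have h1 := hp.riemann D
  have h2 : 0 < Module.finrank K (riemannRochSpace D) := by omega
  have := Module.nontrivial_of_finrank_pos h2
  obtain ⟨f, hf⟩ := exists_ne (0 : riemannRochSpace D)
  exact ⟨f, fun h0 => hf (Subtype.ext h0), f.2⟩

/-- A function without zeros and poles is a constant. -/
theorem exists_const_of_ord_eq_zero (hp : RedPkg K F) (P0 : Place K F) {w : F}
    (hw : ∀ v : Place K F, v.ord w = 0) : ∃ c : K, w = algebraMap K F c := by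
  refine (isReduced_zero hp P0).rr_const (hp.val P0) ?_
  rw [mem_riemannRochSpace_iff]
  intro v
  right
  rw [hw v]
  simp

/-- **(F1), package form.** The twisted relation of the `q`-expansion proof of unramifiedness. -/
theorem exists_relation_of_redPkg [IsAlgClosed K] (hpkg : RedPkg K F) (P0 : Place K F)
    (s : SemilinearAut K F) (hs : s • P0 = P0) (p : ℕ) (hp : 0 < p) (y : Pic0 K F)
    (hy : s • (p • y) = p • y) (E : Divisor K F) (hE : 0 ≤ E) (f : F) (hf0 : f ≠ 0)
    (hf : ∀ v : Place K F, v.ord f = p * (E - Divisor.degree E • pt P0) v)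
    (ht : s • y - y = cls (E - Divisor.degree E • pt P0)) :
    ∃ h₁ h₂ P₁ P₂ : F, h₁ ≠ 0 ∧ h₂ ≠ 0 ∧ P₁ ≠ 0 ∧ P₂ ≠ 0 ∧
      h₁ ∈ riemannRochSpace
        ((((p : ℤ) + 2) * (genusFF K F : ℤ) + Divisor.degree E) • pt P0) ∧
      h₂ ∈ riemannRochSpace
        ((((p : ℤ) + 2) * (genusFF K F : ℤ) + Divisor.degree E) • pt P0) ∧
      P₁ ∈ riemannRochSpace
        ((((p : ℤ) + 2) * (genusFF K F : ℤ) + Divisor.degree E) • pt P0) ∧
      P₂ ∈ riemannRochSpace
        ((((p : ℤ) + 2) * (genusFF K F : ℤ) + Divisor.degree E) • pt P0) ∧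
      (s • h₁) * h₂ * P₂ ^ p = h₁ * (s • h₂) * f * P₁ ^ p := by
  classical
  have hpd := hpkg.pd
  set g : ℤ := (genusFF K F : ℤ) with hg
  have hg0 : 0 ≤ g := Int.natCast_nonneg _
  set e : ℤ := Divisor.degree E with he
  have he0 : 0 ≤ e := degree_nonneg hE
  have hp0 : (0 : ℤ) < p := by exact_mod_cast hp
  have hdegpt : Divisor.degree (pt P0 : Divisor K F) = 1 := degree_pt_eq hpkg.deg P0
  have hpt01 : ∀ v : Place K F, (pt P0 : Divisor K F) v = 0 ∨ (pt P0 : Divisor K F) v = 1 := by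
    intro v
    by_cases hv : v = P0
    · right; rw [hv]; exact Fermat.Agent.S27.helper1423.pt_apply_self P0
    · left; exact Fermat.Agent.S27.helper1423.pt_apply_of_ne hv
  -- the stable representative of `p • y`
  obtain ⟨Ax, hAx0, hAxg, -, hAxs, hAxcls⟩ :=
    Fermat.Agent.S17.helper3753.exists_stable_rep hpkg s hs hy
  set d : ℤ := Divisor.degree Ax with hd
  have hd0 : 0 ≤ d := degree_nonneg hAx0
  -- an effective representative of `y` of degree `g`
  obtain ⟨Ay, hAy0, hAydeg, -, hAycls⟩ :=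
    Fermat.Agent.S17.helper3753.exists_stable_rep_of_le hpkg (∅ : Set (SemilinearAut K F))
      (P0 := P0) (y := y) (fun s hs => absurd hs (Set.notMem_empty s))
      (fun s hs => absurd hs (Set.notMem_empty s)) (le_refl g)
  rw [hAydeg] at hAycls
  have hdegY : Divisor.degree (Ay - g • pt P0) = 0 := by
    rw [map_sub, map_zsmul, hdegpt, hAydeg, smul_eq_mul, mul_one, sub_self]
  have hdegX : Divisor.degree (Ax - d • pt P0) = 0 := by
    rw [map_sub, map_zsmul, hdegpt, smul_eq_mul, mul_one, sub_self]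
  have hdegE : Divisor.degree (E - e • pt P0) = 0 := by
    rw [map_sub, map_zsmul, hdegpt, smul_eq_mul, mul_one, sub_self]
  -- the function `h` with divisor `p (A_y - g P0) - (A_x - d P0)`
  have hcls_h : cls ((p : ℤ) • (Ay - g • pt P0)) = cls (Ax - d • pt P0) := by
    rw [cls_zsmul' hdegY, ← hAycls, natCast_zsmul, ← hAxcls]
  obtain ⟨h, hh0, hh⟩ := exists_ord_eq_of_cls_eq
    (by rw [map_zsmul, hdegY, smul_zero]) hdegX hcls_h
  -- the function `u` with divisor `s A_y - A_y - E + e P0`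
  have hsY : s • (Ay - g • pt P0) = s • Ay - g • pt P0 := by
    rw [smul_sub]
    congr 1
    rw [show s • (g • pt P0 : Divisor K F) = g • (s • pt P0) from
      map_zsmul (DistribSMul.toAddMonoidHom (Divisor K F) s) _ _, smul_pt, hs]
  have hdegsY : Divisor.degree (s • Ay - g • pt P0) = 0 := by
    rw [← hsY, SemilinearAut.degree_smul, hdegY]
  have hcls_u : cls (s • Ay - g • pt P0) = cls ((Ay - g • pt P0) + (E - e • pt P0)) := by
    rw [cls_add' hdegY hdegE, ← hsY, cls_smul, ← hAycls, ← ht]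
    abel
  obtain ⟨u, hu0, hu⟩ := exists_ord_eq_of_cls_eq hdegsY
    (by rw [map_add, hdegY, hdegE, add_zero]) hcls_u
  -- orders of `s • h`
  have hsh0 : s • h ≠ 0 := (smul_eq_zero_iff' s h).not.2 hh0
  have hsh : ∀ v : Place K F, v.ord (s • h)
      = (p : ℤ) * ((s • Ay) v - g * pt P0 v) - (Ax v - d * pt P0 v) := by
    intro v
    have h1 := SemilinearAut.ord_smul s (s⁻¹ • v) h
    rw [smul_inv_smul] at h1
    rw [h1, hh]
    have e1 : Ay (s⁻¹ • v) = (s • Ay) v := (SemilinearAut.divisor_smul_apply s Ay v).symm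
    have e2 : (pt P0 : Divisor K F) (s⁻¹ • v) = pt P0 v := by
      rw [← SemilinearAut.divisor_smul_apply s (pt P0) v, smul_pt, hs]
    have e3 : Ax (s⁻¹ • v) = Ax v := by
      rw [← SemilinearAut.divisor_smul_apply s Ax v, hAxs]
    simp only [Finsupp.sub_apply, Finsupp.smul_apply, smul_eq_mul, e1, e2, e3]
  -- the quotient is a constant
  have hden : h * f * u ^ p ≠ 0 := mul_ne_zero (mul_ne_zero hh0 hf0) (pow_ne_zero _ hu0)
  have hw : ∀ v : Place K F, v.ord ((s • h) * (h * f * u ^ p)⁻¹) = 0 := by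
    intro v
    rw [v.ord_mul hsh0 (inv_ne_zero hden), v.ord_inv,
      v.ord_mul (mul_ne_zero hh0 hf0) (pow_ne_zero _ hu0), v.ord_mul hh0 hf0,
      ← zpow_natCast, v.ord_zpow, hsh v, hh v, hf v, hu v]
    simp only [Finsupp.sub_apply, Finsupp.add_apply, Finsupp.smul_apply, smul_eq_mul]
    ring
  obtain ⟨c, hc⟩ := exists_const_of_ord_eq_zero hpkg P0 hw
  have hc0 : c ≠ 0 := by
    rintro rfl
    rw [map_zero] at hc
    exact mul_ne_zero hsh0 (inv_ne_zero hden) hc
  obtain ⟨c', hc'⟩ := IsAlgClosed.exists_pow_nat_eq c hp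
  have hc'0 : c' ≠ 0 := by
    rintro rfl
    rw [zero_pow hp.ne'] at hc'
    exact hc0 hc'.symm
  set u' : F := algebraMap K F c' * u with hu'
  have hu'0 : u' ≠ 0 := mul_ne_zero ((map_ne_zero _).2 hc'0) hu0
  have hu'ord : ∀ v : Place K F, v.ord u' = v.ord u := fun v =>
    Fermat.Agent.S24.helper1370.ord_algebraMap_mul v hc'0 u
  have key : s • h = h * f * u' ^ p := by
    have h1 : s • h = algebraMap K F c * (h * f * u ^ p) := by
      rw [← hc, mul_assoc, inv_mul_cancel₀ hden, mul_one]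
    rw [h1, hu', mul_pow, ← map_pow, hc']
    ring
  -- the denominators
  obtain ⟨h₂, hh₂0, hh₂⟩ := exists_ne_zero_mem_rr hpkg (D := (2 * g) • pt P0 - Ax) (by
    rw [map_sub, map_zsmul, hdegpt, smul_eq_mul, mul_one]
    omega)
  obtain ⟨P₂, hP₂0, hP₂⟩ := exists_ne_zero_mem_rr hpkg (D := (2 * g + e) • pt P0 - Ay - E) (by
    rw [map_sub, map_sub, map_zsmul, hdegpt, smul_eq_mul, mul_one, hAydeg]
    omega)
  rw [mem_rr_iff hh₂0] at hh₂
  rw [mem_rr_iff hP₂0] at hP₂
  have hsAy0 : (0 : Divisor K F) ≤ s • Ay := smul_nonneg_divisor s hAy0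
  have hpg : (0 : ℤ) ≤ (p : ℤ) * g := mul_nonneg hp0.le hg0
  refine ⟨h * h₂, h₂, u' * P₂, P₂, mul_ne_zero hh0 hh₂0, hh₂0, mul_ne_zero hu'0 hP₂0, hP₂0,
    ?_, ?_, ?_, ?_, ?_⟩
  · rw [mem_rr_iff (mul_ne_zero hh0 hh₂0)]
    intro v
    have h1 := hh₂ v
    have h2 := hAy0 v
    rw [v.ord_mul hh0 hh₂0, hh v]
    simp only [Finsupp.sub_apply, Finsupp.smul_apply, smul_eq_mul, Finsupp.coe_zero,
      Pi.zero_apply] at h1 h2 ⊢
    rcases hpt01 v with h01 | h01 <;> rw [h01] at h1 ⊢ <;> nlinarith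
  · rw [mem_rr_iff hh₂0]
    intro v
    have h1 := hh₂ v
    have h2 := hAx0 v
    simp only [Finsupp.sub_apply, Finsupp.smul_apply, smul_eq_mul, Finsupp.coe_zero,
      Pi.zero_apply] at h1 h2 ⊢
    rcases hpt01 v with h01 | h01 <;> rw [h01] at h1 ⊢ <;> nlinarith
  · rw [mem_rr_iff (mul_ne_zero hu'0 hP₂0)]
    intro v
    have h1 := hP₂ v
    have h2 := hsAy0 v
    rw [v.ord_mul hu'0 hP₂0, hu'ord v, hu v]
    simp only [Finsupp.sub_apply, Finsupp.add_apply, Finsupp.smul_apply, smul_eq_mul,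
      Finsupp.coe_zero, Pi.zero_apply] at h1 h2 ⊢
    rcases hpt01 v with h01 | h01 <;> rw [h01] at h1 ⊢ <;> nlinarith
  · rw [mem_rr_iff hP₂0]
    intro v
    have h1 := hP₂ v
    have h2 := hAy0 v
    have h3 := hE v
    simp only [Finsupp.sub_apply, Finsupp.smul_apply, smul_eq_mul, Finsupp.coe_zero,
      Pi.zero_apply] at h1 h2 h3 ⊢
    rcases hpt01 v with h01 | h01 <;> rw [h01] at h1 ⊢ <;> nlinarith
  · rw [smul_mul', key]
    ring

/-- **(F1).** The twisted relation in the S27 setting (`K` algebraically closed of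
characteristic zero, `F` finite over `K⟮x⟯`). -/
theorem exists_relation [IsAlgClosed K] [CharZero K] (x : F) (hx : Transcendental K x)
    [FiniteDimensional K⟮x⟯ F] (P0 : Place K F) (s : SemilinearAut K F) (hs : s • P0 = P0)
    (p : ℕ) (hp : 0 < p) (y : Pic0 K F) (hy : s • (p • y) = p • y) (E : Divisor K F)
    (hE : 0 ≤ E) (f : F) (hf0 : f ≠ 0)
    (hf : ∀ v : Place K F, v.ord f = p * (E - Divisor.degree E • pt P0) v)
    (ht : s • y - y = cls (E - Divisor.degree E • pt P0)) :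
    ∃ h₁ h₂ P₁ P₂ : F, h₁ ≠ 0 ∧ h₂ ≠ 0 ∧ P₁ ≠ 0 ∧ P₂ ≠ 0 ∧
      h₁ ∈ riemannRochSpace
        ((((p : ℤ) + 2) * (genusFF K F : ℤ) + Divisor.degree E) • pt P0) ∧
      h₂ ∈ riemannRochSpace
        ((((p : ℤ) + 2) * (genusFF K F : ℤ) + Divisor.degree E) • pt P0) ∧
      P₁ ∈ riemannRochSpace
        ((((p : ℤ) + 2) * (genusFF K F : ℤ) + Divisor.degree E) • pt P0) ∧
      P₂ ∈ riemannRochSpace
        ((((p : ℤ) + 2) * (genusFF K F : ℤ) + Divisor.degree E) • pt P0) ∧
      (s • h₁) * h₂ * P₂ ^ p = h₁ * (s • h₂) * f * P₁ ^ p :=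
  exists_relation_of_redPkg (redPkg_of_finite x hx) P0 s hs p hp y hy E hE f hf0 hf ht

end Relation

end

end Fermat.Agent.S17.helper7892
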