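import Fermat.Agent.S17.helper3753_RedStab
import Fermat.Agent.S17.helper2133_AEIntegral
import Fermat.Agent.S17.helper5065_GaussCongr
import Fermat.Agent.S17.helper909_CoeffDescent
import Fermat.Agent.S29.helper288_FinTorsion
import Fermat.Agent.Lib.helper3858_ResidueQbar
import Fermat.Agent.S17.helper7892_Relation

/-!
# S17-UNR-GAUSS (helper5065): the unramifiedness input `hunr` of weak Mordell–Weil for `J₀(N)`

`exists_hunr`: for every `p > 0` there is a modulus `M ≠ 0` such that for every prime `ℓ ∤ M`,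
every valuation subring `A` of `Qbar` over `ℓ` and every `σ` in the inertia group of `A`:
`σ • (p • y) = p • y → σ • y = y` on `J₀(N)(Qbar)`.

No reduction theory of the curve is used: the proof is the `q`-expansion Gauss lemma and the
Nullstellensatz certificate of `helper5065_GaussCongr` (`abstract_unr`), applied to the relation
`σ(h₁) h₂ P₂^p = h₁ σ(h₂) f_t P₁^p` produced on the function field (`exists_relation`).
-/

set_option autoImplicit false

namespace Fermat.Agent.S17.helper5065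

open AlgebraicCurve IntermediateField ModularCurve IsLocalRing
open Fermat.Agent.S27.helper6247 (pt cls)
open Fermat.Agent.S29.helper36 (qPlaceL jL)

noncomputable section

local notation "Qb" => AlgebraicClosure ℚ

/-! ## Dual coefficient bases -/

section DualBasis

variable {L : Type*} [Field L] [Algebra ℚ L]
variable (F₀ : IntermediateField ℚ (LaurentSeries ℚ))

set_option synthInstance.maxHeartbeats 200000 in
/-- A finite-dimensional subspace of `laurentBaseChange L F₀` has a basis with dual coefficient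
positions. -/
theorem exists_dual_basis (W : Submodule L (laurentBaseChange L F₀)) [FiniteDimensional L W] :
    ∃ (b : Fin (Module.finrank L W) → laurentBaseChange L F₀)
      (n : Fin (Module.finrank L W) → ℤ),
      (∀ i, b i ∈ W) ∧
      (∀ i j, ((b i : laurentBaseChange L F₀) : LaurentSeries L).coeff (n j)
        = if i = j then 1 else 0) ∧
      ∀ w ∈ W, ∃ c : Fin (Module.finrank L W) → L, w = ∑ i, c i • b i := by
  classical
  obtain ⟨i, hi⟩ := Fermat.Agent.S17.helper909.exists_fin_separating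
    (Fermat.Agent.S17.helper909.coeffFunctional F₀) W
    (fun w _ h => Fermat.Agent.S17.helper909.eq_zero_of_coeffFunctional_eq_zero F₀ w h)
  let Φ : W →ₗ[L] (Fin (Module.finrank L W) → L) :=
    LinearMap.pi fun k => (Fermat.Agent.S17.helper909.coeffFunctional F₀ (i k)).comp W.subtype
  have hΦ : Function.Injective Φ := by
    rw [injective_iff_map_eq_zero]
    intro w hw
    have h0 : (w : laurentBaseChange L F₀) = 0 := hi w w.2 fun k => congrFun hw k
    exact Subtype.ext h0
  let e : W ≃ₗ[L] (Fin (Module.finrank L W) → L) :=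
    LinearEquiv.ofInjectiveOfFinrankEq Φ hΦ (by simp)
  let B : Module.Basis (Fin (Module.finrank L W)) L W := Module.Basis.ofEquivFun e
  have hcoord : ∀ j k, Fermat.Agent.S17.helper909.coeffFunctional F₀ (i j)
      (B k : laurentBaseChange L F₀) = if j = k then 1 else 0 := by
    intro j k
    have h1 : e (B k) = Pi.single k 1 := by
      show e (Module.Basis.ofEquivFun e k) = _
      rw [Module.Basis.coe_ofEquivFun]
      exact e.apply_symm_apply _
    have h2 : e (B k) j
        = Fermat.Agent.S17.helper909.coeffFunctional F₀ (i j) (B k : laurentBaseChange L F₀) :=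
      rfl
    rw [← h2, h1, Pi.single_apply]
  refine ⟨fun k => (B k : laurentBaseChange L F₀), i, fun k => (B k).2, ?_, ?_⟩
  · intro a c
    have h := hcoord c a
    rw [Fermat.Agent.S17.helper909.coeffFunctional_apply] at h
    rw [h]
    by_cases hac : a = c
    · rw [if_pos hac, if_pos hac.symm]
    · rw [if_neg hac, if_neg (Ne.symm hac)]
  · intro w hw
    refine ⟨fun k => B.repr ⟨w, hw⟩ k, ?_⟩
    have h1 := B.sum_repr ⟨w, hw⟩
    have h2 : (w : laurentBaseChange L F₀)
        = ((∑ i, B.repr ⟨w, hw⟩ i • B i : W) : laurentBaseChange L F₀) :=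
      congrArg Subtype.val h1.symm
    refine h2.trans ?_
    rw [Submodule.coe_sum]
    rfl

set_option synthInstance.maxHeartbeats 200000 in
/-- The coercion to Laurent series of a linear combination. -/
theorem coe_sum_smul {r : ℕ} (x : Fin r → L) (b : Fin r → laurentBaseChange L F₀) :
    ((∑ i, x i • b i : laurentBaseChange L F₀) : LaurentSeries L)
      = ∑ i, x i • ((b i : laurentBaseChange L F₀) : LaurentSeries L) := by
  ext m
  have h1 := map_sum (Fermat.Agent.S17.helper909.coeffFunctional F₀ m) (fun i => x i • b i)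
    Finset.univ
  simp only [map_smul, Fermat.Agent.S17.helper909.coeffFunctional_apply, smul_eq_mul] at h1
  rw [h1, HahnSeries.coeff_sum]
  refine Finset.sum_congr rfl fun i _ => ?_
  rw [HahnSeries.coeff_smul]
  rfl

end DualBasis

/-! ## Small lemmas -/

/-- A series with coefficients in `A` one of which is `1` is primitive. -/
theorem prim_of_coeff_one {k : Type*} [Field k] (A : ValuationSubring k) (f : LaurentSeries k)
    (hf : ∀ m, f.coeff m ∈ A) {m₀ : ℤ} (h1 : f.coeff m₀ = 1) : Prim A f := by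
  obtain ⟨f', hf'⟩ := exists_incl_eq A hf
  refine ⟨f', hf', fun h => ?_⟩
  have h2 := congrArg (fun x : LaurentSeries (ResidueField A) => x.coeff m₀) h
  simp only [red_coeff, HahnSeries.coeff_zero] at h2
  have h3 : f'.coeff m₀ = 1 := by
    apply Subtype.ext
    rw [← incl_coeff, hf', h1]
    rfl
  rw [h3, map_one] at h2
  exact one_ne_zero h2

/-- A finite set of algebraic numbers lies in every valuation subring of `Qbar` over every prime
outside a finite set. -/
theorem exists_modulus_finset (T : Finset Qb) :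
    ∃ M : ℕ, M ≠ 0 ∧ ∀ ℓ : ℕ, ℓ.Prime → ¬ ℓ ∣ M →
      ∀ A : ValuationSubring Qb, A.LiesOverPrime ℓ → ∀ c ∈ T, c ∈ A := by
  classical
  have := Fermat.Agent.S17.helper2133.isAlgebraic_rat_algebraicClosure
  induction T using Finset.induction_on with
  | empty => exact ⟨1, one_ne_zero, fun _ _ _ _ _ c hc => absurd hc (Finset.notMem_empty c)⟩
  | insert a s _ ih =>
      obtain ⟨M₁, h₁, H₁⟩ := Fermat.Agent.S17.helper2133.aeConst_of_algebraic a
      obtain ⟨M₂, h₂, H₂⟩ := ih
      refine ⟨M₁ * M₂, mul_ne_zero h₁ h₂, fun ℓ hℓ hd A hA c hc => ?_⟩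
      rcases Finset.mem_insert.mp hc with rfl | hc
      · exact H₁ ℓ hℓ (fun h => hd (Dvd.dvd.mul_right h M₂)) A hA
      · exact H₂ ℓ hℓ (fun h => hd (Dvd.dvd.mul_left h M₁)) A hA c hc

/-! ## Torsion data -/

section Torsion

variable {K : Type*} {F : Type*} [Field K] [Field F] [Algebra K F]

/-- A function whose divisor is `p` times a degree-zero divisor of `p`-torsion class. -/
theorem exists_pow_data (hdeg : ∀ v : Place K F, v.deg = 1) (P0 : Place K F) {p : ℕ}
    (E : Divisor K F) (ht : p • cls (E - Divisor.degree E • pt P0) = (0 : Pic0 K F)) :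
    ∃ f : F, f ≠ 0 ∧ ∀ v : Place K F, v.ord f = (p : ℤ) * (E - Divisor.degree E • pt P0) v := by
  have h0 : Divisor.degree (E - Divisor.degree E • pt P0) = 0 :=
    Fermat.Agent.S17.helper1298.degree_sub_degree_smul_pt hdeg P0 E
  have h1 : cls ((p : ℤ) • (E - Divisor.degree E • pt P0)) = cls (0 : Divisor K F) := by
    rw [Fermat.Agent.S17.helper1298.cls_zsmul' h0, Fermat.Agent.S17.helper1298.cls_zero',
      natCast_zsmul]
    exact ht
  obtain ⟨f, hf0, hf⟩ := Fermat.Agent.S17.helper7892.exists_ord_eq_of_cls_eq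
    (by rw [map_zsmul, h0, smul_zero]) (map_zero _) h1
  refine ⟨f, hf0, fun v => ?_⟩
  rw [hf v]
  simp

/-- If a function with divisor `p • D` is a `p`-th power, then `D` is principal. -/
theorem cls_eq_zero_of_pow (hdeg : ∀ v : Place K F, v.deg = 1) (P0 : Place K F) {p : ℕ}
    (hp : 0 < p) (E : Divisor K F) (w : F) (hw : w ≠ 0)
    (h : ∀ v : Place K F, v.ord (w ^ p) = (p : ℤ) * (E - Divisor.degree E • pt P0) v) :
    cls (E - Divisor.degree E • pt P0) = (0 : Pic0 K F) := by
  have h0 : Divisor.degree (E - Divisor.degree E • pt P0) = 0 :=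
    Fermat.Agent.S17.helper1298.degree_sub_degree_smul_pt hdeg P0 E
  rw [← Fermat.Agent.S17.helper1298.cls_zero',
    Fermat.Agent.S17.helper1298.cls_eq_cls_iff h0 (map_zero _), sub_zero]
  refine ⟨w, hw, fun v => ?_⟩
  have h1 := h v
  rw [← zpow_natCast, v.ord_zpow] at h1
  have hp' : (p : ℤ) ≠ 0 := by exact_mod_cast hp.ne'
  exact (mul_left_cancel₀ hp' h1).symm

end Torsion

/-- The data attached to a `p`-torsion class of `J₀(N)`: an effective divisor `E` representing
it and a function `f` with divisor `p (E - deg E • ∞)`, normalised to have a `q`-coefficient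
equal to `1`. -/
theorem exists_torsion_data (N : ℕ) [NeZero N] (p : ℕ) (t : JZero N) (ht : p • t = 0) :
    ∃ (E : Divisor Qb (modularFunctionFieldBar N)) (f : modularFunctionFieldBar N),
      0 ≤ E ∧ f ≠ 0 ∧
      (∀ v : Place Qb (modularFunctionFieldBar N),
        v.ord f = (p : ℤ) * (E - Divisor.degree E • pt (qPlaceL Qb N)) v) ∧
      t = cls (E - Divisor.degree E • pt (qPlaceL Qb N)) ∧
      ∃ m : ℤ, (f : LaurentSeries Qb).coeff m = 1 := by
  have := Fermat.Agent.S29.helper36.finiteDimensional_jL Qb N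
  have hpkg : Fermat.Agent.S17.helper1298.RedPkg Qb (modularFunctionFieldBar N) :=
    Fermat.Agent.S17.helper1298.redPkg_of_finite (jL Qb N)
      (Fermat.Agent.S29.helper36.transcendental_jL Qb N)
  have hcl : cls (Fermat.Agent.S17.helper1298.red (qPlaceL Qb N) t
      - Divisor.degree (Fermat.Agent.S17.helper1298.red (qPlaceL Qb N) t) • pt (qPlaceL Qb N)) = t :=
    Fermat.Agent.S17.helper1298.clsAt_red hpkg (qPlaceL Qb N) t
  have h0 := Fermat.Agent.S17.helper1298.red_nonneg hpkg (qPlaceL Qb N) t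
  obtain ⟨f, hf0, hf⟩ := exists_pow_data hpkg.deg (qPlaceL Qb N) (p := p)
    (Fermat.Agent.S17.helper1298.red (qPlaceL Qb N) t) (by rw [hcl]; exact ht)
  have hfL : (f : LaurentSeries Qb) ≠ 0 := fun h => hf0 (Subtype.ext h)
  obtain ⟨m, hm⟩ : ∃ m, (f : LaurentSeries Qb).coeff m ≠ 0 := by
    by_contra hcon
    simp only [not_exists, not_not] at hcon
    exact hfL (HahnSeries.ext (funext hcon))
  have hc0 : ((f : LaurentSeries Qb).coeff m)⁻¹ ≠ 0 := inv_ne_zero hm
  refine ⟨Fermat.Agent.S17.helper1298.red (qPlaceL Qb N) t,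
    algebraMap Qb (modularFunctionFieldBar N) ((f : LaurentSeries Qb).coeff m)⁻¹ * f, h0,
    mul_ne_zero ((map_ne_zero _).mpr hc0) hf0, fun v => ?_, hcl.symm, m, ?_⟩
  · rw [Fermat.Agent.S24.helper1370.ord_algebraMap_mul v hc0, hf v]
  · show ((algebraMap Qb (LaurentSeries Qb) ((f : LaurentSeries Qb).coeff m)⁻¹)
      * (f : LaurentSeries Qb)).coeff m = 1
    rw [algebraMap_laurentSeries_eq_single, HahnSeries.coeff_single_zero_mul,
      inv_mul_cancel₀ hm]

/-! ## One torsion class -/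

set_option synthInstance.maxHeartbeats 200000 in
set_option maxHeartbeats 1000000 in
/-- For a nonzero `p`-torsion class `t` there is a modulus `M` such that `σ • y - y ≠ t` for
every inertia element `σ` at a place of `Qbar` over a prime `ℓ ∤ M` and every `y` with
`σ • (p • y) = p • y`. -/
theorem per_torsion (N : ℕ) [NeZero N] (p : ℕ) (hp : 0 < p) (t : JZero N) (ht : p • t = 0)
    (ht0 : t ≠ 0) :
    ∃ M : ℕ, M ≠ 0 ∧ ∀ ℓ : ℕ, ℓ.Prime → ¬ ℓ ∣ M →
      ∀ A : ValuationSubring Qb, A.LiesOverPrime ℓ →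
      ∀ σ ∈ A.inertiaSubgroupIn ℚ, ∀ y : JZero N, σ • (p • y) = p • y → σ • y - y ≠ t := by
  classical
  have := Fermat.Agent.S29.helper36.finiteDimensional_jL Qb N
  have hxj := Fermat.Agent.S29.helper36.transcendental_jL Qb N
  have hpkg : Fermat.Agent.S17.helper1298.RedPkg Qb (modularFunctionFieldBar N) :=
    Fermat.Agent.S17.helper1298.redPkg_of_finite (jL Qb N) hxj
  -- the torsion data
  obtain ⟨E, f, hE, hf0, hf, htE, m₀, hm₀⟩ :=
    exists_torsion_data N p t ht
  -- the space `V = L(n P0)` and its dual coefficient basis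
  have hfin : FiniteDimensional Qb (riemannRochSpace
      ((((p : ℤ) + 2) * (genusFF Qb (modularFunctionFieldBar N) : ℤ) + Divisor.degree E) •
        pt (qPlaceL Qb N))) :=
    ((Fermat.Agent.S27.helper4996.stmt_Riemann Qb (modularFunctionFieldBar N) (jL Qb N) hxj).1
      _).2
  obtain ⟨b, nn, hbV, hdual, hspan⟩ := exists_dual_basis (modularFunctionFieldFull N)
    (riemannRochSpace
      ((((p : ℤ) + 2) * (genusFF Qb (modularFunctionFieldBar N) : ℤ) + Divisor.degree E) •
        pt (qPlaceL Qb N)))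
  -- `f` is not a `p`-th power
  have hNS : ∀ x y : Fin _ → Qb,
      (∑ i, y i • ((b i : modularFunctionFieldBar N) : LaurentSeries Qb)) ^ p
        = (f : LaurentSeries Qb)
          * (∑ i, x i • ((b i : modularFunctionFieldBar N) : LaurentSeries Qb)) ^ p → x = 0 := by
    intro x y hxy
    by_contra hx
    have hP₁L := coe_sum_smul (modularFunctionFieldFull N) x b
    have hP₂L := coe_sum_smul (modularFunctionFieldFull N) y b
    have hP₁ : (∑ i, x i • b i : modularFunctionFieldBar N) ≠ 0 := by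
      intro h0
      apply hx
      funext j
      have h1 := coeff_sum_smul
        (fun i => ((b i : modularFunctionFieldBar N) : LaurentSeries Qb)) nn hdual x j
      rw [← hP₁L, h0] at h1
      exact h1.symm
    have hrel : (∑ i, y i • b i : modularFunctionFieldBar N) ^ p
        = f * (∑ i, x i • b i : modularFunctionFieldBar N) ^ p := by
      apply Subtype.ext
      simp only [MulMemClass.coe_mul, SubmonoidClass.coe_pow]
      rw [hP₁L, hP₂L]
      exact hxy
    have hw : f = ((∑ i, y i • b i : modularFunctionFieldBar N)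
        / (∑ i, x i • b i : modularFunctionFieldBar N)) ^ p := by
      rw [div_pow, hrel, mul_div_assoc, div_self (pow_ne_zero p hP₁), mul_one]
    have hw0 : (∑ i, y i • b i : modularFunctionFieldBar N)
        / (∑ i, x i • b i : modularFunctionFieldBar N) ≠ 0 := by
      intro h0
      rw [h0, zero_pow hp.ne'] at hw
      exact hf0 hw
    have h2 := cls_eq_zero_of_pow hpkg.deg (qPlaceL Qb N) hp E _ hw0
      (fun v => by rw [← hw]; exact hf v)
    exact ht0 (htE.trans h2)
  obtain ⟨T, hT⟩ := abstract_unr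
    (fun i => ((b i : modularFunctionFieldBar N) : LaurentSeries Qb)) nn hdual
    (f : LaurentSeries Qb) p hp hNS
  -- the moduli
  obtain ⟨M₁, hM₁, H₁⟩ := Fermat.Agent.S17.helper2133.exists_coeff_mem_finset N
    (insert f (Finset.univ.image b))
  obtain ⟨M₂, hM₂, H₂⟩ := exists_modulus_finset T
  refine ⟨M₁ * M₂, mul_ne_zero hM₁ hM₂, ?_⟩
  intro ℓ hℓ hd A hA σ hσ y hy hty
  have hd₁ : ¬ ℓ ∣ M₁ := fun h => hd (Dvd.dvd.mul_right h M₂)
  have hd₂ : ¬ ℓ ∣ M₂ := fun h => hd (Dvd.dvd.mul_left h M₁)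
  have hcoef := H₁ ℓ hℓ hd₁ A hA
  have hTA := H₂ ℓ hℓ hd₂ A hA
  have hbA : ∀ i m, ((b i : modularFunctionFieldBar N) : LaurentSeries Qb).coeff m ∈ A :=
    fun i m => hcoef (b i) (Finset.mem_insert_of_mem
      (Finset.mem_image_of_mem b (Finset.mem_univ i))) m
  have hfA : ∀ m, (f : LaurentSeries Qb).coeff m ∈ A :=
    fun m => hcoef f (Finset.mem_insert_self _ _) m
  have hprim : Prim A (f : LaurentSeries Qb) := prim_of_coeff_one A _ hfA hm₀
  -- the relation on the function field
  have hsP0 : arithmeticGalois (modularFunctionFieldFull N) σ • qPlaceL Qb N = qPlaceL Qb N :=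
    Fermat.Agent.S17.helper3753.arithmeticGalois_smul_qPlaceL Qb N σ
  obtain ⟨h₁, h₂, Q₁, Q₂, hh₁, hh₂, hQ₁, hQ₂, hh₁V, hh₂V, hQ₁V, hQ₂V, hrel⟩ :=
    Fermat.Agent.S17.helper7892.exists_relation (jL Qb N) hxj (qPlaceL Qb N)
      (arithmeticGalois (modularFunctionFieldFull N) σ) hsP0 p hp y hy E hE f hf0 hf
      (hty.trans htE)
  obtain ⟨c₁, hc₁⟩ := hspan h₁ hh₁V
  obtain ⟨c₂, hc₂⟩ := hspan h₂ hh₂V
  obtain ⟨x, hx⟩ := hspan Q₁ hQ₁V
  obtain ⟨z, hz⟩ := hspan Q₂ hQ₂V
  have hne : ∀ (c : Fin _ → Qb) (h : modularFunctionFieldBar N), h ≠ 0 →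
      h = ∑ i, c i • b i → c ≠ 0 := by
    intro c h hh hc h0
    apply hh
    rw [hc, h0]
    simp
  have hσA : ∀ a ∈ A, (σ : Qb →+* Qb) a ∈ A := fun a ha =>
    Fermat.Agent.Lib.helper3858.apply_mem_of_mem_inertiaSubgroupIn hσ ha
  have hσI : ∀ (a : Qb) (ha : a ∈ A),
      residue A ⟨(σ : Qb →+* Qb) a, hσA a ha⟩ = residue A ⟨a, ha⟩ :=
    fun a ha => Fermat.Agent.Lib.helper3858.residue_apply_of_mem_inertiaSubgroupIn hσ ha
      (hσA a ha)
  refine hT A hTA hbA hprim (σ : Qb →+* Qb) hσA hσI c₁ c₂ x z (hne c₁ h₁ hh₁ hc₁)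
    (hne c₂ h₂ hh₂ hc₂) (hne x Q₁ hQ₁ hx) (hne z Q₂ hQ₂ hz) ?_
  -- transport the relation to Laurent series
  have e₁ := coe_sum_smul (modularFunctionFieldFull N) c₁ b
  have e₂ := coe_sum_smul (modularFunctionFieldFull N) c₂ b
  have e₃ := coe_sum_smul (modularFunctionFieldFull N) x b
  have e₄ := coe_sum_smul (modularFunctionFieldFull N) z b
  rw [← hc₁] at e₁
  rw [← hc₂] at e₂
  rw [← hx] at e₃
  rw [← hz] at e₄
  have hrelL := congrArg (fun w : modularFunctionFieldBar N => (w : LaurentSeries Qb)) hrel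
  simp only [MulMemClass.coe_mul, SubmonoidClass.coe_pow, coe_arithmeticGalois_smul] at hrelL
  rw [← e₁, ← e₂, ← e₃, ← e₄]
  exact hrelL

/-! ## The unramifiedness statement -/

/-- **`hunr`, one-automorphism form.** -/
theorem exists_hunr_strong (N p : ℕ) [NeZero N] (hp : 0 < p) :
    ∃ M : ℕ, M ≠ 0 ∧ ∀ ℓ : ℕ, ℓ.Prime → ¬ ℓ ∣ M →
      ∀ A : ValuationSubring (AlgebraicClosure ℚ), A.LiesOverPrime ℓ →
      ∀ σ ∈ A.inertiaSubgroupIn ℚ, ∀ y : JZero N, σ • (p • y) = p • y → σ • y = y := by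
  classical
  have hfin : Set.Finite {t : JZero N | p • t = 0} :=
    Fermat.Agent.S29.helper288.finite_torsion_JZero N hp.ne'
  have key : ∀ t : JZero N, ∃ M : ℕ, M ≠ 0 ∧ (p • t = 0 → t ≠ 0 →
      ∀ ℓ : ℕ, ℓ.Prime → ¬ ℓ ∣ M → ∀ A : ValuationSubring Qb, A.LiesOverPrime ℓ →
      ∀ σ ∈ A.inertiaSubgroupIn ℚ, ∀ y : JZero N, σ • (p • y) = p • y → σ • y - y ≠ t) := by
    intro t
    by_cases h : p • t = 0 ∧ t ≠ 0
    · obtain ⟨M, hM, H⟩ := per_torsion N p hp t h.1 h.2
      exact ⟨M, hM, fun _ _ => H⟩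
    · exact ⟨1, one_ne_zero, fun h1 h2 => absurd ⟨h1, h2⟩ h⟩
  choose Mt hMt HMt using key
  refine ⟨∏ t ∈ hfin.toFinset, Mt t, Finset.prod_ne_zero_iff.mpr fun t _ => hMt t, ?_⟩
  intro ℓ hℓ hd A hA σ hσ y hy
  by_contra hne
  have htp : p • (σ • y - y) = 0 := by
    have h1 : p • (σ • y) = σ • (p • y) := smul_comm p σ y
    rw [nsmul_sub, h1, hy, sub_self]
  have ht0 : σ • y - y ≠ 0 := fun h => hne (sub_eq_zero.mp h)
  have hmem : σ • y - y ∈ hfin.toFinset := hfin.mem_toFinset.mpr htp
  have hdt : ¬ ℓ ∣ Mt (σ • y - y) := fun h => hd (h.trans (Finset.dvd_prod_of_mem _ hmem))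
  exact HMt _ htp ht0 ℓ hℓ hdt A hA σ hσ y hy rfl

/-- **`hunr`** (the unramifiedness input of weak Mordell–Weil for `J₀(N)`), in the shape of
`helper9541.finiteIndex_nsmul_JZero_of_exists_hunr`. -/
theorem exists_hunr (N p : ℕ) [NeZero N] (hp : p.Prime) :
    ∃ M : ℕ, M ≠ 0 ∧ ∀ ℓ : ℕ, ℓ.Prime → ¬ ℓ ∣ M →
      ∀ A : ValuationSubring (AlgebraicClosure ℚ), A.LiesOverPrime ℓ →
      ∀ σ ∈ A.inertiaSubgroupIn ℚ, ∀ y : JZero N,
        (∀ τ : AlgebraicClosure ℚ ≃ₐ[ℚ] AlgebraicClosure ℚ, τ • (p • y) = p • y) → σ • y = y := by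
  obtain ⟨M, hM, H⟩ := exists_hunr_strong N p hp.pos
  exact ⟨M, hM, fun ℓ hℓ hd A hA σ hσ y hy => H ℓ hℓ hd A hA σ hσ y (hy σ)⟩

end

end Fermat.Agent.S17.helper5065
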