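/-
S17 (Mordell–Weil for `JZero N`), weak Mordell–Weil half: the two inputs `hlevel` (open
stabilisers) and `htors` (finiteness of the `p`-torsion) of
`Fermat.Agent.S17.helper9541.finiteIndex_nsmul_JZero_of_specializationExists` are already
theorems of the S29 library.  This file puts them in the exact shapes consumed there and
restates weak Mordell–Weil for `JZero N` with only the remaining inputs:
the frozen S37 shape (`hsc`, `hspec`), divisibility (`hdiv`) and the Kummer finiteness
(`hkum`).
-/
import Fermat.Agent.S17.helper9541_WeakMW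
import Fermat.Agent.S29.helper8527_FiniteLevel
import Fermat.Agent.S29.helper288_FinTorsion

set_option autoImplicit false

namespace Fermat.Agent.S17.helper5079

open ModularCurve

/-- The absolute Galois group of `ℚ` in the Prelude's presentation. -/
abbrev Gal : Type := AlgebraicClosure ℚ ≃ₐ[ℚ] AlgebraicClosure ℚ

/-- **Open stabilisers on `JZero N`**, in the exact shape of the input `hlevel` of
`helper9541.finiteIndex_nsmul_JZero_of_specializationExists`. -/
theorem hlevel_JZero (N : ℕ) [NeZero N] :
    ∀ y : JZero N, ∃ L : IntermediateField ℚ (AlgebraicClosure ℚ),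
      FiniteDimensional ℚ L ∧ ∀ σ ∈ L.fixingSubgroup, σ • y = y := by
  intro y
  obtain ⟨L, hL, hfix⟩ := Fermat.Agent.S29.helper8527.exists_finiteLevel_point N y
  refine ⟨L, hL, fun σ hσ => hfix σ fun a ha => ?_⟩
  exact (IntermediateField.mem_fixingSubgroup_iff L σ).mp hσ a ha

/-- **Finiteness of the `p`-torsion of `JZero N`**, in the exact shape of the input `htors`
of `helper9541.finiteIndex_nsmul_JZero_of_specializationExists`. -/
theorem htors_JZero (N : ℕ) [NeZero N] {p : ℕ} (hp : p ≠ 0) :
    Finite {t : JZero N // p • t = 0} :=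
  Set.finite_coe_iff.mpr (Fermat.Agent.S29.helper288.finite_torsion_JZero N hp)

/-- **Weak Mordell–Weil for `JZero N`** from the frozen conclusion of S37 for the prime `p`
(`hsc`, `hspec`: exactly as in the frozen statement S37, instance `heckeModuleBar N`),
`p`-divisibility of `JZero N` and `ExpUnramifiedBound p (N * p)`.  Open stabilisers and
finiteness of the `p`-torsion are supplied by the S29 library. -/
theorem finiteIndex_nsmul_JZero (N p : ℕ) [NeZero N] (hp : p ≠ 0)
    (hsc : letI := ModularCurve.heckeModuleBar N;
      SMulCommClass Gal ModularCurve.HeckeAlg (ModularCurve.JZero N))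
    (hspec : letI := ModularCurve.heckeModuleBar N;
      ModularCurve.SpecializationExists (K := ℚ) (L := AlgebraicClosure ℚ) N p
        (ModularCurve.JZero N))
    (hdiv : ∀ x : JZero N, ∃ y : JZero N, p • y = x)
    (hkum : Fermat.Agent.S17.helper9541.ExpUnramifiedBound p (N * p)) :
    (nsmulAddMonoidHom (α := ↥(FixedPoints.addSubgroup Gal (JZero N))) p).range.FiniteIndex :=
  Fermat.Agent.S17.helper9541.finiteIndex_nsmul_JZero_of_specializationExists N p hsc hspec hdiv
    (hlevel_JZero N) (htors_JZero N hp) hkum

/-- The same statement with the hypotheses that do not involve the Hecke algebra: inertia at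
every prime `ℓ ∤ N * p` fixes every `p`-division point of a Galois-fixed point (the
Chevalley–Weil step), divisibility, and the Kummer finiteness. -/
theorem finiteIndex_nsmul_JZero_of_unramified (N p : ℕ) [NeZero N] (hp : p ≠ 0)
    (hunr : ∀ ℓ : ℕ, ℓ.Prime → ¬ ℓ ∣ N * p → ∀ A : ValuationSubring (AlgebraicClosure ℚ),
      A.LiesOverPrime ℓ → ∀ σ ∈ A.inertiaSubgroupIn ℚ, ∀ y : JZero N,
        (∀ τ : Gal, τ • (p • y) = p • y) → σ • y = y)
    (hdiv : ∀ x : JZero N, ∃ y : JZero N, p • y = x)
    (hkum : Fermat.Agent.S17.helper9541.ExpUnramifiedBound p (N * p)) :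
    (nsmulAddMonoidHom (α := ↥(FixedPoints.addSubgroup Gal (JZero N))) p).range.FiniteIndex :=
  Fermat.Agent.S17.helper9541.finiteIndex_nsmul_of_inputs p (N * p) hunr hdiv
    (hlevel_JZero N) (htors_JZero N hp) hkum

end Fermat.Agent.S17.helper5079
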