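/-
S17 (Mordell–Weil for `JZero N`): the FINAL form of leaf G5 (weak Mordell–Weil).

All inputs of `helper9541.finiteIndex_nsmul_of_inputs` except the unramifiedness input `hunr`
are discharged here from files on main:

* `hdiv`   : `helper2219.jzero_nsmul_surjective`   (divisibility of `JZero N`)
* `hlevel` : `helper5079.hlevel_JZero`             (open stabilisers)
* `htors`  : `helper5079.htors_JZero`              (finiteness of `J[p]`)
* `hkum`   : `helper1461.expUnramifiedBound`       (Kummer finiteness, every modulus `M ≠ 0`)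

So weak Mordell–Weil for `JZero N` at a prime `p` is reduced to ONE statement: the
unramifiedness of division points outside SOME nonzero modulus `M`
(`HunrAt N p M`, in the verbatim shape of the hypothesis `hunr`).  The last theorem is leaf
`WeakMWSpec` of the Pluecker Spec (`helper3197`) for `F₀ = modularFunctionFieldFull N`.
-/
import Mathlib
import Fermat.Agent.S17.helper9541_WeakMW
import Fermat.Agent.S17.helper5079_WMWInputs
import Fermat.Agent.S17.helper2219_DivJZero
import Fermat.Agent.S17.helper1461_KummerBound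
import Fermat.Agent.S17.helper3197_PlueckerSpec

set_option autoImplicit false

namespace Fermat.Agent.S17.helper9541

open ModularCurve AlgebraicCurve

/-- The unramifiedness input of weak Mordell–Weil for `JZero N` at `p`, outside the modulus `M`:
for every prime `ℓ ∤ M`, every valuation ring `A` of `ℚ̄` over `ℓ` and every `σ` in the inertia
group of `A`: if `p • y` is Galois-fixed then `σ • y = y`.  (Verbatim the hypothesis `hunr` of
`finiteIndex_nsmul_of_inputs` for `J = JZero N`.) -/
def HunrAt (N p M : ℕ) : Prop :=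
  ∀ ℓ : ℕ, ℓ.Prime → ¬ ℓ ∣ M → ∀ A : ValuationSubring (AlgebraicClosure ℚ),
    A.LiesOverPrime ℓ → ∀ σ ∈ A.inertiaSubgroupIn ℚ, ∀ y : JZero N,
      (∀ τ : Gal, τ • (p • y) = p • y) → σ • y = y

/-- The stronger one-automorphism form (only `σ • (p • y) = p • y` for the inertia element `σ`
itself is assumed). -/
def HunrStrongAt (N p M : ℕ) : Prop :=
  ∀ ℓ : ℕ, ℓ.Prime → ¬ ℓ ∣ M → ∀ A : ValuationSubring (AlgebraicClosure ℚ),
    A.LiesOverPrime ℓ → ∀ σ ∈ A.inertiaSubgroupIn ℚ, ∀ y : JZero N,
      σ • (p • y) = p • y → σ • y = y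

theorem HunrStrongAt.hunrAt {N p M : ℕ} (h : HunrStrongAt N p M) : HunrAt N p M :=
  fun ℓ hℓ hℓM A hA σ hσ y hy => h ℓ hℓ hℓM A hA σ hσ y (hy σ)

/-- Enlarging the modulus. -/
theorem HunrAt.mono {N p M M' : ℕ} (h : HunrAt N p M) (hMM' : M ∣ M') : HunrAt N p M' :=
  fun ℓ hℓ hℓM' A hA => h ℓ hℓ (fun hd => hℓM' (hd.trans hMM')) A hA

/-- **Weak Mordell–Weil for `JZero N` at a prime `p`**, from the unramifiedness of division
points outside a nonzero modulus `M` alone. -/
theorem finiteIndex_nsmul_JZero_of_hunrAt (N : ℕ) [NeZero N] {p : ℕ} (hp : p.Prime) {M : ℕ}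
    (hM : M ≠ 0) (hunr : HunrAt N p M) :
    (nsmulAddMonoidHom (α := ↥(FixedPoints.addSubgroup Gal (JZero N))) p).range.FiniteIndex :=
  finiteIndex_nsmul_of_inputs p M hunr
    (Fermat.Agent.S17.helper2219.jzero_nsmul_surjective N p hp.pos)
    (Fermat.Agent.S17.helper5079.hlevel_JZero N)
    (Fermat.Agent.S17.helper5079.htors_JZero N hp.ne_zero)
    (Fermat.Agent.S17.helper1461.expUnramifiedBound p hp M hM)

/-- The same with an existentially quantified modulus (the output shape of the
`q`-expansion/Gauss proof of unramifiedness). -/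
theorem finiteIndex_nsmul_JZero_of_exists_hunr (N : ℕ) [NeZero N] {p : ℕ} (hp : p.Prime)
    (h : ∃ M : ℕ, M ≠ 0 ∧ ∀ ℓ : ℕ, ℓ.Prime → ¬ ℓ ∣ M →
      ∀ A : ValuationSubring (AlgebraicClosure ℚ), A.LiesOverPrime ℓ →
        ∀ σ ∈ A.inertiaSubgroupIn ℚ, ∀ y : JZero N,
          (∀ τ : Gal, τ • (p • y) = p • y) → σ • y = y) :
    (nsmulAddMonoidHom (α := ↥(FixedPoints.addSubgroup Gal (JZero N))) p).range.FiniteIndex := by
  obtain ⟨M, hM, hunr⟩ := h
  exact finiteIndex_nsmul_JZero_of_hunrAt N hp hM hunr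

/-- **Leaf `WeakMWSpec` of the Pluecker Spec** for the modular curve, from unramifiedness of
`2`-division points outside some nonzero modulus. -/
theorem weakMWSpec_of_exists_hunr (N : ℕ) [NeZero N]
    (h : ∃ M : ℕ, M ≠ 0 ∧ HunrAt N 2 M) :
    Fermat.Agent.S17.helper3197.WeakMWSpec (modularFunctionFieldFull N) := by
  obtain ⟨M, hM, hunr⟩ := h
  exact finiteIndex_nsmul_JZero_of_hunrAt N Nat.prime_two hM hunr

/-- Leaf `WeakMWSpec` from the S37 core in its Hecke-free unramified form: any statement giving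
`σ • y = y` for inertia at the primes not dividing `M`. -/
theorem weakMWSpec_of_hunrStrongAt (N : ℕ) [NeZero N] {M : ℕ} (hM : M ≠ 0)
    (h : HunrStrongAt N 2 M) :
    Fermat.Agent.S17.helper3197.WeakMWSpec (modularFunctionFieldFull N) :=
  weakMWSpec_of_exists_hunr N ⟨M, hM, h.hunrAt⟩

end Fermat.Agent.S17.helper9541
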