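import Fermat.Agent.S17.helper5065_Hunr
import Fermat.Agent.S17.helper9541_WeakMWFinal

/-!
# S17 (helper5065): weak Mordell–Weil for `J₀(N)`, unconditionally

Wiring of `exists_hunr` (`helper5065_Hunr`, the `q`-expansion Gauss proof of unramifiedness)
into the weak Mordell–Weil adapters of `helper9541_WeakMWFinal`.
-/

set_option autoImplicit false

namespace Fermat.Agent.S17.helper5065

open ModularCurve

/-- `hunr` in the vocabulary of `helper9541_WeakMWFinal`. -/
theorem exists_hunrAt (N p : ℕ) [NeZero N] (hp : p.Prime) :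
    ∃ M : ℕ, M ≠ 0 ∧ Fermat.Agent.S17.helper9541.HunrAt N p M :=
  exists_hunr N p hp

/-- One-automorphism form. -/
theorem exists_hunrStrongAt (N p : ℕ) [NeZero N] (hp : 0 < p) :
    ∃ M : ℕ, M ≠ 0 ∧ Fermat.Agent.S17.helper9541.HunrStrongAt N p M :=
  exists_hunr_strong N p hp

/-- **Weak Mordell–Weil for `J₀(N)`**: `p • J₀(N)(ℚ)` has finite index in `J₀(N)(ℚ)`. -/
theorem finiteIndex_nsmul_JZero (N p : ℕ) [NeZero N] (hp : p.Prime) :
    (nsmulAddMonoidHom
      (α := ↥(FixedPoints.addSubgroup (AlgebraicClosure ℚ ≃ₐ[ℚ] AlgebraicClosure ℚ) (JZero N)))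
      p).range.FiniteIndex :=
  Fermat.Agent.S17.helper9541.finiteIndex_nsmul_JZero_of_exists_hunr N hp (exists_hunr N p hp)

/-- Leaf `WeakMWSpec` (L9) of the Pluecker Spec, unconditionally. -/
theorem weakMWSpec (N : ℕ) [NeZero N] :
    Fermat.Agent.S17.helper3197.WeakMWSpec (modularFunctionFieldFull N) :=
  Fermat.Agent.S17.helper9541.weakMWSpec_of_exists_hunr N (exists_hunrAt N 2 Nat.prime_two)

end Fermat.Agent.S17.helper5065
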