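import Fermat.Agent.S17.helper5530_InertiaKF
import Fermat.Agent.S17.helper1026_ExpUnram
import Fermat.Agent.S17.helper5079_WMWInputs
import Fermat.Agent.S17.helper958_Divisible
import Fermat.Agent.S18.helper2118_Spec
import Fermat.Agent.S17.helper3197_PlueckerSpec

/-!
# S17: weak Mordell–Weil for `JZero N` from the S18 Kummer field form alone

All the other inputs of the weak Mordell–Weil wiring `helper9541.finiteIndex_nsmul_of_inputs`
are on main unconditionally:

* `hdiv`   : `helper958.divisible_JZero_final`;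
* `hlevel` : `helper5079.hlevel_JZero`;
* `htors`  : `helper5079.htors_JZero`;
* `hkum`   : `helper1026.expUnramifiedBound` (every bad modulus `M ≠ 0`);
* `hunr`   : `helper5530.hunr_of_kf_of_dvd`, from `helper3054.Stmt_KF N ℓ` for `ℓ ∤ M`.

Hence:

* `weakMW_of_kf`  : `J₀(N)(ℚ) / p J₀(N)(ℚ)` is finite as soon as the Kummer field form holds at
  level `N` for the primes `ℓ ∤ M` (`M ≠ 0` any multiple of `N` and `p`);
* `weakMW_of_kf0` : the same from `Stmt_KF0`;
* `weakMW_of_kfj` : the same from the S18 captain's `j`-line obligation `helper2118.Stmt_KFj`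
  alone (`M = 6 N p`, so only the primes `ℓ ≥ 5` are used);
* `weakMWSpec_of_kfj` : leaf `WeakMWSpec` (L9) of the Pluecker Spec `helper3197` for
  `F₀ = modularFunctionFieldFull N`, from `helper2118.Stmt_KFj`.
-/

set_option autoImplicit false

namespace Fermat.Agent.S17.helper5530

open ModularCurve
open Fermat.Agent.S18.helper3054

/-- **Weak Mordell–Weil for `JZero N` from the Kummer field form**: if `Stmt_KF N ℓ` holds for
all primes `ℓ` not dividing `M` (`M ≠ 0`, `N ∣ M`, `p ∣ M`), then `p • J₀(N)(ℚ)` has finite index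
in `J₀(N)(ℚ)`. -/
theorem weakMW_of_kf (N p M : ℕ) [NeZero N] (hp : p.Prime) (hM : M ≠ 0) (hNM : N ∣ M)
    (hpM : p ∣ M) (hKF : ∀ ℓ : ℕ, ℓ.Prime → ¬ ℓ ∣ M → Stmt_KF N ℓ) :
    (nsmulAddMonoidHom (α := ↥(FixedPoints.addSubgroup GalQ (JZero N))) p).range.FiniteIndex :=
  finiteIndex_nsmul_JZero_of_kf_of_dvd N p M hNM hpM hKF
    (Fermat.Agent.S17.helper958.divisible_JZero_final N p hp.pos)
    (Fermat.Agent.S17.helper5079.hlevel_JZero N)
    (Fermat.Agent.S17.helper5079.htors_JZero N hp.ne_zero)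
    (Fermat.Agent.S17.helper1026.expUnramifiedBound p M hp hM)

/-- The same from the Kummer field form with exact `m`-th powers `Stmt_KF0`. -/
theorem weakMW_of_kf0 (N p M : ℕ) [NeZero N] (hp : p.Prime) (hM : M ≠ 0) (hNM : N ∣ M)
    (hpM : p ∣ M) (hKF0 : ∀ ℓ : ℕ, ℓ.Prime → ¬ ℓ ∣ M → Stmt_KF0 N ℓ) :
    (nsmulAddMonoidHom (α := ↥(FixedPoints.addSubgroup GalQ (JZero N))) p).range.FiniteIndex :=
  weakMW_of_kf N p M hp hM hNM hpM fun ℓ hℓ hℓM =>
    kf_of_kf0 N ℓ (fun A _ => Fermat.Agent.Lib.helper3858.isAlgClosed_residueField A)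
      (hKF0 ℓ hℓ hℓM)

/-- A prime not dividing `6 * a` is at least `5`. -/
theorem five_le_of_prime_of_not_dvd_six_mul {ℓ a : ℕ} (hℓ : ℓ.Prime) (h : ¬ ℓ ∣ 6 * a) :
    5 ≤ ℓ := by
  have h2 : ℓ ≠ 2 := by
    rintro rfl
    exact h (Dvd.dvd.mul_right (by norm_num) a)
  have h3 : ℓ ≠ 3 := by
    rintro rfl
    exact h (Dvd.dvd.mul_right (by norm_num) a)
  have h4 : ℓ ≠ 4 := by
    rintro rfl
    exact absurd hℓ (by norm_num)
  have := hℓ.two_le
  omega

/-- **Weak Mordell–Weil for `JZero N` from the `j`-line obligation of S18 alone**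
(`helper2118.Stmt_KFj`: `Stmt_KF0 N ℓ` for `ℓ ≥ 5`, `ℓ ∤ N`), with bad modulus `6 N p`. -/
theorem weakMW_of_kfj (hj : Fermat.Agent.S18.helper2118.Stmt_KFj) (N p : ℕ) [NeZero N]
    (hp : p.Prime) :
    (nsmulAddMonoidHom (α := ↥(FixedPoints.addSubgroup GalQ (JZero N))) p).range.FiniteIndex := by
  have hM : 6 * (N * p) ≠ 0 :=
    mul_ne_zero (by norm_num) (mul_ne_zero (NeZero.ne N) hp.ne_zero)
  refine weakMW_of_kf0 N p (6 * (N * p)) hp hM
    (Dvd.dvd.mul_left (dvd_mul_right N p) 6) (Dvd.dvd.mul_left (dvd_mul_left p N) 6) ?_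
  intro ℓ hℓ hℓM
  exact hj N ℓ hℓ (five_le_of_prime_of_not_dvd_six_mul hℓ hℓM)
    (fun h => hℓM (Dvd.dvd.mul_left (h.mul_right p) 6))

/-- **Leaf `WeakMWSpec` of the Pluecker Spec** (`helper3197`) for the modular curve, from the
`j`-line obligation of S18 alone. -/
theorem weakMWSpec_of_kfj (hj : Fermat.Agent.S18.helper2118.Stmt_KFj) (N : ℕ) [NeZero N] :
    Fermat.Agent.S17.helper3197.WeakMWSpec (modularFunctionFieldFull N) :=
  weakMW_of_kfj hj N 2 Nat.prime_two

end Fermat.Agent.S17.helper5530
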