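import Mathlib
import Fermat.Agent.S17.helper2139_UBPlan

/-!
# S17-L7 track (C), leaf (F) (helper6617): the formal (real-number) half of `CubeAbsStmt`

Level raising `(A)` + one-point peeling `(B)` for a function `ℓ : ℤ → List Pt → ℝ` give the
seven-term bound (`formal_core`; `formalStmt` is the same statement as `helper2139.FormalStmt`).
-/

set_option autoImplicit false

namespace Fermat.Agent.S17.helper6617

section Lists

variable {Pt : Type}

/-- The sum of the pair terms `ν P Q` over the pairs (`Q` earlier than `P`) of a list. -/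
def pairs (ν : Pt → Pt → ℝ) : List Pt → ℝ
  | [] => 0
  | Q :: D => (D.map fun P => ν P Q).sum + pairs ν D

/-- The sum of the pair terms `ν P Q`, `Q ∈ l`, `P ∈ l'`. -/
def cross (ν : Pt → Pt → ℝ) (l l' : List Pt) : ℝ :=
  (l.map fun Q => (l'.map fun P => ν P Q).sum).sum

theorem pairs_append (ν : Pt → Pt → ℝ) (l l' : List Pt) :
    pairs ν (l ++ l') = pairs ν l + pairs ν l' + cross ν l l' := by
  induction l with
  | nil => simp [pairs, cross]
  | cons Q D ih =>
    simp only [List.cons_append, pairs, cross, List.map_append, List.sum_append, List.map_cons,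
      List.sum_cons] at ih ⊢
    rw [ih]
    ring

theorem cross_append_left (ν : Pt → Pt → ℝ) (l l' l'' : List Pt) :
    cross ν (l ++ l') l'' = cross ν l l'' + cross ν l' l'' := by
  simp [cross]

theorem abs_sum_three_le (f₃ f₂ f₁ : Pt → ℝ) (s : ℝ) (l : List Pt)
    (h : ∀ Q ∈ l, |f₃ Q - 2 * f₂ Q + f₁ Q| ≤ s) :
    |(l.map f₃).sum - 2 * (l.map f₂).sum + (l.map f₁).sum| ≤ (l.length : ℝ) * s := by
  induction l with
  | nil => simp
  | cons Q D ih =>
    have h1 := abs_le.mp (h Q (by simp))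
    have h2 := abs_le.mp (ih fun Q' hQ' => h Q' (by simp [hQ']))
    simp only [List.map_cons, List.sum_cons, List.length_cons, Nat.cast_add, Nat.cast_one]
    rw [abs_le]
    constructor <;> nlinarith [h1.1, h1.2, h2.1, h2.2]

end Lists

section Core

variable {Pt : Type} (ℓ : ℤ → List Pt → ℝ) (Gd : List Pt → Prop) (t : ℝ) (a₀ : ℤ) (d : ℕ) (c : ℤ)

/-- The pair term at the top level `K₀ = 2 (3 d + c) + a₀`. -/
def nu (P Q : Pt) : ℝ :=
  ℓ (2 * (3 * d + c) + a₀) [Q, P] - ℓ (2 * (3 * d + c) + a₀) [P] - ℓ (2 * (3 * d + c) + a₀) [Q]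

/-- Hypothesis `(A)` (level raising). -/
def HypA : Prop :=
  ∀ (m K : ℤ) (Q : Pt) (D : List Pt), Gd (Q :: D) → (D.length : ℤ) + 1 + a₀ ≤ m →
    m ≤ 3 * d + c → 2 * m + a₀ ≤ K → K ≤ 2 * (3 * d + c) + a₀ + d →
    |ℓ (m + K) (Q :: D) - ℓ (m + K) D - (ℓ m (Q :: D) - ℓ m D) - ℓ K [Q]| ≤ t

/-- Hypothesis `(B)` (one-point peeling). -/
def HypB : Prop :=
  ∀ (m K : ℤ) (Q P : Pt) (D : List Pt), Gd (Q :: P :: D) → (D.length : ℤ) + 1 + a₀ ≤ m →
    m ≤ 3 * d + c → 2 * m + a₀ ≤ K → K ≤ 2 * (3 * d + c) + a₀ + d →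
    |ℓ (m + K) (Q :: P :: D) - ℓ (m + K) (P :: D) - (ℓ m (Q :: D) - ℓ m D) -
      (ℓ K [Q, P] - ℓ K [P])| ≤ t

variable {ℓ Gd t a₀ d c}

/-- Claim 1 at the raised level. -/
theorem peel_high
    (hsub : ∀ l l' : List Pt, l'.Sublist l → Gd l → Gd l') (hnil : ∀ n : ℤ, ℓ n [] = 0)
    (hA : HypA ℓ Gd t a₀ d c) (hB : HypB ℓ Gd t a₀ d c) (Q : Pt) (m : ℤ) (hm : m ≤ 3 * d + c) :
    ∀ D : List Pt, Gd (Q :: D) → (D.length : ℤ) + a₀ ≤ m →
      |ℓ (m + (2 * (3 * d + c) + a₀)) (Q :: D) - ℓ (m + (2 * (3 * d + c) + a₀)) D -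
        ℓ (m + (2 * (3 * d + c) + a₀)) [Q] - (D.map fun P => nu ℓ a₀ d c P Q).sum| ≤
        2 * (D.length : ℝ) * t := by
  intro D
  induction D with
  | nil =>
    intro _ _
    simp [hnil]
  | cons P D' ih =>
    intro hG hlen
    have hlen' : ((D'.length : ℤ)) + 1 + a₀ ≤ m := by
      simpa [List.length_cons] using hlen
    have hG' : Gd (Q :: D') := hsub _ _ (by simp) hG
    have h1 := abs_le.mp (hB m (2 * (3 * d + c) + a₀) Q P D' hG hlen' hm (by linarith) (by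
      have : (0 : ℤ) ≤ d := Int.natCast_nonneg d
      linarith))
    have h2 := abs_le.mp (hA m (2 * (3 * d + c) + a₀) Q D' hG' hlen' hm (by linarith) (by
      have : (0 : ℤ) ≤ d := Int.natCast_nonneg d
      linarith))
    have h3 := abs_le.mp (ih hG' (by linarith))
    simp only [List.map_cons, List.sum_cons, List.length_cons, Nat.cast_add, Nat.cast_one]
    have hν : nu ℓ a₀ d c P Q = ℓ (2 * (3 * d + c) + a₀) [Q, P] - ℓ (2 * (3 * d + c) + a₀) [P] -
        ℓ (2 * (3 * d + c) + a₀) [Q] := rfl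
    rw [abs_le]
    constructor <;> linarith [h1.1, h1.2, h2.1, h2.2, h3.1, h3.2, hν]

/-- Claim 1 at the level `m`. -/
theorem peel_low
    (hsub : ∀ l l' : List Pt, l'.Sublist l → Gd l → Gd l') (hnil : ∀ n : ℤ, ℓ n [] = 0)
    (hA : HypA ℓ Gd t a₀ d c) (hB : HypB ℓ Gd t a₀ d c) (Q : Pt) (m : ℤ) (hm : m ≤ 3 * d + c)
    (D : List Pt) (hG : Gd (Q :: D)) (hlen : (D.length : ℤ) + 1 + a₀ ≤ m) :
    |ℓ m (Q :: D) - ℓ m D - ℓ m [Q] - (D.map fun P => nu ℓ a₀ d c P Q).sum| ≤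
      (2 * (D.length : ℝ) + 2) * t := by
  have hd : (0 : ℤ) ≤ d := Int.natCast_nonneg d
  have h1 := abs_le.mp (peel_high hsub hnil hA hB Q m hm D hG (by linarith))
  have h2 := abs_le.mp (hA m (2 * (3 * d + c) + a₀) Q D hG hlen hm (by linarith) (by linarith))
  have hG0 : Gd [Q] := hsub _ _ (by simp) hG
  have hD0 : (0 : ℤ) ≤ (D.length : ℤ) := Int.natCast_nonneg _
  have h3 := abs_le.mp (hA m (2 * (3 * d + c) + a₀) Q [] hG0 (by simp; linarith) hm
    (by linarith) (by linarith))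
  simp only [hnil, sub_zero] at h3
  rw [abs_le]
  constructor <;> linarith [h1.1, h1.2, h2.1, h2.2, h3.1, h3.2]

/-- Claim 2: the expansion of `ℓ m l` into single terms and pair terms. -/
theorem expand
    (hsub : ∀ l l' : List Pt, l'.Sublist l → Gd l → Gd l') (hnil : ∀ n : ℤ, ℓ n [] = 0)
    (hA : HypA ℓ Gd t a₀ d c) (hB : HypB ℓ Gd t a₀ d c) (m : ℤ) (hm : m ≤ 3 * d + c) :
    ∀ l : List Pt, Gd l → (l.length : ℤ) + a₀ ≤ m →
      |ℓ m l - (l.map fun P => ℓ m [P]).sum - pairs (nu ℓ a₀ d c) l| ≤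
        ((l.length : ℝ) ^ 2 + (l.length : ℝ)) * t := by
  intro l
  induction l with
  | nil =>
    intro _ _
    simp [hnil, pairs]
  | cons Q D ih =>
    intro hG hlen
    have hlen' : ((D.length : ℤ)) + 1 + a₀ ≤ m := by
      simpa [List.length_cons] using hlen
    have hG' : Gd D := hsub _ _ (by simp) hG
    have h1 := abs_le.mp (peel_low hsub hnil hA hB Q m hm D hG hlen')
    have h2 := abs_le.mp (ih hG' (by linarith))
    simp only [List.map_cons, List.sum_cons, List.length_cons, Nat.cast_add, Nat.cast_one, pairs]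
    have e : (((D.length : ℝ) + 1) ^ 2 + ((D.length : ℝ) + 1)) * t =
        (2 * (D.length : ℝ) + 2) * t + ((D.length : ℝ) ^ 2 + (D.length : ℝ)) * t := by ring
    rw [e, abs_le]
    constructor <;> linarith [h1.1, h1.2, h2.1, h2.2]

/-- Claim 4: the second difference of the single terms. -/
theorem single (hac : a₀ ≤ c) (hnil : ∀ n : ℤ, ℓ n [] = 0)
    (hA : HypA ℓ Gd t a₀ d c) (hd : 1 ≤ d) (Q : Pt) (hG : Gd [Q]) :
    |ℓ (3 * d + c) [Q] - 2 * ℓ (2 * d + c) [Q] + ℓ (d + c) [Q]| ≤ 4 * t := by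
  have hd' : (1 : ℤ) ≤ d := by exact_mod_cast hd
  have h1 := hA (3 * d + c) (2 * (3 * d + c) + a₀) Q [] hG (by simp; linarith) le_rfl
    le_rfl (by linarith)
  have h2 := hA (2 * d + c) (2 * (3 * d + c) + a₀ + d) Q [] hG (by simp; linarith)
    (by linarith) (by linarith) le_rfl
  have h3 := hA (2 * d + c) (2 * (3 * d + c) + a₀) Q [] hG (by simp; linarith) (by linarith)
    (by linarith) (by linarith)
  have h4 := hA (d + c) (2 * (3 * d + c) + a₀ + d) Q [] hG (by simp; linarith) (by linarith)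
    (by linarith) le_rfl
  have e12 : (2 * (d : ℤ) + c + (2 * (3 * d + c) + a₀ + d)) = 3 * d + c + (2 * (3 * d + c) + a₀) := by
    ring
  have e34 : ((d : ℤ) + c + (2 * (3 * d + c) + a₀ + d)) = 2 * d + c + (2 * (3 * d + c) + a₀) := by
    ring
  rw [e12] at h2
  rw [e34] at h4
  simp only [hnil, sub_zero] at h1 h2 h3 h4
  have h1 := abs_le.mp h1
  have h2 := abs_le.mp h2
  have h3 := abs_le.mp h3
  have h4 := abs_le.mp h4
  rw [abs_le]
  constructor <;> linarith [h1.1, h1.2, h2.1, h2.2, h3.1, h3.2, h4.1, h4.2]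

/-- The seven-term bound. -/
theorem formal_core (ht : 0 ≤ t) (hac : a₀ ≤ c)
    (hsub : ∀ l l' : List Pt, l'.Sublist l → Gd l → Gd l') (hnil : ∀ n : ℤ, ℓ n [] = 0)
    (hA : HypA ℓ Gd t a₀ d c) (hB : HypB ℓ Gd t a₀ d c)
    (l₁ l₂ l₃ : List Pt) (h₁ : l₁.length = d) (h₂ : l₂.length = d) (h₃ : l₃.length = d)
    (hG : Gd (l₁ ++ l₂ ++ l₃)) :
    |ℓ (3 * d + c) (l₁ ++ l₂ ++ l₃) - ℓ (2 * d + c) (l₁ ++ l₂) - ℓ (2 * d + c) (l₁ ++ l₃) -
      ℓ (2 * d + c) (l₂ ++ l₃) + ℓ (d + c) l₁ + ℓ (d + c) l₂ + ℓ (d + c) l₃| ≤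
      40 * ((d : ℝ) + 1) ^ 2 * t := by
  rcases Nat.eq_zero_or_pos d with hd0 | hdpos
  · subst hd0
    have e1 : l₁ = [] := List.length_eq_zero_iff.mp h₁
    have e2 : l₂ = [] := List.length_eq_zero_iff.mp h₂
    have e3 : l₃ = [] := List.length_eq_zero_iff.mp h₃
    subst e1 e2 e3
    simp [hnil]
    positivity
  have hdZ : (0 : ℤ) ≤ d := Int.natCast_nonneg d
  -- the sublists are good
  have hG12 : Gd (l₁ ++ l₂) := hsub _ _ (List.sublist_append_left _ _) hG
  have hG13 : Gd (l₁ ++ l₃) := by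
    refine hsub _ _ ?_ hG
    rw [List.append_assoc]
    exact List.Sublist.append (List.Sublist.refl _) (List.sublist_append_right _ _)
  have hG23 : Gd (l₂ ++ l₃) := by
    refine hsub _ _ ?_ hG
    rw [List.append_assoc]
    exact List.sublist_append_right _ _
  have hG1 : Gd l₁ := hsub _ _ (List.sublist_append_left _ _) hG12
  have hG2 : Gd l₂ := hsub _ _ (List.sublist_append_right _ _) hG12
  have hG3 : Gd l₃ := hsub _ _ (List.sublist_append_right _ _) hG
  -- the seven expansions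
  have E123 := abs_le.mp (expand hsub hnil hA hB (3 * d + c) le_rfl (l₁ ++ l₂ ++ l₃) hG (by
    simp only [List.length_append, h₁, h₂, h₃]; push_cast; linarith))
  have E12 := abs_le.mp (expand hsub hnil hA hB (2 * d + c) (by linarith) (l₁ ++ l₂) hG12 (by
    simp only [List.length_append, h₁, h₂]; push_cast; linarith))
  have E13 := abs_le.mp (expand hsub hnil hA hB (2 * d + c) (by linarith) (l₁ ++ l₃) hG13 (by
    simp only [List.length_append, h₁, h₃]; push_cast; linarith))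
  have E23 := abs_le.mp (expand hsub hnil hA hB (2 * d + c) (by linarith) (l₂ ++ l₃) hG23 (by
    simp only [List.length_append, h₂, h₃]; push_cast; linarith))
  have E1 := abs_le.mp (expand hsub hnil hA hB (d + c) (by linarith) l₁ hG1 (by
    rw [h₁]; linarith))
  have E2 := abs_le.mp (expand hsub hnil hA hB (d + c) (by linarith) l₂ hG2 (by
    rw [h₂]; linarith))
  have E3 := abs_le.mp (expand hsub hnil hA hB (d + c) (by linarith) l₃ hG3 (by
    rw [h₃]; linarith))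
  -- the single terms
  have hS : ∀ l : List Pt, Gd l →
      |(l.map fun P => ℓ (3 * d + c) [P]).sum - 2 * (l.map fun P => ℓ (2 * d + c) [P]).sum +
        (l.map fun P => ℓ (d + c) [P]).sum| ≤ (l.length : ℝ) * (4 * t) := by
    intro l hl
    refine abs_sum_three_le _ _ _ _ l fun Q hQ => ?_
    exact single hac hnil hA hdpos Q (hsub _ _ (List.singleton_sublist.mpr hQ) hl)
  have S1 := abs_le.mp (hS l₁ hG1)
  have S2 := abs_le.mp (hS l₂ hG2)
  have S3 := abs_le.mp (hS l₃ hG3)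
  simp only [List.map_append, List.sum_append, List.length_append, pairs_append,
    cross_append_left, h₁, h₂, h₃, Nat.cast_add] at E123 E12 E13 E23 E1 E2 E3 S1 S2 S3
  have hdR : (0 : ℝ) ≤ (d : ℝ) := Nat.cast_nonneg d
  have hbound : ((d : ℝ) + d + d) ^ 2 * t + ((d : ℝ) + d + d) * t +
      3 * (((d : ℝ) + d) ^ 2 * t + ((d : ℝ) + d) * t) + 3 * ((d : ℝ) ^ 2 * t + (d : ℝ) * t) +
      3 * ((d : ℝ) * (4 * t)) ≤ 40 * ((d : ℝ) + 1) ^ 2 * t := by
    have : 0 ≤ (16 * (d : ℝ) ^ 2 + 56 * (d : ℝ) + 40) * t := by positivity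
    nlinarith [this]
  rw [abs_le]
  constructor <;> linarith [E123.1, E123.2, E12.1, E12.2, E13.1, E13.2, E23.1, E23.2, E1.1, E1.2,
    E2.1, E2.2, E3.1, E3.2, S1.1, S1.2, S2.1, S2.2, S3.1, S3.2]

end Core

/-- **Leaf (F) of track (C)**: the formal half `helper2139.FormalStmt`. -/
theorem formalStmt : Fermat.Agent.S17.helper2139.FormalStmt := by
  intro Pt ℓ Gd t a₀ d c _ ht hac hsub hnil hA hB l₁ l₂ l₃ h₁ h₂ h₃ hG
  exact formal_core ht hac hsub hnil hA hB l₁ l₂ l₃ h₁ h₂ h₃ hG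

end Fermat.Agent.S17.helper6617
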