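/-
S17 (Mordell–Weil for `JZero N`): SPEC of the ELEMENTARY HEDGE for the unramifiedness input
`hunr` of the weak Mordell–Weil wiring `helper9541.finiteIndex_nsmul_of_inputs` at `p = 2`
(findings #3061).  No reduction theory: explicit `2`-descent.

Vocabulary (`K` algebraically closed of characteristic `0`, `F` a function field over `K`):

* `evalDiv f D = ∏_P ev_P(f) ^ (D P)`     value of a function along a divisor;
* `TwoDatum K F`                          a pair `(D, f)` with `deg D = 0`, `div f = 2 D`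
                                          (a representative of a `2`-torsion class `cls D`);
* `eps X Y = X.f(Y.D) / Y.f(X.D)`          the Weil pairing on representatives.

Prop nodes (each a leaf of the hedge):

* `Stmt_WR`    Weil reciprocity `f(div g) = g(div f)` for disjoint supports;
* `Stmt_INV`, `Stmt_ANTI`   `eps` only depends on the class of the first argument; antisymmetry;
* `Stmt_ND`    nondegeneracy: a datum of nonzero class has a partner with `eps = -1`
               (double cover + Weil reciprocity + divisibility);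
* `Stmt_KUM`   the Kummer formula `eps (g D_y - D_y, g h / h) Y = g(b) / b`, `b² f_Y(D_x) = 1`;
* `Stmt_CW`    Chevalley–Weil without models: for almost all `ℓ`, inertia at `ℓ` fixes the
               datum and every square root of `Y.f (D)⁻¹`, `D` stable and disjoint;
* `Stmt_MOV`   representatives: a class has a representative `D` off a finite set such that every
               Galois-fixed class has a Galois-stable representative disjoint from `D`;
* `Stmt_OFF`   plain moving lemma.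

Proved here: `hunr_of_nodes`, the hypothesis `hunr` of
`helper9541.finiteIndex_nsmul_of_inputs 2 M` verbatim, for some `M ≠ 0`.
-/
import Fermat.Agent.S27.helper6247_Spec
import Fermat.Prelude.Def_ModularCurve_ArithmeticGalois
import Fermat.Prelude.Def_FLTPrelim_Ramification

set_option autoImplicit false

open AlgebraicCurve IntermediateField ModularCurve

namespace Fermat.Agent.S17.helper7506

open Fermat.Agent.S27.helper6247 (ev cls)

noncomputable section

/-! ## Definitions -/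

section Defs

variable {K : Type*} {F : Type*} [Field K] [Field F] [Algebra K F]

/-- The value of a function along a divisor: `∏_P ev_P(f) ^ (D P)`. -/
def evalDiv (f : F) (D : Divisor K F) : K := D.prod fun P n => ev P f ^ n

variable (K F) in
/-- A representative of a `2`-torsion class: a divisor `D` of degree `0` and a function `f` with
`div f = 2 D`. -/
structure TwoDatum where
  /-- the divisor -/
  D : Divisor K F
  /-- the function with divisor `2 D` -/
  f : F
  f_ne : f ≠ 0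
  degree_eq : Divisor.degree D = 0
  ord_eq : ∀ v : Place K F, v.ord f = 2 * D v

/-- The trivial datum. -/
def TwoDatum.zero : TwoDatum K F where
  D := 0
  f := 1
  f_ne := one_ne_zero
  degree_eq := map_zero _
  ord_eq := fun v => by rw [Place.ord_one]; simp

/-- Two data have disjoint supports. -/
def TwoDatum.Disjoint (X Y : TwoDatum K F) : Prop := ∀ v : Place K F, X.D v = 0 ∨ Y.D v = 0

/-- The Weil pairing on representatives with disjoint supports. -/
def eps (X Y : TwoDatum K F) : K := evalDiv X.f Y.D / evalDiv Y.f X.D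

end Defs

/-! ## Abstract nodes -/

/-- (WR) Weil reciprocity. -/
def Stmt_WR.{u, v} : Prop :=
  ∀ (K : Type u) (F : Type v) [Field K] [Field F] [Algebra K F] [IsAlgClosed K] [CharZero K]
    (x : F), Transcendental K x → ∀ [FiniteDimensional K⟮x⟯ F] (f g : F), f ≠ 0 → g ≠ 0 →
    ∀ (Df Dg : Divisor K F), (∀ v, Df v = v.ord f) → (∀ v, Dg v = v.ord g) →
    (∀ v : Place K F, v.ord f = 0 ∨ v.ord g = 0) → evalDiv f Dg = evalDiv g Df

/-- (INV) `eps` depends only on the class of its first argument. -/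
def Stmt_INV.{u, v} : Prop :=
  ∀ (K : Type u) (F : Type v) [Field K] [Field F] [Algebra K F] [IsAlgClosed K] [CharZero K]
    (x : F), Transcendental K x → ∀ [FiniteDimensional K⟮x⟯ F] (X X' Y : TwoDatum K F),
    X.Disjoint Y → X'.Disjoint Y → cls X.D = cls X'.D → eps X Y = eps X' Y

/-- (ANTI) antisymmetry of `eps`. -/
def Stmt_ANTI.{u, v} : Prop :=
  ∀ (K : Type u) (F : Type v) [Field K] [Field F] [Algebra K F] [IsAlgClosed K] [CharZero K]
    (x : F), Transcendental K x → ∀ [FiniteDimensional K⟮x⟯ F] (X Y : TwoDatum K F),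
    X.Disjoint Y → eps X Y * eps Y X = 1

/-- (KUM) The Kummer formula for a semilinear automorphism `g` fixing the datum `Y`. -/
def Stmt_KUM.{u, v} : Prop :=
  ∀ (K : Type u) (F : Type v) [Field K] [Field F] [Algebra K F] [IsAlgClosed K] [CharZero K]
    (x : F), Transcendental K x → ∀ [FiniteDimensional K⟮x⟯ F] (g : SemilinearAut K F)
    (Y : TwoDatum K F) (Dx Dy : Divisor K F) (h : F),
    g • Y.f = Y.f → g • Dx = Dx → h ≠ 0 → (∀ v : Place K F, v.ord h = 2 * Dy v - Dx v) →
    Divisor.degree Dy = 0 → (∀ v : Place K F, Y.D v ≠ 0 → Dx v = 0 ∧ Dy v = 0) →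
    ∃ (Z : TwoDatum K F) (b : K), Z.D = g • Dy - Dy ∧ Z.Disjoint Y ∧ b ≠ 0 ∧
      b ^ 2 * evalDiv Y.f Dx = 1 ∧ eps Z Y * b = SemilinearAut.baseAut g b

/-- (OFF) The plain moving lemma. -/
def Stmt_OFF.{u, v} : Prop :=
  ∀ (K : Type u) (F : Type v) [Field K] [Field F] [Algebra K F] [IsAlgClosed K] [CharZero K]
    (x : F), Transcendental K x → ∀ [FiniteDimensional K⟮x⟯ F] (y : Pic0 K F)
    (S : Finset (Place K F)),
    ∃ D : Divisor K F, Divisor.degree D = 0 ∧ cls D = y ∧ ∀ v ∈ S, D v = 0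

/-! ## Nodes over `ℚ̄` -/

/-- `ℚ̄`. -/
abbrev Qb : Type := AlgebraicClosure ℚ

/-- The absolute Galois group of `ℚ`. -/
abbrev GQ : Type := Qb ≃ₐ[ℚ] Qb

/-- The function field of `X₀(N)` over `ℚ̄`, as a type. -/
abbrev FNb (N : ℕ) : Type := ↥(modularFunctionFieldBar N)

/-- The coefficientwise semilinear automorphism attached to `σ`. -/
abbrev gal (N : ℕ) (σ : GQ) : SemilinearAut Qb (FNb N) :=
  arithmeticGalois (modularFunctionFieldFull N) σ

/-- (ND) Nondegeneracy, for every function field over `ℚ̄`. -/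
def Stmt_ND : Prop :=
  ∀ (F : Type) [Field F] [Algebra Qb F] (x : F), Transcendental Qb x →
    ∀ [FiniteDimensional Qb⟮x⟯ F] (Y : TwoDatum Qb F), cls Y.D ≠ 0 →
    ∃ X : TwoDatum Qb F, X.Disjoint Y ∧ eps X Y = -1

/-- (CW) Chevalley–Weil: for almost all `ℓ`, inertia at `ℓ` fixes the datum `Y` and every
square root of `Y.f (D)⁻¹` for every stable divisor `D` disjoint from `Y`. -/
def Stmt_CW : Prop :=
  ∀ (N : ℕ) [NeZero N] (Y : TwoDatum Qb (FNb N)), ∃ M : ℕ, M ≠ 0 ∧
    ∀ ℓ : ℕ, ℓ.Prime → ¬ ℓ ∣ M → ∀ A : ValuationSubring Qb, A.LiesOverPrime ℓ →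
    ∀ σ ∈ A.inertiaSubgroupIn ℚ,
      gal N σ • Y.f = Y.f ∧
      ∀ D : Divisor Qb (FNb N), gal N σ • D = D → (∀ v, Y.D v ≠ 0 → D v = 0) →
        ∀ b : Qb, b ^ 2 * evalDiv Y.f D = 1 → σ b = b

/-- (MOV) Every class has a representative `D` off a given finite set such that every
Galois-fixed class has a Galois-stable representative disjoint from `D`. -/
def Stmt_MOV : Prop :=
  ∀ (N : ℕ) [NeZero N] (t : JZero N) (S : Finset (Place Qb (FNb N))),
    ∃ D : Divisor Qb (FNb N), Divisor.degree D = 0 ∧ cls D = t ∧ (∀ v ∈ S, D v = 0) ∧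
      ∀ x : JZero N, (∀ σ : GQ, σ • x = x) →
        ∃ Dx : Divisor Qb (FNb N), Divisor.degree Dx = 0 ∧ cls Dx = x ∧
          (∀ σ : GQ, gal N σ • Dx = Dx) ∧ ∀ v, D v ≠ 0 → Dx v = 0


/-! ## Formal lemmas on `cls` and data -/

section Formal

variable {K : Type*} {F : Type*} [Field K] [Field F] [Algebra K F]

theorem cls_of_degree {D : Divisor K F} (h : Divisor.degree D = 0) :
    cls D = Pic0.mk ⟨D, Divisor.mem_degZero.mpr h⟩ := by
  unfold cls
  rw [dif_pos (Divisor.mem_degZero.mpr h)]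

theorem sub_mem_principal_of_cls_eq {D D' : Divisor K F} (h : Divisor.degree D = 0)
    (h' : Divisor.degree D' = 0) (hc : cls D = cls D') :
    D - D' ∈ Divisor.principal (K := K) (F := F) := by
  rw [cls_of_degree h, cls_of_degree h'] at hc
  have h1 := (QuotientAddGroup.eq (s := (Divisor.principal (K := K) (F := F)).addSubgroupOf
    (Divisor.degZero (K := K) (F := F)))).mp hc
  rw [AddSubgroup.mem_addSubgroupOf] at h1
  have h2 : D - D' = -(((-(⟨D, Divisor.mem_degZero.mpr h⟩ : Divisor.degZero (K := K) (F := F))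
      + ⟨D', Divisor.mem_degZero.mpr h'⟩ : Divisor.degZero (K := K) (F := F)) : Divisor K F)) := by
    simp only [AddSubgroup.coe_add, NegMemClass.coe_neg]
    abel
  rw [h2]
  exact neg_mem h1

theorem cls_eq_of_sub_mem {D D' : Divisor K F} (h : Divisor.degree D = 0)
    (h' : Divisor.degree D' = 0) (hp : D - D' ∈ Divisor.principal (K := K) (F := F)) :
    cls D = cls D' := by
  rw [cls_of_degree h, cls_of_degree h']
  refine (QuotientAddGroup.eq (s := (Divisor.principal (K := K) (F := F)).addSubgroupOf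
    (Divisor.degZero (K := K) (F := F)))).mpr ?_
  rw [AddSubgroup.mem_addSubgroupOf]
  have h2 : (((-(⟨D, Divisor.mem_degZero.mpr h⟩ : Divisor.degZero (K := K) (F := F))
      + ⟨D', Divisor.mem_degZero.mpr h'⟩ : Divisor.degZero (K := K) (F := F)) : Divisor K F))
      = -(D - D') := by
    simp only [AddSubgroup.coe_add, NegMemClass.coe_neg]
    abel
  rw [h2]
  exact neg_mem hp

theorem cls_sub {D D' : Divisor K F} (h : Divisor.degree D = 0) (h' : Divisor.degree D' = 0) :
    cls (D - D') = cls D - cls D' := by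
  have h'' : Divisor.degree (D - D') = 0 := by rw [map_sub, h, h', sub_zero]
  rw [cls_of_degree h, cls_of_degree h', cls_of_degree h'']
  rfl

theorem cls_nsmul {D : Divisor K F} (h : Divisor.degree D = 0) (n : ℕ) :
    cls (n • D) = n • cls D := by
  have h'' : Divisor.degree (n • D) = 0 := by rw [map_nsmul, h, smul_zero]
  rw [cls_of_degree h, cls_of_degree h'']
  rfl

theorem exists_cls_eq (y : Pic0 K F) : ∃ D : Divisor K F, Divisor.degree D = 0 ∧ cls D = y := by
  obtain ⟨⟨D, hD⟩, rfl⟩ := Pic0.mk_surjective y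
  exact ⟨D, Divisor.mem_degZero.mp hD, cls_of_degree (Divisor.mem_degZero.mp hD)⟩

/-- A datum for every `2`-torsion class. -/
theorem exists_twoDatum_of_two_nsmul {s : Pic0 K F} (hs : 2 • s = 0) :
    ∃ Y : TwoDatum K F, cls Y.D = s := by
  obtain ⟨D, hD, rfl⟩ := exists_cls_eq s
  have h2 : Divisor.degree (2 • D) = 0 := by rw [map_nsmul, hD, smul_zero]
  have h0 : cls (2 • D) = cls (0 : Divisor K F) := by
    rw [cls_nsmul hD, hs, cls_of_degree (map_zero _)]
    rfl
  have hp := sub_mem_principal_of_cls_eq h2 (map_zero _) h0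
  rw [sub_zero] at hp
  obtain ⟨f, hf, hDf⟩ := hp
  refine ⟨⟨D, f, hf, hD, fun v => ?_⟩, rfl⟩
  rw [← hDf v]
  simp [two_nsmul, two_mul]

/-- Transport of a datum to another representative of its class. -/
theorem TwoDatum.exists_of_cls_eq (X : TwoDatum K F) {D : Divisor K F}
    (hD : Divisor.degree D = 0) (hc : cls D = cls X.D) : ∃ Y : TwoDatum K F, Y.D = D := by
  obtain ⟨g, hg, hDg⟩ := sub_mem_principal_of_cls_eq hD X.degree_eq hc
  refine ⟨⟨D, X.f * g ^ 2, mul_ne_zero X.f_ne (pow_ne_zero 2 hg), hD, fun v => ?_⟩, rfl⟩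
  rw [Place.ord_mul _ X.f_ne (pow_ne_zero 2 hg), pow_two, Place.ord_mul _ hg hg, X.ord_eq v,
    ← hDg v]
  simp only [Finsupp.coe_sub, Pi.sub_apply]
  ring

end Formal

/-! ## The assembly -/

section Assembly

theorem galois_smul_cls (N : ℕ) (σ : GQ) {D : Divisor Qb (FNb N)} (h : Divisor.degree D = 0) :
    (σ • (cls D : JZero N) : JZero N) = cls (gal N σ • D) := by
  have h' : Divisor.degree (gal N σ • D) = 0 := by rw [SemilinearAut.degree_smul, h]
  rw [cls_of_degree h, cls_of_degree h']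
  rfl

/-- **The hypothesis `hunr` of the weak Mordell–Weil wiring at `p = 2`, from the nodes.** -/
theorem hunr_of_nodes (hINV : Stmt_INV.{0, 0}) (hANTI : Stmt_ANTI.{0, 0})
    (hKUM : Stmt_KUM.{0, 0}) (hOFF : Stmt_OFF.{0, 0}) (hND : Stmt_ND) (hCW : Stmt_CW)
    (hMOV : Stmt_MOV) (N : ℕ) [NeZero N]
    (x0 : FNb N) (hx0 : Transcendental Qb x0) [FiniteDimensional Qb⟮x0⟯ (FNb N)]
    (htors : Set.Finite {s : JZero N | 2 • s = 0}) :
    ∃ M : ℕ, M ≠ 0 ∧ ∀ ℓ : ℕ, ℓ.Prime → ¬ ℓ ∣ M → ∀ A : ValuationSubring Qb,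
      A.LiesOverPrime ℓ → ∀ σ ∈ A.inertiaSubgroupIn ℚ, ∀ y : JZero N,
        (∀ τ : GQ, τ • (2 • y) = 2 • y) → σ • y = y := by
  classical
  -- data for every nonzero `2`-torsion class
  have key : ∀ s : JZero N,
      ∃ (Y0 Y : TwoDatum Qb (FNb N)) (M : ℕ), M ≠ 0 ∧ (2 • s = 0 → s ≠ 0 →
        cls Y0.D = s ∧ Y0.Disjoint Y ∧ eps Y0 Y = -1 ∧
        (∀ x : JZero N, (∀ σ : GQ, σ • x = x) →
          ∃ Dx : Divisor Qb (FNb N), Divisor.degree Dx = 0 ∧ cls Dx = x ∧
            (∀ σ : GQ, gal N σ • Dx = Dx) ∧ ∀ v, Y.D v ≠ 0 → Dx v = 0) ∧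
        ∀ ℓ : ℕ, ℓ.Prime → ¬ ℓ ∣ M → ∀ A : ValuationSubring Qb, A.LiesOverPrime ℓ →
          ∀ σ ∈ A.inertiaSubgroupIn ℚ,
            gal N σ • Y.f = Y.f ∧
            ∀ D : Divisor Qb (FNb N), gal N σ • D = D → (∀ v, Y.D v ≠ 0 → D v = 0) →
              ∀ b : Qb, b ^ 2 * evalDiv Y.f D = 1 → σ b = b) := by
    intro s
    by_cases hs : 2 • s = 0 ∧ s ≠ 0
    swap
    · exact ⟨TwoDatum.zero, TwoDatum.zero, 1, one_ne_zero, fun h2 h0 => absurd ⟨h2, h0⟩ hs⟩
    obtain ⟨hs2, hs0⟩ := hs
    obtain ⟨Y0, hY0⟩ := exists_twoDatum_of_two_nsmul hs2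
    obtain ⟨X1, hX1d, hX1e⟩ := hND (FNb N) x0 hx0 Y0 (by rw [hY0]; exact hs0)
    obtain ⟨D, hDdeg, hDcls, hDoff, hDmov⟩ := hMOV N (cls X1.D) Y0.D.support
    obtain ⟨Y, hYD⟩ := X1.exists_of_cls_eq hDdeg hDcls
    have hdisj : Y.Disjoint Y0 := by
      intro v
      by_cases hv : v ∈ Y0.D.support
      · left; rw [hYD]; exact hDoff v hv
      · right; exact Finsupp.notMem_support_iff.mp hv
    have hdisj' : Y0.Disjoint Y := fun v => (hdisj v).symm
    have e1 : eps Y Y0 = -1 := by
      rw [hINV Qb (FNb N) x0 hx0 Y X1 Y0 hdisj hX1d (by rw [hYD, hDcls]), hX1e]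
    have e2 : eps Y0 Y = -1 := by
      have h := hANTI Qb (FNb N) x0 hx0 Y0 Y hdisj'
      rw [e1] at h
      have : eps Y0 Y = -(eps Y0 Y * -1) := by ring
      rw [this, h]
    obtain ⟨M, hM0, hM⟩ := hCW N Y
    refine ⟨Y0, Y, M, hM0, fun _ _ => ⟨hY0, hdisj', e2, ?_, hM⟩⟩
    rw [hYD]
    exact hDmov
  choose Y0 Y Ms hM0 hkey using key
  refine ⟨∏ s ∈ htors.toFinset, Ms s, Finset.prod_ne_zero_iff.mpr fun s _ => hM0 s, ?_⟩
  · intro ℓ hℓ hℓM A hA σ hσ y hy
    by_contra hne
    set s : JZero N := σ • y - y with hs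
    have hs0 : s ≠ 0 := fun h => hne (sub_eq_zero.mp h)
    have hs2 : 2 • s = 0 := by
      have h1 : σ • (2 • y) = 2 • (σ • y) :=
        map_nsmul (DistribMulAction.toAddMonoidHom (JZero N) σ) 2 y
      rw [hs, nsmul_sub, ← h1, hy σ, sub_self]
    have hsT : s ∈ htors.toFinset := (Set.Finite.mem_toFinset htors).mpr hs2
    have hℓs : ¬ ℓ ∣ Ms s := fun h => hℓM (h.trans (Finset.dvd_prod_of_mem _ hsT))
    obtain ⟨hcls, hdisj, heps, hmov, hcw⟩ := hkey s hs2 hs0
    obtain ⟨hfix, hroot⟩ := hcw ℓ hℓ hℓs A hA σ hσ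
    obtain ⟨Dx, hDxdeg, hDxcls, hDxstab, hDxoff⟩ := hmov (2 • y) hy
    obtain ⟨Dy, hDydeg, hDycls, hDyoff⟩ := hOFF Qb (FNb N) x0 hx0 y (Y s).D.support
    -- the function `h` with divisor `2 D_y - D_x`
    have h2deg : Divisor.degree (2 • Dy) = 0 := by rw [map_nsmul, hDydeg, smul_zero]
    have hc : cls (2 • Dy) = cls Dx := by rw [cls_nsmul hDydeg, hDycls, hDxcls]
    obtain ⟨h, hh0, hh⟩ := sub_mem_principal_of_cls_eq h2deg hDxdeg hc
    obtain ⟨Z, b, hZD, hZdisj, hb0, hb2, hZe⟩ := hKUM Qb (FNb N) x0 hx0 (gal N σ) (Y s) Dx Dy h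
      hfix (hDxstab σ) hh0
      (fun v => by
        rw [← hh v]
        simp [two_nsmul, two_mul])
      hDydeg
      (fun v hv => ⟨hDxoff v hv, hDyoff v (Finsupp.mem_support_iff.mpr hv)⟩)
    have hσb : σ b = b := hroot Dx (hDxstab σ) hDxoff b hb2
    have hZ1 : eps Z (Y s) = 1 := by
      have h1 : eps Z (Y s) * b = b := by
        rw [hZe]
        exact hσb
      have h2 : (eps Z (Y s) - 1) * b = 0 := by rw [sub_mul, h1, one_mul, sub_self]
      rcases mul_eq_zero.mp h2 with h3 | h3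
      · exact sub_eq_zero.mp h3
      · exact absurd h3 hb0
    have hZcls : cls Z.D = cls (Y0 s).D := by
      rw [hZD, hcls,
        cls_sub (by rw [SemilinearAut.degree_smul, hDydeg]) hDydeg,
        ← galois_smul_cls N σ hDydeg, hDycls]
    have hZ2 : eps Z (Y s) = -1 := by
      rw [hINV Qb (FNb N) x0 hx0 Z (Y0 s) (Y s) hZdisj hdisj hZcls]
      exact heps
    rw [hZ1] at hZ2
    have h3 : (2 : Qb) = 0 := by linear_combination hZ2
    exact two_ne_zero h3

end Assembly

end

end Fermat.Agent.S17.helper7506
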