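import Fermat.Agent.S17.helper9033_ZL
import Fermat.Agent.S27.helper4586_Ev

/-!
# S17-G2-UB, (IND) in evaluation form (helper9033)

Evaluation forms of `(IND)` with the S27 evaluation `helper6247.ev`, on top of
`helper9033_ZL.exists_separating_pt`.  Hypothesis-passing: Riemann's equality `hR` from `c₀` on,
places of degree one, and `HasValues` (every regular function has a value) at the points.

* `exists_lagrange`           : Lagrange family `f i ∈ L(n P₀)` with value `δ i j` at `P j`.
* `eq_zero_of_forall_sum_ev`  : the evaluation functionals `ev (P i)` on `L(n P₀)` are linearly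
                                independent.
* `exists_ev_eq`              : `f ↦ (ev (P i) f)_i` maps `L(n P₀)` onto `K^k`.
-/

set_option autoImplicit false

open AlgebraicCurve

namespace Fermat.Agent.S17.helper9033

open Fermat.Agent.S17.helper2853 Fermat.Agent.S27.helper6247 Fermat.Agent.S27.helper4586

section

variable {K : Type*} {F : Type*} [Field K] [Field F] [Algebra K F]

/-- **(IND), Lagrange form.** For `k` distinct places `P i ≠ P₀` and `n ≥ k + c₀` there are
functions `f i ∈ L(n P₀)` taking the value `1` at `P i` and `0` at `P j`, `j ≠ i`. -/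
theorem exists_lagrange {c₀ g : ℤ}
    (hR : ∀ X : Divisor K F, c₀ ≤ Divisor.degree X →
      (Module.finrank K (riemannRochSpace X) : ℤ) = Divisor.degree X + 1 - g)
    (hdeg : ∀ v : Place K F, v.deg = 1)
    (P₀ : Place K F) (n : ℕ) {k : ℕ} (P : Fin k → Place K F) (hP : Function.Injective P)
    (hval : ∀ i, HasValues (P i)) (hP₀ : ∀ i, P i ≠ P₀) (hn : (k : ℤ) + c₀ ≤ n) :
    ∃ f : Fin k → F, (∀ i, f i ∈ riemannRochSpace (ptDiv P₀ n)) ∧
      ∀ i j, IsVal (P j) (f i) (if i = j then 1 else 0) := by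
  classical
  let s : Finset (Place K F) := Finset.univ.image P
  have hcard : s.card = k := by
    rw [Finset.card_image_of_injective _ hP, Finset.card_univ, Fintype.card_fin]
  have hP₀s : P₀ ∉ s := by
    intro h
    obtain ⟨i, -, hi⟩ := Finset.mem_image.mp h
    exact hP₀ i hi
  have hmem : ∀ i, P i ∈ s := fun i => Finset.mem_image_of_mem P (Finset.mem_univ i)
  have hex : ∀ i, ∃ f : F, f ∈ riemannRochSpace (ptDiv P₀ n) ∧
      ∀ j, IsVal (P j) f (if i = j then 1 else 0) := by
    intro i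
    obtain ⟨f₀, hf₀, hf₀0, hordP, hordQ⟩ := exists_separating_pt hR hdeg P₀ n s hP₀s
      (by rw [hcard]; exact hn) (hmem i)
    have hne : ev (P i) f₀ ≠ 0 := (ev_ne_zero_iff (hval i) hordP.ge).mpr ⟨hf₀0, hordP⟩
    refine ⟨(ev (P i) f₀)⁻¹ • f₀, Submodule.smul_mem _ _ hf₀, fun j => ?_⟩
    by_cases hij : i = j
    · subst hij
      rw [if_pos rfl]
      have h1 := (isVal_ev (hval i) hordP.ge).smul (ev (P i) f₀)⁻¹
      rwa [inv_mul_cancel₀ hne] at h1
    · rw [if_neg hij]
      have hPne : P j ≠ P i := fun h => hij (hP h).symm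
      have h0 : IsVal (P j) f₀ 0 :=
        (isVal_zero_iff (P j) f₀).mpr (Or.inr (hordQ (P j) (hmem j) hPne))
      have h1 := h0.smul (ev (P i) f₀)⁻¹
      rwa [mul_zero] at h1
  choose f hf hfv using hex
  exact ⟨f, hf, hfv⟩

/-- **(IND), functional form.** The evaluations at `k` distinct places `≠ P₀` are linearly
independent functionals on `L(n P₀)` for `n ≥ k + c₀`. -/
theorem eq_zero_of_forall_sum_ev {c₀ g : ℤ}
    (hR : ∀ X : Divisor K F, c₀ ≤ Divisor.degree X →
      (Module.finrank K (riemannRochSpace X) : ℤ) = Divisor.degree X + 1 - g)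
    (hdeg : ∀ v : Place K F, v.deg = 1)
    (P₀ : Place K F) (n : ℕ) {k : ℕ} (P : Fin k → Place K F) (hP : Function.Injective P)
    (hval : ∀ i, HasValues (P i)) (hP₀ : ∀ i, P i ≠ P₀) (hn : (k : ℤ) + c₀ ≤ n)
    (c : Fin k → K)
    (hc : ∀ f ∈ riemannRochSpace (ptDiv P₀ n), ∑ i, c i * ev (P i) f = 0) : c = 0 := by
  classical
  obtain ⟨f, hf, hfv⟩ := exists_lagrange hR hdeg P₀ n P hP hval hP₀ hn
  funext j
  have h := hc (f j) (hf j)
  have h2 : ∀ i, ev (P i) (f j) = if j = i then 1 else 0 := fun i => (hfv j i).ev_eq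
  simp only [h2, mul_ite, mul_one, mul_zero, Finset.sum_ite_eq, Finset.mem_univ, if_true] at h
  exact h

/-- **(IND), surjectivity form.** Every vector of values at `k` distinct places `≠ P₀` is
attained by a function of `L(n P₀)`, `n ≥ k + c₀`. -/
theorem exists_ev_eq {c₀ g : ℤ}
    (hR : ∀ X : Divisor K F, c₀ ≤ Divisor.degree X →
      (Module.finrank K (riemannRochSpace X) : ℤ) = Divisor.degree X + 1 - g)
    (hdeg : ∀ v : Place K F, v.deg = 1)
    (P₀ : Place K F) (n : ℕ) {k : ℕ} (P : Fin k → Place K F) (hP : Function.Injective P)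
    (hval : ∀ i, HasValues (P i)) (hP₀ : ∀ i, P i ≠ P₀) (hn : (k : ℤ) + c₀ ≤ n)
    (y : Fin k → K) :
    ∃ f ∈ riemannRochSpace (ptDiv P₀ n), ∀ j, IsVal (P j) f (y j) ∧ ev (P j) f = y j := by
  classical
  obtain ⟨f, hf, hfv⟩ := exists_lagrange hR hdeg P₀ n P hP hval hP₀ hn
  refine ⟨∑ i, y i • f i, Submodule.sum_mem _ fun i _ => Submodule.smul_mem _ _ (hf i),
    fun j => ?_⟩
  have h1 : IsVal (P j) (∑ i, y i • f i) (∑ i, y i * (if i = j then 1 else 0)) :=
    IsVal.sum Finset.univ fun i _ => (hfv i j).smul (y i)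
  have h2 : ∑ i, y i * (if i = j then (1 : K) else 0) = y j := by
    simp
  rw [h2] at h1
  exact ⟨h1, h1.ev_eq⟩

end

end Fermat.Agent.S17.helper9033
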