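import Fermat.Agent.S17.helper9033_IndEv
import Fermat.Agent.S17.helper1935_RatDesc
import Fermat.Agent.S17.helper2139_UBSpec

/-!
# S17-G2-UB, item (d): `GrMul.Indep` for tuples of places (helper9033)

The carrier instance of the hypothesis `(IND)` of the abstract chart-free cube law
`helper2139.CubeAbsStmt`: for an injective tuple of places `Pl i ≠ P0` the evaluation vectors
`(ev (Pl i) (ratEmb (fr.b n a)))_a` of every sub-tuple of `k` places are linearly independent at
every level `n ≥ k + a₀`, as soon as `a₀ ≥ 0` and `a₀ ≥ c₀` (`c₀` = a threshold from which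
Riemann's theorem is an equality).

* `ord_nonneg_of_mem_ptDiv`   : functions of `L(n P₀)` are regular off `P₀`.
* `linearIndependent_evVec`   : general `K`, `F`; coordinates w.r.t. ANY spanning family `e` of
                                `L(n P₀)`.
* `indep_of_places`           : the `GrMul.Indep` shape, for any `G : GrMul` with `G.N = fr.n`
                                (the family is given up to the cast `Fin.cast`), hypothesis
                                `hspan` = the `ℚ`-form spans `L(n P0)`.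
* `indep_of_places_mk`        : the same for `G = ⟨fr.n, μ⟩` (no cast).
* `indep_of_specs`, `indep_of_specs_mk` : the same from `IsRatPlace`, `RatDescSpec` and the
                                standing hypothesis `[FiniteDimensional Qb⟮x⟯ (FB F₀)]`.
-/

set_option autoImplicit false

open AlgebraicCurve ModularCurve IntermediateField

namespace Fermat.Agent.S17.helper9033

open Fermat.Agent.S17.helper2853 Fermat.Agent.S27.helper6247 Fermat.Agent.S27.helper4586

section General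

variable {K : Type*} {F : Type*} [Field K] [Field F] [Algebra K F]

/-- Functions of `L(n P₀)` are regular at every place `Q ≠ P₀`. -/
theorem ord_nonneg_of_mem_ptDiv {P₀ Q : Place K F} (hQ : Q ≠ P₀) {n : ℕ} {f : F}
    (hf : f ∈ riemannRochSpace (ptDiv P₀ n)) : 0 ≤ Q.ord f := by
  classical
  rcases mem_riemannRochSpace_iff.mp hf Q with h | h
  · rw [h, Place.ord_zero]
  · have hv : ptDiv P₀ n Q = 0 := by
      rw [ptDiv, Finsupp.smul_apply, Finsupp.single_apply, if_neg (Ne.symm hQ), smul_zero]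
    rw [hv, neg_zero] at h
    exact h

/-- **(IND), coordinate form.** For `k` distinct places `P i ≠ P₀`, `n ≥ k + c₀` and any family
`e` of elements of `L(n P₀)` spanning it, the evaluation vectors `(ev (P i) (e a))_a` are linearly
independent. -/
theorem linearIndependent_evVec {c₀ g : ℤ}
    (hR : ∀ X : Divisor K F, c₀ ≤ Divisor.degree X →
      (Module.finrank K (riemannRochSpace X) : ℤ) = Divisor.degree X + 1 - g)
    (hdeg : ∀ v : Place K F, v.deg = 1)
    (P₀ : Place K F) (n : ℕ) {k : ℕ} (P : Fin k → Place K F) (hP : Function.Injective P)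
    (hval : ∀ i, HasValues (P i)) (hP₀ : ∀ i, P i ≠ P₀) (hn : (k : ℤ) + c₀ ≤ n)
    {ι : Type*} (e : ι → F) (he : ∀ a, e a ∈ riemannRochSpace (ptDiv P₀ n))
    (hspan : riemannRochSpace (ptDiv P₀ n) ≤ Submodule.span K (Set.range e)) :
    LinearIndependent K (fun i : Fin k => fun a : ι => ev (P i) (e a)) := by
  classical
  rw [Fintype.linearIndependent_iff]
  intro c hc
  have hc' : ∀ a, ∑ i, c i * ev (P i) (e a) = 0 := by
    intro a
    have h := congrFun hc a
    simpa [Finset.sum_apply, Pi.smul_apply, smul_eq_mul] using h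
  have key : ∀ f ∈ Submodule.span K (Set.range e),
      (∀ i, 0 ≤ (P i).ord f) ∧ ∑ i, c i * ev (P i) f = 0 := by
    intro f hf
    induction hf using Submodule.span_induction with
    | mem x hx =>
      obtain ⟨a, rfl⟩ := hx
      exact ⟨fun i => ord_nonneg_of_mem_ptDiv (hP₀ i) (he a), hc' a⟩
    | zero =>
      refine ⟨fun i => by rw [Place.ord_zero], ?_⟩
      simp [ev_zero]
    | add x y _ _ hx hy =>
      refine ⟨fun i => ((isVal_ev (hval i) (hx.1 i)).add (isVal_ev (hval i) (hy.1 i))).ord_nonneg,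
        ?_⟩
      have h1 : ∀ i, c i * ev (P i) (x + y) = c i * ev (P i) x + c i * ev (P i) y := fun i => by
        rw [ev_add (hval i) (hx.1 i) (hy.1 i), mul_add]
      simp_rw [h1]
      rw [Finset.sum_add_distrib, hx.2, hy.2, add_zero]
    | smul a x _ hx =>
      refine ⟨fun i => ((isVal_ev (hval i) (hx.1 i)).smul a).ord_nonneg, ?_⟩
      have h1 : ∀ i, c i * ev (P i) (a • x) = a * (c i * ev (P i) x) := fun i => by
        rw [ev_smul (hval i) a (hx.1 i)]
        ring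
      simp_rw [h1]
      rw [← Finset.mul_sum, hx.2, mul_zero]
  have h0 := eq_zero_of_forall_sum_ev hR hdeg P₀ n P hP hval hP₀ hn c
    (fun f hf => (key f (hspan hf)).2)
  intro i
  exact congrFun h0 i

end General

/-! ## The Spec carriers -/

section Spec

open Fermat.Agent.S17.helper3197 Fermat.Agent.S17.helper2139

variable {F₀ : IntermediateField ℚ (LaurentSeries ℚ)} {P0 : Place Qb (FB F₀)}

/-- `ratEmb` of a rational multiple. -/
theorem ratEmb_qsmul (q : ℚ) (x : F₀) : ratEmb F₀ (q • x) = (q : Qb) • ratEmb F₀ x := by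
  rw [Rat.smul_def, map_mul, map_ratCast, Algebra.smul_def, map_ratCast]

/-- The level divisor `n • pt P0`, `n ≥ 0`, in the `ptDiv` form. -/
theorem zsmul_pt_eq_ptDiv (P0 : Place Qb (FB F₀)) {n : ℤ} (hn : 0 ≤ n) :
    n • pt P0 = ptDiv P0 n.toNat := by
  obtain ⟨m, rfl⟩ := Int.eq_ofNat_of_zero_le hn
  rw [Int.toNat_natCast, natCast_zsmul]
  rfl

/-- The images of a frame basis lie in `L(n P0)`. -/
theorem ratEmb_frame_mem (fr : Frame F₀ P0) (n : ℤ) (a : Fin (fr.n n)) :
    ratEmb F₀ ((fr.b n a : ↥(Alev F₀ P0 n)) : F₀) ∈ riemannRochSpace (n • pt P0) :=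
  (fr.b n a).2

/-- The images of a frame basis span `L(n P0)` over `ℚ̄` as soon as the `ℚ`-form does. -/
theorem rr_le_span_frame (fr : Frame F₀ P0) (n : ℤ)
    (hspan : Submodule.span Qb (ratEmb F₀ '' (ratRR F₀ (n • pt P0) : Set F₀))
      = riemannRochSpace (n • pt P0)) :
    riemannRochSpace (n • pt P0) ≤ Submodule.span Qb
      (Set.range fun a : Fin (fr.n n) => ratEmb F₀ ((fr.b n a : ↥(Alev F₀ P0 n)) : F₀)) := by
  rw [← hspan]
  refine Submodule.span_le.mpr ?_
  rintro _ ⟨x, hx, rfl⟩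
  have h1 := (fr.b n).sum_repr (⟨x, hx⟩ : ↥(Alev F₀ P0 n))
  have h2 : x = ∑ a, (fr.b n).repr (⟨x, hx⟩ : ↥(Alev F₀ P0 n)) a •
      ((fr.b n a : ↥(Alev F₀ P0 n)) : F₀) := by
    have h3 : ((∑ a, (fr.b n).repr (⟨x, hx⟩ : ↥(Alev F₀ P0 n)) a • fr.b n a :
        ↥(Alev F₀ P0 n)) : F₀) = x := congrArg (Subtype.val : ↥(Alev F₀ P0 n) → F₀) h1
    refine h3.symm.trans ?_
    rw [Submodule.coe_sum]
    rfl
  show ratEmb F₀ x ∈ _
  rw [h2, map_sum]
  refine Submodule.sum_mem _ fun a _ => ?_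
  rw [ratEmb_qsmul]
  exact Submodule.smul_mem _ _ (Submodule.subset_span ⟨a, rfl⟩)

/-- **Item (d) of track (C)**: `GrMul.Indep` for an injective tuple of places off `P0`, for any
`G : GrMul` whose dimensions are those of the frame (family given up to `Fin.cast`). -/
theorem indep_of_places {c₀ g : ℤ}
    (hR : ∀ X : Divisor Qb (FB F₀), c₀ ≤ Divisor.degree X →
      (Module.finrank Qb (riemannRochSpace X) : ℤ) = Divisor.degree X + 1 - g)
    (hdeg : ∀ v : Place Qb (FB F₀), v.deg = 1)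
    (hval : ∀ v : Place Qb (FB F₀), HasValues v)
    (hspan : ∀ n : ℤ, Submodule.span Qb (ratEmb F₀ '' (ratRR F₀ (n • pt P0) : Set F₀))
      = riemannRochSpace (n • pt P0))
    (fr : Frame F₀ P0) {a₀ : ℤ} (ha₀ : 0 ≤ a₀) (hca : c₀ ≤ a₀)
    (G : GrMul) (hN : G.N = fr.n) {K : ℕ} (Pl : Fin K → Place Qb (FB F₀))
    (hinj : Function.Injective Pl) (hoff : ∀ i, Pl i ≠ P0) (P : Fin K → G.Fam Qb)
    (hP : ∀ i n a, P i n a = ev (Pl i)
      (ratEmb F₀ ((fr.b n (Fin.cast (congrFun hN n) a) : ↥(Alev F₀ P0 n)) : F₀))) :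
    G.Indep a₀ P := by
  obtain ⟨N, μ⟩ := G
  simp only at hN
  subst hN
  intro k f hf n hn
  have hn0 : 0 ≤ n := by
    have : (0 : ℤ) ≤ k := Int.natCast_nonneg k
    linarith
  have hD := zsmul_pt_eq_ptDiv P0 hn0
  have hnn : ((n.toNat : ℕ) : ℤ) = n := Int.toNat_of_nonneg hn0
  have hli := linearIndependent_evVec hR hdeg P0 n.toNat (fun i => Pl (f i))
    (hinj.comp hf.injective) (fun i => hval _) (fun i => hoff _)
    (by rw [hnn]; linarith)
    (fun a : Fin (fr.n n) => ratEmb F₀ ((fr.b n a : ↥(Alev F₀ P0 n)) : F₀))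
    (fun a => by rw [← hD]; exact ratEmb_frame_mem fr n a)
    (by rw [← hD]; exact rr_le_span_frame fr n (hspan n))
  have heq : (fun i : Fin k => P (f i) n) = fun i : Fin k => fun a : Fin (fr.n n) =>
      ev (Pl (f i)) (ratEmb F₀ ((fr.b n a : ↥(Alev F₀ P0 n)) : F₀)) := by
    funext i a
    exact hP (f i) n a
  rw [heq]
  exact hli

/-- Item (d) for `G = ⟨fr.n, μ⟩` (no cast in the family). -/
theorem indep_of_places_mk {c₀ g : ℤ}
    (hR : ∀ X : Divisor Qb (FB F₀), c₀ ≤ Divisor.degree X →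
      (Module.finrank Qb (riemannRochSpace X) : ℤ) = Divisor.degree X + 1 - g)
    (hdeg : ∀ v : Place Qb (FB F₀), v.deg = 1)
    (hval : ∀ v : Place Qb (FB F₀), HasValues v)
    (hspan : ∀ n : ℤ, Submodule.span Qb (ratEmb F₀ '' (ratRR F₀ (n • pt P0) : Set F₀))
      = riemannRochSpace (n • pt P0))
    (fr : Frame F₀ P0) {a₀ : ℤ} (ha₀ : 0 ≤ a₀) (hca : c₀ ≤ a₀)
    (μ : (n n' : ℤ) → Fin (fr.n n) → Fin (fr.n n') → Fin (fr.n (n + n')) → ℚ)
    {K : ℕ} (Pl : Fin K → Place Qb (FB F₀))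
    (hinj : Function.Injective Pl) (hoff : ∀ i, Pl i ≠ P0) :
    GrMul.Indep (G := ⟨fr.n, μ⟩) a₀ (fun (i : Fin K) (n : ℤ) (a : Fin (fr.n n)) =>
      ev (Pl i) (ratEmb F₀ ((fr.b n a : ↥(Alev F₀ P0 n)) : F₀))) :=
  indep_of_places hR hdeg hval hspan fr ha₀ hca ⟨fr.n, μ⟩ rfl Pl hinj hoff _
    (fun _ _ _ => rfl)

/-- Item (d) from the Spec leaves: `IsRatPlace`, `RatDescSpec` and the standing finiteness
hypothesis (which gives values at all places). -/
theorem indep_of_specs {c₀ g : ℤ}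
    (hR : ∀ X : Divisor Qb (FB F₀), c₀ ≤ Divisor.degree X →
      (Module.finrank Qb (riemannRochSpace X) : ℤ) = Divisor.degree X + 1 - g)
    (hdeg : ∀ v : Place Qb (FB F₀), v.deg = 1)
    (x : FB F₀) [FiniteDimensional Qb⟮x⟯ (FB F₀)]
    (hP0 : IsRatPlace F₀ P0) (hQ : RatDescSpec F₀)
    (fr : Frame F₀ P0) {a₀ : ℤ} (ha₀ : 0 ≤ a₀) (hca : c₀ ≤ a₀)
    (G : GrMul) (hN : G.N = fr.n) {K : ℕ} (Pl : Fin K → Place Qb (FB F₀))
    (hinj : Function.Injective Pl) (hoff : ∀ i, Pl i ≠ P0) (P : Fin K → G.Fam Qb)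
    (hP : ∀ i n a, P i n a = ev (Pl i)
      (ratEmb F₀ ((fr.b n (Fin.cast (congrFun hN n) a) : ↥(Alev F₀ P0 n)) : F₀))) :
    G.Indep a₀ P :=
  indep_of_places hR hdeg (fun v => hasValues_of_finite x v)
    (fun n => (hQ _ (Fermat.Agent.S17.helper1935.isRat_level hP0 n)).2.2)
    fr ha₀ hca G hN Pl hinj hoff P hP

/-- Item (d) from the Spec leaves, for `G = ⟨fr.n, μ⟩` (no cast in the family). -/
theorem indep_of_specs_mk {c₀ g : ℤ}
    (hR : ∀ X : Divisor Qb (FB F₀), c₀ ≤ Divisor.degree X →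
      (Module.finrank Qb (riemannRochSpace X) : ℤ) = Divisor.degree X + 1 - g)
    (hdeg : ∀ v : Place Qb (FB F₀), v.deg = 1)
    (x : FB F₀) [FiniteDimensional Qb⟮x⟯ (FB F₀)]
    (hP0 : IsRatPlace F₀ P0) (hQ : RatDescSpec F₀)
    (fr : Frame F₀ P0) {a₀ : ℤ} (ha₀ : 0 ≤ a₀) (hca : c₀ ≤ a₀)
    (μ : (n n' : ℤ) → Fin (fr.n n) → Fin (fr.n n') → Fin (fr.n (n + n')) → ℚ)
    {K : ℕ} (Pl : Fin K → Place Qb (FB F₀))
    (hinj : Function.Injective Pl) (hoff : ∀ i, Pl i ≠ P0) :
    GrMul.Indep (G := ⟨fr.n, μ⟩) a₀ (fun (i : Fin K) (n : ℤ) (a : Fin (fr.n n)) =>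
      ev (Pl i) (ratEmb F₀ ((fr.b n a : ↥(Alev F₀ P0 n)) : F₀))) :=
  indep_of_specs hR hdeg x hP0 hQ fr ha₀ hca ⟨fr.n, μ⟩ rfl Pl hinj hoff _ (fun _ _ _ => rfl)

end Spec

end Fermat.Agent.S17.helper9033
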