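import Fermat.Agent.S17.helper9033_UBIndep
import Fermat.Agent.S17.helper2744_UBCarrier
import Fermat.Agent.S24.helper204_Places

/-!
# S17-G2-UB, item (d) on the carrier of `helper2744_UBCarrier` (helper9033)

The hypothesis `hInd` of the final wiring of track (C) (`helper2744`, chat #341), verbatim:

`∃ a₁ : ℤ, ∀ (fr : Frame F₀ P0) (K : ℕ) (Pl : Fin K → Place Qb (FB F₀)), Function.Injective Pl →
  (∀ i, Pl i ≠ P0) → (grMul fr).Indep a₁ (fun i => fam fr (Pl i))`

* `indep_fam`        : `(grMul fr).Indep a₀ (fun i => fam fr (Pl i))` for every `a₀ ≥ 0`, `a₀ ≥ c₀`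
                       (`c₀` a threshold of Riemann's equality).
* `indep_mono`       : `GrMul.Indep` is monotone in the threshold.
* `hInd_of_hdeg`     : the `hInd` shape from `RiemannSpec`, `RatDescSpec`, `IsRatPlace`, places of
                       degree one.
* `hInd_of_specs`    : the same from the standing hypotheses (`x` transcendental, `F` finite over
                       `ℚ̄(x)`) — no degree hypothesis.
* `hInd_nonneg_of_specs` : the same with `0 ≤ a₁` and all thresholds `a₀ ≥ a₁` at once.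
-/

set_option autoImplicit false

open AlgebraicCurve ModularCurve IntermediateField

namespace Fermat.Agent.S17.helper9033

open Fermat.Agent.S17.helper3197 Fermat.Agent.S17.helper2139 Fermat.Agent.S27.helper6247
  Fermat.Agent.S27.helper4586

variable {F₀ : IntermediateField ℚ (LaurentSeries ℚ)} {P0 : Place Qb (FB F₀)}

/-- `GrMul.Indep` is monotone in the threshold. -/
theorem indep_mono {G : GrMul} {Ω : Type*} [Field Ω] {a₁ a₀ : ℤ} (h : a₁ ≤ a₀) {K : ℕ}
    {P : Fin K → G.Fam Ω} (hP : G.Indep a₁ P) : G.Indep a₀ P :=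
  fun k f hf n hn => hP k f hf n (by linarith)

/-- Item (d) on the carrier of `helper2744`: the evaluation families of an injective tuple of
places off `P0` satisfy `Indep a₀` for every `a₀ ≥ max c₀ 0`. -/
theorem indep_fam {c₀ g : ℤ}
    (hR : ∀ X : Divisor Qb (FB F₀), c₀ ≤ Divisor.degree X →
      (Module.finrank Qb (riemannRochSpace X) : ℤ) = Divisor.degree X + 1 - g)
    (hdeg : ∀ v : Place Qb (FB F₀), v.deg = 1)
    (x : FB F₀) [FiniteDimensional Qb⟮x⟯ (FB F₀)]
    (hP0 : IsRatPlace F₀ P0) (hQ : RatDescSpec F₀)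
    (fr : Frame F₀ P0) {a₀ : ℤ} (ha₀ : 0 ≤ a₀) (hca : c₀ ≤ a₀)
    {K : ℕ} (Pl : Fin K → Place Qb (FB F₀))
    (hinj : Function.Injective Pl) (hoff : ∀ i, Pl i ≠ P0) :
    (Fermat.Agent.S17.helper2744.grMul fr).Indep a₀
      (fun i => Fermat.Agent.S17.helper2744.fam fr (Pl i)) :=
  indep_of_specs_mk hR hdeg x hP0 hQ fr ha₀ hca (Fermat.Agent.S17.helper2744.grMul fr).μ Pl
    hinj hoff

/-- The hypothesis `hInd` of the final wiring of track (C), with `0 ≤ a₁` and all larger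
thresholds, from the Spec leaves and places of degree one. -/
theorem hInd_nonneg_of_hdeg (hdeg : ∀ v : Place Qb (FB F₀), v.deg = 1)
    (x : FB F₀) [FiniteDimensional Qb⟮x⟯ (FB F₀)]
    (hP0 : IsRatPlace F₀ P0) (hR : RiemannSpec F₀) (hQ : RatDescSpec F₀) :
    ∃ a₁ : ℤ, 0 ≤ a₁ ∧ ∀ a₀ : ℤ, a₁ ≤ a₀ → ∀ (fr : Frame F₀ P0) (K : ℕ)
      (Pl : Fin K → Place Qb (FB F₀)), Function.Injective Pl → (∀ i, Pl i ≠ P0) →
      (Fermat.Agent.S17.helper2744.grMul fr).Indep a₀
        (fun i => Fermat.Agent.S17.helper2744.fam fr (Pl i)) := by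
  obtain ⟨c₁, hc₁⟩ := hR.2
  refine ⟨max c₁ 0, le_max_right _ _, fun a₀ ha fr K Pl hinj hoff => ?_⟩
  exact indep_fam hc₁ hdeg x hP0 hQ fr ((le_max_right _ _).trans ha)
    ((le_max_left _ _).trans ha) Pl hinj hoff

/-- The hypothesis `hInd` of the final wiring of track (C) (shape of chat #341, verbatim), from
the Spec leaves and places of degree one. -/
theorem hInd_of_hdeg (hdeg : ∀ v : Place Qb (FB F₀), v.deg = 1)
    (x : FB F₀) [FiniteDimensional Qb⟮x⟯ (FB F₀)]
    (hP0 : IsRatPlace F₀ P0) (hR : RiemannSpec F₀) (hQ : RatDescSpec F₀) :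
    ∃ a₁ : ℤ, ∀ (fr : Frame F₀ P0) (K : ℕ) (Pl : Fin K → Place Qb (FB F₀)),
      Function.Injective Pl → (∀ i, Pl i ≠ P0) →
      (Fermat.Agent.S17.helper2744.grMul fr).Indep a₁
        (fun i => Fermat.Agent.S17.helper2744.fam fr (Pl i)) := by
  obtain ⟨a₁, -, h⟩ := hInd_nonneg_of_hdeg hdeg x hP0 hR hQ
  exact ⟨a₁, h a₁ le_rfl⟩

/-- `hInd` with `0 ≤ a₁` and all larger thresholds, from the standing hypotheses. -/
theorem hInd_nonneg_of_specs (x : FB F₀) (hx : Transcendental Qb x)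
    [FiniteDimensional Qb⟮x⟯ (FB F₀)]
    (hP0 : IsRatPlace F₀ P0) (hR : RiemannSpec F₀) (hQ : RatDescSpec F₀) :
    ∃ a₁ : ℤ, 0 ≤ a₁ ∧ ∀ a₀ : ℤ, a₁ ≤ a₀ → ∀ (fr : Frame F₀ P0) (K : ℕ)
      (Pl : Fin K → Place Qb (FB F₀)), Function.Injective Pl → (∀ i, Pl i ≠ P0) →
      (Fermat.Agent.S17.helper2744.grMul fr).Indep a₀
        (fun i => Fermat.Agent.S17.helper2744.fam fr (Pl i)) :=
  hInd_nonneg_of_hdeg (fun v => Fermat.Agent.S24.helper204.place_deg_eq_one x hx v) x hP0 hR hQ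

/-- **The hypothesis `hInd` of `helper2744`'s final wiring, verbatim**, from the standing
hypotheses of the Spec. -/
theorem hInd_of_specs (x : FB F₀) (hx : Transcendental Qb x)
    [FiniteDimensional Qb⟮x⟯ (FB F₀)]
    (hP0 : IsRatPlace F₀ P0) (hR : RiemannSpec F₀) (hQ : RatDescSpec F₀) :
    ∃ a₁ : ℤ, ∀ (fr : Frame F₀ P0) (K : ℕ) (Pl : Fin K → Place Qb (FB F₀)),
      Function.Injective Pl → (∀ i, Pl i ≠ P0) →
      (Fermat.Agent.S17.helper2744.grMul fr).Indep a₁
        (fun i => Fermat.Agent.S17.helper2744.fam fr (Pl i)) :=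
  hInd_of_hdeg (fun v => Fermat.Agent.S24.helper204.place_deg_eq_one x hx v) x hP0 hR hQ

end Fermat.Agent.S17.helper9033
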