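import Fermat.Agent.S17.helper2853_Pencil

/-!
# S17-G2-UB, geometric input (helper9033): `(ZL)` and `(IND)`

Partner leaf of helper2139's chart-free cube bound.  Prelude vocabulary (`Place`, `Divisor`,
`riemannRochSpace`), on top of `helper2853_Pencil`, hypothesis-passing on Riemann's theorem in
the weak form `ℓ(X) = deg X + 1 - g` for `deg X ≥ c₀`.

* `exists_base_divisor`   : a subspace `V ≤ L(X)` of codimension `d` (with `deg X ≥ d + c₀ + 1`)
                            lies in some `L(X - B)` with `deg B = j ≤ d` and has no base point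
                            relative to `X - B`.
* `exists_isPencil_in`    : a subspace `V ≤ L(E)` without base points relative to `E` contains a
                            base-point-free pencil `s, t` of `L(E)`, with `s` outside any
                            prescribed subspace not containing `V`.
* `zl`                    : **(ZL)** for `V ≤ L(X)` of codimension `d`, `V' ≤ L(X')` of
                            codimension `d' ≤ 1`, `deg X ≥ d + c₀ + 1`, `deg X' ≥ 2 deg X + c₀`:
                            the product `V * V'` has codimension `≤ d + d'` in `L(X + X')`.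
* `zl_pt`                 : the same for `X = n P₀`, `X' = n' P₀`.
* `finrank_sub_sum_single`, `exists_separating`, `exists_separating_pt` : **(IND)**
                            evaluations at finitely many distinct places are independent on
                            `L(X)` for `deg X ≥ k + c₀`.
-/

set_option autoImplicit false

open AlgebraicCurve

namespace Fermat.Agent.S17.helper9033

open Fermat.Agent.S17.helper2853

noncomputable section

variable {K : Type*} {F : Type*} [Field K] [Field F] [Algebra K F]

/-! ## The base divisor of a subspace -/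

/-- **Base divisor.** A subspace `V ≤ L(X)` of codimension `d`, `deg X ≥ d + c₀ + 1`, lies in
`L(X - B)` for a divisor `B` of degree `j ≤ d` such that `V` has no base point relative to
`X - B`. -/
theorem exists_base_divisor {c₀ g : ℤ}
    (hfin : ∀ X : Divisor K F, Module.Finite K (riemannRochSpace X))
    (hR : ∀ X : Divisor K F, c₀ ≤ Divisor.degree X →
      (Module.finrank K (riemannRochSpace X) : ℤ) = Divisor.degree X + 1 - g)
    (hdeg : ∀ v : Place K F, v.deg = 1)
    {X : Divisor K F} {d : ℕ} (V : Submodule K F) (hV : V ≤ riemannRochSpace X)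
    (hd : Module.finrank K V + d = Module.finrank K (riemannRochSpace X))
    (hX : (d : ℤ) + c₀ + 1 ≤ Divisor.degree X) :
    ∃ (B : Divisor K F) (j : ℕ), j ≤ d ∧ Divisor.degree B = j ∧
      V ≤ riemannRochSpace (X - B) ∧
      ∀ v : Place K F, ¬ V ≤ riemannRochSpace (X - B - Finsupp.single v 1) := by
  classical
  let P : ℕ → Prop := fun i =>
    ∃ B : Divisor K F, Divisor.degree B = i ∧ V ≤ riemannRochSpace (X - B)
  have hP0 : P 0 := ⟨0, by simp, by simpa using hV⟩
  have hPd : ¬ P (d + 1) := by
    rintro ⟨B, hB, hVB⟩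
    have hdegXB : Divisor.degree (X - B) = Divisor.degree X - (d + 1) := by
      rw [map_sub, hB]
      push_cast
      ring
    have h1 := hR (X - B) (by rw [hdegXB]; linarith)
    have h2 := hR X (by linarith)
    have := hfin (X - B)
    have h3 : Module.finrank K V ≤ Module.finrank K (riemannRochSpace (X - B)) :=
      Submodule.finrank_mono hVB
    have hd' : (Module.finrank K V : ℤ) + d = Module.finrank K (riemannRochSpace X) := by
      exact_mod_cast hd
    have h3' : (Module.finrank K V : ℤ) ≤ Module.finrank K (riemannRochSpace (X - B)) := by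
      exact_mod_cast h3
    linarith
  have hex : ∃ j, ¬ P (j + 1) := ⟨d, hPd⟩
  have hj : ¬ P (Nat.find hex + 1) := Nat.find_spec hex
  have hjd : Nat.find hex ≤ d := Nat.find_min' hex hPd
  have hPj : P (Nat.find hex) := by
    rcases Nat.eq_zero_or_pos (Nat.find hex) with h0 | hpos
    · rw [h0]
      exact hP0
    · have hmin := Nat.find_min hex (m := Nat.find hex - 1) (by omega)
      rw [not_not] at hmin
      have e : Nat.find hex - 1 + 1 = Nat.find hex := by omega
      rwa [e] at hmin
  obtain ⟨B, hB, hVB⟩ := hPj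
  refine ⟨B, Nat.find hex, hjd, hB, hVB, fun v hv => hj ⟨B + Finsupp.single v 1, ?_, ?_⟩⟩
  · rw [map_add, hB, Divisor.degree_single, hdeg v]
    push_cast
    ring
  · have e : X - (B + Finsupp.single v 1) = X - B - Finsupp.single v 1 := by abel
    rw [e]
    exact hv

/-! ## Pencils inside a subspace -/

/-- A subspace `V ≤ L(E)` without base points relative to `E` contains a base-point-free pencil
`s, t` of `L(E)`; moreover `s` can be chosen outside any subspace `W₀` not containing `V`. -/
theorem exists_isPencil_in [Infinite K]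
    (hzp : ∀ f : F, f ≠ 0 → {v : Place K F | v.ord f ≠ 0}.Finite)
    {E : Divisor K F} (V : Submodule K F) (hV : V ≤ riemannRochSpace E)
    (hbpf : ∀ v : Place K F, ¬ V ≤ riemannRochSpace (E - Finsupp.single v 1))
    (W₀ : Submodule K F) (hW₀ : ¬ V ≤ W₀) (v₀ : Place K F) :
    ∃ s ∈ V, ∃ t ∈ V, s ∉ W₀ ∧ IsPencil E s t := by
  classical
  have hs : ∃ s : V, (s : F) ∉ W₀ ∧
      (s : F) ∉ riemannRochSpace (E - Finsupp.single v₀ 1) := by
    by_contra hcon
    push Not at hcon
    let p : Bool → Submodule K V := fun b =>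
      if b then W₀.comap V.subtype
      else (riemannRochSpace (E - Finsupp.single v₀ 1)).comap V.subtype
    have hcov : ⋃ b : Bool, (p b : Set V) = Set.univ := by
      rw [Set.eq_univ_iff_forall]
      intro s
      by_cases h : (s : F) ∈ W₀
      · exact Set.mem_iUnion.mpr ⟨true, h⟩
      · exact Set.mem_iUnion.mpr ⟨false, hcon s h⟩
    obtain ⟨b, hb⟩ := Subspace.exists_eq_top_of_iUnion_eq_univ hcov
    cases b with
    | true =>
      apply hW₀
      intro f hf
      have hmem : (⟨f, hf⟩ : V) ∈ p true := by
        rw [hb]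
        exact Submodule.mem_top
      exact hmem
    | false =>
      apply hbpf v₀
      intro f hf
      have hmem : (⟨f, hf⟩ : V) ∈ p false := by
        rw [hb]
        exact Submodule.mem_top
      exact hmem
  obtain ⟨s, hsW, hs'⟩ := hs
  obtain ⟨hs0, -⟩ := ord_eq_of_not_mem (hV s.2) hs'
  have hZ : {v : Place K F | v.ord (s : F) ≠ -E v}.Finite := by
    refine ((hzp s hs0).union E.support.finite_toSet).subset ?_
    intro v hv
    by_contra hcon
    rw [Set.mem_union, not_or] at hcon
    obtain ⟨h1, h2⟩ := hcon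
    have h1' : v.ord (s : F) = 0 := by
      by_contra h
      exact h1 h
    have h2' : E v = 0 := by
      by_contra h
      exact h2 (Finset.mem_coe.mpr (Finsupp.mem_support_iff.mpr h))
    apply hv
    rw [h1', h2', neg_zero]
  let Z : Finset (Place K F) := insert v₀ hZ.toFinset
  let p : Z → Submodule K V := fun v =>
    (riemannRochSpace (E - Finsupp.single (v : Place K F) 1)).comap V.subtype
  have hex : ∃ t : V, ∀ v : Z, t ∉ p v := by
    by_contra hcon
    push Not at hcon
    have hcov : ⋃ v : Z, (p v : Set V) = Set.univ := by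
      rw [Set.eq_univ_iff_forall]
      intro t
      obtain ⟨v, hv⟩ := hcon t
      exact Set.mem_iUnion.mpr ⟨v, hv⟩
    obtain ⟨v, hv⟩ := Subspace.exists_eq_top_of_iUnion_eq_univ hcov
    apply hbpf (v : Place K F)
    intro f hf
    have hmem : (⟨f, hf⟩ : V) ∈ p v := by
      rw [hv]
      exact Submodule.mem_top
    exact hmem
  obtain ⟨t, ht⟩ := hex
  have ht' : ∀ v ∈ Z, (t : F) ∉ riemannRochSpace (E - Finsupp.single v 1) := by
    intro v hv hmem
    exact ht ⟨v, hv⟩ hmem
  have ht0 : (t : F) ≠ 0 :=
    (ord_eq_of_not_mem (hV t.2) (ht' v₀ (Finset.mem_insert_self _ _))).1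
  refine ⟨s, s.2, t, t.2, hsW, hV s.2, hV t.2, hs0, ht0, fun v => ?_⟩
  by_cases hv : v.ord (s : F) = -E v
  · exact Or.inl hv
  · right
    have hvZ : v ∈ Z := Finset.mem_insert_of_mem (hZ.mem_toFinset.mpr hv)
    exact (ord_eq_of_not_mem (hV t.2) (ht' v hvZ)).2

/-! ## Linear algebra helpers -/

/-- A hyperplane `U` of `L` together with any vector of `L` outside `U` spans `L`. -/
theorem sup_span_eq_of_finrank {U L : Submodule K F} [Module.Finite K L] (hUL : U ≤ L)
    (h1 : Module.finrank K U + 1 = Module.finrank K L) {w : F} (hwL : w ∈ L) (hwU : w ∉ U) :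
    U ⊔ K ∙ w = L := by
  have hle : U ⊔ K ∙ w ≤ L :=
    sup_le hUL ((Submodule.span_singleton_le_iff_mem w L).mpr hwL)
  have hlt : U < U ⊔ K ∙ w := by
    refine lt_of_le_of_ne le_sup_left fun h => hwU ?_
    rw [h]
    exact Submodule.mem_sup_right (Submodule.mem_span_singleton_self w)
  have : Module.Finite K ↥(U ⊔ K ∙ w) := Submodule.finiteDimensional_of_le hle
  have h2 := Submodule.finrank_lt_finrank_of_lt hlt
  exact Submodule.eq_of_le_of_finrank_le hle (by omega)

theorem finrank_span_singleton_le_one (x : F) : Module.finrank K ↥(K ∙ x) ≤ 1 := by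
  by_cases hx : x = 0
  · rw [hx, Submodule.span_zero_singleton, finrank_bot]
    exact Nat.zero_le 1
  · rw [finrank_span_singleton hx]

/-- Adding one vector raises the dimension by at most one. -/
theorem finrank_sup_span_singleton_le (U : Submodule K F) [Module.Finite K U] (x : F) :
    Module.finrank K ↥(U ⊔ K ∙ x) ≤ Module.finrank K U + 1 :=
  (Submodule.finrank_add_le_finrank_add_finrank U (K ∙ x)).trans
    (Nat.add_le_add_left (finrank_span_singleton_le_one x) _)

/-! ## (ZL) -/

/-- **(ZL).** Let `V ≤ L(X)` have codimension `d` and `V' ≤ L(X')` codimension `d' ≤ 1`, with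
`deg X ≥ d + c₀ + 1` and `deg X' ≥ 2 deg X + c₀`.  Then the product `V * V'` (span of the
products) has codimension at most `d + d'` in `L(X + X')`. -/
theorem zl [Infinite K] {c₀ g : ℤ} (hc0 : 0 ≤ c₀)
    (hfin : ∀ X : Divisor K F, Module.Finite K (riemannRochSpace X))
    (hR : ∀ X : Divisor K F, c₀ ≤ Divisor.degree X →
      (Module.finrank K (riemannRochSpace X) : ℤ) = Divisor.degree X + 1 - g)
    (hdeg : ∀ v : Place K F, v.deg = 1)
    (hzp : ∀ f : F, f ≠ 0 → {v : Place K F | v.ord f ≠ 0}.Finite)
    {X X' : Divisor K F} {d d' : ℕ} (V V' : Submodule K F)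
    (hV : V ≤ riemannRochSpace X) (hV' : V' ≤ riemannRochSpace X')
    (hd : Module.finrank K V + d = Module.finrank K (riemannRochSpace X))
    (hd' : Module.finrank K V' + d' = Module.finrank K (riemannRochSpace X'))
    (hd1 : d' ≤ 1)
    (hX : (d : ℤ) + c₀ + 1 ≤ Divisor.degree X)
    (hX' : 2 * Divisor.degree X + c₀ ≤ Divisor.degree X') :
    Module.finrank K (riemannRochSpace (X + X')) ≤ Module.finrank K ↥(V * V') + d + d' := by
  classical
  have hd0 : (0 : ℤ) ≤ d := Nat.cast_nonneg d
  -- a place exists
  have hne : Nonempty (Place K F) := by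
    by_contra h
    rw [not_nonempty_iff] at h
    have hX0 : X = 0 := Finsupp.ext fun v => (h.false v).elim
    rw [hX0, map_zero] at hX
    linarith
  obtain ⟨v₀⟩ := hne
  obtain ⟨B, j, hjd, hB, hVB, hbpf⟩ := exists_base_divisor hfin hR hdeg V hV hd hX
  have hjd' : (j : ℤ) ≤ d := by exact_mod_cast hjd
  have hj0 : (0 : ℤ) ≤ j := Nat.cast_nonneg j
  have hdegE : Divisor.degree (X - B) = Divisor.degree X - j := by rw [map_sub, hB]
  have hdegE1 : c₀ + 1 ≤ Divisor.degree (X - B) := by rw [hdegE]; linarith
  have hdegE0 : 0 ≤ Divisor.degree (X - B) := by linarith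
  -- finiteness
  have hfinXX := hfin (X + X')
  have hfinX' := hfin X'
  have hmul_le : V * V' ≤ riemannRochSpace (X + X') := by
    rw [Submodule.mul_le]
    intro a ha b hb
    exact mul_mem_rr (hV ha) (hV' hb)
  have hfinVV : Module.Finite K ↥(V * V') := Submodule.finiteDimensional_of_le hmul_le
  -- dimensions
  have hRX := hR X (by linarith)
  have hRsum := hR (X + X') (by rw [map_add]; linarith)
  have hRE := hR (X - B) (by linarith)
  have hdegXE : Divisor.degree (X' + (X - B)) = Divisor.degree X' + Divisor.degree X - j := by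
    rw [map_add, hdegE]
    ring
  have hRXE := hR (X' + (X - B)) (by rw [hdegXE]; linarith)
  have hdegXmE : Divisor.degree (X' - (X - B)) = Divisor.degree X' - (Divisor.degree X - j) := by
    rw [map_sub, hdegE]
  have hsub : c₀ ≤ Divisor.degree (X' - (X - B)) := by
    rw [hdegXmE]
    linarith
  have hdZ : (Module.finrank K V : ℤ) + d = Module.finrank K (riemannRochSpace X) := by
    exact_mod_cast hd
  -- the pencil identity
  have key : ∀ s t : F, IsPencil (X - B) s t →
      mulImage X' s ⊔ mulImage X' t = riemannRochSpace (X' + (X - B)) := fun s t h =>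
    h.sup_eq hfin hR hdegE0 hsub
  have hcomm : ∀ s : F, s ∈ V → V'.map (LinearMap.mulRight K s) ≤ V * V' := by
    intro s hs x hx
    obtain ⟨a, ha, rfl⟩ := Submodule.mem_map.mp hx
    rw [LinearMap.mulRight_apply, mul_comm a s]
    exact Submodule.mul_mem_mul hs ha
  have hVbot : ¬ V ≤ (⊥ : Submodule K F) := fun h => hbpf v₀ (h.trans bot_le)
  -- reduction of the goal to an integer inequality
  suffices hgoal : Divisor.degree X' + Divisor.degree X - j + 1 - g ≤
      (Module.finrank K ↥(V * V') : ℤ) + (d - j) + d' by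
    have : (Module.finrank K (riemannRochSpace (X + X')) : ℤ) ≤
        ((Module.finrank K ↥(V * V') + d + d' : ℕ) : ℤ) := by
      rw [hRsum, map_add]
      push_cast
      linarith
    exact_mod_cast this
  rcases Nat.eq_zero_or_pos d' with hd'0 | hd'pos
  · -- `d' = 0`: `V' = L(X')`
    subst hd'0
    have hV'eq : V' = riemannRochSpace X' :=
      Submodule.eq_of_le_of_finrank_eq hV' (by omega)
    obtain ⟨s, hs, t, ht, -, hpen⟩ := exists_isPencil_in hzp V hVB hbpf ⊥ hVbot v₀
    have h1 := key s t hpen
    have h2 : riemannRochSpace (X' + (X - B)) ≤ V * V' := by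
      rw [← h1]
      rw [hV'eq] at hcomm ⊢
      exact sup_le (hcomm s hs) (hcomm t ht)
    have h3 : Module.finrank K (riemannRochSpace (X' + (X - B))) ≤ Module.finrank K ↥(V * V') :=
      Submodule.finrank_mono h2
    have h3' : (Module.finrank K (riemannRochSpace (X' + (X - B))) : ℤ) ≤
        Module.finrank K ↥(V * V') := by exact_mod_cast h3
    rw [hRXE, hdegXE] at h3'
    push_cast
    linarith
  · -- `d' = 1`: `V'` is a hyperplane of `L(X')`
    have hd'1 : d' = 1 := by omega
    subst hd'1
    have hlt : V' < riemannRochSpace X' := by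
      refine lt_of_le_of_ne hV' fun h => ?_
      rw [h] at hd'
      omega
    rcases lt_or_eq_of_le hjd with hjlt | hjeq
    · -- `j < d`
      have hjlt' : (j : ℤ) + 1 ≤ d := by exact_mod_cast hjlt
      obtain ⟨w, hwL, hwV⟩ := SetLike.exists_of_lt hlt
      have hsup := sup_span_eq_of_finrank hV' hd' hwL hwV
      obtain ⟨s, hs, t, ht, -, hpen⟩ := exists_isPencil_in hzp V hVB hbpf ⊥ hVbot v₀
      have h1 := key s t hpen
      have hms : ∀ s : F, mulImage X' s = V'.map (LinearMap.mulRight K s) ⊔ K ∙ (w * s) := by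
        intro s
        rw [mulImage, ← hsup, Submodule.map_sup, Submodule.map_span, Set.image_singleton,
          LinearMap.mulRight_apply]
      have h2 : riemannRochSpace (X' + (X - B)) ≤ (V * V' ⊔ K ∙ (w * s)) ⊔ K ∙ (w * t) := by
        rw [← h1, hms s, hms t]
        refine sup_le (sup_le ?_ ?_) (sup_le ?_ ?_)
        · exact (hcomm s hs).trans (le_sup_left.trans le_sup_left)
        · exact le_sup_right.trans le_sup_left
        · exact (hcomm t ht).trans (le_sup_left.trans le_sup_left)
        · exact le_sup_right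
      have h3 : Module.finrank K (riemannRochSpace (X' + (X - B))) ≤
          Module.finrank K ↥((V * V' ⊔ K ∙ (w * s)) ⊔ K ∙ (w * t)) :=
        Submodule.finrank_mono h2
      have h4 := finrank_sup_span_singleton_le (V * V' ⊔ K ∙ (w * s)) (w * t)
      have h5 := finrank_sup_span_singleton_le (V * V') (w * s)
      have h6 : (Module.finrank K (riemannRochSpace (X' + (X - B))) : ℤ) ≤
          Module.finrank K ↥(V * V') + 2 := by
        have : Module.finrank K (riemannRochSpace (X' + (X - B))) ≤
            Module.finrank K ↥(V * V') + 2 := by omega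
        exact_mod_cast this
      rw [hRXE, hdegXE] at h6
      push_cast
      linarith
    · -- `j = d`: `V = L(X - B)`
      have hVeq : V = riemannRochSpace (X - B) := by
        have := hfin (X - B)
        refine Submodule.eq_of_le_of_finrank_eq hVB ?_
        have hjeq' : (j : ℤ) = d := by exact_mod_cast hjeq
        have : (Module.finrank K V : ℤ) = Module.finrank K (riemannRochSpace (X - B)) := by
          rw [hRE, hdegE]
          linarith
        exact_mod_cast this
      have hmulL : riemannRochSpace (X' - (X - B)) * riemannRochSpace (X - B) =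
          riemannRochSpace X' := by
        have := rr_mul_eq hfin hR hdeg hzp (D := X - B) (E := X' - (X - B)) hdegE1 hdegE0
          (by rw [hdegXmE, hdegE]; linarith)
        rwa [sub_add_cancel] at this
      let W₀ : Submodule K F :=
        { carrier := {s | ∀ u ∈ riemannRochSpace (X' - (X - B)), u * s ∈ V'}
          zero_mem' := fun u _ => by
            rw [mul_zero]
            exact V'.zero_mem
          add_mem' := fun {a b} ha hb u hu => by
            rw [mul_add]
            exact V'.add_mem (ha u hu) (hb u hu)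
          smul_mem' := fun c {a} ha u hu => by
            rw [mul_smul_comm]
            exact V'.smul_mem c (ha u hu) }
      have hW₀ : ¬ V ≤ W₀ := by
        intro h
        have hle : riemannRochSpace X' ≤ V' := by
          rw [← hmulL, Submodule.mul_le]
          intro u hu a ha
          have haV : a ∈ V := by
            rw [hVeq]
            exact ha
          exact h haV u hu
        exact absurd hle (not_le_of_gt hlt)
      obtain ⟨s, hs, t, ht, hsW, hpen⟩ := exists_isPencil_in hzp V hVB hbpf W₀ hW₀ v₀
      have hex : ∃ u ∈ riemannRochSpace (X' - (X - B)), u * s ∉ V' := by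
        by_contra hcon
        push Not at hcon
        exact hsW hcon
      obtain ⟨u, hu, hus⟩ := hex
      have hwL : u * s ∈ riemannRochSpace X' := by
        have := mul_mem_rr hu (hVB hs)
        rwa [sub_add_cancel] at this
      have hsup := sup_span_eq_of_finrank hV' hd' hwL hus
      have h1 := key s t hpen
      have hms : ∀ s' : F, mulImage X' s' =
          V'.map (LinearMap.mulRight K s') ⊔ K ∙ (u * s * s') := by
        intro s'
        rw [mulImage, ← hsup, Submodule.map_sup, Submodule.map_span, Set.image_singleton,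
          LinearMap.mulRight_apply]
      have hwt : u * s * t ∈ V'.map (LinearMap.mulRight K s) ⊔ K ∙ (u * s * s) := by
        have hut : u * t ∈ riemannRochSpace X' := by
          have := mul_mem_rr hu (hVB ht)
          rwa [sub_add_cancel] at this
        rw [← hms s]
        have e : u * s * t = (u * t) * s := by ring
        rw [e]
        exact mem_mulImage.mpr ⟨u * t, hut, rfl⟩
      have h2 : riemannRochSpace (X' + (X - B)) ≤ V * V' ⊔ K ∙ (u * s * s) := by
        have hle_s : V'.map (LinearMap.mulRight K s) ⊔ K ∙ (u * s * s) ≤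
            V * V' ⊔ K ∙ (u * s * s) :=
          sup_le ((hcomm s hs).trans le_sup_left) le_sup_right
        rw [← h1, hms s, hms t]
        refine sup_le hle_s (sup_le ?_ ?_)
        · exact (hcomm t ht).trans le_sup_left
        · rw [Submodule.span_singleton_le_iff_mem]
          exact hle_s hwt
      have h3 : Module.finrank K (riemannRochSpace (X' + (X - B))) ≤
          Module.finrank K ↥(V * V' ⊔ K ∙ (u * s * s)) :=
        Submodule.finrank_mono h2
      have h5 := finrank_sup_span_singleton_le (V * V') (u * s * s)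
      have h6 : (Module.finrank K (riemannRochSpace (X' + (X - B))) : ℤ) ≤
          Module.finrank K ↥(V * V') + 1 := by
        have : Module.finrank K (riemannRochSpace (X' + (X - B))) ≤
            Module.finrank K ↥(V * V') + 1 := by omega
        exact_mod_cast this
      rw [hRXE, hdegXE] at h6
      push_cast
      linarith

/-- The divisor `n P₀`. -/
abbrev ptDiv (P₀ : Place K F) (n : ℕ) : Divisor K F := n • Finsupp.single P₀ (1 : ℤ)

theorem degree_ptDiv (P₀ : Place K F) (hP₀ : P₀.deg = 1) (n : ℕ) :
    Divisor.degree (ptDiv P₀ n) = n := by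
  rw [ptDiv, map_nsmul, Divisor.degree_single, hP₀]
  simp

theorem ptDiv_add (P₀ : Place K F) (n n' : ℕ) :
    ptDiv P₀ n + ptDiv P₀ n' = ptDiv P₀ (n + n') := (add_nsmul _ n n').symm

/-- **(ZL)** at `X = n P₀`, `X' = n' P₀`: for `V ≤ L(n P₀)` of codimension `d` and
`V' ≤ L(n' P₀)` of codimension `d' ≤ 1`, with `n ≥ d + c₀ + 1` and `n' ≥ 2 n + c₀`, the product
`V * V'` has codimension at most `d + d'` in `L((n + n') P₀)`. -/
theorem zl_pt [Infinite K] {c₀ g : ℤ} (hc0 : 0 ≤ c₀)
    (hfin : ∀ X : Divisor K F, Module.Finite K (riemannRochSpace X))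
    (hR : ∀ X : Divisor K F, c₀ ≤ Divisor.degree X →
      (Module.finrank K (riemannRochSpace X) : ℤ) = Divisor.degree X + 1 - g)
    (hdeg : ∀ v : Place K F, v.deg = 1)
    (hzp : ∀ f : F, f ≠ 0 → {v : Place K F | v.ord f ≠ 0}.Finite)
    (P₀ : Place K F) {n n' d d' : ℕ} (V V' : Submodule K F)
    (hV : V ≤ riemannRochSpace (ptDiv P₀ n)) (hV' : V' ≤ riemannRochSpace (ptDiv P₀ n'))
    (hd : Module.finrank K V + d = Module.finrank K (riemannRochSpace (ptDiv P₀ n)))
    (hd' : Module.finrank K V' + d' = Module.finrank K (riemannRochSpace (ptDiv P₀ n')))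
    (hd1 : d' ≤ 1)
    (hn : (d : ℤ) + c₀ + 1 ≤ n)
    (hn' : 2 * (n : ℤ) + c₀ ≤ n') :
    Module.finrank K (riemannRochSpace (ptDiv P₀ (n + n'))) ≤
      Module.finrank K ↥(V * V') + d + d' := by
  rw [← ptDiv_add]
  refine zl hc0 hfin hR hdeg hzp V V' hV hV' hd hd' hd1 ?_ ?_
  · rw [degree_ptDiv P₀ (hdeg P₀)]
    exact hn
  · rw [degree_ptDiv P₀ (hdeg P₀), degree_ptDiv P₀ (hdeg P₀)]
    exact hn'

/-! ## (IND): independence of evaluations -/

/-- The divisor `∑_{Q ∈ s} Q`. -/
abbrev sumDiv (s : Finset (Place K F)) : Divisor K F := ∑ Q ∈ s, Finsupp.single Q (1 : ℤ)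

theorem degree_sumDiv (hdeg : ∀ v : Place K F, v.deg = 1) (s : Finset (Place K F)) :
    Divisor.degree (sumDiv s) = s.card := by
  rw [sumDiv, map_sum]
  simp [Divisor.degree_single, hdeg]

theorem sumDiv_apply_of_mem [DecidableEq (Place K F)] {s : Finset (Place K F)}
    {Q : Place K F} (hQ : Q ∈ s) : sumDiv s Q = 1 := by
  rw [sumDiv, Finsupp.finsetSum_apply]
  simp [Finsupp.single_apply, hQ]

theorem sumDiv_apply_of_not_mem [DecidableEq (Place K F)] {s : Finset (Place K F)}
    {Q : Place K F} (hQ : Q ∉ s) : sumDiv s Q = 0 := by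
  rw [sumDiv, Finsupp.finsetSum_apply]
  simp [Finsupp.single_apply, hQ]

theorem sumDiv_nonneg (s : Finset (Place K F)) : 0 ≤ sumDiv s := by
  classical
  intro Q
  by_cases hQ : Q ∈ s
  · rw [sumDiv_apply_of_mem hQ]
    simp
  · rw [sumDiv_apply_of_not_mem hQ]
    simp

theorem sumDiv_erase_add [DecidableEq (Place K F)] {s : Finset (Place K F)} {P : Place K F}
    (hP : P ∈ s) : sumDiv (s.erase P) + Finsupp.single P 1 = sumDiv s := by
  rw [sumDiv, sumDiv, Finset.sum_erase_add _ _ hP]

/-- **(IND), codimension form.** Vanishing at `k` distinct places imposes `k` independent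
conditions on `L(X)` when `deg X ≥ k + c₀`. -/
theorem finrank_sub_sumDiv {c₀ g : ℤ}
    (hR : ∀ X : Divisor K F, c₀ ≤ Divisor.degree X →
      (Module.finrank K (riemannRochSpace X) : ℤ) = Divisor.degree X + 1 - g)
    (hdeg : ∀ v : Place K F, v.deg = 1)
    (X : Divisor K F) (s : Finset (Place K F)) (hX : (s.card : ℤ) + c₀ ≤ Divisor.degree X) :
    Module.finrank K (riemannRochSpace (X - sumDiv s)) + s.card =
      Module.finrank K (riemannRochSpace X) := by
  have h0 : (0 : ℤ) ≤ s.card := Nat.cast_nonneg _
  have h1 := hR X (by linarith)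
  have hdegs : Divisor.degree (X - sumDiv s) = Divisor.degree X - s.card := by
    rw [map_sub, degree_sumDiv hdeg]
  have h2 := hR (X - sumDiv s) (by rw [hdegs]; linarith)
  have : (Module.finrank K (riemannRochSpace (X - sumDiv s)) : ℤ) + s.card =
      Module.finrank K (riemannRochSpace X) := by
    rw [h1, h2, hdegs]
    ring
  exact_mod_cast this

/-- **(IND), element form.** For distinct places `s` with `deg X ≥ |s| + c₀` and `P ∈ s` there is
a function in `L(X)` which vanishes (relative to `X`) at every `Q ∈ s`, `Q ≠ P`, and has exact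
order `-X P` at `P`. -/
theorem exists_separating {c₀ g : ℤ}
    (hR : ∀ X : Divisor K F, c₀ ≤ Divisor.degree X →
      (Module.finrank K (riemannRochSpace X) : ℤ) = Divisor.degree X + 1 - g)
    (hdeg : ∀ v : Place K F, v.deg = 1)
    (X : Divisor K F) (s : Finset (Place K F)) (hX : (s.card : ℤ) + c₀ ≤ Divisor.degree X)
    {P : Place K F} (hP : P ∈ s) :
    ∃ f : F, f ∈ riemannRochSpace X ∧ f ≠ 0 ∧ P.ord f = -X P ∧
      ∀ Q ∈ s, Q ≠ P → -X Q + 1 ≤ Q.ord f := by
  classical
  have hcard : s.card = (s.erase P).card + 1 := by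
    rw [Finset.card_erase_of_mem hP]
    have := Finset.card_pos.mpr ⟨P, hP⟩
    omega
  have hcard' : (s.card : ℤ) = (s.erase P).card + 1 := by exact_mod_cast hcard
  have hdegD : Divisor.degree (X - sumDiv (s.erase P)) = Divisor.degree X - (s.erase P).card := by
    rw [map_sub, degree_sumDiv hdeg]
  have hlt := rr_sub_single_lt hR (D := X - sumDiv (s.erase P)) (by rw [hdegD]; linarith) P
    (hdeg P)
  obtain ⟨f, hf, hf'⟩ := SetLike.exists_of_lt hlt
  obtain ⟨hf0, hord⟩ := ord_eq_of_not_mem hf hf'
  have hPe : P ∉ s.erase P := Finset.notMem_erase P s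
  refine ⟨f, ?_, hf0, ?_, fun Q hQ hQP => ?_⟩
  · refine rr_mono ?_ hf
    rw [sub_le_self_iff]
    exact sumDiv_nonneg _
  · rw [hord, Finsupp.sub_apply, sumDiv_apply_of_not_mem hPe, sub_zero]
  · have hQe : Q ∈ s.erase P := Finset.mem_erase.mpr ⟨hQP, hQ⟩
    have h1 := (mem_riemannRochSpace_iff.mp hf Q).resolve_left hf0
    rw [Finsupp.sub_apply, sumDiv_apply_of_mem hQe] at h1
    linarith

/-- **(IND)** at `X = n P₀`: for distinct places `s` not containing `P₀`, `n ≥ |s| + c₀` and
`P ∈ s` there is `f ∈ L(n P₀)` with `ord_P f = 0` and `ord_Q f > 0` for the other `Q ∈ s`. -/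
theorem exists_separating_pt {c₀ g : ℤ}
    (hR : ∀ X : Divisor K F, c₀ ≤ Divisor.degree X →
      (Module.finrank K (riemannRochSpace X) : ℤ) = Divisor.degree X + 1 - g)
    (hdeg : ∀ v : Place K F, v.deg = 1)
    (P₀ : Place K F) (n : ℕ) (s : Finset (Place K F)) (hP₀ : P₀ ∉ s)
    (hn : (s.card : ℤ) + c₀ ≤ n) {P : Place K F} (hP : P ∈ s) :
    ∃ f : F, f ∈ riemannRochSpace (ptDiv P₀ n) ∧ f ≠ 0 ∧ P.ord f = 0 ∧
      ∀ Q ∈ s, Q ≠ P → 0 < Q.ord f := by
  classical
  have hval : ∀ Q ∈ s, ptDiv P₀ n Q = 0 := by
    intro Q hQ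
    have hne : P₀ ≠ Q := fun h => hP₀ (h ▸ hQ)
    rw [ptDiv, Finsupp.smul_apply, Finsupp.single_apply, if_neg hne, smul_zero]
  obtain ⟨f, hf, hf0, hordP, hordQ⟩ := exists_separating hR hdeg (ptDiv P₀ n) s
    (by rw [degree_ptDiv P₀ (hdeg P₀)]; exact hn) hP
  refine ⟨f, hf, hf0, ?_, fun Q hQ hQP => ?_⟩
  · rw [hordP, hval P hP, neg_zero]
  · have := hordQ Q hQ hQP
    rw [hval Q hQ] at this
    linarith

end

end Fermat.Agent.S17.helper9033
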