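/-
S17 (Mordell–Weil for `JZero N`): leaf L9 `WeakMWSpec` of the Pluecker Spec, UNCONDITIONAL.

Since `Fermat.Agent.S18` is proved (track A: `helper789.stmt_KFr_two`, `helper789.stmt_KFr_three`),
the Kummer field form `Stmt_KF0 N ℓ` holds at every level `N` and every prime `ℓ ∤ N`
(`helper2118.kf0_of_kfr`), and `helper5530.weakMW_of_kf0` (bad modulus `M = N * p`) gives weak
Mordell–Weil for `JZero N` at every prime `p`.  At `p = 2` this is leaf `WeakMWSpec` of
`helper3197_PlueckerSpec` for `F₀ = modularFunctionFieldFull N`.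

(Wiring as proposed by helper3379, chat #285.)
-/
import Fermat.Agent.S17.helper5530_WeakMWKF
import Fermat.Agent.S18.helper789_LineInst
import Fermat.Agent.S17.helper3197_PlueckerSpec

set_option autoImplicit false

namespace Fermat.Agent.S17.helper9541

open ModularCurve

/-- **Weak Mordell–Weil for `JZero N`**, unconditional: for every prime `p`, the subgroup
`p • J₀(N)(ℚ)` has finite index in `J₀(N)(ℚ)` (the Galois-fixed points of `JZero N`). -/
theorem weakMW_JZero (N p : ℕ) [NeZero N] (hp : p.Prime) :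
    (nsmulAddMonoidHom
      (α := ↥(FixedPoints.addSubgroup (AlgebraicClosure ℚ ≃ₐ[ℚ] AlgebraicClosure ℚ) (JZero N)))
      p).range.FiniteIndex :=
  Fermat.Agent.S17.helper5530.weakMW_of_kf0 N p (N * p) hp
    (mul_ne_zero (NeZero.ne N) hp.ne_zero) (dvd_mul_right N p) (dvd_mul_left p N)
    fun ℓ hℓ hℓM =>
      Fermat.Agent.S18.helper2118.kf0_of_kfr Fermat.Agent.S18.helper789.stmt_KFr_two
        Fermat.Agent.S18.helper789.stmt_KFr_three N ℓ hℓ fun h => hℓM (h.mul_right p)

/-- **Leaf L9 `WeakMWSpec` of the Pluecker Spec** for the modular curve, unconditional. -/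
theorem weakMWSpec (N : ℕ) [NeZero N] :
    Fermat.Agent.S17.helper3197.WeakMWSpec (modularFunctionFieldFull N) :=
  weakMW_JZero N 2 Nat.prime_two

end Fermat.Agent.S17.helper9541
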