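import Mathlib
import Fermat.Agent.S17.helper1253_DiagMinors

/-!
# S17-G2-ASM, stage 1: the ideal side and the evaluation side of the cube law

Abstract (Mathlib + `helper1253_DiagMinors`) part of captain ruling R10 (d)+(e), one-sided
form (R13).  Setting: slots `J` (a finite linearly ordered type: the `3d` points of an
admissible triple), sections `σ : J → S →ₐ[R] R`, pairwise disjoint blocks `T₁ T₂ T₃ ⊆ J`.
For a set `T` of slots the rows of every matrix are enumerated by `T.orderEmbOfFin rfl`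
(the sorted enumeration).

* `pairProd_cube` : the multiplicity count
  `P(T₁∪T₂∪T₃) P(T₁) P(T₂) P(T₃) = P(T₁∪T₂) P(T₁∪T₃) P(T₂∪T₃)` for pair products;
* `cube_minors_le` : `Alt₁₂₃ * Alt₁ * Alt₂ * Alt₃ ≤ Alt₁₂ * Alt₁₃ * Alt₂₃` for the ideals of
  minors, from `LocPrincipal σ` and the spanning hypothesis for the three two-block sets;
* `cube_minorElt_mem` : generator form (products of four minors are combinations of
  products of three minors);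
* `minorVal_eq`, `cube_eval` : evaluation at a point tuple `χ : R →+* L` with normalising
  scalars `u j ^ a_S`; the two Segre families are `ν • χ ∘ a` and `ν • χ ∘ b` with ONE `ν`.
-/

set_option autoImplicit false

namespace Fermat.Agent.S17.helper9651

open scoped BigOperators
open Fermat.Agent.S17

section PairProd

variable {M : Type*} [CommMonoid M] {J : Type*} [LinearOrder J] [Fintype J]

/-- The product of `x a b` over all pairs `a < b` of elements of the finite set `T`. -/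
noncomputable def pairProd (x : J → J → M) (T : Finset J) : M :=
  ∏ p : J × J, if p.1 < p.2 ∧ p.1 ∈ T ∧ p.2 ∈ T then x p.1 p.2 else 1

/-- **Cube identity for pair products**: for pairwise disjoint `T₁, T₂, T₃`,
`P(T₁∪T₂∪T₃) P(T₁) P(T₂) P(T₃) = P(T₁∪T₂) P(T₁∪T₃) P(T₂∪T₃)`. -/
theorem pairProd_cube (x : J → J → M) (T₁ T₂ T₃ : Finset J)
    (h12 : Disjoint T₁ T₂) (h13 : Disjoint T₁ T₃) (h23 : Disjoint T₂ T₃) :
    pairProd x (T₁ ∪ T₂ ∪ T₃) * pairProd x T₁ * pairProd x T₂ * pairProd x T₃ =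
      pairProd x (T₁ ∪ T₂) * pairProd x (T₁ ∪ T₃) * pairProd x (T₂ ∪ T₃) := by
  classical
  unfold pairProd
  simp only [← Finset.prod_mul_distrib]
  refine Finset.prod_congr rfl fun p _ => ?_
  have d12 : ∀ a, a ∈ T₁ → a ∉ T₂ := fun a ha => Finset.disjoint_left.mp h12 ha
  have d13 : ∀ a, a ∈ T₁ → a ∉ T₃ := fun a ha => Finset.disjoint_left.mp h13 ha
  have d23 : ∀ a, a ∈ T₂ → a ∉ T₃ := fun a ha => Finset.disjoint_left.mp h23 ha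
  by_cases hlt : p.1 < p.2
  · by_cases a1 : p.1 ∈ T₁ <;> by_cases a2 : p.1 ∈ T₂ <;> by_cases a3 : p.1 ∈ T₃ <;>
    by_cases b1 : p.2 ∈ T₁ <;> by_cases b2 : p.2 ∈ T₂ <;> by_cases b3 : p.2 ∈ T₃ <;>
    first
    | exact absurd a2 (d12 _ a1)
    | exact absurd a3 (d13 _ a1)
    | exact absurd a3 (d23 _ a2)
    | exact absurd b2 (d12 _ b1)
    | exact absurd b3 (d13 _ b1)
    | exact absurd b3 (d23 _ b2)
    | simp [hlt, a1, a2, a3, b1, b2, b3, Finset.mem_union]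
  · simp [hlt]

end PairProd

section IdealSide

variable {R S : Type*} [CommRing R] [CommRing S] [Algebra R S]
  {J : Type*} [LinearOrder J] [Fintype J]

/-- The subfamily of sections indexed by the sorted enumeration of `T`. -/
def sub (σ : J → S →ₐ[R] R) (T : Finset J) : Fin T.card → S →ₐ[R] R :=
  fun i => σ (T.orderEmbOfFin rfl i)

/-- The product of the diagonal ideals of the subfamily `sub σ T` is the pair product of the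
diagonal ideals of `σ` over `T`. -/
theorem diagProd_sub (σ : J → S →ₐ[R] R) (T : Finset J) :
    helper1253.diagProd (sub σ T) = pairProd (fun a b => helper1253.diag σ a b) T := by
  classical
  unfold helper1253.diagProd pairProd
  refine Fintype.prod_of_injective
    (Prod.map (T.orderEmbOfFin rfl) (T.orderEmbOfFin rfl)) ?_ _ _ ?_ ?_
  · exact Function.Injective.prodMap (T.orderEmbOfFin rfl).injective
      (T.orderEmbOfFin rfl).injective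
  · intro p hp
    rw [if_neg]
    rintro ⟨_, h1, h2⟩
    apply hp
    have hr := Finset.range_orderEmbOfFin T (rfl : T.card = T.card)
    have h1' : p.1 ∈ Set.range (T.orderEmbOfFin rfl) := by rw [hr]; exact h1
    have h2' : p.2 ∈ Set.range (T.orderEmbOfFin rfl) := by rw [hr]; exact h2
    obtain ⟨i, hi⟩ := h1'
    obtain ⟨j, hj⟩ := h2'
    exact ⟨(i, j), Prod.ext hi hj⟩
  · intro p
    have h1 : (T.orderEmbOfFin rfl p.1 < T.orderEmbOfFin rfl p.2) ↔ p.1 < p.2 :=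
      (T.orderEmbOfFin rfl).lt_iff_lt
    by_cases hp : p.1 < p.2
    · rw [if_pos hp, if_pos]
      · rfl
      · exact ⟨h1.mpr hp, Finset.orderEmbOfFin_mem T rfl p.1, Finset.orderEmbOfFin_mem T rfl p.2⟩
    · rw [if_neg hp, if_neg]
      rintro ⟨h, -, -⟩
      exact hp (h1.mp h)

variable {ι : Type*}

/-- The minor of the evaluation matrix `(σ j (ψ s))` with rows the sorted enumeration of
`T` and columns `s`. -/
def minorElt (σ : J → S →ₐ[R] R) (T : Finset J) (ψ : ι → S) (s : Fin T.card → ι) : R :=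
  Matrix.det (Matrix.of fun i k => σ (T.orderEmbOfFin rfl i) (ψ (s k)))

omit [Fintype J] in
theorem minors_sub_eq_span (σ : J → S →ₐ[R] R) (T : Finset J) (ψ : ι → S) :
    helper1253.minors (sub σ T) ψ = Ideal.span (Set.range (minorElt σ T ψ)) := rfl

/-- The spanning hypothesis (T2) for the rows `T`. -/
def SpanHyp (σ : J → S →ₐ[R] R) (T : Finset J) (ψ : ι → S) : Prop :=
  ∀ F : S, helper1253.evalVec (sub σ T) F ∈
    Submodule.span R (Set.range fun s => helper1253.evalVec (sub σ T) (ψ s))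

/-- (le), needs local principality: minors lie in the pair product of the diagonals. -/
theorem span_minorElt_le_pairProd (σ : J → S →ₐ[R] R) (hLP : helper1253.LocPrincipal σ)
    (T : Finset J) (ψ : ι → S) :
    Ideal.span (Set.range (minorElt σ T ψ)) ≤ pairProd (fun a b => helper1253.diag σ a b) T := by
  rw [← diagProd_sub, ← minors_sub_eq_span]
  exact helper1253.minors_le_diagProd (sub σ T) (hLP.comp _) ψ

/-- (ge), needs only the spanning hypothesis: the pair product of the diagonals is generated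
by minors. -/
theorem pairProd_le_span_minorElt (σ : J → S →ₐ[R] R) (T : Finset J) (ψ : ι → S)
    (hspan : SpanHyp σ T ψ) :
    pairProd (fun a b => helper1253.diag σ a b) T ≤ Ideal.span (Set.range (minorElt σ T ψ)) := by
  rw [← diagProd_sub, ← minors_sub_eq_span]
  exact (helper1253.diagProd_le_alt (sub σ T)).trans (helper1253.alt_le_minors (sub σ T) ψ hspan)

variable {ι₁ ι₂ ι₃ ι₁₂ ι₁₃ ι₂₃ ι₁₂₃ : Type*}

/-- **One-sided cube inclusion for the ideals of minors** (R13). -/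
theorem cube_minors_le (σ : J → S →ₐ[R] R) (hLP : helper1253.LocPrincipal σ)
    (T₁ T₂ T₃ : Finset J) (h12 : Disjoint T₁ T₂) (h13 : Disjoint T₁ T₃) (h23 : Disjoint T₂ T₃)
    (ψ₁ : ι₁ → S) (ψ₂ : ι₂ → S) (ψ₃ : ι₃ → S) (ψ₁₂ : ι₁₂ → S) (ψ₁₃ : ι₁₃ → S) (ψ₂₃ : ι₂₃ → S)
    (ψ₁₂₃ : ι₁₂₃ → S)
    (hs₁₂ : SpanHyp σ (T₁ ∪ T₂) ψ₁₂) (hs₁₃ : SpanHyp σ (T₁ ∪ T₃) ψ₁₃)
    (hs₂₃ : SpanHyp σ (T₂ ∪ T₃) ψ₂₃) :
    Ideal.span (Set.range (minorElt σ (T₁ ∪ T₂ ∪ T₃) ψ₁₂₃)) *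
        Ideal.span (Set.range (minorElt σ T₁ ψ₁)) *
        Ideal.span (Set.range (minorElt σ T₂ ψ₂)) *
        Ideal.span (Set.range (minorElt σ T₃ ψ₃)) ≤
      Ideal.span (Set.range (minorElt σ (T₁ ∪ T₂) ψ₁₂)) *
        Ideal.span (Set.range (minorElt σ (T₁ ∪ T₃) ψ₁₃)) *
        Ideal.span (Set.range (minorElt σ (T₂ ∪ T₃) ψ₂₃)) := by
  calc _ ≤ pairProd (fun a b => helper1253.diag σ a b) (T₁ ∪ T₂ ∪ T₃) *
          pairProd (fun a b => helper1253.diag σ a b) T₁ *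
          pairProd (fun a b => helper1253.diag σ a b) T₂ *
          pairProd (fun a b => helper1253.diag σ a b) T₃ :=
        Ideal.mul_mono (Ideal.mul_mono (Ideal.mul_mono
          (span_minorElt_le_pairProd σ hLP _ ψ₁₂₃) (span_minorElt_le_pairProd σ hLP _ ψ₁))
          (span_minorElt_le_pairProd σ hLP _ ψ₂)) (span_minorElt_le_pairProd σ hLP _ ψ₃)
    _ = pairProd (fun a b => helper1253.diag σ a b) (T₁ ∪ T₂) *
          pairProd (fun a b => helper1253.diag σ a b) (T₁ ∪ T₃) *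
          pairProd (fun a b => helper1253.diag σ a b) (T₂ ∪ T₃) :=
        pairProd_cube _ T₁ T₂ T₃ h12 h13 h23
    _ ≤ _ :=
        Ideal.mul_mono (Ideal.mul_mono
          (pairProd_le_span_minorElt σ _ ψ₁₂ hs₁₂) (pairProd_le_span_minorElt σ _ ψ₁₃ hs₁₃))
          (pairProd_le_span_minorElt σ _ ψ₂₃ hs₂₃)

/-- The product of the spans of two families is the span of the family of products. -/
theorem span_range_mul_span_range {α β : Type*} (f : α → R) (g : β → R) :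
    Ideal.span (Set.range f) * Ideal.span (Set.range g) =
      Ideal.span (Set.range fun q : α × β => f q.1 * g q.2) := by
  rw [Ideal.span_mul_span', ← Set.image2_mul, Set.image2_range]

/-- Three-factor version, right-nested. -/
theorem span_range_mul3 {α β γ : Type*} (f : α → R) (g : β → R) (h : γ → R) :
    Ideal.span (Set.range fun r : α × β × γ => f r.1 * (g r.2.1 * h r.2.2)) =
      Ideal.span (Set.range f) * (Ideal.span (Set.range g) * Ideal.span (Set.range h)) := by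
  rw [span_range_mul_span_range g h, span_range_mul_span_range f]

/-- **Generator form of the one-sided cube inclusion**: every product of four minors (for
`T₁∪T₂∪T₃, T₁, T₂, T₃`) is an `R`-combination of products of three minors (for `T₁∪T₂`,
`T₁∪T₃`, `T₂∪T₃`).  The families are right-nested to match the Segre lemmas. -/
theorem cube_minorElt_mem (σ : J → S →ₐ[R] R) (hLP : helper1253.LocPrincipal σ)
    (T₁ T₂ T₃ : Finset J) (h12 : Disjoint T₁ T₂) (h13 : Disjoint T₁ T₃) (h23 : Disjoint T₂ T₃)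
    (ψ₁ : ι₁ → S) (ψ₂ : ι₂ → S) (ψ₃ : ι₃ → S) (ψ₁₂ : ι₁₂ → S) (ψ₁₃ : ι₁₃ → S) (ψ₂₃ : ι₂₃ → S)
    (ψ₁₂₃ : ι₁₂₃ → S)
    (hs₁₂ : SpanHyp σ (T₁ ∪ T₂) ψ₁₂) (hs₁₃ : SpanHyp σ (T₁ ∪ T₃) ψ₁₃)
    (hs₂₃ : SpanHyp σ (T₂ ∪ T₃) ψ₂₃)
    (q : (Fin (T₁ ∪ T₂ ∪ T₃).card → ι₁₂₃) × (Fin T₁.card → ι₁) × (Fin T₂.card → ι₂) ×
      (Fin T₃.card → ι₃)) :
    minorElt σ (T₁ ∪ T₂ ∪ T₃) ψ₁₂₃ q.1 * (minorElt σ T₁ ψ₁ q.2.1 *
        (minorElt σ T₂ ψ₂ q.2.2.1 * minorElt σ T₃ ψ₃ q.2.2.2)) ∈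
      Ideal.span (Set.range fun r : (Fin (T₁ ∪ T₂).card → ι₁₂) × (Fin (T₁ ∪ T₃).card → ι₁₃) ×
          (Fin (T₂ ∪ T₃).card → ι₂₃) =>
        minorElt σ (T₁ ∪ T₂) ψ₁₂ r.1 * (minorElt σ (T₁ ∪ T₃) ψ₁₃ r.2.1 *
          minorElt σ (T₂ ∪ T₃) ψ₂₃ r.2.2)) := by
  have h := cube_minors_le σ hLP T₁ T₂ T₃ h12 h13 h23 ψ₁ ψ₂ ψ₃ ψ₁₂ ψ₁₃ ψ₂₃ ψ₁₂₃ hs₁₂ hs₁₃ hs₂₃
  rw [span_range_mul3]
  have hmem : minorElt σ (T₁ ∪ T₂ ∪ T₃) ψ₁₂₃ q.1 * (minorElt σ T₁ ψ₁ q.2.1 *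
        (minorElt σ T₂ ψ₂ q.2.2.1 * minorElt σ T₃ ψ₃ q.2.2.2)) ∈
      Ideal.span (Set.range (minorElt σ (T₁ ∪ T₂ ∪ T₃) ψ₁₂₃)) *
        Ideal.span (Set.range (minorElt σ T₁ ψ₁)) *
        Ideal.span (Set.range (minorElt σ T₂ ψ₂)) *
        Ideal.span (Set.range (minorElt σ T₃ ψ₃)) := by
    rw [← mul_assoc, ← mul_assoc]
    exact Ideal.mul_mem_mul (Ideal.mul_mem_mul (Ideal.mul_mem_mul
      (Ideal.subset_span ⟨_, rfl⟩) (Ideal.subset_span ⟨_, rfl⟩))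
      (Ideal.subset_span ⟨_, rfl⟩)) (Ideal.subset_span ⟨_, rfl⟩)
  have h' := h hmem
  rwa [mul_assoc] at h'

end IdealSide

section EvalSide

variable {R S L : Type*} [CommRing R] [CommRing S] [Algebra R S] [CommRing L]
  {J : Type*} [LinearOrder J] [Fintype J] {ι : Type*}

/-- The minor of an (unnormalised) evaluation matrix `E : J → ι → L` with rows the sorted
enumeration of `T` and columns `s`. -/
def minorVal (E : J → ι → L) (T : Finset J) (s : Fin T.card → ι) : L :=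
  Matrix.det (Matrix.of fun i k => E (T.orderEmbOfFin rfl i) (s k))

omit [Fintype J] in
theorem prod_orderEmbOfFin {M : Type*} [CommMonoid M] (T : Finset J) (f : J → M) :
    ∏ i : Fin T.card, f (T.orderEmbOfFin rfl i) = ∏ j ∈ T, f j := by
  classical
  have h := Finset.prod_image (s := (Finset.univ : Finset (Fin T.card)))
    (g := fun i => T.orderEmbOfFin rfl i) (f := f)
    (fun x _ y _ hxy => (T.orderEmbOfFin rfl).injective hxy)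
  rw [Finset.image_orderEmbOfFin_univ T rfl] at h
  exact h.symm

omit [Fintype J] in
/-- Evaluation of a minor at a point `χ`, with row normalisers `u j ^ a`. -/
theorem minorVal_eq (χ : R →+* L) (σ : J → S →ₐ[R] R) (T : Finset J) (ψ : ι → S) (u : J → L)
    (a : ℕ) (E : J → ι → L) (hE : ∀ j ∈ T, ∀ s, E j s = u j ^ a * χ (σ j (ψ s)))
    (s : Fin T.card → ι) :
    minorVal E T s = (∏ j ∈ T, u j ^ a) * χ (minorElt σ T ψ s) := by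
  unfold minorVal minorElt
  rw [RingHom.map_det, ← prod_orderEmbOfFin T (fun j => u j ^ a), ← Matrix.det_mul_column]
  congr 1
  ext i k
  simp [hE _ (Finset.orderEmbOfFin_mem T rfl i)]

variable {ι₁ ι₂ ι₃ ι₁₂ ι₁₃ ι₂₃ ι₁₂₃ : Type*}

/-- The family of products of four minors (ring side), right-nested. -/
def fourElt (σ : J → S →ₐ[R] R) (T₁ T₂ T₃ : Finset J) (ψ₁₂₃ : ι₁₂₃ → S) (ψ₁ : ι₁ → S)
    (ψ₂ : ι₂ → S) (ψ₃ : ι₃ → S)
    (q : (Fin (T₁ ∪ T₂ ∪ T₃).card → ι₁₂₃) × (Fin T₁.card → ι₁) × (Fin T₂.card → ι₂) ×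
      (Fin T₃.card → ι₃)) : R :=
  minorElt σ (T₁ ∪ T₂ ∪ T₃) ψ₁₂₃ q.1 * (minorElt σ T₁ ψ₁ q.2.1 *
    (minorElt σ T₂ ψ₂ q.2.2.1 * minorElt σ T₃ ψ₃ q.2.2.2))

/-- The family of products of three minors (ring side), right-nested. -/
def threeElt (σ : J → S →ₐ[R] R) (T₁ T₂ T₃ : Finset J) (ψ₁₂ : ι₁₂ → S) (ψ₁₃ : ι₁₃ → S)
    (ψ₂₃ : ι₂₃ → S)
    (r : (Fin (T₁ ∪ T₂).card → ι₁₂) × (Fin (T₁ ∪ T₃).card → ι₁₃) ×
      (Fin (T₂ ∪ T₃).card → ι₂₃)) : R :=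
  minorElt σ (T₁ ∪ T₂) ψ₁₂ r.1 * (minorElt σ (T₁ ∪ T₃) ψ₁₃ r.2.1 *
    minorElt σ (T₂ ∪ T₃) ψ₂₃ r.2.2)

/-- The Segre family of products of four minors of the evaluation matrices. -/
def fourVal (T₁ T₂ T₃ : Finset J) (E₁₂₃ : J → ι₁₂₃ → L) (E₁ : J → ι₁ → L) (E₂ : J → ι₂ → L)
    (E₃ : J → ι₃ → L)
    (q : (Fin (T₁ ∪ T₂ ∪ T₃).card → ι₁₂₃) × (Fin T₁.card → ι₁) × (Fin T₂.card → ι₂) ×
      (Fin T₃.card → ι₃)) : L :=
  minorVal E₁₂₃ (T₁ ∪ T₂ ∪ T₃) q.1 * (minorVal E₁ T₁ q.2.1 *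
    (minorVal E₂ T₂ q.2.2.1 * minorVal E₃ T₃ q.2.2.2))

/-- The Segre family of products of three minors of the evaluation matrices. -/
def threeVal (T₁ T₂ T₃ : Finset J) (E₁₂ : J → ι₁₂ → L) (E₁₃ : J → ι₁₃ → L) (E₂₃ : J → ι₂₃ → L)
    (r : (Fin (T₁ ∪ T₂).card → ι₁₂) × (Fin (T₁ ∪ T₃).card → ι₁₃) ×
      (Fin (T₂ ∪ T₃).card → ι₂₃)) : L :=
  minorVal E₁₂ (T₁ ∪ T₂) r.1 * (minorVal E₁₃ (T₁ ∪ T₃) r.2.1 * minorVal E₂₃ (T₂ ∪ T₃) r.2.2)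

/-- The common scalar `ν` of the two sides of the cube identity. -/
noncomputable def cubeScalar (u : J → L) (T₁ T₂ T₃ : Finset J) (a₁₂ a₁₃ a₂₃ : ℕ) : L :=
  (∏ j ∈ T₁, u j) ^ (a₁₂ + a₁₃) * (∏ j ∈ T₂, u j) ^ (a₁₂ + a₂₃) * (∏ j ∈ T₃, u j) ^ (a₁₃ + a₂₃)

omit [Fintype J] in
theorem cubeScalar_ne_zero [NoZeroDivisors L] [Nontrivial L] (u : J → L) (T₁ T₂ T₃ : Finset J)
    (a₁₂ a₁₃ a₂₃ : ℕ) (hu : ∀ j ∈ T₁ ∪ T₂ ∪ T₃, u j ≠ 0) :
    cubeScalar u T₁ T₂ T₃ a₁₂ a₁₃ a₂₃ ≠ 0 := by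
  classical
  unfold cubeScalar
  have h : ∀ T : Finset J, T ⊆ T₁ ∪ T₂ ∪ T₃ → ∏ j ∈ T, u j ≠ 0 := fun T hT =>
    Finset.prod_ne_zero_iff.mpr fun j hj => hu j (hT hj)
  refine mul_ne_zero (mul_ne_zero (pow_ne_zero _ (h _ ?_)) (pow_ne_zero _ (h _ ?_)))
    (pow_ne_zero _ (h _ ?_))
  · intro j hj; simp [hj]
  · intro j hj; simp [hj]
  · intro j hj; simp [hj]

omit [Fintype J] in
/-- **Evaluation of the three-minor family**: `y = ν • χ ∘ b`. -/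
theorem threeVal_eq (χ : R →+* L) (σ : J → S →ₐ[R] R) (T₁ T₂ T₃ : Finset J)
    (h12 : Disjoint T₁ T₂) (h13 : Disjoint T₁ T₃) (h23 : Disjoint T₂ T₃)
    (ψ₁₂ : ι₁₂ → S) (ψ₁₃ : ι₁₃ → S) (ψ₂₃ : ι₂₃ → S) (u : J → L) (a₁₂ a₁₃ a₂₃ : ℕ)
    (E₁₂ : J → ι₁₂ → L) (E₁₃ : J → ι₁₃ → L) (E₂₃ : J → ι₂₃ → L)
    (hE₁₂ : ∀ j ∈ T₁ ∪ T₂, ∀ s, E₁₂ j s = u j ^ a₁₂ * χ (σ j (ψ₁₂ s)))
    (hE₁₃ : ∀ j ∈ T₁ ∪ T₃, ∀ s, E₁₃ j s = u j ^ a₁₃ * χ (σ j (ψ₁₃ s)))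
    (hE₂₃ : ∀ j ∈ T₂ ∪ T₃, ∀ s, E₂₃ j s = u j ^ a₂₃ * χ (σ j (ψ₂₃ s)))
    (r : (Fin (T₁ ∪ T₂).card → ι₁₂) × (Fin (T₁ ∪ T₃).card → ι₁₃) ×
      (Fin (T₂ ∪ T₃).card → ι₂₃)) :
    threeVal T₁ T₂ T₃ E₁₂ E₁₃ E₂₃ r =
      cubeScalar u T₁ T₂ T₃ a₁₂ a₁₃ a₂₃ * χ (threeElt σ T₁ T₂ T₃ ψ₁₂ ψ₁₃ ψ₂₃ r) := by
  classical
  unfold threeVal threeElt cubeScalar
  rw [minorVal_eq χ σ _ ψ₁₂ u a₁₂ E₁₂ hE₁₂, minorVal_eq χ σ _ ψ₁₃ u a₁₃ E₁₃ hE₁₃,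
    minorVal_eq χ σ _ ψ₂₃ u a₂₃ E₂₃ hE₂₃, map_mul, map_mul]
  simp only [Finset.prod_pow, Finset.prod_union h12, Finset.prod_union h13,
    Finset.prod_union h23]
  ring

omit [Fintype J] in
/-- **Evaluation of the four-minor family**: `x = ν • χ ∘ a`, with the SAME `ν`, provided the
levels satisfy `a₁₂₃ + aᵢ = aᵢⱼ + aᵢₖ`. -/
theorem fourVal_eq (χ : R →+* L) (σ : J → S →ₐ[R] R) (T₁ T₂ T₃ : Finset J)
    (h12 : Disjoint T₁ T₂) (h13 : Disjoint T₁ T₃) (h23 : Disjoint T₂ T₃)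
    (ψ₁₂₃ : ι₁₂₃ → S) (ψ₁ : ι₁ → S) (ψ₂ : ι₂ → S) (ψ₃ : ι₃ → S) (u : J → L)
    (a₁ a₂ a₃ a₁₂ a₁₃ a₂₃ a₁₂₃ : ℕ)
    (h1 : a₁₂₃ + a₁ = a₁₂ + a₁₃) (h2 : a₁₂₃ + a₂ = a₁₂ + a₂₃) (h3 : a₁₂₃ + a₃ = a₁₃ + a₂₃)
    (E₁₂₃ : J → ι₁₂₃ → L) (E₁ : J → ι₁ → L) (E₂ : J → ι₂ → L) (E₃ : J → ι₃ → L)
    (hE₁₂₃ : ∀ j ∈ T₁ ∪ T₂ ∪ T₃, ∀ s, E₁₂₃ j s = u j ^ a₁₂₃ * χ (σ j (ψ₁₂₃ s)))
    (hE₁ : ∀ j ∈ T₁, ∀ s, E₁ j s = u j ^ a₁ * χ (σ j (ψ₁ s)))
    (hE₂ : ∀ j ∈ T₂, ∀ s, E₂ j s = u j ^ a₂ * χ (σ j (ψ₂ s)))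
    (hE₃ : ∀ j ∈ T₃, ∀ s, E₃ j s = u j ^ a₃ * χ (σ j (ψ₃ s)))
    (q : (Fin (T₁ ∪ T₂ ∪ T₃).card → ι₁₂₃) × (Fin T₁.card → ι₁) × (Fin T₂.card → ι₂) ×
      (Fin T₃.card → ι₃)) :
    fourVal T₁ T₂ T₃ E₁₂₃ E₁ E₂ E₃ q =
      cubeScalar u T₁ T₂ T₃ a₁₂ a₁₃ a₂₃ * χ (fourElt σ T₁ T₂ T₃ ψ₁₂₃ ψ₁ ψ₂ ψ₃ q) := by
  classical
  have h123 : Disjoint (T₁ ∪ T₂) T₃ := Finset.disjoint_union_left.mpr ⟨h13, h23⟩
  unfold fourVal fourElt cubeScalar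
  rw [minorVal_eq χ σ _ ψ₁₂₃ u a₁₂₃ E₁₂₃ hE₁₂₃, minorVal_eq χ σ _ ψ₁ u a₁ E₁ hE₁,
    minorVal_eq χ σ _ ψ₂ u a₂ E₂ hE₂, minorVal_eq χ σ _ ψ₃ u a₃ E₃ hE₃, map_mul, map_mul,
    map_mul, ← h1, ← h2, ← h3]
  simp only [Finset.prod_pow, Finset.prod_union h12, Finset.prod_union h123]
  ring

end EvalSide

end Fermat.Agent.S17.helper9651
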