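import Fermat.Agent.S17.helper9651_CubeMaster
import Fermat.Agent.S17.helper1585_ChartMinors
import Fermat.Agent.S17.helper3330_UnivIntegral

/-!
# S17-G2-ASM, stage 3: the cube law on the chart family of a curve (track (A) of ruling R15)

Instance of `cube_master` at the chart rings `PRing K (chartRing (u l)) n` of a family of chart
functions `u l` (`l = 1, …, n + 1`; in the application `u l = (1 + l * t)⁻¹`), generic in the
algebraically closed base field `K` (algebraic over `ℚ`) and the function field `F`.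
-/

set_option autoImplicit false
set_option linter.style.haveILetI false

open AlgebraicCurve IntermediateField

namespace Fermat.Agent.S17.helper9651

open Fermat.Agent.S17.helper3723 Fermat.Agent.S27.helper4586 Fermat.Agent.S27.helper6247
open Fermat.Agent.S17.helper2760 (PRing SRing pt inc sec evalPts BSpan)
open Fermat.Agent.Lib.helper927 (absLogHeight)

/-- Elements of `L(m P0)` (level spelled `Finsupp.single P0 m`) are regular away from `P0`. -/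
theorem ord_nonneg_of_mem_single {K F : Type*} [Field K] [Field F] [Algebra K F]
    {P0 v : Place K F} (h : v ≠ P0) {m : ℤ} {f : F}
    (hf : f ∈ riemannRochSpace (Finsupp.single P0 m : Divisor K F)) : 0 ≤ v.ord f := by
  rcases mem_riemannRochSpace_iff.mp hf v with h0 | h0
  · rw [h0, Place.ord_zero]
  · rwa [Finsupp.single_eq_of_ne h, neg_zero] at h0

/-- **The cube law on a chart family.** -/
theorem cube_charts {K : Type} {F : Type} [Field K] [Field F] [Algebra K F] [IsAlgClosed K]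
    [CharZero K] [Algebra.IsAlgebraic ℚ K]
    (x : F) (hx : Transcendental K x) [FiniteDimensional K⟮x⟯ F] :
    ∃ c : ℤ, ∀ (P0 : Place K F) (n₀ : ℕ) (t : F) (n : ℕ) (u : ℕ → F),
      (∀ l ∈ Finset.Icc 1 (n + 1), u l ≠ 0 ∧ Transcendental K (u l) ∧
        P0.ord (u l) = (n₀ : ℤ) ∧ (∀ Q : Place K F, Q ≠ P0 → Q.ord (u l) ≤ 0) ∧
        ∀ P : Place K F, P ≠ P0 → 1 + (l : K) * ev P t ≠ 0 →
          u l ∈ P.toValuationSubring ∧ ev P (u l) = (1 + (l : K) * ev P t)⁻¹) →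
      ∀ (k₁ k₂ k₃ : ℕ), k₃ + k₁ = k₂ + k₂ →
      ∀ {ι₁ ι₂ ι₃ : Type} [Finite ι₁] [Finite ι₂] [Finite ι₃]
        (e₁ : ι₁ → F) (e₂ : ι₂ → F) (e₃ : ι₃ → F),
      (∀ s, e₁ s ∈ riemannRochSpace (Finsupp.single P0 ((k₁ : ℤ) * n₀))) →
      (∀ s, e₂ s ∈ riemannRochSpace (Finsupp.single P0 ((k₂ : ℤ) * n₀))) →
      (∀ s, e₃ s ∈ riemannRochSpace (Finsupp.single P0 ((k₃ : ℤ) * n₀))) →
      riemannRochSpace (Finsupp.single P0 ((k₂ : ℤ) * n₀)) ≤ Submodule.span K (Set.range e₂) →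
      ∃ C : ℝ, ∀ (T₁ T₂ T₃ : Finset (Fin n)), Disjoint T₁ T₂ → Disjoint T₁ T₃ → Disjoint T₂ T₃ →
        c ≤ (k₂ : ℤ) * n₀ - ((T₁ ∪ T₂).card : ℤ) → c ≤ (k₂ : ℤ) * n₀ - ((T₁ ∪ T₃).card : ℤ) →
        c ≤ (k₂ : ℤ) * n₀ - ((T₂ ∪ T₃).card : ℤ) →
        ∀ (P : Fin n → Place K F), (∀ j, P j ≠ P0) →
        minorVal (fun j s => ev (P j) (e₃ s)) (T₁ ∪ T₂ ∪ T₃) ≠ 0 →
        minorVal (fun j s => ev (P j) (e₁ s)) T₁ ≠ 0 →
        minorVal (fun j s => ev (P j) (e₁ s)) T₂ ≠ 0 →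
        minorVal (fun j s => ev (P j) (e₁ s)) T₃ ≠ 0 →
        minorVal (fun j s => ev (P j) (e₂ s)) (T₁ ∪ T₂) ≠ 0 →
        minorVal (fun j s => ev (P j) (e₂ s)) (T₁ ∪ T₃) ≠ 0 →
        minorVal (fun j s => ev (P j) (e₂ s)) (T₂ ∪ T₃) ≠ 0 →
        absLogHeight (minorVal (fun j s => ev (P j) (e₃ s)) (T₁ ∪ T₂ ∪ T₃))
          - absLogHeight (minorVal (fun j s => ev (P j) (e₂ s)) (T₁ ∪ T₂))
          - absLogHeight (minorVal (fun j s => ev (P j) (e₂ s)) (T₁ ∪ T₃))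
          - absLogHeight (minorVal (fun j s => ev (P j) (e₂ s)) (T₂ ∪ T₃))
          + absLogHeight (minorVal (fun j s => ev (P j) (e₁ s)) T₁)
          + absLogHeight (minorVal (fun j s => ev (P j) (e₁ s)) T₂)
          + absLogHeight (minorVal (fun j s => ev (P j) (e₁ s)) T₃) ≤ C := by
  classical
  obtain ⟨c, hc⟩ := Fermat.Agent.S17.helper1585.exists_chart_evalVec_mem_span (K := K) (F := F) x hx
  refine ⟨c, ?_⟩
  intro P0 n₀ t n u hu k₁ k₂ k₃ hk ι₁ ι₂ ι₃ _ _ _ e₁ e₂ e₃ he₁ he₂ he₃ hspan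
  have hV : ∀ P : Place K F, HasValues P := fun P => hasValues_of_finite x P
  -- the chart family
  have hu0 : ∀ l : (Finset.Icc 1 (n + 1) : Finset ℕ), u l ≠ 0 := fun l => (hu l l.2).1
  have htr : ∀ l : (Finset.Icc 1 (n + 1) : Finset ℕ), Transcendental K (u l) :=
    fun l => (hu l l.2).2.1
  have hord : ∀ l : (Finset.Icc 1 (n + 1) : Finset ℕ), P0.ord (u l) = (n₀ : ℤ) :=
    fun l => (hu l l.2).2.2.1
  have hoff : ∀ l : (Finset.Icc 1 (n + 1) : Finset ℕ), ∀ Q : Place K F, Q ≠ P0 →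
      Q.ord (u l) ≤ 0 := fun l => (hu l l.2).2.2.2.1
  have hpt : ∀ l : (Finset.Icc 1 (n + 1) : Finset ℕ), ∀ P : Place K F, P ≠ P0 →
      1 + ((l : ℕ) : K) * ev P t ≠ 0 →
      u l ∈ P.toValuationSubring ∧ ev P (u l) = (1 + ((l : ℕ) : K) * ev P t)⁻¹ :=
    fun l => (hu l l.2).2.2.2.2
  haveI hfd : ∀ l : (Finset.Icc 1 (n + 1) : Finset ℕ), FiniteDimensional K⟮u l⟯ F := fun l =>
    Fermat.Agent.S24.helper204.finiteDimensional_adjoin_of_transcendental (x := x) (htr l)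
  -- the chart rings
  let R : (Finset.Icc 1 (n + 1) : Finset ℕ) → Type := fun l =>
    PRing K (chartRing (K := K) (u l)) n
  let S : (Finset.Icc 1 (n + 1) : Finset ℕ) → Type := fun l =>
    SRing K (chartRing (K := K) (u l)) n
  letI algQ : ∀ l : (Finset.Icc 1 (n + 1) : Finset ℕ), Algebra ℚ (R l) := fun l =>
    Algebra.compHom _ (algebraMap ℚ K)
  let σ : ∀ l : (Finset.Icc 1 (n + 1) : Finset ℕ), Fin n → S l →ₐ[R l] R l := fun l j =>
    sec K (chartRing (K := K) (u l)) j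
  have hLP : ∀ l, Fermat.Agent.S17.helper1253.LocPrincipal (σ l) := fun l =>
    Fermat.Agent.S17.helper1585.chart_locPrincipal (htr l) (sl := id)
  -- the normalised sections at level `k`
  let ψ : ∀ (k : ℕ) {ι : Type} (e : ι → F)
      (_ : ∀ s, e s ∈ riemannRochSpace (Finsupp.single P0 ((k : ℤ) * n₀))),
      ∀ l : (Finset.Icc 1 (n + 1) : Finset ℕ), ι → S l := fun k _ e he l s =>
    inc K (chartRing (K := K) (u l)) n
      ⟨e s * u l ^ k, Fermat.Agent.S17.helper1585.mul_pow_mem_chartRing P0 (hu0 l) (hord l)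
        (hoff l) k (he s)⟩
  have hs : ∀ T : Finset (Fin n), c ≤ (k₂ : ℤ) * n₀ - (T.card : ℤ) →
      ∀ l, SpanHyp (σ l) T (ψ k₂ e₂ he₂ l) := fun T hcT l G =>
    hc P0 (u l) n₀ (htr l) (hord l) (hoff l) k₂ T.card hcT e₂ hspan
      (fun s => ⟨e₂ s * u l ^ k₂, Fermat.Agent.S17.helper1585.mul_pow_mem_chartRing P0 (hu0 l)
        (hord l) (hoff l) k₂ (he₂ s)⟩) (fun s => rfl) (T.orderEmbOfFin rfl) G
  -- the chart coordinates
  let g : ∀ l : (Finset.Icc 1 (n + 1) : Finset ℕ), Fin n × Unit → R l := fun l p =>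
    pt (K := K) p.1 (Fermat.Agent.S17.helper1585.chartCoord (K := K) (u l))
  have hint : ∀ l (r : R l), IsIntegral (Algebra.adjoin ℚ (Set.range (g l))) r := fun l r =>
    Fermat.Agent.S17.helper3330.isIntegral_adjoin_rat_pt
      (fun _ : Unit => Fermat.Agent.S17.helper1585.chartCoord (K := K) (u l))
      (Fermat.Agent.S17.helper1585.isIntegral_adjoin_chartCoord (htr l)) r
  have hcard : Fintype.card (Fin n) < (Finset.Icc 1 (n + 1) : Finset ℕ).card := by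
    simp
  -- one constant per triple of slot sets
  have key : ∀ τ : Finset (Fin n) × Finset (Fin n) × Finset (Fin n), ∃ C : ℝ,
      Disjoint τ.1 τ.2.1 → Disjoint τ.1 τ.2.2 → Disjoint τ.2.1 τ.2.2 →
      c ≤ (k₂ : ℤ) * n₀ - ((τ.1 ∪ τ.2.1).card : ℤ) →
      c ≤ (k₂ : ℤ) * n₀ - ((τ.1 ∪ τ.2.2).card : ℤ) →
      c ≤ (k₂ : ℤ) * n₀ - ((τ.2.1 ∪ τ.2.2).card : ℤ) →
      ∀ (P : Fin n → Place K F), (∀ j, P j ≠ P0) →
      minorVal (fun j s => ev (P j) (e₃ s)) (τ.1 ∪ τ.2.1 ∪ τ.2.2) ≠ 0 →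
      minorVal (fun j s => ev (P j) (e₁ s)) τ.1 ≠ 0 →
      minorVal (fun j s => ev (P j) (e₁ s)) τ.2.1 ≠ 0 →
      minorVal (fun j s => ev (P j) (e₁ s)) τ.2.2 ≠ 0 →
      minorVal (fun j s => ev (P j) (e₂ s)) (τ.1 ∪ τ.2.1) ≠ 0 →
      minorVal (fun j s => ev (P j) (e₂ s)) (τ.1 ∪ τ.2.2) ≠ 0 →
      minorVal (fun j s => ev (P j) (e₂ s)) (τ.2.1 ∪ τ.2.2) ≠ 0 →
      absLogHeight (minorVal (fun j s => ev (P j) (e₃ s)) (τ.1 ∪ τ.2.1 ∪ τ.2.2))
        - absLogHeight (minorVal (fun j s => ev (P j) (e₂ s)) (τ.1 ∪ τ.2.1))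
        - absLogHeight (minorVal (fun j s => ev (P j) (e₂ s)) (τ.1 ∪ τ.2.2))
        - absLogHeight (minorVal (fun j s => ev (P j) (e₂ s)) (τ.2.1 ∪ τ.2.2))
        + absLogHeight (minorVal (fun j s => ev (P j) (e₁ s)) τ.1)
        + absLogHeight (minorVal (fun j s => ev (P j) (e₁ s)) τ.2.1)
        + absLogHeight (minorVal (fun j s => ev (P j) (e₁ s)) τ.2.2) ≤ C := by
    rintro ⟨T₁, T₂, T₃⟩
    by_cases hcond : Disjoint T₁ T₂ ∧ Disjoint T₁ T₃ ∧ Disjoint T₂ T₃ ∧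
        c ≤ (k₂ : ℤ) * n₀ - ((T₁ ∪ T₂).card : ℤ) ∧ c ≤ (k₂ : ℤ) * n₀ - ((T₁ ∪ T₃).card : ℤ) ∧
        c ≤ (k₂ : ℤ) * n₀ - ((T₂ ∪ T₃).card : ℤ)
    swap
    · exact ⟨0, fun h12 h13 h23 c12 c13 c23 => absurd ⟨h12, h13, h23, c12, c13, c23⟩ hcond⟩
    obtain ⟨h12, h13, h23, c12, c13, c23⟩ := hcond
    obtain ⟨C, -, hmain⟩ := cube_master.{0} (J := Fin n) (Finset.Icc 1 (n + 1)) (R := R) (S := S)
      hcard σ hLP T₁ T₂ T₃ h12 h13 h23 (ψ k₁ e₁ he₁) (ψ k₁ e₁ he₁) (ψ k₁ e₁ he₁)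
      (ψ k₂ e₂ he₂) (ψ k₂ e₂ he₂) (ψ k₂ e₂ he₂) (ψ k₃ e₃ he₃) (hs _ c12) (hs _ c13) (hs _ c23)
      g Prod.fst hint k₁ k₁ k₁ k₂ k₂ k₂ k₃ hk hk hk
    refine ⟨Real.log C, fun _ _ _ _ _ _ P hPne n₁₂₃ n₁ n₂ n₃ n₁₂ n₁₃ n₂₃ => ?_⟩
    refine hmain K (fun j => ev (P j) t) (fun j s => ev (P j) (e₁ s))
      (fun j s => ev (P j) (e₁ s)) (fun j s => ev (P j) (e₁ s)) (fun j s => ev (P j) (e₂ s))
      (fun j s => ev (P j) (e₂ s)) (fun j s => ev (P j) (e₂ s)) (fun j s => ev (P j) (e₃ s))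
      ?_ n₁₂₃ n₁ n₂ n₃ n₁₂ n₁₃ n₂₃
    intro l hl
    have hmem : ∀ j, u l ∈ (P j).toValuationSubring := fun j =>
      (hpt l (P j) (hPne j) (hl j)).1
    have hval : ∀ j, ev (P j) (u l) = (1 + ((l : ℕ) : K) * ev (P j) t)⁻¹ := fun j =>
      (hpt l (P j) (hPne j) (hl j)).2
    -- the key evaluation identity at every level
    have hE : ∀ (k : ℕ) {ι : Type} (e : ι → F)
        (he : ∀ s, e s ∈ riemannRochSpace (Finsupp.single P0 ((k : ℤ) * n₀))) (j : Fin n) (s : ι),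
        ev (P j) (e s) = (1 + ((l : ℕ) : K) * ev (P j) t) ^ k *
          (Fermat.Agent.S17.helper1585.chartPts P (fun j => hV (P j)) hmem).toRingHom
            (σ l j (ψ k e he l s)) := by
      intro k ι e he j s
      have h1 : σ l j (ψ k e he l s) = pt (K := K) j
          (⟨e s * u l ^ k, Fermat.Agent.S17.helper1585.mul_pow_mem_chartRing P0 (hu0 l) (hord l)
            (hoff l) k (he s)⟩ : chartRing (K := K) (u l)) :=
        Fermat.Agent.S17.helper2760.sec_inc j _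
      have h2 := Fermat.Agent.S17.helper1585.chartPt_eq_ev_mul_pow (hV (P j)) (hmem j)
        (ord_nonneg_of_mem_single (hPne j) (he s)) k
        (⟨e s * u l ^ k, Fermat.Agent.S17.helper1585.mul_pow_mem_chartRing P0 (hu0 l) (hord l)
          (hoff l) k (he s)⟩ : chartRing (K := K) (u l)) rfl
      rw [h1]
      show ev (P j) (e s) = _ * Fermat.Agent.S17.helper1585.chartPts P (fun j => hV (P j)) hmem _
      rw [Fermat.Agent.S17.helper1585.chartPts_pt, ← Fermat.Agent.S17.helper1585.chartPt_apply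
        (hV (P j)) (hmem j), h2, hval j, inv_pow, mul_comm (ev (P j) (e s)), ← mul_assoc,
        mul_inv_cancel₀ (pow_ne_zero k (hl j)), one_mul]
    refine ⟨(Fermat.Agent.S17.helper1585.chartPts P (fun j => hV (P j)) hmem).toRingHom,
      ?_, fun j _ s => hE k₃ e₃ he₃ j s, fun j _ s => hE k₁ e₁ he₁ j s,
      fun j _ s => hE k₁ e₁ he₁ j s, fun j _ s => hE k₁ e₁ he₁ j s,
      fun j _ s => hE k₂ e₂ he₂ j s, fun j _ s => hE k₂ e₂ he₂ j s,
      fun j _ s => hE k₂ e₂ he₂ j s⟩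
    intro p
    show Fermat.Agent.S17.helper1585.chartPts P (fun j => hV (P j)) hmem
      (pt (K := K) p.1 (Fermat.Agent.S17.helper1585.chartCoord (K := K) (u l))) = _
    rw [Fermat.Agent.S17.helper1585.chartPts_pt]
    exact hval p.1
  choose Cf hCf using key
  refine ⟨∑ τ, |Cf τ|, fun T₁ T₂ T₃ h12 h13 h23 c12 c13 c23 P hPne n₁₂₃ n₁ n₂ n₃ n₁₂ n₁₃ n₂₃ => ?_⟩
  exact (hCf (T₁, T₂, T₃) h12 h13 h23 c12 c13 c23 P hPne n₁₂₃ n₁ n₂ n₃ n₁₂ n₁₃ n₂₃).trans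
    ((le_abs_self _).trans (Finset.single_le_sum (f := fun τ => |Cf τ|)
      (fun _ _ => abs_nonneg _) (Finset.mem_univ (T₁, T₂, T₃))))

end Fermat.Agent.S17.helper9651
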