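import Fermat.Agent.S17.helper9651_CubeAsm
import Fermat.Agent.S17.helper1164_CubeQbar

/-!
# S17-G2-ASM, stage 2: the abstract master theorem of the cube law (track (A) of ruling R15)

Abstract chart data, one chart per node `l ∈ Tn` (`Tn` a finite set of natural numbers with more
elements than there are slots `J`):

* rings `R l` (algebras over `ℚ`; in the application the `n`-fold tensor power over `ℚ̄` of the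
  chart ring `B_l`), `S l` (`= R l ⊗ B_l`), sections `σ l : J → S l →ₐ[R l] R l` with
  `LocPrincipal`;
* seven normalised families `ψ_S l` with the spanning hypothesis for the three two-block sets;
* chart coordinates `g l k` (one per slot `slot k`) over which `R l` is integral;
* levels `a_S` with `a₁₂₃ + aᵢ = aᵢⱼ + aᵢₖ`.

Conclusion: ONE constant `C` such that for every configuration of points with values in an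
algebraic extension `Ω` of `ℚ` -- given by the values `τ j` of the pole function, the unnormalised
evaluation matrices `E_S`, and for every node `l` with `1 + l * τ j ≠ 0` for all `j` a point
`χ : R l →+* Ω` of the chart with `χ (g l k) = (1 + l * τ (slot k))⁻¹` and
`E_S j s = (1 + l * τ j) ^ a_S * χ (σ l j (ψ_S l s))` -- the alternating sum of the seven absolute
heights of the minor vectors is at most `log C`.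
-/

set_option autoImplicit false

namespace Fermat.Agent.S17.helper9651

open scoped BigOperators
open Fermat.Agent.S17
open Height AdmissibleAbsValues NumberField
open Fermat.Agent.Lib.helper927 (absLogHeight)

universe w

section Scalars

variable {L : Type*} [CommRing L] {J : Type*} [DecidableEq J]

/-- The relation between the seven row normalisers. -/
theorem rowScalar_rel (u : J → L) (T₁ T₂ T₃ : Finset J)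
    (h12 : Disjoint T₁ T₂) (h13 : Disjoint T₁ T₃) (h23 : Disjoint T₂ T₃)
    (a₁ a₂ a₃ a₁₂ a₁₃ a₂₃ a₁₂₃ : ℕ)
    (h1 : a₁₂₃ + a₁ = a₁₂ + a₁₃) (h2 : a₁₂₃ + a₂ = a₁₂ + a₂₃) (h3 : a₁₂₃ + a₃ = a₁₃ + a₂₃) :
    (∏ j ∈ T₁ ∪ T₂ ∪ T₃, u j ^ a₁₂₃) * (∏ j ∈ T₁, u j ^ a₁) * (∏ j ∈ T₂, u j ^ a₂) *
        (∏ j ∈ T₃, u j ^ a₃) =
      (∏ j ∈ T₁ ∪ T₂, u j ^ a₁₂) * (∏ j ∈ T₁ ∪ T₃, u j ^ a₁₃) * (∏ j ∈ T₂ ∪ T₃, u j ^ a₂₃) := by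
  have h123 : Disjoint (T₁ ∪ T₂) T₃ := Finset.disjoint_union_left.mpr ⟨h13, h23⟩
  simp only [Finset.prod_pow, Finset.prod_union h12, Finset.prod_union h13,
    Finset.prod_union h23, Finset.prod_union h123]
  set A := ∏ j ∈ T₁, u j
  set B := ∏ j ∈ T₂, u j
  set C := ∏ j ∈ T₃, u j
  have hA : A ^ a₁₂₃ * A ^ a₁ = A ^ a₁₂ * A ^ a₁₃ := by rw [← pow_add, ← pow_add, h1]
  have hB : B ^ a₁₂₃ * B ^ a₂ = B ^ a₁₂ * B ^ a₂₃ := by rw [← pow_add, ← pow_add, h2]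
  have hC : C ^ a₁₂₃ * C ^ a₃ = C ^ a₁₃ * C ^ a₂₃ := by rw [← pow_add, ← pow_add, h3]
  have e1 : A ^ a₁₂₃ * B ^ a₁₂₃ * C ^ a₁₂₃ * A ^ a₁ * B ^ a₂ * C ^ a₃
      = (A ^ a₁₂₃ * A ^ a₁) * (B ^ a₁₂₃ * B ^ a₂) * (C ^ a₁₂₃ * C ^ a₃) := by ring
  rw [e1, hA, hB, hC]
  ring

end Scalars

section Master

variable {J : Type*} [LinearOrder J] [Fintype J] (Tn : Finset ℕ)
  {R S : Tn → Type*} [∀ l, CommRing (R l)] [∀ l, CommRing (S l)] [∀ l, Algebra (R l) (S l)]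
  [∀ l, Algebra ℚ (R l)]
  {ι₁ ι₂ ι₃ ι₁₂ ι₁₃ ι₂₃ ι₁₂₃ γ : Type*}

/-- **Abstract master theorem of the cube law (track (A)).** -/
theorem cube_master [Finite ι₁] [Finite ι₂] [Finite ι₃] [Finite ι₁₂] [Finite ι₁₃] [Finite ι₂₃]
    [Finite ι₁₂₃] [Finite γ]
    (hTn : Fintype.card J < Tn.card)
    (σ : ∀ l, J → S l →ₐ[R l] R l) (hLP : ∀ l, helper1253.LocPrincipal (σ l))
    (T₁ T₂ T₃ : Finset J) (h12 : Disjoint T₁ T₂) (h13 : Disjoint T₁ T₃) (h23 : Disjoint T₂ T₃)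
    (ψ₁ : ∀ l, ι₁ → S l) (ψ₂ : ∀ l, ι₂ → S l) (ψ₃ : ∀ l, ι₃ → S l) (ψ₁₂ : ∀ l, ι₁₂ → S l)
    (ψ₁₃ : ∀ l, ι₁₃ → S l) (ψ₂₃ : ∀ l, ι₂₃ → S l) (ψ₁₂₃ : ∀ l, ι₁₂₃ → S l)
    (hs₁₂ : ∀ l, SpanHyp (σ l) (T₁ ∪ T₂) (ψ₁₂ l)) (hs₁₃ : ∀ l, SpanHyp (σ l) (T₁ ∪ T₃) (ψ₁₃ l))
    (hs₂₃ : ∀ l, SpanHyp (σ l) (T₂ ∪ T₃) (ψ₂₃ l))
    (g : ∀ l, γ → R l) (slot : γ → J)
    (hint : ∀ l (r : R l), IsIntegral (Algebra.adjoin ℚ (Set.range (g l))) r)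
    (a₁ a₂ a₃ a₁₂ a₁₃ a₂₃ a₁₂₃ : ℕ)
    (h1 : a₁₂₃ + a₁ = a₁₂ + a₁₃) (h2 : a₁₂₃ + a₂ = a₁₂ + a₂₃) (h3 : a₁₂₃ + a₃ = a₁₃ + a₂₃) :
    ∃ C : ℝ, 1 ≤ C ∧ ∀ (Ω : Type w) [Field Ω] [CharZero Ω] [Algebra.IsAlgebraic ℚ Ω]
      (τ : J → Ω) (E₁ : J → ι₁ → Ω) (E₂ : J → ι₂ → Ω) (E₃ : J → ι₃ → Ω) (E₁₂ : J → ι₁₂ → Ω)
      (E₁₃ : J → ι₁₃ → Ω) (E₂₃ : J → ι₂₃ → Ω) (E₁₂₃ : J → ι₁₂₃ → Ω),
      (∀ l : Tn, (∀ j, 1 + ((l : ℕ) : Ω) * τ j ≠ 0) → ∃ χ : R l →+* Ω,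
        (∀ k, χ (g l k) = (1 + ((l : ℕ) : Ω) * τ (slot k))⁻¹) ∧
        (∀ j ∈ T₁ ∪ T₂ ∪ T₃, ∀ s,
          E₁₂₃ j s = (1 + ((l : ℕ) : Ω) * τ j) ^ a₁₂₃ * χ (σ l j (ψ₁₂₃ l s))) ∧
        (∀ j ∈ T₁, ∀ s, E₁ j s = (1 + ((l : ℕ) : Ω) * τ j) ^ a₁ * χ (σ l j (ψ₁ l s))) ∧
        (∀ j ∈ T₂, ∀ s, E₂ j s = (1 + ((l : ℕ) : Ω) * τ j) ^ a₂ * χ (σ l j (ψ₂ l s))) ∧
        (∀ j ∈ T₃, ∀ s, E₃ j s = (1 + ((l : ℕ) : Ω) * τ j) ^ a₃ * χ (σ l j (ψ₃ l s))) ∧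
        (∀ j ∈ T₁ ∪ T₂, ∀ s,
          E₁₂ j s = (1 + ((l : ℕ) : Ω) * τ j) ^ a₁₂ * χ (σ l j (ψ₁₂ l s))) ∧
        (∀ j ∈ T₁ ∪ T₃, ∀ s,
          E₁₃ j s = (1 + ((l : ℕ) : Ω) * τ j) ^ a₁₃ * χ (σ l j (ψ₁₃ l s))) ∧
        (∀ j ∈ T₂ ∪ T₃, ∀ s,
          E₂₃ j s = (1 + ((l : ℕ) : Ω) * τ j) ^ a₂₃ * χ (σ l j (ψ₂₃ l s)))) →
      minorVal E₁₂₃ (T₁ ∪ T₂ ∪ T₃) ≠ 0 → minorVal E₁ T₁ ≠ 0 → minorVal E₂ T₂ ≠ 0 →
      minorVal E₃ T₃ ≠ 0 → minorVal E₁₂ (T₁ ∪ T₂) ≠ 0 → minorVal E₁₃ (T₁ ∪ T₃) ≠ 0 →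
      minorVal E₂₃ (T₂ ∪ T₃) ≠ 0 →
      absLogHeight (minorVal E₁₂₃ (T₁ ∪ T₂ ∪ T₃)) - absLogHeight (minorVal E₁₂ (T₁ ∪ T₂))
          - absLogHeight (minorVal E₁₃ (T₁ ∪ T₃)) - absLogHeight (minorVal E₂₃ (T₂ ∪ T₃))
          + absLogHeight (minorVal E₁ T₁) + absLogHeight (minorVal E₂ T₂)
          + absLogHeight (minorVal E₃ T₃) ≤ Real.log C := by
  classical
  obtain ⟨C, hC, hmain⟩ := helper1164.cube_absLogHeight_le_of_points.{w, 0} (Λ := Tn) (R := R) g hint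
    (fun l => minorElt (σ l) (T₁ ∪ T₂ ∪ T₃) (ψ₁₂₃ l)) (fun l => minorElt (σ l) T₁ (ψ₁ l))
    (fun l => minorElt (σ l) T₂ (ψ₂ l)) (fun l => minorElt (σ l) T₃ (ψ₃ l))
    (fun l => minorElt (σ l) (T₁ ∪ T₂) (ψ₁₂ l)) (fun l => minorElt (σ l) (T₁ ∪ T₃) (ψ₁₃ l))
    (fun l => minorElt (σ l) (T₂ ∪ T₃) (ψ₂₃ l))
    (fun l => cube_minors_le (σ l) (hLP l) T₁ T₂ T₃ h12 h13 h23 (ψ₁ l) (ψ₂ l) (ψ₃ l) (ψ₁₂ l)
      (ψ₁₃ l) (ψ₂₃ l) (ψ₁₂₃ l) (hs₁₂ l) (hs₁₃ l) (hs₂₃ l))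
    (helper1395.chartDen_ne_zero Tn 1) (helper1395.one_le_chartConst Tn 1)
  refine ⟨C, hC, ?_⟩
  intro Ω _ _ _ τ E₁ E₂ E₃ E₁₂ E₁₃ E₂₃ E₁₂₃ hχ n₁₂₃ n₁ n₂ n₃ n₁₂ n₁₃ n₂₃
  -- the candidate points: the nodes whose chart contains the configuration
  let P : Type := {l : Tn // ∀ j, 1 + ((l : ℕ) : Ω) * τ j ≠ 0}
  let chart : P → Tn := Subtype.val
  choose χ hg h₁₂₃ h₁ h₂ h₃ h₁₂ h₁₃ h₂₃ using hχ
  refine hmain Ω _ _ _ _ _ _ _ n₁₂₃ n₁ n₂ n₃ n₁₂ n₁₃ n₂₃ P chart (fun p => χ p.1 p.2) ?_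
    (Set.range τ) (Set.finite_range τ) ?_
  · -- the seven vectors are values of the chart families at the point, up to the row scalars
    intro p
    obtain ⟨l, hl⟩ := p
    set u : J → Ω := fun j => 1 + ((l : ℕ) : Ω) * τ j with hu
    have hT : ∀ T : Finset J, ∀ a : ℕ, ∏ j ∈ T, u j ^ a ≠ 0 := fun T a =>
      Finset.prod_ne_zero_iff.mpr fun j _ => pow_ne_zero _ (hl j)
    refine ⟨∏ j ∈ T₁ ∪ T₂ ∪ T₃, u j ^ a₁₂₃, ∏ j ∈ T₁, u j ^ a₁, ∏ j ∈ T₂, u j ^ a₂,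
      ∏ j ∈ T₃, u j ^ a₃, ∏ j ∈ T₁ ∪ T₂, u j ^ a₁₂, ∏ j ∈ T₁ ∪ T₃, u j ^ a₁₃,
      ∏ j ∈ T₂ ∪ T₃, u j ^ a₂₃,
      rowScalar_rel u T₁ T₂ T₃ h12 h13 h23 a₁ a₂ a₃ a₁₂ a₁₃ a₂₃ a₁₂₃ h1 h2 h3,
      mul_ne_zero (mul_ne_zero (hT _ _) (hT _ _)) (hT _ _), ?_, ?_, ?_, ?_, ?_, ?_, ?_⟩
    · exact fun s => minorVal_eq (χ l hl) (σ l) _ (ψ₁₂₃ l) u a₁₂₃ E₁₂₃ (h₁₂₃ l hl) s
    · exact fun s => minorVal_eq (χ l hl) (σ l) _ (ψ₁ l) u a₁ E₁ (h₁ l hl) s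
    · exact fun s => minorVal_eq (χ l hl) (σ l) _ (ψ₂ l) u a₂ E₂ (h₂ l hl) s
    · exact fun s => minorVal_eq (χ l hl) (σ l) _ (ψ₃ l) u a₃ E₃ (h₃ l hl) s
    · exact fun s => minorVal_eq (χ l hl) (σ l) _ (ψ₁₂ l) u a₁₂ E₁₂ (h₁₂ l hl) s
    · exact fun s => minorVal_eq (χ l hl) (σ l) _ (ψ₁₃ l) u a₁₃ E₁₃ (h₁₃ l hl) s
    · exact fun s => minorVal_eq (χ l hl) (σ l) _ (ψ₂₃ l) u a₂₃ E₂₃ (h₂₃ l hl) s
  · -- the region: chart choice (H3) with the two coordinates `1, τ j`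
    intro L _ hsL hL
    have hτL : ∀ j, τ j ∈ L := fun j => hsL ⟨j, rfl⟩
    let e : J → Fin (1 + 1) → L := fun j => ![1, ⟨τ j, hτL j⟩]
    have he : ∀ j, e j ≠ 0 := fun j h0 => one_ne_zero (congrFun h0 0)
    have hcard : Nat.card J * 1 < Tn.card := by
      rw [mul_one, Nat.card_eq_fintype_card]; exact hTn
    have hnode : ∀ (l : ℕ) (j : J),
        ((helper1395.nodeSection (e j) l : L) : Ω) = 1 + (l : Ω) * τ j := by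
      intro l j
      rw [helper1395.nodeSection_def, Fin.sum_univ_two]
      simp [e]
    have key : ∀ (v : AbsoluteValue L ℝ) (ρ : ℝ),
        (∃ l ∈ Tn, ∀ j, helper1395.nodeSection (e j) l ≠ 0 ∧
          ∀ s, v (e j s / helper1395.nodeSection (e j) l) ≤ ρ) →
        ∃ p : P, ∀ k, v (⟨χ p.1 p.2 (g (chart p) k), hL p k⟩ : L) ≤ ρ := by
      rintro v ρ ⟨l, hlT, hl⟩
      have hgood : ∀ j, 1 + (((⟨l, hlT⟩ : Tn) : ℕ) : Ω) * τ j ≠ 0 := fun j h0 => by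
        apply (hl j).1
        apply Subtype.val_injective
        rw [hnode l j]
        exact h0
      refine ⟨⟨⟨l, hlT⟩, hgood⟩, fun k => ?_⟩
      have hk : (⟨χ ⟨l, hlT⟩ hgood (g ⟨l, hlT⟩ k), hL ⟨⟨l, hlT⟩, hgood⟩ k⟩ : L) =
          e (slot k) 0 / helper1395.nodeSection (e (slot k)) l := by
        apply Subtype.val_injective
        show χ ⟨l, hlT⟩ hgood (g ⟨l, hlT⟩ k) = _
        rw [hg ⟨l, hlT⟩ hgood k]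
        have : ((e (slot k) 0 / helper1395.nodeSection (e (slot k)) l : L) : Ω) =
            ((e (slot k) 0 : L) : Ω) / ((helper1395.nodeSection (e (slot k)) l : L) : Ω) := by
          push_cast; rfl
        rw [this, hnode l (slot k)]
        simp [e]
      rw [hk]
      exact (hl (slot k)).2 0
    refine ⟨fun v hv => key v _ ?_, fun v hv => key v _ ?_⟩
    · exact helper1395.exists_chart_region_arch v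
        (fun k hk => helper1395.one_le_abv_natCast_of_mem_archAbsVal hv k hk) 1 Tn hcard e he
    · exact helper1395.exists_chart_region_nonarch v (isNonarchimedean v hv) 1 Tn hcard e he

end Master

end Fermat.Agent.S17.helper9651
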