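import Fermat.Agent.S17.helper9651_CubeCharts
import Fermat.Agent.S17.helper2264_ChartFamily
import Fermat.Agent.S17.helper3588_PhiEval
import Fermat.Agent.S17.helper1614_AdmEnum

/-!
# S17 leaf L7 (CubeSpec), track (A) of captain ruling R15: the final wiring

`cubeSpec : CubeSpec F₀ P0` on the Spec carriers, from

* `cube_charts` (the cube law on the chart family `u_l = (1 + l t)⁻¹`, `l = 1, …, 3d + 1`),
* `helper2264.exists_rat_pole`, `helper2264.chart_package` (the rational pole function `t` and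
  its chart family),
* `helper3588.exists_absLogHeight_evalMinors_eq_Phi` (PHIEV: the absolute height of the
  evaluation minors is `Φ`),
* `helper1614.exists_enum_of_isAdmTriple` (enumeration of an admissible triple).
-/

set_option autoImplicit false
set_option linter.style.haveILetI false
set_option linter.unusedVariables false

open ModularCurve AlgebraicCurve IntermediateField

namespace Fermat.Agent.S17.helper9651

open Fermat.Agent.S17.helper3197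
open Fermat.Agent.S27.helper6247 (ev pt sumDiv)
open Fermat.Agent.Lib.helper927 (absLogHeight)

/-- **Leaf L7 (CubeSpec), track (A).** -/
theorem cubeSpec (F₀ : IntermediateField ℚ (LaurentSeries ℚ)) (P0 : Place Qb (FB F₀))
    (x : FB F₀) (hx : Transcendental Qb x) [FiniteDimensional Qb⟮x⟯ (FB F₀)]
    (hP0 : IsRatPlace F₀ P0) (hR : RiemannSpec F₀) (hQ : RatDescSpec F₀)
    (hL : LinDisjSpec F₀) : CubeSpec F₀ P0 := by
  classical
  haveI : Algebra.IsAlgebraic ℚ Qb := AlgebraicClosure.isAlgebraic ℚ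
  obtain ⟨n₀, t, hn₀, ht, hord⟩ :=
    Fermat.Agent.S17.helper2264.exists_rat_pole F₀ P0 x hx hP0 hR hQ
  obtain ⟨cC, hcube⟩ := cube_charts (K := Qb) (F := FB F₀) x hx
  obtain ⟨cP, hphi⟩ :=
    Fermat.Agent.S17.helper3588.exists_absLogHeight_evalMinors_eq_Phi F₀ P0 x hx hP0 hR hQ
  have hn₀' : (0 : ℤ) < (n₀ : ℤ) := by exact_mod_cast hn₀
  refine ⟨(n₀ : ℤ), hn₀', max (max cC cP) 0, ?_⟩
  intro fr c d hc hnc hd hnd
  have hc0 : 0 ≤ c := le_trans (le_max_right _ _) hc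
  have hcC : cC ≤ c := le_trans (le_trans (le_max_left _ _) (le_max_left _ _)) hc
  have hcP : cP ≤ c := le_trans (le_trans (le_max_right _ _) (le_max_left _ _)) hc
  -- the levels as natural multiples of `n₀`
  obtain ⟨qc, hqc⟩ := hnc
  obtain ⟨qd, hqd⟩ := hnd
  have hqc0 : 0 ≤ qc := by
    by_contra hneg
    have : (n₀ : ℤ) * qc < 0 := mul_neg_of_pos_of_neg hn₀' (not_le.mp hneg)
    omega
  have hqd0 : 0 ≤ qd := by
    by_contra hneg
    have : (n₀ : ℤ) * qd < 0 := mul_neg_of_pos_of_neg hn₀' (not_le.mp hneg)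
    omega
  lift qc to ℕ using hqc0 with a
  lift qd to ℕ using hqd0 with b
  have hm₁ : ((b + a : ℕ) : ℤ) * (n₀ : ℤ) = d + c := by rw [hqc, hqd]; push_cast; ring
  have hm₂ : ((2 * b + a : ℕ) : ℤ) * (n₀ : ℤ) = 2 * d + c := by rw [hqc, hqd]; push_cast; ring
  have hm₃ : ((3 * b + a : ℕ) : ℤ) * (n₀ : ℤ) = 3 * d + c := by rw [hqc, hqd]; push_cast; ring
  have hn : ((3 * (n₀ * b) : ℕ) : ℤ) = 3 * d := by rw [hqd]; push_cast; ring
  have hlev : ∀ m : ℤ, (m • pt P0 : Divisor Qb (FB F₀)) = Finsupp.single P0 m := fun m => by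
    rw [pt, Finsupp.smul_single, smul_eq_mul, mul_one]
  -- the chart family
  have hu : ∀ l ∈ Finset.Icc 1 (3 * (n₀ * b) + 1),
      (1 + (l : FB F₀) * ratEmb F₀ t)⁻¹ ≠ 0 ∧
      Transcendental Qb ((1 + (l : FB F₀) * ratEmb F₀ t)⁻¹) ∧
      P0.ord ((1 + (l : FB F₀) * ratEmb F₀ t)⁻¹) = (n₀ : ℤ) ∧
      (∀ Q : Place Qb (FB F₀), Q ≠ P0 → Q.ord ((1 + (l : FB F₀) * ratEmb F₀ t)⁻¹) ≤ 0) ∧
      ∀ P : Place Qb (FB F₀), P ≠ P0 → 1 + (l : Qb) * ev P (ratEmb F₀ t) ≠ 0 →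
        (1 + (l : FB F₀) * ratEmb F₀ t)⁻¹ ∈ P.toValuationSubring ∧
        ev P ((1 + (l : FB F₀) * ratEmb F₀ t)⁻¹) = (1 + (l : Qb) * ev P (ratEmb F₀ t))⁻¹ := by
    intro l hl
    have hl0 : l ≠ 0 := by
      have := (Finset.mem_Icc.mp hl).1
      omega
    obtain ⟨h1, h2, -, h4, h5, h6⟩ :=
      Fermat.Agent.S17.helper2264.chart_package F₀ P0 x hn₀ ht hord (l := l) hl0
    exact ⟨h1, h2, h4, h5, fun P hP hne => ⟨(h6 P hP hne).1, (h6 P hP hne).2.1⟩⟩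
  -- the frames
  have he : ∀ (k : ℕ) (m : ℤ), (k : ℤ) * (n₀ : ℤ) = m → ∀ s : Fin (fr.n m),
      ratEmb F₀ ((fr.b m s : ↥(Alev F₀ P0 m)) : F₀) ∈
        riemannRochSpace (Finsupp.single P0 ((k : ℤ) * (n₀ : ℤ)) : Divisor Qb (FB F₀)) := by
    intro k m hkm s
    rw [hkm, ← hlev m]
    exact Fermat.Agent.S17.helper3588.ratEmb_mem_rr m (fr.b m s)
  have hspan : riemannRochSpace
      (Finsupp.single P0 (((2 * b + a : ℕ) : ℤ) * (n₀ : ℤ)) : Divisor Qb (FB F₀)) ≤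
      Submodule.span Qb (Set.range fun s : Fin (fr.n (2 * d + c)) =>
        ratEmb F₀ ((fr.b (2 * d + c) s : ↥(Alev F₀ P0 (2 * d + c))) : F₀)) := by
    rw [hm₂, ← hlev (2 * d + c),
      Fermat.Agent.S17.helper3588.span_ratEmb_frame hP0 hQ fr (2 * d + c)]
  obtain ⟨C, hC⟩ := hcube P0 n₀ (ratEmb F₀ t) (3 * (n₀ * b))
    (fun l => (1 + (l : FB F₀) * ratEmb F₀ t)⁻¹) hu (b + a) (2 * b + a) (3 * b + a) (by omega)
    (fun s : Fin (fr.n (d + c)) => ratEmb F₀ ((fr.b (d + c) s : ↥(Alev F₀ P0 (d + c))) : F₀))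
    (fun s : Fin (fr.n (2 * d + c)) =>
      ratEmb F₀ ((fr.b (2 * d + c) s : ↥(Alev F₀ P0 (2 * d + c))) : F₀))
    (fun s : Fin (fr.n (3 * d + c)) =>
      ratEmb F₀ ((fr.b (3 * d + c) s : ↥(Alev F₀ P0 (3 * d + c))) : F₀))
    (he _ _ hm₁) (he _ _ hm₂) (he _ _ hm₃) hspan
  refine ⟨C, fun D₁ D₂ D₃ hadm => ?_⟩
  obtain ⟨P, T₁, T₂, T₃, hinj, hPne, h12, h13, h23, hD₁, hD₂, hD₃, hc₁, hc₂, hc₃⟩ :=
    Fermat.Agent.S17.helper1614.exists_enum_of_isAdmTriple x hx hadm (3 * (n₀ * b)) hn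
  have h123 : Disjoint (T₁ ∪ T₂) T₃ := Finset.disjoint_union_left.mpr ⟨h13, h23⟩
  -- sums and cardinalities of the seven slot sets
  have s12 : ∑ j ∈ T₁ ∪ T₂, pt (P j) = D₁ + D₂ := by rw [Finset.sum_union h12, hD₁, hD₂]
  have s13 : ∑ j ∈ T₁ ∪ T₃, pt (P j) = D₁ + D₃ := by rw [Finset.sum_union h13, hD₁, hD₃]
  have s23 : ∑ j ∈ T₂ ∪ T₃, pt (P j) = D₂ + D₃ := by rw [Finset.sum_union h23, hD₂, hD₃]
  have s123 : ∑ j ∈ T₁ ∪ T₂ ∪ T₃, pt (P j) = D₁ + D₂ + D₃ := by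
    rw [Finset.sum_union h123, s12, hD₃]
  have k12 : ((T₁ ∪ T₂).card : ℤ) = 2 * d := by
    rw [Finset.card_union_of_disjoint h12]; push_cast; omega
  have k13 : ((T₁ ∪ T₃).card : ℤ) = 2 * d := by
    rw [Finset.card_union_of_disjoint h13]; push_cast; omega
  have k23 : ((T₂ ∪ T₃).card : ℤ) = 2 * d := by
    rw [Finset.card_union_of_disjoint h23]; push_cast; omega
  have k123 : ((T₁ ∪ T₂ ∪ T₃).card : ℤ) = 3 * d := by
    rw [Finset.card_union_of_disjoint h123, Finset.card_union_of_disjoint h12]; push_cast; omega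
  -- PHIEV for a slot set
  have piece : ∀ (T : Finset (Fin (3 * (n₀ * b)))) (m : ℤ) (D : Divisor Qb (FB F₀)),
      ∑ j ∈ T, pt (P j) = D → IsRat F₀ D → (T.card : ℤ) + cP ≤ m →
      minorVal (fun j s => ev (P j) (ratEmb F₀ ((fr.b m s : ↥(Alev F₀ P0 m)) : F₀))) T ≠ 0 ∧
      absLogHeight (minorVal
        (fun j s => ev (P j) (ratEmb F₀ ((fr.b m s : ↥(Alev F₀ P0 m)) : F₀))) T) =
          Phi fr m D := by
    intro T m D hD hrat hm
    have hs : sumDiv (fun i : Fin T.card => P (T.orderEmbOfFin rfl i)) = D := by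
      rw [Fermat.Agent.S17.helper1614.sumDiv_orderEmb P T, hD]
    have h := hphi fr m T.card (fun i => P (T.orderEmbOfFin rfl i))
      (hinj.comp (T.orderEmbOfFin rfl).injective) (fun i => hPne _) (by rw [hs]; exact hrat) hm
    rw [hs] at h
    exact h
  have r12 := Fermat.Agent.S17.helper1935.isRat_add hadm.rat₁ hadm.rat₂
  have r13 := Fermat.Agent.S17.helper1935.isRat_add hadm.rat₁ hadm.rat₃
  have r23 := Fermat.Agent.S17.helper1935.isRat_add hadm.rat₂ hadm.rat₃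
  have r123 := Fermat.Agent.S17.helper1935.isRat_add r12 hadm.rat₃
  obtain ⟨n₁, p₁⟩ := piece T₁ (d + c) D₁ hD₁ hadm.rat₁ (by omega)
  obtain ⟨n₂, p₂⟩ := piece T₂ (d + c) D₂ hD₂ hadm.rat₂ (by omega)
  obtain ⟨n₃, p₃⟩ := piece T₃ (d + c) D₃ hD₃ hadm.rat₃ (by omega)
  obtain ⟨n₁₂, p₁₂⟩ := piece (T₁ ∪ T₂) (2 * d + c) (D₁ + D₂) s12 r12 (by omega)
  obtain ⟨n₁₃, p₁₃⟩ := piece (T₁ ∪ T₃) (2 * d + c) (D₁ + D₃) s13 r13 (by omega)
  obtain ⟨n₂₃, p₂₃⟩ := piece (T₂ ∪ T₃) (2 * d + c) (D₂ + D₃) s23 r23 (by omega)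
  obtain ⟨n₁₂₃, p₁₂₃⟩ := piece (T₁ ∪ T₂ ∪ T₃) (3 * d + c) (D₁ + D₂ + D₃) s123 r123 (by omega)
  have hfin := hC T₁ T₂ T₃ h12 h13 h23 (by rw [hm₂, k12]; omega) (by rw [hm₂, k13]; omega)
    (by rw [hm₂, k23]; omega) P hPne n₁₂₃ n₁ n₂ n₃ n₁₂ n₁₃ n₂₃
  rw [p₁₂₃, p₁₂, p₁₃, p₂₃, p₁, p₂, p₃] at hfin
  exact hfin

end Fermat.Agent.S17.helper9651
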