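/-
S17 (Mordell–Weil for `JZero N`), leaf W5 (seat helper969): the classical finiteness input of the
weak Mordell–Weil theorem,

  `expUnramifiedBound (p M) [Fact p.Prime] (hM : M ≠ 0) : helper9541.ExpUnramifiedBound p M`,

i.e. over every number field `K ⊆ ℚ̄` the compositum of all abelian extensions of exponent `p`
unramified outside `M` is finite.

Proof: adjoin `ζ_p`; Kummer generation by Lagrange resolvents; unramified Kummer generators have
valuations divisible by `p` outside a finite set of primes (Lib/helper54 + S55/helper4709);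
finiteness of the Selmer group `Kum(S)/Kˣᵖ` (S55/helper9292).
-/
import Mathlib
import Fermat.Agent.S17.helper9541_WeakMW
import Fermat.Agent.S55.helper9292_SelmerCount
import Fermat.Agent.S55.helper4709_GlobRam
import Fermat.Agent.S55.helper4039_SField
import Fermat.Agent.Lib.helper54_LocalSplit2

set_option autoImplicit false
set_option linter.style.haveILetI false

namespace Fermat.Agent.S17.helper969

open Polynomial IsDedekindDomain
open scoped Pointwise NumberField nonZeroDivisors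
open Fermat.Agent.Lib

attribute [local instance] helper54.isAlgebraic_Qbar helper54.isAlgClosure_Qbar
  helper54.isGalois_Qbar helper54.isIntegral_Qbar helper54.numberField_intermediate

local notation "Qb" => AlgebraicClosure ℚ
local notation "GQ" => (AlgebraicClosure ℚ ≃ₐ[ℚ] AlgebraicClosure ℚ)

/-! ## Part B: inertia acts trivially away from finitely many primes -/

/-- For every algebraic number `x` there is a nonzero integer `D` such that all inertia groups at
primes not dividing `D` fix `x`. -/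
theorem exists_nat_inertia_fixes (x : Qb) :
    ∃ D : ℕ, D ≠ 0 ∧ ∀ ℓ : ℕ, ℓ.Prime → ¬ ℓ ∣ D → ∀ A : ValuationSubring Qb,
      A.LiesOverPrime ℓ → ∀ σ ∈ A.inertiaSubgroupIn ℚ, σ x = x := by
  have halg : IsAlgebraic ℤ x := by
    have h1 : IsAlgebraic ℚ x := Algebra.IsAlgebraic.isAlgebraic x
    exact (IsFractionRing.isAlgebraic_iff ℤ ℚ Qb).mpr h1
  obtain ⟨c, hc0, hcx⟩ := halg.exists_integral_multiple
  set y : Qb := c • x with hy
  set f : ℤ[X] := minpoly ℤ y with hf
  have hfy : aeval y f = 0 := minpoly.aeval ℤ y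
  set δ : Qb := aeval y (derivative f) with hδ
  have hδ0 : δ ≠ 0 := by
    intro h
    have hdvd : f ∣ derivative f := minpoly.isIntegrallyClosed_dvd hcx h
    have hdeg : f.natDegree ≠ 0 := (minpoly.natDegree_pos hcx).ne'
    have hlt := natDegree_derivative_lt hdeg
    have hd0 : derivative f ≠ 0 := by
      intro h0
      exact hdeg (Polynomial.derivative_eq_zero.mp h0)
    exact absurd (natDegree_le_of_dvd hdvd hd0) (not_le.mpr hlt)
  have hint : ∀ q : ℤ[X], IsIntegral ℤ (aeval y q) := by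
    intro q
    have := (integralClosure ℤ Qb).aeval_coe ⟨y, hcx⟩ q
    rw [this]
    exact (aeval (⟨y, hcx⟩ : integralClosure ℤ Qb) q).2
  have hδint : IsIntegral ℤ δ := hint _
  set g : ℤ[X] := minpoly ℤ δ with hg
  have hg0 : g.coeff 0 ≠ 0 := by
    have h1 : minpoly ℚ δ = g.map (algebraMap ℤ ℚ) :=
      minpoly.isIntegrallyClosed_eq_field_fractions' ℚ hδint
    have h2 : (minpoly ℚ δ).coeff 0 ≠ 0 :=
      minpoly.coeff_zero_ne_zero (Algebra.IsIntegral.isIntegral δ) hδ0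
    rw [h1, coeff_map] at h2
    intro h
    rw [h, map_zero] at h2
    exact h2 rfl
  refine ⟨(g.coeff 0).natAbs, Int.natAbs_ne_zero.mpr hg0, ?_⟩
  intro ℓ hℓ hdvd A hA σ hσ
  have hndvd : ¬ (ℓ : ℤ) ∣ g.coeff 0 := by
    intro h
    exact hdvd (Int.natCast_dvd.mp h)
  -- `δ` is a unit of `A`
  have hgδ : δ * aeval δ g.divX + (g.coeff 0 : Qb) = 0 := by
    have h1 := congrArg (aeval δ) (divX_mul_X_add g)
    rw [minpoly.aeval ℤ δ, map_add, map_mul, aeval_X, aeval_C] at h1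
    rw [mul_comm]
    simpa using h1
  have hval0 : A.valuation ((g.coeff 0 : ℤ) : Qb) = 1 :=
    Fermat.Agent.S05.helper4205.valuation_intCast_eq_one hℓ hA hndvd
  have hintA : ∀ z : Qb, IsIntegral ℤ z → A.valuation z ≤ 1 := fun z hz =>
    (A.valuation_le_one_iff z).mpr (helper54.mem_valuationSubring_of_isIntegral A z hz)
  have hδval : A.valuation δ = 1 := by
    have h1 : δ * aeval δ g.divX = -((g.coeff 0 : ℤ) : Qb) := eq_neg_of_add_eq_zero_left hgδ
    have h2 := congrArg A.valuation h1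
    rw [map_mul, Valuation.map_neg, hval0] at h2
    have h3 := hintA δ hδint
    have h4 := hintA (aeval δ g.divX) (by
      have := (integralClosure ℤ Qb).aeval_coe ⟨δ, hδint⟩ g.divX
      rw [this]
      exact (aeval (⟨δ, hδint⟩ : integralClosure ℤ Qb) g.divX).2)
    refine le_antisymm h3 ?_
    rw [← h2]
    exact mul_le_of_le_one_right' h4
  -- apply the simple root lemma
  have hyA : y ∈ A := helper54.mem_valuationSubring_of_isIntegral A y hcx
  set F : Polynomial A := f.map (Int.castRingHom A) with hF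
  have hFcoe : ∀ q : ℤ[X],
      A.subtype ((q.map (Int.castRingHom A)).eval (⟨y, hyA⟩ : A)) = aeval y q := by
    intro q
    rw [eval_map, hom_eval₂, aeval_def]
    congr 1
  have hσy : σ y = y := by
    have key := Fermat.Agent.S05.helper4205.apply_eq_self_of_simple_root hσ F ?_ ⟨y, hyA⟩ ?_ ?_
    · exact key
    · intro i
      rw [hF, coeff_map]
      simp
    · apply Subtype.ext
      have := hFcoe f
      rw [hfy] at this
      exact this
    · rw [hF, derivative_map, ValuationSubring.valuation_eq_one_iff]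
      have := hFcoe (derivative f)
      change ((eval (⟨y, hyA⟩ : A) (map (Int.castRingHom A) (derivative f)) : A) : Qb) = δ at this
      rw [this]
      exact hδval
  have hcQ : ((c : ℤ) : Qb) ≠ 0 := by exact_mod_cast hc0
  have hyx : y = (c : Qb) * x := by
    rw [hy, zsmul_eq_mul]
  have h1 : σ y = (c : Qb) * σ x := by
    rw [hyx, map_mul, map_intCast]
  rw [hσy, hyx] at h1
  exact (mul_left_cancel₀ hcQ h1).symm

/-- A finite extension `K` of `ℚ` inside `ℚ̄` is fixed by all inertia groups at primes not dividing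
a suitable nonzero integer. -/
theorem exists_nat_inertia_le_fixingSubgroup (K : IntermediateField ℚ Qb)
    [FiniteDimensional ℚ K] :
    ∃ D : ℕ, D ≠ 0 ∧ ∀ ℓ : ℕ, ℓ.Prime → ¬ ℓ ∣ D → ∀ A : ValuationSubring Qb,
      A.LiesOverPrime ℓ → A.inertiaSubgroupIn ℚ ≤ K.fixingSubgroup := by
  classical
  let b := Module.finBasis ℚ K
  choose D hD0 hD using fun i => exists_nat_inertia_fixes ((b i : K) : Qb)
  refine ⟨∏ i, D i, Finset.prod_ne_zero_iff.mpr (fun i _ => hD0 i), ?_⟩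
  intro ℓ hℓ hdvd A hA σ hσ
  rw [IntermediateField.mem_fixingSubgroup_iff]
  intro x hx
  have hfix : ∀ i, σ ((b i : K) : Qb) = (b i : K) := fun i =>
    hD i ℓ hℓ (fun h => hdvd (h.trans (Finset.dvd_prod_of_mem _ (Finset.mem_univ i)))) A hA σ hσ
  have hrepr := b.sum_repr ⟨x, hx⟩
  have hx' : x = ∑ i, (b.repr ⟨x, hx⟩ i) • ((b i : K) : Qb) := by
    have h1 := congrArg (fun z : K => (z : Qb)) hrepr
    simp only [IntermediateField.coe_sum, IntermediateField.coe_smul] at h1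
    exact h1.symm
  rw [hx', map_sum]
  refine Finset.sum_congr rfl (fun i _ => ?_)
  rw [map_rat_smul, hfix i]

/-! ## Part A: Kummer generation by Lagrange resolvents -/

/-- **Lagrange resolvent** (Hilbert 90 for a character of finite level): a character `ψ` of
`Gal(ℚ̄/K)` with values in `K`, trivial on `Gal(ℚ̄/E)` for a finite `E`, is of the form
`g ↦ g α / α`. -/
theorem exists_resolvent (K E : IntermediateField ℚ Qb) [FiniteDimensional ℚ E]
    (ψ : ↥K.fixingSubgroup →* Qbˣ)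
    (hψE : ∀ g : ↥K.fixingSubgroup, (g : GQ) ∈ E.fixingSubgroup → ψ g = 1)
    (hψK : ∀ g : ↥K.fixingSubgroup, ((ψ g : Qbˣ) : Qb) ∈ K) :
    ∃ α : Qb, α ≠ 0 ∧ ∀ g : ↥K.fixingSubgroup, (g : GQ) α = ((ψ g : Qbˣ) : Qb) * α := by
  classical
  let N : Subgroup ↥K.fixingSubgroup := E.fixingSubgroup.subgroupOf K.fixingSubgroup
  have hidx : E.fixingSubgroup.index ≠ 0 := by
    rw [← IntermediateField.finrank_eq_fixingSubgroup_index]
    exact Module.finrank_pos.ne'
  have : E.fixingSubgroup.FiniteIndex := ⟨hidx⟩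
  have : N.FiniteIndex := inferInstanceAs (E.fixingSubgroup.subgroupOf K.fixingSubgroup).FiniteIndex
  have : Finite (↥K.fixingSubgroup ⧸ N) := Subgroup.finite_quotient_of_finiteIndex
  have : Fintype (↥K.fixingSubgroup ⧸ N) := Fintype.ofFinite _
  -- the summand
  let t : Qb → (↥K.fixingSubgroup ⧸ N) → Qb := fun θ c =>
    (((ψ c.out)⁻¹ : Qbˣ) : Qb) * ((c.out : ↥K.fixingSubgroup) : GQ) θ
  have ht : ∀ θ ∈ E, ∀ g : ↥K.fixingSubgroup,
      t θ (QuotientGroup.mk g) = (((ψ g)⁻¹ : Qbˣ) : Qb) * (g : GQ) θ := by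
    intro θ hθ g
    obtain ⟨n, hn⟩ := QuotientGroup.mk_out_eq_mul N g
    have hnE : ((n : ↥K.fixingSubgroup) : GQ) ∈ E.fixingSubgroup := Subgroup.mem_subgroupOf.mp n.2
    have hψn : ψ (n : ↥K.fixingSubgroup) = 1 := hψE _ hnE
    have hnθ : ((n : ↥K.fixingSubgroup) : GQ) θ = θ :=
      (IntermediateField.mem_fixingSubgroup_iff E _).mp hnE θ hθ
    simp only [t]
    rw [hn, map_mul, hψn, mul_one]
    congr 1
    show ((g * (n : ↥K.fixingSubgroup) : ↥K.fixingSubgroup) : GQ) θ = (g : GQ) θ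
    rw [Subgroup.coe_mul, AlgEquiv.mul_apply, hnθ]
  -- equivariance
  have hequiv : ∀ θ ∈ E, ∀ ρ : ↥K.fixingSubgroup,
      (ρ : GQ) (∑ c, t θ c) = ((ψ ρ : Qbˣ) : Qb) * ∑ c, t θ c := by
    intro θ hθ ρ
    rw [map_sum, Finset.mul_sum,
      ← Equiv.sum_comp (MulAction.toPerm ρ : (↥K.fixingSubgroup ⧸ N) ≃ (↥K.fixingSubgroup ⧸ N))
        (fun c => ((ψ ρ : Qbˣ) : Qb) * t θ c)]
    refine Finset.sum_congr rfl (fun c _ => ?_)
    have hc : (MulAction.toPerm ρ : (↥K.fixingSubgroup ⧸ N) ≃ (↥K.fixingSubgroup ⧸ N)) c = QuotientGroup.mk (ρ * c.out) := by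
      conv_lhs => rw [← QuotientGroup.out_eq' c]
      rfl
    rw [hc, ht θ hθ]
    have hfixψ : (ρ : GQ) ((((ψ c.out)⁻¹ : Qbˣ) : Qb)) = (((ψ c.out)⁻¹ : Qbˣ) : Qb) := by
      have hmem : ((((ψ c.out)⁻¹ : Qbˣ)) : Qb) ∈ K := by
        rw [← map_inv]
        exact hψK _
      exact (IntermediateField.mem_fixingSubgroup_iff K _).mp ρ.2 _ hmem
    have h1 : (ρ : GQ) (t θ c) = (((ψ c.out)⁻¹ : Qbˣ) : Qb) * (ρ : GQ) (((c.out : ↥K.fixingSubgroup) : GQ) θ) := by
      simp only [t]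
      rw [map_mul, hfixψ]
    have h2 : (((ψ (ρ * c.out))⁻¹ : Qbˣ) : Qb) =
        (((ψ c.out)⁻¹ : Qbˣ) : Qb) * (((ψ ρ)⁻¹ : Qbˣ) : Qb) := by
      rw [map_mul, mul_inv_rev, Units.val_mul]
    have h3 : ((ρ * c.out : ↥K.fixingSubgroup) : GQ) θ = (ρ : GQ) (((c.out : ↥K.fixingSubgroup) : GQ) θ) := by
      rw [Subgroup.coe_mul, AlgEquiv.mul_apply]
    have h4 : ((ψ ρ : Qbˣ) : Qb) * (((ψ ρ)⁻¹ : Qbˣ) : Qb) = 1 := by
      rw [← Units.val_mul, mul_inv_cancel, Units.val_one]
    rw [h1, h2, h3]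
    calc (((ψ c.out)⁻¹ : Qbˣ) : Qb) * (ρ : GQ) (((c.out : ↥K.fixingSubgroup) : GQ) θ)
        = (((ψ ρ : Qbˣ) : Qb) * (((ψ ρ)⁻¹ : Qbˣ) : Qb)) *
            ((((ψ c.out)⁻¹ : Qbˣ) : Qb) * (ρ : GQ) (((c.out : ↥K.fixingSubgroup) : GQ) θ)) := by
          rw [h4, one_mul]
      _ = _ := by ring
  -- nonvanishing
  have hne : ∃ θ ∈ E, ∑ c, t θ c ≠ 0 := by
    by_contra hall
    push Not at hall
    let χ : (↥K.fixingSubgroup ⧸ N) → (↥E →* Qb) := fun c =>
      ((((c.out : ↥K.fixingSubgroup) : GQ) : Qb ≃ₐ[ℚ] Qb) : Qb →* Qb).comp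
        ((algebraMap ↥E Qb : ↥E →+* Qb) : ↥E →* Qb)
    have hχ : ∀ c (x : ↥E), χ c x = ((c.out : ↥K.fixingSubgroup) : GQ) (x : Qb) := fun c x => rfl
    have hχinj : Function.Injective χ := by
      intro c c' h
      rw [← QuotientGroup.out_eq' c, ← QuotientGroup.out_eq' c', QuotientGroup.eq]
      show (c.out)⁻¹ * c'.out ∈ E.fixingSubgroup.subgroupOf K.fixingSubgroup
      rw [Subgroup.mem_subgroupOf, IntermediateField.mem_fixingSubgroup_iff]
      intro x hx
      have h1 : ((c.out : ↥K.fixingSubgroup) : GQ) x = ((c'.out : ↥K.fixingSubgroup) : GQ) x := by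
        have := DFunLike.congr_fun h ⟨x, hx⟩
        rwa [hχ, hχ] at this
      show ((c.out⁻¹ * c'.out : ↥K.fixingSubgroup) : GQ) x = x
      rw [Subgroup.coe_mul, Subgroup.coe_inv, AlgEquiv.mul_apply, ← h1]
      exact ((c.out : ↥K.fixingSubgroup) : GQ).symm_apply_apply x
    have hli := (linearIndependent_monoidHom ↥E Qb).comp χ hχinj
    have hzero : ∑ c, ((((ψ c.out)⁻¹ : Qbˣ) : Qb)) • ((fun f : ↥E →* Qb => (f : ↥E → Qb)) ∘ χ) c
        = 0 := by
      funext x
      simp only [Finset.sum_apply, Pi.smul_apply, smul_eq_mul, Pi.zero_apply, Function.comp_apply]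
      exact hall x x.2
    have := Fintype.linearIndependent_iff.mp hli _ hzero (QuotientGroup.mk 1)
    exact Units.ne_zero _ this
  obtain ⟨θ, hθ, hθ0⟩ := hne
  exact ⟨∑ c, t θ c, hθ0, fun g => hequiv θ hθ g⟩

/-- **Kummer generation.** Let `K ∋ ζ_p`. If `U` is open, contains the commutators and `p`-th
powers of `Gal(ℚ̄/K)`, and `σ ∈ Gal(ℚ̄/K)` is not in `U`, then there is `α` with `α ^ p ∈ K`,
fixed by `U ∩ Gal(ℚ̄/K)` and moved by `σ`. -/
theorem exists_kummer_generator {p : ℕ} [hp : Fact p.Prime] (K : IntermediateField ℚ Qb)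
    [FiniteDimensional ℚ K] {ζ : Qb} (hζ : IsPrimitiveRoot ζ p) (hζK : ζ ∈ K) (U : Subgroup GQ)
    (L' : IntermediateField ℚ Qb) [FiniteDimensional ℚ L'] (hL' : L'.fixingSubgroup ≤ U)
    (hcomm : ∀ σ ∈ K.fixingSubgroup, ∀ τ ∈ K.fixingSubgroup, σ * τ * σ⁻¹ * τ⁻¹ ∈ U)
    (hpow : ∀ σ ∈ K.fixingSubgroup, σ ^ p ∈ U)
    {σ : GQ} (hσK : σ ∈ K.fixingSubgroup) (hσU : σ ∉ U) :
    ∃ α : Qb, α ≠ 0 ∧ α ^ p ∈ K ∧ (∀ τ ∈ U, τ ∈ K.fixingSubgroup → τ α = α) ∧ σ α ≠ α := by
  classical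
  let H : Subgroup ↥K.fixingSubgroup := U.subgroupOf K.fixingSubgroup
  have hHmem : ∀ g : ↥K.fixingSubgroup, g ∈ H ↔ (g : GQ) ∈ U := fun g => Subgroup.mem_subgroupOf
  haveI hHn : H.Normal := ⟨fun h hh g => by
    rw [hHmem] at hh ⊢
    have h1 := hcomm g g.2 h h.2
    have : ((g * h * g⁻¹ : ↥K.fixingSubgroup) : GQ)
        = ((g : GQ) * h * (g : GQ)⁻¹ * (h : GQ)⁻¹) * h := by
      simp [mul_assoc]
    rw [this]
    exact U.mul_mem h1 hh⟩
  -- finite quotient
  let E : IntermediateField ℚ Qb := L' ⊔ K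
  have hEfin : FiniteDimensional ℚ E := IntermediateField.finiteDimensional_sup L' K
  have hidx : E.fixingSubgroup.index ≠ 0 := by
    rw [← IntermediateField.finrank_eq_fixingSubgroup_index]
    exact Module.finrank_pos.ne'
  have : E.fixingSubgroup.FiniteIndex := ⟨hidx⟩
  have hNH : E.fixingSubgroup.subgroupOf K.fixingSubgroup ≤ H := by
    intro g hg
    rw [hHmem]
    exact hL' (IntermediateField.fixingSubgroup_le le_sup_left (Subgroup.mem_subgroupOf.mp hg))
  have : (E.fixingSubgroup.subgroupOf K.fixingSubgroup).FiniteIndex := inferInstance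
  have : H.FiniteIndex := Subgroup.finiteIndex_of_le hNH
  have : Finite (↥K.fixingSubgroup ⧸ H) := Subgroup.finite_quotient_of_finiteIndex
  -- commutative group structure on the quotient
  letI : CommGroup (↥K.fixingSubgroup ⧸ H) :=
    { (inferInstance : Group (↥K.fixingSubgroup ⧸ H)) with
      mul_comm := by
        intro a b
        induction a using QuotientGroup.induction_on with
        | H a =>
          induction b using QuotientGroup.induction_on with
          | H b =>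
            rw [← QuotientGroup.mk_mul, ← QuotientGroup.mk_mul, QuotientGroup.eq, hHmem]
            have h1 := hcomm (b⁻¹ : ↥K.fixingSubgroup) (b⁻¹).2 (a⁻¹ : ↥K.fixingSubgroup) (a⁻¹).2
            simpa [mul_assoc] using h1 }
  have hexp : ∀ x : ↥K.fixingSubgroup ⧸ H, x ^ p = 1 := by
    intro x
    induction x using QuotientGroup.induction_on with
    | H g =>
      rw [← QuotientGroup.mk_pow, QuotientGroup.eq_one_iff, hHmem]
      exact hpow g g.2
  haveI : NeZero (Monoid.exponent (↥K.fixingSubgroup ⧸ H)) := ⟨Monoid.exponent_ne_zero_of_finite⟩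
  have hσ1 : (QuotientGroup.mk (⟨σ, hσK⟩ : ↥K.fixingSubgroup) : ↥K.fixingSubgroup ⧸ H) ≠ 1 := by
    rw [Ne, QuotientGroup.eq_one_iff, hHmem]
    exact hσU
  obtain ⟨φ, hφ⟩ :=
    CommGroup.exists_apply_ne_one_of_hasEnoughRootsOfUnity (↥K.fixingSubgroup ⧸ H) Qb hσ1
  let ψ : ↥K.fixingSubgroup →* Qbˣ := φ.comp (QuotientGroup.mk' H)
  have hψU : ∀ g : ↥K.fixingSubgroup, (g : GQ) ∈ U → ψ g = 1 := by
    intro g hg
    show φ (QuotientGroup.mk g) = 1
    rw [(QuotientGroup.eq_one_iff g).mpr ((hHmem g).mpr hg), map_one]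
  have hψp : ∀ g : ↥K.fixingSubgroup, (ψ g) ^ p = 1 := by
    intro g
    show (φ (QuotientGroup.mk g)) ^ p = 1
    rw [← map_pow, hexp, map_one]
  have hψK : ∀ g : ↥K.fixingSubgroup, ((ψ g : Qbˣ) : Qb) ∈ K := by
    intro g
    have h1 : ((ψ g : Qbˣ) : Qb) ^ p = 1 := by
      rw [← Units.val_pow_eq_pow_val, hψp, Units.val_one]
    haveI : NeZero p := ⟨hp.out.ne_zero⟩
    obtain ⟨i, -, hi⟩ := hζ.eq_pow_of_pow_eq_one h1
    rw [← hi]
    exact pow_mem hζK i
  obtain ⟨α, hα0, hα⟩ := exists_resolvent K E ψ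
    (fun g hg => hψU g (hL' (IntermediateField.fixingSubgroup_le le_sup_left hg))) hψK
  refine ⟨α, hα0, ?_, ?_, ?_⟩
  · rw [← InfiniteGalois.fixedField_fixingSubgroup K, IntermediateField.mem_fixedField_iff]
    intro τ hτ
    have h1 := hα ⟨τ, hτ⟩
    rw [map_pow]
    show (τ α) ^ p = α ^ p
    have h2 : τ α = ((ψ ⟨τ, hτ⟩ : Qbˣ) : Qb) * α := h1
    rw [h2, mul_pow, ← Units.val_pow_eq_pow_val, hψp, Units.val_one, one_mul]
  · intro τ hτU hτK
    have h1 : τ α = ((ψ ⟨τ, hτK⟩ : Qbˣ) : Qb) * α := hα ⟨τ, hτK⟩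
    rw [hψU ⟨τ, hτK⟩ hτU, Units.val_one, one_mul] at h1
    exact h1
  · intro h
    have h1 : σ α = ((ψ ⟨σ, hσK⟩ : Qbˣ) : Qb) * α := hα ⟨σ, hσK⟩
    rw [h] at h1
    have h2 : ((ψ ⟨σ, hσK⟩ : Qbˣ) : Qb) = 1 := by
      have h3 : (1 : Qb) * α = ((ψ ⟨σ, hσK⟩ : Qbˣ) : Qb) * α := by rw [one_mul]; exact h1
      exact (mul_right_cancel₀ hα0 h3).symm
    exact hφ (Units.ext h2)

/-! ## Part C: unramified Kummer generators lie in the Selmer group -/

/-- If all inertia groups at primes not dividing `N` fix `α` and `α ^ p = x ∈ Kˣ`, then `x` lies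
in `Kum(S)` for every set `S` of primes of `K` containing those dividing `N`. -/
theorem mem_kumS_of_unramified {p : ℕ} (K : IntermediateField ℚ Qb) [FiniteDimensional ℚ K]
    {N : ℕ} (hN : N ≠ 0) {α : Qb}
    (hunr : ∀ ℓ : ℕ, ℓ.Prime → ¬ ℓ ∣ N → ∀ A : ValuationSubring Qb, A.LiesOverPrime ℓ →
      ∀ σ ∈ A.inertiaSubgroupIn ℚ, σ α = α)
    (S : Set (HeightOneSpectrum (𝓞 K)))
    (hS : ∀ v : HeightOneSpectrum (𝓞 K), ((N : ℕ) : 𝓞 K) ∈ v.asIdeal → v ∈ S)
    (x : Kˣ) (hx : α ^ p = algebraMap K Qb (x : K)) :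
    x ∈ Fermat.Agent.S55.helper9292.kumS (𝓞 K) K S p := by
  classical
  rw [Fermat.Agent.S55.helper9292.mem_kumS_iff_count]
  intro v hv
  obtain ⟨ℓ, A, hℓ, hA, hPA⟩ := helper54.exists_valuationSubring_primeOL_eq K v.asIdeal v.ne_bot
  have hℓN : ¬ ℓ ∣ N := by
    rintro ⟨m, rfl⟩
    apply hv
    apply hS
    rw [← hPA, Nat.cast_mul]
    exact Ideal.mul_mem_right _ _ (helper54.natCast_mem_primeOL K A hA)
  let SN : Finset Nat.Primes := N.primeFactors.subtype Nat.Prime
  have hSN : ∀ q : Nat.Primes, q ∉ SN → ¬ (q : ℕ) ∣ N := by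
    intro q hq hdvd
    apply hq
    exact Finset.mem_subtype.mpr (Nat.mem_primeFactors.mpr ⟨q.2, hdvd, hN⟩)
  have hF : (IntermediateField.adjoin ℚ ({α} : Set Qb)).IsUnramifiedOutside SN :=
    Fermat.Agent.S55.helper4039.isUnramifiedOutside_adjoin_of_forall (Set.finite_singleton α)
      (fun q hq A' hA' σ hσ y hy => by
        rw [Set.mem_singleton_iff] at hy
        subst hy
        exact hunr q q.2 (hSN q hq) A' hA' σ hσ)
  have hL := Fermat.Agent.S55.helper4709.isUnramifiedOutside_normalClosure hF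
  haveI : FiniteDimensional ℚ
      (IntermediateField.normalClosure ℚ (IntermediateField.adjoin ℚ ({α} : Set Qb)) Qb) := hL.1
  haveI : IsGalois ℚ
      (IntermediateField.normalClosure ℚ (IntermediateField.adjoin ℚ ({α} : Set Qb)) Qb) :=
    Fermat.Agent.S55.helper4709.isGalois_normalClosure _
  have hαL : α ∈ IntermediateField.normalClosure ℚ (IntermediateField.adjoin ℚ ({α} : Set Qb)) Qb :=
    IntermediateField.le_normalClosure _ (IntermediateField.mem_adjoin_simple_self ℚ α)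
  have hI : A.inertiaSubgroupIn ℚ ≤
      (IntermediateField.normalClosure ℚ
        (IntermediateField.adjoin ℚ ({α} : Set Qb)) Qb).fixingSubgroup :=
    hL.2 ⟨ℓ, hℓ⟩ (fun h => hℓN ((Nat.mem_primeFactors.mp (Finset.mem_subtype.mp h)).2.1)) A hA
  obtain ⟨k, hk⟩ := helper54.exists_heightOneOL_valuation_eq_exp_mul K _ hℓ A hA hI p (x : K)
    x.ne_zero α hαL hx
  have hv' : helper54.heightOneOL K hℓ A hA = v := HeightOneSpectrum.ext hPA
  rw [hv', Fermat.Agent.S55.helper9292.valuation_eq_exp_neg_count v x.ne_zero,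
    WithZero.exp_inj] at hk
  exact ⟨-k, by rw [mul_neg, ← hk, neg_neg]⟩

/-- Finiteness of `Kum(S) / Kˣᵖ`: a finite set of representatives. -/
theorem exists_finite_reps {p : ℕ} [hp : Fact p.Prime] (K : IntermediateField ℚ Qb)
    [FiniteDimensional ℚ K] {ζ : Qb} (hζ : IsPrimitiveRoot ζ p) (hζK : ζ ∈ K)
    (S : Finset (HeightOneSpectrum (𝓞 K))) :
    ∃ T : Finset Kˣ, ∀ x ∈ Fermat.Agent.S55.helper9292.kumS (𝓞 K) K
        (S : Set (HeightOneSpectrum (𝓞 K))) p, ∃ t ∈ T, ∃ z : Kˣ, x = t * z ^ p := by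
  classical
  have hζ' : IsPrimitiveRoot (⟨ζ, hζK⟩ : K) p :=
    IsPrimitiveRoot.coe_submonoidClass_iff.mp hζ
  have hrel := Fermat.Agent.S55.helper9292.relIndex_powSub_kumS_numberField S hp.out.ne_zero hζ'
  have hcl : Fermat.Agent.S55.helper9292.clSModCard (𝓞 K) K
      (S : Set (HeightOneSpectrum (𝓞 K))) p ≠ 0 := by
    rw [← Fermat.Agent.S55.helper9292.card_ClSModP]
    exact Nat.card_pos.ne'
  have hne : (Fermat.Agent.S55.helper9292.powSub Kˣ p).relIndex
      (Fermat.Agent.S55.helper9292.kumS (𝓞 K) K (S : Set (HeightOneSpectrum (𝓞 K))) p) ≠ 0 := by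
    rw [hrel]
    exact mul_ne_zero (pow_ne_zero _ hp.out.ne_zero) hcl
  haveI : ((Fermat.Agent.S55.helper9292.powSub Kˣ p).subgroupOf
      (Fermat.Agent.S55.helper9292.kumS (𝓞 K) K
        (S : Set (HeightOneSpectrum (𝓞 K))) p)).FiniteIndex := ⟨hne⟩
  haveI : Finite (↥(Fermat.Agent.S55.helper9292.kumS (𝓞 K) K
      (S : Set (HeightOneSpectrum (𝓞 K))) p) ⧸
      ((Fermat.Agent.S55.helper9292.powSub Kˣ p).subgroupOf
      (Fermat.Agent.S55.helper9292.kumS (𝓞 K) K
        (S : Set (HeightOneSpectrum (𝓞 K))) p))) := Subgroup.finite_quotient_of_finiteIndex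
  haveI : Fintype (↥(Fermat.Agent.S55.helper9292.kumS (𝓞 K) K
      (S : Set (HeightOneSpectrum (𝓞 K))) p) ⧸
      ((Fermat.Agent.S55.helper9292.powSub Kˣ p).subgroupOf
      (Fermat.Agent.S55.helper9292.kumS (𝓞 K) K
        (S : Set (HeightOneSpectrum (𝓞 K))) p))) := Fintype.ofFinite _
  refine ⟨Finset.univ.image (fun q : (↥(Fermat.Agent.S55.helper9292.kumS (𝓞 K) K
      (S : Set (HeightOneSpectrum (𝓞 K))) p) ⧸
      ((Fermat.Agent.S55.helper9292.powSub Kˣ p).subgroupOf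
      (Fermat.Agent.S55.helper9292.kumS (𝓞 K) K
        (S : Set (HeightOneSpectrum (𝓞 K))) p))) => ((q.out : ↥(Fermat.Agent.S55.helper9292.kumS
          (𝓞 K) K (S : Set (HeightOneSpectrum (𝓞 K))) p)) : Kˣ)), ?_⟩
  intro x hx
  refine ⟨_, Finset.mem_image_of_mem _ (Finset.mem_univ (QuotientGroup.mk ⟨x, hx⟩)), ?_⟩
  have h1 := QuotientGroup.eq.mp (QuotientGroup.out_eq'
    (QuotientGroup.mk (s := (Fermat.Agent.S55.helper9292.powSub Kˣ p).subgroupOf
      (Fermat.Agent.S55.helper9292.kumS (𝓞 K) K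
        (S : Set (HeightOneSpectrum (𝓞 K))) p)) ⟨x, hx⟩))
  rw [Subgroup.mem_subgroupOf, Fermat.Agent.S55.helper9292.mem_powSub] at h1
  obtain ⟨z, hz⟩ := h1
  refine ⟨z, ?_⟩
  rw [hz]
  simp

/-! ## The finiteness theorem -/

/-- **Finiteness of the maximal abelian extension of exponent `p` unramified outside `M`** over
every number field inside `ℚ̄` (the classical input of the weak Mordell–Weil theorem). -/
theorem expUnramifiedBound (p M : ℕ) [hp : Fact p.Prime] (hM : M ≠ 0) :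
    Fermat.Agent.S17.helper9541.ExpUnramifiedBound p M := by
  classical
  intro K0 hK0
  haveI : NeZero p := ⟨hp.out.ne_zero⟩
  obtain ⟨ζ, hζ⟩ := HasEnoughRootsOfUnity.exists_primitiveRoot Qb p
  have hζfin : FiniteDimensional ℚ (IntermediateField.adjoin ℚ ({ζ} : Set Qb)) :=
    IntermediateField.finiteDimensional_adjoin
      (fun x _ => Fermat.Agent.S55.helper4039.isIntegral_Qbar x)
  obtain ⟨K, hK⟩ : ∃ K : IntermediateField ℚ Qb,
      K = K0 ⊔ IntermediateField.adjoin ℚ ({ζ} : Set Qb) := ⟨_, rfl⟩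
  have hKfin : FiniteDimensional ℚ K := by
    rw [hK]
    exact IntermediateField.finiteDimensional_sup _ _
  have hK0K : K0 ≤ K := by
    rw [hK]
    exact le_sup_left
  have hζK : ζ ∈ K := by
    rw [hK]
    exact (le_sup_right : _ ≤ K0 ⊔ IntermediateField.adjoin ℚ ({ζ} : Set Qb))
      (IntermediateField.mem_adjoin_simple_self ℚ ζ)
  have hfixle : K.fixingSubgroup ≤ K0.fixingSubgroup := IntermediateField.fixingSubgroup_le hK0K
  obtain ⟨D, hD0, hD⟩ := exists_nat_inertia_le_fixingSubgroup K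
  have hN0 : M * D ≠ 0 := mul_ne_zero hM hD0
  -- the finite set of bad primes of `K`
  have hIne : Ideal.span {((M * D : ℕ) : 𝓞 K)} ≠ 0 := by
    rw [Ne, Ideal.zero_eq_bot, Ideal.span_singleton_eq_bot]
    exact Nat.cast_ne_zero.mpr hN0
  obtain ⟨T, hT⟩ := exists_finite_reps K hζ hζK (Ideal.finite_factors hIne).toFinset
  have hS : ∀ v : HeightOneSpectrum (𝓞 K), ((M * D : ℕ) : 𝓞 K) ∈ v.asIdeal →
      v ∈ (((Ideal.finite_factors hIne).toFinset : Finset (HeightOneSpectrum (𝓞 K))) :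
        Set (HeightOneSpectrum (𝓞 K))) := by
    intro v hv
    rw [Finset.mem_coe, Set.Finite.mem_toFinset, Set.mem_ofPred_eq, Ideal.dvd_iff_le,
      Ideal.span_singleton_le_iff_mem]
    exact hv
  -- the finite set of `p`-th roots of the representatives
  let Rf : Finset Qb :=
    insert ζ (T.biUnion (fun t => (Polynomial.nthRoots p (algebraMap K Qb (t : K))).toFinset))
  have hRf : ∀ β : Qb, ∀ t ∈ T, β ^ p = algebraMap K Qb (t : K) → β ∈ Rf := by
    intro β t ht hβ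
    refine Finset.mem_insert_of_mem (Finset.mem_biUnion.mpr ⟨t, ht, ?_⟩)
    rw [Multiset.mem_toFinset, Polynomial.mem_nthRoots hp.out.pos]
    exact hβ
  have hLfin : FiniteDimensional ℚ (IntermediateField.adjoin ℚ (Rf : Set Qb)) :=
    IntermediateField.finiteDimensional_adjoin
      (fun x _ => Fermat.Agent.S55.helper4039.isIntegral_Qbar x)
  refine ⟨IntermediateField.adjoin ℚ (Rf : Set Qb), hLfin, ?_⟩
  rintro U ⟨L', hL'fin, hL'U⟩ hcomm hpow hinert σ ⟨hσL, hσK0⟩
  by_contra hσU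
  have hσL' : ∀ β ∈ Rf, σ β = β := fun β hβ =>
    (IntermediateField.mem_fixingSubgroup_iff _ σ).mp hσL β
      (IntermediateField.subset_adjoin ℚ _ (Finset.mem_coe.mpr hβ))
  have hσK : σ ∈ K.fixingSubgroup := by
    rw [hK, IntermediateField.fixingSubgroup_sup]
    refine ⟨hσK0, Fermat.Agent.S55.helper4039.mem_fixingSubgroup_adjoin ?_⟩
    intro y hy
    rw [Set.mem_singleton_iff] at hy
    subst hy
    exact hσL' _ (Finset.mem_insert_self _ _)
  obtain ⟨α, hα0, hαp, hαU, hσα⟩ := exists_kummer_generator K hζ hζK U L' hL'U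
    (fun σ hσ τ hτ => hcomm σ (hfixle hσ) τ (hfixle hτ)) (fun σ hσ => hpow σ (hfixle hσ))
    hσK hσU
  have hunr : ∀ ℓ : ℕ, ℓ.Prime → ¬ ℓ ∣ M * D → ∀ A : ValuationSubring Qb, A.LiesOverPrime ℓ →
      ∀ τ ∈ A.inertiaSubgroupIn ℚ, τ α = α := by
    intro ℓ hℓ hndvd A hA τ hτ
    have hτK : τ ∈ K.fixingSubgroup :=
      hD ℓ hℓ (fun h => hndvd (h.trans (dvd_mul_left D M))) A hA hτ
    have hτU : τ ∈ U :=
      hinert ℓ hℓ (fun h => hndvd (h.trans (dvd_mul_right M D))) A hA τ hτ (hfixle hτK)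
    exact hαU τ hτU hτK
  have hx0 : (⟨α ^ p, hαp⟩ : K) ≠ 0 := by
    intro h
    exact pow_ne_zero p hα0 (congrArg Subtype.val h)
  have hxS := mem_kumS_of_unramified K hN0 hunr _ hS (Units.mk0 (⟨α ^ p, hαp⟩ : K) hx0) rfl
  obtain ⟨t, htT, z, hxz⟩ := hT _ hxS
  have hz0 : algebraMap K Qb (z : K) ≠ 0 := by
    rw [Ne, map_eq_zero]
    exact z.ne_zero
  have hαz : α ^ p = algebraMap K Qb (t : K) * (algebraMap K Qb (z : K)) ^ p := by
    have h1 := congrArg (fun u : Kˣ => algebraMap K Qb (u : K)) hxz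
    simp only [Units.val_mul, Units.val_pow_eq_pow_val, map_mul, map_pow, Units.val_mk0] at h1
    exact h1
  have hβ : (α / algebraMap K Qb (z : K)) ^ p = algebraMap K Qb (t : K) := by
    rw [div_pow, hαz, mul_div_assoc, div_self (pow_ne_zero p hz0), mul_one]
  have hσβ := hσL' _ (hRf _ t htT hβ)
  have hσz : σ (algebraMap K Qb (z : K)) = algebraMap K Qb (z : K) :=
    (IntermediateField.mem_fixingSubgroup_iff K σ).mp hσK _ (z : K).2
  apply hσα
  have h2 : α = (α / algebraMap K Qb (z : K)) * algebraMap K Qb (z : K) := by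
    rw [div_mul_cancel₀ _ hz0]
  calc σ α = σ ((α / algebraMap K Qb (z : K)) * algebraMap K Qb (z : K)) := by rw [← h2]
    _ = (α / algebraMap K Qb (z : K)) * algebraMap K Qb (z : K) := by
        rw [map_mul, hσβ, hσz]
    _ = α := h2.symm

end Fermat.Agent.S17.helper969
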